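import Mathlib
import Fermat.Prelude.Def_GaloisRep_Flat

/-
Programme T, chapter FLAT, file Points6 (F0.1): the points functor of a commutative Hopf
algebra, as a (Galois) module.

MODEL.  A finite flat commutative group scheme over a commutative ring `R` is a type `H` with
`[CommRing H] [HopfAlgebra R H] [Module.Finite R H] [Module.Flat R H] [Coalgebra.IsCocomm R H]`;
its points in a commutative `R`-algebra `B` are `WithConv (H →ₐ[R] B)` (convolution product).

WARNING about Mathlib: `AlgHom.convGroup : Group (WithConv (A →ₐ[R] C))` asks for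
`[Bialgebra R C]` on the TARGET, so it does not apply to `C = AlgebraicClosure ℚ`.  For a plain
commutative algebra Mathlib only has the `Monoid` / `CommMonoid` instances.  This file supplies

* `ptsInv`, `ptsGroup : Group (WithConv (H →ₐ[R] B))`, `ptsCommGroup` (if `IsCocomm R H`),
  for `[CommSemiring R] [CommSemiring H] [HopfAlgebra R H] [CommSemiring B] [Algebra R B]`;
  the monoid part is Mathlib's instance and `f⁻¹ = f ∘ antipode` is the same expression as
  Mathlib's `AlgHom.convInv`; `inv_apply : f⁻¹ h = f (antipode R h)`;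
  `mul_apply_repr : (f * g) h = ∑ i ∈ r.index, f (r.left i) * g (r.right i)` for
  `r : Coalgebra.Repr R h ι`; `pts_ext`.
* `mapB (φ : B →ₐ[R] B') : WithConv (H →ₐ[R] B) →* WithConv (H →ₐ[R] B')`, `f ↦ φ ∘ f`
  (`mapB_apply`, `mapB_id`, `mapB_comp`, `mapB_injective` for injective `φ`).
* `mapH (ψ : H →ₐc[R] H') : WithConv (H' →ₐ[R] B) →* WithConv (H →ₐ[R] B)`, `f ↦ f ∘ ψ`
  (`mapH_apply`, `mapH_id`, `mapH_comp`, `mapH_mapB`, `mapH_injective` for surjective `ψ`).
* Galois action: for a monoid `Γ` with `[MulSemiringAction Γ B] [SMulCommClass Γ R B]`,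
  `ptsMulDistribMulAction : MulDistribMulAction Γ (WithConv (H →ₐ[R] B))`, `(σ • f) h = σ • f h`
  (`smul_apply`), `smul_eq_iff : σ • f = g ↔ ∀ h, g h = σ • f h`, `mapH_smul`, `mapB_smul`.
  For `Γ = (B ≃ₐ[K] B)` with `[Algebra R K] [IsScalarTower R K B]` the needed
  `SMulCommClass (B ≃ₐ[K] B) R B` is the instance `algEquiv_smulCommClass`, and
  `algEquiv_smul_apply : (σ • f) h = σ (f h)`, `algEquiv_smul_eq_iff`.
* finiteness: `pts_finite : Finite (WithConv (H →ₐ[R] B))` for `B` a domain and `H` module-finite;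
  `card_pts_le_finrank : Nat.card (WithConv (H →ₐ[R] B)) ≤ Module.finrank R H` (`H` finite free);
  `mapB_bijective_of_isAlgClosed`: for fields `Ω` (algebraically closed) and `L`, and
  `φ : Ω →ₐ[R] L`, the map `G(Ω) → G(L)` is bijective (`H` module-finite over `R`).
* `HasFlatModel R Ω Γ M act : Prop` — the `Γ`-module `M` is the group of `Ω`-points of a finite
  flat commutative cocommutative Hopf algebra over `R`, equivariantly (verbatim the Prelude's
  shape); `HasFlatModel.of_addEquiv` (transport along equivariant isomorphisms),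
  `hasFlatModel_iff_mulEquiv` (same with `e : G(Ω) ≃* Multiplicative M`).
* `isFlatAt_iff : ρ.IsFlatAt p ↔ Finite (ResidueField A) ∧ ∀ I, Finite (A ⧸ I) →
    HasFlatModel (ratLocalizedAt p) ℚ̄ G_ℚ (V ⧸ I V) (levelAction I)`.
-/

namespace Fermat.Agent.TW.FLAT.Points6

open WithConv TensorProduct

noncomputable section

section Group

variable {R : Type*} [CommSemiring R] {H : Type*} [CommSemiring H] [HopfAlgebra R H]
  {B : Type*} [CommSemiring B] [Algebra R B]

/-- Inverse of a point: precomposition with the antipode (same expression as Mathlib's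
`AlgHom.convInv`, which however needs a bialgebra structure on the target). -/
instance ptsInv : Inv (WithConv (H →ₐ[R] B)) where
  inv f := toConv <| f.ofConv.comp (HopfAlgebra.antipodeAlgHom R H)

lemma inv_def (f : WithConv (H →ₐ[R] B)) :
    f⁻¹ = toConv (f.ofConv.comp (HopfAlgebra.antipodeAlgHom R H)) := rfl

@[simp] lemma inv_apply (f : WithConv (H →ₐ[R] B)) (h : H) :
    f⁻¹ h = f (HopfAlgebra.antipode R h) := rfl

/-- The group of `B`-points of a commutative Hopf algebra, for a plain commutative `R`-algebra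
`B` (Mathlib's `AlgHom.convGroup` asks for a bialgebra structure on `B`). -/
instance ptsGroup : Group (WithConv (H →ₐ[R] B)) where
  inv_mul_cancel f := by
    have H' : (Algebra.TensorProduct.lmul' R).comp
        (Algebra.TensorProduct.map f.ofConv f.ofConv) =
      f.ofConv.comp (Algebra.TensorProduct.lmul' R) := by ext <;> simp
    trans toConv <| ((Algebra.TensorProduct.lmul' R).comp
      (Algebra.TensorProduct.map f.ofConv f.ofConv)).comp
      ((Algebra.TensorProduct.map
      (HopfAlgebra.antipodeAlgHom R H) (.id _ _)).comp (Bialgebra.comulAlgHom R H))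
    · rw [AlgHom.comp_assoc, ← AlgHom.comp_assoc (Algebra.TensorProduct.map f.ofConv f.ofConv),
        ← Algebra.TensorProduct.map_comp]; rfl
    rw [H', AlgHom.comp_assoc, WithConv.ext_iff, ← AlgHom.toLinearMap_injective.eq_iff]
    change f.ofConv.toLinearMap.comp
        (toConv (HopfAlgebra.antipode R (A := H)) * toConv LinearMap.id).ofConv =
      ofConv (1 : WithConv <| H →ₗ[R] B)
    rw [LinearMap.antipode_mul_id]
    ext
    simp

instance ptsCommGroup [Coalgebra.IsCocomm R H] : CommGroup (WithConv (H →ₐ[R] B)) where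
  mul_comm := mul_comm

/-- pointwise formula for the product, via a representation of `comul h`. -/
lemma mul_apply_repr (f g : WithConv (H →ₐ[R] B)) {h : H} {ι : Type*}
    (r : Coalgebra.Repr R h ι) :
    (f * g) h = ∑ i ∈ r.index, f (r.left i) * g (r.right i) := by
  rw [AlgHom.convMul_apply, ← r.eq, map_sum]
  simp

@[ext] lemma pts_ext {f g : WithConv (H →ₐ[R] B)} (h : ∀ x : H, f x = g x) : f = g :=
  WithConv.ext (AlgHom.ext h)

end Group

section Functoriality

variable {R : Type*} [CommSemiring R] {H : Type*} [CommSemiring H] [HopfAlgebra R H]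
  {H' : Type*} [CommSemiring H'] [HopfAlgebra R H']
  {H'' : Type*} [CommSemiring H''] [HopfAlgebra R H'']
  {B : Type*} [CommSemiring B] [Algebra R B] {B' : Type*} [CommSemiring B'] [Algebra R B']
  {B'' : Type*} [CommSemiring B''] [Algebra R B'']

/-- Functoriality of points in the algebra of values: `φ : B →ₐ[R] B'` gives
`G(B) →* G(B')`, `f ↦ φ ∘ f`. -/
def mapB (φ : B →ₐ[R] B') : WithConv (H →ₐ[R] B) →* WithConv (H →ₐ[R] B') where
  toFun f := toConv (φ.comp f.ofConv)
  map_one' := by
    apply WithConv.ext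
    ext x
    simp [AlgHom.convOne_def]
  map_mul' f g := by
    apply WithConv.ext
    exact AlgHom.comp_convMul_distrib φ f g

@[simp] lemma mapB_apply (φ : B →ₐ[R] B') (f : WithConv (H →ₐ[R] B)) (h : H) :
    mapB φ f h = φ (f h) := rfl

lemma mapB_id (f : WithConv (H →ₐ[R] B)) : mapB (AlgHom.id R B) f = f := rfl

lemma mapB_comp (ψ : B' →ₐ[R] B'') (φ : B →ₐ[R] B') (f : WithConv (H →ₐ[R] B)) :
    mapB (ψ.comp φ) f = mapB ψ (mapB φ f) := rfl

lemma mapB_injective {φ : B →ₐ[R] B'} (hφ : Function.Injective φ) :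
    Function.Injective (mapB (H := H) φ) := by
  intro f g hfg
  ext x
  apply hφ
  have := congrArg (fun k : WithConv (H →ₐ[R] B') => k x) hfg
  simpa using this

/-- Functoriality of points in the Hopf algebra (contravariant): a bialgebra hom
`ψ : H →ₐc[R] H'` gives `G_{H'}(B) →* G_H(B)`, `f ↦ f ∘ ψ`. -/
def mapH (ψ : H →ₐc[R] H') : WithConv (H' →ₐ[R] B) →* WithConv (H →ₐ[R] B) where
  toFun f := toConv (f.ofConv.comp (ψ : H →ₐ[R] H'))
  map_one' := by
    apply WithConv.ext
    ext x
    simp [AlgHom.convOne_def]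
  map_mul' f g := by
    apply WithConv.ext
    exact AlgHom.convMul_comp_bialgHom_distrib f g ψ

@[simp] lemma mapH_apply (ψ : H →ₐc[R] H') (f : WithConv (H' →ₐ[R] B)) (h : H) :
    mapH ψ f h = f (ψ h) := rfl

lemma mapH_id (f : WithConv (H →ₐ[R] B)) : mapH (BialgHom.id R H) f = f := rfl

lemma mapH_comp (ψ' : H' →ₐc[R] H'') (ψ : H →ₐc[R] H') (f : WithConv (H'' →ₐ[R] B)) :
    mapH (ψ'.comp ψ) f = mapH ψ (mapH ψ' f) := rfl

lemma mapH_mapB (ψ : H →ₐc[R] H') (φ : B →ₐ[R] B') (f : WithConv (H' →ₐ[R] B)) :
    mapH ψ (mapB φ f) = mapB φ (mapH ψ f) := rfl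

lemma mapH_injective {ψ : H →ₐc[R] H'} (hψ : Function.Surjective ψ) :
    Function.Injective (mapH (B := B) ψ) := by
  intro f g hfg
  ext x
  obtain ⟨y, rfl⟩ := hψ x
  have := congrArg (fun k : WithConv (H →ₐ[R] B) => k y) hfg
  simpa using this

end Functoriality

section GaloisAction

variable {R : Type*} [CommSemiring R] {H : Type*} [CommSemiring H] [HopfAlgebra R H]
  {H' : Type*} [CommSemiring H'] [HopfAlgebra R H']
  {B : Type*} [CommSemiring B] [Algebra R B] {B' : Type*} [CommSemiring B'] [Algebra R B']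
  {Γ : Type*} [Monoid Γ] [MulSemiringAction Γ B] [SMulCommClass Γ R B]

/-- A monoid `Γ` acting on `B` by `R`-algebra endomorphisms acts on the points `G(B)` by
`σ • f = σ ∘ f`. -/
instance ptsSMul : SMul Γ (WithConv (H →ₐ[R] B)) where
  smul σ f := mapB (MulSemiringAction.toAlgHom R B σ) f

lemma smul_def (σ : Γ) (f : WithConv (H →ₐ[R] B)) :
    σ • f = mapB (MulSemiringAction.toAlgHom R B σ) f := rfl

@[simp] lemma smul_apply (σ : Γ) (f : WithConv (H →ₐ[R] B)) (h : H) :
    (σ • f) h = σ • f h := rfl

/-- The action of `Γ` on `G(B)` is by group automorphisms. -/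
instance ptsMulDistribMulAction : MulDistribMulAction Γ (WithConv (H →ₐ[R] B)) where
  one_smul f := by ext h; simp
  mul_smul σ τ f := by ext h; simp [mul_smul]
  smul_mul σ f g := map_mul (mapB (MulSemiringAction.toAlgHom R B σ)) f g
  smul_one σ := map_one (mapB (MulSemiringAction.toAlgHom R B σ))

/-- `σ • f = g` iff `g h = σ • f h` for all `h` (the phrasing of the Prelude's `IsFlatAt`). -/
lemma smul_eq_iff (σ : Γ) (f g : WithConv (H →ₐ[R] B)) :
    σ • f = g ↔ ∀ h : H, g h = σ • f h := by
  constructor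
  · rintro rfl h; rfl
  · intro hg; ext h; exact (hg h).symm

/-- The Galois action commutes with functoriality in the Hopf algebra. -/
lemma mapH_smul (ψ : H →ₐc[R] H') (σ : Γ) (f : WithConv (H' →ₐ[R] B)) :
    mapH ψ (σ • f) = σ • mapH ψ f := rfl

/-- The Galois action commutes with functoriality along equivariant algebra maps. -/
lemma mapB_smul [MulSemiringAction Γ B'] [SMulCommClass Γ R B'] (φ : B →ₐ[R] B')
    (hφ : ∀ (σ : Γ) (b : B), φ (σ • b) = σ • φ b) (σ : Γ) (f : WithConv (H →ₐ[R] B)) :
    mapB φ (σ • f) = σ • mapB φ f := by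
  ext h
  simp [hφ]

end GaloisAction

section AlgEquivAction

variable {R : Type*} [CommSemiring R] {K : Type*} [CommSemiring K] [Algebra R K]
  {H : Type*} [CommSemiring H] [HopfAlgebra R H]
  {B : Type*} [CommSemiring B] [Algebra R B] [Algebra K B] [IsScalarTower R K B]

/-- `K`-algebra automorphisms of `B` commute with the scalars from a smaller base `R`. -/
instance algEquiv_smulCommClass : SMulCommClass (B ≃ₐ[K] B) R B where
  smul_comm σ r b := by
    rw [AlgEquiv.smul_def, AlgEquiv.smul_def, Algebra.smul_def, Algebra.smul_def, map_mul,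
      IsScalarTower.algebraMap_apply R K B, AlgEquiv.commutes]

@[simp] lemma algEquiv_smul_apply (σ : B ≃ₐ[K] B) (f : WithConv (H →ₐ[R] B)) (h : H) :
    (σ • f) h = σ (f h) := rfl

lemma algEquiv_smul_eq_iff (σ : B ≃ₐ[K] B) (f g : WithConv (H →ₐ[R] B)) :
    σ • f = g ↔ ∀ h : H, g h = σ (f h) :=
  smul_eq_iff σ f g

end AlgEquivAction

section Finite

variable {R : Type*} [CommRing R] {H : Type*} [CommRing H] [HopfAlgebra R H]

/-- The points of a module-finite Hopf algebra in a domain form a finite group. -/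
instance pts_finite {B : Type*} [CommRing B] [IsDomain B] [Algebra R B] [Module.Finite R H] :
    Finite (WithConv (H →ₐ[R] B)) := by
  have h1 : Function.Injective
      (mapB (H := H) (IsScalarTower.toAlgHom R B (FractionRing B))) :=
    mapB_injective (IsFractionRing.injective B (FractionRing B))
  have : Finite (WithConv (H →ₐ[R] FractionRing B)) :=
    Finite.of_equiv _ (WithConv.equiv _).symm
  exact Finite.of_injective _ h1

/-- The number of points in a domain is at most the rank, for a finite free Hopf algebra. -/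
lemma card_pts_le_finrank {B : Type*} [CommRing B] [IsDomain B] [Algebra R B]
    [Module.Finite R H] [Module.Free R H] :
    Nat.card (WithConv (H →ₐ[R] B)) ≤ Module.finrank R H := by
  rw [Nat.card_congr (WithConv.equiv _)]
  exact card_algHom_le_finrank R H B

/-- Points in an algebraically closed field `Ω` do not grow in a bigger field `L`:
for `φ : Ω →ₐ[R] L` the map `G(Ω) → G(L)` is bijective (`H` module-finite over `R`). -/
lemma mapB_bijective_of_isAlgClosed {Ω L : Type*} [Field Ω] [IsAlgClosed Ω] [Field L]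
    [Algebra R Ω] [Algebra R L] [Module.Finite R H] (φ : Ω →ₐ[R] L) :
    Function.Bijective (mapB (H := H) φ) := by
  refine ⟨mapB_injective φ.injective, fun f => ?_⟩
  have hmem : ∀ h : H, f h ∈ φ.range := by
    intro h
    have hint : IsIntegral R (f h) :=
      (Algebra.IsIntegral.isIntegral (R := R) h).map f.ofConv
    exact hint.mem_range_algHom_of_minpoly_splits (IsAlgClosed.splits _) φ
  let e : Ω ≃ₐ[R] φ.range := AlgEquiv.ofInjective φ φ.injective
  let f' : H →ₐ[R] φ.range := f.ofConv.codRestrict φ.range hmem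
  refine ⟨toConv ((e.symm : φ.range →ₐ[R] Ω).comp f'), ?_⟩
  ext h
  change φ (e.symm (f' h)) = f h
  have : φ (e.symm (f' h)) = ((e (e.symm (f' h)) : φ.range) : L) := rfl
  rw [this, AlgEquiv.apply_symm_apply]
  rfl

end Finite

section Model

/-- `HasFlatModel R Ω Γ M act`: the `Γ`-module `M` (additive, `Γ` acting through `act`) is
the group of `Ω`-points of a finite flat commutative group scheme over `R`, i.e. of a
commutative, cocommutative Hopf algebra `H` over `R`, finite and flat as an `R`-module,
compatibly with the action of `Γ` on `Ω`.  This is verbatim the shape used by the Prelude's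
`GaloisRepAdic.IsFlatAt` (see `isFlatAt_iff`). -/
def HasFlatModel (R : Type) [CommRing R] (Ω : Type) [CommRing Ω] [Algebra R Ω]
    (Γ : Type) [Monoid Γ] [MulSemiringAction Γ Ω] [SMulCommClass Γ R Ω]
    (M : Type) [AddCommGroup M] (act : Γ → M → M) : Prop :=
  ∃ (H : Type) (_ : CommRing H) (_ : HopfAlgebra R H),
    Module.Finite R H ∧ Module.Flat R H ∧ Coalgebra.IsCocomm R H ∧
    ∃ e : WithConv (H →ₐ[R] Ω) ≃ M,
      (∀ f g : WithConv (H →ₐ[R] Ω), e (f * g) = e f + e g) ∧
      ∀ (σ : Γ) (f : WithConv (H →ₐ[R] Ω)), e (σ • f) = act σ (e f)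

variable {R : Type} [CommRing R] {Ω : Type} [CommRing Ω] [Algebra R Ω]
    {Γ : Type} [Monoid Γ] [MulSemiringAction Γ Ω] [SMulCommClass Γ R Ω]
    {M : Type} [AddCommGroup M] {act : Γ → M → M}
    {M' : Type} [AddCommGroup M'] {act' : Γ → M' → M'}

/-- Transport of a flat model along an equivariant additive isomorphism. -/
lemma HasFlatModel.of_addEquiv (h : HasFlatModel R Ω Γ M act) (φ : M ≃+ M')
    (hφ : ∀ (σ : Γ) (m : M), φ (act σ m) = act' σ (φ m)) : HasFlatModel R Ω Γ M' act' := by
  obtain ⟨H, i1, i2, hfin, hflat, hco, e, hmul, heq⟩ := h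
  refine ⟨H, i1, i2, hfin, hflat, hco, e.trans φ.toEquiv, ?_, ?_⟩
  · intro f g
    simp [hmul]
  · intro σ f
    simp [heq, hφ]

/-- The structure of a flat model as a group isomorphism `G(Ω) ≃* Multiplicative M`. -/
lemma hasFlatModel_iff_mulEquiv :
    HasFlatModel R Ω Γ M act ↔
      ∃ (H : Type) (_ : CommRing H) (_ : HopfAlgebra R H),
        Module.Finite R H ∧ Module.Flat R H ∧ Coalgebra.IsCocomm R H ∧
        ∃ e : WithConv (H →ₐ[R] Ω) ≃* Multiplicative M,
          ∀ (σ : Γ) (f : WithConv (H →ₐ[R] Ω)),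
            Multiplicative.toAdd (e (σ • f)) = act σ (Multiplicative.toAdd (e f)) := by
  constructor
  · rintro ⟨H, i1, i2, hfin, hflat, hco, e, hmul, heq⟩
    refine ⟨H, i1, i2, hfin, hflat, hco,
      { toEquiv := e.trans Multiplicative.ofAdd, map_mul' := ?_ }, ?_⟩
    · intro f g
      simp [hmul]
    · intro σ f
      exact heq σ f
  · rintro ⟨H, i1, i2, hfin, hflat, hco, e, heq⟩
    refine ⟨H, i1, i2, hfin, hflat, hco, e.toEquiv.trans Multiplicative.toAdd, ?_, ?_⟩
    · intro f g
      simp
    · intro σ f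
      simpa using heq σ f

end Model

section Bridge

open GaloisRep

variable {A : Type} [CommRing A] [IsLocalRing A]

/-- **Bridge to the Prelude**: `ρ.IsFlatAt p` says exactly that the residue field of `A` is
finite and every finite level `V / I V` has a finite flat model over `ℤ_(p)`
(`GaloisRep.ratLocalizedAt p`) on `ℚ̄`-points, equivariantly for `G_ℚ`. -/
theorem isFlatAt_iff (ρ : GaloisRepAdic A) (p : ℕ) :
    ρ.IsFlatAt p ↔ Finite (IsLocalRing.ResidueField A) ∧ ∀ I : Ideal A, Finite (A ⧸ I) →
      HasFlatModel (ratLocalizedAt p) (AlgebraicClosure ℚ)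
        (AlgebraicClosure ℚ ≃ₐ[ℚ] AlgebraicClosure ℚ)
        (ρ.V ⧸ (I • (⊤ : Submodule A ρ.V))) (fun σ => ρ.levelAction I σ) := by
  unfold GaloisRepAdic.IsFlatAt HasFlatModel
  refine and_congr_right fun _ => forall_congr' fun I => imp_congr_right fun _ => ?_
  refine exists_congr fun H => exists_congr fun i1 => exists_congr fun i2 => ?_
  refine and_congr_right fun _ => and_congr_right fun _ => and_congr_right fun _ => ?_
  refine exists_congr fun e => and_congr_right fun _ => ?_
  constructor
  · intro h σ f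
    exact h σ f (σ • f) (fun _ => rfl)
  · intro h σ f g hg
    have : σ • f = g := (algEquiv_smul_eq_iff σ f g).2 hg
    rw [← this]
    exact h σ f

end Bridge

end

end Fermat.Agent.TW.FLAT.Points6
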