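import Mathlib
import Fermat.Agent.TW.FLAT.Points6

/-
Programme T, chapter FLAT, file BaseChange6 (F0.2): base change of Hopf algebras and points.

For `[CommRing R] [CommRing S] [Algebra R S]` and a commutative Hopf algebra `H` over `R`,
Mathlib already provides (instances, checked by the `example`s below)
`HopfAlgebra S (S ⊗[R] H)`, and `Module.Finite`, `Module.Flat`, `Module.Free`,
`Coalgebra.IsCocomm` are preserved.  This file adds

* `reprBaseChange (r : Coalgebra.Repr R h ι) : Coalgebra.Repr S ((1 : S) ⊗ₜ[R] h) ι`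
  (left/right `= 1 ⊗ₜ r.left i`, `1 ⊗ₜ r.right i`);
* `ptsBaseChange : WithConv (S ⊗[R] H →ₐ[S] B) ≃* WithConv (H →ₐ[R] B)` for an `S`-algebra `B`
  with `[Algebra R B] [IsScalarTower R S B]`, `ptsBaseChange F h = F (1 ⊗ₜ h)`,
  `(ptsBaseChange.symm f) (s ⊗ₜ h) = s • f h`;
* naturality `ptsBaseChange_mapB`, `ptsBaseChange_mapH`, Galois equivariance
  `ptsBaseChange_smul : ptsBaseChange (σ • F) = σ • ptsBaseChange F`;
* `HasFlatModel.baseChange : HasFlatModel R Ω Γ M act → HasFlatModel S Ω Γ M act`
  when `Ω` is an `S`-algebra with `[IsScalarTower R S Ω]` and `Γ` acts `S`-linearly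
  (e.g. `R = ℤ_(p)`, `S = ℚ`: the generic fibre).
-/

namespace Fermat.Agent.TW.FLAT.BaseChange6

open WithConv TensorProduct Fermat.Agent.TW.FLAT.Points6

noncomputable section

section Instances

variable (R : Type*) [CommRing R] (S : Type*) [CommRing S] [Algebra R S]
  (H : Type*) [CommRing H] [HopfAlgebra R H]

example : HopfAlgebra S (S ⊗[R] H) := inferInstance
example [Module.Finite R H] : Module.Finite S (S ⊗[R] H) := inferInstance
example [Module.Flat R H] : Module.Flat S (S ⊗[R] H) := inferInstance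
example [Module.Free R H] : Module.Free S (S ⊗[R] H) := inferInstance
example [Coalgebra.IsCocomm R H] : Coalgebra.IsCocomm S (S ⊗[R] H) := inferInstance

end Instances

section Points

variable {R : Type*} [CommSemiring R] {S : Type*} [CommSemiring S] [Algebra R S]
  {H : Type*} [CommSemiring H] [HopfAlgebra R H]

/-- A representation of `comul h` gives one of `comul (1 ⊗ₜ h)` in the base change. -/
def reprBaseChange {h : H} {ι : Type*} (r : Coalgebra.Repr R h ι) :
    Coalgebra.Repr S ((1 : S) ⊗ₜ[R] h) ι where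
  index := r.index
  left i := (1 : S) ⊗ₜ[R] r.left i
  right i := (1 : S) ⊗ₜ[R] r.right i
  eq := by
    rw [TensorProduct.comul_tmul, ← r.eq, CommSemiring.comul_apply, tmul_sum, map_sum]
    simp

variable {B : Type*} [CommSemiring B] [Algebra R B] [Algebra S B] [IsScalarTower R S B]

/-- **Points of the base change**: for an `S`-algebra `B`, the `B`-points of `S ⊗[R] H`
(over `S`) are the `B`-points of `H` (over `R`), `F ↦ (h ↦ F (1 ⊗ₜ h))`. -/
def ptsBaseChange : WithConv (S ⊗[R] H →ₐ[S] B) ≃* WithConv (H →ₐ[R] B) where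
  toFun F := toConv ((AlgHom.liftEquiv R S H B).symm F.ofConv)
  invFun f := toConv (AlgHom.liftEquiv R S H B f.ofConv)
  left_inv F := by
    apply WithConv.ext
    exact (AlgHom.liftEquiv R S H B).apply_symm_apply F.ofConv
  right_inv f := by
    apply WithConv.ext
    exact (AlgHom.liftEquiv R S H B).symm_apply_apply f.ofConv
  map_mul' F G := by
    ext h
    change (F * G) ((1 : S) ⊗ₜ[R] h) = _
    rw [mul_apply_repr F G (reprBaseChange (Coalgebra.Repr.arbitrary R h)),
      mul_apply_repr _ _ (Coalgebra.Repr.arbitrary R h)]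
    rfl

@[simp] lemma ptsBaseChange_apply (F : WithConv (S ⊗[R] H →ₐ[S] B)) (h : H) :
    ptsBaseChange F h = F ((1 : S) ⊗ₜ[R] h) := rfl

@[simp] lemma ptsBaseChange_symm_apply_tmul (f : WithConv (H →ₐ[R] B)) (s : S) (h : H) :
    (ptsBaseChange (S := S)).symm f (s ⊗ₜ[R] h) = s • f h := rfl

/-- Naturality in the algebra of values. -/
lemma ptsBaseChange_mapB {B' : Type*} [CommSemiring B'] [Algebra R B'] [Algebra S B']
    [IsScalarTower R S B'] (φ : B →ₐ[S] B') (F : WithConv (S ⊗[R] H →ₐ[S] B)) :
    ptsBaseChange (mapB φ F) = mapB (φ.restrictScalars R) (ptsBaseChange F) := rfl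

/-- Naturality in the Hopf algebra. -/
lemma ptsBaseChange_mapH {H' : Type*} [CommSemiring H'] [HopfAlgebra R H'] (ψ : H →ₐc[R] H')
    (F : WithConv (S ⊗[R] H' →ₐ[S] B)) :
    ptsBaseChange (mapH (Bialgebra.TensorProduct.map (BialgHom.id S S) ψ) F) =
      mapH ψ (ptsBaseChange F) := by
  ext h
  simp

/-- Galois equivariance: `Γ` acts on `B` by `S`-algebra (hence `R`-algebra) endomorphisms. -/
lemma ptsBaseChange_smul {Γ : Type*} [Monoid Γ] [MulSemiringAction Γ B] [SMulCommClass Γ S B]
    [SMulCommClass Γ R B] (σ : Γ) (F : WithConv (S ⊗[R] H →ₐ[S] B)) :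
    ptsBaseChange (σ • F) = σ • ptsBaseChange F := rfl

end Points

section Model

variable {R : Type} [CommRing R] {S : Type} [CommRing S] [Algebra R S]
  {Ω : Type} [CommRing Ω] [Algebra R Ω] [Algebra S Ω] [IsScalarTower R S Ω]
  {Γ : Type} [Monoid Γ] [MulSemiringAction Γ Ω] [SMulCommClass Γ R Ω] [SMulCommClass Γ S Ω]
  {M : Type} [AddCommGroup M] {act : Γ → M → M}

/-- A flat model over `R` gives, by base change, a flat model over any `R`-algebra `S` through
which the structure map `R → Ω` factors (e.g. `ℤ_(p) → ℚ`, the generic fibre). -/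
theorem _root_.Fermat.Agent.TW.FLAT.Points6.HasFlatModel.baseChange
    (h : HasFlatModel R Ω Γ M act) : HasFlatModel S Ω Γ M act := by
  obtain ⟨H, i1, i2, hfin, hflat, hco, e, hmul, heq⟩ := h
  refine ⟨S ⊗[R] H, inferInstance, inferInstance, inferInstance, inferInstance, inferInstance,
    (ptsBaseChange (R := R) (S := S) (H := H) (B := Ω)).toEquiv.trans e, ?_, ?_⟩
  · intro f g
    simp [hmul]
  · intro σ f
    have := heq σ (ptsBaseChange f)
    simpa [ptsBaseChange_smul] using this

end Model

end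

end Fermat.Agent.TW.FLAT.BaseChange6
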