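/-
Programme T (Taylor–Wiles primes), chapter T/FLAT, bricks F8.3 (part 1) + F8.2 (helper7):
**the connected points `G⁰(L)` of an integral group scheme at a valuation subring, the unramified
quotient `G(L)/G⁰(L)`, and "étale ⇒ unramified Galois module".**

Setting: `R` a commutative ring, `L` a field with `[Algebra R L]`, `A : ValuationSubring L` with
`[Algebra R A] [IsScalarTower R A L]` (i.e. `A` contains the image of `R`; build the instances with
`algebraOfMem A hRA` / `isScalarTower_ofMem A hRA` from `hRA : ∀ r, algebraMap R L r ∈ A`),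
`H` a commutative Hopf algebra over `R`, INTEGRAL over `R` (`[Algebra.IsIntegral R H]`, e.g. finite),
`G(L) = WithConv (H →ₐ[R] L)` with the group structure and Galois action of `Points6`.
No flatness, no henselian hypothesis, no completion: everything is relative to the place `A`
(for the Prelude: `R = ratLocalizedAt p`, `L = ℚ̄`, `A` any valuation subring of `ℚ̄` over `p`,
`algebraMap_ratLocalizedAt_mem`).

* `pt_mem A x h : x h ∈ A` (points are integral); `ptToA A x : H →ₐ[R] A`;
  `ptsEquivA A : G(A) ≃* G(L)`;
* `redPts A : G(L) →* G(κ_A)` (reduction of points, `κ_A = IsLocalRing.ResidueField A`),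
  `redPts_apply : redPts A x h = residue A (ptToA A x.ofConv h)`;
* `connPts A : Subgroup G(L)` := kernel of `redPts A`;
  `mem_connPts_iff : x ∈ connPts A ↔ ∀ h, x h - algebraMap R L (counit h) ∈ A.nonunits`;
* Galois (`K` a field, `R → K → L`): `redPts_smul` (equivariance for `σ ∈ A.decompositionSubgroup K`),
  `smul_mem_connPts` (`G⁰(L)` is stable under the decomposition group),
  `redPts_smul_of_mem_inertia`, **`smul_mul_inv_mem_connPts`**, `quotient_mk_smul_of_mem_inertia`
  (**inertia `A.inertiaSubgroupIn K` acts trivially on `G(L)/G⁰(L)`**), `mem_inertiaSubgroupIn_iff`;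
* functoriality: `redPts_mapH`, `mapH_mem_connPts` (Hopf algebra homs preserve connected points);
* unramified/étale case: `algHom_eq_of_sub_mem_maximalIdeal` (two points of a formally unramified,
  essentially finite type algebra in a local ring which agree modulo the maximal ideal are equal),
  `redPts_injective_of_unramified`, `connPts_eq_bot_of_unramified`,
  **`smul_eq_of_mem_inertia_of_unramified`** (inertia acts trivially on `G(L)` when `H` is
  unramified, e.g. étale, over `R`).
-/
import Mathlib
import Fermat.Prelude.Def_FLTPrelim_Ramification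
import Fermat.Agent.TW.FLAT.Points6

set_option autoImplicit false

open WithConv IsLocalRing

namespace Fermat.Agent.TW.FLAT.ConnEt7

open Fermat.Agent.TW.FLAT.Points6

section Integral

variable {R L H : Type*} [CommRing R] [Field L] [Algebra R L] [CommRing H] [Algebra R H]
  [Algebra.IsIntegral R H] (A : ValuationSubring L) [Algebra R A] [IsScalarTower R A L]

/-- Points of an integral algebra with values in a field take values in every valuation subring
containing the image of the base ring. -/
theorem pt_mem (x : H →ₐ[R] L) (h : H) : x h ∈ A := by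
  have h1 : IsIntegral R (x h) := (Algebra.IsIntegral.isIntegral (R := R) h).map x
  have h2 : IsIntegral A (x h) := h1.tower_top
  obtain ⟨y, hy⟩ := IsIntegrallyClosed.isIntegral_iff.mp h2
  rw [← hy]
  exact y.2

/-- The corestriction of a point `H → L` to the valuation subring. -/
def ptToA (x : H →ₐ[R] L) : H →ₐ[R] A where
  toFun h := ⟨x h, pt_mem A x h⟩
  map_one' := Subtype.ext (map_one x)
  map_mul' a b := Subtype.ext (map_mul x a b)
  map_zero' := Subtype.ext (map_zero x)
  map_add' a b := Subtype.ext (map_add x a b)
  commutes' r := Subtype.ext (by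
    change x (algebraMap R H r) = ((algebraMap R A r : A) : L)
    rw [AlgHom.commutes]
    exact IsScalarTower.algebraMap_apply R A L r)

@[simp] theorem coe_ptToA (x : H →ₐ[R] L) (h : H) : ((ptToA A x h : A) : L) = x h := rfl

omit [Algebra.IsIntegral R H] in
theorem coe_algebraMap (r : R) : ((algebraMap R A r : A) : L) = algebraMap R L r :=
  (IsScalarTower.algebraMap_apply R A L r).symm

theorem coe_ptToA_sub (x : H →ₐ[R] L) (h : H) (r : R) :
    ((ptToA A x h - algebraMap R A r : A) : L) = x h - algebraMap R L r := by
  rw [← coe_algebraMap A r]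
  rfl

end Integral

section Red

variable {R L H : Type*} [CommRing R] [Field L] [Algebra R L] [CommRing H] [HopfAlgebra R H]
  [Algebra.IsIntegral R H] (A : ValuationSubring L) [Algebra R A] [IsScalarTower R A L]

/-- `A`-valued points and `L`-valued points of an integral Hopf algebra coincide. -/
noncomputable def ptsEquivA : WithConv (H →ₐ[R] A) ≃* WithConv (H →ₐ[R] L) :=
  MulEquiv.ofBijective (mapB (IsScalarTower.toAlgHom R A L))
    ⟨mapB_injective (φ := IsScalarTower.toAlgHom R A L) Subtype.val_injective,
      fun x => ⟨toConv (ptToA A x.ofConv), by ext h; rfl⟩⟩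

@[simp] theorem ptsEquivA_apply (y : WithConv (H →ₐ[R] A)) (h : H) :
    ptsEquivA A y h = ((y h : A) : L) := rfl

theorem ptsEquivA_symm (x : WithConv (H →ₐ[R] L)) :
    (ptsEquivA A).symm x = toConv (ptToA A x.ofConv) := by
  rw [MulEquiv.symm_apply_eq]
  ext h
  rfl

/-- **Reduction of points** `G(L) = G(A) → G(κ_A)`, a group homomorphism. -/
noncomputable def redPts : WithConv (H →ₐ[R] L) →* WithConv (H →ₐ[R] ResidueField A) :=
  (mapB (IsScalarTower.toAlgHom R A (ResidueField A))).comp (ptsEquivA A).symm.toMonoidHom

theorem redPts_apply (x : WithConv (H →ₐ[R] L)) (h : H) :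
    redPts A x h = residue A (ptToA A x.ofConv h) := by
  change (mapB (IsScalarTower.toAlgHom R A (ResidueField A)) ((ptsEquivA A).symm x)) h = _
  rw [ptsEquivA_symm]
  rfl

/-- **The connected points** `G⁰(L)`: the points reducing to the identity in `G(κ_A)`. -/
noncomputable def connPts : Subgroup (WithConv (H →ₐ[R] L)) := (redPts (H := H) A).ker

theorem mem_connPts_iff_redPts (x : WithConv (H →ₐ[R] L)) :
    x ∈ connPts A ↔ redPts A x = 1 := MonoidHom.mem_ker

/-- A point is connected iff it is congruent to the counit modulo the maximal ideal. -/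
theorem mem_connPts_iff (x : WithConv (H →ₐ[R] L)) :
    x ∈ connPts A ↔ ∀ h : H, x h - algebraMap R L (Coalgebra.counit h) ∈ A.nonunits := by
  rw [mem_connPts_iff_redPts]
  constructor
  · intro hx h
    have h1 := congr($hx h)
    rw [redPts_apply, AlgHom.convOne_apply] at h1
    have h2 : residue A (ptToA A x.ofConv h - algebraMap R A (Coalgebra.counit h)) = 0 := by
      rw [map_sub, h1, sub_eq_zero]
      rfl
    rw [residue_eq_zero_iff] at h2
    rw [ValuationSubring.mem_nonunits_iff_exists_mem_maximalIdeal]
    have h3 := coe_ptToA_sub A x.ofConv h (Coalgebra.counit h)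
    refine ⟨?_, ?_⟩
    · rw [← h3]
      exact (ptToA A x.ofConv h - algebraMap R A (Coalgebra.counit h)).2
    · convert h2 using 1
      exact Subtype.ext h3.symm
  · intro hx
    ext h
    rw [redPts_apply, AlgHom.convOne_apply]
    have h2 : residue A (ptToA A x.ofConv h - algebraMap R A (Coalgebra.counit h)) = 0 := by
      rw [residue_eq_zero_iff]
      obtain ⟨ha, hm⟩ := (ValuationSubring.mem_nonunits_iff_exists_mem_maximalIdeal).mp (hx h)
      convert hm using 1
      exact Subtype.ext (coe_ptToA_sub A x.ofConv h (Coalgebra.counit h))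
    rw [map_sub, sub_eq_zero] at h2
    rw [h2]
    rfl

end Red

section Galois

variable {R K L H : Type*} [CommRing R] [Field K] [Field L] [Algebra K L] [Algebra R K]
  [Algebra R L] [IsScalarTower R K L] [CommRing H] [HopfAlgebra R H] [Algebra.IsIntegral R H]
  (A : ValuationSubring L) [Algebra R A] [IsScalarTower R A L]

theorem mem_inertiaSubgroupIn_iff {τ : L ≃ₐ[K] L} :
    τ ∈ A.inertiaSubgroupIn K ↔ ∃ h : τ ∈ A.decompositionSubgroup K,
      ∀ z : ResidueField A, (⟨τ, h⟩ : A.decompositionSubgroup K) • z = z := by
  rw [ValuationSubring.inertiaSubgroupIn, Subgroup.mem_map]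
  constructor
  · rintro ⟨g, hg, rfl⟩
    refine ⟨g.2, fun z => ?_⟩
    rw [ValuationSubring.inertiaSubgroup, MonoidHom.mem_ker] at hg
    have := congrArg (fun φ : RingAut (ResidueField A) => φ z) hg
    simpa using this
  · rintro ⟨h, hz⟩
    refine ⟨⟨τ, h⟩, ?_, rfl⟩
    rw [ValuationSubring.inertiaSubgroup, MonoidHom.mem_ker]
    ext z
    simpa using hz z

/-- Reduction of points is equivariant for the decomposition group. -/
theorem redPts_smul {σ : L ≃ₐ[K] L} (hσ : σ ∈ A.decompositionSubgroup K)
    (x : WithConv (H →ₐ[R] L)) (h : H) :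
    redPts A (σ • x) h = (⟨σ, hσ⟩ : A.decompositionSubgroup K) • redPts A x h := by
  rw [redPts_apply, redPts_apply, ← ResidueField.residue_smul]
  rfl

/-- **The connected points are stable under the decomposition group.** -/
theorem smul_mem_connPts {σ : L ≃ₐ[K] L} (hσ : σ ∈ A.decompositionSubgroup K)
    {x : WithConv (H →ₐ[R] L)} (hx : x ∈ connPts A) : σ • x ∈ connPts A := by
  rw [mem_connPts_iff_redPts] at hx ⊢
  ext h
  rw [redPts_smul A hσ, hx, AlgHom.convOne_apply]
  have h1 : algebraMap R (ResidueField A) (Coalgebra.counit h) =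
      residue A (algebraMap R A (Coalgebra.counit h)) := rfl
  rw [h1, ← ResidueField.residue_smul]
  congr 1
  apply Subtype.ext
  change σ ((algebraMap R A (Coalgebra.counit h) : A) : L) = _
  rw [coe_algebraMap, IsScalarTower.algebraMap_apply R K L, AlgEquiv.commutes]

/-- **Inertia acts trivially on the reduction of points.** -/
theorem redPts_smul_of_mem_inertia {σ : L ≃ₐ[K] L} (hσ : σ ∈ A.inertiaSubgroupIn K)
    (x : WithConv (H →ₐ[R] L)) : redPts A (σ • x) = redPts A x := by
  obtain ⟨h, hz⟩ := (mem_inertiaSubgroupIn_iff A).mp hσ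
  ext a
  rw [redPts_smul A h, hz]

/-- **Inertia acts trivially on `G(L) / G⁰(L)`.** -/
theorem smul_mul_inv_mem_connPts {σ : L ≃ₐ[K] L} (hσ : σ ∈ A.inertiaSubgroupIn K)
    (x : WithConv (H →ₐ[R] L)) : σ • x * x⁻¹ ∈ connPts A := by
  rw [mem_connPts_iff_redPts, map_mul, map_inv, redPts_smul_of_mem_inertia A hσ, mul_inv_cancel]

theorem quotient_mk_smul_of_mem_inertia {σ : L ≃ₐ[K] L} (hσ : σ ∈ A.inertiaSubgroupIn K)
    (x : WithConv (H →ₐ[R] L)) :
    (QuotientGroup.mk (σ • x) : WithConv (H →ₐ[R] L) ⧸ connPts (H := H) A) =
      QuotientGroup.mk x := by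
  rw [QuotientGroup.eq, mem_connPts_iff_redPts, map_mul, map_inv,
    redPts_smul_of_mem_inertia A hσ, inv_mul_cancel]

end Galois

section Functorial

variable {R L H H' : Type*} [CommRing R] [Field L] [Algebra R L] [CommRing H] [HopfAlgebra R H]
  [Algebra.IsIntegral R H] [CommRing H'] [HopfAlgebra R H'] [Algebra.IsIntegral R H']
  (A : ValuationSubring L) [Algebra R A] [IsScalarTower R A L]

/-- Reduction of points is functorial in the Hopf algebra. -/
theorem redPts_mapH (ψ : H →ₐc[R] H') (x : WithConv (H' →ₐ[R] L)) :
    redPts A (mapH ψ x) = mapH ψ (redPts A x) := by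
  ext h
  rw [redPts_apply, mapH_apply, redPts_apply]
  rfl

/-- **Homomorphisms of group schemes preserve connected points.** -/
theorem mapH_mem_connPts (ψ : H →ₐc[R] H') {x : WithConv (H' →ₐ[R] L)}
    (hx : x ∈ connPts A) : mapH ψ x ∈ connPts A := by
  rw [mem_connPts_iff_redPts] at hx ⊢
  rw [redPts_mapH, hx, map_one]

end Functorial

section Unramified

open TensorProduct

variable {R S B : Type*} [CommRing R] [CommRing S] [Algebra R S] [CommRing B] [Algebra R B]

theorem productMap_sub_mem (I : Ideal B) (x y : S →ₐ[R] B) (hxy : ∀ s, x s - y s ∈ I)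
    (e : S ⊗[R] S) :
    Algebra.TensorProduct.productMap x y e - Algebra.TensorProduct.productMap x x e ∈ I := by
  induction e using TensorProduct.induction_on with
  | zero => simp
  | add e₁ e₂ h₁ h₂ =>
    rw [map_add, map_add, add_sub_add_comm]
    exact I.add_mem h₁ h₂
  | tmul a b =>
    rw [Algebra.TensorProduct.productMap_apply_tmul, Algebra.TensorProduct.productMap_apply_tmul,
      ← mul_sub]
    refine I.mul_mem_left _ ?_
    have := I.neg_mem (hxy b)
    rwa [neg_sub] at this

/-- **Points of an unramified algebra in a local ring are determined by their reductions.** -/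
theorem algHom_eq_of_sub_mem_maximalIdeal [Algebra.FormallyUnramified R S]
    [Algebra.EssFiniteType R S] [IsLocalRing B] (x y : S →ₐ[R] B)
    (hxy : ∀ s, x s - y s ∈ maximalIdeal B) : x = y := by
  set t := Algebra.TensorProduct.productMap x y (Algebra.FormallyUnramified.elem R S) with ht
  have h1 : Algebra.TensorProduct.productMap x x (Algebra.FormallyUnramified.elem R S) = 1 := by
    have h2 : Algebra.TensorProduct.productMap x x = x.comp (Algebra.TensorProduct.lmul' R) := by
      ext <;> simp
    rw [h2, AlgHom.comp_apply, Algebra.FormallyUnramified.lmul_elem, map_one]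
  have h3 : t - 1 ∈ maximalIdeal B := by
    rw [← h1]
    exact productMap_sub_mem _ x y hxy _
  have htu : IsUnit t := by
    by_contra hcon
    have h4 : t ∈ maximalIdeal B := (IsLocalRing.mem_maximalIdeal t).mpr hcon
    have h5 : (1 : B) ∈ maximalIdeal B := by
      have := (maximalIdeal B).sub_mem h4 h3
      rwa [sub_sub_cancel] at this
    exact (maximalIdeal B).ne_top_iff_one.mp (IsLocalRing.maximalIdeal.isMaximal B).ne_top h5
  ext s
  have h6 := congrArg (Algebra.TensorProduct.productMap x y)
    (Algebra.FormallyUnramified.one_tmul_sub_tmul_one_mul_elem (R := R) s)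
  rw [map_mul, map_sub, Algebra.TensorProduct.productMap_apply_tmul,
    Algebra.TensorProduct.productMap_apply_tmul, map_one, map_one, one_mul, mul_one, map_zero,
    ← ht] at h6
  have h7 := htu.mul_left_eq_zero.mp h6
  exact (sub_eq_zero.mp h7).symm

end Unramified

section Etale

variable {R K L H : Type*} [CommRing R] [Field K] [Field L] [Algebra K L] [Algebra R K]
  [Algebra R L] [IsScalarTower R K L] [CommRing H] [HopfAlgebra R H] [Algebra.IsIntegral R H]
  [Algebra.FormallyUnramified R H] [Algebra.EssFiniteType R H]
  (A : ValuationSubring L) [Algebra R A] [IsScalarTower R A L]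

omit [Field K] [Algebra K L] [Algebra R K] [IsScalarTower R K L] in
/-- For an unramified (e.g. étale) integral Hopf algebra, reduction of points is injective. -/
theorem redPts_injective_of_unramified :
    Function.Injective (redPts (R := R) (H := H) A) := by
  intro x y hxy
  have h1 : ptToA A x.ofConv = ptToA A y.ofConv := by
    apply algHom_eq_of_sub_mem_maximalIdeal
    intro h
    rw [← residue_eq_zero_iff, map_sub, sub_eq_zero, ← redPts_apply, ← redPts_apply, hxy]
  ext h
  have := congr(((($h1) h : A) : L))
  simpa using this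

omit [Field K] [Algebra K L] [Algebra R K] [IsScalarTower R K L] in
/-- An unramified group scheme has no non-trivial connected points. -/
theorem connPts_eq_bot_of_unramified : connPts (R := R) (H := H) A = ⊥ :=
  (MonoidHom.ker_eq_bot_iff _).mpr (redPts_injective_of_unramified A)

/-- **Étale ⇒ unramified Galois module**: inertia acts trivially on the points of an unramified
(e.g. étale) integral Hopf algebra. -/
theorem smul_eq_of_mem_inertia_of_unramified {σ : L ≃ₐ[K] L} (hσ : σ ∈ A.inertiaSubgroupIn K)
    (x : WithConv (H →ₐ[R] L)) : σ • x = x :=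
  redPts_injective_of_unramified A (redPts_smul_of_mem_inertia A hσ x)

end Etale

section Setup

variable {R L : Type*} [CommRing R] [Field L] [Algebra R L] (A : ValuationSubring L)

/-- The `R`-algebra structure on a valuation subring containing the image of `R`
(a reducible non-instance; use `letI`). -/
@[reducible] def algebraOfMem (hRA : ∀ r : R, algebraMap R L r ∈ A) : Algebra R A :=
  ((algebraMap R L).codRestrict A.toSubring hRA).toAlgebra

theorem isScalarTower_ofMem (hRA : ∀ r : R, algebraMap R L r ∈ A) :
    letI := algebraOfMem A hRA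
    IsScalarTower R A L :=
  letI := algebraOfMem A hRA
  IsScalarTower.of_algebraMap_eq (fun _ => rfl)

end Setup

section PreludeShape

/-- A valuation subring of `ℚ̄` over `p` contains `ℤ_(p)` (the Prelude's `ratLocalizedAt p`). -/
theorem algebraMap_ratLocalizedAt_mem (p : ℕ) (A : ValuationSubring (AlgebraicClosure ℚ))
    (hA : A.LiesOverPrime p) (r : GaloisRep.ratLocalizedAt p) :
    algebraMap (GaloisRep.ratLocalizedAt p) (AlgebraicClosure ℚ) r ∈ A := by
  obtain ⟨q, hq⟩ := r
  change algebraMap ℚ (AlgebraicClosure ℚ) q ∈ A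
  have hcop : q.den.Coprime p := hq
  -- the denominator is a unit of `A`
  have hden : ((q.den : ℕ) : AlgebraicClosure ℚ)⁻¹ ∈ A := by
    by_contra hcon
    have h1 : ((q.den : ℕ) : AlgebraicClosure ℚ) ∈ A.nonunits := by
      rw [ValuationSubring.mem_nonunits_iff]
      have hmem : ((q.den : ℕ) : AlgebraicClosure ℚ) ∈ A := natCast_mem A _
      have hne : ((q.den : ℕ) : AlgebraicClosure ℚ) ≠ 0 := by
        exact_mod_cast q.den_nz
      rw [← A.valuation_le_one_iff] at hmem
      rcases lt_or_eq_of_le hmem with h | h
      · exact h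
      · exfalso
        apply hcon
        rw [← A.valuation_le_one_iff, map_inv₀, h, inv_one]
    -- `1 = u * den + v * p` is then a nonunit
    have h2 : (1 : AlgebraicClosure ℚ) ∈ A.nonunits := by
      have hb := Nat.Coprime.isCoprime hcop
      obtain ⟨u, v, huv⟩ := hb
      have h3 : ((u : ℤ) : AlgebraicClosure ℚ) * ((q.den : ℕ) : AlgebraicClosure ℚ) +
          ((v : ℤ) : AlgebraicClosure ℚ) * ((p : ℕ) : AlgebraicClosure ℚ) = 1 := by
        exact_mod_cast congrArg (fun z : ℤ => (z : AlgebraicClosure ℚ)) huv
      rw [← h3]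
      rw [ValuationSubring.mem_nonunits_iff] at h1 ⊢
      have hp : A.valuation ((p : ℕ) : AlgebraicClosure ℚ) < 1 :=
        (ValuationSubring.mem_nonunits_iff A).mp hA
      have hu : A.valuation ((u : ℤ) : AlgebraicClosure ℚ) ≤ 1 :=
        (A.valuation_le_one_iff _).mpr (intCast_mem A u)
      have hv : A.valuation ((v : ℤ) : AlgebraicClosure ℚ) ≤ 1 :=
        (A.valuation_le_one_iff _).mpr (intCast_mem A v)
      refine lt_of_le_of_lt (Valuation.map_add _ _ _) (max_lt ?_ ?_)
      · rw [map_mul]
        exact mul_lt_one_of_nonneg_of_lt_one_right hu zero_le h1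
      · rw [map_mul]
        exact mul_lt_one_of_nonneg_of_lt_one_right hv zero_le hp
    rw [ValuationSubring.mem_nonunits_iff, map_one] at h2
    exact lt_irrefl _ h2
  have hq' : algebraMap ℚ (AlgebraicClosure ℚ) q =
      ((q.num : ℤ) : AlgebraicClosure ℚ) * ((q.den : ℕ) : AlgebraicClosure ℚ)⁻¹ := by
    conv_lhs => rw [← Rat.num_div_den q]
    simp [div_eq_mul_inv]
  rw [hq']
  exact A.mul_mem _ _ (intCast_mem A _) hden

end PreludeShape

end Fermat.Agent.TW.FLAT.ConnEt7
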