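/-
Programme T, chapter FLAT, file NoSmallTorsion7 (helper7): "no small torsion".

Mathlib only.  The elementary core of Raynaud's / Fontaine's "there are no torsion points close to
the origin when `e < p - 1`", stated for an arbitrary commutative ring and then for the points of a
cocommutative bialgebra.

* `exists_one_add_pow_prime hq z : ∃ r, (1 + z) ^ q = 1 + q * z + q * z ^ 2 * r + z ^ q`.
* `eq_one_of_pow_prime_eq_one` : `C` a commutative ring, `π : C` a non-zero-divisor with
  `⋂ π ^ n C = 0`, `q` a prime with `(q : C) = w * π ^ e`, `w` a unit, `e + 2 ≤ q`.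
  If `x ^ q = 1` and `x = 1 + π * y` then `x = 1`.
* `eq_one_of_pow_eq_one` : the same for `x ^ n = 1`, `0 < n`, when every prime divisor `q` of `n`
  satisfies the condition above.
* `pts_eq_one_of_pow_eq_one` : `H` a cocommutative `R`-bialgebra, `S` a commutative `R`-algebra, `π : S`
  as above; a point `x : WithConv (H →ₐ[R] S)` of finite order `n` which is congruent to the unit
  point modulo `π` (`x h - ε h = π * y h` for an `R`-linear `y`) is the unit point.
-/
import Mathlib

set_option autoImplicit false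

namespace Fermat.Agent.TW.FLAT.NoSmallTorsion7

open Finset

section Abstract

variable {C : Type*} [CommRing C]

/-- `(1 + z) ^ q = 1 + q z + q z² r + z ^ q` for a prime `q`. -/
theorem exists_one_add_pow_prime {q : ℕ} (hq : q.Prime) (z : C) :
    ∃ r : C, (1 + z) ^ q = 1 + q * z + q * z ^ 2 * r + z ^ q := by
  have h := add_pow_prime_eq' hq z (1 : C)
  have h1 : Ioo 0 q = insert 1 (Ioo 1 q) := by
    ext k
    simp only [mem_Ioo, mem_insert]
    have := hq.two_le
    omega
  have h2 : (1 : ℕ) ∉ Ioo 1 q := by simp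
  refine ⟨∑ k ∈ Ioo 1 q, z ^ (k - 2) * ((q.choose k / q : ℕ) : C), ?_⟩
  rw [add_comm 1 z, h, h1, sum_insert h2]
  have h3 : ∑ k ∈ Ioo 1 q, z ^ k * (1 : C) ^ (q - k) * ((q.choose k / q : ℕ) : C)
      = z ^ 2 * ∑ k ∈ Ioo 1 q, z ^ (k - 2) * ((q.choose k / q : ℕ) : C) := by
    rw [mul_sum]
    refine sum_congr rfl (fun k hk => ?_)
    rw [mem_Ioo] at hk
    have hk2 : z ^ k = z ^ 2 * z ^ (k - 2) := by
      rw [← pow_add]
      congr 1
      omega
    rw [hk2, one_pow]
    ring
  rw [h3, Nat.choose_one_right, Nat.div_self hq.pos]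
  simp only [pow_one, one_pow, Nat.cast_one, mul_one]
  ring

variable (π : C) (hπ : ∀ c : C, π * c = 0 → c = 0)
include hπ

lemma pow_mul_eq_zero (n : ℕ) (c : C) (h : π ^ n * c = 0) : c = 0 := by
  induction n with
  | zero => simpa using h
  | succ n ih =>
    apply ih
    apply hπ
    rw [← mul_assoc, ← pow_succ']
    exact h

/-- One step: if `x ^ q = 1` and `x = 1 + π ^ k * y` with `1 ≤ k`, then `y ∈ π C`. -/
lemma step {q : ℕ} (hq : q.Prime) {w : C} (hw : IsUnit w) {e : ℕ} (he : e + 2 ≤ q)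
    (hqw : (q : C) = w * π ^ e) {x y : C} (hx : x ^ q = 1) {k : ℕ} (hk : 1 ≤ k)
    (hxy : x = 1 + π ^ k * y) : ∃ y', x = 1 + π ^ (k + 1) * y' := by
  obtain ⟨r, hr⟩ := exists_one_add_pow_prime hq (π ^ k * y)
  rw [← hxy, hx, hqw] at hr
  -- exponent bookkeeping: `k * q = (e + k) + 1 + m`
  have hkq : ∃ m, k * q = (e + k) + 1 + m := by
    refine ⟨k * q - (e + k + 1), ?_⟩
    have : e + k + 1 ≤ k * q := by
      calc e + k + 1 ≤ (q - 1) + k := by omega
        _ ≤ k * (q - 1) + k := by nlinarith [Nat.sub_add_cancel (by omega : 1 ≤ q)]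
        _ = k * q := by
          have : q = (q - 1) + 1 := by omega
          conv_rhs => rw [this]
          ring
    omega
  obtain ⟨m, hm⟩ := hkq
  obtain ⟨k', rfl⟩ : ∃ k', k = k' + 1 := ⟨k - 1, by omega⟩
  have h0 : π ^ (e + (k' + 1)) * (w * y + π * (w * π ^ k' * y ^ 2 * r + π ^ m * y ^ q)) = 0 := by
    have h1 : (π ^ (k' + 1) * y) ^ q = π ^ (e + (k' + 1)) * (π * (π ^ m * y ^ q)) := by
      rw [mul_pow, ← pow_mul, hm]
      ring
    have h2 : (1 : C) = 1 + w * π ^ e * (π ^ (k' + 1) * y) +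
        w * π ^ e * (π ^ (k' + 1) * y) ^ 2 * r + (π ^ (k' + 1) * y) ^ q := hr
    rw [h1] at h2
    have h3 : w * π ^ e * (π ^ (k' + 1) * y) + w * π ^ e * (π ^ (k' + 1) * y) ^ 2 * r
        + π ^ (e + (k' + 1)) * (π * (π ^ m * y ^ q)) = 0 := by
      linear_combination -h2
    rw [← h3]
    ring
  have h4 := pow_mul_eq_zero π hπ _ _ h0
  obtain ⟨w', hw'⟩ := hw.exists_left_inv
  refine ⟨-(w' * (w * π ^ k' * y ^ 2 * r + π ^ m * y ^ q)), ?_⟩
  have h5 : y = π * -(w' * (w * π ^ k' * y ^ 2 * r + π ^ m * y ^ q)) := by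
    have : w' * (w * y + π * (w * π ^ k' * y ^ 2 * r + π ^ m * y ^ q)) = 0 := by
      rw [h4, mul_zero]
    linear_combination this - y * hw'
  rw [hxy]
  linear_combination π ^ (k' + 1) * h5

/-- **No small `q`-torsion**: if `q = w π ^ e` with `w` a unit and `e ≤ q - 2`, then the only `q`-th
root of unity in `1 + π C` is `1` (for `π` a non-zero-divisor and `C` `π`-adically separated). -/
theorem eq_one_of_pow_prime_eq_one
    (hsep : ∀ c : C, (∀ n : ℕ, ∃ d, c = π ^ n * d) → c = 0)
    {q : ℕ} (hq : q.Prime) {w : C} (hw : IsUnit w) {e : ℕ} (he : e + 2 ≤ q)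
    (hqw : (q : C) = w * π ^ e) {x : C} (hx : x ^ q = 1) (hx1 : ∃ y, x = 1 + π * y) : x = 1 := by
  have key : ∀ k : ℕ, ∃ y, x = 1 + π ^ (k + 1) * y := by
    intro k
    induction k with
    | zero => simpa using hx1
    | succ k ih =>
      obtain ⟨y, hy⟩ := ih
      exact step π hπ hq hw he hqw hx (by omega) hy
  have h0 : x - 1 = 0 := by
    apply hsep
    intro n
    obtain ⟨y, hy⟩ := key n
    refine ⟨π * y, ?_⟩
    rw [hy]
    ring
  exact sub_eq_zero.1 h0

/-- **No small torsion**, finite order version. -/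
theorem eq_one_of_pow_eq_one
    (hsep : ∀ c : C, (∀ n : ℕ, ∃ d, c = π ^ n * d) → c = 0)
    (n : ℕ) (hn : 0 < n)
    (hprimes : ∀ q : ℕ, q.Prime → q ∣ n →
      ∃ (w : C) (e : ℕ), IsUnit w ∧ e + 2 ≤ q ∧ (q : C) = w * π ^ e)
    {x : C} (hx : x ^ n = 1) (hx1 : ∃ y, x = 1 + π * y) : x = 1 := by
  induction n using Nat.strong_induction_on with
  | _ n ih =>
    by_cases h1 : n = 1
    · subst h1
      simpa using hx
    · obtain ⟨q, hq, hqn⟩ := Nat.exists_prime_and_dvd h1
      obtain ⟨m, rfl⟩ := hqn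
      have hm : 0 < m := Nat.pos_of_ne_zero (by rintro rfl; simp at hn)
      obtain ⟨w, e, hw, he, hqw⟩ := hprimes q hq (dvd_mul_right q m)
      have hxm : (x ^ m) ^ q = 1 := by rw [← pow_mul, mul_comm m q]; exact hx
      have hxm1 : ∃ y, x ^ m = 1 + π * y := by
        obtain ⟨y, hy⟩ := hx1
        have : ∀ j : ℕ, ∃ y', x ^ j = 1 + π * y' := by
          intro j
          induction j with
          | zero => exact ⟨0, by simp⟩
          | succ j ihj =>
            obtain ⟨y', hy'⟩ := ihj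
            refine ⟨y' + y + π * y' * y, ?_⟩
            rw [pow_succ, hy']
            conv_lhs => rw [hy]
            ring
        exact this m
      have h2 := eq_one_of_pow_prime_eq_one π hπ hsep hq hw he hqw hxm hxm1
      have hlt : m < q * m := by
        have := hq.two_le
        nlinarith
      exact ih m hlt hm (fun q' hq' hq'm => hprimes q' hq' (dvd_mul_of_dvd_right hq'm q)) h2

end Abstract

section Points

open WithConv Coalgebra

variable {R : Type*} [CommRing R] {H : Type*} [CommRing H] [Bialgebra R H] [Coalgebra.IsCocomm R H]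
  {S : Type*} [CommRing S] [Algebra R S]

omit [Coalgebra.IsCocomm R H] in
private lemma algebraMap_mul_apply (s : S) (c : WithConv (H →ₗ[R] S)) (h : H) :
    (algebraMap S (WithConv (H →ₗ[R] S)) s * c) h = s * c h := by
  rw [← Algebra.smul_def]
  rfl

/-- **No small torsion points.**  `H` a cocommutative `R`-bialgebra, `S` a commutative `R`-algebra,
`π : S` a non-zero-divisor with `⋂ π ^ n S = 0`; `n > 0` such that every prime divisor `q` of `n`
is of the form `w π ^ e` in `S` with `w` a unit and `e ≤ q - 2`.  A point `x ∈ G(S)` with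
`x ^ n = 1` which is congruent to the unit point modulo `π` is the unit point. -/
theorem pts_eq_one_of_pow_eq_one (π : S) (hπ : ∀ s : S, π * s = 0 → s = 0)
    (hsep : ∀ s : S, (∀ n : ℕ, ∃ d, s = π ^ n * d) → s = 0)
    (n : ℕ) (hn : 0 < n)
    (hprimes : ∀ q : ℕ, q.Prime → q ∣ n →
      ∃ (w : S) (e : ℕ), IsUnit w ∧ e + 2 ≤ q ∧ (q : S) = w * π ^ e)
    (x : WithConv (H →ₐ[R] S)) (hx : x ^ n = 1)
    (y : H →ₗ[R] S) (hy : ∀ h, x h = algebraMap R S (counit h) + π * y h) : x = 1 := by
  set πC : WithConv (H →ₗ[R] S) := algebraMap S _ π with hπC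
  have hπC' : ∀ c : WithConv (H →ₗ[R] S), πC * c = 0 → c = 0 := by
    intro c hc
    ext h
    apply hπ
    have := congrArg (fun f : WithConv (H →ₗ[R] S) => f h) hc
    change (πC * c) h = (0 : WithConv (H →ₗ[R] S)) h at this
    rw [hπC, algebraMap_mul_apply] at this
    exact this
  have hpow : ∀ (k : ℕ) (c : WithConv (H →ₗ[R] S)) (h : H), (πC ^ k * c) h = π ^ k * c h := by
    intro k c h
    rw [hπC, ← map_pow, algebraMap_mul_apply]
  have hsepC : ∀ c : WithConv (H →ₗ[R] S), (∀ k : ℕ, ∃ d, c = πC ^ k * d) → c = 0 := by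
    intro c hc
    ext h
    apply hsep
    intro k
    obtain ⟨d, hd⟩ := hc k
    exact ⟨d h, by rw [hd, hpow]⟩
  have hprimesC : ∀ q : ℕ, q.Prime → q ∣ n →
      ∃ (w : WithConv (H →ₗ[R] S)) (e : ℕ), IsUnit w ∧ e + 2 ≤ q ∧
        (q : WithConv (H →ₗ[R] S)) = w * πC ^ e := by
    intro q hq hqn
    obtain ⟨w, e, hw, he, hqw⟩ := hprimes q hq hqn
    refine ⟨algebraMap S _ w, e, hw.map _, he, ?_⟩
    rw [hπC, ← map_pow, ← map_mul, ← hqw, map_natCast]
  have hxC : (toConv x.ofConv.toLinearMap : WithConv (H →ₗ[R] S)) ^ n = 1 := by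
    rw [← AlgHom.toLinearMap_convPow, hx]
    rfl
  have hx1 : ∃ c, (toConv x.ofConv.toLinearMap : WithConv (H →ₗ[R] S)) = 1 + πC * c := by
    refine ⟨toConv y, ?_⟩
    ext h
    have h1 : (1 + πC * toConv y : WithConv (H →ₗ[R] S)) h
        = (1 : WithConv (H →ₗ[R] S)) h + (πC * toConv y) h := rfl
    rw [h1, hπC, algebraMap_mul_apply]
    exact hy h
  have key := eq_one_of_pow_eq_one πC hπC' hsepC n hn hprimesC hxC hx1
  apply WithConv.ofConv_injective
  apply AlgHom.toLinearMap_injective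
  apply WithConv.toConv_injective
  exact key

end Points

end Fermat.Agent.TW.FLAT.NoSmallTorsion7
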