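/-
Programme T, chapter FLAT, file IntrinsicConn7 (helper7): **a connected point fixed by inertia is
trivial when `e < p - 1`** (absolutely unramified base, `p` odd), and consequences.

Setting of `ConnEt7`: `R → K → L` (`K`, `L` fields), `H` a commutative cocommutative Hopf algebra,
integral over `R`, `A : ValuationSubring L` containing the image of `R`, `I = A.inertiaSubgroupIn K`,
`G(L) = WithConv (H →ₐ[R] L)`, `connPts A = ker (G(L) → G(κ_A))`.
Hypotheses on the place, for a prime `p ≠ 2`: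
  `hpA : (p : L) ∈ A.nonunits`, `hp0 : (p : L) ≠ 0`,
  `hunr : ∀ z ∈ A.nonunits, (∀ τ ∈ I, τ z = z) → z / p ∈ A`   ("the inertia field is unramified": `p` is a
          uniformiser of the ring of `I`-fixed integers),
  `hsep : ∀ z ∈ A, (∀ n, z / p ^ n ∈ A) → z = 0`.
(For `R = ratLocalizedAt p`, `K = ℚ`, `L = ℚ̄`: file `IntrinsicConnQ7`.)

* `fixedInt R K A : Subalgebra R L` — the `I`-fixed elements of `A`.
* `natCast_inv_mem` : a prime `q ≠ p` is invertible in `A`.
* **`eq_one_of_mem_connPts_of_fixed`** : `x ∈ connPts A`, `τ • x = x` for all `τ ∈ I`, `x ^ n = 1` with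
  `0 < n` ⇒ `x = 1`.  (No flatness / finiteness of `H` is needed.)
* `connPts_inf_fixed_eq_bot` (`G(L)` finite): `connPts A ⊓ {x | ∀ τ ∈ I, τ • x = x} = ⊥`;
* `eq_one_of_mem_closure_of_fixed` (`G(L)` finite): an `I`-fixed element of the subgroup generated by
  the `σ • y * y⁻¹` (`σ ∈ I`) is trivial: **`(aug_I G(L))^I = 1`**.
-/
import Mathlib
import Fermat.Agent.TW.FLAT.ConnEt7
import Fermat.Agent.TW.FLAT.NoSmallTorsion7

set_option autoImplicit false

open WithConv IsLocalRing

namespace Fermat.Agent.TW.FLAT.IntrinsicConn7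

open Fermat.Agent.TW.FLAT.Points6 Fermat.Agent.TW.FLAT.ConnEt7 Fermat.Agent.TW.FLAT.NoSmallTorsion7

noncomputable section

variable {R K L H : Type*} [CommRing R] [Field K] [Field L] [Algebra K L] [Algebra R K]
  [Algebra R L] [IsScalarTower R K L] [CommRing H] [HopfAlgebra R H] [Algebra.IsIntegral R H]
  (A : ValuationSubring L) [Algebra R A] [IsScalarTower R A L]

variable (R K) in
/-- The subalgebra of elements of `A` fixed by the inertia group. -/
def fixedInt : Subalgebra R L where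
  carrier := {z | z ∈ A ∧ ∀ τ ∈ A.inertiaSubgroupIn K, τ z = z}
  mul_mem' := fun {a b} ha hb => ⟨A.mul_mem _ _ ha.1 hb.1, fun τ hτ => by
    rw [map_mul, ha.2 τ hτ, hb.2 τ hτ]⟩
  add_mem' := fun {a b} ha hb => ⟨A.add_mem _ _ ha.1 hb.1, fun τ hτ => by
    rw [map_add, ha.2 τ hτ, hb.2 τ hτ]⟩
  algebraMap_mem' := fun r => ⟨by
      rw [IsScalarTower.algebraMap_apply R A L r]; exact (algebraMap R A r).2,
    fun τ _ => by rw [IsScalarTower.algebraMap_apply R K L, AlgEquiv.commutes]⟩

omit [CommRing H] [HopfAlgebra R H] [Algebra.IsIntegral R H] in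
theorem mem_fixedInt {z : L} :
    z ∈ fixedInt R K A ↔ z ∈ A ∧ ∀ τ ∈ A.inertiaSubgroupIn K, τ z = z := Iff.rfl

omit [CommRing R] [Field K] [Algebra K L] [Algebra R K] [Algebra R L] [IsScalarTower R K L]
  [CommRing H] [HopfAlgebra R H] [Algebra.IsIntegral R H] [Algebra R A] [IsScalarTower R A L] in
/-- A prime `q ≠ p` is a unit of `A` when `p` is a non-unit. -/
theorem natCast_inv_mem {p q : ℕ} (hp : p.Prime) (hq : q.Prime) (hpq : q ≠ p)
    (hpA : (p : L) ∈ A.nonunits) : ((q : L))⁻¹ ∈ A := by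
  have hco : IsCoprime (p : ℤ) (q : ℤ) :=
    Nat.isCoprime_iff_coprime.2 ((Nat.coprime_primes hp hq).2 (Ne.symm hpq))
  obtain ⟨a, b, hab⟩ := hco
  have hab' : (a : L) * p + b * q = 1 := by exact_mod_cast congrArg (Int.cast : ℤ → L) hab
  have hqA : (q : L) ∈ A := natCast_mem A q
  by_contra hinv
  have hq1 : A.valuation (q : L) < 1 := by
    rcases (A.valuation_le_one_iff _).2 hqA |>.lt_or_eq with h | h
    · exact h
    · exfalso
      apply hinv
      rw [← A.valuation_le_one_iff, map_inv₀, h, inv_one]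
  have hp1 : A.valuation (p : L) < 1 := A.mem_nonunits_iff.1 hpA
  have ha : A.valuation (a : L) ≤ 1 := (A.valuation_le_one_iff _).2 (intCast_mem A a)
  have hb : A.valuation (b : L) ≤ 1 := (A.valuation_le_one_iff _).2 (intCast_mem A b)
  have h1 : A.valuation ((a : L) * p + b * q) < 1 := by
    refine lt_of_le_of_lt (Valuation.map_add _ _ _) (max_lt ?_ ?_)
    · rw [map_mul]
      exact mul_lt_one_of_nonneg_of_lt_one_right ha zero_le hp1
    · rw [map_mul]
      exact mul_lt_one_of_nonneg_of_lt_one_right hb zero_le hq1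
  rw [hab', map_one] at h1
  exact lt_irrefl _ h1

variable [Coalgebra.IsCocomm R H]

/-- **A connected point of finite order fixed by inertia is trivial** (`p` odd, `p` a uniformiser of
the inertia-fixed integers). -/
theorem eq_one_of_mem_connPts_of_fixed {p : ℕ} (hp : p.Prime) (hp2 : p ≠ 2)
    (hpA : (p : L) ∈ A.nonunits) (hp0 : (p : L) ≠ 0)
    (hunr : ∀ z ∈ A.nonunits, (∀ τ ∈ A.inertiaSubgroupIn K, τ z = z) → z / (p : L) ∈ A)
    (hsep : ∀ z ∈ A, (∀ n : ℕ, z / (p : L) ^ n ∈ A) → z = 0)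
    {x : WithConv (H →ₐ[R] L)} (hx : x ∈ connPts A)
    (hfix : ∀ τ ∈ A.inertiaSubgroupIn K, τ • x = x) {n : ℕ} (hn : 0 < n) (hxn : x ^ n = 1) :
    x = 1 := by
  classical
  set S : Subalgebra R L := fixedInt R K A with hS
  have hxS : ∀ h : H, x h ∈ S := fun h =>
    ⟨pt_mem A x.ofConv h, fun τ hτ => by
      have := congr($(hfix τ hτ) h)
      rwa [algEquiv_smul_apply] at this⟩
  -- the point with values in `S`
  let xS : WithConv (H →ₐ[R] S) := toConv (x.ofConv.codRestrict S hxS)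
  have hmap : mapB S.val xS = x := by ext h; rfl
  have hinj : Function.Injective (mapB (H := H) S.val) := mapB_injective Subtype.val_injective
  -- the uniformiser
  have hp3 : 3 ≤ p := by
    have := hp.two_le
    omega
  have hpS : ((p : S) : L) = (p : L) := by simp
  have hπ : ∀ s : S, (p : S) * s = 0 → s = 0 := by
    intro s hs
    have h1 : (p : L) * (s : L) = 0 := by
      have := congrArg (Subtype.val : S → L) hs
      simpa using this
    rcases mul_eq_zero.1 h1 with h | h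
    · exact absurd h hp0
    · exact Subtype.ext h
  have hsepS : ∀ s : S, (∀ k : ℕ, ∃ d, s = (p : S) ^ k * d) → s = 0 := by
    intro s hs
    apply Subtype.ext
    refine hsep (s : L) s.2.1 (fun k => ?_)
    obtain ⟨d, hd⟩ := hs k
    have h1 : (s : L) = (p : L) ^ k * (d : L) := by
      have := congrArg (Subtype.val : S → L) hd
      simpa using this
    rw [h1, mul_div_assoc, mul_comm, div_mul_cancel₀ _ (pow_ne_zero k hp0)]
    exact d.2.1
  have hprimes : ∀ q : ℕ, q.Prime → q ∣ n →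
      ∃ (w : S) (e : ℕ), IsUnit w ∧ e + 2 ≤ q ∧ (q : S) = w * (p : S) ^ e := by
    intro q hq _
    by_cases hqp : q = p
    · subst hqp
      exact ⟨1, 1, isUnit_one, by omega, by simp⟩
    · have hinvA : ((q : L))⁻¹ ∈ A := natCast_inv_mem A hp hq hqp hpA
      have hinvS : ((q : L))⁻¹ ∈ S :=
        ⟨hinvA, fun τ _ => by rw [map_inv₀, map_natCast]⟩
      have hq0 : (q : L) ≠ 0 := by
        intro h0
        rw [h0, inv_zero] at hinvA
        have h1 : A.valuation (q : L) < 1 := by rw [h0, map_zero]; exact zero_lt_one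
        -- `q = 0` in `L` is impossible: `a p + b q = 1` would give `a p = 1`
        have hco : IsCoprime (p : ℤ) (q : ℤ) :=
          Nat.isCoprime_iff_coprime.2 ((Nat.coprime_primes hp hq).2 (Ne.symm hqp))
        obtain ⟨a, b, hab⟩ := hco
        have hab' : (a : L) * p + b * q = 1 := by exact_mod_cast congrArg (Int.cast : ℤ → L) hab
        rw [h0, mul_zero, add_zero] at hab'
        have h2 : A.valuation ((a : L) * p) < 1 := by
          rw [map_mul]
          exact mul_lt_one_of_nonneg_of_lt_one_right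
            ((A.valuation_le_one_iff _).2 (intCast_mem A a)) zero_le
            (A.mem_nonunits_iff.1 hpA)
        rw [hab', map_one] at h2
        exact lt_irrefl _ h2
      refine ⟨(q : S), 0, ?_, hq.two_le, by simp⟩
      refine IsUnit.of_mul_eq_one (⟨_, hinvS⟩ : S) ?_
      apply Subtype.ext
      simp [mul_inv_cancel₀ hq0]
  have hxSn : xS ^ n = 1 := by
    apply hinj
    rw [map_pow, hmap, hxn, map_one]
  -- the quotient `(x - ε) / p`
  have hmem : ∀ h : H, (x h - algebraMap R L (Coalgebra.counit h)) / (p : L) ∈ S := by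
    intro h
    have hz := (mem_connPts_iff A x).1 hx h
    have hfz : ∀ τ ∈ A.inertiaSubgroupIn K,
        τ (x h - algebraMap R L (Coalgebra.counit h)) = x h - algebraMap R L (Coalgebra.counit h) := by
      intro τ hτ
      rw [map_sub, (hxS h).2 τ hτ, IsScalarTower.algebraMap_apply R K L, AlgEquiv.commutes]
    refine ⟨hunr _ hz hfz, fun τ hτ => ?_⟩
    rw [map_div₀, hfz τ hτ, map_natCast]
  let y0 : H →ₗ[R] L := ((p : L))⁻¹ • (x.ofConv.toLinearMap - Algebra.linearMap R L ∘ₗ Coalgebra.counit)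
  have hy0 : ∀ h, y0 h = (x h - algebraMap R L (Coalgebra.counit h)) / (p : L) := by
    intro h
    change ((p : L))⁻¹ • (x h - algebraMap R L (Coalgebra.counit h)) = _
    rw [smul_eq_mul, div_eq_inv_mul]
  let y : H →ₗ[R] S := LinearMap.codRestrict (Subalgebra.toSubmodule S) y0
    (fun h => by rw [hy0]; exact hmem h)
  have hy : ∀ h, xS h = algebraMap R S (Coalgebra.counit h) + (p : S) * y h := by
    intro h
    apply Subtype.ext
    change x h = algebraMap R L (Coalgebra.counit h) + ((p : S) : L) * y0 h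
    rw [hy0, hpS, mul_div_cancel₀ _ hp0]
    ring
  have key := pts_eq_one_of_pow_eq_one (p : S) hπ hsepS n hn hprimes xS hxSn y hy
  rw [← hmap, key, map_one]

variable [Finite (WithConv (H →ₐ[R] L))]

/-- `G⁰(L) ∩ G(L)^I = 1`. -/
theorem eq_one_of_mem_connPts_of_fixed' {p : ℕ} (hp : p.Prime) (hp2 : p ≠ 2)
    (hpA : (p : L) ∈ A.nonunits) (hp0 : (p : L) ≠ 0)
    (hunr : ∀ z ∈ A.nonunits, (∀ τ ∈ A.inertiaSubgroupIn K, τ z = z) → z / (p : L) ∈ A)
    (hsep : ∀ z ∈ A, (∀ n : ℕ, z / (p : L) ^ n ∈ A) → z = 0)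
    {x : WithConv (H →ₐ[R] L)} (hx : x ∈ connPts A)
    (hfix : ∀ τ ∈ A.inertiaSubgroupIn K, τ • x = x) : x = 1 :=
  eq_one_of_mem_connPts_of_fixed A hp hp2 hpA hp0 hunr hsep hx hfix
    (isOfFinOrder_of_finite x).orderOf_pos (pow_orderOf_eq_one x)

/-- **`(aug_I G(L))^I = 1`**: an inertia-fixed element of the subgroup generated by the
`σ • y * y⁻¹`, `σ ∈ I`, is trivial. -/
theorem eq_one_of_mem_closure_of_fixed {p : ℕ} (hp : p.Prime) (hp2 : p ≠ 2)
    (hpA : (p : L) ∈ A.nonunits) (hp0 : (p : L) ≠ 0)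
    (hunr : ∀ z ∈ A.nonunits, (∀ τ ∈ A.inertiaSubgroupIn K, τ z = z) → z / (p : L) ∈ A)
    (hsep : ∀ z ∈ A, (∀ n : ℕ, z / (p : L) ^ n ∈ A) → z = 0)
    {x : WithConv (H →ₐ[R] L)}
    (hx : x ∈ Subgroup.closure {g : WithConv (H →ₐ[R] L) |
      ∃ σ ∈ A.inertiaSubgroupIn K, ∃ y : WithConv (H →ₐ[R] L), g = σ • y * y⁻¹})
    (hfix : ∀ τ ∈ A.inertiaSubgroupIn K, τ • x = x) : x = 1 := by
  refine eq_one_of_mem_connPts_of_fixed' A hp hp2 hpA hp0 hunr hsep ?_ hfix
  refine (Subgroup.closure_le _).2 ?_ hx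
  rintro g ⟨σ, hσ, y, rfl⟩
  exact smul_mul_inv_mem_connPts A hσ y

end

end Fermat.Agent.TW.FLAT.IntrinsicConn7
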