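/-
Programme T (Taylor–Wiles primes), chapter T/FLAT, brick C3 = F8.1 second part (helper7):
**points of the Cartier dual and the Cartier pairing.**

`R` a commutative semiring, `H` a finite free `R`-bialgebra, `H^D = CDual R H` its Cartier dual
(`CartierDual7`), `B` a commutative `R`-algebra, `G(B) = WithConv (H →ₐ[R] B)`,
`G^D(B) = WithConv (CDual R H →ₐ[R] B)` (Mathlib's convolution monoids).

* `convTensor R C B : B ⊗[R] CDual R C →ₐ[R] WithConv (C →ₗ[R] B)` for ANY coalgebra `C` and
  algebra `B`: `β ⊗ f ↦ (c ↦ f c • β)` is an algebra hom for the convolution products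
  (`convTensor_tmul`), bijective when `C` is finite free (`convTensor_bijective`);
* `thetaD R H B : B ⊗[R] CDual R H ≃ₐ[R] WithConv (H →ₗ[R] B)`, `(β ⊗ f) ↦ (a ↦ f a • β)`;
  `thetaH R H B : B ⊗[R] H ≃ₐ[R] WithConv (CDual R H →ₗ[R] B)`, `(β ⊗ h) ↦ (f ↦ f h • β)`
  (**linear maps `H^D → B` are the elements of `B ⊗ H`, convolution = product of `B ⊗ H`**);
* `mulMap x : B ⊗[R] M →ₗ[R] B`, `β ⊗ m ↦ β * x m`; multiplicative when `x` is an algebra hom
  (`mulMap_mul`, `mulMap_one`, `mulMap_eq_productMap`);
* `pair R H B x φ : B` for linear `x : H → B`, `φ : H^D → B`: `pair x (θ_H g) = mulMap x g`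
  (`pair_thetaH`), symmetric description `pair (θ_D ξ) φ = mulMap φ ξ` (`pair_thetaD`,
  `mulMap_thetaD_eq_mulMap_thetaH`); `pair_mul_right`, `pair_one_right` (first variable an algebra
  hom), `pair_mul_left`, `pair_one_left` (second variable an algebra hom);
* `cartierPairing x φ : B` for `x ∈ G(B)`, `φ ∈ G^D(B)`; bimultiplicative
  (`cartierPairing_mul_left/right`, `cartierPairing_one_left/right`), bundled as
  `cartierPairingHom R H B : G(B) →* G^D(B) →* B`; `cartierPairing_eq_of_thetaH` (how to compute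
  it); `cartierPairing_pow_eq_one`, `cartierPairing_pow_eq_one'` (values are `n`-th roots of unity
  when `x ^ n = 1` or `φ ^ n = 1`);
* for `H` a commutative Hopf algebra: `antipode_comp_mul_self` (`(x ∘ S) * x = 1` in `G(B)`),
  `isUnit_cartierPairing`, and `cartierPairingUnits R H B : G(B) →* G^D(B) →* Bˣ`
  (`coe_cartierPairingUnits`);
* **naturality / Galois equivariance** `cartierPairing_comp`: for an `R`-algebra hom `σ : B → B'`,
  `⟨σ ∘ x, σ ∘ φ⟩ = σ ⟨x, φ⟩`.
-/
import Mathlib
import Fermat.Agent.TW.FLAT.CartierDual7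

set_option autoImplicit false

open TensorProduct Module WithConv Coalgebra

namespace Fermat.Agent.TW.FLAT.CartierPairing7

open Fermat.Agent.TW.FLAT.CartierDual7
open scoped Fermat.Agent.TW.FLAT.CartierDual7

section ConvTensor

variable (R C B : Type*) [CommSemiring R] [AddCommMonoid C] [Module R C] [Semiring B] [Algebra R B]

/-- The linear map `B ⊗ C^D → Hom_R(C, B)`, `β ⊗ f ↦ (c ↦ f c • β)`. -/
noncomputable def convTensorLin : B ⊗[R] CDual R C →ₗ[R] WithConv (C →ₗ[R] B) :=
  (WithConv.linearEquiv R (C →ₗ[R] B)).symm.toLinearMap ∘ₗ dualTensorHom R C B ∘ₗ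
    (TensorProduct.comm R B (Dual R C)).toLinearMap ∘ₗ (toDual R C).toLinearMap.lTensor B

variable {R C B}

@[simp] theorem convTensorLin_tmul (β : B) (f : CDual R C) (c : C) :
    convTensorLin R C B (β ⊗ₜ f) c = f c • β := rfl

theorem convTensorLin_bijective [Module.Free R C] [Module.Finite R C] :
    Function.Bijective (convTensorLin R C B) := by
  have h : ⇑(convTensorLin R C B) = (WithConv.linearEquiv R (C →ₗ[R] B)).symm ∘
      dualTensorHom R C B ∘ (TensorProduct.comm R B (Dual R C)) ∘
      (TensorProduct.congr (LinearEquiv.refl R B) (toDual R C)) := rfl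
  rw [h]
  exact (WithConv.linearEquiv R (C →ₗ[R] B)).symm.bijective.comp
    (dualTensorHom_bijective.comp ((TensorProduct.comm R B (Dual R C)).bijective.comp
      (TensorProduct.congr (LinearEquiv.refl R B) (toDual R C)).bijective))

variable [Coalgebra R C]

variable (R C B) in
/-- The algebra hom `B ⊗ C^D → Hom_R(C, B)` (convolution algebras), `β ⊗ f ↦ (c ↦ f c • β)`. -/
noncomputable def convTensor : B ⊗[R] CDual R C →ₐ[R] WithConv (C →ₗ[R] B) :=
  Algebra.TensorProduct.algHomOfLinearMapTensorProduct (convTensorLin R C B)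
    (by
      intro β₁ β₂ f₁ f₂
      apply WithConv.ext
      ext c
      change convTensorLin R C B ((β₁ * β₂) ⊗ₜ (f₁ * f₂)) c =
        (convTensorLin R C B (β₁ ⊗ₜ f₁) * convTensorLin R C B (β₂ ⊗ₜ f₂)) c
      rw [convTensorLin_tmul, (ℛ R c).convMul_apply, (ℛ R c).convMul_apply, Finset.sum_smul]
      refine Finset.sum_congr rfl fun i _ => ?_
      rw [convTensorLin_tmul, convTensorLin_tmul, smul_mul_smul_comm])
    (by
      apply WithConv.ext
      ext c
      change convTensorLin R C B ((1 : B) ⊗ₜ (1 : CDual R C)) c = (1 : WithConv (C →ₗ[R] B)) c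
      rw [convTensorLin_tmul, LinearMap.convOne_apply, LinearMap.convOne_apply,
        Algebra.algebraMap_eq_smul_one, Algebra.algebraMap_eq_smul_one, smul_eq_mul, mul_one])

@[simp] theorem convTensor_tmul (β : B) (f : CDual R C) (c : C) :
    convTensor R C B (β ⊗ₜ f) c = f c • β := rfl

theorem convTensor_bijective [Module.Free R C] [Module.Finite R C] :
    Function.Bijective (convTensor R C B) := convTensorLin_bijective

end ConvTensor

section Theta

variable (R H B : Type*) [CommSemiring R] [Semiring H] [Bialgebra R H] [Module.Free R H]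
  [Module.Finite R H] [Semiring B] [Algebra R B]

/-- `θ_D : B ⊗ H^D ≃ₐ Hom_R(H, B)` (convolution algebra), `β ⊗ f ↦ (a ↦ f a • β)`. -/
noncomputable def thetaD : B ⊗[R] CDual R H ≃ₐ[R] WithConv (H →ₗ[R] B) :=
  AlgEquiv.ofBijective (convTensor R H B) convTensor_bijective

/-- `θ_H : B ⊗ H ≃ₐ Hom_R(H^D, B)` (convolution algebra), `β ⊗ h ↦ (f ↦ f h • β)`. -/
noncomputable def thetaH : B ⊗[R] H ≃ₐ[R] WithConv (CDual R H →ₗ[R] B) :=
  (Algebra.TensorProduct.congr (AlgEquiv.refl (R := R) (A₁ := B))
    (evalBialgEquiv R H : H ≃ₐ[R] CDual R (CDual R H))).trans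
    (AlgEquiv.ofBijective (convTensor R (CDual R H) B) convTensor_bijective)

variable {R H B}

@[simp] theorem thetaD_tmul (β : B) (f : CDual R H) (a : H) :
    thetaD R H B (β ⊗ₜ f) a = f a • β := rfl

@[simp] theorem thetaH_tmul (β : B) (h : H) (f : CDual R H) :
    thetaH R H B (β ⊗ₜ h) f = f h • β := rfl

end Theta

section MulMap

variable {R M B : Type*} [CommSemiring R] [AddCommMonoid M] [Module R M] [CommSemiring B]
  [Algebra R B]

/-- For a linear map `x : M → B`, the `B`-linear extension `B ⊗ M → B`, `β ⊗ m ↦ β * x m`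
(as an `R`-linear map). -/
noncomputable def mulMap (x : M →ₗ[R] B) : B ⊗[R] M →ₗ[R] B :=
  LinearMap.mul' R B ∘ₗ x.lTensor B

@[simp] theorem mulMap_tmul (x : M →ₗ[R] B) (β : B) (m : M) : mulMap x (β ⊗ₜ m) = β * x m := rfl

@[simp] theorem mulMap_zero (g : B ⊗[R] M) : mulMap (0 : M →ₗ[R] B) g = 0 := by
  induction g using TensorProduct.induction_on with
  | zero => simp
  | add g₁ g₂ h₁ h₂ => rw [map_add, h₁, h₂, add_zero]
  | tmul β m => simp

theorem mulMap_add (x y : M →ₗ[R] B) (g : B ⊗[R] M) :
    mulMap (x + y) g = mulMap x g + mulMap y g := by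
  induction g using TensorProduct.induction_on with
  | zero => simp
  | add g₁ g₂ h₁ h₂ => rw [map_add, h₁, h₂, map_add, map_add]; ac_rfl
  | tmul β m => simp [mul_add]

theorem mulMap_smul (r : R) (x : M →ₗ[R] B) (g : B ⊗[R] M) :
    mulMap (r • x) g = r • mulMap x g := by
  induction g using TensorProduct.induction_on with
  | zero => simp
  | add g₁ g₂ h₁ h₂ => rw [map_add, h₁, h₂, map_add, smul_add]
  | tmul β m => simp

end MulMap

section MulMapAlg

variable {R A B : Type*} [CommSemiring R] [Semiring A] [Algebra R A] [CommSemiring B]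
  [Algebra R B]

theorem mulMap_eq_productMap (x : A →ₐ[R] B) (g : B ⊗[R] A) :
    mulMap x.toLinearMap g = Algebra.TensorProduct.productMap (AlgHom.id R B) x g := by
  induction g using TensorProduct.induction_on with
  | zero => simp
  | add g₁ g₂ h₁ h₂ => rw [map_add, h₁, h₂, map_add]
  | tmul β m => simp

theorem mulMap_mul (x : A →ₐ[R] B) (g g' : B ⊗[R] A) :
    mulMap x.toLinearMap (g * g') = mulMap x.toLinearMap g * mulMap x.toLinearMap g' := by
  simp only [mulMap_eq_productMap, map_mul]

theorem mulMap_one (x : A →ₐ[R] B) : mulMap x.toLinearMap (1 : B ⊗[R] A) = 1 := by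
  simp only [mulMap_eq_productMap, map_one]

end MulMapAlg

section Pairing

variable {R H B : Type*} [CommSemiring R] [Semiring H] [Bialgebra R H] [Module.Free R H]
  [Module.Finite R H] [CommSemiring B] [Algebra R B]

/-- The two ways of pairing `B ⊗ H` with `B ⊗ H^D` agree. -/
theorem mulMap_thetaD_eq_mulMap_thetaH (g : B ⊗[R] H) (ξ : B ⊗[R] CDual R H) :
    mulMap (thetaD R H B ξ).ofConv g = mulMap (thetaH R H B g).ofConv ξ := by
  induction g using TensorProduct.induction_on with
  | zero => simp
  | add g₁ g₂ h₁ h₂ =>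
    rw [map_add, h₁, h₂, map_add, WithConv.ofConv_add, mulMap_add]
  | tmul β h =>
    induction ξ using TensorProduct.induction_on with
    | zero => simp
    | add ξ₁ ξ₂ h₁ h₂ =>
      rw [map_add (thetaD R H B), WithConv.ofConv_add, mulMap_add, h₁, h₂, map_add]
    | tmul β' f =>
      rw [mulMap_tmul, mulMap_tmul]
      change β * (f h • β') = β' * (f h • β)
      rw [mul_smul_comm, mul_smul_comm, mul_comm]

variable (R H B) in
/-- **The Cartier pairing on linear maps**: for `x : H →ₗ B` and `φ : H^D →ₗ B`, if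
`φ = (f ↦ ∑ f (h_k) • β_k)` then `pair x φ = ∑ β_k * x (h_k)`. -/
noncomputable def pair (x : H →ₗ[R] B) (φ : CDual R H →ₗ[R] B) : B :=
  mulMap x ((thetaH R H B).symm (toConv φ))

theorem pair_thetaH (x : H →ₗ[R] B) (g : B ⊗[R] H) :
    pair R H B x (thetaH R H B g).ofConv = mulMap x g := by
  unfold pair
  rw [WithConv.toConv_ofConv, AlgEquiv.symm_apply_apply]

/-- The symmetric description of the pairing. -/
theorem pair_eq_mulMap_thetaD_symm (x : H →ₗ[R] B) (φ : CDual R H →ₗ[R] B) :
    pair R H B x φ = mulMap φ ((thetaD R H B).symm (toConv x)) := by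
  have h := mulMap_thetaD_eq_mulMap_thetaH ((thetaH R H B).symm (toConv φ))
    ((thetaD R H B).symm (toConv x))
  rw [AlgEquiv.apply_symm_apply, AlgEquiv.apply_symm_apply] at h
  exact h

theorem pair_thetaD (ξ : B ⊗[R] CDual R H) (φ : CDual R H →ₗ[R] B) :
    pair R H B (thetaD R H B ξ).ofConv φ = mulMap φ ξ := by
  rw [pair_eq_mulMap_thetaD_symm, WithConv.toConv_ofConv, AlgEquiv.symm_apply_apply]

/-- Multiplicativity in the second variable, when the first variable is an algebra hom. -/
theorem pair_mul_right (x : H →ₐ[R] B) (φ ψ : WithConv (CDual R H →ₗ[R] B)) :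
    pair R H B x.toLinearMap (φ * ψ).ofConv =
      pair R H B x.toLinearMap φ.ofConv * pair R H B x.toLinearMap ψ.ofConv := by
  unfold pair
  rw [WithConv.toConv_ofConv, WithConv.toConv_ofConv, WithConv.toConv_ofConv, map_mul, mulMap_mul]

theorem pair_one_right (x : H →ₐ[R] B) :
    pair R H B x.toLinearMap (1 : WithConv (CDual R H →ₗ[R] B)).ofConv = 1 := by
  unfold pair
  rw [WithConv.toConv_ofConv, map_one, mulMap_one]

/-- Multiplicativity in the first variable, when the second variable is an algebra hom. -/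
theorem pair_mul_left (φ : CDual R H →ₐ[R] B) (x y : WithConv (H →ₗ[R] B)) :
    pair R H B (x * y).ofConv φ.toLinearMap =
      pair R H B x.ofConv φ.toLinearMap * pair R H B y.ofConv φ.toLinearMap := by
  simp only [pair_eq_mulMap_thetaD_symm]
  rw [WithConv.toConv_ofConv, WithConv.toConv_ofConv, WithConv.toConv_ofConv, map_mul, mulMap_mul]

theorem pair_one_left (φ : CDual R H →ₐ[R] B) :
    pair R H B (1 : WithConv (H →ₗ[R] B)).ofConv φ.toLinearMap = 1 := by
  simp only [pair_eq_mulMap_thetaD_symm]
  rw [WithConv.toConv_ofConv, map_one, mulMap_one]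

end Pairing

section Points

variable {R H B : Type*} [CommSemiring R] [Semiring H] [Bialgebra R H] [Module.Free R H]
  [Module.Finite R H] [CommSemiring B] [Algebra R B]

/-- **The Cartier pairing** `G(B) × G^D(B) → B` on `B`-valued points. -/
noncomputable def cartierPairing (x : WithConv (H →ₐ[R] B)) (φ : WithConv (CDual R H →ₐ[R] B)) :
    B :=
  pair R H B x.ofConv.toLinearMap φ.ofConv.toLinearMap

/-- Computing the pairing: if `φ f = ∑ f (h_k) • β_k`, i.e. `φ = θ_H (∑ β_k ⊗ h_k)`, then
`⟨x, φ⟩ = ∑ β_k * x (h_k)`. -/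
theorem cartierPairing_eq_of_thetaH (x : WithConv (H →ₐ[R] B))
    (φ : WithConv (CDual R H →ₐ[R] B)) (g : B ⊗[R] H)
    (hg : thetaH R H B g = toConv φ.ofConv.toLinearMap) :
    cartierPairing x φ = mulMap x.ofConv.toLinearMap g := by
  unfold cartierPairing
  rw [← pair_thetaH, hg]

theorem cartierPairing_mul_left (x y : WithConv (H →ₐ[R] B)) (φ : WithConv (CDual R H →ₐ[R] B)) :
    cartierPairing (x * y) φ = cartierPairing x φ * cartierPairing y φ :=
  pair_mul_left φ.ofConv (toConv x.ofConv.toLinearMap) (toConv y.ofConv.toLinearMap)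

theorem cartierPairing_one_left (φ : WithConv (CDual R H →ₐ[R] B)) :
    cartierPairing (1 : WithConv (H →ₐ[R] B)) φ = 1 :=
  pair_one_left φ.ofConv

theorem cartierPairing_mul_right (x : WithConv (H →ₐ[R] B))
    (φ ψ : WithConv (CDual R H →ₐ[R] B)) :
    cartierPairing x (φ * ψ) = cartierPairing x φ * cartierPairing x ψ :=
  pair_mul_right x.ofConv (toConv φ.ofConv.toLinearMap) (toConv ψ.ofConv.toLinearMap)

theorem cartierPairing_one_right (x : WithConv (H →ₐ[R] B)) :
    cartierPairing x (1 : WithConv (CDual R H →ₐ[R] B)) = 1 :=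
  pair_one_right x.ofConv

variable (R H B) in
/-- The Cartier pairing as a bimultiplicative map. -/
noncomputable def cartierPairingHom :
    WithConv (H →ₐ[R] B) →* WithConv (CDual R H →ₐ[R] B) →* B where
  toFun x :=
    { toFun := fun φ => cartierPairing x φ
      map_one' := cartierPairing_one_right x
      map_mul' := fun φ ψ => cartierPairing_mul_right x φ ψ }
  map_one' := by
    ext φ
    exact cartierPairing_one_left φ
  map_mul' x y := by
    ext φ
    exact cartierPairing_mul_left x y φ

@[simp] theorem cartierPairingHom_apply (x : WithConv (H →ₐ[R] B))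
    (φ : WithConv (CDual R H →ₐ[R] B)) : cartierPairingHom R H B x φ = cartierPairing x φ := rfl

/-- If `x ^ n = 1` then the pairing takes values in the `n`-th roots of unity. -/
theorem cartierPairing_pow_eq_one (x : WithConv (H →ₐ[R] B)) (φ : WithConv (CDual R H →ₐ[R] B))
    (n : ℕ) (hx : x ^ n = 1) : cartierPairing x φ ^ n = 1 := by
  have h := congr($(map_pow (cartierPairingHom R H B) x n) φ)
  rw [hx, map_one] at h
  simpa using h.symm

/-- If `φ ^ n = 1` then the pairing takes values in the `n`-th roots of unity. -/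
theorem cartierPairing_pow_eq_one' (x : WithConv (H →ₐ[R] B)) (φ : WithConv (CDual R H →ₐ[R] B))
    (n : ℕ) (hφ : φ ^ n = 1) : cartierPairing x φ ^ n = 1 := by
  have h := map_pow (cartierPairingHom R H B x) φ n
  rw [hφ, map_one] at h
  simpa using h.symm

end Points

section Units

variable {R H B : Type*} [CommSemiring R] [CommSemiring H] [HopfAlgebra R H] [CommSemiring B]
  [Algebra R B]

/-- The inverse of a point: composition with the antipode (`H` commutative). -/
theorem antipode_comp_mul_self (x : WithConv (H →ₐ[R] B)) :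
    toConv (x.ofConv.comp (HopfAlgebra.antipodeAlgHom R H)) * x = 1 := by
  have h1 := AlgHom.comp_convMul_distrib x.ofConv (toConv (HopfAlgebra.antipodeAlgHom R H))
    (toConv (AlgHom.id R H))
  rw [AlgHom.antipode_id_cancel] at h1
  apply WithConv.ofConv_injective
  rw [WithConv.ofConv_toConv, WithConv.ofConv_toConv, AlgHom.comp_id] at h1
  have h2 : (toConv (x.ofConv.comp (HopfAlgebra.antipodeAlgHom R H)) * x).ofConv =
      x.ofConv.comp (1 : WithConv (H →ₐ[R] H)).ofConv := by
    rw [h1]
  rw [h2]
  ext a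
  simp [AlgHom.convOne_def]

variable [Module.Free R H] [Module.Finite R H]

theorem isUnit_cartierPairing (x : WithConv (H →ₐ[R] B)) (φ : WithConv (CDual R H →ₐ[R] B)) :
    IsUnit (cartierPairing x φ) := by
  refine IsUnit.of_mul_eq_one
    (cartierPairing (toConv (x.ofConv.comp (HopfAlgebra.antipodeAlgHom R H))) φ) ?_
  rw [mul_comm, ← cartierPairing_mul_left, antipode_comp_mul_self, cartierPairing_one_left]

theorem isUnit_cartierPairingHom (x : WithConv (H →ₐ[R] B))
    (φ : WithConv (CDual R H →ₐ[R] B)) : IsUnit (cartierPairingHom R H B x φ) :=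
  isUnit_cartierPairing x φ

variable (R H B) in
/-- **The Cartier pairing with values in the units** `G(B) × G^D(B) → Bˣ`. -/
noncomputable def cartierPairingUnits :
    WithConv (H →ₐ[R] B) →* WithConv (CDual R H →ₐ[R] B) →* Bˣ where
  toFun x := IsUnit.liftRight (cartierPairingHom R H B x) (isUnit_cartierPairingHom x)
  map_one' := by
    ext φ
    rw [IsUnit.coe_liftRight, map_one]
    rfl
  map_mul' x y := by
    ext φ
    rw [MonoidHom.mul_apply, Units.val_mul, IsUnit.coe_liftRight, IsUnit.coe_liftRight,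
      IsUnit.coe_liftRight, map_mul]
    rfl

@[simp] theorem coe_cartierPairingUnits (x : WithConv (H →ₐ[R] B))
    (φ : WithConv (CDual R H →ₐ[R] B)) :
    (cartierPairingUnits R H B x φ : B) = cartierPairing x φ :=
  IsUnit.coe_liftRight _ _ _

end Units

section Naturality

variable {R H B B' : Type*} [CommSemiring R] [Semiring H] [Bialgebra R H] [Module.Free R H]
  [Module.Finite R H] [CommSemiring B] [Algebra R B] [CommSemiring B'] [Algebra R B']

omit [Module.Free R H] [Module.Finite R H] in
theorem mulMap_comp_map (σ : B →ₐ[R] B') (x : H →ₗ[R] B) (g : B ⊗[R] H) :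
    mulMap (σ.toLinearMap ∘ₗ x) (TensorProduct.map σ.toLinearMap LinearMap.id g) =
      σ (mulMap x g) := by
  induction g using TensorProduct.induction_on with
  | zero => simp
  | add g₁ g₂ h₁ h₂ => rw [map_add, map_add, h₁, h₂, map_add, map_add]
  | tmul β h => simp

theorem thetaH_map (σ : B →ₐ[R] B') (g : B ⊗[R] H) :
    thetaH R H B' (TensorProduct.map σ.toLinearMap LinearMap.id g) =
      toConv (σ.toLinearMap ∘ₗ (thetaH R H B g).ofConv) := by
  induction g using TensorProduct.induction_on with
  | zero => simp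
  | add g₁ g₂ h₁ h₂ =>
    rw [map_add, map_add, h₁, h₂, map_add, WithConv.ofConv_add, LinearMap.comp_add,
      WithConv.toConv_add]
  | tmul β h =>
    apply WithConv.ext
    ext f
    change f h • σ β = σ (f h • β)
    rw [map_smul]

/-- **Naturality / Galois equivariance of the Cartier pairing**: for an `R`-algebra hom
`σ : B → B'` (e.g. an automorphism of `B`), `⟨σ ∘ x, σ ∘ φ⟩ = σ ⟨x, φ⟩`. -/
theorem cartierPairing_comp (σ : B →ₐ[R] B') (x : WithConv (H →ₐ[R] B))
    (φ : WithConv (CDual R H →ₐ[R] B)) :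
    cartierPairing (toConv (σ.comp x.ofConv)) (toConv (σ.comp φ.ofConv)) =
      σ (cartierPairing x φ) := by
  have hg := thetaH_map σ ((thetaH R H B).symm (toConv φ.ofConv.toLinearMap))
  rw [AlgEquiv.apply_symm_apply] at hg
  rw [cartierPairing_eq_of_thetaH _ _ _ hg]
  exact mulMap_comp_map σ x.ofConv.toLinearMap _

end Naturality

end Fermat.Agent.TW.FLAT.CartierPairing7
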