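/-
Programme T (Taylor–Wiles primes), chapter T/FLAT, brick C4 = F8.1 third part (helper7):
**perfectness of the Cartier pairing on `B`-points when `B ⊗ H` is split.**

`R` a commutative semiring, `H` a finite free `R`-bialgebra (commutative Hopf algebra for the
unit-valued statements), `B` a commutative `R`-algebra, `G(B) = WithConv (H →ₐ[R] B)`,
`G^D(B) = WithConv (CDual R H →ₐ[R] B)`.

* `evPoints R H B : B ⊗[R] H →ₗ[R] (G(B) → B)`, `β ⊗ h ↦ (x ↦ β * x h)` (`evPoints_apply`,
  `evPoints_smul`): evaluation of "functions" at the `B`-points.  The hypothesis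
  `hev : Function.Bijective (evPoints R H B)` says that `B ⊗ H` is the algebra of all `B`-valued
  functions on the finite set `G(B)` (true for `B = K̄` when `K ⊗ H` is étale, e.g. for the
  closures of `Closure6`);
* `mulMap_smul_left`, `mulMap_smul_right`, `mulMap_sum`: `B`-linearity of `mulMap`;
* `exists_coeffs`, `exists_coeffs'`: under `hev`, every `R`-linear map `l : H → B` is a `B`-linear
  combination of points, `l = ∑ x, c x • x`;
* `mulMap_convMul`: under `hev`, if `g ∈ B ⊗ H` evaluates on points to a multiplicative `χ`, then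
  `l ↦ mulMap l g` is multiplicative for the convolution product of `Hom_R(H, B)`;
* `cartierPairing_right_injective`: if `evPoints` is injective, `φ ∈ G^D(B)` is determined by the
  pairings `⟨x, φ⟩`, `x ∈ G(B)`;
* `pointOfChar`, `exists_cartierPairing_eq`: under `hev` (and `G(B)` finite) every monoid hom
  `χ : G(B) →* B` is `⟨·, φ⟩` for some `φ ∈ G^D(B)`;
* **`cartierPairingUnits_flip_bijective`**: under `hev`, `G^D(B) → (G(B) →* Bˣ)`, `φ ↦ ⟨·, φ⟩`
  is bijective; `dualPointsEquiv hev : G^D(B) ≃* (G(B) →* Bˣ)` (`dualPointsEquiv_apply`);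
* **`cartierPairing_smul`**: for a monoid `Γ` acting on `B` by `R`-algebra maps and the actions
  of `Points6` on points (`σ • f = σ ∘ f`): `⟨σ • x, σ • φ⟩ = σ • ⟨x, φ⟩` (`H` cocommutative).
-/
import Mathlib
import Fermat.Agent.TW.FLAT.CartierPairing7
import Fermat.Agent.TW.FLAT.Points6

set_option autoImplicit false

open TensorProduct Module WithConv Coalgebra

namespace Fermat.Agent.TW.FLAT.CartierPerfect7

open Fermat.Agent.TW.FLAT.CartierDual7 Fermat.Agent.TW.FLAT.CartierPairing7
open scoped Fermat.Agent.TW.FLAT.CartierDual7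

section BLinear

variable {R M B : Type*} [CommSemiring R] [AddCommMonoid M] [Module R M] [CommSemiring B]
  [Algebra R B]

/-- `mulMap x` is `B`-linear. -/
theorem mulMap_smul_left (x : M →ₗ[R] B) (β : B) (g : B ⊗[R] M) :
    mulMap x (β • g) = β * mulMap x g := by
  induction g using TensorProduct.induction_on with
  | zero => simp
  | add g₁ g₂ h₁ h₂ => rw [smul_add, map_add, h₁, h₂, map_add, mul_add]
  | tmul β' m => rw [TensorProduct.smul_tmul', mulMap_tmul, mulMap_tmul, smul_eq_mul, mul_assoc]

/-- `mulMap x g` is `B`-linear in `x`. -/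
theorem mulMap_smul_right (β : B) (x : M →ₗ[R] B) (g : B ⊗[R] M) :
    mulMap (β • x) g = β * mulMap x g := by
  induction g using TensorProduct.induction_on with
  | zero => simp
  | add g₁ g₂ h₁ h₂ => rw [map_add, h₁, h₂, map_add, mul_add]
  | tmul β' m =>
    rw [mulMap_tmul, mulMap_tmul, LinearMap.smul_apply, smul_eq_mul, mul_left_comm]

theorem mulMap_sum {ι : Type*} (s : Finset ι) (x : ι → M →ₗ[R] B) (g : B ⊗[R] M) :
    mulMap (∑ i ∈ s, x i) g = ∑ i ∈ s, mulMap (x i) g := by
  classical
  induction s using Finset.induction_on with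
  | empty => simp
  | insert i s hi ih => rw [Finset.sum_insert hi, Finset.sum_insert hi, mulMap_add, ih]

end BLinear

section Span

variable (R H B : Type*) [CommSemiring R] [Semiring H] [Bialgebra R H] [CommSemiring B]
  [Algebra R B]

/-- Evaluation of the elements of `B ⊗ H` at the `B`-valued points of `H`:
`β ⊗ h ↦ (x ↦ β * x h)`. -/
noncomputable def evPoints : B ⊗[R] H →ₗ[R] (WithConv (H →ₐ[R] B) → B) :=
  LinearMap.pi fun x => mulMap x.ofConv.toLinearMap

variable {R H B}

@[simp] theorem evPoints_apply (g : B ⊗[R] H) (x : WithConv (H →ₐ[R] B)) :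
    evPoints R H B g x = mulMap x.ofConv.toLinearMap g := rfl

theorem evPoints_smul (β : B) (g : B ⊗[R] H) : evPoints R H B (β • g) = β • evPoints R H B g := by
  ext x
  rw [evPoints_apply, mulMap_smul_left, Pi.smul_apply, evPoints_apply, smul_eq_mul]

/-- If evaluation at the points is bijective, every linear map `H → B` is a `B`-linear combination
of points (as functionals on `B ⊗ H`). -/
theorem exists_coeffs [Fintype (WithConv (H →ₐ[R] B))]
    (hev : Function.Bijective (evPoints R H B)) (l : H →ₗ[R] B) :
    ∃ c : WithConv (H →ₐ[R] B) → B, ∀ g : B ⊗[R] H,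
      mulMap l g = ∑ x, c x * mulMap x.ofConv.toLinearMap g := by
  classical
  choose e he using fun x : WithConv (H →ₐ[R] B) => hev.2 (Pi.single x 1)
  refine ⟨fun x => mulMap l (e x), fun g => ?_⟩
  have hg : g = ∑ x, mulMap x.ofConv.toLinearMap g • e x := by
    apply hev.1
    rw [map_sum]
    ext y
    rw [Finset.sum_apply, evPoints_apply]
    simp only [evPoints_smul, he, Pi.smul_apply, smul_eq_mul]
    rw [Finset.sum_eq_single y]
    · simp
    · intro x _ hx
      simp [Pi.single_eq_of_ne' hx]
    · simp
  conv_lhs => rw [hg]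
  rw [map_sum]
  refine Finset.sum_congr rfl fun x _ => ?_
  rw [mulMap_smul_left, mul_comm]

/-- If evaluation at the points is bijective, every linear map `H → B` is a `B`-linear combination
of points. -/
theorem exists_coeffs' [Fintype (WithConv (H →ₐ[R] B))]
    (hev : Function.Bijective (evPoints R H B)) (l : H →ₗ[R] B) :
    ∃ c : WithConv (H →ₐ[R] B) → B, l = ∑ x, c x • x.ofConv.toLinearMap := by
  obtain ⟨c, hc⟩ := exists_coeffs hev l
  refine ⟨c, ?_⟩
  ext h
  have := hc ((1 : B) ⊗ₜ h)
  simpa using this

end Span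

section Multiplicative

variable {R H B : Type*} [CommSemiring R] [Semiring H] [Bialgebra R H] [CommSemiring B]
  [Algebra R B]

/-- If `g ∈ B ⊗ H` evaluates on the points to a multiplicative function `χ`, then
`l ↦ mulMap l g` is multiplicative on the whole convolution algebra `Hom_R(H, B)`
(evaluation at the points being bijective). -/
theorem mulMap_convMul [Fintype (WithConv (H →ₐ[R] B))]
    (hev : Function.Bijective (evPoints R H B)) (g : B ⊗[R] H)
    (χ : WithConv (H →ₐ[R] B) →* B) (hχ : ∀ x, mulMap x.ofConv.toLinearMap g = χ x)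
    (l l' : WithConv (H →ₗ[R] B)) :
    mulMap (l * l').ofConv g = mulMap l.ofConv g * mulMap l'.ofConv g := by
  obtain ⟨c, hc⟩ := exists_coeffs' hev l.ofConv
  obtain ⟨c', hc'⟩ := exists_coeffs' hev l'.ofConv
  have hl : l = ∑ x, c x • toConv x.ofConv.toLinearMap := by
    apply WithConv.ext
    rw [hc, WithConv.ofConv_sum]
    rfl
  have hl' : l' = ∑ x, c' x • toConv x.ofConv.toLinearMap := by
    apply WithConv.ext
    rw [hc', WithConv.ofConv_sum]
    rfl
  have hmul : l * l' = ∑ x, ∑ y, (c x * c' y) • toConv (x * y).ofConv.toLinearMap := by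
    rw [hl, hl', Finset.sum_mul_sum]
    refine Finset.sum_congr rfl fun x _ => Finset.sum_congr rfl fun y _ => ?_
    rw [smul_mul_smul_comm, AlgHom.toLinearMap_convMul]
  have key : ∀ (d : WithConv (H →ₐ[R] B) → B),
      mulMap (∑ x, d x • toConv x.ofConv.toLinearMap : WithConv (H →ₗ[R] B)).ofConv g =
        ∑ x, d x * χ x := by
    intro d
    rw [WithConv.ofConv_sum, mulMap_sum]
    refine Finset.sum_congr rfl fun x _ => ?_
    rw [WithConv.ofConv_smul, mulMap_smul_right, WithConv.ofConv_toConv, hχ]
  rw [hmul, WithConv.ofConv_sum, mulMap_sum]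
  conv_rhs => rw [hl, hl', key, key, Finset.sum_mul_sum]
  refine Finset.sum_congr rfl fun x _ => ?_
  rw [WithConv.ofConv_sum, mulMap_sum]
  refine Finset.sum_congr rfl fun y _ => ?_
  rw [WithConv.ofConv_smul, mulMap_smul_right, WithConv.ofConv_toConv, hχ, map_mul]
  ring

end Multiplicative

section Perfect

variable {R H B : Type*} [CommSemiring R] [Semiring H] [Bialgebra R H] [Module.Free R H]
  [Module.Finite R H] [CommSemiring B] [Algebra R B]

theorem thetaH_apply_eq_mulMap (g : B ⊗[R] H) (f : CDual R H) :
    thetaH R H B g f = mulMap (Algebra.linearMap R B ∘ₗ f.ofConv) g := by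
  induction g using TensorProduct.induction_on with
  | zero => simp
  | add g₁ g₂ h₁ h₂ =>
    rw [map_add, map_add, ← h₁, ← h₂]
    rfl
  | tmul β h =>
    rw [thetaH_tmul, mulMap_tmul, LinearMap.comp_apply, Algebra.linearMap_apply, Algebra.smul_def,
      mul_comm]

theorem cartierPairing_eq_mulMap (x : WithConv (H →ₐ[R] B)) (φ : WithConv (CDual R H →ₐ[R] B)) :
    cartierPairing x φ =
      mulMap x.ofConv.toLinearMap ((thetaH R H B).symm (toConv φ.ofConv.toLinearMap)) := rfl

/-- **Left non-degeneracy**: if evaluation at the points is injective on `B ⊗ H`, a point of the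
dual is determined by its pairings with the points of `H`. -/
theorem cartierPairing_right_injective (hev : Function.Injective (evPoints R H B))
    (φ ψ : WithConv (CDual R H →ₐ[R] B)) (h : ∀ x, cartierPairing x φ = cartierPairing x ψ) :
    φ = ψ := by
  have h1 : (thetaH R H B).symm (toConv φ.ofConv.toLinearMap) =
      (thetaH R H B).symm (toConv ψ.ofConv.toLinearMap) := by
    apply hev
    ext x
    exact h x
  have h2 := (thetaH R H B).symm.injective h1
  apply WithConv.ofConv_injective
  apply AlgHom.toLinearMap_injective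
  exact WithConv.toConv_injective h2

/-- The point of the dual attached to `g ∈ B ⊗ H` whose evaluation on points is a character. -/
noncomputable def pointOfChar [Fintype (WithConv (H →ₐ[R] B))]
    (hev : Function.Bijective (evPoints R H B)) (g : B ⊗[R] H)
    (χ : WithConv (H →ₐ[R] B) →* B) (hχ : ∀ x, mulMap x.ofConv.toLinearMap g = χ x) :
    CDual R H →ₐ[R] B :=
  AlgHom.ofLinearMap (thetaH R H B g).ofConv
    (by
      change thetaH R H B g 1 = 1
      rw [thetaH_apply_eq_mulMap]
      have h1 : Algebra.linearMap R B ∘ₗ (1 : CDual R H).ofConv =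
          (1 : WithConv (H →ₐ[R] B)).ofConv.toLinearMap := by
        ext a
        simp [AlgHom.convOne_def]
      rw [h1, hχ, map_one])
    (by
      intro f f'
      change thetaH R H B g (f * f') = thetaH R H B g f * thetaH R H B g f'
      rw [thetaH_apply_eq_mulMap, thetaH_apply_eq_mulMap, thetaH_apply_eq_mulMap]
      have h1 := LinearMap.algHom_comp_convMul_distrib (Algebra.ofId R B) f f'
      change Algebra.linearMap R B ∘ₗ (f * f').ofConv = _ at h1
      rw [h1]
      exact mulMap_convMul hev g χ hχ _ _)

theorem pointOfChar_apply [Fintype (WithConv (H →ₐ[R] B))]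
    (hev : Function.Bijective (evPoints R H B)) (g : B ⊗[R] H)
    (χ : WithConv (H →ₐ[R] B) →* B) (hχ : ∀ x, mulMap x.ofConv.toLinearMap g = χ x)
    (f : CDual R H) : pointOfChar hev g χ hχ f = thetaH R H B g f := rfl

/-- **Right non-degeneracy / surjectivity**: if evaluation at the (finitely many) points is
bijective on `B ⊗ H`, every character `G(B) →* B` is the pairing with a point of the dual. -/
theorem exists_cartierPairing_eq [Finite (WithConv (H →ₐ[R] B))]
    (hev : Function.Bijective (evPoints R H B)) (χ : WithConv (H →ₐ[R] B) →* B) :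
    ∃ φ : WithConv (CDual R H →ₐ[R] B), ∀ x, cartierPairing x φ = χ x := by
  have := Fintype.ofFinite (WithConv (H →ₐ[R] B))
  obtain ⟨g, hg⟩ := hev.2 (fun x => χ x)
  have hχ : ∀ x, mulMap x.ofConv.toLinearMap g = χ x := fun x => congrFun hg x
  refine ⟨toConv (pointOfChar hev g χ hχ), fun x => ?_⟩
  rw [cartierPairing_eq_of_thetaH x _ g rfl, hχ]

end Perfect

section PerfectUnits

variable {R H B : Type*} [CommSemiring R] [CommSemiring H] [HopfAlgebra R H] [Module.Free R H]
  [Module.Finite R H] [CommSemiring B] [Algebra R B]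

/-- **Perfectness of the Cartier pairing on `B`-points**: if evaluation at the (finitely many)
`B`-points is bijective on `B ⊗ H` ("`B ⊗ H` is the algebra of functions on `G(B)`"), then
`G^D(B) → Hom(G(B), Bˣ)`, `φ ↦ ⟨·, φ⟩` is bijective. -/
theorem cartierPairingUnits_flip_bijective [Finite (WithConv (H →ₐ[R] B))]
    (hev : Function.Bijective (evPoints R H B)) :
    Function.Bijective ((cartierPairingUnits R H B).flip :
      WithConv (CDual R H →ₐ[R] B) → (WithConv (H →ₐ[R] B) →* Bˣ)) := by
  constructor
  · intro φ ψ h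
    refine cartierPairing_right_injective hev.1 φ ψ fun x => ?_
    have h1 := congr(($h x : B))
    simpa using h1
  · intro χ
    obtain ⟨φ, hφ⟩ := exists_cartierPairing_eq hev ((Units.coeHom B).comp χ)
    refine ⟨φ, ?_⟩
    ext x
    rw [MonoidHom.flip_apply, coe_cartierPairingUnits, hφ]
    rfl

/-- The points of the Cartier dual are the characters of the points, under the hypothesis of
`cartierPairingUnits_flip_bijective`. -/
noncomputable def dualPointsEquiv [Finite (WithConv (H →ₐ[R] B))]
    (hev : Function.Bijective (evPoints R H B)) :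
    WithConv (CDual R H →ₐ[R] B) ≃* (WithConv (H →ₐ[R] B) →* Bˣ) :=
  MulEquiv.ofBijective (cartierPairingUnits R H B).flip (cartierPairingUnits_flip_bijective hev)

@[simp] theorem dualPointsEquiv_apply [Finite (WithConv (H →ₐ[R] B))]
    (hev : Function.Bijective (evPoints R H B)) (φ : WithConv (CDual R H →ₐ[R] B))
    (x : WithConv (H →ₐ[R] B)) :
    ((dualPointsEquiv hev φ x : Bˣ) : B) = cartierPairing x φ :=
  coe_cartierPairingUnits x φ

end PerfectUnits

section Galois

open Fermat.Agent.TW.FLAT.Points6

variable {R H B Γ : Type*} [CommSemiring R] [CommSemiring H] [HopfAlgebra R H]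
  [Coalgebra.IsCocomm R H] [Module.Free R H] [Module.Finite R H] [CommSemiring B] [Algebra R B]
  [Monoid Γ] [MulSemiringAction Γ B] [SMulCommClass Γ R B]

/-- **Galois equivariance of the Cartier pairing**, for the actions of `Points6` on `G(B)` and
`G^D(B)` (`σ • f = σ ∘ f`). -/
theorem cartierPairing_smul (σ : Γ) (x : WithConv (H →ₐ[R] B))
    (φ : WithConv (CDual R H →ₐ[R] B)) :
    cartierPairing (σ • x) (σ • φ) = σ • cartierPairing x φ :=
  cartierPairing_comp (MulSemiringAction.toAlgHom R B σ) x φ

end Galois

end Fermat.Agent.TW.FLAT.CartierPerfect7
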