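import Mathlib
import Fermat.Agent.TW.FLAT.Points6

/-
Programme T, chapter FLAT, file Closed6 (F0.3): closed subgroups = Hopf ideals.

`H` a commutative Hopf algebra over a commutative ring `R`, `I : Ideal H` with
`[I.IsHopfIdeal R]` (Mathlib: coideal + stable under the antipode), so that Mathlib's instance
`HopfAlgebra R (H ⧸ I)` applies and `Bialgebra.Quotient.mkBialgHom I : H →ₐc[R] H ⧸ I`.

* `quotient_isCocomm : Coalgebra.IsCocomm R (H ⧸ I)` if `H` is cocommutative (instance);
* `closedPts R I B : Subgroup (WithConv (H →ₐ[R] B))`, the image of the points of `H ⧸ I`;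
  `mem_closedPts_iff : f ∈ closedPts R I B ↔ ∀ x ∈ I, f x = 0`;
* `ptsQuotEquiv I : WithConv (H ⧸ I →ₐ[R] B) ≃* closedPts R I B`,
  `(ptsQuotEquiv I g) h = g (Ideal.Quotient.mk I h)`;
* Galois: `smul_mem_closedPts`, `ptsQuotEquiv_smul` (equivariance).
-/

set_option autoImplicit false

namespace Fermat.Agent.TW.FLAT.Closed6

open WithConv TensorProduct Fermat.Agent.TW.FLAT.Points6

noncomputable section

section Quotient

variable {R : Type*} [CommRing R] {H : Type*} [CommRing H] [HopfAlgebra R H]
  (I : Ideal H) [I.IsHopfIdeal R]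

example : HopfAlgebra R (H ⧸ I) := inferInstance

/-- The quotient of a cocommutative Hopf algebra by a Hopf ideal is cocommutative. -/
instance quotient_isCocomm [Coalgebra.IsCocomm R H] : Coalgebra.IsCocomm R (H ⧸ I) where
  comm_comp_comul := by
    apply LinearMap.ext
    intro x
    obtain ⟨a, rfl⟩ := Ideal.Quotient.mk_surjective x
    rw [LinearMap.comp_apply, Bialgebra.Quotient.comul_mk]
    conv_rhs => rw [← Coalgebra.comm_comul R a]
    generalize Coalgebra.comul (R := R) a = t
    induction t using TensorProduct.induction_on with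
    | zero => simp
    | tmul x y => simp
    | add x y hx hy => simp only [map_add, hx, hy]

variable {B : Type*} [CommRing B] [Algebra R B]

/-- The closed subgroup of `G(B)` cut out by the Hopf ideal `I`: the image of the points of
`H ⧸ I`. -/
def closedPts (R : Type*) [CommRing R] {H : Type*} [CommRing H] [HopfAlgebra R H]
    (I : Ideal H) [I.IsHopfIdeal R] (B : Type*) [CommRing B] [Algebra R B] :
    Subgroup (WithConv (H →ₐ[R] B)) :=
  (mapH (B := B) (Bialgebra.Quotient.mkBialgHom (R := R) I)).range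

lemma mem_closedPts_iff (f : WithConv (H →ₐ[R] B)) :
    f ∈ closedPts R I B ↔ ∀ x ∈ I, f x = 0 := by
  constructor
  · rintro ⟨g, rfl⟩ x hx
    rw [mapH_apply, Bialgebra.Quotient.mkBialgHom_apply, Ideal.Quotient.eq_zero_iff_mem.2 hx,
      map_zero]
  · intro hf
    refine ⟨toConv (Ideal.Quotient.liftₐ I f.ofConv hf), ?_⟩
    ext x
    rfl

/-- Points of the quotient Hopf algebra = the closed subgroup. -/
def ptsQuotEquiv : WithConv (H ⧸ I →ₐ[R] B) ≃* closedPts R I B :=
  MonoidHom.ofInjective (f := mapH (B := B) (Bialgebra.Quotient.mkBialgHom (R := R) I))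
    (mapH_injective (R := R) (B := B) (ψ := Bialgebra.Quotient.mkBialgHom (R := R) I)
      Ideal.Quotient.mk_surjective)

@[simp] lemma ptsQuotEquiv_apply (g : WithConv (H ⧸ I →ₐ[R] B)) (h : H) :
    (ptsQuotEquiv I g : WithConv (H →ₐ[R] B)) h = g (Ideal.Quotient.mk I h) := rfl

/-- The closed subgroup is stable under the Galois action. -/
lemma smul_mem_closedPts {Γ : Type*} [Monoid Γ] [MulSemiringAction Γ B] [SMulCommClass Γ R B]
    (σ : Γ) {f : WithConv (H →ₐ[R] B)} (hf : f ∈ closedPts R I B) : σ • f ∈ closedPts R I B := by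
  rw [mem_closedPts_iff] at hf ⊢
  intro x hx
  rw [Points6.smul_apply, hf x hx, smul_zero]

/-- `ptsQuotEquiv` is Galois equivariant. -/
lemma ptsQuotEquiv_smul {Γ : Type*} [Monoid Γ] [MulSemiringAction Γ B] [SMulCommClass Γ R B]
    (σ : Γ) (g : WithConv (H ⧸ I →ₐ[R] B)) :
    (ptsQuotEquiv I (σ • g) : WithConv (H →ₐ[R] B)) = σ • (ptsQuotEquiv I g : WithConv (H →ₐ[R] B)) :=
  rfl

end Quotient

end

end Fermat.Agent.TW.FLAT.Closed6
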