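import Mathlib

/-
Programme T, chapter FLAT, file Descent6: Galois descent for subspaces (Mathlib only).

* `coordAct σ w` : coordinatewise action of `σ : Γ` on `w : ι →₀ Ω` (`Γ` a monoid acting on the
  field `Ω` by ring endomorphisms); `IsFixedVec Γ w : ∀ σ i, σ • w i = w i`.
* `span_fixed_eq` : an `Ω`-subspace `W ≤ (ι →₀ Ω)` stable under all `coordAct σ` is spanned by
  its vectors with `Γ`-fixed coordinates:
  `Submodule.span Ω {w | w ∈ W ∧ IsFixedVec Γ w} = W`.
* `tensorAct σ : Ω ⊗[R] N →ₗ[R] Ω ⊗[R] N`, `tensorAct σ (ω ⊗ₜ n) = (σ • ω) ⊗ₜ n`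
  (needs `[SMulCommClass Γ R Ω]`).
* `FixedInFrac R Ω Γ : Prop := ∀ ω, (∀ σ, σ • ω = ω) →
    ∃ s r : R, algebraMap R Ω s ≠ 0 ∧ algebraMap R Ω s * ω = algebraMap R Ω r`
  ("`Ω^Γ ⊆ Frac R`").
* `span_rational_eq` : `N` a free `R`-module, `hF : FixedInFrac R Ω Γ`, `W` an `Ω`-subspace of
  `Ω ⊗[R] N` stable under all `tensorAct σ`; then
  `Submodule.span Ω {w | w ∈ W ∧ ∃ n : N, w = 1 ⊗ₜ n} = W`.
-/

set_option autoImplicit false

namespace Fermat.Agent.TW.FLAT.Descent6

open TensorProduct

noncomputable section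

section Coordinates

variable {Ω : Type*} [Field Ω] {Γ : Type*} [Monoid Γ] [MulSemiringAction Γ Ω] {ι : Type*}

/-- coordinatewise action of `σ` on `ι →₀ Ω`. -/
def coordAct (σ : Γ) (w : ι →₀ Ω) : ι →₀ Ω := Finsupp.mapRange (fun x => σ • x) (smul_zero σ) w

@[simp] lemma coordAct_apply (σ : Γ) (w : ι →₀ Ω) (i : ι) : coordAct σ w i = σ • w i := rfl

/-- the vectors all of whose coordinates are fixed by `Γ`. -/
def IsFixedVec (Γ : Type*) [Monoid Γ] [MulSemiringAction Γ Ω] (w : ι →₀ Ω) : Prop :=
  ∀ (σ : Γ) (i : ι), σ • w i = w i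

/-- **Galois descent in coordinates**: an `Ω`-subspace of `ι →₀ Ω` stable under the
coordinatewise action of `Γ` is spanned by its vectors with `Γ`-fixed coordinates. -/
theorem span_fixed_eq (W : Submodule Ω (ι →₀ Ω))
    (hW : ∀ (σ : Γ), ∀ w ∈ W, coordAct σ w ∈ W) :
    Submodule.span Ω {w | w ∈ W ∧ IsFixedVec Γ w} = W := by
  classical
  apply le_antisymm
  · rw [Submodule.span_le]
    exact fun w hw => hw.1
  -- strong induction on the size of the support
  have key : ∀ n : ℕ, ∀ w ∈ W, w.support.card ≤ n →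
      w ∈ Submodule.span Ω {w | w ∈ W ∧ IsFixedVec Γ w} := by
    intro n
    induction n with
    | zero =>
      intro w _ hcard
      have : w = 0 := by
        rw [← Finsupp.support_eq_empty, ← Finset.card_eq_zero]
        omega
      rw [this]
      exact Submodule.zero_mem _
    | succ n ih =>
      intro w hw hcard
      by_cases hw0 : w = 0
      · rw [hw0]; exact Submodule.zero_mem _
      -- minimal support element below `w`
      let S : Set (ι →₀ Ω) := {u | u ∈ W ∧ u ≠ 0 ∧ u.support ⊆ w.support}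
      have hSne : S.Nonempty := ⟨w, hw, hw0, subset_rfl⟩
      let u₀ := Function.argminOn (fun u : ι →₀ Ω => u.support.card) S hSne
      have hu₀S : u₀ ∈ S := Function.argminOn_mem _ S hSne
      have hmin : ∀ v ∈ S, u₀.support.card ≤ v.support.card :=
        fun v hv => Function.argminOn_le (fun u : ι →₀ Ω => u.support.card) S hv
      obtain ⟨hu₀W, hu₀0, hu₀supp⟩ := hu₀S
      obtain ⟨j, hj⟩ : ∃ j, j ∈ u₀.support := by
        by_contra hcon
        exact hu₀0 (Finsupp.support_eq_empty.1
          (Finset.eq_empty_of_forall_notMem (fun j hj => hcon ⟨j, hj⟩)))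
      have hu₀j : u₀ j ≠ 0 := Finsupp.mem_support_iff.1 hj
      -- normalise
      let u : ι →₀ Ω := (u₀ j)⁻¹ • u₀
      have huW : u ∈ W := W.smul_mem _ hu₀W
      have huj : u j = 1 := by
        simp [u, hu₀j]
      have husupp : u.support = u₀.support := by
        ext i
        simp [u, hu₀j]
      -- `u` is fixed
      have hufix : IsFixedVec Γ u := by
        intro σ i
        by_contra hne
        let d : ι →₀ Ω := coordAct σ u - u
        have hdW : d ∈ W := W.sub_mem (hW σ u huW) huW
        have hd0 : d ≠ 0 := by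
          intro h0
          apply hne
          have := congrArg (fun v : ι →₀ Ω => v i) h0
          simpa [d, sub_eq_zero] using this
        have hdsupp : d.support ⊆ u.support.erase j := by
          intro k hk
          rw [Finsupp.mem_support_iff] at hk
          rw [Finset.mem_erase, Finsupp.mem_support_iff]
          refine ⟨?_, ?_⟩
          · rintro rfl
            apply hk
            simp [d, huj]
          · intro huk
            apply hk
            simp [d, huk]
        have hdS : d ∈ S := ⟨hdW, hd0, fun k hk => hu₀supp (husupp ▸ (Finset.erase_subset _ _ (hdsupp hk)))⟩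
        have h1 := hmin d hdS
        have h2 : d.support.card ≤ (u.support.erase j).card := Finset.card_le_card hdsupp
        have h3 : (u.support.erase j).card < u.support.card :=
          Finset.card_erase_lt_of_mem (husupp ▸ hj)
        have h4 : u.support.card = u₀.support.card := by rw [husupp]
        omega
      -- subtract
      let w' : ι →₀ Ω := w - (w j) • u
      have hw'W : w' ∈ W := W.sub_mem hw (W.smul_mem _ huW)
      have hw'supp : w'.support ⊆ w.support.erase j := by
        intro k hk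
        rw [Finsupp.mem_support_iff] at hk
        rw [Finset.mem_erase, Finsupp.mem_support_iff]
        refine ⟨?_, ?_⟩
        · rintro rfl
          apply hk
          simp [w', huj]
        · intro hwk
          apply hk
          have huk : u k = 0 := by
            by_contra h
            have : k ∈ w.support := hu₀supp (husupp ▸ Finsupp.mem_support_iff.2 h)
            exact (Finsupp.mem_support_iff.1 this) hwk
          simp [w', hwk, huk]
      have hjw : j ∈ w.support := hu₀supp hj
      have hcard' : w'.support.card ≤ n := by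
        have h2 : w'.support.card ≤ (w.support.erase j).card := Finset.card_le_card hw'supp
        have h3 : (w.support.erase j).card < w.support.card := Finset.card_erase_lt_of_mem hjw
        omega
      have hw'span := ih w' hw'W hcard'
      have huspan : u ∈ Submodule.span Ω {w | w ∈ W ∧ IsFixedVec Γ w} :=
        Submodule.subset_span ⟨huW, hufix⟩
      have : w = w' + (w j) • u := by simp [w']
      rw [this]
      exact Submodule.add_mem _ hw'span (Submodule.smul_mem _ _ huspan)
  intro w hw
  exact key _ w hw le_rfl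

lemma coordAct_add (σ : Γ) (v w : ι →₀ Ω) : coordAct σ (v + w) = coordAct σ v + coordAct σ w := by
  ext i; simp [smul_add]

end Coordinates

section Tensor

variable {R : Type*} [CommRing R] {N : Type*} [AddCommGroup N] [Module R N]
  {Ω : Type*} [Field Ω] [Algebra R Ω] {Γ : Type*} [Monoid Γ] [MulSemiringAction Γ Ω]
  [SMulCommClass Γ R Ω]

/-- The action of `σ` on `Ω ⊗[R] N` through the first factor (`R`-linear, `σ`-semilinear). -/
def tensorAct (σ : Γ) : Ω ⊗[R] N →ₗ[R] Ω ⊗[R] N :=
  LinearMap.rTensor N (MulSemiringAction.toAlgHom R Ω σ).toLinearMap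

@[simp] lemma tensorAct_tmul (σ : Γ) (ω : Ω) (n : N) :
    tensorAct (R := R) σ (ω ⊗ₜ[R] n) = (σ • ω) ⊗ₜ[R] n := rfl

variable (R Ω Γ) in
/-- The elements of `Ω` fixed by `Γ` are fractions of elements of `R`
(e.g. `Ω^Γ = Frac R`). -/
def FixedInFrac : Prop :=
  ∀ ω : Ω, (∀ σ : Γ, σ • ω = ω) →
    ∃ s r : R, algebraMap R Ω s ≠ 0 ∧ algebraMap R Ω s * ω = algebraMap R Ω r

omit [SMulCommClass Γ R Ω] in
/-- common denominators -/
lemma exists_common_den (hF : FixedInFrac R Ω Γ) {ι : Type*} (t : Finset ι) (c : ι → Ω)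
    (hc : ∀ i ∈ t, ∀ σ : Γ, σ • c i = c i) :
    ∃ s : R, algebraMap R Ω s ≠ 0 ∧ ∀ i ∈ t, ∃ r : R, algebraMap R Ω s * c i = algebraMap R Ω r := by
  classical
  induction t using Finset.induction_on with
  | empty => exact ⟨1, by simp, by simp⟩
  | insert a t hat ih =>
    obtain ⟨s, hs, hr⟩ := ih (fun i hi => hc i (Finset.mem_insert_of_mem hi))
    obtain ⟨sa, ra, hsa, hra⟩ := hF (c a) (hc a (Finset.mem_insert_self a t))
    refine ⟨sa * s, by rw [map_mul]; exact mul_ne_zero hsa hs, ?_⟩
    intro i hi
    rcases Finset.mem_insert.1 hi with rfl | hi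
    · refine ⟨s * ra, ?_⟩
      rw [map_mul, map_mul, ← hra]; ring
    · obtain ⟨r, hr'⟩ := hr i hi
      refine ⟨sa * r, ?_⟩
      rw [map_mul, map_mul, ← hr']; ring

/-- **Galois descent**: `N` a free `R`-module, `Γ` acting on the field `Ω ⊇ R` with
`Ω^Γ ⊆ Frac R`.  A `Γ`-stable `Ω`-subspace `W` of `Ω ⊗[R] N` is spanned by the elements
`1 ⊗ₜ n` it contains. -/
theorem span_rational_eq [Module.Free R N] (hF : FixedInFrac R Ω Γ)
    (W : Submodule Ω (Ω ⊗[R] N)) (hW : ∀ (σ : Γ), ∀ w ∈ W, tensorAct σ w ∈ W) :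
    Submodule.span Ω {w | w ∈ W ∧ ∃ n : N, w = (1 : Ω) ⊗ₜ[R] n} = W := by
  classical
  apply le_antisymm
  · rw [Submodule.span_le]
    exact fun w hw => hw.1
  let b := Module.Free.chooseBasis R N
  let B := Algebra.TensorProduct.basis Ω b
  let E := B.repr
  -- compatibility of the actions
  have hE : ∀ (σ : Γ) (w : Ω ⊗[R] N), E (tensorAct σ w) = coordAct σ (E w) := by
    intro σ w
    induction w using TensorProduct.induction_on with
    | zero => ext i; simp
    | tmul ω n =>
      ext i
      simp only [tensorAct_tmul, E, B, Algebra.TensorProduct.basis_repr_tmul, coordAct_apply,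
        Finsupp.smul_apply, Finsupp.mapRange_apply, smul_eq_mul, smul_mul', smul_algebraMap]
    | add x y hx hy => rw [map_add, map_add, hx, hy, map_add, coordAct_add]
  let W' : Submodule Ω (_ →₀ Ω) := W.map E.toLinearMap
  have hW' : ∀ (σ : Γ), ∀ w ∈ W', coordAct σ w ∈ W' := by
    rintro σ _ ⟨w, hw, rfl⟩
    exact ⟨tensorAct σ w, hW σ w hw, hE σ w⟩
  have hspan := span_fixed_eq W' hW'
  intro w hw
  have hEw : E w ∈ W' := ⟨w, hw, rfl⟩
  rw [← hspan] at hEw
  -- pull back the span
  have hle : Submodule.span Ω {w | w ∈ W' ∧ IsFixedVec Γ w} ≤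
      (Submodule.span Ω {w | w ∈ W ∧ ∃ n : N, w = (1 : Ω) ⊗ₜ[R] n}).map E.toLinearMap := by
    rw [Submodule.span_le]
    rintro w' ⟨⟨w, hw, rfl⟩, hfix⟩
    refine ⟨w, ?_, rfl⟩
    -- common denominator for the coordinates of `w`
    obtain ⟨s, hs, hr⟩ := exists_common_den hF (E w).support (fun i => E w i)
      (fun i _ σ => hfix σ i)
    choose! r hr using hr
    let n : N := ∑ i ∈ (E w).support, r i • b i
    have hwn : algebraMap R Ω s • w = (1 : Ω) ⊗ₜ[R] n := by
      have h1 : w = ∑ i ∈ (E w).support, (E w i) • B i := by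
        conv_lhs => rw [← B.linearCombination_repr w]
        rfl
      conv_lhs => rw [h1]
      rw [Finset.smul_sum, TensorProduct.tmul_sum]
      refine Finset.sum_congr rfl fun i hi => ?_
      rw [smul_smul, hr i hi, Algebra.TensorProduct.basis_apply, TensorProduct.tmul_smul,
        algebraMap_smul]
    have hmem : (1 : Ω) ⊗ₜ[R] n ∈ W := hwn ▸ W.smul_mem _ hw
    have : w = (algebraMap R Ω s)⁻¹ • ((1 : Ω) ⊗ₜ[R] n) := by
      rw [← hwn, smul_smul, inv_mul_cancel₀ hs, one_smul]
    rw [this]
    exact Submodule.smul_mem _ _ (Submodule.subset_span ⟨hmem, n, rfl⟩)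
  obtain ⟨w₁, hw₁, hEw₁⟩ := hle hEw
  have : w₁ = w := E.injective hEw₁
  exact this ▸ hw₁

end Tensor

end

end Fermat.Agent.TW.FLAT.Descent6
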