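/-
Programme T, chapter FLAT, file Closure6 (F0.4): scheme theoretic closure of a finite
Galois-stable subgroup of points, WITHOUT Cartier's theorem (Galois descent instead).

Notation: `R` a commutative ring, `A` (or `H`) a commutative `R`-algebra, `Ω` a field with
`[Algebra R Ω]`, `Γ` a group with `[MulSemiringAction Γ Ω] [SMulCommClass Γ R Ω]`,
`hF : Descent6.FixedInFrac R Ω Γ` ("`Ω^Γ ⊆ Frac R`").

Evaluation at a family of points `φ : κ → (A →ₐ[R] Ω)`:
* `evFam φ : Ω ⊗[R] A →ₐ[Ω] (κ → Ω)`, `evFam φ (ω ⊗ₜ a) k = ω * φ k a`;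
  `vanishingIdeal φ : Ideal A` (`mem_vanishingIdeal : a ∈ _ ↔ ∀ k, φ k a = 0`);
  `quotFam φ k : A ⧸ vanishingIdeal φ →ₐ[R] Ω`; `quotFam_injective`; `evFam_quot_comp`.
* `StableFam Γ φ := ∀ σ k, ∃ k', φ k' = σ ∘ φ k`.
* KEY LEMMA: `ker_evFam_eq_span` (`A` free over `R`, `φ` stable):
    `ker (evFam φ) = span_Ω {1 ⊗ₜ a | a ∈ vanishingIdeal φ}`;
  `evFam_quot_injective : Injective (evFam (quotFam φ))`;
  `evFam_surjective [Finite κ] (hinj : Injective φ) : Surjective (evFam φ)` (no `Γ` needed).
* `eq_zero_of_lift_eq_zero` : for flat `A`, a finite family `ψ` with `a ↦ (ψ k a)_k` injective and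
  `evFam ψ` injective, a tensor `t : A ⊗[R] A` with `lift (ψ l) (ψ k) t = 0` for all `k l` is `0`.

Closure of a subgroup `M' : Subgroup (WithConv (H →ₐ[R] Ω))`, `H` a commutative Hopf algebra:
* `closureIdeal M' : Ideal H` (abbrev for `vanishingIdeal (subFam M')`),
  `mem_closureIdeal : x ∈ closureIdeal M' ↔ ∀ f ∈ M', f x = 0`;
* `quot_closureIdeal_isTorsionFree [IsDomain R] [FaithfulSMul R Ω]`;
* `closureIdeal_isHopfIdeal [IsDedekindDomain R] [FaithfulSMul R Ω] [Module.Free R H] (hF)
    (M') [Finite M'] (hM' : ∀ σ, ∀ f ∈ M', σ • f ∈ M') : (closureIdeal M').IsHopfIdeal R`;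
* `closedPts_closureIdeal [Module.Free R H] (hF) (M') [Finite M'] (hM')
    [(closureIdeal M').IsHopfIdeal R] : Closed6.closedPts R (closureIdeal M') Ω = M'`.
* `HasFlatModel.subgroup` : `R` a PID (domain + `IsPrincipalIdealRing`), `[FaithfulSMul R Ω]`, `hF`:
    `HasFlatModel R Ω Γ M act → ∀ (N : AddSubgroup M) (hN : ∀ σ, ∀ m ∈ N, act σ m ∈ N),
      HasFlatModel R Ω Γ N (fun σ n => ⟨act σ n.1, hN σ n.1 n.2⟩)`
  ("a Galois-stable subgroup of a flat module is flat").
-/
import Mathlib
import Fermat.Agent.TW.FLAT.Points6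
import Fermat.Agent.TW.FLAT.Closed6
import Fermat.Agent.TW.FLAT.Descent6

set_option autoImplicit false

namespace Fermat.Agent.TW.FLAT.Closure6

open WithConv TensorProduct Fermat.Agent.TW.FLAT.Points6 Fermat.Agent.TW.FLAT.Descent6

noncomputable section

section Eval

variable {R : Type*} [CommRing R] {A : Type*} [CommRing A] [Algebra R A]
  {Ω : Type*} [Field Ω] [Algebra R Ω] {κ : Type*}

/-- Evaluation at a family of `R`-algebra homs `φ k : A →ₐ[R] Ω`, as an `Ω`-algebra hom
`Ω ⊗[R] A → (κ → Ω)`, `ω ⊗ a ↦ (k ↦ ω * φ k a)`. -/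
def evFam (φ : κ → (A →ₐ[R] Ω)) : Ω ⊗[R] A →ₐ[Ω] (κ → Ω) :=
  AlgHom.pi (fun k => AlgHom.liftEquiv R Ω A Ω (φ k))

@[simp] lemma evFam_tmul (φ : κ → (A →ₐ[R] Ω)) (ω : Ω) (a : A) (k : κ) :
    evFam φ (ω ⊗ₜ[R] a) k = ω * φ k a := rfl

/-- The ideal of elements killed by all `φ k`. -/
def vanishingIdeal (φ : κ → (A →ₐ[R] Ω)) : Ideal A := ⨅ k, RingHom.ker (φ k)

lemma mem_vanishingIdeal (φ : κ → (A →ₐ[R] Ω)) (a : A) :
    a ∈ vanishingIdeal φ ↔ ∀ k, φ k a = 0 := by
  simp [vanishingIdeal, RingHom.mem_ker]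

lemma one_tmul_mem_ker_evFam (φ : κ → (A →ₐ[R] Ω)) (a : A) :
    (1 : Ω) ⊗ₜ[R] a ∈ LinearMap.ker (evFam φ).toLinearMap ↔ a ∈ vanishingIdeal φ := by
  rw [LinearMap.mem_ker, mem_vanishingIdeal, AlgHom.toLinearMap_apply, funext_iff]
  simp

/-- The family induced on the quotient by the vanishing ideal. -/
def quotFam (φ : κ → (A →ₐ[R] Ω)) (k : κ) : (A ⧸ vanishingIdeal φ) →ₐ[R] Ω :=
  Ideal.Quotient.liftₐ (vanishingIdeal φ) (φ k) (fun a ha => (mem_vanishingIdeal φ a).1 ha k)

@[simp] lemma quotFam_mk (φ : κ → (A →ₐ[R] Ω)) (k : κ) (a : A) :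
    quotFam φ k (Ideal.Quotient.mk _ a) = φ k a := rfl

/-- The quotient by the vanishing ideal embeds into `κ → Ω`. -/
lemma quotFam_injective (φ : κ → (A →ₐ[R] Ω)) :
    Function.Injective (fun (x : A ⧸ vanishingIdeal φ) (k : κ) => quotFam φ k x) := by
  intro x y hxy
  obtain ⟨a, rfl⟩ := Ideal.Quotient.mk_surjective x
  obtain ⟨b, rfl⟩ := Ideal.Quotient.mk_surjective y
  rw [Ideal.Quotient.eq, mem_vanishingIdeal]
  intro k
  have := congrFun hxy k
  simpa [sub_eq_zero] using this

lemma evFam_quot_comp (φ : κ → (A →ₐ[R] Ω)) :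
    (evFam (quotFam φ)).comp
      (Algebra.TensorProduct.map (AlgHom.id Ω Ω) (Ideal.Quotient.mkₐ R (vanishingIdeal φ))) =
    evFam φ := by
  ext a k
  simp

end Eval

section Key

variable {R : Type*} [CommRing R] {A : Type*} [CommRing A] [Algebra R A]
  {Ω : Type*} [Field Ω] [Algebra R Ω] {κ : Type*}
  {Γ : Type*} [Group Γ] [MulSemiringAction Γ Ω] [SMulCommClass Γ R Ω]

/-- `Γ`-stability of a family of points: `Γ` permutes the family. -/
def StableFam (Γ : Type*) [Group Γ] [MulSemiringAction Γ Ω] [SMulCommClass Γ R Ω]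
    (φ : κ → (A →ₐ[R] Ω)) : Prop :=
  ∀ (σ : Γ) (k : κ), ∃ k' : κ, φ k' = (MulSemiringAction.toAlgHom R Ω σ).comp (φ k)

/-- The kernel of the evaluation at a `Γ`-stable family is `Γ`-stable. -/
lemma tensorAct_mem_ker_evFam {φ : κ → (A →ₐ[R] Ω)} (hφ : StableFam Γ φ) (σ : Γ)
    (w : Ω ⊗[R] A) (hw : w ∈ LinearMap.ker (evFam φ).toLinearMap) :
    tensorAct σ w ∈ LinearMap.ker (evFam φ).toLinearMap := by
  rw [LinearMap.mem_ker, AlgHom.toLinearMap_apply] at hw ⊢
  -- `ev (σ w) k = σ (ev w k')` where `φ k' = σ⁻¹ ∘ φ k`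
  have key : ∀ (k k' : κ), φ k' = (MulSemiringAction.toAlgHom R Ω σ⁻¹).comp (φ k) →
      ∀ w : Ω ⊗[R] A, evFam φ (tensorAct σ w) k = σ • evFam φ w k' := by
    intro k k' hk w
    induction w using TensorProduct.induction_on with
    | zero => simp
    | tmul ω a =>
      rw [tensorAct_tmul, evFam_tmul, evFam_tmul, hk, smul_mul']
      simp
    | add x y hx hy =>
      rw [map_add, map_add, map_add, Pi.add_apply, Pi.add_apply, hx, hy, smul_add]
  funext k
  obtain ⟨k', hk'⟩ := hφ σ⁻¹ k
  rw [key k k' hk' w, hw]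
  simp

/-- **KEY LEMMA, kernel part**: for a `Γ`-stable family of points of a free `R`-algebra `A`,
with `Ω^Γ ⊆ Frac R`, the kernel of the evaluation `Ω ⊗[R] A → (κ → Ω)` is spanned by
`1 ⊗ a`, `a` in the vanishing ideal. -/
theorem ker_evFam_eq_span [Module.Free R A] (hF : FixedInFrac R Ω Γ) {φ : κ → (A →ₐ[R] Ω)}
    (hφ : StableFam Γ φ) :
    LinearMap.ker (evFam φ).toLinearMap =
      Submodule.span Ω {w | ∃ a ∈ vanishingIdeal φ, w = (1 : Ω) ⊗ₜ[R] a} := by
  have h := span_rational_eq hF (LinearMap.ker (evFam φ).toLinearMap)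
    (fun σ w hw => tensorAct_mem_ker_evFam hφ σ w hw)
  rw [← h]
  congr 1
  ext w
  constructor
  · rintro ⟨hw, a, rfl⟩
    exact ⟨a, (one_tmul_mem_ker_evFam φ a).1 hw, rfl⟩
  · rintro ⟨a, ha, rfl⟩
    exact ⟨(one_tmul_mem_ker_evFam φ a).2 ha, a, rfl⟩

/-- **KEY LEMMA, injectivity**: `Ω ⊗[R] (A ⧸ I') → (κ → Ω)` is injective, `I'` the vanishing
ideal of a `Γ`-stable family. -/
theorem evFam_quot_injective [Module.Free R A] (hF : FixedInFrac R Ω Γ)
    {φ : κ → (A →ₐ[R] Ω)} (hφ : StableFam Γ φ) :
    Function.Injective (evFam (quotFam φ)) := by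
  rw [injective_iff_map_eq_zero]
  intro x hx
  let g : Ω ⊗[R] A →ₗ[Ω] Ω ⊗[R] (A ⧸ vanishingIdeal φ) :=
    LinearMap.baseChange Ω (Ideal.Quotient.mkₐ R (vanishingIdeal φ)).toLinearMap
  have hπ : Function.Surjective g := by
    have := LinearMap.lTensor_surjective Ω
      (g := (Ideal.Quotient.mkₐ R (vanishingIdeal φ)).toLinearMap)
      (Ideal.Quotient.mkₐ_surjective R (vanishingIdeal φ))
    exact this
  obtain ⟨y, rfl⟩ := hπ x
  have hcomp : ∀ z : Ω ⊗[R] A, evFam (quotFam φ) (g z) = evFam φ z := by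
    intro z
    rw [← evFam_quot_comp φ]
    rfl
  have hy : y ∈ LinearMap.ker (evFam φ).toLinearMap := by
    rw [LinearMap.mem_ker, AlgHom.toLinearMap_apply, ← hcomp]
    exact hx
  rw [ker_evFam_eq_span hF hφ] at hy
  have hle : Submodule.span Ω {w | ∃ a ∈ vanishingIdeal φ, w = (1 : Ω) ⊗ₜ[R] a} ≤
      LinearMap.ker g := by
    rw [Submodule.span_le]
    rintro _ ⟨a, ha, rfl⟩
    rw [SetLike.mem_coe, LinearMap.mem_ker, LinearMap.baseChange_tmul]
    change (1 : Ω) ⊗ₜ[R] (Ideal.Quotient.mk (vanishingIdeal φ) a) = 0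
    rw [Ideal.Quotient.eq_zero_iff_mem.2 ha, TensorProduct.tmul_zero]
  exact hle hy

end Key

section Surjective

variable {R : Type*} [CommRing R] {A : Type*} [CommRing A] [Algebra R A]
  {Ω : Type*} [Field Ω] [Algebra R Ω] {κ : Type*}

/-- **KEY LEMMA, surjectivity** (independence of characters): evaluation at finitely many
pairwise distinct points is surjective. -/
theorem evFam_surjective [Finite κ] {φ : κ → (A →ₐ[R] Ω)} (hinj : Function.Injective φ) :
    Function.Surjective (evFam φ) := by
  classical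
  have := Fintype.ofFinite κ
  -- the coordinate functionals are linearly independent
  let F : κ → ((Ω ⊗[R] A) →ₐ[Ω] Ω) := fun k => AlgHom.liftEquiv R Ω A Ω (φ k)
  have hFinj : Function.Injective F := (AlgHom.liftEquiv R Ω A Ω).injective.comp hinj
  have hli : LinearIndependent Ω (fun k => (F k).toLinearMap) :=
    (linearIndependent_algHom_toLinearMap Ω (Ω ⊗[R] A) Ω).comp F hFinj
  change Function.Surjective (evFam φ).toLinearMap
  rw [← LinearMap.range_eq_top (f := (evFam φ).toLinearMap)]
  by_contra hne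
  obtain ⟨ψ, hψ0, hψ⟩ := Submodule.exists_le_ker_of_lt_top _ (lt_top_iff_ne_top.2 hne)
  apply hψ0
  have hsum : ∑ k, ψ (Pi.single k 1) • (F k).toLinearMap = 0 := by
    apply LinearMap.ext
    intro x
    have hx : (evFam φ).toLinearMap x ∈ LinearMap.ker ψ := hψ (LinearMap.mem_range_self _ x)
    rw [LinearMap.mem_ker, LinearMap.pi_apply_eq_sum_univ ψ] at hx
    rw [LinearMap.sum_apply, LinearMap.zero_apply, ← hx]
    refine Finset.sum_congr rfl fun k _ => ?_
    rw [LinearMap.smul_apply, smul_eq_mul, smul_eq_mul, mul_comm]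
    congr 1
    congr 1
    funext j
    by_cases hjk : k = j
    · subst hjk; simp
    · simp [hjk, Ne.symm hjk]
  have hc := Fintype.linearIndependent_iff.1 hli _ hsum
  apply LinearMap.pi_ext
  intro k x
  have : (Pi.single k x : κ → Ω) = x • Pi.single k 1 := by
    funext j
    by_cases hjk : j = k
    · subst hjk; simp
    · simp [hjk]
  rw [this, map_smul, hc k]
  simp

end Surjective

section Square

variable {R : Type*} [CommRing R] {A : Type*} [CommRing A] [Algebra R A]
  {Ω : Type*} [Field Ω] [Algebra R Ω] {κ : Type*}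

/-- If a flat `R`-algebra `A` embeds into `κ → Ω` through a finite family `ψ` of points for
which `Ω ⊗[R] A → (κ → Ω)` is injective, then `A ⊗[R] A` embeds into `κ × κ → Ω`: a tensor
`t` killed by all `ψ l ⊗ ψ k` is zero. -/
theorem eq_zero_of_lift_eq_zero [Finite κ] [Module.Flat R A] (ψ : κ → (A →ₐ[R] Ω))
    (hE : Function.Injective (fun (a : A) (k : κ) => ψ k a))
    (hev : Function.Injective (evFam ψ)) (t : A ⊗[R] A)
    (ht : ∀ k l : κ, Algebra.TensorProduct.lift (ψ l) (ψ k) (fun _ _ => Commute.all _ _) t = 0) :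
    t = 0 := by
  classical
  have := Fintype.ofFinite κ
  -- the embedding `E : A → (κ → Ω)`
  let E : A →ₗ[R] (κ → Ω) := LinearMap.pi (fun k => (ψ k).toLinearMap)
  have hEinj : Function.Injective E := hE
  have h1 : Function.Injective (LinearMap.lTensor A E) :=
    Module.Flat.lTensor_preserves_injective_linearMap E hEinj
  apply h1
  rw [map_zero]
  apply (TensorProduct.piRight R R A (fun _ : κ => Ω)).injective
  rw [map_zero]
  funext k
  -- the `k`-th component is `lTensor A (ψ k) t`
  have h2 : ∀ t : A ⊗[R] A, (TensorProduct.piRight R R A (fun _ : κ => Ω))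
      (LinearMap.lTensor A E t) k = LinearMap.lTensor A (ψ k).toLinearMap t := by
    intro t
    induction t using TensorProduct.induction_on with
    | zero => simp
    | tmul a b => simp [E]
    | add x y hx hy => simp only [map_add, Pi.add_apply, hx, hy]
  rw [h2, Pi.zero_apply]
  -- now use the injectivity of `evFam ψ ∘ comm`
  apply (TensorProduct.comm R A Ω).injective
  rw [map_zero]
  apply hev
  rw [map_zero]
  funext l
  have h3 : ∀ t : A ⊗[R] A, evFam ψ (TensorProduct.comm R A Ω
      (LinearMap.lTensor A (ψ k).toLinearMap t)) l =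
      Algebra.TensorProduct.lift (ψ l) (ψ k) (fun _ _ => Commute.all _ _) t := by
    intro t
    induction t using TensorProduct.induction_on with
    | zero => simp
    | tmul a b => simp [mul_comm]
    | add x y hx hy => simp only [map_add, Pi.add_apply, hx, hy]
  rw [h3, ht k l, Pi.zero_apply]

end Square

section Closure

variable {R : Type*} [CommRing R] {H : Type*} [CommRing H] [HopfAlgebra R H]
  {Ω : Type*} [Field Ω] [Algebra R Ω]

/-- The family of points of a subgroup of `G(Ω)`. -/
def subFam (M' : Subgroup (WithConv (H →ₐ[R] Ω))) : M' → (H →ₐ[R] Ω) := fun f => f.1.ofConv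

lemma subFam_injective (M' : Subgroup (WithConv (H →ₐ[R] Ω))) :
    Function.Injective (subFam M') := by
  intro f g hfg
  exact Subtype.ext (WithConv.ext hfg)

/-- The ideal of the (scheme theoretic) closure of a subgroup `M'` of `G(Ω)`: the functions
vanishing at all points of `M'`. -/
abbrev closureIdeal (M' : Subgroup (WithConv (H →ₐ[R] Ω))) : Ideal H :=
  vanishingIdeal (subFam M')

lemma mem_closureIdeal (M' : Subgroup (WithConv (H →ₐ[R] Ω))) (x : H) :
    x ∈ closureIdeal M' ↔ ∀ f ∈ M', f x = 0 := by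
  rw [closureIdeal, mem_vanishingIdeal]
  exact ⟨fun h f hf => h ⟨f, hf⟩, fun h k => h k.1 k.2⟩

variable {Γ : Type*} [Group Γ] [MulSemiringAction Γ Ω] [SMulCommClass Γ R Ω]

lemma stableFam_subFam (M' : Subgroup (WithConv (H →ₐ[R] Ω)))
    (hM' : ∀ (σ : Γ), ∀ f ∈ M', σ • f ∈ M') : StableFam Γ (subFam M') :=
  fun σ k => ⟨⟨σ • k.1, hM' σ k.1 k.2⟩, rfl⟩

/-- The quotient by the closure ideal is torsion free. -/
lemma quot_closureIdeal_isTorsionFree [IsDomain R] [FaithfulSMul R Ω]
    (M' : Subgroup (WithConv (H →ₐ[R] Ω))) :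
    Module.IsTorsionFree R (H ⧸ closureIdeal M') := by
  apply Module.IsTorsionFree.of_smul_eq_zero
  intro r a hra
  by_cases hr : r = 0
  · exact Or.inl hr
  right
  apply quotFam_injective (subFam M')
  funext k
  have h1 : quotFam (subFam M') k (r • a) = 0 := by rw [hra, map_zero]
  rw [map_smul, Algebra.smul_def, mul_eq_zero] at h1
  rcases h1 with h1 | h1
  · exact absurd ((map_eq_zero_iff _ (FaithfulSMul.algebraMap_injective R Ω)).1 h1) hr
  · simpa using h1

/-- **The closure ideal of a finite Galois-stable subgroup is a Hopf ideal.** -/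
theorem closureIdeal_isHopfIdeal [IsDedekindDomain R] [FaithfulSMul R Ω] [Module.Free R H]
    (hF : FixedInFrac R Ω Γ) (M' : Subgroup (WithConv (H →ₐ[R] Ω))) [Finite M']
    (hM' : ∀ (σ : Γ), ∀ f ∈ M', σ • f ∈ M') : (closureIdeal M').IsHopfIdeal R := by
  have hflat : Module.Flat R (H ⧸ closureIdeal M') := by
    have := quot_closureIdeal_isTorsionFree (R := R) M'
    infer_instance
  refine { counit_eq_zero := ?_, map_mkQ_comul_eq_zero := ?_, antipode_mem := ?_ }
  · -- counit
    intro x hx
    have hx' : x ∈ closureIdeal M' := hx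
    have h1 := (mem_closureIdeal M' x).1 hx' 1 M'.one_mem
    rw [AlgHom.convOne_apply] at h1
    exact (map_eq_zero_iff _ (FaithfulSMul.algebraMap_injective R Ω)).1 h1
  · -- comultiplication
    intro x hx
    have hx' : x ∈ closureIdeal M' := hx
    let t : (H ⧸ closureIdeal M') ⊗[R] (H ⧸ closureIdeal M') :=
      Algebra.TensorProduct.map (Ideal.Quotient.mkₐ R (closureIdeal M'))
        (Ideal.Quotient.mkₐ R (closureIdeal M')) (Coalgebra.comul (R := R) x)
    have ht : t = 0 := by
      apply eq_zero_of_lift_eq_zero (quotFam (subFam M')) (quotFam_injective (subFam M'))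
        (evFam_quot_injective hF (stableFam_subFam M' hM'))
      intro k l
      have hcomp : (Algebra.TensorProduct.lift (quotFam (subFam M') l) (quotFam (subFam M') k)
          (fun _ _ => Commute.all _ _)).comp
          (Algebra.TensorProduct.map (Ideal.Quotient.mkₐ R (closureIdeal M'))
            (Ideal.Quotient.mkₐ R (closureIdeal M'))) =
          Algebra.TensorProduct.lift (subFam M' l) (subFam M' k) (fun _ _ => Commute.all _ _) := by
        ext a <;> simp [closureIdeal]
      have h2 : Algebra.TensorProduct.lift (quotFam (subFam M') l) (quotFam (subFam M') k)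
          (fun _ _ => Commute.all _ _) t =
          Algebra.TensorProduct.lift (subFam M' l) (subFam M' k) (fun _ _ => Commute.all _ _)
            (Coalgebra.comul (R := R) x) := by
        rw [← hcomp]; rfl
      rw [h2]
      have h3 := AlgHom.convMul_apply (l.1) (k.1) x
      have h4 := (mem_closureIdeal M' x).1 hx' (l.1 * k.1) (M'.mul_mem l.2 k.2)
      rw [h3] at h4
      exact h4
    exact ht
  · -- antipode
    intro x hx
    rw [mem_closureIdeal] at hx ⊢
    intro f hf
    have := hx f⁻¹ (M'.inv_mem hf)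
    rwa [inv_apply] at this

/-- **The points of the closure are exactly `M'`.** -/
theorem closedPts_closureIdeal [Module.Free R H]
    (hF : FixedInFrac R Ω Γ) (M' : Subgroup (WithConv (H →ₐ[R] Ω))) [Finite M']
    (hM' : ∀ (σ : Γ), ∀ f ∈ M', σ • f ∈ M') [(closureIdeal M').IsHopfIdeal R] :
    Closed6.closedPts R (closureIdeal M') Ω = M' := by
  classical
  ext g
  rw [Closed6.mem_closedPts_iff]
  constructor
  · intro hg
    by_contra hgM
    -- the point of the quotient defined by `g`
    let gbar : (H ⧸ closureIdeal M') →ₐ[R] Ω := Ideal.Quotient.liftₐ _ g.ofConv hg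
    let fam : Option M' → ((H ⧸ closureIdeal M') →ₐ[R] Ω) := fun o =>
      match o with
      | none => gbar
      | some k => quotFam (subFam M') k
    have hfam : Function.Injective fam := by
      have hq : ∀ k : M', ∀ ψ : (H ⧸ closureIdeal M') →ₐ[R] Ω,
          quotFam (subFam M') k = ψ → ∀ x : H, k.1 x = ψ (Ideal.Quotient.mk _ x) := by
        intro k ψ h x
        rw [← h]; rfl
      intro o o' h
      match o, o' with
      | none, none => rfl
      | none, some k =>
        exfalso
        apply hgM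
        have : g = k.1 := by
          ext x
          exact (hq k gbar h.symm x).symm
        rw [this]; exact k.2
      | some k, none =>
        exfalso
        apply hgM
        have : g = k.1 := by
          ext x
          exact (hq k gbar h x).symm
        rw [this]; exact k.2
      | some k, some k' =>
        congr 1
        apply subFam_injective M'
        apply AlgHom.ext
        intro x
        exact hq k _ h x
    obtain ⟨x, hx⟩ := evFam_surjective hfam (Pi.single none 1)
    have h0 : evFam (quotFam (subFam M')) x = 0 := by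
      funext k
      have h1 : evFam fam x (some k) = 0 := by
        have := congrFun hx (some k)
        simpa using this
      exact h1
    have hx0 : x = 0 :=
      (injective_iff_map_eq_zero _).1
        (evFam_quot_injective hF (stableFam_subFam M' hM')) x h0
    have := congrFun hx none
    rw [hx0, map_zero] at this
    simp at this
  · intro hg x hx
    exact (mem_closureIdeal M' x).1 hx g hg

end Closure

section Model

variable {R : Type} [CommRing R] [IsDomain R] [IsPrincipalIdealRing R]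
  {Ω : Type} [Field Ω] [Algebra R Ω] [FaithfulSMul R Ω]
  {Γ : Type} [Group Γ] [MulSemiringAction Γ Ω] [SMulCommClass Γ R Ω]
  {M : Type} [AddCommGroup M] {act : Γ → M → M}

/-- **Subobjects of flat are flat**: if the `Γ`-module `M` is the group of `Ω`-points of a
finite flat commutative group scheme over the principal ideal domain `R` (with
`Ω^Γ ⊆ Frac R`), then so is every `Γ`-stable subgroup `N` of `M` (scheme theoretic closure). -/
theorem _root_.Fermat.Agent.TW.FLAT.Points6.HasFlatModel.subgroup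
    (hF : FixedInFrac R Ω Γ) (h : HasFlatModel R Ω Γ M act) (N : AddSubgroup M)
    (hN : ∀ (σ : Γ), ∀ m ∈ N, act σ m ∈ N) :
    HasFlatModel R Ω Γ N (fun σ n => ⟨act σ n.1, hN σ n.1 n.2⟩) := by
  obtain ⟨H, i1, i2, hfin, hflat, hco, e, hmul, heq⟩ := h
  have he1 : e 1 = 0 := by
    have := hmul 1 1
    rw [mul_one] at this
    exact left_eq_add.mp this
  have heinv : ∀ f, e f⁻¹ = - e f := by
    intro f
    have := hmul f f⁻¹
    rw [mul_inv_cancel, he1] at this
    exact (neg_eq_of_add_eq_zero_right this.symm).symm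
  -- the subgroup of points
  let M' : Subgroup (WithConv (H →ₐ[R] Ω)) :=
    { carrier := {f | e f ∈ N}
      one_mem' := by
        change e 1 ∈ N
        rw [he1]; exact N.zero_mem
      mul_mem' := by
        intro f g hf hg
        change e (f * g) ∈ N
        rw [hmul]; exact N.add_mem hf hg
      inv_mem' := by
        intro f hf
        change e f⁻¹ ∈ N
        rw [heinv]; exact N.neg_mem hf }
  have hM' : ∀ (σ : Γ), ∀ f ∈ M', σ • f ∈ M' := by
    intro σ f hf
    change e (σ • f) ∈ N
    rw [heq]; exact hN σ _ hf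
  have hfree : Module.Free R H := inferInstance
  have hHopf : (closureIdeal M').IsHopfIdeal R := closureIdeal_isHopfIdeal hF M' hM'
  have htf : Module.IsTorsionFree R (H ⧸ closureIdeal M') := quot_closureIdeal_isTorsionFree M'
  have hpts := closedPts_closureIdeal hF M' hM'
  have hmem : ∀ g : WithConv (H →ₐ[R] Ω),
      g ∈ Closed6.closedPts R (closureIdeal M') Ω ↔ e g ∈ N := by
    intro g
    rw [hpts]
    rfl
  let e₀ : Closed6.closedPts R (closureIdeal M') Ω ≃ N :=
    { toFun := fun f => ⟨e f.1, (hmem f.1).1 f.2⟩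
      invFun := fun n => ⟨e.symm n.1, (hmem _).2 (by rw [e.apply_symm_apply]; exact n.2)⟩
      left_inv := fun f => Subtype.ext (e.symm_apply_apply f.1)
      right_inv := fun n => Subtype.ext (e.apply_symm_apply n.1) }
  let e' : WithConv ((H ⧸ closureIdeal M') →ₐ[R] Ω) ≃ N :=
    (Closed6.ptsQuotEquiv (R := R) (B := Ω) (closureIdeal M')).toEquiv.trans e₀
  have he' : ∀ F : WithConv ((H ⧸ closureIdeal M') →ₐ[R] Ω),
      ((e' F : N) : M) = e (Closed6.ptsQuotEquiv (R := R) (B := Ω) (closureIdeal M') F).1 :=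
    fun _ => rfl
  refine ⟨H ⧸ closureIdeal M', inferInstance, inferInstance, inferInstance, inferInstance,
    inferInstance, e', ?_, ?_⟩
  · intro f g
    apply Subtype.ext
    rw [he', map_mul]
    exact hmul _ _
  · intro σ f
    apply Subtype.ext
    rw [he']
    change e (σ • (Closed6.ptsQuotEquiv (R := R) (B := Ω) (closureIdeal M') f).1) =
      act σ (e (Closed6.ptsQuotEquiv (R := R) (B := Ω) (closureIdeal M') f).1)
    exact heq σ _

end Model

end

end Fermat.Agent.TW.FLAT.Closure6
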