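/-
Programme T (Taylor–Wiles primes), chapter T/FLAT, brick F8.4 (helper7):
**group schemes of multiplicative type: if the Cartier dual is étale (unramified), inertia acts on
the points through the cyclotomic character.**  Also: when is `L ⊗ H` the algebra of functions on
the points (`evPoints` injective/bijective), which feeds the perfectness of the Cartier pairing.

* `cartierPairing_left_injective` (left non-degeneracy): if
  `evPoints R (CDual R H) B : B ⊗ H^D → (G^D(B) → B)` is injective, then `x ∈ G(B)` is determined by
  the pairings `⟨x, φ⟩`, `φ ∈ G^D(B)`;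
* `mulMap_eq_liftEquiv`, `eq_zero_of_forall_mulMap_eq_zero`: `L` algebraically closed, `S` a finite
  `R`-algebra with `L ⊗ S` reduced: an element of `L ⊗ S` vanishing at all `L`-points of `S` is `0`;
* `evPoints_eq_evFam` (bridge to `Closure6.evFam`), `evPoints_surjective` (finitely many points),
  `evPoints_injective_of_isReduced`, `evPoints_injective_of_unramified`,
  `evPoints_bijective_of_isReduced`, `evPoints_bijective_of_unramified`
  (so `CartierPerfect7.dualPointsEquiv` applies to étale `H` and algebraically closed `L`);
* `smul_dual_eq_of_mem_inertia`: inertia acts trivially on `G^D(L)` when `H^D` is unramified;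
* **`smul_eq_pow_of_dual_unramified`** / **`smul_eq_pow_of_dual_unramified'`** (`L` alg. closed):
  `H` finite free commutative cocommutative Hopf over `R`, `CDual R H` formally unramified over `R`,
  `A` a valuation subring of `L` containing `R`, `σ ∈ A.inertiaSubgroupIn K`, `n` killing `G(L)`,
  `σ ζ = ζ ^ c` on `n`-th roots of unity: then `σ • x = x ^ c` for all `x ∈ G(L)`.
-/
import Mathlib
import Fermat.Agent.TW.FLAT.CartierPerfect7
import Fermat.Agent.TW.FLAT.ConnEt7
import Fermat.Agent.TW.FLAT.Closure6

set_option autoImplicit false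

open TensorProduct WithConv

namespace Fermat.Agent.TW.FLAT.Mult7

open Fermat.Agent.TW.FLAT.CartierDual7 Fermat.Agent.TW.FLAT.CartierPairing7
  Fermat.Agent.TW.FLAT.CartierPerfect7 Fermat.Agent.TW.FLAT.Points6 Fermat.Agent.TW.FLAT.ConnEt7
open scoped Fermat.Agent.TW.FLAT.CartierDual7

section LeftNondeg

variable {R H B : Type*} [CommSemiring R] [Semiring H] [Bialgebra R H] [Module.Free R H]
  [Module.Finite R H] [CommSemiring B] [Algebra R B]

/-- **Left non-degeneracy of the Cartier pairing**: if evaluation at the points of the dual is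
injective on `B ⊗ H^D`, a point `x ∈ G(B)` is determined by its pairings with `G^D(B)`. -/
theorem cartierPairing_left_injective (hev : Function.Injective (evPoints R (CDual R H) B))
    (x y : WithConv (H →ₐ[R] B)) (h : ∀ φ, cartierPairing x φ = cartierPairing y φ) : x = y := by
  have h1 : (thetaD R H B).symm (toConv x.ofConv.toLinearMap) =
      (thetaD R H B).symm (toConv y.ofConv.toLinearMap) := by
    apply hev
    ext φ
    have := h φ
    unfold cartierPairing at this
    rw [pair_eq_mulMap_thetaD_symm, pair_eq_mulMap_thetaD_symm] at this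
    exact this
  have h2 := (thetaD R H B).symm.injective h1
  apply WithConv.ofConv_injective
  apply AlgHom.toLinearMap_injective
  exact WithConv.toConv_injective h2

end LeftNondeg

section EvInj

variable {R L S : Type*} [CommRing R] [Field L] [IsAlgClosed L] [Algebra R L] [CommRing S]
  [Algebra R S] [Module.Finite R S]

omit [IsAlgClosed L] [Module.Finite R S] in
theorem mulMap_eq_liftEquiv (x : S →ₐ[R] L) (g : L ⊗[R] S) :
    mulMap x.toLinearMap g = AlgHom.liftEquiv R L S L x g := by
  induction g using TensorProduct.induction_on with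
  | zero => simp
  | add g₁ g₂ h₁ h₂ => rw [map_add, h₁, h₂, map_add]
  | tmul l s => simp

/-- **Points separate the elements of a reduced finite algebra over an algebraically closed
field**: if `L ⊗ S` is reduced and `g ∈ L ⊗ S` vanishes at all `L`-points of `S`, then `g = 0`. -/
theorem eq_zero_of_forall_mulMap_eq_zero [IsReduced (L ⊗[R] S)] (g : L ⊗[R] S)
    (hg : ∀ x : S →ₐ[R] L, mulMap x.toLinearMap g = 0) : g = 0 := by
  have hart : IsArtinianRing (L ⊗[R] S) := IsArtinianRing.of_finite L _
  have hmem : g ∈ (⊥ : Ideal (L ⊗[R] S)).jacobson := by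
    rw [Ideal.jacobson, Ideal.mem_sInf]
    rintro 𝔪 ⟨-, h𝔪⟩
    have hbij : Function.Bijective (algebraMap L ((L ⊗[R] S) ⧸ 𝔪)) := by
      let _ : Field ((L ⊗[R] S) ⧸ 𝔪) := Ideal.Quotient.field 𝔪
      exact IsAlgClosed.algebraMap_bijective_of_isIntegral
    let e : L ≃ₐ[L] ((L ⊗[R] S) ⧸ 𝔪) := AlgEquiv.ofBijective (Algebra.ofId L _) hbij
    let y : (L ⊗[R] S) →ₐ[L] L := (e.symm : _ →ₐ[L] L).comp (Ideal.Quotient.mkₐ L 𝔪)
    have hy : y g = 0 := by
      have h1 := hg ((AlgHom.liftEquiv R L S L).symm y)
      rwa [mulMap_eq_liftEquiv, Equiv.apply_symm_apply] at h1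
    have h2 : Ideal.Quotient.mkₐ L 𝔪 g = 0 := by
      have := congrArg e hy
      simpa [y] using this
    rwa [Ideal.Quotient.mkₐ_eq_mk, Ideal.Quotient.eq_zero_iff_mem] at h2
  rw [IsArtinianRing.jacobson_eq_radical] at hmem
  obtain ⟨n, hn⟩ := hmem
  exact IsNilpotent.eq_zero ⟨n, hn⟩

end EvInj

section EvBij

variable {R L H : Type*} [CommRing R] [Field L] [Algebra R L] [CommRing H] [Bialgebra R H]

/-- `evPoints` is `Closure6.evFam` for the family of all points. -/
theorem evPoints_eq_evFam (g : L ⊗[R] H) :
    evPoints R H L g =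
      Fermat.Agent.TW.FLAT.Closure6.evFam (fun x : WithConv (H →ₐ[R] L) => x.ofConv) g := by
  induction g using TensorProduct.induction_on with
  | zero => simp
  | add g₁ g₂ h₁ h₂ => rw [map_add, h₁, h₂, map_add]
  | tmul l h => rfl

/-- Evaluation at the points is surjective as soon as there are finitely many points. -/
theorem evPoints_surjective [Finite (WithConv (H →ₐ[R] L))] :
    Function.Surjective (evPoints R H L) := by
  intro f
  obtain ⟨g, hg⟩ := Fermat.Agent.TW.FLAT.Closure6.evFam_surjective
    (φ := fun x : WithConv (H →ₐ[R] L) => x.ofConv) WithConv.ofConv_injective f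
  exact ⟨g, by rw [evPoints_eq_evFam, hg]⟩

variable [IsAlgClosed L] [Module.Finite R H]

/-- Evaluation at the points is injective when `L` is algebraically closed and `L ⊗ H` reduced. -/
theorem evPoints_injective_of_isReduced [IsReduced (L ⊗[R] H)] :
    Function.Injective (evPoints R H L) := by
  rw [injective_iff_map_eq_zero]
  intro g hg
  exact eq_zero_of_forall_mulMap_eq_zero g (fun x => congrFun hg (toConv x))

/-- For an unramified (étale) finite algebra and `L` algebraically closed, `L ⊗ H` is the algebra of
functions on the points. -/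
theorem evPoints_injective_of_unramified [Algebra.FormallyUnramified R H] :
    Function.Injective (evPoints R H L) := by
  have : IsReduced (L ⊗[R] H) := Algebra.FormallyUnramified.isReduced_of_field L (L ⊗[R] H)
  exact evPoints_injective_of_isReduced

/-- `L ⊗ H` is the algebra of functions on `G(L)` when `L` is algebraically closed and `L ⊗ H` is
reduced (`G(L)` finite). -/
theorem evPoints_bijective_of_isReduced [IsReduced (L ⊗[R] H)]
    [Finite (WithConv (H →ₐ[R] L))] : Function.Bijective (evPoints R H L) :=
  ⟨evPoints_injective_of_isReduced, evPoints_surjective⟩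

theorem evPoints_bijective_of_unramified [Algebra.FormallyUnramified R H]
    [Finite (WithConv (H →ₐ[R] L))] : Function.Bijective (evPoints R H L) :=
  ⟨evPoints_injective_of_unramified, evPoints_surjective⟩

end EvBij

section Mult

variable {R K L H : Type*} [CommRing R] [Field K] [Field L] [Algebra K L] [Algebra R K]
  [Algebra R L] [IsScalarTower R K L] [CommRing H] [HopfAlgebra R H] [Coalgebra.IsCocomm R H]
  [Module.Free R H] [Module.Finite R H] [Algebra.FormallyUnramified R (CDual R H)]
  (A : ValuationSubring L) [Algebra R A] [IsScalarTower R A L]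

/-- Inertia acts trivially on the points of the Cartier dual when the dual is unramified. -/
theorem smul_dual_eq_of_mem_inertia {σ : L ≃ₐ[K] L} (hσ : σ ∈ A.inertiaSubgroupIn K)
    (φ : WithConv (CDual R H →ₐ[R] L)) : σ • φ = φ :=
  smul_eq_of_mem_inertia_of_unramified A hσ φ

/-- **Multiplicative type ⇒ inertia acts through the cyclotomic character.**  If the Cartier dual
of `H` is unramified (étale) over `R` and the Cartier pairing is left non-degenerate on `L`-points
(`hev`), then every `σ` in the inertia group of `A` acts on `G(L)` by `x ↦ x ^ c`, where `n` kills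
`G(L)` and `c` is the exponent by which `σ` acts on the `n`-th roots of unity of `L`. -/
theorem smul_eq_pow_of_dual_unramified
    (hev : Function.Injective (evPoints R (CDual R H) L))
    {σ : L ≃ₐ[K] L} (hσ : σ ∈ A.inertiaSubgroupIn K) (n c : ℕ)
    (hn : ∀ x : WithConv (H →ₐ[R] L), x ^ n = 1)
    (hc : ∀ ζ : L, ζ ^ n = 1 → σ ζ = ζ ^ c)
    (x : WithConv (H →ₐ[R] L)) : σ • x = x ^ c := by
  apply cartierPairing_left_injective hev
  intro φ
  have h1 : cartierPairing (σ • x) φ = σ • cartierPairing x φ := by
    conv_lhs => rw [← smul_dual_eq_of_mem_inertia A hσ φ]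
    exact cartierPairing_smul σ x φ
  have h2 : cartierPairing (x ^ c) φ = cartierPairing x φ ^ c := by
    have h3 := congr($(map_pow (cartierPairingHom R H L) x c) φ)
    rw [MonoidHom.pow_apply] at h3
    exact h3
  rw [h1, h2, AlgEquiv.smul_def]
  exact hc _ (cartierPairing_pow_eq_one x φ n (hn x))

/-- **Multiplicative type ⇒ cyclotomic inertia action**, for `L` algebraically closed: no
non-degeneracy hypothesis is needed (`L ⊗ H^D` is reduced because `H^D` is unramified). -/
theorem smul_eq_pow_of_dual_unramified' [IsAlgClosed L]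
    {σ : L ≃ₐ[K] L} (hσ : σ ∈ A.inertiaSubgroupIn K) (n c : ℕ)
    (hn : ∀ x : WithConv (H →ₐ[R] L), x ^ n = 1)
    (hc : ∀ ζ : L, ζ ^ n = 1 → σ ζ = ζ ^ c)
    (x : WithConv (H →ₐ[R] L)) : σ • x = x ^ c := by
  have hev : Function.Injective (evPoints R (CDual R H) L) :=
    evPoints_injective_of_unramified (R := R) (L := L) (H := CDual R H)
  exact smul_eq_pow_of_dual_unramified A hev hσ n c hn hc x

end Mult

end Fermat.Agent.TW.FLAT.Mult7
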