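/-
Programme T, chapter FLAT, file MultPart7 (helper7): **the multiplicative part of the points of a
finite flat group scheme is intrinsic (`e < p - 1`)**.

Setting (`ConnEt7`/`IntrinsicConn7`): `R → K → L` (fields `K`, `L`), `A : ValuationSubring L` containing
the image of `R`, `I = A.inertiaSubgroupIn K`; `H` a finite free commutative cocommutative Hopf algebra
over `R`, `H^D = CDual R H`, `G(L) = WithConv (H →ₐ[R] L)`, `G^D(L) = WithConv (CDual R H →ₐ[R] L)`.

* `cartierPairing_mapH` : naturality of the Cartier pairing in the Hopf algebra: for `ψ : H →ₐc[R] H'`,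
  `⟨x' ∘ ψ, φ⟩_H = ⟨x', φ ∘ ψᵀ⟩_{H'}`.
* `multPts A : Subgroup G(L)` — the orthogonal of `connPts(G^D)` under the Cartier pairing (the points of
  the multiplicative part `G^m = ((G^D)^ét)^D`); `mem_multPts_iff`.
* `smul_eq_pow_of_mem_multPts` : inertia acts on `multPts A` through the cyclotomic character
  (`σ • y = y ^ c` if `σ ζ = ζ ^ c` on `n`-th roots of unity, `n` killing `G(L)`), given left
  non-degeneracy (`hevD : Injective (evPoints R (CDual R H) L)`).
* **(C2)** `mapH_mem_multPts` : place hypotheses `hp hp2 hpA hp0 hunr hsep` of `IntrinsicConn7`.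
  If `ψ : H →ₐc[R] H'` is a map to another finite free Hopf algebra whose `L`-points are separated by
  evaluation (`hev' : Injective (evPoints R H' L)`) and such that inertia acts on `G'(L)` through the
  cyclotomic character, then `mapH ψ` maps `G'(L)` into `multPts A`:
  **a subgroup scheme on whose points inertia acts by the cyclotomic character is of multiplicative
  type** (for absolutely unramified base, `p` odd).
* `mem_connPts_dual_of_forall_multPts` (`L` algebraically closed of characteristic `0`, `hev` bijective):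
  the orthogonal of `multPts A` is `connPts(G^D)` (double orthogonal);
* **(INT-b)** `eq_one_of_fixed_of_forall_multPts` : a point `φ ∈ G^D(L)` fixed by inertia and orthogonal
  to `multPts A` is trivial.
-/
import Mathlib
import Fermat.Agent.TW.FLAT.IntrinsicConn7
import Fermat.Agent.TW.FLAT.Mult7

set_option autoImplicit false
set_option linter.style.haveILetI false

open WithConv IsLocalRing TensorProduct

namespace Fermat.Agent.TW.FLAT.MultPart7

open Fermat.Agent.TW.FLAT.CartierDual7 Fermat.Agent.TW.FLAT.CartierPairing7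
  Fermat.Agent.TW.FLAT.CartierPerfect7 Fermat.Agent.TW.FLAT.Points6 Fermat.Agent.TW.FLAT.ConnEt7
  Fermat.Agent.TW.FLAT.IntrinsicConn7 Fermat.Agent.TW.FLAT.Mult7
open scoped Fermat.Agent.TW.FLAT.CartierDual7

noncomputable section

section Naturality

variable {R H H' B : Type*} [CommSemiring R] [CommSemiring H] [HopfAlgebra R H]
  [Coalgebra.IsCocomm R H] [Module.Free R H] [Module.Finite R H] [CommSemiring H'] [HopfAlgebra R H']
  [Coalgebra.IsCocomm R H'] [Module.Free R H'] [Module.Finite R H'] [CommSemiring B] [Algebra R B]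

/-- **Naturality of the Cartier pairing in the Hopf algebra.** -/
theorem cartierPairing_mapH (ψ : H →ₐc[R] H') (x' : WithConv (H' →ₐ[R] B))
    (φ : WithConv (CDual R H →ₐ[R] B)) :
    cartierPairing (mapH ψ x') φ = cartierPairing x' (mapH (transposeBialgHom ψ) φ) := by
  set g : B ⊗[R] H := (thetaH R H B).symm (toConv φ.ofConv.toLinearMap) with hg
  have hg1 : thetaH R H B g = toConv φ.ofConv.toLinearMap := by rw [hg, AlgEquiv.apply_symm_apply]
  have hψL : (ψ : H →ₐ[R] H').toLinearMap = ((ψ : H →ₐ[R] H') : H →ₗ[R] H') := rfl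
  have key : ∀ g : B ⊗[R] H,
      (thetaH R H' B (LinearMap.lTensor B (ψ : H →ₐ[R] H').toLinearMap g) :
        WithConv (CDual R H' →ₗ[R] B)) =
      toConv ((thetaH R H B g).ofConv ∘ₗ (transposeBialgHom ψ : CDual R H' →ₐ[R] CDual R H).toLinearMap) := by
    intro g
    induction g using TensorProduct.induction_on with
    | zero =>
      apply WithConv.ofConv_injective
      ext f
      simp
    | add g₁ g₂ h₁ h₂ =>
      rw [map_add, map_add, h₁, h₂, map_add]
      rfl
    | tmul β h =>
      apply WithConv.ofConv_injective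
      ext f
      rfl
  have key2 : ∀ g : B ⊗[R] H,
      mulMap (mapH ψ x').ofConv.toLinearMap g =
        mulMap x'.ofConv.toLinearMap (LinearMap.lTensor B (ψ : H →ₐ[R] H').toLinearMap g) := by
    intro g
    induction g using TensorProduct.induction_on with
    | zero => simp
    | add g₁ g₂ h₁ h₂ => rw [map_add, map_add, map_add, h₁, h₂]
    | tmul β h => rfl
  rw [cartierPairing_eq_of_thetaH (mapH ψ x') φ g hg1, key2,
    cartierPairing_eq_of_thetaH x' (mapH (transposeBialgHom ψ) φ)
      (LinearMap.lTensor B (ψ : H →ₐ[R] H').toLinearMap g)]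
  rw [key g, hg1]
  rfl

end Naturality

section Mult

variable {R K L H : Type*} [CommRing R] [Field K] [Field L] [Algebra K L] [Algebra R K]
  [Algebra R L] [IsScalarTower R K L] [CommRing H] [HopfAlgebra R H] [Coalgebra.IsCocomm R H]
  [Module.Free R H] [Module.Finite R H]
  (A : ValuationSubring L) [Algebra R A] [IsScalarTower R A L]

variable (H) in
/-- **The multiplicative points**: the orthogonal of the connected points of the Cartier dual. -/
def multPts : Subgroup (WithConv (H →ₐ[R] L)) where
  carrier := {y | ∀ φ ∈ connPts (H := CDual R H) A, cartierPairing y φ = 1}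
  mul_mem' := fun {a b} ha hb φ hφ => by
    rw [cartierPairing_mul_left, ha φ hφ, hb φ hφ, one_mul]
  one_mem' := fun φ _ => cartierPairing_one_left φ
  inv_mem' := fun {a} ha φ hφ => by
    have h1 : cartierPairing (a⁻¹ * a) φ = 1 := by rw [inv_mul_cancel, cartierPairing_one_left]
    rw [cartierPairing_mul_left, ha φ hφ, mul_one] at h1
    exact h1

theorem mem_multPts_iff {y : WithConv (H →ₐ[R] L)} :
    y ∈ multPts H A ↔ ∀ φ ∈ connPts (H := CDual R H) A, cartierPairing y φ = 1 := Iff.rfl

omit [Coalgebra.IsCocomm R H] in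
theorem cartierPairing_pow_left (x : WithConv (H →ₐ[R] L)) (φ : WithConv (CDual R H →ₐ[R] L))
    (c : ℕ) : cartierPairing (x ^ c) φ = cartierPairing x φ ^ c := by
  have h3 := congr($(map_pow (cartierPairingHom R H L) x c) φ)
  rw [MonoidHom.pow_apply] at h3
  exact h3

/-- **Inertia acts on the multiplicative points through the cyclotomic character.** -/
theorem smul_eq_pow_of_mem_multPts
    (hevD : Function.Injective (evPoints R (CDual R H) L))
    {σ : L ≃ₐ[K] L} (hσ : σ ∈ A.inertiaSubgroupIn K) (n c : ℕ)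
    (hn : ∀ x : WithConv (H →ₐ[R] L), x ^ n = 1)
    (hc : ∀ ζ : L, ζ ^ n = 1 → σ ζ = ζ ^ c)
    {y : WithConv (H →ₐ[R] L)} (hy : y ∈ multPts H A) : σ • y = y ^ c := by
  apply cartierPairing_left_injective hevD
  intro φ
  -- `φ = σ • (σ⁻¹ • φ)` and `σ⁻¹ • φ ≡ φ` modulo connected points
  have hσ' : σ⁻¹ ∈ A.inertiaSubgroupIn K := inv_mem hσ
  have h0 : σ⁻¹ • φ * φ⁻¹ ∈ connPts (H := CDual R H) A := smul_mul_inv_mem_connPts A hσ' φ
  have h1 : cartierPairing y (σ⁻¹ • φ) = cartierPairing y φ := by
    have : σ⁻¹ • φ = (σ⁻¹ • φ * φ⁻¹) * φ := (inv_mul_cancel_right (σ⁻¹ • φ) φ).symm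
    rw [this, cartierPairing_mul_right, hy _ h0, one_mul]
  have h2 : cartierPairing (σ • y) φ = σ • cartierPairing y (σ⁻¹ • φ) := by
    have h3 : σ • σ⁻¹ • φ = φ := smul_inv_smul σ φ
    rw [← cartierPairing_smul σ y (σ⁻¹ • φ), h3]
  rw [h2, h1, cartierPairing_pow_left, AlgEquiv.smul_def]
  exact hc _ (cartierPairing_pow_eq_one y φ n (hn y))

section C2

variable {H' : Type*} [CommRing H'] [HopfAlgebra R H'] [Coalgebra.IsCocomm R H']
  [Module.Free R H'] [Module.Finite R H']

/-- **(C2): a subgroup scheme on whose points inertia acts through the cyclotomic character is of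
multiplicative type**: its points are orthogonal to the connected points of the Cartier dual.
(`p` odd, `p` a uniformiser of the inertia-fixed integers.) -/
theorem mapH_mem_multPts {p : ℕ} (hp : p.Prime) (hp2 : p ≠ 2)
    (hpA : (p : L) ∈ A.nonunits) (hp0 : (p : L) ≠ 0)
    (hunr : ∀ z ∈ A.nonunits, (∀ τ ∈ A.inertiaSubgroupIn K, τ z = z) → z / (p : L) ∈ A)
    (hsep : ∀ z ∈ A, (∀ n : ℕ, z / (p : L) ^ n ∈ A) → z = 0)
    (ψ : H →ₐc[R] H') (hev' : Function.Injective (evPoints R H' L))
    (n : ℕ) (hn : ∀ t : WithConv (H' →ₐ[R] L), t ^ n = 1)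
    (hcyc : ∀ σ ∈ A.inertiaSubgroupIn K, ∃ c : ℕ, (∀ ζ : L, ζ ^ n = 1 → σ ζ = ζ ^ c) ∧
      ∀ t : WithConv (H' →ₐ[R] L), σ • t = t ^ c)
    (t : WithConv (H' →ₐ[R] L)) : mapH ψ t ∈ multPts H A := by
  intro φ hφ
  rw [cartierPairing_mapH]
  set φ' : WithConv (CDual R H' →ₐ[R] L) := mapH (transposeBialgHom ψ) φ with hφ'def
  have hφ' : φ' ∈ connPts (H := CDual R H') A := mapH_mem_connPts A (transposeBialgHom ψ) hφ
  have hfix : ∀ τ ∈ A.inertiaSubgroupIn K, τ • φ' = φ' := by
    intro τ hτ
    obtain ⟨c, hc, hct⟩ := hcyc τ hτ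
    apply cartierPairing_right_injective hev'
    intro t'
    have h1 := cartierPairing_smul τ t' φ'
    rw [hct t', cartierPairing_pow_left] at h1
    have h2 : τ (cartierPairing t' (τ • φ')) = cartierPairing t' (τ • φ') ^ c :=
      hc _ (cartierPairing_pow_eq_one t' _ n (hn t'))
    rw [← h2] at h1
    exact τ.injective h1
  have h3 := eq_one_of_mem_connPts_of_fixed' A hp hp2 hpA hp0 hunr hsep hφ' hfix
  rw [h3, cartierPairing_one_right]

end C2

section DoubleOrth

variable [IsAlgClosed L] [CharZero L]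

/-- Every character of `G^D(L)` is the pairing with a point of `G(L)` (perfectness, by counting). -/
theorem exists_cartierPairingUnits_eq (hev : Function.Bijective (evPoints R H L))
    (hevD : Function.Injective (evPoints R (CDual R H) L))
    (χ : WithConv (CDual R H →ₐ[R] L) →* Lˣ) :
    ∃ y : WithConv (H →ₐ[R] L), cartierPairingUnits R H L y = χ := by
  classical
  have hinj : Function.Injective (cartierPairingUnits R H L) := by
    intro x y hxy
    apply cartierPairing_left_injective hevD
    intro φ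
    have := congr((($hxy φ : Lˣ) : L))
    simpa [coe_cartierPairingUnits] using this
  haveI : NeZero (Monoid.exponent (WithConv (CDual R H →ₐ[R] L))) :=
    ⟨Monoid.exponent_ne_zero_of_finite (G := WithConv (CDual R H →ₐ[R] L))⟩
  haveI : NeZero (Monoid.exponent (WithConv (H →ₐ[R] L))) :=
    ⟨Monoid.exponent_ne_zero_of_finite (G := WithConv (H →ₐ[R] L))⟩
  have e1 : Nat.card (WithConv (CDual R H →ₐ[R] L) →* Lˣ) =
      Nat.card (WithConv (CDual R H →ₐ[R] L)) :=
    CommGroup.card_monoidHom_of_hasEnoughRootsOfUnity (WithConv (CDual R H →ₐ[R] L)) L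
  have e2 : Nat.card (WithConv (H →ₐ[R] L) →* Lˣ) = Nat.card (WithConv (H →ₐ[R] L)) :=
    CommGroup.card_monoidHom_of_hasEnoughRootsOfUnity (WithConv (H →ₐ[R] L)) L
  have e3 : Nat.card (WithConv (CDual R H →ₐ[R] L)) = Nat.card (WithConv (H →ₐ[R] L) →* Lˣ) :=
    Nat.card_congr (dualPointsEquiv hev).toEquiv
  have hcard : Nat.card (WithConv (CDual R H →ₐ[R] L) →* Lˣ) ≤ Nat.card (WithConv (H →ₐ[R] L)) := by
    rw [e1, e3, e2]
  haveI : Finite (WithConv (CDual R H →ₐ[R] L) →* Lˣ) := by
    apply Nat.finite_of_card_ne_zero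
    rw [e1]
    exact Nat.card_pos.ne'
  exact (hinj.bijective_of_nat_card_le hcard).2 χ

/-- **Double orthogonal**: a point of `G^D(L)` orthogonal to the multiplicative points of `G(L)` is a
connected point of `G^D`. -/
theorem mem_connPts_dual_of_forall_multPts (hev : Function.Bijective (evPoints R H L))
    (hevD : Function.Injective (evPoints R (CDual R H) L))
    (φ : WithConv (CDual R H →ₐ[R] L)) (h : ∀ y ∈ multPts H A, cartierPairing y φ = 1) :
    φ ∈ connPts (H := CDual R H) A := by
  haveI : NeZero (Monoid.exponent (WithConv (CDual R H →ₐ[R] L))) :=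
    ⟨Monoid.exponent_ne_zero_of_finite (G := WithConv (CDual R H →ₐ[R] L))⟩
  refine (CommGroup.forall_monoidHom_apply_eq_one_iff (G := WithConv (CDual R H →ₐ[R] L))
    (M := L) (connPts (H := CDual R H) A) φ).1 ?_
  intro χ hχ
  obtain ⟨y, rfl⟩ := exists_cartierPairingUnits_eq hev hevD χ
  have hy : y ∈ multPts H A := by
    intro x' hx'
    have := congr((($(hχ x' hx') : Lˣ) : L))
    simpa [coe_cartierPairingUnits] using this
  apply Units.ext
  rw [coe_cartierPairingUnits]
  exact h y hy

/-- **(INT-b)**: a point of the Cartier dual which is fixed by inertia and orthogonal to the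
multiplicative points is trivial. -/
theorem eq_one_of_fixed_of_forall_multPts {p : ℕ} (hp : p.Prime) (hp2 : p ≠ 2)
    (hpA : (p : L) ∈ A.nonunits) (hp0 : (p : L) ≠ 0)
    (hunr : ∀ z ∈ A.nonunits, (∀ τ ∈ A.inertiaSubgroupIn K, τ z = z) → z / (p : L) ∈ A)
    (hsep : ∀ z ∈ A, (∀ n : ℕ, z / (p : L) ^ n ∈ A) → z = 0)
    (hev : Function.Bijective (evPoints R H L))
    (hevD : Function.Injective (evPoints R (CDual R H) L))
    (φ : WithConv (CDual R H →ₐ[R] L)) (hfix : ∀ τ ∈ A.inertiaSubgroupIn K, τ • φ = φ)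
    (h : ∀ y ∈ multPts H A, cartierPairing y φ = 1) : φ = 1 :=
  eq_one_of_mem_connPts_of_fixed' A hp hp2 hpA hp0 hunr hsep
    (mem_connPts_dual_of_forall_multPts A hev hevD φ h) hfix

end DoubleOrth

end Mult

end

end Fermat.Agent.TW.FLAT.MultPart7
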