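/-
Programme T, chapter FLAT, file IntrinsicLocal7 (helper7): the LOCAL instance of `IntrinsicConn7` and
`MultPart7`: `R = ℤ_[p]`, `K = ℚ_[p]`, `L = Ω = PadicAlgCl p`, `A = unitBall p` (the valuation ring of
`Ω`), inertia `= Iq p` (`TW/LOC/Defs2`), `p` odd.

* `unitBall p : ValuationSubring (PadicAlgCl p)`, `mem_unitBall_iff`, `mem_nonunits_unitBall_iff`;
* `inertiaSubgroupIn_unitBall : (unitBall p).inertiaSubgroupIn ℚ_[p] = Iq p`;
* the place hypotheses of `IntrinsicConn7`: `natCast_mem_nonunits`, `natCast_ne_zero'`, `unr_local`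
  (from `TW/LOC/UnramFixed4`), `sep_local`;
* `algZp p : Algebra ℤ_[p] (unitBall p)` (reducible def; `attribute [local instance]`), `towerZp`;
* **(C1)** `eq_one_of_mem_connPts_of_fixed_local`, **`eq_one_of_mem_closure_of_fixed_local`**
  (`(aug_I G(Ω))^I = 1`);
* **(C2)** `mapH_mem_multPts_local`; `smul_eq_pow_of_mem_multPts_local`;
* **(INT-b)** `eq_one_of_fixed_of_forall_multPts_local`.
-/
import Mathlib
import Fermat.Agent.TW.FLAT.MultPart7
import Fermat.Agent.TW.FLAT.LocalPoints6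
import Fermat.Agent.TW.LOC.UnramFixed4

set_option autoImplicit false
set_option linter.style.haveILetI false

open WithConv IsLocalRing

namespace Fermat.Agent.TW.FLAT.IntrinsicLocal7

open Fermat.Agent.TW.FLAT.Points6 Fermat.Agent.TW.FLAT.ConnEt7 Fermat.Agent.TW.FLAT.IntrinsicConn7
  Fermat.Agent.TW.FLAT.MultPart7 Fermat.Agent.TW.FLAT.CartierDual7
  Fermat.Agent.TW.FLAT.CartierPairing7 Fermat.Agent.TW.LOC.Defs2
  Fermat.Agent.TW.LOC.TameProfinite4
open scoped Fermat.Agent.TW.FLAT.CartierDual7 Pointwise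

noncomputable section

variable (p : ℕ) [Fact p.Prime]

/-- The valuation ring of `PadicAlgCl p`. -/
def unitBall : ValuationSubring (PadicAlgCl p) where
  carrier := {x | ‖x‖ ≤ 1}
  mul_mem' := fun {a b} ha hb => by
    change ‖a * b‖ ≤ 1
    rw [norm_mul]
    exact mul_le_one₀ ha (norm_nonneg b) hb
  one_mem' := by
    change ‖(1 : PadicAlgCl p)‖ ≤ 1
    rw [norm_one]
  add_mem' := fun {a b} ha hb => by
    change ‖a + b‖ ≤ 1
    exact le_trans (PadicAlgCl.isNonarchimedean p a b) (max_le ha hb)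
  zero_mem' := by
    change ‖(0 : PadicAlgCl p)‖ ≤ 1
    rw [norm_zero]
    exact zero_le_one
  neg_mem' := fun {a} ha => by
    change ‖-a‖ ≤ 1
    rw [norm_neg]
    exact ha
  mem_or_inv_mem' := fun a => by
    change ‖a‖ ≤ 1 ∨ ‖a⁻¹‖ ≤ 1
    rcases le_total ‖a‖ 1 with h | h
    · exact Or.inl h
    · right
      rw [norm_inv]
      exact inv_le_one_of_one_le₀ h

theorem mem_unitBall_iff {x : PadicAlgCl p} : x ∈ unitBall p ↔ ‖x‖ ≤ 1 := Iff.rfl

theorem mem_nonunits_unitBall_iff {x : PadicAlgCl p} : x ∈ (unitBall p).nonunits ↔ ‖x‖ < 1 := by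
  rw [ValuationSubring.mem_nonunits_iff_or]
  by_cases hx : x = 0
  · subst hx
    simp
  · have h2 : 0 < ‖x‖ := norm_pos_iff.2 hx
    rw [mem_unitBall_iff, norm_inv]
    constructor
    · rintro (h | h)
      · exact absurd h hx
      · rw [not_le, one_lt_inv₀ h2] at h
        exact h
    · intro h
      right
      rw [not_le, one_lt_inv₀ h2]
      exact h

theorem norm_natCast_p : ‖((p : ℕ) : PadicAlgCl p)‖ = (p : ℝ)⁻¹ := by
  have h1 : ‖((p : ℚ_[p]) : PadicAlgCl p)‖ = ‖(p : ℚ_[p])‖ := PadicAlgCl.norm_extends p _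
  have h2 : ((p : ℚ_[p]) : PadicAlgCl p) = ((p : ℕ) : PadicAlgCl p) := map_natCast _ _
  rw [← h2, h1, Padic.norm_p]

theorem natCast_mem_nonunits : ((p : ℕ) : PadicAlgCl p) ∈ (unitBall p).nonunits := by
  rw [mem_nonunits_unitBall_iff, norm_natCast_p]
  have hq : (1 : ℝ) < p := by exact_mod_cast (Fact.out : p.Prime).one_lt
  exact inv_lt_one_of_one_lt₀ hq

theorem natCast_ne_zero' : ((p : ℕ) : PadicAlgCl p) ≠ 0 := by
  exact_mod_cast (Fact.out : p.Prime).ne_zero

/-- Every automorphism preserves the valuation ring. -/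
theorem mem_decompositionSubgroup (τ : Gq p) :
    τ ∈ (unitBall p).decompositionSubgroup ℚ_[p] := by
  rw [ValuationSubring.decompositionSubgroup, MulAction.mem_stabilizer_iff]
  ext x
  rw [ValuationSubring.mem_smul_pointwise_iff_exists]
  constructor
  · rintro ⟨y, hy, rfl⟩
    change ‖τ y‖ ≤ 1
    rw [norm_galois]
    exact hy
  · intro hx
    refine ⟨τ.symm x, ?_, ?_⟩
    · change ‖τ.symm x‖ ≤ 1
      rw [norm_galois]
      exact hx
    · change τ (τ.symm x) = x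
      exact τ.apply_symm_apply x

/-- **The inertia group of the valuation ring of `ℚ̄_p` is the local inertia group `Iq p`.** -/
theorem inertiaSubgroupIn_unitBall : (unitBall p).inertiaSubgroupIn ℚ_[p] = Iq p := by
  ext τ
  rw [mem_Iq_iff_norm]
  constructor
  · intro hτ x hx
    have := sub_mem_nonunits_of_mem_inertiaSubgroupIn (unitBall p) hτ x hx
    exact (mem_nonunits_unitBall_iff p).1 this
  · intro h
    rw [mem_inertiaSubgroupIn_iff]
    refine ⟨mem_decompositionSubgroup p τ, fun z => ?_⟩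
    obtain ⟨a, rfl⟩ := residue_surjective z
    rw [← ResidueField.residue_smul, ← sub_eq_zero, ← map_sub, residue_eq_zero_iff]
    apply ValuationSubring.coe_mem_nonunits_iff.1
    rw [mem_nonunits_unitBall_iff]
    exact h a.1 a.2

theorem unr_local (z : PadicAlgCl p) (hz : z ∈ (unitBall p).nonunits)
    (hfix : ∀ τ ∈ (unitBall p).inertiaSubgroupIn ℚ_[p], τ z = z) :
    z / ((p : ℕ) : PadicAlgCl p) ∈ unitBall p := by
  rw [inertiaSubgroupIn_unitBall] at hfix
  exact Fermat.Agent.TW.LOC.UnramFixed4.norm_div_q_le_one_of_fixed p z hfix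
    ((mem_nonunits_unitBall_iff p).1 hz)

theorem sep_local (z : PadicAlgCl p) (_hz : z ∈ unitBall p)
    (h : ∀ n : ℕ, z / ((p : ℕ) : PadicAlgCl p) ^ n ∈ unitBall p) : z = 0 := by
  by_contra hz0
  have hpos : 0 < ‖z‖ := norm_pos_iff.2 hz0
  have hp1 : (p : ℝ)⁻¹ < 1 := by
    have hq : (1 : ℝ) < p := by exact_mod_cast (Fact.out : p.Prime).one_lt
    exact inv_lt_one_of_one_lt₀ hq
  have hp0 : (0 : ℝ) ≤ (p : ℝ)⁻¹ := by positivity
  obtain ⟨n, hn⟩ := exists_pow_lt_of_lt_one hpos hp1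
  have h1 := h n
  rw [mem_unitBall_iff, norm_div, norm_pow, norm_natCast_p] at h1
  have hpn : 0 < ((p : ℝ)⁻¹) ^ n := by
    have : (0 : ℝ) < (p : ℝ)⁻¹ := by
      have : (0 : ℝ) < p := by exact_mod_cast (Fact.out : p.Prime).pos
      positivity
    positivity
  rw [div_le_one hpn] at h1
  exact absurd (lt_of_le_of_lt h1 hn) (lt_irrefl _)

theorem algebraMap_padicInt_mem (r : ℤ_[p]) : algebraMap ℤ_[p] (PadicAlgCl p) r ∈ unitBall p := by
  rw [mem_unitBall_iff, IsScalarTower.algebraMap_apply ℤ_[p] ℚ_[p] (PadicAlgCl p)]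
  have := PadicAlgCl.norm_extends p ((r : ℚ_[p]))
  change ‖algebraMap ℚ_[p] (PadicAlgCl p) (r : ℚ_[p])‖ ≤ 1
  rw [this]
  exact PadicInt.norm_le_one r

/-- The `ℤ_p`-algebra structure of the valuation ring of `ℚ̄_p`. -/
@[reducible] def algZp : Algebra ℤ_[p] (unitBall p) :=
  algebraOfMem (unitBall p) (algebraMap_padicInt_mem p)

attribute [local instance] algZp

instance towerZp : IsScalarTower ℤ_[p] (unitBall p) (PadicAlgCl p) :=
  isScalarTower_ofMem (unitBall p) (algebraMap_padicInt_mem p)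

section Hopf

variable {p}
variable {H : Type*} [CommRing H] [HopfAlgebra ℤ_[p] H] [Coalgebra.IsCocomm ℤ_[p] H]

/-- **(C1), local form**: a connected point of finite order fixed by `Iq p` is trivial. -/
theorem eq_one_of_mem_connPts_of_fixed_local [Algebra.IsIntegral ℤ_[p] H] (hp2 : p ≠ 2)
    {x : WithConv (H →ₐ[ℤ_[p]] PadicAlgCl p)} (hx : x ∈ connPts (unitBall p))
    (hfix : ∀ τ ∈ Iq p, τ • x = x) {n : ℕ} (hn : 0 < n) (hxn : x ^ n = 1) : x = 1 := by
  rw [← inertiaSubgroupIn_unitBall] at hfix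
  exact eq_one_of_mem_connPts_of_fixed (K := ℚ_[p]) (unitBall p) (Fact.out : p.Prime) hp2
    (natCast_mem_nonunits p) (natCast_ne_zero' p) (unr_local p) (sep_local p) hx hfix hn hxn

/-- **`(aug_I G(Ω))^I = 1`, local form.** -/
theorem eq_one_of_mem_closure_of_fixed_local [Module.Finite ℤ_[p] H] (hp2 : p ≠ 2)
    {x : WithConv (H →ₐ[ℤ_[p]] PadicAlgCl p)}
    (hx : x ∈ Subgroup.closure {g : WithConv (H →ₐ[ℤ_[p]] PadicAlgCl p) |
      ∃ σ ∈ Iq p, ∃ y : WithConv (H →ₐ[ℤ_[p]] PadicAlgCl p), g = σ • y * y⁻¹})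
    (hfix : ∀ τ ∈ Iq p, τ • x = x) : x = 1 := by
  rw [← inertiaSubgroupIn_unitBall] at hfix hx
  exact eq_one_of_mem_closure_of_fixed (K := ℚ_[p]) (unitBall p) (Fact.out : p.Prime) hp2
    (natCast_mem_nonunits p) (natCast_ne_zero' p) (unr_local p) (sep_local p) hx hfix

section Mult

variable [Module.Free ℤ_[p] H] [Module.Finite ℤ_[p] H]

/-- `Iq p` acts on the multiplicative points through the cyclotomic character. -/
theorem smul_eq_pow_of_mem_multPts_local
    (hevD : Function.Injective (CartierPerfect7.evPoints ℤ_[p] (CDual ℤ_[p] H) (PadicAlgCl p)))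
    {σ : Gq p} (hσ : σ ∈ Iq p) (n c : ℕ)
    (hn : ∀ x : WithConv (H →ₐ[ℤ_[p]] PadicAlgCl p), x ^ n = 1)
    (hc : ∀ ζ : PadicAlgCl p, ζ ^ n = 1 → σ ζ = ζ ^ c)
    {y : WithConv (H →ₐ[ℤ_[p]] PadicAlgCl p)} (hy : y ∈ multPts H (unitBall p)) :
    σ • y = y ^ c := by
  rw [← inertiaSubgroupIn_unitBall] at hσ
  exact smul_eq_pow_of_mem_multPts (K := ℚ_[p]) (unitBall p) hevD hσ n c hn hc hy

/-- **(C2), local form.** -/
theorem mapH_mem_multPts_local {H' : Type*} [CommRing H'] [HopfAlgebra ℤ_[p] H']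
    [Coalgebra.IsCocomm ℤ_[p] H'] [Module.Free ℤ_[p] H'] [Module.Finite ℤ_[p] H'] (hp2 : p ≠ 2)
    (ψ : H →ₐc[ℤ_[p]] H')
    (hev' : Function.Injective (CartierPerfect7.evPoints ℤ_[p] H' (PadicAlgCl p)))
    (n : ℕ) (hn : ∀ t : WithConv (H' →ₐ[ℤ_[p]] PadicAlgCl p), t ^ n = 1)
    (hcyc : ∀ σ ∈ Iq p, ∃ c : ℕ, (∀ ζ : PadicAlgCl p, ζ ^ n = 1 → σ ζ = ζ ^ c) ∧
      ∀ t : WithConv (H' →ₐ[ℤ_[p]] PadicAlgCl p), σ • t = t ^ c)
    (t : WithConv (H' →ₐ[ℤ_[p]] PadicAlgCl p)) : mapH ψ t ∈ multPts H (unitBall p) := by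
  rw [← inertiaSubgroupIn_unitBall] at hcyc
  exact mapH_mem_multPts (K := ℚ_[p]) (unitBall p) (Fact.out : p.Prime) hp2
    (natCast_mem_nonunits p) (natCast_ne_zero' p) (unr_local p) (sep_local p) ψ hev' n hn hcyc t

/-- **(INT-b), local form.** -/
theorem eq_one_of_fixed_of_forall_multPts_local (hp2 : p ≠ 2)
    (hev : Function.Bijective (CartierPerfect7.evPoints ℤ_[p] H (PadicAlgCl p)))
    (hevD : Function.Injective (CartierPerfect7.evPoints ℤ_[p] (CDual ℤ_[p] H) (PadicAlgCl p)))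
    (φ : WithConv (CDual ℤ_[p] H →ₐ[ℤ_[p]] PadicAlgCl p)) (hfix : ∀ τ ∈ Iq p, τ • φ = φ)
    (h : ∀ y ∈ multPts H (unitBall p), cartierPairing y φ = 1) : φ = 1 := by
  rw [← inertiaSubgroupIn_unitBall] at hfix
  exact eq_one_of_fixed_of_forall_multPts (K := ℚ_[p]) (unitBall p) (Fact.out : p.Prime) hp2
    (natCast_mem_nonunits p) (natCast_ne_zero' p) (unr_local p) (sep_local p) hev hevD φ hfix h

end Mult

end Hopf

end

end Fermat.Agent.TW.FLAT.IntrinsicLocal7
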