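/-
Programme T, chapter FLAT, file UnrBase7 (helper7): **the maximal unramified base** `O^ur ⊆ ℚ̄_p`.

`Our p : Subalgebra ℤ_[p] (PadicAlgCl p)` = the integers of `ℚ̄_p` fixed by the inertia group `Iq p`
(ring of integers of the maximal unramified extension; a henselian, non complete DVR with uniformiser
`p`).  It is a legal base for helper6's descent/closure/subquotient machinery with `Γ = Iq p`:

* `mem_Our_iff`, `coe_natCast_p`, `exists_eq_pow_mul_unit` (every nonzero element is `p ^ n * unit`,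
  from `TW/LOC/UnramFixed4`), `isUnit_iff_norm_eq_one`;
* instances: `IsPrincipalIdealRing (Our p)`, `FaithfulSMul (Our p) (PadicAlgCl p)`,
  `SMulCommClass (Iq p) (Our p) (PadicAlgCl p)`;
* `fixedInFrac_Our : FixedInFrac (Our p) (PadicAlgCl p) (Iq p)`;
* `algOurBall p : Algebra (Our p) (unitBall p)` (reducible def; local instance), `towerOurBall`;
* **`hasFlatModel_Our`** : `HasFlatModel ℤ_[p] (PadicAlgCl p) (Gq p) M act →
    HasFlatModel (Our p) (PadicAlgCl p) (Iq p) M (fun σ => act σ.1)`.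
-/
import Mathlib
import Fermat.Agent.TW.FLAT.IntrinsicLocal7
import Fermat.Agent.TW.FLAT.BaseChange6

set_option autoImplicit false
set_option linter.style.haveILetI false

namespace Fermat.Agent.TW.FLAT.UnrBase7

open Fermat.Agent.TW.FLAT.Points6 Fermat.Agent.TW.FLAT.ConnEt7 Fermat.Agent.TW.FLAT.IntrinsicLocal7
  Fermat.Agent.TW.FLAT.Descent6 Fermat.Agent.TW.LOC.Defs2 Fermat.Agent.TW.LOC.TameProfinite4

noncomputable section

variable (p : ℕ) [Fact p.Prime]

/-- The ring of integers of the maximal unramified extension of `ℚ_p` inside `ℚ̄_p`. -/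
def Our : Subalgebra ℤ_[p] (PadicAlgCl p) where
  carrier := {x | ‖x‖ ≤ 1 ∧ ∀ σ ∈ Iq p, σ x = x}
  mul_mem' := fun {a b} ha hb => ⟨(unitBall p).mul_mem _ _ ha.1 hb.1, fun σ hσ => by
    rw [map_mul, ha.2 σ hσ, hb.2 σ hσ]⟩
  add_mem' := fun {a b} ha hb => ⟨(unitBall p).add_mem _ _ ha.1 hb.1, fun σ hσ => by
    rw [map_add, ha.2 σ hσ, hb.2 σ hσ]⟩
  algebraMap_mem' := fun r => ⟨algebraMap_padicInt_mem p r, fun σ _ => by
    rw [IsScalarTower.algebraMap_apply ℤ_[p] ℚ_[p] (PadicAlgCl p), AlgEquiv.commutes]⟩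

variable {p}

theorem mem_Our_iff {x : PadicAlgCl p} : x ∈ Our p ↔ ‖x‖ ≤ 1 ∧ ∀ σ ∈ Iq p, σ x = x := Iff.rfl

theorem norm_le_one (x : Our p) : ‖(x : PadicAlgCl p)‖ ≤ 1 := x.2.1

theorem fixed (x : Our p) {σ : Gq p} (hσ : σ ∈ Iq p) : σ (x : PadicAlgCl p) = x := x.2.2 σ hσ

theorem coe_natCast (n : ℕ) : (((n : Our p) : Our p) : PadicAlgCl p) = (n : PadicAlgCl p) := by
  simp

variable (p) in
/-- `p⁻¹ x` is again an unramified integer when `‖x‖ < 1`. -/
theorem div_p_mem {x : PadicAlgCl p} (hx : x ∈ Our p) (hx1 : ‖x‖ < 1) :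
    x / ((p : ℕ) : PadicAlgCl p) ∈ Our p := by
  refine ⟨Fermat.Agent.TW.LOC.UnramFixed4.norm_div_q_le_one_of_fixed p x hx.2 hx1, fun σ hσ => ?_⟩
  rw [map_div₀, hx.2 σ hσ, map_natCast]

theorem inv_mem_of_norm_eq_one {x : PadicAlgCl p} (hx : x ∈ Our p) (hx1 : ‖x‖ = 1) :
    x⁻¹ ∈ Our p := by
  refine ⟨by rw [norm_inv, hx1, inv_one], fun σ hσ => ?_⟩
  rw [map_inv₀, hx.2 σ hσ]

theorem isUnit_of_norm_eq_one (x : Our p) (hx1 : ‖(x : PadicAlgCl p)‖ = 1) : IsUnit x := by
  have hx0 : (x : PadicAlgCl p) ≠ 0 := by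
    intro h0
    rw [h0, norm_zero] at hx1
    exact zero_ne_one hx1
  refine IsUnit.of_mul_eq_one (b := ⟨(x : PadicAlgCl p)⁻¹, inv_mem_of_norm_eq_one x.2 hx1⟩) ?_
  apply Subtype.ext
  change (x : PadicAlgCl p) * (x : PadicAlgCl p)⁻¹ = 1
  exact mul_inv_cancel₀ hx0

/-- Every nonzero unramified integer is a power of `p` times a unit. -/
theorem exists_eq_pow_mul_unit (x : Our p) (hx : x ≠ 0) :
    ∃ (n : ℕ) (u : (Our p)ˣ), x = (p : Our p) ^ n * u := by
  have hp1 : (p : ℝ)⁻¹ < 1 := by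
    have hq : (1 : ℝ) < p := by exact_mod_cast (Fact.out : p.Prime).one_lt
    exact inv_lt_one_of_one_lt₀ hq
  have hppos : (0 : ℝ) < (p : ℝ)⁻¹ := by
    have : (0 : ℝ) < p := by exact_mod_cast (Fact.out : p.Prime).pos
    positivity
  have key : ∀ n : ℕ, ∀ x : Our p, x ≠ 0 → ((p : ℝ)⁻¹) ^ n ≤ ‖(x : PadicAlgCl p)‖ →
      ∃ (m : ℕ) (u : (Our p)ˣ), x = (p : Our p) ^ m * u := by
    intro n
    induction n with
    | zero =>
      intro x _ hn
      rw [pow_zero] at hn
      have h1 : ‖(x : PadicAlgCl p)‖ = 1 := le_antisymm (norm_le_one x) hn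
      exact ⟨0, (isUnit_of_norm_eq_one x h1).unit, by rw [pow_zero, one_mul]; rfl⟩
    | succ n ih =>
      intro x hx hn
      rcases lt_or_eq_of_le (norm_le_one x) with h1 | h1
      · -- divide by `p`
        let y : Our p := ⟨(x : PadicAlgCl p) / ((p : ℕ) : PadicAlgCl p), div_p_mem p x.2 h1⟩
        have hxy : x = (p : Our p) * y := by
          apply Subtype.ext
          change (x : PadicAlgCl p) = ((p : Our p) : PadicAlgCl p) * ((x : PadicAlgCl p) / _)
          rw [coe_natCast, mul_div_cancel₀ _ (natCast_ne_zero' p)]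
        have hy0 : y ≠ 0 := by
          intro h0
          rw [h0, mul_zero] at hxy
          exact hx hxy
        have hyn : ((p : ℝ)⁻¹) ^ n ≤ ‖(y : PadicAlgCl p)‖ := by
          change _ ≤ ‖(x : PadicAlgCl p) / ((p : ℕ) : PadicAlgCl p)‖
          rw [norm_div, norm_natCast_p, le_div_iff₀ hppos, ← pow_succ]
          exact hn
        obtain ⟨m, u, hu⟩ := ih y hy0 hyn
        exact ⟨m + 1, u, by rw [hxy, hu, pow_succ]; ring⟩
      · exact ⟨0, (isUnit_of_norm_eq_one x h1).unit, by rw [pow_zero, one_mul]; rfl⟩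
  have hx0 : (x : PadicAlgCl p) ≠ 0 := fun h0 => hx (Subtype.ext h0)
  obtain ⟨n, hn⟩ := exists_pow_lt_of_lt_one (norm_pos_iff.2 hx0) hp1
  exact key n x hx hn.le

instance : IsPrincipalIdealRing (Our p) := by
  classical
  refine ⟨fun J => ?_⟩
  by_cases hJ : J = ⊥
  · rw [hJ]
    exact ⟨0, by simp⟩
  obtain ⟨x, hxJ, hx0⟩ := Submodule.exists_mem_ne_zero_of_ne_bot hJ
  have hex : ∃ n : ℕ, (p : Our p) ^ n ∈ J := by
    obtain ⟨n, u, hu⟩ := exists_eq_pow_mul_unit x hx0
    refine ⟨n, ?_⟩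
    have : (p : Our p) ^ n = x * (↑u⁻¹ : Our p) := by
      rw [hu, mul_assoc, Units.mul_inv, mul_one]
    rw [this]
    exact J.mul_mem_right _ hxJ
  refine ⟨(p : Our p) ^ Nat.find hex, ?_⟩
  apply le_antisymm
  · intro y hy
    by_cases hy0 : y = 0
    · rw [hy0]; exact Submodule.zero_mem _
    obtain ⟨m, v, hv⟩ := exists_eq_pow_mul_unit y hy0
    have hm : (p : Our p) ^ m ∈ J := by
      have : (p : Our p) ^ m = y * (↑v⁻¹ : Our p) := by
        rw [hv, mul_assoc, Units.mul_inv, mul_one]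
      rw [this]
      exact J.mul_mem_right _ hy
    have hle : Nat.find hex ≤ m := Nat.find_min' hex hm
    rw [Submodule.mem_span_singleton]
    refine ⟨(p : Our p) ^ (m - Nat.find hex) * v, ?_⟩
    rw [hv, smul_eq_mul, mul_comm, ← mul_assoc, ← pow_add, Nat.add_sub_cancel' hle]
  · rw [Submodule.span_le, Set.singleton_subset_iff]
    exact Nat.find_spec hex

instance : FaithfulSMul (Our p) (PadicAlgCl p) := by
  rw [faithfulSMul_iff_algebraMap_injective]
  intro x y hxy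
  exact Subtype.ext hxy

instance : SMulCommClass (Iq p) (Our p) (PadicAlgCl p) where
  smul_comm := fun σ s x => by
    change σ.1 ((s : PadicAlgCl p) * x) = (s : PadicAlgCl p) * σ.1 x
    rw [map_mul, fixed s σ.2]

variable (p) in
/-- The fixed field of `Iq p` is the fraction field of `O^ur`. -/
theorem fixedInFrac_Our : FixedInFrac (Our p) (PadicAlgCl p) (Iq p) := by
  intro ω hω
  have hp1 : (p : ℝ)⁻¹ < 1 := by
    have hq : (1 : ℝ) < p := by exact_mod_cast (Fact.out : p.Prime).one_lt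
    exact inv_lt_one_of_one_lt₀ hq
  have hfix : ∀ σ ∈ Iq p, σ ω = ω := fun σ hσ => hω ⟨σ, hσ⟩
  by_cases hω0 : ω = 0
  · exact ⟨1, 0, by simp, by simp [hω0]⟩
  -- choose `n` with `‖p ^ n * ω‖ ≤ 1`
  have hpos : 0 < ‖ω‖⁻¹ := inv_pos.2 (norm_pos_iff.2 hω0)
  obtain ⟨n, hn⟩ := exists_pow_lt_of_lt_one hpos hp1
  have hmem : ((p : ℕ) : PadicAlgCl p) ^ n * ω ∈ Our p := by
    refine ⟨?_, fun σ hσ => by rw [map_mul, map_pow, map_natCast, hfix σ hσ]⟩
    rw [norm_mul, norm_pow, norm_natCast_p]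
    have h1 := mul_le_mul_of_nonneg_right hn.le (norm_nonneg ω)
    rwa [inv_mul_cancel₀ (norm_pos_iff.2 hω0).ne'] at h1
  refine ⟨(p : Our p) ^ n, ⟨_, hmem⟩, ?_, ?_⟩
  · change (((p : Our p) ^ n : Our p) : PadicAlgCl p) ≠ 0
    rw [Subalgebra.coe_pow, coe_natCast]
    exact pow_ne_zero n (natCast_ne_zero' p)
  · change (((p : Our p) ^ n : Our p) : PadicAlgCl p) * ω = _
    rw [Subalgebra.coe_pow, coe_natCast]
    rfl

theorem algebraMap_Our_mem (r : Our p) : algebraMap (Our p) (PadicAlgCl p) r ∈ unitBall p :=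
  r.2.1

variable (p) in
/-- The `O^ur`-algebra structure of the valuation ring of `ℚ̄_p`. -/
@[reducible] def algOurBall : Algebra (Our p) (unitBall p) :=
  algebraOfMem (unitBall p) (algebraMap_Our_mem (p := p))

attribute [local instance] algOurBall

instance towerOurBall : IsScalarTower (Our p) (unitBall p) (PadicAlgCl p) :=
  isScalarTower_ofMem (unitBall p) (algebraMap_Our_mem (p := p))

/-- **Base change of flat models to the maximal unramified base** (restricting the action to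
inertia). -/
theorem hasFlatModel_Our {M : Type} [AddCommGroup M] {act : Gq p → M → M}
    (h : HasFlatModel ℤ_[p] (PadicAlgCl p) (Gq p) M act) :
    HasFlatModel (Our p) (PadicAlgCl p) (Iq p) M (fun σ => act σ.1) := by
  have h1 : HasFlatModel ℤ_[p] (PadicAlgCl p) (Iq p) M (fun σ => act σ.1) := by
    obtain ⟨H, i1, i2, hfin, hflat, hco, e, hmul, heq⟩ := h
    exact ⟨H, i1, i2, hfin, hflat, hco, e, hmul, fun σ f => heq σ.1 f⟩
  exact h1.baseChange

end

end Fermat.Agent.TW.FLAT.UnrBase7
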