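/-
Programme T, chapter FLAT, file FlatModule6: the predicate "flat `Γ`-module" and the concrete
base `ℤ_(p) = GaloisRep.ratLocalizedAt p`, `Ω = ℚ̄`, `Γ = G_ℚ`.

* `Qb := AlgebraicClosure ℚ`, `GQ := Qb ≃ₐ[ℚ] Qb` (abbrevs).
* instance `faithfulSMul_ratLocalizedAt p : FaithfulSMul (ratLocalizedAt p) Qb`;
  `fixedInFrac_ratLocalizedAt p : Descent6.FixedInFrac (ratLocalizedAt p) Qb GQ`
  (the fixed field of `G_ℚ` is `ℚ`; no primality of `p` needed).
  With `[Fact p.Prime]`, `IG.VAL.Zl13` gives `IsDiscreteValuationRing (ratLocalizedAt p)`, hence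
  `IsDomain` and `IsPrincipalIdealRing`.
* `IsFlatModule R Ω Γ V : Prop` for `[AddCommGroup V] [DistribMulAction Γ V]`
  `:= Points6.HasFlatModel R Ω Γ V (fun σ v => σ • v)`;
  `IsFlatModuleAt p V := IsFlatModule (ratLocalizedAt p) Qb GQ V`.
* `IsFlatModule.of_addEquiv`; `stableDistribMulAction N hN : DistribMulAction Γ N` for a stable
  `N : AddSubgroup V`.
* `IsFlatModule.subgroup` (`R` a PID, `Ω` a field, `FaithfulSMul R Ω`, `hF : FixedInFrac R Ω Γ`):
  a `Γ`-stable subgroup of a flat `Γ`-module is flat.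
* `hasFlatModel_subgroup_at p` (Prelude shape, `[Fact p.Prime]`):
  `HasFlatModel (ratLocalizedAt p) Qb GQ M act → ∀ N : AddSubgroup M, (hN : stable) →
     HasFlatModel (ratLocalizedAt p) Qb GQ N (fun σ n => ⟨act σ n.1, hN σ n.1 n.2⟩)`;
  `IsFlatModuleAt.subgroup` (bundled form).
-/
import Mathlib
import Fermat.Agent.IG.VAL.Zl13
import Fermat.Agent.TW.FLAT.Closure6

set_option autoImplicit false

namespace Fermat.Agent.TW.FLAT.FlatModule6

open Fermat.Agent.TW.FLAT.Descent6 Fermat.Agent.TW.FLAT.Points6 GaloisRep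

noncomputable section

local instance isAlgebraicQbar_fm : Algebra.IsAlgebraic ℚ (AlgebraicClosure ℚ) :=
  AlgebraicClosure.isAlgebraic ℚ
local instance isAlgClosureQbar_fm : IsAlgClosure ℚ (AlgebraicClosure ℚ) :=
  ⟨inferInstance, inferInstance⟩

/-- `ℚ̄`. -/
abbrev Qb : Type := AlgebraicClosure ℚ
/-- `G_ℚ = Gal(ℚ̄/ℚ)`. -/
abbrev GQ : Type := AlgebraicClosure ℚ ≃ₐ[ℚ] AlgebraicClosure ℚ

/-- `ℤ_(p) → ℚ̄` is injective. -/
instance faithfulSMul_ratLocalizedAt (p : ℕ) : FaithfulSMul (ratLocalizedAt p) Qb := by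
  rw [faithfulSMul_iff_algebraMap_injective]
  intro x y hxy
  rw [IsScalarTower.algebraMap_apply (ratLocalizedAt p) ℚ Qb,
    IsScalarTower.algebraMap_apply (ratLocalizedAt p) ℚ Qb] at hxy
  exact Subtype.ext ((algebraMap ℚ Qb).injective hxy)

/-- The fixed field of `G_ℚ` in `ℚ̄` is `ℚ = Frac ℤ_(p)`. -/
theorem fixedInFrac_ratLocalizedAt (p : ℕ) : FixedInFrac (ratLocalizedAt p) Qb GQ := by
  intro ω hω
  have hmem : ω ∈ Set.range (algebraMap ℚ Qb) :=
    (InfiniteGalois.mem_range_algebraMap_iff_fixed (k := ℚ) (K := Qb) ω).2 hω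
  obtain ⟨q, rfl⟩ := hmem
  refine ⟨((q.den : ℤ) : ratLocalizedAt p), ((q.num : ℤ) : ratLocalizedAt p), ?_, ?_⟩
  · rw [map_intCast]
    exact_mod_cast q.den_ne_zero
  · rw [map_intCast, map_intCast, ← map_intCast (algebraMap ℚ Qb), ← map_intCast (algebraMap ℚ Qb),
      ← map_mul]
    congr 1
    push_cast
    exact Rat.den_mul_eq_num q

/-- `IsFlatModule R Ω Γ V`: the `Γ`-module `V` is the group of `Ω`-points of a finite flat
commutative group scheme over `R`, `Γ`-equivariantly (`HasFlatModel` for a bundled action). -/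
def IsFlatModule (R : Type) [CommRing R] (Ω : Type) [CommRing Ω] [Algebra R Ω]
    (Γ : Type) [Monoid Γ] [MulSemiringAction Γ Ω] [SMulCommClass Γ R Ω]
    (V : Type) [AddCommGroup V] [DistribMulAction Γ V] : Prop :=
  HasFlatModel R Ω Γ V (fun σ v => σ • v)

/-- `IsFlatModuleAt p V`: the finite `G_ℚ`-module `V` is "flat at `p`": it is the group of
`ℚ̄`-points of a finite flat group scheme over `ℤ_(p)`. -/
def IsFlatModuleAt (p : ℕ) (V : Type) [AddCommGroup V] [DistribMulAction GQ V] : Prop :=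
  IsFlatModule (ratLocalizedAt p) Qb GQ V

section Generic

variable {R : Type} [CommRing R] {Ω : Type} [CommRing Ω] [Algebra R Ω]
  {Γ : Type} [Monoid Γ] [MulSemiringAction Γ Ω] [SMulCommClass Γ R Ω]
  {V : Type} [AddCommGroup V] [DistribMulAction Γ V]
  {V' : Type} [AddCommGroup V'] [DistribMulAction Γ V']

lemma isFlatModule_iff : IsFlatModule R Ω Γ V ↔ HasFlatModel R Ω Γ V (fun σ v => σ • v) := Iff.rfl

/-- Transport along an equivariant additive isomorphism. -/
lemma IsFlatModule.of_addEquiv (h : IsFlatModule R Ω Γ V) (φ : V ≃+ V')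
    (hφ : ∀ (σ : Γ) (v : V), φ (σ • v) = σ • φ v) : IsFlatModule R Ω Γ V' :=
  HasFlatModel.of_addEquiv h φ hφ

/-- The restriction of a `DistribMulAction` to a stable additive subgroup. -/
@[reducible] def stableDistribMulAction (N : AddSubgroup V) (hN : ∀ (σ : Γ), ∀ v ∈ N, σ • v ∈ N) :
    DistribMulAction Γ N where
  smul σ n := ⟨σ • n.1, hN σ n.1 n.2⟩
  one_smul n := Subtype.ext (one_smul Γ n.1)
  mul_smul σ τ n := Subtype.ext (mul_smul σ τ n.1)
  smul_zero σ := Subtype.ext (smul_zero σ)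
  smul_add σ m n := Subtype.ext (smul_add σ m.1 n.1)

end Generic

section Sub

variable {R : Type} [CommRing R] [IsDomain R] [IsPrincipalIdealRing R]
  {Ω : Type} [Field Ω] [Algebra R Ω] [FaithfulSMul R Ω]
  {Γ : Type} [Group Γ] [MulSemiringAction Γ Ω] [SMulCommClass Γ R Ω]
  {V : Type} [AddCommGroup V] [DistribMulAction Γ V]

/-- **A `Γ`-stable subgroup of a flat `Γ`-module is flat** (bundled form of
`HasFlatModel.subgroup`). -/
theorem IsFlatModule.subgroup (hF : FixedInFrac R Ω Γ) (h : IsFlatModule R Ω Γ V)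
    (N : AddSubgroup V) (hN : ∀ (σ : Γ), ∀ v ∈ N, σ • v ∈ N) :
    @IsFlatModule R _ Ω _ _ Γ _ _ _ N _ (stableDistribMulAction N hN) :=
  HasFlatModel.subgroup hF h N hN

end Sub

section AtP

variable (p : ℕ) [Fact p.Prime]

/-- **Prelude shape**: if a `G_ℚ`-module `M` (action `act`) has a finite flat model over
`ℤ_(p)` on `ℚ̄`-points, so does every `G_ℚ`-stable subgroup. -/
theorem hasFlatModel_subgroup_at {M : Type} [AddCommGroup M] {act : GQ → M → M}
    (h : HasFlatModel (ratLocalizedAt p) Qb GQ M act) (N : AddSubgroup M)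
    (hN : ∀ (σ : GQ), ∀ m ∈ N, act σ m ∈ N) :
    HasFlatModel (ratLocalizedAt p) Qb GQ N (fun σ n => ⟨act σ n.1, hN σ n.1 n.2⟩) :=
  HasFlatModel.subgroup (fixedInFrac_ratLocalizedAt p) h N hN

/-- Bundled form. -/
theorem IsFlatModuleAt.subgroup {V : Type} [AddCommGroup V] [DistribMulAction GQ V]
    (h : IsFlatModuleAt p V) (N : AddSubgroup V) (hN : ∀ (σ : GQ), ∀ v ∈ N, σ • v ∈ N) :
    @IsFlatModuleAt p N _ (stableDistribMulAction N hN) :=
  HasFlatModel.subgroup (fixedInFrac_ratLocalizedAt p) h N hN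

end AtP

end

end Fermat.Agent.TW.FLAT.FlatModule6
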