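/-
Programme T, chapter FLAT, file Prod6: products of group schemes = tensor products of Hopf
algebras.

Mathlib provides `HopfAlgebra R (H ⊗[R] H')` and the `Module.Finite`, `Module.Flat`,
`Coalgebra.IsCocomm` instances (checked by `example`s).  This file adds

* `reprLeft`, `reprRight`: representations of `comul (h ⊗ₜ 1)`, `comul (1 ⊗ₜ h')`;
* `ptsProd : WithConv (H ⊗[R] H' →ₐ[R] B) ≃* WithConv (H →ₐ[R] B) × WithConv (H' →ₐ[R] B)`,
  `(ptsProd F).1 h = F (h ⊗ₜ 1)`, `(ptsProd F).2 h' = F (1 ⊗ₜ h')`,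
  `ptsProd.symm (f, g) (h ⊗ₜ h') = f h * g h'`; `ptsProd_smul` (Galois equivariance);
* `HasFlatModel.prod : HasFlatModel R Ω Γ M act → HasFlatModel R Ω Γ M' act' →
    HasFlatModel R Ω Γ (M × M') (fun σ x => (act σ x.1, act' σ x.2))`.
-/
import Mathlib
import Fermat.Agent.TW.FLAT.Points6

set_option autoImplicit false

namespace Fermat.Agent.TW.FLAT.Prod6

open WithConv TensorProduct Fermat.Agent.TW.FLAT.Points6

noncomputable section

section Instances

variable (R : Type*) [CommRing R] (H H' : Type*) [CommRing H] [HopfAlgebra R H]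
  [CommRing H'] [HopfAlgebra R H']

example : HopfAlgebra R (H ⊗[R] H') := inferInstance
example [Module.Finite R H] [Module.Finite R H'] : Module.Finite R (H ⊗[R] H') := inferInstance
example [Module.Flat R H] [Module.Flat R H'] : Module.Flat R (H ⊗[R] H') := inferInstance
example [Coalgebra.IsCocomm R H] [Coalgebra.IsCocomm R H'] :
    Coalgebra.IsCocomm R (H ⊗[R] H') := inferInstance

end Instances

section Points

variable {R : Type*} [CommSemiring R] {H H' : Type*} [CommSemiring H] [HopfAlgebra R H]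
  [CommSemiring H'] [HopfAlgebra R H']

/-- A representation of `comul h` gives one of `comul (h ⊗ₜ 1)`. -/
def reprLeft {h : H} {ι : Type*} (r : Coalgebra.Repr R h ι) :
    Coalgebra.Repr R (h ⊗ₜ[R] (1 : H')) ι where
  index := r.index
  left i := r.left i ⊗ₜ[R] (1 : H')
  right i := r.right i ⊗ₜ[R] (1 : H')
  eq := by
    rw [TensorProduct.comul_tmul, ← r.eq, Bialgebra.comul_one, Algebra.TensorProduct.one_def,
      sum_tmul, map_sum]
    simp

/-- A representation of `comul h'` gives one of `comul (1 ⊗ₜ h')`. -/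
def reprRight {h' : H'} {ι : Type*} (r : Coalgebra.Repr R h' ι) :
    Coalgebra.Repr R ((1 : H) ⊗ₜ[R] h') ι where
  index := r.index
  left i := (1 : H) ⊗ₜ[R] r.left i
  right i := (1 : H) ⊗ₜ[R] r.right i
  eq := by
    rw [TensorProduct.comul_tmul, ← r.eq, Bialgebra.comul_one, Algebra.TensorProduct.one_def,
      tmul_sum, map_sum]
    simp

variable {B : Type*} [CommSemiring B] [Algebra R B]

/-- **Points of a product**: `(G × G')(B) = G(B) × G'(B)`, the product `G × G'` being
represented by `H ⊗[R] H'`. -/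
def ptsProd : WithConv (H ⊗[R] H' →ₐ[R] B) ≃* WithConv (H →ₐ[R] B) × WithConv (H' →ₐ[R] B) where
  toFun F := (toConv (F.ofConv.comp Algebra.TensorProduct.includeLeft),
    toConv (F.ofConv.comp Algebra.TensorProduct.includeRight))
  invFun fg := toConv (Algebra.TensorProduct.lift fg.1.ofConv fg.2.ofConv
    (fun _ _ => Commute.all _ _))
  left_inv F := by
    apply WithConv.ext
    ext <;> simp
  right_inv fg := by
    apply Prod.ext <;> apply WithConv.ext <;> ext <;> simp
  map_mul' F G := by
    apply Prod.ext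
    · apply pts_ext
      intro h
      change (F * G) (h ⊗ₜ[R] (1 : H')) =
        (toConv (F.ofConv.comp Algebra.TensorProduct.includeLeft) *
          toConv (G.ofConv.comp Algebra.TensorProduct.includeLeft) : WithConv (H →ₐ[R] B)) h
      rw [mul_apply_repr F G (reprLeft (Coalgebra.Repr.arbitrary R h)),
        mul_apply_repr _ _ (Coalgebra.Repr.arbitrary R h)]
      rfl
    · apply pts_ext
      intro h
      change (F * G) ((1 : H) ⊗ₜ[R] h) =
        (toConv (F.ofConv.comp Algebra.TensorProduct.includeRight) *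
          toConv (G.ofConv.comp Algebra.TensorProduct.includeRight) : WithConv (H' →ₐ[R] B)) h
      rw [mul_apply_repr F G (reprRight (Coalgebra.Repr.arbitrary R h)),
        mul_apply_repr _ _ (Coalgebra.Repr.arbitrary R h)]
      rfl

@[simp] lemma ptsProd_apply_fst (F : WithConv (H ⊗[R] H' →ₐ[R] B)) (h : H) :
    (ptsProd F).1 h = F (h ⊗ₜ[R] (1 : H')) := rfl

@[simp] lemma ptsProd_apply_snd (F : WithConv (H ⊗[R] H' →ₐ[R] B)) (h' : H') :
    (ptsProd F).2 h' = F ((1 : H) ⊗ₜ[R] h') := rfl

@[simp] lemma ptsProd_symm_apply_tmul (fg : WithConv (H →ₐ[R] B) × WithConv (H' →ₐ[R] B))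
    (h : H) (h' : H') : ptsProd.symm fg (h ⊗ₜ[R] h') = fg.1 h * fg.2 h' := by
  simp [ptsProd]

/-- Galois equivariance. -/
lemma ptsProd_smul {Γ : Type*} [Monoid Γ] [MulSemiringAction Γ B] [SMulCommClass Γ R B]
    (σ : Γ) (F : WithConv (H ⊗[R] H' →ₐ[R] B)) :
    ptsProd (σ • F) = (σ • (ptsProd F).1, σ • (ptsProd F).2) := rfl

end Points

section Model

variable {R : Type} [CommRing R] {Ω : Type} [CommRing Ω] [Algebra R Ω]
  {Γ : Type} [Monoid Γ] [MulSemiringAction Γ Ω] [SMulCommClass Γ R Ω]
  {M : Type} [AddCommGroup M] {act : Γ → M → M}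
  {M' : Type} [AddCommGroup M'] {act' : Γ → M' → M'}

/-- **Products (direct sums) of flat modules are flat.** -/
theorem _root_.Fermat.Agent.TW.FLAT.Points6.HasFlatModel.prod
    (h : HasFlatModel R Ω Γ M act) (h' : HasFlatModel R Ω Γ M' act') :
    HasFlatModel R Ω Γ (M × M') (fun σ x => (act σ x.1, act' σ x.2)) := by
  obtain ⟨H, i1, i2, hfin, hflat, hco, e, hmul, heq⟩ := h
  obtain ⟨H', i1', i2', hfin', hflat', hco', e', hmul', heq'⟩ := h'
  refine ⟨H ⊗[R] H', inferInstance, inferInstance, inferInstance, inferInstance, inferInstance,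
    (ptsProd (R := R) (H := H) (H' := H') (B := Ω)).toEquiv.trans (Equiv.prodCongr e e'), ?_, ?_⟩
  · intro f g
    simp only [Equiv.trans_apply, MulEquiv.toEquiv_eq_coe, EquivLike.coe_coe, map_mul,
      Equiv.prodCongr_apply]
    apply Prod.ext
    · exact hmul _ _
    · exact hmul' _ _
  · intro σ f
    simp only [Equiv.trans_apply, MulEquiv.toEquiv_eq_coe, EquivLike.coe_coe,
      Equiv.prodCongr_apply, ptsProd_smul]
    apply Prod.ext
    · exact heq _ _
    · exact heq' _ _

end Model

end

end Fermat.Agent.TW.FLAT.Prod6
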