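/-
Programme T, chapter FLAT, file HopfSub6: Hopf subalgebras (Mathlib only).

`H` a commutative Hopf algebra over a commutative ring `R`, `S` a commutative `R`-algebra and
`ι : S →ₐ[R] H`.

* `structure IsHopfEmb (ι : S →ₐ[R] H) : Prop` with fields
    `inj : Injective ι`, `inj2 : Injective (map ι ι)`, `inj3 : Injective (map ι (map ι ι))`
    (`map = Algebra.TensorProduct.map`),
    `comul_mem : ∀ s, comul (ι s) ∈ (map ι ι).range`, `antipode_mem : ∀ s, antipode R (ι s) ∈ ι.range`.
* for `hι : IsHopfEmb ι`: `hι.comulS : S →ₐ[R] S ⊗[R] S` with `map ι ι (hι.comulS s) = comul (ι s)`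
  (`map_comulS`), `counitS ι := counit ∘ ι`, `hι.antipodeS` with
  `ι (hι.antipodeS s) = antipode R (ι s)` (`map_antipodeS`);
  `hι.bialgebra : Bialgebra R S`, `hι.hopfAlgebra : HopfAlgebra R S` (reducible defs, use with
  `letI := hι.hopfAlgebra`); `hι.bialgHom : S →ₐc[R] H` (`bialgHom_apply : hι.bialgHom s = ι s`);
  `comul_eq`, `counit_eq`, `antipode_eq` (all `rfl`); `hι.isCocomm` if `H` is cocommutative.
* `isHopfEmb_of_flat [Module.Flat R S] [Module.Flat R H] (hinj) (comul_mem) (antipode_mem)`.
-/
import Mathlib

set_option autoImplicit false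

namespace Fermat.Agent.TW.FLAT.HopfSub6

open TensorProduct

noncomputable section

variable {R : Type*} [CommRing R] {H : Type*} [CommRing H] [HopfAlgebra R H]
  {S : Type*} [CommRing S] [Algebra R S]

/-- `ι : S →ₐ[R] H` embeds `S` as a Hopf subalgebra of `H`: it is injective together with its
tensor square and cube, and the image is stable under comultiplication and antipode. -/
structure IsHopfEmb (ι : S →ₐ[R] H) : Prop where
  inj : Function.Injective ι
  inj2 : Function.Injective (Algebra.TensorProduct.map ι ι)
  inj3 : Function.Injective (Algebra.TensorProduct.map ι (Algebra.TensorProduct.map ι ι))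
  comul_mem : ∀ s : S, Coalgebra.comul (R := R) (ι s) ∈ (Algebra.TensorProduct.map ι ι).range
  antipode_mem : ∀ s : S, HopfAlgebra.antipode R (ι s) ∈ ι.range

namespace IsHopfEmb

variable {ι : S →ₐ[R] H} (hι : IsHopfEmb ι)

/-- The comultiplication induced on `S`. -/
def comulS : S →ₐ[R] S ⊗[R] S :=
  ((AlgEquiv.ofInjective (Algebra.TensorProduct.map ι ι) hι.inj2).symm : _ →ₐ[R] S ⊗[R] S).comp
    (AlgHom.codRestrict ((Bialgebra.comulAlgHom R H).comp ι)
      (Algebra.TensorProduct.map ι ι).range hι.comul_mem)

lemma map_comulS (s : S) :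
    Algebra.TensorProduct.map ι ι (hι.comulS s) = Coalgebra.comul (R := R) (ι s) := by
  have := (AlgEquiv.ofInjective (Algebra.TensorProduct.map ι ι) hι.inj2).apply_symm_apply
    (AlgHom.codRestrict ((Bialgebra.comulAlgHom R H).comp ι)
      (Algebra.TensorProduct.map ι ι).range hι.comul_mem s)
  exact congrArg Subtype.val this

lemma map_comp_comulS :
    (Algebra.TensorProduct.map ι ι).comp hι.comulS = (Bialgebra.comulAlgHom R H).comp ι :=
  AlgHom.ext hι.map_comulS

/-- The counit induced on `S`. -/
def counitS (ι : S →ₐ[R] H) : S →ₐ[R] R := (Bialgebra.counitAlgHom R H).comp ι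

/-- The antipode induced on `S`. -/
def antipodeS : S →ₗ[R] S :=
  ((LinearEquiv.ofInjective ι.toLinearMap hι.inj).symm : _ →ₗ[R] S).comp
    (LinearMap.codRestrict (LinearMap.range ι.toLinearMap)
      ((HopfAlgebra.antipode R (A := H)).comp ι.toLinearMap)
      (fun s => by
        obtain ⟨s', hs'⟩ := hι.antipode_mem s
        exact ⟨s', hs'⟩))

lemma map_antipodeS (s : S) : ι (hι.antipodeS s) = HopfAlgebra.antipode R (ι s) := by
  have := (LinearEquiv.ofInjective ι.toLinearMap hι.inj).apply_symm_apply
    (LinearMap.codRestrict (LinearMap.range ι.toLinearMap)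
      ((HopfAlgebra.antipode R (A := H)).comp ι.toLinearMap)
      (fun s => by
        obtain ⟨s', hs'⟩ := hι.antipode_mem s
        exact ⟨s', hs'⟩) s)
  exact congrArg Subtype.val this

/-! ### pointwise naturality lemmas -/

lemma p1 (t : S ⊗[R] S) :
    Algebra.TensorProduct.map (Algebra.TensorProduct.map ι ι) ι
      (Algebra.TensorProduct.map hι.comulS (AlgHom.id R S) t) =
    Algebra.TensorProduct.map (Bialgebra.comulAlgHom R H) (AlgHom.id R H)
      (Algebra.TensorProduct.map ι ι t) := by
  induction t using TensorProduct.induction_on with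
  | zero => simp
  | tmul a b => simp [hι.map_comulS]
  | add x y hx hy => simp only [map_add, hx, hy]

lemma p2 :
    (Algebra.TensorProduct.map ι (Algebra.TensorProduct.map ι ι)).comp
      (Algebra.TensorProduct.assoc R R R S S S).toAlgHom =
    (Algebra.TensorProduct.assoc R R R H H H).toAlgHom.comp
      (Algebra.TensorProduct.map (Algebra.TensorProduct.map ι ι) ι) := by
  ext <;> simp [Algebra.TensorProduct.one_def]

lemma p3 (t : S ⊗[R] S) :
    Algebra.TensorProduct.map ι (Algebra.TensorProduct.map ι ι)
      (Algebra.TensorProduct.map (AlgHom.id R S) hι.comulS t) =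
    Algebra.TensorProduct.map (AlgHom.id R H) (Bialgebra.comulAlgHom R H)
      (Algebra.TensorProduct.map ι ι t) := by
  induction t using TensorProduct.induction_on with
  | zero => simp
  | tmul a b => simp [hι.map_comulS]
  | add x y hx hy => simp only [map_add, hx, hy]

lemma coassocS :
    (Algebra.TensorProduct.assoc R R R S S S).toAlgHom.comp
      ((Algebra.TensorProduct.map hι.comulS (.id R S)).comp hι.comulS) =
    (Algebra.TensorProduct.map (.id R S) hι.comulS).comp hι.comulS := by
  apply AlgHom.ext
  intro s
  apply hι.inj3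
  have h2 := fun u => congrArg (fun f => f u) (p2 (ι := ι))
  simp only [AlgHom.comp_apply] at h2 ⊢
  rw [h2, hι.p1, hι.p3, hι.map_comulS]
  exact Coalgebra.coassoc_apply (R := R) (ι s)

lemma p4 (t : S ⊗[R] S) :
    ι (Algebra.TensorProduct.lid R S (Algebra.TensorProduct.map (counitS ι) (AlgHom.id R S) t)) =
    Algebra.TensorProduct.lid R H
      (Algebra.TensorProduct.map (Bialgebra.counitAlgHom R H) (AlgHom.id R H)
        (Algebra.TensorProduct.map ι ι t)) := by
  induction t using TensorProduct.induction_on with
  | zero => simp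
  | tmul a b => simp [counitS]
  | add x y hx hy => simp only [map_add, hx, hy]

lemma p4' (t : S ⊗[R] S) :
    ι (Algebra.TensorProduct.rid R R S (Algebra.TensorProduct.map (AlgHom.id R S) (counitS ι) t)) =
    Algebra.TensorProduct.rid R R H
      (Algebra.TensorProduct.map (AlgHom.id R H) (Bialgebra.counitAlgHom R H)
        (Algebra.TensorProduct.map ι ι t)) := by
  induction t using TensorProduct.induction_on with
  | zero => simp
  | tmul a b => simp [counitS]
  | add x y hx hy => simp only [map_add, hx, hy]

lemma rTensorS :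
    (Algebra.TensorProduct.map (counitS ι) (.id R S)).comp hι.comulS =
      (Algebra.TensorProduct.lid R S).symm := by
  apply AlgHom.ext
  intro s
  apply (Algebra.TensorProduct.lid R S).injective
  apply hι.inj
  simp only [AlgHom.comp_apply]
  rw [p4, hι.map_comulS]
  have := Coalgebra.rTensor_counit_comul (R := R) (ι s)
  have h2 : Algebra.TensorProduct.map (Bialgebra.counitAlgHom R H) (AlgHom.id R H)
      (Coalgebra.comul (R := R) (ι s)) = (1 : R) ⊗ₜ[R] ι s := this
  rw [h2]
  simp

lemma lTensorS :
    (Algebra.TensorProduct.map (.id R S) (counitS ι)).comp hι.comulS =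
      (Algebra.TensorProduct.rid R R S).symm := by
  apply AlgHom.ext
  intro s
  apply (Algebra.TensorProduct.rid R R S).injective
  apply hι.inj
  simp only [AlgHom.comp_apply]
  rw [p4', hι.map_comulS]
  have := Coalgebra.lTensor_counit_comul (R := R) (ι s)
  have h2 : Algebra.TensorProduct.map (AlgHom.id R H) (Bialgebra.counitAlgHom R H)
      (Coalgebra.comul (R := R) (ι s)) = ι s ⊗ₜ[R] (1 : R) := this
  rw [h2]
  simp

/-- The bialgebra structure induced on `S`. -/
@[reducible] def bialgebra : Bialgebra R S :=
  Bialgebra.ofAlgHom hι.comulS (counitS ι) hι.coassocS hι.rTensorS hι.lTensorS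

lemma p5 (t : S ⊗[R] S) :
    ι (LinearMap.mul' R S (LinearMap.rTensor S hι.antipodeS t)) =
    LinearMap.mul' R H (LinearMap.rTensor H (HopfAlgebra.antipode R (A := H))
      (Algebra.TensorProduct.map ι ι t)) := by
  induction t using TensorProduct.induction_on with
  | zero => simp
  | tmul a b => simp [hι.map_antipodeS]
  | add x y hx hy => simp only [map_add, hx, hy]

lemma p5' (t : S ⊗[R] S) :
    ι (LinearMap.mul' R S (LinearMap.lTensor S hι.antipodeS t)) =
    LinearMap.mul' R H (LinearMap.lTensor H (HopfAlgebra.antipode R (A := H))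
      (Algebra.TensorProduct.map ι ι t)) := by
  induction t using TensorProduct.induction_on with
  | zero => simp
  | tmul a b => simp [hι.map_antipodeS]
  | add x y hx hy => simp only [map_add, hx, hy]

/-- **The Hopf algebra structure induced on `S` by a Hopf embedding `ι : S → H`.** -/
@[reducible] def hopfAlgebra : HopfAlgebra R S :=
  letI := hι.bialgebra
  { antipode := hι.antipodeS
    mul_antipode_rTensor_comul := by
      apply LinearMap.ext
      intro s
      apply hι.inj
      change ι (LinearMap.mul' R S (LinearMap.rTensor S hι.antipodeS (hι.comulS s))) =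
        ι (algebraMap R S (Coalgebra.counit (R := R) (ι s)))
      rw [hι.p5, hι.map_comulS, HopfAlgebra.mul_antipode_rTensor_comul_apply, AlgHom.commutes]
    mul_antipode_lTensor_comul := by
      apply LinearMap.ext
      intro s
      apply hι.inj
      change ι (LinearMap.mul' R S (LinearMap.lTensor S hι.antipodeS (hι.comulS s))) =
        ι (algebraMap R S (Coalgebra.counit (R := R) (ι s)))
      rw [hι.p5', hι.map_comulS, HopfAlgebra.mul_antipode_lTensor_comul_apply, AlgHom.commutes] }

/-- With the induced structure, `ι` is a bialgebra hom. -/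
def bialgHom : letI := hι.hopfAlgebra; S →ₐc[R] H :=
  letI := hι.hopfAlgebra
  BialgHom.ofAlgHom ι rfl hι.map_comp_comulS

@[simp] lemma bialgHom_apply (s : S) :
    letI := hι.hopfAlgebra; hι.bialgHom s = ι s := rfl

lemma comul_eq (s : S) :
    letI := hι.hopfAlgebra; Coalgebra.comul (R := R) s = hι.comulS s := rfl

lemma counit_eq (s : S) :
    letI := hι.hopfAlgebra; Coalgebra.counit (R := R) s = Coalgebra.counit (R := R) (ι s) := rfl

lemma antipode_eq (s : S) :
    letI := hι.hopfAlgebra; HopfAlgebra.antipode R s = hι.antipodeS s := rfl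

/-- The induced structure is cocommutative if `H` is. -/
lemma isCocomm [Coalgebra.IsCocomm R H] :
    letI := hι.hopfAlgebra; Coalgebra.IsCocomm R S := by
  let _ := hι.hopfAlgebra
  refine ⟨?_⟩
  apply LinearMap.ext
  intro s
  apply hι.inj2
  change Algebra.TensorProduct.map ι ι (TensorProduct.comm R S S (hι.comulS s)) =
    Algebra.TensorProduct.map ι ι (hι.comulS s)
  have hcomm : ∀ t : S ⊗[R] S, Algebra.TensorProduct.map ι ι (TensorProduct.comm R S S t) =
      TensorProduct.comm R H H (Algebra.TensorProduct.map ι ι t) := by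
    intro t
    induction t using TensorProduct.induction_on with
    | zero => simp
    | tmul a b => simp
    | add x y hx hy => simp only [map_add, hx, hy]
  rw [hcomm, hι.map_comulS, Coalgebra.comm_comul]

end IsHopfEmb

/-- Flatness gives the injectivity conditions. -/
lemma isHopfEmb_of_flat [Module.Flat R S] [Module.Flat R H] {ι : S →ₐ[R] H}
    (hinj : Function.Injective ι)
    (comul_mem : ∀ s : S,
      Coalgebra.comul (R := R) (ι s) ∈ (Algebra.TensorProduct.map ι ι).range)
    (antipode_mem : ∀ s : S, HopfAlgebra.antipode R (ι s) ∈ ι.range) : IsHopfEmb ι := by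
  have h2 : Function.Injective (Algebra.TensorProduct.map ι ι) := by
    have hl : (Algebra.TensorProduct.map ι ι).toLinearMap =
        (LinearMap.rTensor H ι.toLinearMap) ∘ₗ (LinearMap.lTensor S ι.toLinearMap) := by
      apply TensorProduct.ext'
      intro a b
      simp
    have : (Algebra.TensorProduct.map ι ι : S ⊗[R] S → H ⊗[R] H) =
        (LinearMap.rTensor H ι.toLinearMap) ∘ (LinearMap.lTensor S ι.toLinearMap) := by
      funext t
      exact LinearMap.congr_fun hl t
    rw [this]
    exact (Module.Flat.rTensor_preserves_injective_linearMap _ hinj).comp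
      (Module.Flat.lTensor_preserves_injective_linearMap _ hinj)
  have h3 : Function.Injective
      (Algebra.TensorProduct.map ι (Algebra.TensorProduct.map ι ι)) := by
    have hl : (Algebra.TensorProduct.map ι (Algebra.TensorProduct.map ι ι)).toLinearMap =
        (LinearMap.rTensor (H ⊗[R] H) ι.toLinearMap) ∘ₗ
          (LinearMap.lTensor S (Algebra.TensorProduct.map ι ι).toLinearMap) := by
      apply TensorProduct.ext'
      intro a b
      simp
    have : (Algebra.TensorProduct.map ι (Algebra.TensorProduct.map ι ι) :
        S ⊗[R] (S ⊗[R] S) → H ⊗[R] (H ⊗[R] H)) =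
        (LinearMap.rTensor (H ⊗[R] H) ι.toLinearMap) ∘
          (LinearMap.lTensor S (Algebra.TensorProduct.map ι ι).toLinearMap) := by
      funext t
      exact LinearMap.congr_fun hl t
    rw [this]
    exact (Module.Flat.rTensor_preserves_injective_linearMap _ hinj).comp
      (Module.Flat.lTensor_preserves_injective_linearMap _ h2)
  exact ⟨hinj, h2, h3, comul_mem, antipode_mem⟩

end

end Fermat.Agent.TW.FLAT.HopfSub6
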