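/-
Programme T, chapter FLAT, file Quotient6 (F0.6, quotients): the quotient of a finite flat
commutative group scheme by a Galois-stable subgroup of points, WITHOUT Cartier duality:
`G / N` is represented by the Hopf subalgebra of `N`-invariant functions.

Module lemmas (Mathlib only):
* `mem_range_map_subtype (S : Submodule R M) [Module.Flat R (M ⧸ S)] (x : M ⊗[R] M)
    (h1 : rTensor M S.mkQ x = 0) (h2 : lTensor M S.mkQ x = 0) :
    x ∈ LinearMap.range (TensorProduct.map S.subtype S.subtype)`;
* `tensor_eq_zero_of_forall` : detection of zero in `A ⊗[R] N₁` (`A` a flat `R`-algebra with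
  `Closure6.evFam ψ` injective, `N₁` embedded in `κ₁ → Ω` by functionals `E k`).

For `K : Subgroup (WithConv (H →ₐ[R] Ω))` (`P := WithConv (H →ₐ[R] Ω)` all points):
* `allFam : P → (H →ₐ[R] Ω)`; `invSub K : Subalgebra R H`,
  `mem_invSub : h ∈ invSub K ↔ ∀ f, ∀ n ∈ K, (f * n) h = f h`;
  `diffMap`, `diffMapQ`, `diffMapQ_injective`, `quot_invSub_isTorsionFree`;
* `comul_mem_range_invSub`, `antipode_mem_invSub`, `invSub_flat`,
  `isHopfEmb_invSub K (hsplit : Injective (evFam allFam)) : HopfSub6.IsHopfEmb (invSub K).val`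
  (`R` Dedekind, `H` finite flat cocommutative, `FaithfulSMul R Ω`);
* `invSpace K : Submodule Ω (Ω ⊗[R] H)`, `invSpace_eq_span` (Galois descent:
  `invSpace K = span_Ω {1 ⊗ₜ s | s ∈ invSub K}` for `Γ`-stable `K`);
* (D1) `mem_of_forall_invSub_eq` : a point agreeing with the unit point on `invSub K` is in `K`;
* (D2) `exists_extend_invSub` : every `g : invSub K →ₐ[R] Ω` extends to a point of `H`.
* `exists_equiv_of_ker_eq` (two surjections with the same kernel).
Models (`R` a PID, `Ω` a field, `FaithfulSMul R Ω`, `hF : FixedInFrac R Ω Γ`):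
* `exists_split_model` : a flat model can be chosen with `evFam allFam` injective;
* `HasFlatModel.of_surjective (hF) (h : HasFlatModel R Ω Γ M act) (π : M →+ M'')
    (hπ : Surjective π) (hπact : ∀ σ m, π (act σ m) = act'' σ (π m)) :
    HasFlatModel R Ω Γ M'' act''`   ("quotients of flat are flat").
-/
import Mathlib
import Fermat.Agent.TW.FLAT.Points6
import Fermat.Agent.TW.FLAT.Closed6
import Fermat.Agent.TW.FLAT.Descent6
import Fermat.Agent.TW.FLAT.Closure6
import Fermat.Agent.TW.FLAT.HopfSub6

set_option autoImplicit false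

namespace Fermat.Agent.TW.FLAT.Quotient6

open WithConv TensorProduct Fermat.Agent.TW.FLAT.Points6 Fermat.Agent.TW.FLAT.Descent6
  Fermat.Agent.TW.FLAT.Closure6 Fermat.Agent.TW.FLAT.HopfSub6

noncomputable section

section ModuleLemmas

variable {R : Type*} [CommRing R] {M : Type*} [AddCommGroup M] [Module R M]

/-- For a submodule `S ≤ M` with flat quotient, a tensor `x : M ⊗ M` killed by both
`π ⊗ id` and `id ⊗ π` (`π : M → M ⧸ S`) lies in the image of `S ⊗ S`. -/
theorem mem_range_map_subtype (S : Submodule R M) [Module.Flat R (M ⧸ S)] (x : M ⊗[R] M)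
    (h1 : LinearMap.rTensor M S.mkQ x = 0) (h2 : LinearMap.lTensor M S.mkQ x = 0) :
    x ∈ LinearMap.range (TensorProduct.map S.subtype S.subtype) := by
  have hx1 : x ∈ LinearMap.range (LinearMap.rTensor M S.subtype) := by
    rw [← rTensor_mkQ]; exact h1
  obtain ⟨y, rfl⟩ := hx1
  -- `y : S ⊗ M`; its image in `S ⊗ (M ⧸ S)` vanishes
  have h3 : LinearMap.rTensor (M ⧸ S) S.subtype (LinearMap.lTensor S S.mkQ y) = 0 := by
    rw [← h2]
    simp only [← LinearMap.comp_apply]
    congr 1
    apply TensorProduct.ext'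
    intro a b
    simp
  have hinj : Function.Injective (LinearMap.rTensor (M ⧸ S) S.subtype) :=
    Module.Flat.rTensor_preserves_injective_linearMap _ S.subtype_injective
  have h4 : LinearMap.lTensor S S.mkQ y = 0 := hinj (by rw [h3, map_zero])
  have hy : y ∈ LinearMap.range (LinearMap.lTensor S S.subtype) := by
    rw [← lTensor_mkQ]; exact h4
  obtain ⟨z, rfl⟩ := hy
  refine ⟨z, ?_⟩
  simp only [← LinearMap.comp_apply]
  congr 1
  apply TensorProduct.ext'
  intro a b
  simp

/-- Detection of zero in `A ⊗ N₁`: `A` a flat `R`-algebra on which the `Ω`-valued points `ψ`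
are jointly injective after extension of scalars, `N₁` a module embedded in `κ₁ → Ω` by the
functionals `E k`. A tensor killed by all `ψ k₂ ⊗ E k₁` is zero. -/
theorem tensor_eq_zero_of_forall {N₁ : Type*} [AddCommGroup N₁] [Module R N₁]
    {A : Type*} [CommRing A] [Algebra R A] [Module.Flat R A]
    {Ω : Type*} [Field Ω] [Algebra R Ω] {κ₁ κ₂ : Type*} [Finite κ₁]
    (E : κ₁ → (N₁ →ₗ[R] Ω)) (hE : Function.Injective (fun (n : N₁) (k : κ₁) => E k n))
    (ψ : κ₂ → (A →ₐ[R] Ω)) (hev : Function.Injective (evFam ψ)) (t : A ⊗[R] N₁)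
    (ht : ∀ k₁ k₂, LinearMap.mul' R Ω (TensorProduct.map (ψ k₂).toLinearMap (E k₁) t) = 0) :
    t = 0 := by
  classical
  have := Fintype.ofFinite κ₁
  let E' : N₁ →ₗ[R] (κ₁ → Ω) := LinearMap.pi E
  have hE' : Function.Injective E' := hE
  have h1 : Function.Injective (LinearMap.lTensor A E') :=
    Module.Flat.lTensor_preserves_injective_linearMap E' hE'
  apply h1
  rw [map_zero]
  apply (TensorProduct.piRight R R A (fun _ : κ₁ => Ω)).injective
  rw [map_zero]
  funext k₁
  have h2 : ∀ t : A ⊗[R] N₁, (TensorProduct.piRight R R A (fun _ : κ₁ => Ω))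
      (LinearMap.lTensor A E' t) k₁ = LinearMap.lTensor A (E k₁) t := by
    intro t
    induction t using TensorProduct.induction_on with
    | zero => simp
    | tmul a b => simp [E']
    | add x y hx hy => simp only [map_add, Pi.add_apply, hx, hy]
  rw [h2, Pi.zero_apply]
  apply (TensorProduct.comm R A Ω).injective
  rw [map_zero]
  apply hev
  rw [map_zero]
  funext k₂
  have h3 : ∀ t : A ⊗[R] N₁, evFam ψ (TensorProduct.comm R A Ω
      (LinearMap.lTensor A (E k₁) t)) k₂ =
      LinearMap.mul' R Ω (TensorProduct.map (ψ k₂).toLinearMap (E k₁) t) := by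
    intro t
    induction t using TensorProduct.induction_on with
    | zero => simp
    | tmul a b => simp [mul_comm]
    | add x y hx hy => simp only [map_add, Pi.add_apply, hx, hy]
  rw [h3, ht k₁ k₂, Pi.zero_apply]

end ModuleLemmas

section InvSub

variable {R : Type*} [CommRing R] {H : Type*} [CommRing H] [HopfAlgebra R H]
  {Ω : Type*} [Field Ω] [Algebra R Ω]

/-- All `Ω`-points of `H`, as a family. -/
def allFam : WithConv (H →ₐ[R] Ω) → (H →ₐ[R] Ω) := fun f => f.ofConv

lemma conv_apply_eq (f g : WithConv (H →ₐ[R] Ω)) (h : H) :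
    (f * g) h = LinearMap.mul' R Ω
      (TensorProduct.map f.ofConv.toLinearMap g.ofConv.toLinearMap (Coalgebra.comul (R := R) h)) :=
  rfl

/-- The subalgebra of functions invariant under translation by the subgroup `K` of points. -/
def invSub (K : Subgroup (WithConv (H →ₐ[R] Ω))) : Subalgebra R H where
  carrier := {h | ∀ (f : WithConv (H →ₐ[R] Ω)), ∀ n ∈ K, (f * n) h = f h}
  mul_mem' := by
    intro a b ha hb f n hn
    rw [map_mul, map_mul, ha f n hn, hb f n hn]
  add_mem' := by
    intro a b ha hb f n hn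
    rw [map_add, map_add, ha f n hn, hb f n hn]
  algebraMap_mem' := by
    intro r f n _
    rw [AlgHom.commutes, AlgHom.commutes]

lemma mem_invSub (K : Subgroup (WithConv (H →ₐ[R] Ω))) (h : H) :
    h ∈ invSub K ↔ ∀ (f : WithConv (H →ₐ[R] Ω)), ∀ n ∈ K, (f * n) h = f h := Iff.rfl

/-- The difference functionals cutting out `invSub K`. -/
def diffMap (K : Subgroup (WithConv (H →ₐ[R] Ω))) (k : WithConv (H →ₐ[R] Ω) × K) : H →ₗ[R] Ω :=
  (k.1 * k.2.1).ofConv.toLinearMap - k.1.ofConv.toLinearMap

lemma diffMap_apply (K : Subgroup (WithConv (H →ₐ[R] Ω))) (k : WithConv (H →ₐ[R] Ω) × K) (h : H) :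
    diffMap K k h = (k.1 * k.2.1) h - k.1 h := rfl

lemma mem_invSub_iff_diffMap (K : Subgroup (WithConv (H →ₐ[R] Ω))) (h : H) :
    h ∈ invSub K ↔ ∀ k, diffMap K k h = 0 := by
  rw [mem_invSub]
  constructor
  · intro hh k
    rw [diffMap_apply, hh k.1 k.2.1 k.2.2, sub_self]
  · intro hh f n hn
    have := hh (f, ⟨n, hn⟩)
    rwa [diffMap_apply, sub_eq_zero] at this

/-- The induced functionals on the quotient module `H ⧸ invSub K`. -/
def diffMapQ (K : Subgroup (WithConv (H →ₐ[R] Ω))) (k : WithConv (H →ₐ[R] Ω) × K) :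
    (H ⧸ Subalgebra.toSubmodule (invSub K)) →ₗ[R] Ω :=
  (Subalgebra.toSubmodule (invSub K)).liftQ (diffMap K k) (by
    intro h hh
    exact (mem_invSub_iff_diffMap K h).1 hh k)

@[simp] lemma diffMapQ_mk (K : Subgroup (WithConv (H →ₐ[R] Ω))) (k : WithConv (H →ₐ[R] Ω) × K)
    (h : H) : diffMapQ K k ((Subalgebra.toSubmodule (invSub K)).mkQ h) = diffMap K k h := rfl

lemma diffMapQ_injective (K : Subgroup (WithConv (H →ₐ[R] Ω))) :
    Function.Injective
      (fun (q : H ⧸ Subalgebra.toSubmodule (invSub K)) (k : WithConv (H →ₐ[R] Ω) × K) =>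
        diffMapQ K k q) := by
  change Function.Injective (LinearMap.pi (diffMapQ K))
  rw [injective_iff_map_eq_zero]
  intro q hq
  obtain ⟨h, rfl⟩ := (Subalgebra.toSubmodule (invSub K)).mkQ_surjective q
  have : h ∈ invSub K := by
    rw [mem_invSub_iff_diffMap]
    intro k
    exact congrFun hq k
  exact (Submodule.Quotient.mk_eq_zero _).2 this

/-- The quotient module `H ⧸ invSub K` is torsion free. -/
lemma quot_invSub_isTorsionFree [IsDomain R] [FaithfulSMul R Ω]
    (K : Subgroup (WithConv (H →ₐ[R] Ω))) :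
    Module.IsTorsionFree R (H ⧸ Subalgebra.toSubmodule (invSub K)) := by
  apply Module.IsTorsionFree.of_smul_eq_zero
  intro r q hrq
  by_cases hr : r = 0
  · exact Or.inl hr
  right
  apply diffMapQ_injective K
  funext k
  have h1 : diffMapQ K k (r • q) = 0 := by rw [hrq, map_zero]
  rw [map_smul, Algebra.smul_def, mul_eq_zero] at h1
  rcases h1 with h1 | h1
  · exact absurd ((map_eq_zero_iff _ (FaithfulSMul.algebraMap_injective R Ω)).1 h1) hr
  · simpa using h1

end InvSub

section HopfEmb

variable {R : Type*} [CommRing R] [IsDedekindDomain R] {H : Type*} [CommRing H] [HopfAlgebra R H]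
  [Coalgebra.IsCocomm R H] [Module.Finite R H] [Module.Flat R H]
  {Ω : Type*} [Field Ω] [Algebra R Ω] [FaithfulSMul R Ω]

omit [IsDedekindDomain R] [FaithfulSMul R Ω] [Coalgebra.IsCocomm R H] [Module.Finite R H] in
lemma lTensor_mkQ_comul_eq_zero (K : Subgroup (WithConv (H →ₐ[R] Ω)))
    [Finite (WithConv (H →ₐ[R] Ω))]
    (hsplit : Function.Injective (evFam (allFam (R := R) (H := H) (Ω := Ω))))
    {s : H} (hs : s ∈ invSub K) :
    LinearMap.lTensor H (Subalgebra.toSubmodule (invSub K)).mkQ (Coalgebra.comul (R := R) s) = 0 := by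
  have : Finite (WithConv (H →ₐ[R] Ω) × K) := inferInstance
  apply tensor_eq_zero_of_forall (diffMapQ K) (diffMapQ_injective K) allFam hsplit
  intro k g
  have h1 : (TensorProduct.map (allFam g).toLinearMap (diffMapQ K k)) ∘ₗ
      (LinearMap.lTensor H (Subalgebra.toSubmodule (invSub K)).mkQ) =
      TensorProduct.map (allFam g).toLinearMap (diffMap K k) := by
    apply TensorProduct.ext'
    intro a b
    rfl
  have h2 : TensorProduct.map (allFam g).toLinearMap (diffMap K k) =
      TensorProduct.map (allFam g).toLinearMap (k.1 * k.2.1).ofConv.toLinearMap -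
      TensorProduct.map (allFam g).toLinearMap k.1.ofConv.toLinearMap := by
    apply TensorProduct.ext'
    intro a b
    simp [diffMap, tmul_sub]
  have h3 : LinearMap.mul' R Ω (TensorProduct.map (allFam g).toLinearMap (diffMapQ K k)
      (LinearMap.lTensor H (Subalgebra.toSubmodule (invSub K)).mkQ (Coalgebra.comul (R := R) s))) =
      LinearMap.mul' R Ω (TensorProduct.map (allFam g).toLinearMap (diffMap K k)
        (Coalgebra.comul (R := R) s)) := by
    rw [← h1]; rfl
  rw [h3, h2, LinearMap.sub_apply, map_sub]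
  have e1 : LinearMap.mul' R Ω (TensorProduct.map (allFam g).toLinearMap
      (k.1 * k.2.1).ofConv.toLinearMap (Coalgebra.comul (R := R) s)) = (g * (k.1 * k.2.1)) s := rfl
  have e2 : LinearMap.mul' R Ω (TensorProduct.map (allFam g).toLinearMap
      k.1.ofConv.toLinearMap (Coalgebra.comul (R := R) s)) = (g * k.1) s := rfl
  rw [e1, e2, ← mul_assoc, hs (g * k.1) k.2.1 k.2.2, sub_self]

omit [IsDedekindDomain R] [FaithfulSMul R Ω] [Module.Finite R H] in
lemma rTensor_mkQ_comul_eq_zero (K : Subgroup (WithConv (H →ₐ[R] Ω)))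
    [Finite (WithConv (H →ₐ[R] Ω))]
    (hsplit : Function.Injective (evFam (allFam (R := R) (H := H) (Ω := Ω))))
    {s : H} (hs : s ∈ invSub K) :
    LinearMap.rTensor H (Subalgebra.toSubmodule (invSub K)).mkQ (Coalgebra.comul (R := R) s) = 0 := by
  apply (TensorProduct.comm R (H ⧸ Subalgebra.toSubmodule (invSub K)) H).injective
  rw [map_zero]
  have h1 : ∀ x : H ⊗[R] H, TensorProduct.comm R (H ⧸ Subalgebra.toSubmodule (invSub K)) H
      (LinearMap.rTensor H (Subalgebra.toSubmodule (invSub K)).mkQ x) =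
      LinearMap.lTensor H (Subalgebra.toSubmodule (invSub K)).mkQ (TensorProduct.comm R H H x) := by
    intro x
    induction x using TensorProduct.induction_on with
    | zero => simp
    | tmul a b => simp
    | add x y hx hy => simp only [map_add, hx, hy]
  rw [h1, Coalgebra.comm_comul]
  exact lTensor_mkQ_comul_eq_zero K hsplit hs

omit [Module.Finite R H] in
/-- The invariant subalgebra is stable under comultiplication. -/
lemma comul_mem_range_invSub (K : Subgroup (WithConv (H →ₐ[R] Ω)))
    [Finite (WithConv (H →ₐ[R] Ω))]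
    (hsplit : Function.Injective (evFam (allFam (R := R) (H := H) (Ω := Ω))))
    (s : invSub K) :
    Coalgebra.comul (R := R) ((invSub K).val s) ∈
      (Algebra.TensorProduct.map (invSub K).val (invSub K).val).range := by
  have hflatQ : Module.Flat R (H ⧸ Subalgebra.toSubmodule (invSub K)) := by
    have := quot_invSub_isTorsionFree (R := R) K
    infer_instance
  have hmem := mem_range_map_subtype (Subalgebra.toSubmodule (invSub K))
    (Coalgebra.comul (R := R) (s : H))
    (rTensor_mkQ_comul_eq_zero K hsplit s.2) (lTensor_mkQ_comul_eq_zero K hsplit s.2)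
  rw [TensorProduct.range_map_eq_span_tmul] at hmem
  have hle : Submodule.span R {t : H ⊗[R] H | ∃ (m n : Subalgebra.toSubmodule (invSub K)),
      (Subalgebra.toSubmodule (invSub K)).subtype m ⊗ₜ[R]
        (Subalgebra.toSubmodule (invSub K)).subtype n = t} ≤
      Subalgebra.toSubmodule (Algebra.TensorProduct.map (invSub K).val (invSub K).val).range := by
    rw [Submodule.span_le]
    rintro _ ⟨m, n, rfl⟩
    exact ⟨(⟨m.1, m.2⟩ : invSub K) ⊗ₜ[R] (⟨n.1, n.2⟩ : invSub K), rfl⟩
  exact hle hmem

omit [IsDedekindDomain R] [Module.Finite R H] [Module.Flat R H] [FaithfulSMul R Ω] in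
/-- The invariant subalgebra is stable under the antipode. -/
lemma antipode_mem_invSub (K : Subgroup (WithConv (H →ₐ[R] Ω))) {s : H} (hs : s ∈ invSub K) :
    HopfAlgebra.antipode R s ∈ invSub K := by
  intro f n hn
  have h1 : (f * n) (HopfAlgebra.antipode R s) = (f * n)⁻¹ s := (inv_apply (f * n) s).symm
  have h2 : f (HopfAlgebra.antipode R s) = f⁻¹ s := (inv_apply f s).symm
  rw [h1, h2, mul_inv]
  exact hs f⁻¹ n⁻¹ (K.inv_mem hn)

omit [Module.Finite R H] [Coalgebra.IsCocomm R H] [FaithfulSMul R Ω] in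
/-- The invariant subalgebra is torsion free, hence flat. -/
lemma invSub_flat (K : Subgroup (WithConv (H →ₐ[R] Ω))) : Module.Flat R (invSub K) := by
  have : Module.IsTorsionFree R (invSub K) :=
    Function.Injective.moduleIsTorsionFree (invSub K).val Subtype.val_injective
      (fun r m => rfl)
  infer_instance

/-- **The invariant subalgebra is a Hopf subalgebra.** -/
theorem isHopfEmb_invSub (K : Subgroup (WithConv (H →ₐ[R] Ω)))
    (hsplit : Function.Injective (evFam (allFam (R := R) (H := H) (Ω := Ω)))) :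
    IsHopfEmb (invSub K).val := by
  have := invSub_flat (R := R) K
  have : Finite (WithConv (H →ₐ[R] Ω)) := inferInstance
  refine isHopfEmb_of_flat Subtype.val_injective (comul_mem_range_invSub K hsplit) ?_
  intro s
  exact ⟨⟨_, antipode_mem_invSub K s.2⟩, rfl⟩

end HopfEmb

section Points

variable {R : Type*} [CommRing R] {H : Type*} [CommRing H] [HopfAlgebra R H]
  {Ω : Type*} [Field Ω] [Algebra R Ω]
  {Γ : Type*} [Group Γ] [MulSemiringAction Γ Ω] [SMulCommClass Γ R Ω]

/-- Equivariance of the evaluation at all points. -/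
lemma evFam_allFam_tensorAct (σ : Γ) (w : Ω ⊗[R] H) (f : WithConv (H →ₐ[R] Ω)) :
    evFam (allFam (R := R) (H := H) (Ω := Ω)) (tensorAct σ w) f =
      σ • evFam (allFam (R := R) (H := H) (Ω := Ω)) w (σ⁻¹ • f) := by
  induction w using TensorProduct.induction_on with
  | zero => simp
  | tmul ω a =>
    rw [tensorAct_tmul, evFam_tmul, evFam_tmul, smul_mul']
    simp [allFam]
  | add x y hx hy =>
    rw [map_add, map_add, map_add, Pi.add_apply, Pi.add_apply, hx, hy, smul_add]

/-- The subspace of `Ω ⊗ H` of functions invariant under translation by `K`. -/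
def invSpace (K : Subgroup (WithConv (H →ₐ[R] Ω))) : Submodule Ω (Ω ⊗[R] H) where
  carrier := {x | ∀ (f : WithConv (H →ₐ[R] Ω)), ∀ n ∈ K,
    evFam (allFam (R := R) (H := H) (Ω := Ω)) x (f * n) = evFam allFam x f}
  add_mem' := by
    intro x y hx hy f n hn
    rw [map_add, Pi.add_apply, Pi.add_apply, hx f n hn, hy f n hn]
  zero_mem' := by
    intro f n _
    simp
  smul_mem' := by
    intro c x hx f n hn
    rw [map_smul, Pi.smul_apply, Pi.smul_apply, hx f n hn]

lemma mem_invSpace (K : Subgroup (WithConv (H →ₐ[R] Ω))) (x : Ω ⊗[R] H) :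
    x ∈ invSpace K ↔ ∀ (f : WithConv (H →ₐ[R] Ω)), ∀ n ∈ K,
      evFam (allFam (R := R) (H := H) (Ω := Ω)) x (f * n) = evFam allFam x f := Iff.rfl

lemma one_tmul_mem_invSpace (K : Subgroup (WithConv (H →ₐ[R] Ω))) (h : H) :
    (1 : Ω) ⊗ₜ[R] h ∈ invSpace K ↔ h ∈ invSub K := by
  rw [mem_invSpace, mem_invSub]
  simp [allFam]

/-- **Galois descent for the invariant functions**: `invSpace K` is spanned by `1 ⊗ s`,
`s ∈ invSub K`. -/
theorem invSpace_eq_span [Module.Free R H] (hF : FixedInFrac R Ω Γ)
    (K : Subgroup (WithConv (H →ₐ[R] Ω))) (hK : ∀ (σ : Γ), ∀ n ∈ K, σ • n ∈ K) :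
    invSpace K = Submodule.span Ω {w | ∃ s ∈ invSub K, w = (1 : Ω) ⊗ₜ[R] s} := by
  have hstable : ∀ (σ : Γ), ∀ w ∈ invSpace K, tensorAct σ w ∈ invSpace K := by
    intro σ w hw f n hn
    rw [evFam_allFam_tensorAct, evFam_allFam_tensorAct, smul_mul', hw _ _ (hK σ⁻¹ n hn)]
  have h := span_rational_eq hF (invSpace K) hstable
  rw [← h]
  congr 1
  ext w
  constructor
  · rintro ⟨hw, a, rfl⟩
    exact ⟨a, (one_tmul_mem_invSpace K a).1 hw, rfl⟩
  · rintro ⟨a, ha, rfl⟩
    exact ⟨(one_tmul_mem_invSpace K a).2 ha, a, rfl⟩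

lemma allFam_injective : Function.Injective (allFam (R := R) (H := H) (Ω := Ω)) :=
  fun _ _ h => WithConv.ext h

/-- **(D1)** A point which agrees with the unit point on the invariant subalgebra lies in `K`. -/
theorem mem_of_forall_invSub_eq [Module.Free R H] [Finite (WithConv (H →ₐ[R] Ω))]
    (hF : FixedInFrac R Ω Γ)
    (K : Subgroup (WithConv (H →ₐ[R] Ω))) (hK : ∀ (σ : Γ), ∀ n ∈ K, σ • n ∈ K)
    (f : WithConv (H →ₐ[R] Ω))
    (hf : ∀ s ∈ invSub K, f s = (1 : WithConv (H →ₐ[R] Ω)) s) : f ∈ K := by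
  classical
  by_contra hfK
  -- the indicator function of `K`
  obtain ⟨x, hx⟩ := evFam_surjective (allFam_injective (R := R) (H := H) (Ω := Ω))
    (fun g => if g ∈ K then (1 : Ω) else 0)
  have hxK : x ∈ invSpace K := by
    intro g n hn
    rw [hx]
    have : g * n ∈ K ↔ g ∈ K := by
      constructor
      · intro h
        have := K.mul_mem h (K.inv_mem hn)
        rwa [mul_inv_cancel_right] at this
      · intro h
        exact K.mul_mem h hn
    simp only [this]
  rw [invSpace_eq_span hF K hK] at hxK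
  -- the functional `F_f - F_1` vanishes on the span but not at `x`
  let L : Ω ⊗[R] H →ₗ[Ω] Ω :=
    ((LinearMap.proj f : (WithConv (H →ₐ[R] Ω) → Ω) →ₗ[Ω] Ω) -
      (LinearMap.proj 1 : (WithConv (H →ₐ[R] Ω) → Ω) →ₗ[Ω] Ω)) ∘ₗ
      (evFam (allFam (R := R) (H := H) (Ω := Ω))).toLinearMap
  have hL : Submodule.span Ω {w | ∃ s ∈ invSub K, w = (1 : Ω) ⊗ₜ[R] s} ≤ LinearMap.ker L := by
    rw [Submodule.span_le]
    rintro _ ⟨s, hs, rfl⟩
    rw [SetLike.mem_coe, LinearMap.mem_ker]
    simp only [L, LinearMap.comp_apply, AlgHom.toLinearMap_apply, LinearMap.sub_apply,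
      LinearMap.proj_apply, evFam_tmul, one_mul, allFam]
    rw [hf s hs, sub_self]
  have hLx : L x = 0 := hL hxK
  simp only [L, LinearMap.comp_apply, AlgHom.toLinearMap_apply, LinearMap.sub_apply,
    LinearMap.proj_apply, hx] at hLx
  rw [if_neg hfK, if_pos K.one_mem] at hLx
  simp at hLx

/-- **(D2)** Every point of the invariant subalgebra extends to a point of `H`. -/
theorem exists_extend_invSub [IsDedekindDomain R] [FaithfulSMul R Ω]
    [Finite (WithConv (H →ₐ[R] Ω))]
    (hsplit : Function.Injective (evFam (allFam (R := R) (H := H) (Ω := Ω))))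
    (K : Subgroup (WithConv (H →ₐ[R] Ω))) (g : invSub K →ₐ[R] Ω) :
    ∃ f : WithConv (H →ₐ[R] Ω), ∀ s : invSub K, f (s : H) = g s := by
  classical
  by_contra hcon
  have hcon' : ∀ f : WithConv (H →ₐ[R] Ω), f.ofConv.comp (invSub K).val ≠ g := by
    intro f hfg
    exact hcon ⟨f, fun s => by rw [← hfg]; rfl⟩
  -- the family of restricted points together with `g`
  let T : Set (invSub K →ₐ[R] Ω) :=
    Set.range (fun f : WithConv (H →ₐ[R] Ω) => f.ofConv.comp (invSub K).val)
  have hTfin : Finite T := Set.finite_range _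
  let fam : Option T → (invSub K →ₐ[R] Ω) := fun o =>
    match o with
    | none => g
    | some t => t.1
  have hfam : Function.Injective fam := by
    intro o o' h
    match o, o' with
    | none, none => rfl
    | none, some t =>
      exfalso
      obtain ⟨f, hf⟩ := t.2
      exact hcon' f (hf.trans h.symm)
    | some t, none =>
      exfalso
      obtain ⟨f, hf⟩ := t.2
      exact hcon' f (hf.trans h)
    | some t, some t' =>
      congr 1
      exact Subtype.ext h
  obtain ⟨y, hy⟩ := evFam_surjective hfam (Pi.single none 1)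
  -- push `y` to `Ω ⊗ H`
  have hΩflat : Module.Flat R Ω := inferInstance
  have hinj : Function.Injective (LinearMap.lTensor Ω (invSub K).val.toLinearMap) :=
    Module.Flat.lTensor_preserves_injective_linearMap _ Subtype.val_injective
  have hcomp : ∀ (y : Ω ⊗[R] invSub K) (f : WithConv (H →ₐ[R] Ω)),
      evFam (allFam (R := R) (H := H) (Ω := Ω))
        (LinearMap.lTensor Ω (invSub K).val.toLinearMap y) f =
      evFam fam y (some ⟨f.ofConv.comp (invSub K).val, f, rfl⟩) := by
    intro y f
    induction y using TensorProduct.induction_on with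
    | zero => simp
    | tmul ω s => simp [allFam, fam]
    | add x z hx hz => simp only [map_add, Pi.add_apply, hx, hz]
  have hy0 : LinearMap.lTensor Ω (invSub K).val.toLinearMap y = 0 := by
    apply hsplit
    rw [map_zero]
    funext f
    rw [hcomp, hy]
    simp
  have : y = 0 := hinj (by rw [hy0, map_zero])
  have h1 := congrFun hy none
  rw [this, map_zero] at h1
  simp at h1

end Points

section GroupLemma

/-- Two surjections from a group with the same kernel have isomorphic targets. -/
lemma exists_equiv_of_ker_eq {P G : Type*} [Group P] [Group G] {M'' : Type*} [AddCommGroup M'']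
    (ρ : P →* G) (hρ : Function.Surjective ρ) (φ : P → M'')
    (hφmul : ∀ f f', φ (f * f') = φ f + φ f') (hφ : Function.Surjective φ)
    (hker : ∀ f, ρ f = 1 ↔ φ f = 0) : ∃ e'' : G ≃ M'', ∀ f, e'' (ρ f) = φ f := by
  have hφ1 : φ 1 = 0 := by
    have := hφmul 1 1
    rw [mul_one] at this
    exact left_eq_add.mp this
  have hφinv : ∀ f, φ f⁻¹ = - φ f := by
    intro f
    have := hφmul f f⁻¹
    rw [mul_inv_cancel, hφ1] at this
    exact (neg_eq_of_add_eq_zero_right this.symm).symm
  have hwd : ∀ f f', ρ f = ρ f' ↔ φ f = φ f' := by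
    intro f f'
    have h1 : ρ f = ρ f' ↔ ρ (f⁻¹ * f') = 1 := by
      rw [map_mul, map_inv, inv_mul_eq_one]
    have h2 : φ f = φ f' ↔ φ (f⁻¹ * f') = 0 := by
      rw [hφmul, hφinv, neg_add_eq_zero]
    rw [h1, h2, hker]
  let toF : G → M'' := fun g => φ (hρ g).choose
  have htoF : ∀ f, toF (ρ f) = φ f := by
    intro f
    exact (hwd _ _).1 (hρ (ρ f)).choose_spec
  have hbij : Function.Bijective toF := by
    constructor
    · intro g g' h
      obtain ⟨f, rfl⟩ := hρ g
      obtain ⟨f', rfl⟩ := hρ g'
      rw [htoF, htoF] at h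
      exact (hwd _ _).2 h
    · intro m
      obtain ⟨f, rfl⟩ := hφ m
      exact ⟨ρ f, htoF f⟩
  exact ⟨Equiv.ofBijective toF hbij, htoF⟩

end GroupLemma

section Model

variable {R : Type} [CommRing R] [IsDomain R] [IsPrincipalIdealRing R]
  {Ω : Type} [Field Ω] [Algebra R Ω] [FaithfulSMul R Ω]
  {Γ : Type} [Group Γ] [MulSemiringAction Γ Ω] [SMulCommClass Γ R Ω]
  {M : Type} [AddCommGroup M] {act : Γ → M → M}

/-- Every flat model can be replaced by a "generically split" one: the evaluation
`Ω ⊗[R] H → (G(Ω) → Ω)` is injective (replace `H` by the closure of all its points). -/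
theorem exists_split_model (hF : FixedInFrac R Ω Γ) (h : HasFlatModel R Ω Γ M act) :
    ∃ (H : Type) (_ : CommRing H) (_ : HopfAlgebra R H),
      Module.Finite R H ∧ Module.Flat R H ∧ Coalgebra.IsCocomm R H ∧
      Function.Injective (evFam (allFam (R := R) (H := H) (Ω := Ω))) ∧
      ∃ e : WithConv (H →ₐ[R] Ω) ≃ M,
        (∀ f g : WithConv (H →ₐ[R] Ω), e (f * g) = e f + e g) ∧
        ∀ (σ : Γ) (f : WithConv (H →ₐ[R] Ω)), e (σ • f) = act σ (e f) := by
  obtain ⟨H, i1, i2, hfin, hflat, hco, e, hmul, heq⟩ := h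
  let M' : Subgroup (WithConv (H →ₐ[R] Ω)) := ⊤
  have hM' : ∀ (σ : Γ), ∀ f ∈ M', σ • f ∈ M' := fun _ _ _ => Subgroup.mem_top _
  have hfree : Module.Free R H := inferInstance
  have hHopf : (closureIdeal M').IsHopfIdeal R := closureIdeal_isHopfIdeal hF M' hM'
  have htf : Module.IsTorsionFree R (H ⧸ closureIdeal M') := quot_closureIdeal_isTorsionFree M'
  have hpts := closedPts_closureIdeal hF M' hM'
  let e₀ : Closed6.closedPts R (closureIdeal M') Ω ≃ WithConv (H →ₐ[R] Ω) :=
    { toFun := fun f => f.1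
      invFun := fun f => ⟨f, by rw [hpts]; exact Subgroup.mem_top _⟩
      left_inv := fun f => rfl
      right_inv := fun f => rfl }
  let e' : WithConv ((H ⧸ closureIdeal M') →ₐ[R] Ω) ≃ M :=
    ((Closed6.ptsQuotEquiv (R := R) (B := Ω) (closureIdeal M')).toEquiv.trans e₀).trans e
  have he' : ∀ F : WithConv ((H ⧸ closureIdeal M') →ₐ[R] Ω),
      e' F = e (Closed6.ptsQuotEquiv (R := R) (B := Ω) (closureIdeal M') F).1 := fun _ => rfl
  refine ⟨H ⧸ closureIdeal M', inferInstance, inferInstance, inferInstance, inferInstance,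
    inferInstance, ?_, e', ?_, ?_⟩
  · -- split
    rw [injective_iff_map_eq_zero]
    intro x hx
    apply (injective_iff_map_eq_zero _).1
      (evFam_quot_injective hF (stableFam_subFam M' hM')) x
    funext k
    have : evFam (quotFam (subFam M')) x k =
        evFam (allFam (R := R) (H := H ⧸ closureIdeal M') (Ω := Ω)) x
          (toConv (quotFam (subFam M') k)) := rfl
    rw [this, hx]
    rfl
  · intro f g
    rw [he', he', he', map_mul]
    exact hmul _ _
  · intro σ f
    rw [he', he']
    change e (σ • (Closed6.ptsQuotEquiv (R := R) (B := Ω) (closureIdeal M') f).1) = _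
    exact heq σ _

/-- **Quotients of flat are flat**: the image of a flat `Γ`-module under an equivariant
surjective additive map is flat (the quotient group scheme `G / N`, represented by the Hopf
subalgebra of `N`-invariant functions). -/
theorem _root_.Fermat.Agent.TW.FLAT.Points6.HasFlatModel.of_surjective
    (hF : FixedInFrac R Ω Γ) (h : HasFlatModel R Ω Γ M act)
    {M'' : Type} [AddCommGroup M''] {act'' : Γ → M'' → M''} (π : M →+ M'')
    (hπ : Function.Surjective π) (hπact : ∀ (σ : Γ) (m : M), π (act σ m) = act'' σ (π m)) :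
    HasFlatModel R Ω Γ M'' act'' := by
  obtain ⟨H, i1, i2, hfin, hflat, hco, hsplit, e, hmul, heq⟩ := exists_split_model hF h
  have he1 : e 1 = 0 := by
    have := hmul 1 1
    rw [mul_one] at this
    exact left_eq_add.mp this
  have heinv : ∀ f, e f⁻¹ = - e f := by
    intro f
    have := hmul f f⁻¹
    rw [mul_inv_cancel, he1] at this
    exact (neg_eq_of_add_eq_zero_right this.symm).symm
  have hact0 : ∀ σ : Γ, act'' σ 0 = 0 := by
    intro σ
    have h1 : act σ 0 = 0 := by
      rw [← he1, ← heq, smul_one]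
    rw [← map_zero π, ← hπact, h1]
  -- the kernel subgroup
  let K : Subgroup (WithConv (H →ₐ[R] Ω)) :=
    { carrier := {f | π (e f) = 0}
      one_mem' := by
        change π (e 1) = 0
        rw [he1, map_zero]
      mul_mem' := by
        intro f g hf hg
        change π (e (f * g)) = 0
        rw [hmul, map_add, hf, hg, add_zero]
      inv_mem' := by
        intro f hf
        change π (e f⁻¹) = 0
        rw [heinv, map_neg, hf, neg_zero] }
  have hK : ∀ (σ : Γ), ∀ n ∈ K, σ • n ∈ K := by
    intro σ n hn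
    change π (e (σ • n)) = 0
    rw [heq, hπact, hn, hact0]
  have hfree : Module.Free R H := inferInstance
  have hPfin : Finite (WithConv (H →ₐ[R] Ω)) := inferInstance
  have hemb : IsHopfEmb (invSub K).val := isHopfEmb_invSub K hsplit
  let _ : HopfAlgebra R (invSub K) := hemb.hopfAlgebra
  have hcoS : Coalgebra.IsCocomm R (invSub K) := hemb.isCocomm
  have hflatS : Module.Flat R (invSub K) := invSub_flat K
  have hnoeth : IsNoetherian R H := inferInstance
  have hfinS : Module.Finite R (invSub K) :=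
    Module.Finite.of_injective (invSub K).val.toLinearMap Subtype.val_injective
  -- restriction of points
  let ρ : WithConv (H →ₐ[R] Ω) →* WithConv (invSub K →ₐ[R] Ω) := mapH hemb.bialgHom
  have hρapply : ∀ (f : WithConv (H →ₐ[R] Ω)) (s : invSub K), ρ f s = f (s : H) :=
    fun _ _ => rfl
  have hρsurj : Function.Surjective ρ := by
    intro g
    obtain ⟨f, hf⟩ := exists_extend_invSub hsplit K g.ofConv
    exact ⟨f, pts_ext (fun s => (hρapply f s).trans (hf s))⟩
  have hone : ∀ s : invSub K, (1 : WithConv (invSub K →ₐ[R] Ω)) s =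
      (1 : WithConv (H →ₐ[R] Ω)) (s : H) := fun _ => rfl
  have hker : ∀ f, ρ f = 1 ↔ π (e f) = 0 := by
    intro f
    constructor
    · intro hf
      have : f ∈ K := by
        apply mem_of_forall_invSub_eq hF K hK f
        intro s hs
        have h1 := congrArg (fun g : WithConv (invSub K →ₐ[R] Ω) => g ⟨s, hs⟩) hf
        exact h1
      exact this
    · intro hf
      have hfK : f ∈ K := hf
      apply pts_ext
      intro s
      rw [hρapply, hone]
      have := s.2 1 f hfK
      rwa [one_mul] at this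
  obtain ⟨e'', he''⟩ := exists_equiv_of_ker_eq ρ hρsurj (fun f => π (e f))
    (fun f f' => by rw [hmul, map_add]) (fun m => by
      obtain ⟨m₀, rfl⟩ := hπ m
      exact ⟨e.symm m₀, by simp only [e.apply_symm_apply]⟩) hker
  refine ⟨invSub K, inferInstance, inferInstance, hfinS, hflatS, hcoS, e'', ?_, ?_⟩
  · intro g g'
    obtain ⟨f, rfl⟩ := hρsurj g
    obtain ⟨f', rfl⟩ := hρsurj g'
    rw [← map_mul, he'', he'', he'', hmul, map_add]
  · intro σ g
    obtain ⟨f, rfl⟩ := hρsurj g
    have : σ • ρ f = ρ (σ • f) := rfl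
    rw [this, he'', he'', heq, hπact]

end Model

end

end Fermat.Agent.TW.FLAT.Quotient6
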