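/-
Programme T, chapter FLAT, file SubQuot6 (F0.6): SUBQUOTIENTS OF FLAT ARE FLAT, packaged.

Generic (`R` a PID, `Ω` a field, `[FaithfulSMul R Ω]`, `Γ` a group acting on `Ω`,
`hF : Descent6.FixedInFrac R Ω Γ`):
* `HasFlatModel.of_injective (hF) (h : HasFlatModel R Ω Γ M act) (ι : M' →+ M) (hι : Injective ι)
    (hιact : ∀ σ m, ι (act' σ m) = act σ (ι m)) : HasFlatModel R Ω Γ M' act'`;
* (`HasFlatModel.of_surjective` is in Quotient6, `HasFlatModel.prod` in Prod6,
   `HasFlatModel.subgroup` in Closure6;)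
* `HasFlatModel.subquotient` : `M'' ↞ M' ↪ M` equivariant, `M` flat ⇒ `M''` flat.
Bundled (`[DistribMulAction Γ V]`, `IsFlatModule` of FlatModule6):
* `IsFlatModule.of_injective`, `IsFlatModule.of_surjective`, `IsFlatModule.prod`,
  `quotientDistribMulAction N hN : DistribMulAction Γ (V ⧸ N)`, `IsFlatModule.quotient`.
At `p` (Prelude shape, `R = ratLocalizedAt p`, `Ω = ℚ̄`, `Γ = G_ℚ`, `[Fact p.Prime]`):
* `hasFlatModel_of_surjective_at`, `hasFlatModel_of_injective_at`, `hasFlatModel_subquotient_at`.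
-/
import Mathlib
import Fermat.Agent.TW.FLAT.FlatModule6
import Fermat.Agent.TW.FLAT.Quotient6
import Fermat.Agent.TW.FLAT.Prod6

set_option autoImplicit false

namespace Fermat.Agent.TW.FLAT.SubQuot6

open Fermat.Agent.TW.FLAT.Descent6 Fermat.Agent.TW.FLAT.Points6 Fermat.Agent.TW.FLAT.FlatModule6
  GaloisRep

noncomputable section

section Generic

variable {R : Type} [CommRing R] [IsDomain R] [IsPrincipalIdealRing R]
  {Ω : Type} [Field Ω] [Algebra R Ω] [FaithfulSMul R Ω]
  {Γ : Type} [Group Γ] [MulSemiringAction Γ Ω] [SMulCommClass Γ R Ω]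
  {M : Type} [AddCommGroup M] {act : Γ → M → M}

/-- A module admitting an equivariant injection into a flat module is flat. -/
theorem _root_.Fermat.Agent.TW.FLAT.Points6.HasFlatModel.of_injective
    (hF : FixedInFrac R Ω Γ) (h : HasFlatModel R Ω Γ M act)
    {M' : Type} [AddCommGroup M'] {act' : Γ → M' → M'} (ι : M' →+ M)
    (hι : Function.Injective ι) (hιact : ∀ (σ : Γ) (m : M'), ι (act' σ m) = act σ (ι m)) :
    HasFlatModel R Ω Γ M' act' := by
  have hN : ∀ (σ : Γ), ∀ m ∈ ι.range, act σ m ∈ ι.range := by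
    rintro σ _ ⟨m, rfl⟩
    exact ⟨act' σ m, hιact σ m⟩
  have h1 := HasFlatModel.subgroup hF h ι.range hN
  let φ : ι.range ≃+ M' := (AddMonoidHom.ofInjective hι).symm
  refine HasFlatModel.of_addEquiv h1 φ ?_
  rintro σ ⟨_, m, rfl⟩
  apply (AddMonoidHom.ofInjective hι).injective
  apply Subtype.ext
  simp only [φ, AddEquiv.apply_symm_apply]
  have h2 : (AddMonoidHom.ofInjective hι).symm ⟨ι m, m, rfl⟩ = m := by
    apply (AddMonoidHom.ofInjective hι).injective
    rw [AddEquiv.apply_symm_apply]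
    rfl
  rw [h2]
  exact (hιact σ m).symm

/-- **Subquotients of flat are flat**: `M'' ←(surjective) M' ↪ M`. -/
theorem _root_.Fermat.Agent.TW.FLAT.Points6.HasFlatModel.subquotient
    (hF : FixedInFrac R Ω Γ) (h : HasFlatModel R Ω Γ M act)
    {M' : Type} [AddCommGroup M'] {act' : Γ → M' → M'} (ι : M' →+ M)
    (hι : Function.Injective ι) (hιact : ∀ (σ : Γ) (m : M'), ι (act' σ m) = act σ (ι m))
    {M'' : Type} [AddCommGroup M''] {act'' : Γ → M'' → M''} (π : M' →+ M'')
    (hπ : Function.Surjective π) (hπact : ∀ (σ : Γ) (m : M'), π (act' σ m) = act'' σ (π m)) :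
    HasFlatModel R Ω Γ M'' act'' :=
  (h.of_injective hF ι hι hιact).of_surjective hF π hπ hπact

end Generic

section Bundled

variable {R : Type} [CommRing R] [IsDomain R] [IsPrincipalIdealRing R]
  {Ω : Type} [Field Ω] [Algebra R Ω] [FaithfulSMul R Ω]
  {Γ : Type} [Group Γ] [MulSemiringAction Γ Ω] [SMulCommClass Γ R Ω]
  {V : Type} [AddCommGroup V] [DistribMulAction Γ V]
  {V' : Type} [AddCommGroup V'] [DistribMulAction Γ V']

theorem IsFlatModule.of_injective (hF : FixedInFrac R Ω Γ) (h : IsFlatModule R Ω Γ V)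
    (ι : V' →+ V) (hι : Function.Injective ι) (hιact : ∀ (σ : Γ) (v : V'), ι (σ • v) = σ • ι v) :
    IsFlatModule R Ω Γ V' :=
  HasFlatModel.of_injective hF h ι hι hιact

theorem IsFlatModule.of_surjective (hF : FixedInFrac R Ω Γ) (h : IsFlatModule R Ω Γ V)
    (π : V →+ V') (hπ : Function.Surjective π) (hπact : ∀ (σ : Γ) (v : V), π (σ • v) = σ • π v) :
    IsFlatModule R Ω Γ V' :=
  HasFlatModel.of_surjective hF h π hπ hπact

omit [IsDomain R] [IsPrincipalIdealRing R] [FaithfulSMul R Ω] in
theorem IsFlatModule.prod (h : IsFlatModule R Ω Γ V) (h' : IsFlatModule R Ω Γ V') :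
    IsFlatModule R Ω Γ (V × V') :=
  HasFlatModel.prod h h'

/-- The induced action on the quotient by a stable subgroup. -/
@[reducible] def quotientDistribMulAction (N : AddSubgroup V)
    (hN : ∀ (σ : Γ), ∀ v ∈ N, σ • v ∈ N) : DistribMulAction Γ (V ⧸ N) where
  smul σ := QuotientAddGroup.map N N (DistribSMul.toAddMonoidHom V σ) (fun v hv => hN σ v hv)
  one_smul q := by
    induction q using QuotientAddGroup.induction_on with
    | H v => exact congrArg _ (one_smul Γ v)
  mul_smul σ τ q := by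
    induction q using QuotientAddGroup.induction_on with
    | H v => exact congrArg _ (mul_smul σ τ v)
  smul_zero σ := map_zero _
  smul_add σ p q := map_add _ p q

/-- **The quotient of a flat module by a stable subgroup is flat.** -/
theorem IsFlatModule.quotient (hF : FixedInFrac R Ω Γ) (h : IsFlatModule R Ω Γ V)
    (N : AddSubgroup V) (hN : ∀ (σ : Γ), ∀ v ∈ N, σ • v ∈ N) :
    @IsFlatModule R _ Ω _ _ Γ _ _ _ (V ⧸ N) _ (quotientDistribMulAction N hN) :=
  HasFlatModel.of_surjective hF h (QuotientAddGroup.mk' N) (QuotientAddGroup.mk'_surjective N)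
    (fun _ _ => rfl)

end Bundled

section AtP

variable (p : ℕ) [Fact p.Prime]

/-- Prelude shape: images of flat-at-`p` modules under equivariant surjections are flat at `p`. -/
theorem hasFlatModel_of_surjective_at {M : Type} [AddCommGroup M] {act : GQ → M → M}
    (h : HasFlatModel (ratLocalizedAt p) Qb GQ M act)
    {M'' : Type} [AddCommGroup M''] {act'' : GQ → M'' → M''} (π : M →+ M'')
    (hπ : Function.Surjective π) (hπact : ∀ (σ : GQ) (m : M), π (act σ m) = act'' σ (π m)) :
    HasFlatModel (ratLocalizedAt p) Qb GQ M'' act'' :=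
  HasFlatModel.of_surjective (fixedInFrac_ratLocalizedAt p) h π hπ hπact

/-- Prelude shape: modules injecting equivariantly into flat-at-`p` modules are flat at `p`. -/
theorem hasFlatModel_of_injective_at {M : Type} [AddCommGroup M] {act : GQ → M → M}
    (h : HasFlatModel (ratLocalizedAt p) Qb GQ M act)
    {M' : Type} [AddCommGroup M'] {act' : GQ → M' → M'} (ι : M' →+ M)
    (hι : Function.Injective ι) (hιact : ∀ (σ : GQ) (m : M'), ι (act' σ m) = act σ (ι m)) :
    HasFlatModel (ratLocalizedAt p) Qb GQ M' act' :=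
  HasFlatModel.of_injective (fixedInFrac_ratLocalizedAt p) h ι hι hιact

/-- Prelude shape: subquotients of flat-at-`p` modules are flat at `p`. -/
theorem hasFlatModel_subquotient_at {M : Type} [AddCommGroup M] {act : GQ → M → M}
    (h : HasFlatModel (ratLocalizedAt p) Qb GQ M act)
    {M' : Type} [AddCommGroup M'] {act' : GQ → M' → M'} (ι : M' →+ M)
    (hι : Function.Injective ι) (hιact : ∀ (σ : GQ) (m : M'), ι (act' σ m) = act σ (ι m))
    {M'' : Type} [AddCommGroup M''] {act'' : GQ → M'' → M''} (π : M' →+ M'')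
    (hπ : Function.Surjective π) (hπact : ∀ (σ : GQ) (m : M'), π (act' σ m) = act'' σ (π m)) :
    HasFlatModel (ratLocalizedAt p) Qb GQ M'' act'' :=
  HasFlatModel.subquotient (fixedInFrac_ratLocalizedAt p) h ι hι hιact π hπ hπact

end AtP

end

end Fermat.Agent.TW.FLAT.SubQuot6
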