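/-
# TW/FLAT/BaseChangeFlat6 — base change of `IsFlatAt` (the `hflat` input of the flat half of S56)

helper6.  Uniform argument, no case analysis: for `φ : A →+* B` local, `ρ : GaloisRepAdic A` flat at
`p`, `J` an ideal of `B` with `B ⧸ J` finite and `I := J.comap φ` (`A ⧸ I ↪ B ⧸ J` is finite), the
additive map `(B ⧸ J → V ⧸ I V) → (B ⊗ V) ⧸ J (B ⊗ V)`, `f ↦ ∑ i, [rep i ⊗ f i]`, is a `G_ℚ`-equivariant
surjection; finite powers of flat modules are flat (`HasFlatModel.prod`) and so are equivariant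
images (`SubQuot6.hasFlatModel_of_surjective_at`).

* `act_zero (h : HasFlatModel R Ω Γ M act) σ : act σ 0 = 0`
* `hasFlatModel_pi_fin hF h n : HasFlatModel R Ω Γ (Fin n → M) (fun σ f i => act σ (f i))`
* `hasFlatModel_pi hF h (ι : Type) [Finite ι] : HasFlatModel R Ω Γ (ι → M) (fun σ f i => act σ (f i))`
* `hasFlatModel_level_baseChange p φ hφ ρ (h : ρ.IsFlatAt p) J (hJ : Finite (B ⧸ J)) :
    HasFlatModel (ratLocalizedAt p) Qb GQ ((ρ.baseChangeAlong φ hφ).V ⧸ J • ⊤)
      (fun σ => (ρ.baseChangeAlong φ hφ).levelAction J σ)`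
* **`isFlatAt_baseChangeAlong p φ hφ ρ (h : ρ.IsFlatAt p) (hB : Finite (ResidueField B)) :
    (ρ.baseChangeAlong φ hφ).IsFlatAt p`**  (any local rings `A B : Type`, any local hom)
* `isFlatAt_baseChangeAlong_of_finite` (`[Finite B]`), `finite_dualNumber`,
  `isFlatAt_baseChangeAlong_dualNumber` (`B = DualNumber k`, `k` a finite field)
* `flCond_baseChangeAlong` : `CondStable8.flCond` is stable under base change (unconditionally)
* **`hflat p ρbar Smin`** : verbatim the hypothesis `hflat` of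
  `AssemblyRel8.s56_flat_of_glob_fl_rel` / `s56_flat_of_inputs_rel` / `AssemblyDef8.s56_flat_of_inputs`
  (`[Finite (ResidueField 𝒪)]`, any instance `[Algebra 𝒪 (DualNumber (ResidueField 𝒪))]`).
-/
import Mathlib
import Fermat.Agent.TW.FLAT.SubQuot6
import Fermat.Agent.TW.DEF.CondStable8
import Fermat.Prelude.Def_GaloisRep_DeformationRingData

set_option autoImplicit false
set_option linter.unusedSectionVars false

namespace Fermat.Agent.TW.FLAT.BaseChangeFlat6

open Fermat.Agent.TW.FLAT.Descent6 Fermat.Agent.TW.FLAT.Points6 Fermat.Agent.TW.FLAT.FlatModule6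
  Fermat.Agent.TW.FLAT.SubQuot6 GaloisRep TensorProduct

noncomputable section

section Pi

variable {R : Type} [CommRing R] [IsDomain R] [IsPrincipalIdealRing R]
  {Ω : Type} [Field Ω] [Algebra R Ω] [FaithfulSMul R Ω]
  {Γ : Type} [Group Γ] [MulSemiringAction Γ Ω] [SMulCommClass Γ R Ω]
  {M : Type} [AddCommGroup M] {act : Γ → M → M}

/-- The action on a flat module fixes `0`. -/
theorem act_zero (h : HasFlatModel R Ω Γ M act) (σ : Γ) : act σ 0 = 0 := by
  obtain ⟨H, i1, i2, hfin, hflat, hco, e, hmul, heq⟩ := h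
  have he1 : e 1 = 0 := by
    have := hmul 1 1
    rw [mul_one] at this
    exact left_eq_add.mp this
  rw [← he1, ← heq, smul_one]

/-- Finite powers of a flat module are flat. -/
theorem hasFlatModel_pi_fin (hF : FixedInFrac R Ω Γ) (h : HasFlatModel R Ω Γ M act) (n : ℕ) :
    HasFlatModel R Ω Γ (Fin n → M) (fun σ f i => act σ (f i)) := by
  induction n with
  | zero =>
    refine HasFlatModel.of_injective hF h (0 : (Fin 0 → M) →+ M) ?_ ?_
    · intro x y _
      exact Subsingleton.elim x y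
    · intro σ m
      simp only [AddMonoidHom.zero_apply]
      exact (act_zero h σ).symm
  | succ n ih =>
    let φ : (M × (Fin n → M)) ≃+ (Fin (n + 1) → M) :=
      { toFun := fun x => Fin.cons x.1 x.2
        invFun := fun f => (f 0, Fin.tail f)
        left_inv := fun x => by simp
        right_inv := fun f => by simp
        map_add' := fun x y => by
          ext i
          refine Fin.cases ?_ (fun j => ?_) i <;> simp }
    refine HasFlatModel.of_addEquiv (h.prod ih) φ ?_
    intro σ x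
    ext i
    refine Fin.cases ?_ (fun j => ?_) i <;> simp [φ]

/-- Finite powers of a flat module are flat. -/
theorem hasFlatModel_pi (hF : FixedInFrac R Ω Γ) (h : HasFlatModel R Ω Γ M act)
    (ι : Type) [Finite ι] :
    HasFlatModel R Ω Γ (ι → M) (fun σ f i => act σ (f i)) := by
  obtain ⟨n, ⟨e⟩⟩ := Finite.exists_equiv_fin ι
  let φ : (Fin n → M) ≃+ (ι → M) :=
    { toFun := fun f i => f (e i)
      invFun := fun g j => g (e.symm j)
      left_inv := fun f => by ext j; simp
      right_inv := fun g => by ext i; simp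
      map_add' := fun f g => rfl }
  exact HasFlatModel.of_addEquiv (hasFlatModel_pi_fin hF h n) φ (fun σ f => rfl)

end Pi

section Main

variable {A : Type} [CommRing A] [IsLocalRing A] {B : Type} [CommRing B] [IsLocalRing B]

/-- Every finite level of a base change of a flat representation is flat. -/
theorem hasFlatModel_level_baseChange (p : ℕ) [Fact p.Prime] (φ : A →+* B) (hφ : IsLocalHom φ)
    (ρ : GaloisRepAdic A) (h : ρ.IsFlatAt p) (J : Ideal B) (hJ : Finite (B ⧸ J)) :
    HasFlatModel (ratLocalizedAt p) Qb GQ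
      ((ρ.baseChangeAlong φ hφ).V ⧸ (J • (⊤ : Submodule B (ρ.baseChangeAlong φ hφ).V)))
      (fun σ => (ρ.baseChangeAlong φ hφ).levelAction J σ) := by
  classical
  letI : Algebra A B := φ.toAlgebra
  set I : Ideal A := J.comap φ with hI
  have hfinI : Finite (A ⧸ I) := by
    have hinj : Function.Injective (Ideal.quotientMap J φ (le_refl _)) :=
      Ideal.quotientMap_injective
    exact Finite.of_injective _ hinj
  have hQ := ((isFlatAt_iff ρ p).mp h).2 I hfinI
  -- the maps `ψ b : V / I V → (B ⊗ V) / J (B ⊗ V)`, `[v] ↦ [b ⊗ v]`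
  let P : Submodule B (B ⊗[A] ρ.V) := J • ⊤
  have hker : ∀ b : B, I • (⊤ : Submodule A ρ.V) ≤
      LinearMap.ker ((P.mkQ.restrictScalars A).comp (TensorProduct.mk A B ρ.V b)) := by
    intro b
    rw [Submodule.smul_le]
    intro a ha v _
    rw [LinearMap.mem_ker, LinearMap.comp_apply, LinearMap.restrictScalars_apply,
      Submodule.mkQ_apply, Submodule.Quotient.mk_eq_zero, TensorProduct.mk_apply,
      TensorProduct.tmul_smul, ← algebraMap_smul B a (b ⊗ₜ[A] v)]
    exact Submodule.smul_mem_smul ha Submodule.mem_top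
  let ψ : B → (ρ.V ⧸ (I • (⊤ : Submodule A ρ.V))) →ₗ[A] ((B ⊗[A] ρ.V) ⧸ P) := fun b =>
    Submodule.liftQ _ ((P.mkQ.restrictScalars A).comp (TensorProduct.mk A B ρ.V b)) (hker b)
  have hψ : ∀ (b : B) (v : ρ.V), ψ b (Submodule.Quotient.mk v) = P.mkQ (b ⊗ₜ[A] v) := by
    intro b v
    rfl
  -- representatives of `B ⧸ J`
  haveI : Fintype (B ⧸ J) := Fintype.ofFinite _
  let rep : B ⧸ J → B := fun i => Quotient.out i
  have hrep : ∀ i : B ⧸ J, Ideal.Quotient.mk J (rep i) = i := fun i => Quotient.out_eq i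
  -- the total map
  let Ψ : ((B ⧸ J) → (ρ.V ⧸ (I • (⊤ : Submodule A ρ.V)))) →+ ((B ⊗[A] ρ.V) ⧸ P) :=
    ∑ i : B ⧸ J, ((ψ (rep i)).toAddMonoidHom.comp (Pi.evalAddMonoidHom _ i))
  have hΨ : ∀ f, Ψ f = ∑ i : B ⧸ J, ψ (rep i) (f i) := by
    intro f
    simp only [Ψ, AddMonoidHom.finsetSum_apply, AddMonoidHom.coe_comp, Function.comp_apply,
      Pi.evalAddMonoidHom_apply, LinearMap.toAddMonoidHom_coe]
  have hsurj : Function.Surjective Ψ := by
    intro x
    obtain ⟨w, rfl⟩ := P.mkQ_surjective x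
    rw [← AddMonoidHom.mem_range]
    induction w using TensorProduct.induction_on with
    | zero => rw [map_zero]; exact zero_mem _
    | tmul b v =>
      refine ⟨Pi.single (Ideal.Quotient.mk J b) (Submodule.Quotient.mk v), ?_⟩
      rw [hΨ, Finset.sum_eq_single (Ideal.Quotient.mk J b)]
      · rw [Pi.single_eq_same, hψ, Submodule.mkQ_apply, Submodule.mkQ_apply,
          Submodule.Quotient.eq, ← TensorProduct.sub_tmul]
        have h1 : rep (Ideal.Quotient.mk J b) - b ∈ J := by
          rw [← Ideal.Quotient.eq, hrep]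
        have h2 : (rep (Ideal.Quotient.mk J b) - b) ⊗ₜ[A] v =
            (rep (Ideal.Quotient.mk J b) - b) • ((1 : B) ⊗ₜ[A] v) := by
          rw [TensorProduct.smul_tmul', smul_eq_mul, mul_one]
        rw [h2]
        exact Submodule.smul_mem_smul h1 Submodule.mem_top
      · intro i _ hi
        rw [Pi.single_eq_of_ne hi, map_zero]
      · intro hi
        exact absurd (Finset.mem_univ _) hi
    | add x y hx hy => rw [map_add]; exact add_mem hx hy
  have hle : ∀ σ : GQ, P ≤ P.comap ((ρ.ρ σ).baseChange B) := by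
    intro σ
    rw [← Submodule.map_le_iff_le_comap, Submodule.map_smul'']
    exact Submodule.smul_mono le_rfl le_top
  let act' : GQ → ((B ⊗[A] ρ.V) ⧸ P) → ((B ⊗[A] ρ.V) ⧸ P) := fun σ =>
    Submodule.mapQ P P ((ρ.ρ σ).baseChange B) (hle σ)
  have hequiv : ∀ (σ : GQ) (f : (B ⧸ J) → (ρ.V ⧸ (I • (⊤ : Submodule A ρ.V)))),
      Ψ (fun i => ρ.levelAction I σ (f i)) = act' σ (Ψ f) := by
    intro σ f
    rw [hΨ, hΨ]
    simp only [act']
    rw [map_sum]
    apply Finset.sum_congr rfl
    intro i _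
    obtain ⟨v, hv⟩ := Submodule.Quotient.mk_surjective _ (f i)
    rw [← hv]
    change ψ (rep i) (Submodule.Quotient.mk (ρ.ρ σ v)) =
      P.mkQ ((ρ.ρ σ).baseChange B (rep i ⊗ₜ[A] v))
    rw [hψ, LinearMap.baseChange_tmul]
  have key : HasFlatModel (ratLocalizedAt p) Qb GQ ((B ⊗[A] ρ.V) ⧸ P) act' :=
    hasFlatModel_of_surjective_at p
      (hasFlatModel_pi (fixedInFrac_ratLocalizedAt p) hQ (B ⧸ J)) Ψ hsurj hequiv
  exact key

/-- **Base change of `IsFlatAt`** along an arbitrary local homomorphism (the residue field of the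
target being finite). -/
theorem isFlatAt_baseChangeAlong (p : ℕ) [Fact p.Prime] (φ : A →+* B) (hφ : IsLocalHom φ)
    (ρ : GaloisRepAdic A) (h : ρ.IsFlatAt p) (hB : Finite (IsLocalRing.ResidueField B)) :
    (ρ.baseChangeAlong φ hφ).IsFlatAt p :=
  (isFlatAt_iff _ p).mpr ⟨hB, fun J hJ => hasFlatModel_level_baseChange p φ hφ ρ h J hJ⟩

/-- The same, for a finite target. -/
theorem isFlatAt_baseChangeAlong_of_finite (p : ℕ) [Fact p.Prime] [Finite B] (φ : A →+* B)
    (hφ : IsLocalHom φ) (ρ : GaloisRepAdic A) (h : ρ.IsFlatAt p) :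
    (ρ.baseChangeAlong φ hφ).IsFlatAt p :=
  isFlatAt_baseChangeAlong p φ hφ ρ h
    (Finite.of_surjective (IsLocalRing.residue B) IsLocalRing.residue_surjective)

instance finite_dualNumber (k : Type) [Finite k] [Zero k] : Finite (DualNumber k) :=
  Finite.of_equiv (k × k) (Equiv.refl _)

/-- Base change to the dual numbers over a finite field. -/
theorem isFlatAt_baseChangeAlong_dualNumber (p : ℕ) [Fact p.Prime] {k : Type} [Field k] [Finite k]
    (φ : A →+* DualNumber k) (hφ : IsLocalHom φ) (ρ : GaloisRepAdic A) (h : ρ.IsFlatAt p) :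
    (ρ.baseChangeAlong φ hφ).IsFlatAt p :=
  isFlatAt_baseChangeAlong_of_finite p φ hφ ρ h

end Main

section Deformation

open Fermat.Agent.TW.DEF.CondStable8 IsLocalRing

variable {𝒪 : Type} [CommRing 𝒪] [IsDomain 𝒪] [IsDiscreteValuationRing 𝒪]
  [IsAdicComplete (maximalIdeal 𝒪) 𝒪] [Finite (ResidueField 𝒪)]

/-- Base change of the flat deformation condition along any local homomorphism to a ring with finite
residue field. -/
theorem flCond_baseChangeAlong {p : ℕ} [Fact p.Prime] {Sig Smin : Finset ℕ}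
    {A : Type} [CommRing A] [IsLocalRing A] [Algebra 𝒪 A]
    {B : Type} [CommRing B] [IsLocalRing B] [Algebra 𝒪 B]
    (φ : A →+* B) (hφ : IsLocalHom φ) {ρ : GaloisRepAdic A} (h1 : flCond 𝒪 p Sig Smin ρ)
    (hB : Finite (ResidueField B)) :
    flCond 𝒪 p Sig Smin (ρ.baseChangeAlong φ hφ) :=
  flCond_baseChangeAlong_of_isFlatAt φ hφ h1 (isFlatAt_baseChangeAlong p φ hφ ρ h1.1.2.1 hB)

/-- **`hflat`** of `AssemblyRel8.s56_flat_of_glob_fl_rel`, verbatim. -/
theorem hflat [Algebra 𝒪 (DualNumber (ResidueField 𝒪))] (p : ℕ) [Fact p.Prime]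
    (ρbar : ResidualGaloisRep (ResidueField 𝒪)) (Smin : Finset ℕ) :
    ∀ (Sig : Finset ℕ) (DQ : DeformationRingData 𝒪 ρbar (flCond 𝒪 p Sig Smin))
      (φ : DQ.R →ₐ[𝒪] DualNumber (ResidueField 𝒪))
      (hφ : IsLocalHom (φ : DQ.R →+* DualNumber (ResidueField 𝒪))),
      (DQ.ρ.baseChangeAlong (φ : DQ.R →+* DualNumber (ResidueField 𝒪)) hφ).IsFlatAt p :=
  fun _ DQ φ hφ => isFlatAt_baseChangeAlong_dualNumber p _ hφ DQ.ρ DQ.isOfType.1.2.1

end Deformation

end

end Fermat.Agent.TW.FLAT.BaseChangeFlat6
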