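/-
Programme T, chapter FLAT, file InvDiff6 (F2): invariant differentials of a commutative Hopf
algebra.  Mathlib only.

Notation: `R` a commutative ring, `H` a commutative ring with `[HopfAlgebra R H]`
(comultiplication `Δ`, counit `ε`, antipode `S`).

* `augIdeal R H : Ideal H := ker ε`, `mem_augIdeal : h ∈ augIdeal R H ↔ ε h = 0`;
  `CoLie R H := (augIdeal R H).Cotangent` (`ω = I/I²`, an `R`-module, abbrev);
  `proj R H : H →ₗ[R] CoLie R H`, `π(h) = [h - ε(h)]`; `proj_of_mem`, `proj_surjective`,
  `proj_algebraMap`, `proj_one`, `proj_mul : π(ab) = ε(a) • π(b) + ε(b) • π(a)`;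
  `liftProj f h1 hmul : CoLie R H →ₗ[R] M` for `f : H →ₗ[R] M` with `f 1 = 0` and `f (a*b) = 0`
  on `I × I`; `liftProj_proj`.
* `invDer R H : Derivation R H (H ⊗[R] CoLie R H)`, `h ↦ Σ h₁ ⊗ π(h₂)`
  (`invDer_apply h = idProj R H (comul h)`, `idProj = id ⊗ π`).
* (a) `invDiffEquiv R H : Ω[H⁄R] ≃ₗ[H] H ⊗[R] CoLie R H` with
    `invDiffEquiv_D : invDiffEquiv R H (D h) = idProj R H (comul h)` and
    `invDiffEquiv_symm_tmul : (invDiffEquiv R H).symm (h ⊗ₜ π x) = h • antD R H (comul x)`
    (`antD (a ⊗ₜ b) = S(a) • D b`).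
* (b) `cotMap f hf : CoLie R H →ₗ[R] CoLie R H'` for `f : H →ₐ[R] H'` with `ε' ∘ f = ε`;
    `cotMap_proj`, `cotMap_id`, `cotMap_comp`, `cotMap_congr`;
    `counit_convMul`, `counit_convOne`, `counit_convPow` (convolution in Mathlib's monoid
    `WithConv (H →ₐ[R] H')`);
    `cotMap_convMul : cotMap (f * g) = cotMap f + cotMap g`, `cotMap_convOne : cotMap 1 = 0`,
    `cotMap_convPow : cotMap (f ^ n) = n • cotMap f`.
* (c) `nsmul_coLie_eq_zero n (hn : (toConv (AlgHom.id R H)) ^ n = 1) w : n • w = 0`,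
    `nsmul_kaehler_eq_zero n hn x : n • x = 0` (`x : Ω[H⁄R]`);
    `exists_equiv_pi_of_isMaximal` (f.g. module killed by a maximal ideal `I` is `(R/I)^d`);
    `coLie_finite`;
    `exists_kaehler_equiv [Module.Finite R H] (I) [I.IsMaximal] (hI : ∀ r ∈ I, ∀ w, r • w = 0) :
       ∃ d, Nonempty (Ω[H⁄R] ≃ₗ[H] (Fin d → H ⧸ I.map (algebraMap R H)))`;
    `exists_kaehler_equiv_of_convPow_eq_one [Module.Finite R H] n
       (hmax : (Ideal.span {(n : R)}).IsMaximal) (hn : (toConv (AlgHom.id R H)) ^ n = 1) :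
       ∃ d, Nonempty (Ω[H⁄R] ≃ₗ[H] (Fin d → H ⧸ Ideal.span {(n : H)}))`.
-/
import Mathlib

set_option autoImplicit false

namespace Fermat.Agent.TW.FLAT.InvDiff6

open TensorProduct Coalgebra HopfAlgebra

noncomputable section

variable (R : Type*) [CommRing R] (H : Type*) [CommRing H] [HopfAlgebra R H]

/-- The augmentation ideal `ker ε`. -/
def augIdeal : Ideal H := RingHom.ker (Bialgebra.counitAlgHom R H)

variable {R H} in
theorem mem_augIdeal {h : H} : h ∈ augIdeal R H ↔ counit (R := R) h = 0 := by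
  simp [augIdeal, RingHom.mem_ker]

/-- The module of invariant differentials `ω = I/I²`. -/
abbrev CoLie : Type _ := (augIdeal R H).Cotangent

/-- `h ↦ h - ε(h)`, into the augmentation ideal. -/
def toAug : H →ₗ[R] augIdeal R H where
  toFun h := ⟨h - algebraMap R H (counit h), by
    rw [mem_augIdeal]; simp⟩
  map_add' a b := by
    ext; simp; ring
  map_smul' r a := by
    ext; simp [Algebra.smul_def]; ring

/-- The projection `π : H → ω`, `h ↦ [h - ε(h)]`. -/
def proj : H →ₗ[R] CoLie R H :=
  ((augIdeal R H).toCotangent.restrictScalars R) ∘ₗ toAug R H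

variable {R H}

theorem proj_apply (h : H) :
    proj R H h = (augIdeal R H).toCotangent (toAug R H h) := rfl

theorem proj_of_mem {h : H} (hh : h ∈ augIdeal R H) :
    proj R H h = (augIdeal R H).toCotangent ⟨h, hh⟩ := by
  rw [proj_apply]
  congr 1
  ext
  simp [toAug, mem_augIdeal.mp hh]

theorem proj_surjective : Function.Surjective (proj R H) := by
  intro w
  obtain ⟨x, rfl⟩ := (augIdeal R H).toCotangent_surjective w
  exact ⟨x.1, proj_of_mem x.2⟩

@[simp] theorem proj_algebraMap (r : R) : proj R H (algebraMap R H r) = 0 := by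
  rw [proj_apply]
  have : toAug R H (algebraMap R H r) = 0 := by
    ext; simp [toAug]
  rw [this, map_zero]

@[simp] theorem proj_one : proj R H 1 = 0 := by
  simpa using proj_algebraMap (R := R) (H := H) 1

theorem proj_mul (a b : H) :
    proj R H (a * b) = counit (R := R) a • proj R H b + counit (R := R) b • proj R H a := by
  have ha : a - algebraMap R H (counit a) ∈ augIdeal R H := (toAug R H a).2
  have hb : b - algebraMap R H (counit b) ∈ augIdeal R H := (toAug R H b).2
  have key : a * b = (a - algebraMap R H (counit a)) * (b - algebraMap R H (counit b))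
      + counit (R := R) a • b + counit (R := R) b • a
      - algebraMap R H (counit (R := R) a * counit (R := R) b) := by
    simp only [Algebra.smul_def, map_mul]; ring
  have h0 : proj R H ((a - algebraMap R H (counit a)) * (b - algebraMap R H (counit b))) = 0 := by
    rw [proj_of_mem (Ideal.mul_mem_left _ _ hb), Ideal.toCotangent_eq_zero, pow_two]
    exact Ideal.mul_mem_mul ha hb
  conv_lhs => rw [key]
  rw [map_sub, map_add, map_add, h0, proj_algebraMap, map_smul, map_smul]
  simp

/-! ### The derivation `h ↦ Σ h₁ ⊗ π(h₂)` -/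

variable (R H) in
/-- `id ⊗ ε : H ⊗ H → H`, `a ⊗ b ↦ ε(b) a`. -/
def idCounit : H ⊗[R] H →ₗ[R] H :=
  (TensorProduct.rid R H).toLinearMap ∘ₗ (counit (R := R) (A := H)).lTensor H

@[simp] theorem idCounit_tmul (a b : H) :
    idCounit R H (a ⊗ₜ[R] b) = counit (R := R) b • a := by
  simp [idCounit]

@[simp] theorem idCounit_comul (h : H) : idCounit R H (comul h) = h := by
  simp [idCounit, Coalgebra.lTensor_counit_comul]

variable (R H) in
/-- `id ⊗ π : H ⊗ H → H ⊗ ω`. -/
def idProj : H ⊗[R] H →ₗ[R] H ⊗[R] CoLie R H := (proj R H).lTensor H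

@[simp] theorem idProj_tmul (a b : H) :
    idProj R H (a ⊗ₜ[R] b) = a ⊗ₜ[R] proj R H b := by
  simp [idProj]

theorem idProj_mul (s t : H ⊗[R] H) :
    idProj R H (s * t) = idCounit R H s • idProj R H t + idCounit R H t • idProj R H s := by
  induction s using TensorProduct.induction_on with
  | zero => simp
  | add s₁ s₂ h₁ h₂ => simp only [add_mul, map_add, h₁, h₂, add_smul, smul_add]; abel
  | tmul a b =>
    induction t using TensorProduct.induction_on with
    | zero => simp
    | add t₁ t₂ h₁ h₂ => simp only [mul_add, map_add, h₁, h₂, add_smul, smul_add]; abel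
    | tmul c d =>
      simp only [Algebra.TensorProduct.tmul_mul_tmul, idProj_tmul, idCounit_tmul, proj_mul,
        tmul_add, tmul_smul, smul_tmul', smul_eq_mul]
      congr 2
      · simp [Algebra.smul_def]; ring
      · simp [Algebra.smul_def]; ring

variable (R H) in
/-- The derivation `H → H ⊗ ω`, `h ↦ Σ h₁ ⊗ π(h₂)`. -/
def invDer : Derivation R H (H ⊗[R] CoLie R H) :=
  Derivation.mk' (idProj R H ∘ₗ comul) (by
    intro a b
    simp only [LinearMap.comp_apply, Bialgebra.comul_mul, idProj_mul, idCounit_comul])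

@[simp] theorem invDer_apply (h : H) : invDer R H h = idProj R H (comul h) := rfl

variable (R H) in
/-- `Φ : Ω[H/R] → H ⊗ ω`, `dh ↦ Σ h₁ ⊗ π(h₂)`. -/
def toInv : Ω[H⁄R] →ₗ[H] H ⊗[R] CoLie R H := (invDer R H).liftKaehlerDifferential

@[simp] theorem toInv_D (h : H) :
    toInv R H (KaehlerDifferential.D R H h) = idProj R H (comul h) := by
  simp [toInv]

/-! ### Lifting along `π` -/

section lift

variable {M : Type*} [AddCommGroup M] [Module R M]

theorem ker_proj_le (f : H →ₗ[R] M) (h1 : f 1 = 0)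
    (hmul : ∀ a ∈ augIdeal R H, ∀ b ∈ augIdeal R H, f (a * b) = 0) :
    LinearMap.ker (proj R H) ≤ LinearMap.ker f := by
  intro h hh
  rw [LinearMap.mem_ker] at hh ⊢
  rw [proj_apply, Ideal.toCotangent_eq_zero] at hh
  have hsq : ∀ x ∈ (augIdeal R H) ^ 2, f x = 0 := by
    intro x hx
    rw [pow_two] at hx
    induction hx using Submodule.mul_induction_on' with
    | mem_mul_mem a ha b hb => exact hmul a ha b hb
    | add x _ y _ hx hy => rw [map_add, hx, hy, add_zero]
  have h2 := hsq _ hh
  have h3 : ((toAug R H h : augIdeal R H) : H) = h - algebraMap R H (counit h) := rfl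
  rw [h3, map_sub, Algebra.algebraMap_eq_smul_one, map_smul, h1, smul_zero, sub_zero] at h2
  exact h2

/-- Factor an `R`-linear map killing `1` and `I²` through `π : H → ω`. -/
def liftProj (f : H →ₗ[R] M) (h1 : f 1 = 0)
    (hmul : ∀ a ∈ augIdeal R H, ∀ b ∈ augIdeal R H, f (a * b) = 0) : CoLie R H →ₗ[R] M :=
  (LinearMap.ker (proj R H)).liftQ f (ker_proj_le f h1 hmul) ∘ₗ
    ((proj R H).quotKerEquivOfSurjective proj_surjective).symm.toLinearMap

@[simp] theorem liftProj_proj (f : H →ₗ[R] M) (h1 : f 1 = 0)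
    (hmul : ∀ a ∈ augIdeal R H, ∀ b ∈ augIdeal R H, f (a * b) = 0) (h : H) :
    liftProj f h1 hmul (proj R H h) = f h := by
  simp [liftProj, LinearMap.quotKerEquivOfSurjective_symm_apply]

end lift

/-! ### The inverse map -/

variable (R H) in
/-- `S·id : H ⊗ H → H`, `a ⊗ b ↦ S(a) b`. -/
def antMul : H ⊗[R] H →ₗ[R] H := LinearMap.mul' R H ∘ₗ (antipode R).rTensor H

@[simp] theorem antMul_tmul (a b : H) : antMul R H (a ⊗ₜ[R] b) = antipode R a * b := by
  simp [antMul]

@[simp] theorem antMul_comul (h : H) :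
    antMul R H (comul h) = algebraMap R H (counit h) := by
  simp [antMul]

variable (R H) in
/-- `ε ⊗ id : H ⊗ H → H`, `a ⊗ b ↦ ε(a) b`. -/
def counitId : H ⊗[R] H →ₗ[R] H :=
  (TensorProduct.lid R H).toLinearMap ∘ₗ (counit (R := R) (A := H)).rTensor H

@[simp] theorem counitId_tmul (a b : H) :
    counitId R H (a ⊗ₜ[R] b) = counit (R := R) a • b := by
  simp [counitId]

@[simp] theorem counitId_comul (h : H) : counitId R H (comul h) = h := by
  simp [counitId, Coalgebra.rTensor_counit_comul]

variable (R H) in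
/-- `S·d : H ⊗ H → Ω`, `a ⊗ b ↦ S(a) • d b`. -/
def antD : H ⊗[R] H →ₗ[R] Ω[H⁄R] :=
  ((KaehlerDifferential.D R H).toLinearMap.liftBaseChange H).restrictScalars R ∘ₗ
    (antipode R).rTensor H

@[simp] theorem antD_tmul (a b : H) :
    antD R H (a ⊗ₜ[R] b) = antipode R a • KaehlerDifferential.D R H b := by
  simp [antD]

theorem antD_mul (s t : H ⊗[R] H) :
    antD R H (s * t) = antMul R H s • antD R H t + antMul R H t • antD R H s := by
  induction s using TensorProduct.induction_on with
  | zero => simp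
  | add s₁ s₂ h₁ h₂ => simp only [add_mul, map_add, h₁, h₂, add_smul, smul_add]; abel
  | tmul a b =>
    induction t using TensorProduct.induction_on with
    | zero => simp
    | add t₁ t₂ h₁ h₂ => simp only [mul_add, map_add, h₁, h₂, add_smul, smul_add]; abel
    | tmul c d =>
      simp only [Algebra.TensorProduct.tmul_mul_tmul, antD_tmul, antMul_tmul,
        antipode_mul_distrib, Derivation.leibniz, smul_add, smul_smul]
      congr 1 <;> ring_nf

variable (R H) in
/-- `ψ₀ : H → Ω`, `x ↦ Σ S(x₁) d x₂`. -/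
def psi0 : H →ₗ[R] Ω[H⁄R] := antD R H ∘ₗ comul

theorem psi0_apply (x : H) : psi0 R H x = antD R H (comul x) := rfl

theorem psi0_one : psi0 R H 1 = 0 := by
  simp [psi0_apply, Algebra.TensorProduct.one_def]

theorem psi0_mul (a b : H) :
    psi0 R H (a * b) = counit (R := R) a • psi0 R H b + counit (R := R) b • psi0 R H a := by
  simp only [psi0_apply, Bialgebra.comul_mul, antD_mul, antMul_comul, algebraMap_smul]

variable (R H) in
/-- `ψ₁ : ω → Ω`, `π(x) ↦ Σ S(x₁) d x₂`. -/
def psi1 : CoLie R H →ₗ[R] Ω[H⁄R] :=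
  liftProj (psi0 R H) psi0_one (by
    intro a ha b hb
    rw [psi0_mul, mem_augIdeal.mp ha, mem_augIdeal.mp hb, zero_smul, zero_smul, add_zero])

@[simp] theorem psi1_proj (x : H) : psi1 R H (proj R H x) = psi0 R H x := by
  simp [psi1]

variable (R H) in
/-- `Ψ : H ⊗ ω → Ω`, `h ⊗ π(x) ↦ h Σ S(x₁) d x₂`. -/
def ofInv : H ⊗[R] CoLie R H →ₗ[H] Ω[H⁄R] := (psi1 R H).liftBaseChange H

@[simp] theorem ofInv_tmul (h : H) (w : CoLie R H) :
    ofInv R H (h ⊗ₜ[R] w) = h • psi1 R H w := by
  simp [ofInv]

/-! ### `Ψ ∘ Φ = id` -/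

variable (R H) in
/-- `T : H ⊗ (H ⊗ H) → Ω`, `a ⊗ (b ⊗ c) ↦ a S(b) • d c`. -/
def triD : H ⊗[R] (H ⊗[R] H) →ₗ[H] Ω[H⁄R] := (antD R H).liftBaseChange H

theorem triD_assoc_tmul (s : H ⊗[R] H) (b : H) :
    triD R H (TensorProduct.assoc R H H H (s ⊗ₜ[R] b)) =
      (LinearMap.mul' R H ((antipode R).lTensor H s)) • KaehlerDifferential.D R H b := by
  induction s using TensorProduct.induction_on with
  | zero => simp
  | add s₁ s₂ h₁ h₂ => simp only [add_tmul, map_add, h₁, h₂, add_smul]
  | tmul u v => simp [triD, smul_smul]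

theorem triD_assoc_rTensor (t : H ⊗[R] H) :
    triD R H (TensorProduct.assoc R H H H (comul.rTensor H t)) =
      KaehlerDifferential.D R H (counitId R H t) := by
  induction t using TensorProduct.induction_on with
  | zero => simp
  | add t₁ t₂ h₁ h₂ => simp only [map_add, h₁, h₂]
  | tmul a b =>
    simp only [LinearMap.rTensor_tmul, triD_assoc_tmul, mul_antipode_lTensor_comul_apply,
      counitId_tmul, algebraMap_smul]
    exact ((KaehlerDifferential.D R H).map_smul (counit (R := R) a) b).symm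

theorem ofInv_idProj (t : H ⊗[R] H) :
    ofInv R H (idProj R H t) = triD R H (comul.lTensor H t) := by
  induction t using TensorProduct.induction_on with
  | zero => simp
  | add t₁ t₂ h₁ h₂ => simp only [map_add, h₁, h₂]
  | tmul a b => simp [triD, psi0_apply]

theorem ofInv_toInv_D (h : H) :
    ofInv R H (toInv R H (KaehlerDifferential.D R H h)) = KaehlerDifferential.D R H h := by
  rw [toInv_D, ofInv_idProj, ← Coalgebra.coassoc_apply, triD_assoc_rTensor, counitId_comul]

theorem ofInv_comp_toInv : ofInv R H ∘ₗ toInv R H = LinearMap.id := by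
  apply Derivation.liftKaehlerDifferential_unique
  ext h
  simpa using ofInv_toInv_D h

/-! ### `Φ ∘ Ψ = id` -/

variable (R H) in
/-- `T₂ : H ⊗ (H ⊗ H) → H ⊗ ω`, `a ⊗ (b ⊗ c) ↦ S(a) b ⊗ π(c)`. -/
def triP : H ⊗[R] (H ⊗[R] H) →ₗ[R] H ⊗[R] CoLie R H :=
  ((idProj R H).liftBaseChange H).restrictScalars R ∘ₗ (antipode R).rTensor (H ⊗[R] H)

theorem triP_tmul (a : H) (s : H ⊗[R] H) :
    triP R H (a ⊗ₜ[R] s) = antipode R a • idProj R H s := by
  simp [triP]

theorem triP_assoc_tmul (s : H ⊗[R] H) (b : H) :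
    triP R H (TensorProduct.assoc R H H H (s ⊗ₜ[R] b)) = antMul R H s ⊗ₜ[R] proj R H b := by
  induction s using TensorProduct.induction_on with
  | zero => simp
  | add s₁ s₂ h₁ h₂ => simp only [add_tmul, map_add, h₁, h₂]
  | tmul u v => simp [triP_tmul, smul_tmul']

theorem triP_assoc_rTensor (t : H ⊗[R] H) :
    triP R H (TensorProduct.assoc R H H H (comul.rTensor H t)) =
      (1 : H) ⊗ₜ[R] proj R H (counitId R H t) := by
  induction t using TensorProduct.induction_on with
  | zero => simp
  | add t₁ t₂ h₁ h₂ => simp only [map_add, h₁, h₂, tmul_add]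
  | tmul a b =>
    simp only [LinearMap.rTensor_tmul, triP_assoc_tmul, antMul_comul, counitId_tmul, map_smul,
      tmul_smul, Algebra.algebraMap_eq_smul_one, smul_tmul']

theorem toInv_antD (t : H ⊗[R] H) :
    toInv R H (antD R H t) = triP R H (comul.lTensor H t) := by
  induction t using TensorProduct.induction_on with
  | zero => simp
  | add t₁ t₂ h₁ h₂ => simp only [map_add, h₁, h₂]
  | tmul a b => simp [triP_tmul]

theorem toInv_ofInv_proj (x : H) :
    toInv R H (ofInv R H ((1 : H) ⊗ₜ[R] proj R H x)) = (1 : H) ⊗ₜ[R] proj R H x := by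
  rw [ofInv_tmul, one_smul, psi1_proj, psi0_apply, toInv_antD, ← Coalgebra.coassoc_apply,
    triP_assoc_rTensor, counitId_comul]

theorem toInv_comp_ofInv : toInv R H ∘ₗ ofInv R H = LinearMap.id := by
  apply TensorProduct.AlgebraTensorModule.ext
  intro h w
  obtain ⟨x, rfl⟩ := proj_surjective w
  have : h ⊗ₜ[R] proj R H x = h • ((1 : H) ⊗ₜ[R] proj R H x) := by
    simp [smul_tmul']
  rw [this]
  simp only [LinearMap.comp_apply, map_smul, toInv_ofInv_proj, LinearMap.id_apply]

variable (R H) in
/-- **Invariant differentials.** `Ω[H/R] ≃ H ⊗ ω` for a commutative Hopf algebra. -/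
def invDiffEquiv : Ω[H⁄R] ≃ₗ[H] H ⊗[R] CoLie R H :=
  LinearEquiv.ofLinearMap (toInv R H) (ofInv R H) toInv_comp_ofInv ofInv_comp_toInv

@[simp] theorem invDiffEquiv_D (h : H) :
    invDiffEquiv R H (KaehlerDifferential.D R H h) = idProj R H (comul h) := toInv_D h

@[simp] theorem invDiffEquiv_symm_tmul (h x : H) :
    (invDiffEquiv R H).symm (h ⊗ₜ[R] proj R H x) = h • antD R H (comul x) := by
  change ofInv R H _ = _
  rw [ofInv_tmul, psi1_proj, psi0_apply]

/-! ### Functoriality of `ω` and additivity under convolution -/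

section functoriality

variable {H' : Type*} [CommRing H'] [HopfAlgebra R H']

/-- The map induced on `ω` by an algebra hom commuting with the counits. -/
def cotMap (f : H →ₐ[R] H') (hf : ∀ h, counit (R := R) (f h) = counit (R := R) h) :
    CoLie R H →ₗ[R] CoLie R H' :=
  liftProj (proj R H' ∘ₗ f.toLinearMap) (by simp) (by
    intro a ha b hb
    simp only [LinearMap.comp_apply, AlgHom.toLinearMap_apply, map_mul, proj_mul, hf,
      mem_augIdeal.mp ha, mem_augIdeal.mp hb, zero_smul, add_zero])

@[simp] theorem cotMap_proj (f : H →ₐ[R] H')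
    (hf : ∀ h, counit (R := R) (f h) = counit (R := R) h) (h : H) :
    cotMap f hf (proj R H h) = proj R H' (f h) := by
  simp [cotMap]

theorem cotMap_congr {f g : H →ₐ[R] H'} (hfg : f = g)
    (hf : ∀ h, counit (R := R) (f h) = counit (R := R) h)
    (hg : ∀ h, counit (R := R) (g h) = counit (R := R) h) :
    cotMap f hf = cotMap g hg := by
  subst hfg
  rfl

theorem cotMap_id (hf : ∀ h : H, counit (R := R) (AlgHom.id R H h) = counit (R := R) h) :
    cotMap (AlgHom.id R H) hf = LinearMap.id := by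
  ext w
  obtain ⟨x, rfl⟩ := proj_surjective w
  rw [cotMap_proj]
  rfl

theorem cotMap_comp {H'' : Type*} [CommRing H''] [HopfAlgebra R H'']
    (f : H →ₐ[R] H') (hf : ∀ h, counit (R := R) (f h) = counit (R := R) h)
    (g : H' →ₐ[R] H'') (hg : ∀ h, counit (R := R) (g h) = counit (R := R) h) :
    cotMap (g.comp f) (fun h => by simp [hg, hf]) = cotMap g hg ∘ₗ cotMap f hf := by
  ext w
  obtain ⟨x, rfl⟩ := proj_surjective w
  simp

open WithConv

/-- The counit of a convolution product. -/
theorem counit_convMul (f g : WithConv (H →ₐ[R] H'))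
    (hf : ∀ h, counit (R := R) (f h) = counit (R := R) h)
    (hg : ∀ h, counit (R := R) (g h) = counit (R := R) h) (h : H) :
    counit (R := R) ((f * g) h) = counit (R := R) h := by
  rw [AlgHom.convMul_apply]
  have key : ∀ t : H ⊗[R] H,
      counit (R := R) (Algebra.TensorProduct.lift f.ofConv g.ofConv (fun _ _ => .all ..) t) =
        counit (R := R) (counitId R H t) := by
    intro t
    induction t using TensorProduct.induction_on with
    | zero => simp
    | add t₁ t₂ h₁ h₂ => simp only [map_add, h₁, h₂]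
    | tmul a b =>
      simp only [Algebra.TensorProduct.lift_tmul, Bialgebra.counit_mul, counitId_tmul, map_smul,
        smul_eq_mul]
      exact congrArg₂ _ (hf a) (hg b)
  rw [key, counitId_comul]

theorem counit_convOne (h : H) :
    counit (R := R) ((1 : WithConv (H →ₐ[R] H')) h) = counit (R := R) h := by
  simp

/-- **The product on the group induces the sum on `ω`.** -/
theorem cotMap_convMul (f g : WithConv (H →ₐ[R] H'))
    (hf : ∀ h, counit (R := R) (f h) = counit (R := R) h)
    (hg : ∀ h, counit (R := R) (g h) = counit (R := R) h) :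
    cotMap (f * g).ofConv (counit_convMul f g hf hg) =
      cotMap f.ofConv hf + cotMap g.ofConv hg := by
  ext w
  obtain ⟨x, rfl⟩ := proj_surjective w
  have key : ∀ t : H ⊗[R] H,
      proj R H' (Algebra.TensorProduct.lift f.ofConv g.ofConv (fun _ _ => .all ..) t) =
        proj R H' (f (idCounit R H t)) + proj R H' (g (counitId R H t)) := by
    intro t
    induction t using TensorProduct.induction_on with
    | zero => simp
    | add t₁ t₂ h₁ h₂ => simp only [map_add, h₁, h₂]; abel
    | tmul a b =>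
      simp only [Algebra.TensorProduct.lift_tmul, proj_mul, counitId_tmul, idCounit_tmul,
        map_smul]
      have h1 : counit (R := R) (f.ofConv a) = counit (R := R) a := hf a
      have h2 : counit (R := R) (g.ofConv b) = counit (R := R) b := hg b
      rw [h1, h2, add_comm]
  have h3 : (f * g).ofConv x = (f * g) x := rfl
  rw [cotMap_proj, h3, AlgHom.convMul_apply, key, idCounit_comul, counitId_comul,
    LinearMap.add_apply, cotMap_proj, cotMap_proj]

theorem cotMap_convOne :
    cotMap (1 : WithConv (H →ₐ[R] H')).ofConv counit_convOne = 0 := by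
  ext w
  obtain ⟨x, rfl⟩ := proj_surjective w
  rw [cotMap_proj]
  have : (1 : WithConv (H →ₐ[R] H')).ofConv x = algebraMap R H' (counit x) := rfl
  rw [this, proj_algebraMap, LinearMap.zero_apply]

theorem counit_convPow (f : WithConv (H →ₐ[R] H'))
    (hf : ∀ h, counit (R := R) (f h) = counit (R := R) h) (n : ℕ) (h : H) :
    counit (R := R) ((f ^ n) h) = counit (R := R) h := by
  induction n generalizing h with
  | zero => rw [pow_zero]; exact counit_convOne h
  | succ n ih => rw [pow_succ]; exact counit_convMul _ _ ih hf h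

theorem cotMap_convPow (f : WithConv (H →ₐ[R] H'))
    (hf : ∀ h, counit (R := R) (f h) = counit (R := R) h) (n : ℕ) :
    cotMap (f ^ n).ofConv (counit_convPow f hf n) = n • cotMap f.ofConv hf := by
  induction n with
  | zero =>
    rw [zero_smul, ← cotMap_convOne (R := R) (H := H) (H' := H')]
    exact cotMap_congr (by rw [pow_zero]) _ _
  | succ n ih =>
    have h1 := cotMap_convMul (f ^ n) f (counit_convPow f hf n) hf
    rw [ih] at h1
    rw [succ_nsmul, ← h1]
    exact cotMap_congr (by rw [pow_succ]) _ _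

end functoriality

/-! ### Group schemes killed by `n` -/

section killed

open WithConv

/-- If `[n]` is trivial on `H` then `n` kills `ω`. -/
theorem nsmul_coLie_eq_zero (n : ℕ)
    (hn : (toConv (AlgHom.id R H)) ^ n = (1 : WithConv (H →ₐ[R] H))) (w : CoLie R H) :
    n • w = 0 := by
  have hid : ∀ h : H, counit (R := R) ((toConv (AlgHom.id R H)) h) = counit (R := R) h :=
    fun _ => rfl
  have h1 := cotMap_convPow (toConv (AlgHom.id R H)) hid n
  have h2 : cotMap ((toConv (AlgHom.id R H)) ^ n).ofConv (counit_convPow _ hid n) =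
      cotMap (1 : WithConv (H →ₐ[R] H)).ofConv counit_convOne :=
    cotMap_congr (by rw [hn]) _ _
  rw [h2, cotMap_convOne] at h1
  have h3 : cotMap (toConv (AlgHom.id R H)).ofConv hid = LinearMap.id := cotMap_id hid
  rw [h3] at h1
  have := congrArg (fun φ => φ w) h1
  simpa using this.symm

/-- If `[n]` is trivial on `H` then `n` kills `Ω[H⁄R]`. -/
theorem nsmul_kaehler_eq_zero (n : ℕ)
    (hn : (toConv (AlgHom.id R H)) ^ n = (1 : WithConv (H →ₐ[R] H))) (x : Ω[H⁄R]) :
    n • x = 0 := by
  apply (invDiffEquiv R H).injective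
  rw [map_nsmul, map_zero]
  generalize invDiffEquiv R H x = t
  induction t using TensorProduct.induction_on with
  | zero => simp
  | add t₁ t₂ h₁ h₂ => rw [smul_add, h₁, h₂, add_zero]
  | tmul a w => rw [← tmul_smul, nsmul_coLie_eq_zero n hn, tmul_zero]

end killed

/-! ### Structure of `Ω[H⁄R]` when `ω` is killed by a maximal ideal -/

section struct

/-- A finitely generated module killed by a maximal ideal `I` is `(R/I)^d`. -/
theorem exists_equiv_pi_of_isMaximal {M : Type*} [AddCommGroup M] [Module R M] [Module.Finite R M]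
    (I : Ideal R) [hI : I.IsMaximal] (hM : ∀ r ∈ I, ∀ m : M, r • m = 0) :
    ∃ d : ℕ, Nonempty (M ≃ₗ[R] (Fin d → R ⧸ I)) := by
  have htors : Module.IsTorsionBySet R M I := fun m r => hM r.1 r.2 m
  let _ : Field (R ⧸ I) := Ideal.Quotient.field I
  let _ : Module (R ⧸ I) M := htors.module
  have : IsScalarTower R (R ⧸ I) M := htors.isScalarTower
  have : Module.Finite (R ⧸ I) M := Module.Finite.of_restrictScalars_finite R (R ⧸ I) M
  let b := Module.finBasis (R ⧸ I) M
  exact ⟨_, ⟨b.equivFun.restrictScalars R⟩⟩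

variable (R H) in
/-- `ω` is a finite `R`-module when `H` is. -/
theorem coLie_finite [Module.Finite R H] : Module.Finite R (CoLie R H) :=
  Module.Finite.of_surjective (proj R H) proj_surjective

/-- **Structure of the differentials.** If `H` is finite over `R` and `ω` is killed by a maximal
ideal `I` of `R`, then `Ω[H⁄R]` is a free `H/IH`-module of finite rank. -/
theorem exists_kaehler_equiv [Module.Finite R H] (I : Ideal R) [I.IsMaximal]
    (hI : ∀ r ∈ I, ∀ w : CoLie R H, r • w = 0) :
    ∃ d : ℕ, Nonempty (Ω[H⁄R] ≃ₗ[H] (Fin d → H ⧸ I.map (algebraMap R H))) := by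
  have := coLie_finite R H
  obtain ⟨d, ⟨e⟩⟩ := exists_equiv_pi_of_isMaximal (M := CoLie R H) I hI
  refine ⟨d, ⟨?_⟩⟩
  classical
  exact (invDiffEquiv R H) ≪≫ₗ
    (TensorProduct.AlgebraTensorModule.congr (LinearEquiv.refl H H) e) ≪≫ₗ
    (TensorProduct.piRight R H H (fun _ : Fin d => R ⧸ I)) ≪≫ₗ
    (LinearEquiv.piCongrRight (fun _ =>
      (Algebra.TensorProduct.quotIdealMapEquivTensorQuot H I).symm.toLinearEquiv))

open WithConv in
/-- **Differentials of a finite group scheme killed by `n`**, `(n) ⊂ R` maximal: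
`Ω[H⁄R] ≃ (H/nH)^d`. -/
theorem exists_kaehler_equiv_of_convPow_eq_one [Module.Finite R H] (n : ℕ)
    (hmax : (Ideal.span {(n : R)}).IsMaximal)
    (hn : (toConv (AlgHom.id R H)) ^ n = (1 : WithConv (H →ₐ[R] H))) :
    ∃ d : ℕ, Nonempty (Ω[H⁄R] ≃ₗ[H] (Fin d → H ⧸ Ideal.span {(n : H)})) := by
  have hI : ∀ r ∈ Ideal.span {(n : R)}, ∀ w : CoLie R H, r • w = 0 := by
    intro r hr w
    obtain ⟨s, rfl⟩ := Ideal.mem_span_singleton'.mp hr
    rw [mul_smul, Nat.cast_smul_eq_nsmul, nsmul_coLie_eq_zero n hn, smul_zero]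
  have := exists_kaehler_equiv (H := H) (Ideal.span {(n : R)}) hI
  rwa [Ideal.map_span, Set.image_singleton, map_natCast] at this

end struct

end

end Fermat.Agent.TW.FLAT.InvDiff6
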