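/-
Programme T, chapter FLAT, file LocalPoints6: from "flat at `p`" (Prelude, over `ℤ_(p)`, `ℚ̄`-points,
`G_ℚ`) to finite flat group schemes over `ℤ_p` (`ℚ̄_p`-points, `G_{ℚ_p}` = `LOC.Defs2.Gq p`).

* `embZ p : Qb →ₐ[ratLocalizedAt p] PadicAlgCl p` (the Prelude's `padicEmbedding p`),
  `embZ_rq : embZ p (rq p τ x) = τ (embZ p x)`.
* `toLocalPts p : WithConv (H →ₐ[ℤ_(p)] Qb) →* WithConv (H →ₐ[ℤ_(p)] PadicAlgCl p)`,
  `toLocalPts_bijective` (`H` module-finite), `toLocalPts_smul :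
    toLocalPts p (rq p τ • f) = τ • toLocalPts p f`.
* `algebraZp p : Algebra (ratLocalizedAt p) ℤ_[p]` (reducible def, through
  `TensorDomain22.toPadicInt`; use `attribute [local instance]`), `isScalarTower_Zp`.
* `hasFlatModel_local p : HasFlatModel (ratLocalizedAt p) Qb GQ M act →
    HasFlatModel ℤ_[p] (PadicAlgCl p) (Gq p) M (fun τ => act (rq p τ))`
  (the model over `ℤ_p` is `ℤ_p ⊗[ℤ_(p)] H`).
* local base for the sub/quotient/product theorems: instance `faithfulSMul_padicInt p`,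
  `fixedInFrac_padicInt p : FixedInFrac ℤ_[p] (PadicAlgCl p) (Gq p)`
  (`ℤ_[p]` is a PID by Mathlib), so `HasFlatModel.subgroup/of_surjective/of_injective/...`
  apply verbatim to `R = ℤ_[p]`, `Ω = PadicAlgCl p`, `Γ = Gq p`.
-/
import Mathlib
import Fermat.Agent.TW.FLAT.SubQuot6
import Fermat.Agent.TW.FLAT.BaseChange6
import Fermat.Agent.TW.LOC.Defs2
import Fermat.Agent.IG.VAL.TensorDomain22

set_option autoImplicit false

namespace Fermat.Agent.TW.FLAT.LocalPoints6

open WithConv TensorProduct Fermat.Agent.TW.FLAT.Points6 Fermat.Agent.TW.FLAT.FlatModule6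
  Fermat.Agent.TW.FLAT.BaseChange6 Fermat.Agent.TW.LOC.Defs2 GaloisRep

noncomputable section

variable (p : ℕ) [Fact p.Prime]

/-- `ℚ̄ → ℚ̄_p` as a `ℤ_(p)`-algebra hom. -/
def embZ : Qb →ₐ[ratLocalizedAt p] PadicAlgCl p := (padicEmbedding p).restrictScalars _

@[simp] lemma embZ_apply (x : Qb) : embZ p x = padicEmbedding p x := rfl

/-- `embZ` intertwines `rq τ` and `τ`. -/
lemma embZ_rq (τ : Gq p) (x : Qb) : embZ p (rq p τ x) = τ (embZ p x) :=
  padicEmbedding_localGaloisToGlobal p τ x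

section Points

variable {H : Type*} [CommRing H] [HopfAlgebra (ratLocalizedAt p) H]

/-- `G(ℚ̄) → G(ℚ̄_p)`. -/
def toLocalPts : WithConv (H →ₐ[ratLocalizedAt p] Qb) →* WithConv (H →ₐ[ratLocalizedAt p] PadicAlgCl p) :=
  mapB (embZ p)

@[simp] lemma toLocalPts_apply (f : WithConv (H →ₐ[ratLocalizedAt p] Qb)) (h : H) :
    toLocalPts p f h = padicEmbedding p (f h) := rfl

lemma toLocalPts_bijective [Module.Finite (ratLocalizedAt p) H] :
    Function.Bijective (toLocalPts p (H := H)) :=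
  mapB_bijective_of_isAlgClosed (embZ p)

/-- Equivariance: the action of `τ ∈ G_{ℚ_p}` on `G(ℚ̄_p)` corresponds to that of
`rq τ ∈ G_ℚ` on `G(ℚ̄)`. -/
lemma toLocalPts_smul (τ : Gq p) (f : WithConv (H →ₐ[ratLocalizedAt p] Qb)) :
    toLocalPts p (rq p τ • f) = τ • toLocalPts p f := by
  ext h
  exact embZ_rq p τ (f h)

end Points

section Zp

open Fermat.Agent.IG.VAL.TensorDomain22

/-- `ℤ_p` as a `ℤ_(p)`-algebra (through `TensorDomain22.toPadicInt`). -/
@[reducible] def algebraZp : Algebra (ratLocalizedAt p) ℤ_[p] := (toPadicInt p).toAlgebra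

attribute [local instance] algebraZp

/-- The structure maps `ℤ_(p) → ℤ_p → ℚ̄_p` and `ℤ_(p) → ℚ̄_p` agree. -/
instance isScalarTower_Zp : IsScalarTower (ratLocalizedAt p) ℤ_[p] (PadicAlgCl p) :=
  IsScalarTower.of_algebraMap_eq' (Subsingleton.elim _ _)

/-- **Global flat at `p` ⇒ local flat**: if the `G_ℚ`-module `M` has a finite flat model over
`ℤ_(p)` on `ℚ̄`-points, then `M`, with `G_{ℚ_p}` acting through `rq : G_{ℚ_p} → G_ℚ`, has a
finite flat model over `ℤ_p` on `ℚ̄_p`-points. -/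
theorem hasFlatModel_local {M : Type} [AddCommGroup M] {act : GQ → M → M}
    (h : HasFlatModel (ratLocalizedAt p) Qb GQ M act) :
    HasFlatModel ℤ_[p] (PadicAlgCl p) (Gq p) M (fun τ => act (rq p τ)) := by
  -- first over `ℤ_(p)` on `ℚ̄_p`-points
  have h1 : HasFlatModel (ratLocalizedAt p) (PadicAlgCl p) (Gq p) M (fun τ => act (rq p τ)) := by
    obtain ⟨H, i1, i2, hfin, hflat, hco, e, hmul, heq⟩ := h
    let t : WithConv (H →ₐ[ratLocalizedAt p] Qb) ≃ WithConv (H →ₐ[ratLocalizedAt p] PadicAlgCl p) :=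
      Equiv.ofBijective _ (toLocalPts_bijective p (H := H))
    have ht : ∀ f, t f = toLocalPts p f := fun _ => rfl
    refine ⟨H, i1, i2, hfin, hflat, hco, t.symm.trans e, ?_, ?_⟩
    · intro f g
      obtain ⟨f, rfl⟩ := t.surjective f
      obtain ⟨g, rfl⟩ := t.surjective g
      have : t f * t g = t (f * g) := by rw [ht, ht, ht, map_mul]
      rw [this]
      simp only [Equiv.trans_apply, Equiv.symm_apply_apply]
      exact hmul f g
    · intro τ f
      obtain ⟨f, rfl⟩ := t.surjective f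
      have : τ • t f = t (rq p τ • f) := by rw [ht, ht, toLocalPts_smul]
      rw [this]
      simp only [Equiv.trans_apply, Equiv.symm_apply_apply]
      exact heq (rq p τ) f
  exact h1.baseChange

end Zp

section LocalBase

open Fermat.Agent.TW.FLAT.Descent6

local instance isAlgebraicQpbar_lp : Algebra.IsAlgebraic ℚ_[p] (PadicAlgCl p) :=
  AlgebraicClosure.isAlgebraic ℚ_[p]
local instance isAlgClosureQpbar_lp : IsAlgClosure ℚ_[p] (PadicAlgCl p) :=
  ⟨inferInstance, inferInstance⟩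

/-- `ℤ_p → ℚ̄_p` is injective. -/
instance faithfulSMul_padicInt : FaithfulSMul ℤ_[p] (PadicAlgCl p) := by
  rw [faithfulSMul_iff_algebraMap_injective]
  intro x y hxy
  rw [IsScalarTower.algebraMap_apply ℤ_[p] ℚ_[p] (PadicAlgCl p),
    IsScalarTower.algebraMap_apply ℤ_[p] ℚ_[p] (PadicAlgCl p)] at hxy
  exact IsFractionRing.injective ℤ_[p] ℚ_[p] ((algebraMap ℚ_[p] (PadicAlgCl p)).injective hxy)

/-- The fixed field of `G_{ℚ_p}` in `ℚ̄_p` is `ℚ_p = Frac ℤ_p`. -/
theorem fixedInFrac_padicInt : FixedInFrac ℤ_[p] (PadicAlgCl p) (Gq p) := by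
  intro ω hω
  have hmem : ω ∈ Set.range (algebraMap ℚ_[p] (PadicAlgCl p)) :=
    (InfiniteGalois.mem_range_algebraMap_iff_fixed (k := ℚ_[p]) (K := PadicAlgCl p) ω).2 hω
  obtain ⟨x, rfl⟩ := hmem
  obtain ⟨⟨a, s⟩, hx⟩ := IsLocalization.surj (nonZeroDivisors ℤ_[p]) x
  refine ⟨s.1, a, ?_, ?_⟩
  · rw [IsScalarTower.algebraMap_apply ℤ_[p] ℚ_[p] (PadicAlgCl p)]
    intro h0
    have h1 := (map_eq_zero (algebraMap ℚ_[p] (PadicAlgCl p))).1 h0
    have h2 := (map_eq_zero_iff _ (IsFractionRing.injective ℤ_[p] ℚ_[p])).1 h1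
    exact nonZeroDivisors.ne_zero s.2 h2
  · rw [IsScalarTower.algebraMap_apply ℤ_[p] ℚ_[p] (PadicAlgCl p),
      IsScalarTower.algebraMap_apply ℤ_[p] ℚ_[p] (PadicAlgCl p), ← map_mul, mul_comm]
    exact congrArg _ hx

end LocalBase

end

end Fermat.Agent.TW.FLAT.LocalPoints6
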