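/-
Programme T, chapter FLAT, file KilledBy6 (F2 bridge): from a flat model of a Galois module
killed by `n` to the structure of the differentials of (a good choice of) the model.

Notation as in Points6/Closure6: `R` a principal ideal domain, `Ω` a field with `[Algebra R Ω]`
`[FaithfulSMul R Ω]`, `Γ` a group acting on `Ω` with `hF : Descent6.FixedInFrac R Ω Γ`.

* `PtsSeparate R H Ω : Prop := ∀ x : H, (∀ f : H →ₐ[R] Ω, f x = 0) → x = 0`
  ("`H` embeds into `Ω^{G(Ω)}`", i.e. the generic fibre is reduced and `H` is torsion free).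
* `convPow_id_eq_one (hsep : PtsSeparate R H Ω) n (hn : ∀ f : WithConv (H →ₐ[R] Ω), f ^ n = 1) :
    (toConv (AlgHom.id R H)) ^ n = (1 : WithConv (H →ₐ[R] H))`
  (if the points separate and are killed by `n`, then `[n]` is trivial on `H`).
* `HasFlatModel.exists_separated hF : HasFlatModel R Ω Γ M act → ∃ H …, (Module.Finite, Flat,
    IsCocomm) ∧ PtsSeparate R H Ω ∧ ∃ e : WithConv (H →ₐ[R] Ω) ≃ M, (additive) ∧ (equivariant)`
  (scheme theoretic closure of the generic fibre: `H ⧸ closureIdeal ⊤`).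
* `HasFlatModel.exists_model_kaehler hF h n (hmax : (Ideal.span {(n : R)}).IsMaximal)
    (hn : ∀ m : M, n • m = 0) : ∃ H …, (Module.Finite, Flat, IsCocomm) ∧ PtsSeparate R H Ω ∧
      (toConv (AlgHom.id R H)) ^ n = 1 ∧
      (∃ d, Nonempty (Ω[H⁄R] ≃ₗ[H] (Fin d → H ⧸ Ideal.span {(n : H)}))) ∧
      ∃ e : WithConv (H →ₐ[R] Ω) ≃ M, (additive) ∧ (equivariant)`
  — a Galois module killed by `p` which is flat over `R` (`(p)` maximal) has a model whose
  module of differentials is free over `H/pH` (input (A2) of Fontaine's lifting lemma).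
* Specialisations (`p` prime): `exists_model_kaehler_at p` for `R = ratLocalizedAt p`, `Ω = Qb`,
  `Γ = GQ` (no maximality hypothesis), and `exists_model_kaehler_local p` for `R = ℤ_[p]`,
  `Ω = PadicAlgCl p`, `Γ = Gq p`; `span_p_isMaximal_padicInt p`.
-/
import Mathlib
import Fermat.Agent.TW.FLAT.Points6
import Fermat.Agent.TW.FLAT.Closed6
import Fermat.Agent.TW.FLAT.Descent6
import Fermat.Agent.TW.FLAT.Closure6
import Fermat.Agent.TW.FLAT.InvDiff6
import Fermat.Agent.TW.FLAT.FlatModule6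
import Fermat.Agent.TW.FLAT.LocalPoints6

set_option autoImplicit false

namespace Fermat.Agent.TW.FLAT.KilledBy6

open WithConv TensorProduct Fermat.Agent.TW.FLAT.Points6 Fermat.Agent.TW.FLAT.Descent6
  Fermat.Agent.TW.FLAT.Closure6

noncomputable section

section Separate

variable (R : Type*) [CommRing R] (H : Type*) [CommRing H] [HopfAlgebra R H]
  (Ω : Type*) [CommRing Ω] [Algebra R Ω]

/-- The `Ω`-points of `H` separate the elements of `H`. -/
def PtsSeparate : Prop := ∀ x : H, (∀ f : H →ₐ[R] Ω, f x = 0) → x = 0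

variable {R H Ω}

/-- If the `Ω`-points separate the elements of `H` and are all killed by `n`, then the `n`-th
power map `[n]` of `H` is trivial. -/
theorem convPow_id_eq_one (hsep : PtsSeparate R H Ω) (n : ℕ)
    (hn : ∀ f : WithConv (H →ₐ[R] Ω), f ^ n = 1) :
    (toConv (AlgHom.id R H)) ^ n = (1 : WithConv (H →ₐ[R] H)) := by
  apply pts_ext
  intro x
  rw [← sub_eq_zero]
  apply hsep
  intro f
  rw [map_sub, sub_eq_zero]
  have h1 : f (((toConv (AlgHom.id R H)) ^ n) x) =
      (mapB f ((toConv (AlgHom.id R H)) ^ n)) x := rfl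
  have h2 : mapB f (toConv (AlgHom.id R H)) = toConv f := rfl
  rw [h1, map_pow, h2, hn (toConv f)]
  simp

end Separate

section Model

variable {R : Type} [CommRing R] [IsDomain R] [IsPrincipalIdealRing R]
  {Ω : Type} [Field Ω] [Algebra R Ω] [FaithfulSMul R Ω]
  {Γ : Type} [Group Γ] [MulSemiringAction Γ Ω] [SMulCommClass Γ R Ω]
  {M : Type} [AddCommGroup M] {act : Γ → M → M}

/-- **Separated models.** A flat model can be chosen such that its `Ω`-points separate its
elements (replace `H` by the scheme theoretic closure of its generic fibre). -/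
theorem _root_.Fermat.Agent.TW.FLAT.Points6.HasFlatModel.exists_separated
    (hF : FixedInFrac R Ω Γ) (h : HasFlatModel R Ω Γ M act) :
    ∃ (H : Type) (_ : CommRing H) (_ : HopfAlgebra R H),
      Module.Finite R H ∧ Module.Flat R H ∧ Coalgebra.IsCocomm R H ∧ PtsSeparate R H Ω ∧
      ∃ e : WithConv (H →ₐ[R] Ω) ≃ M,
        (∀ f g : WithConv (H →ₐ[R] Ω), e (f * g) = e f + e g) ∧
        ∀ (σ : Γ) (f : WithConv (H →ₐ[R] Ω)), e (σ • f) = act σ (e f) := by
  obtain ⟨H, i1, i2, hfin, hflat, hco, e, hmul, heq⟩ := h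
  let M' : Subgroup (WithConv (H →ₐ[R] Ω)) := ⊤
  have hM' : ∀ (σ : Γ), ∀ f ∈ M', σ • f ∈ M' := fun _ _ _ => trivial
  have hfree : Module.Free R H := inferInstance
  have hHopf : (closureIdeal M').IsHopfIdeal R := closureIdeal_isHopfIdeal hF M' hM'
  have htf : Module.IsTorsionFree R (H ⧸ closureIdeal M') := quot_closureIdeal_isTorsionFree M'
  have hall : ∀ g : WithConv (H →ₐ[R] Ω), g ∈ Closed6.closedPts R (closureIdeal M') Ω := by
    intro g
    rw [Closed6.mem_closedPts_iff]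
    intro x hx
    exact (mem_closureIdeal M' x).1 hx g trivial
  let e₀ : Closed6.closedPts R (closureIdeal M') Ω ≃ WithConv (H →ₐ[R] Ω) :=
    { toFun := fun f => f.1
      invFun := fun g => ⟨g, hall g⟩
      left_inv := fun _ => rfl
      right_inv := fun _ => rfl }
  let e' : WithConv ((H ⧸ closureIdeal M') →ₐ[R] Ω) ≃ M :=
    ((Closed6.ptsQuotEquiv (R := R) (B := Ω) (closureIdeal M')).toEquiv.trans e₀).trans e
  have he' : ∀ F : WithConv ((H ⧸ closureIdeal M') →ₐ[R] Ω),
      e' F = e (Closed6.ptsQuotEquiv (R := R) (B := Ω) (closureIdeal M') F).1 :=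
    fun _ => rfl
  refine ⟨H ⧸ closureIdeal M', inferInstance, inferInstance, inferInstance, inferInstance,
    inferInstance, ?_, e', ?_, ?_⟩
  · -- separation
    intro x hx
    apply quotFam_injective (subFam M')
    funext k
    change quotFam (subFam M') k x = quotFam (subFam M') k 0
    rw [map_zero]
    exact hx (quotFam (subFam M') k)
  · intro f g
    rw [he', he', he', map_mul]
    exact hmul _ _
  · intro σ f
    rw [he', he']
    change e (σ • (Closed6.ptsQuotEquiv (R := R) (B := Ω) (closureIdeal M') f).1) =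
      act σ (e (Closed6.ptsQuotEquiv (R := R) (B := Ω) (closureIdeal M') f).1)
    exact heq σ _

/-- **Differentials of a flat model killed by `n`.** If `M` is flat over `R` and killed by `n`,
where `(n)` is a maximal ideal of `R`, then `M` has a (separated) flat model `H` with `[n] = 1`
on `H` and `Ω[H⁄R] ≃ (H/nH)^d`. -/
theorem _root_.Fermat.Agent.TW.FLAT.Points6.HasFlatModel.exists_model_kaehler
    (hF : FixedInFrac R Ω Γ) (h : HasFlatModel R Ω Γ M act) (n : ℕ)
    (hmax : (Ideal.span {(n : R)}).IsMaximal) (hn : ∀ m : M, n • m = 0) :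
    ∃ (H : Type) (_ : CommRing H) (_ : HopfAlgebra R H),
      Module.Finite R H ∧ Module.Flat R H ∧ Coalgebra.IsCocomm R H ∧ PtsSeparate R H Ω ∧
      (toConv (AlgHom.id R H)) ^ n = (1 : WithConv (H →ₐ[R] H)) ∧
      (∃ d : ℕ, Nonempty (Ω[H⁄R] ≃ₗ[H] (Fin d → H ⧸ Ideal.span {(n : H)}))) ∧
      ∃ e : WithConv (H →ₐ[R] Ω) ≃ M,
        (∀ f g : WithConv (H →ₐ[R] Ω), e (f * g) = e f + e g) ∧
        ∀ (σ : Γ) (f : WithConv (H →ₐ[R] Ω)), e (σ • f) = act σ (e f) := by
  obtain ⟨H, i1, i2, hfin, hflat, hco, hsep, e, hmul, heq⟩ := h.exists_separated hF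
  have he1 : e 1 = 0 := by
    have := hmul 1 1
    rw [mul_one] at this
    exact left_eq_add.mp this
  have hpow : ∀ (f : WithConv (H →ₐ[R] Ω)) (k : ℕ), e (f ^ k) = k • e f := by
    intro f k
    induction k with
    | zero => rw [pow_zero, he1, zero_smul]
    | succ k ih => rw [pow_succ, hmul, ih, succ_nsmul]
  have hkill : ∀ f : WithConv (H →ₐ[R] Ω), f ^ n = 1 := by
    intro f
    apply e.injective
    rw [hpow, hn, he1]
  have hid := convPow_id_eq_one hsep n hkill
  exact ⟨H, i1, i2, hfin, hflat, hco, hsep, hid,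
    InvDiff6.exists_kaehler_equiv_of_convPow_eq_one n hmax hid, e, hmul, heq⟩

end Model

section AtP

open Fermat.Agent.TW.FLAT.FlatModule6 Fermat.Agent.TW.FLAT.LocalPoints6
  Fermat.Agent.TW.LOC.Defs2 GaloisRep

variable (p : ℕ) [Fact p.Prime]

theorem span_p_isMaximal_padicInt : (Ideal.span {(p : ℤ_[p])}).IsMaximal := by
  rw [← PadicInt.maximalIdeal_eq_span_p]
  exact IsLocalRing.maximalIdeal.isMaximal _

/-- Global form: `R = ℤ_(p)`, `Ω = ℚ̄`, `Γ = G_ℚ`, `M` killed by `p`. -/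
theorem exists_model_kaehler_at {M : Type} [AddCommGroup M] {act : GQ → M → M}
    (h : HasFlatModel (ratLocalizedAt p) Qb GQ M act) (hp : ∀ m : M, p • m = 0) :
    ∃ (H : Type) (_ : CommRing H) (_ : HopfAlgebra (ratLocalizedAt p) H),
      Module.Finite (ratLocalizedAt p) H ∧ Module.Flat (ratLocalizedAt p) H ∧
      Coalgebra.IsCocomm (ratLocalizedAt p) H ∧ PtsSeparate (ratLocalizedAt p) H Qb ∧
      (toConv (AlgHom.id (ratLocalizedAt p) H)) ^ p =
        (1 : WithConv (H →ₐ[ratLocalizedAt p] H)) ∧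
      (∃ d : ℕ, Nonempty (Ω[H⁄ratLocalizedAt p] ≃ₗ[H] (Fin d → H ⧸ Ideal.span {(p : H)}))) ∧
      ∃ e : WithConv (H →ₐ[ratLocalizedAt p] Qb) ≃ M,
        (∀ f g : WithConv (H →ₐ[ratLocalizedAt p] Qb), e (f * g) = e f + e g) ∧
        ∀ (σ : GQ) (f : WithConv (H →ₐ[ratLocalizedAt p] Qb)), e (σ • f) = act σ (e f) :=
  h.exists_model_kaehler (fixedInFrac_ratLocalizedAt p) p
    (Fermat.Agent.IG.VAL.Zl13.span_ell_isMaximal p) hp

/-- Local form: `R = ℤ_p`, `Ω = ℚ̄_p`, `Γ = G_{ℚ_p}`, `M` killed by `p`. -/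
theorem exists_model_kaehler_local {M : Type} [AddCommGroup M] {act : Gq p → M → M}
    (h : HasFlatModel ℤ_[p] (PadicAlgCl p) (Gq p) M act) (hp : ∀ m : M, p • m = 0) :
    ∃ (H : Type) (_ : CommRing H) (_ : HopfAlgebra ℤ_[p] H),
      Module.Finite ℤ_[p] H ∧ Module.Flat ℤ_[p] H ∧
      Coalgebra.IsCocomm ℤ_[p] H ∧ PtsSeparate ℤ_[p] H (PadicAlgCl p) ∧
      (toConv (AlgHom.id ℤ_[p] H)) ^ p = (1 : WithConv (H →ₐ[ℤ_[p]] H)) ∧
      (∃ d : ℕ, Nonempty (Ω[H⁄ℤ_[p]] ≃ₗ[H] (Fin d → H ⧸ Ideal.span {(p : H)}))) ∧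
      ∃ e : WithConv (H →ₐ[ℤ_[p]] PadicAlgCl p) ≃ M,
        (∀ f g : WithConv (H →ₐ[ℤ_[p]] PadicAlgCl p), e (f * g) = e f + e g) ∧
        ∀ (σ : Gq p) (f : WithConv (H →ₐ[ℤ_[p]] PadicAlgCl p)), e (σ • f) = act σ (e f) :=
  h.exists_model_kaehler (fixedInFrac_padicInt p) p (span_p_isMaximal_padicInt p) hp

end AtP

end

end Fermat.Agent.TW.FLAT.KilledBy6
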