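/-
Programme T, chapter FLAT, file FlatIntrinsic7 (helper7): **module-level intrinsic statements for flat
`G_{ℚ_p}`-modules** (`p` odd).  Setting: `M` an abelian group with an action `act : Gq p → M → M`
having a finite flat model over `ℤ_p` on `ℚ̄_p`-points (`HasFlatModel ℤ_[p] (PadicAlgCl p) (Gq p) M act`,
the output of `LocalPoints6.hasFlatModel_local`), `I = Iq p`.

General tools (any PID `R`, algebraically closed `Ω` of characteristic `0`, `FixedInFrac R Ω Γ`):
* `evPoints_injective_of_ptsSeparate`, `evPoints_bijective_of_ptsSeparate` : for a separated finite free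
  model, `Ω ⊗ H` is the algebra of functions on the points;
* `evPoints_dual_bijective` : then the same holds for the Cartier dual (dimension count);
* `HasFlatModel.exists_good` : a flat module has a model `H`, finite free, with both properties.

Module level (`R = ℤ_[p]`, `Ω = PadicAlgCl p`, `Γ = Gq p`):
* `augI act : AddSubgroup M` — generated by the `act σ y - y`, `σ ∈ Iq p`;
* **(S1)** `eq_zero_of_mem_augI_of_fixed` : `m ∈ augI act` fixed by `Iq p` ⇒ `m = 0`;
* `IsCyc n act m` — `Iq p` acts on `m` through the cyclotomic character (`act σ m = c • m` whenever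
  `σ ζ = ζ ^ c` on `n`-th roots of unity);
* **(S2)** `char_eq_one_of_fixed` : a character `φ : M → Ω` (`φ (a + b) = φ a * φ b`) which is
  `Iq p`-equivariant (`φ (act τ m) = τ (φ m)`) and trivial on the cyclotomic part is trivial.
-/
import Mathlib
import Fermat.Agent.TW.FLAT.IntrinsicLocal7
import Fermat.Agent.TW.FLAT.KilledBy6

set_option autoImplicit false
set_option linter.style.haveILetI false

open WithConv IsLocalRing TensorProduct

namespace Fermat.Agent.TW.FLAT.FlatIntrinsic7

open Fermat.Agent.TW.FLAT.Points6 Fermat.Agent.TW.FLAT.ConnEt7 Fermat.Agent.TW.FLAT.IntrinsicConn7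
  Fermat.Agent.TW.FLAT.MultPart7 Fermat.Agent.TW.FLAT.CartierDual7
  Fermat.Agent.TW.FLAT.CartierPairing7 Fermat.Agent.TW.FLAT.CartierPerfect7
  Fermat.Agent.TW.FLAT.Mult7 Fermat.Agent.TW.FLAT.IntrinsicLocal7
  Fermat.Agent.TW.FLAT.Descent6 Fermat.Agent.TW.FLAT.Closure6 Fermat.Agent.TW.FLAT.KilledBy6
  Fermat.Agent.TW.FLAT.LocalPoints6 Fermat.Agent.TW.LOC.Defs2
open scoped Fermat.Agent.TW.FLAT.CartierDual7

noncomputable section

attribute [local instance] Fermat.Agent.TW.FLAT.IntrinsicLocal7.algZp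

section General

variable {R Ω Γ H : Type*} [CommRing R] [Field Ω] [Algebra R Ω] [Group Γ] [MulSemiringAction Γ Ω]
  [SMulCommClass Γ R Ω] [CommRing H] [HopfAlgebra R H] [Module.Free R H]

/-- For a separated free model, evaluation at the points is injective on `Ω ⊗ H`. -/
theorem evPoints_injective_of_ptsSeparate (hF : FixedInFrac R Ω Γ) (hsep : PtsSeparate R H Ω) :
    Function.Injective (evPoints R H Ω) := by
  have hst : StableFam Γ (fun x : WithConv (H →ₐ[R] Ω) => x.ofConv) :=
    fun σ k => ⟨σ • k, rfl⟩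
  have hker := ker_evFam_eq_span hF hst
  have hvan : vanishingIdeal (fun x : WithConv (H →ₐ[R] Ω) => x.ofConv) = ⊥ := by
    rw [eq_bot_iff]
    intro a ha
    rw [mem_vanishingIdeal] at ha
    exact hsep a (fun f => ha (toConv f))
  have hbot : LinearMap.ker (evFam (fun x : WithConv (H →ₐ[R] Ω) => x.ofConv)).toLinearMap = ⊥ := by
    rw [hker, eq_bot_iff, Submodule.span_le]
    rintro w ⟨a, ha, rfl⟩
    rw [hvan] at ha
    have : a = 0 := ha
    rw [this, TensorProduct.tmul_zero]
    exact Submodule.zero_mem _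
  rw [injective_iff_map_eq_zero]
  intro g hg
  have h1 : g ∈ LinearMap.ker (evFam (fun x : WithConv (H →ₐ[R] Ω) => x.ofConv)).toLinearMap := by
    rw [LinearMap.mem_ker, AlgHom.toLinearMap_apply, ← evPoints_eq_evFam]
    exact hg
  rw [hbot] at h1
  exact h1

theorem evPoints_bijective_of_ptsSeparate [Module.Finite R H] (hF : FixedInFrac R Ω Γ)
    (hsep : PtsSeparate R H Ω) : Function.Bijective (evPoints R H Ω) :=
  ⟨evPoints_injective_of_ptsSeparate hF hsep, evPoints_surjective⟩

end General

section Dual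

variable {R Ω H : Type*} [CommRing R] [Field Ω] [IsAlgClosed Ω] [CharZero Ω] [Algebra R Ω]
  [CommRing H] [HopfAlgebra R H] [Coalgebra.IsCocomm R H] [Module.Free R H] [Module.Finite R H]

/-- If `Ω ⊗ H` is the algebra of functions on `G(Ω)`, then `Ω ⊗ H^D` is the algebra of functions on
`G^D(Ω)` (`Ω` algebraically closed of characteristic `0`). -/
theorem evPoints_dual_bijective (hev : Function.Bijective (evPoints R H Ω)) :
    Function.Bijective (evPoints R (CDual R H) Ω) := by
  classical
  haveI : Nontrivial R := (algebraMap R Ω).domain_nontrivial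
  refine ⟨?_, evPoints_surjective⟩
  haveI := Fintype.ofFinite (WithConv (H →ₐ[R] Ω))
  haveI := Fintype.ofFinite (WithConv (CDual R H →ₐ[R] Ω))
  -- dimensions
  have d1 : Module.finrank Ω (Ω ⊗[R] H) = Module.finrank R H := Module.finrank_baseChange
  have d2 : Module.finrank Ω (Ω ⊗[R] CDual R H) = Module.finrank R (CDual R H) :=
    Module.finrank_baseChange
  have d3 : Module.finrank R (CDual R H) = Module.finrank R H := by
    rw [(toDual R H).finrank_eq]
    have := Module.finrank_linearMap R R H R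
    rw [Module.finrank_self, mul_one] at this
    exact this
  -- `dim (Ω ⊗ H) = #G(Ω)`
  have hbij : Function.Bijective (evFam (fun x : WithConv (H →ₐ[R] Ω) => x.ofConv)) := by
    constructor
    · intro a b hab
      apply hev.1
      rw [evPoints_eq_evFam, evPoints_eq_evFam, hab]
    · intro f
      obtain ⟨g, hg⟩ := hev.2 f
      exact ⟨g, by rw [← evPoints_eq_evFam, hg]⟩
  have d4 : Module.finrank Ω (Ω ⊗[R] H) = Fintype.card (WithConv (H →ₐ[R] Ω)) := by
    rw [← Module.finrank_fintype_fun_eq_card Ω]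
    exact (LinearEquiv.ofBijective
      (evFam (fun x : WithConv (H →ₐ[R] Ω) => x.ofConv)).toLinearMap hbij).finrank_eq
  -- `#G^D(Ω) = #G(Ω)`
  haveI : NeZero (Monoid.exponent (WithConv (H →ₐ[R] Ω))) :=
    ⟨Monoid.exponent_ne_zero_of_finite (G := WithConv (H →ₐ[R] Ω))⟩
  have e2 : Nat.card (WithConv (H →ₐ[R] Ω) →* Ωˣ) = Nat.card (WithConv (H →ₐ[R] Ω)) :=
    CommGroup.card_monoidHom_of_hasEnoughRootsOfUnity (WithConv (H →ₐ[R] Ω)) Ω
  have e3 : Nat.card (WithConv (CDual R H →ₐ[R] Ω)) = Nat.card (WithConv (H →ₐ[R] Ω) →* Ωˣ) :=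
    Nat.card_congr (dualPointsEquiv hev).toEquiv
  have d5 : Fintype.card (WithConv (CDual R H →ₐ[R] Ω)) = Fintype.card (WithConv (H →ₐ[R] Ω)) := by
    rw [← Nat.card_eq_fintype_card, ← Nat.card_eq_fintype_card, e3, e2]
  have hdim : Module.finrank Ω (Ω ⊗[R] CDual R H) =
      Module.finrank Ω (WithConv (CDual R H →ₐ[R] Ω) → Ω) := by
    rw [d2, d3, ← d1, d4, Module.finrank_fintype_fun_eq_card, d5]
  have hsurj : Function.Surjective
      (evFam (fun x : WithConv (CDual R H →ₐ[R] Ω) => x.ofConv)).toLinearMap := by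
    intro f
    obtain ⟨g, hg⟩ := evPoints_surjective (R := R) (H := CDual R H) (L := Ω) f
    exact ⟨g, by rw [AlgHom.toLinearMap_apply, ← evPoints_eq_evFam, hg]⟩
  have hinj := (LinearMap.injective_iff_surjective_of_finrank_eq_finrank hdim).2 hsurj
  intro a b hab
  apply hinj
  rw [AlgHom.toLinearMap_apply, AlgHom.toLinearMap_apply, ← evPoints_eq_evFam, ← evPoints_eq_evFam,
    hab]

end Dual

section Good

variable {R Ω Γ M : Type} [CommRing R] [IsDomain R] [IsPrincipalIdealRing R] [Field Ω]
  [IsAlgClosed Ω] [CharZero Ω] [Algebra R Ω] [FaithfulSMul R Ω] [Group Γ] [MulSemiringAction Γ Ω]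
  [SMulCommClass Γ R Ω] [AddCommGroup M] {act : Γ → M → M}

/-- **Good models**: a flat module has a finite free model `H` such that `Ω ⊗ H` and `Ω ⊗ H^D` are
the algebras of functions on `G(Ω)` and `G^D(Ω)`. -/
theorem exists_good (hF : FixedInFrac R Ω Γ) (h : HasFlatModel R Ω Γ M act) :
    ∃ (H : Type) (_ : CommRing H) (_ : HopfAlgebra R H) (_ : Coalgebra.IsCocomm R H)
      (_ : Module.Finite R H) (_ : Module.Free R H),
      Function.Bijective (evPoints R H Ω) ∧ Function.Bijective (evPoints R (CDual R H) Ω) ∧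
      ∃ e : WithConv (H →ₐ[R] Ω) ≃ M,
        (∀ f g : WithConv (H →ₐ[R] Ω), e (f * g) = e f + e g) ∧
        ∀ (σ : Γ) (f : WithConv (H →ₐ[R] Ω)), e (σ • f) = act σ (e f) := by
  obtain ⟨H, i1, i2, hfin, hflat, hco, hsep, e, hmul, heq⟩ := h.exists_separated hF
  have hfree : Module.Free R H := inferInstance
  have hev := evPoints_bijective_of_ptsSeparate hF hsep
  exact ⟨H, i1, i2, hco, hfin, hfree, hev, evPoints_dual_bijective hev, e, hmul, heq⟩

end Good

section Local

variable {p : ℕ} [Fact p.Prime] {M : Type} [AddCommGroup M] {act : Gq p → M → M}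

variable (act) in
/-- `aug_I M`: the subgroup generated by the `σ y - y`, `σ ∈ Iq p`. -/
def augI : AddSubgroup M :=
  AddSubgroup.closure {m : M | ∃ σ ∈ Iq p, ∃ y : M, m = act σ y - y}

variable (act) in
/-- `Iq p` acts on `m` through the cyclotomic character modulo `n`. -/
def IsCyc (n : ℕ) (m : M) : Prop :=
  ∀ σ ∈ Iq p, ∀ c : ℕ, (∀ ζ : PadicAlgCl p, ζ ^ n = 1 → σ ζ = ζ ^ c) → act σ m = c • m

/-- Basic consequences of the existence of a model: the action is additive. -/
theorem act_add (h : HasFlatModel ℤ_[p] (PadicAlgCl p) (Gq p) M act) (σ : Gq p) (a b : M) :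
    act σ (a + b) = act σ a + act σ b := by
  obtain ⟨H, i1, i2, -, -, -, e, hmul, heq⟩ := h
  obtain ⟨f, rfl⟩ := e.surjective a
  obtain ⟨g, rfl⟩ := e.surjective b
  rw [← hmul, ← heq, ← heq, ← heq, smul_mul', hmul]

theorem act_zero (h : HasFlatModel ℤ_[p] (PadicAlgCl p) (Gq p) M act) (σ : Gq p) :
    act σ 0 = 0 := by
  have := act_add h σ 0 0
  rw [add_zero] at this
  exact left_eq_add.mp this

/-- **(S1)**: an `Iq p`-fixed element of `aug_I M` is zero (`p` odd, `M` flat). -/
theorem eq_zero_of_mem_augI_of_fixed (hp2 : p ≠ 2)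
    (h : HasFlatModel ℤ_[p] (PadicAlgCl p) (Gq p) M act) {m : M} (hm : m ∈ augI act)
    (hfix : ∀ τ ∈ Iq p, act τ m = m) : m = 0 := by
  obtain ⟨H, i1, i2, hfin, hflat, hco, e, hmul, heq⟩ := h
  have he1 : e 1 = 0 := by
    have := hmul 1 1
    rw [mul_one] at this
    exact left_eq_add.mp this
  have heinv : ∀ f : WithConv (H →ₐ[ℤ_[p]] PadicAlgCl p), e f⁻¹ = - e f := by
    intro f
    have := hmul f f⁻¹
    rw [mul_inv_cancel, he1] at this
    exact (neg_eq_of_add_eq_zero_right this.symm).symm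
  set S : Set (WithConv (H →ₐ[ℤ_[p]] PadicAlgCl p)) :=
    {g | ∃ σ ∈ Iq p, ∃ y : WithConv (H →ₐ[ℤ_[p]] PadicAlgCl p), g = σ • y * y⁻¹} with hS
  have key : ∀ m : M, m ∈ augI act → e.symm m ∈ Subgroup.closure S := by
    intro m hm
    induction hm using AddSubgroup.closure_induction with
    | mem x hx =>
      obtain ⟨σ, hσ, y, rfl⟩ := hx
      apply Subgroup.subset_closure
      refine ⟨σ, hσ, e.symm y, ?_⟩
      apply e.injective
      rw [e.apply_symm_apply, hmul, heinv, heq, e.apply_symm_apply, sub_eq_add_neg]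
    | zero =>
      have : e.symm 0 = 1 := by
        apply e.injective
        rw [e.apply_symm_apply, he1]
      rw [this]
      exact Subgroup.one_mem _
    | add x y _ _ hx hy =>
      have : e.symm (x + y) = e.symm x * e.symm y := by
        apply e.injective
        rw [e.apply_symm_apply, hmul, e.apply_symm_apply, e.apply_symm_apply]
      rw [this]
      exact Subgroup.mul_mem _ hx hy
    | neg x _ hx =>
      have : e.symm (-x) = (e.symm x)⁻¹ := by
        apply e.injective
        rw [e.apply_symm_apply, heinv, e.apply_symm_apply]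
      rw [this]
      exact Subgroup.inv_mem _ hx
  have hfix' : ∀ τ ∈ Iq p, τ • e.symm m = e.symm m := by
    intro τ hτ
    apply e.injective
    rw [heq, e.apply_symm_apply, hfix τ hτ]
  have h1 := eq_one_of_mem_closure_of_fixed_local hp2 (key m hm) hfix'
  have : m = e (e.symm m) := (e.apply_symm_apply m).symm
  rw [this, h1, he1]

/-- **(S2)**: a character of a flat module which is `Iq p`-equivariant and trivial on the
cyclotomic part is trivial (`p` odd). -/
theorem char_eq_one_of_fixed (hp2 : p ≠ 2)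
    (h : HasFlatModel ℤ_[p] (PadicAlgCl p) (Gq p) M act) (n : ℕ) (hn : ∀ m : M, n • m = 0)
    (φ : M → PadicAlgCl p) (hφmul : ∀ a b : M, φ (a + b) = φ a * φ b)
    (hφeq : ∀ τ ∈ Iq p, ∀ m : M, φ (act τ m) = τ (φ m))
    (hφT : ∀ m : M, IsCyc act n m → φ m = 1) (m : M) : φ m = 1 := by
  have hz : φ 0 = 1 := by
    apply hφT
    intro σ _ c _
    rw [act_zero h, smul_zero]
  obtain ⟨H, i1, i2, hco, hfin, hfree, hev, hevD, e, hmul, heq⟩ :=
    exists_good (fixedInFrac_padicInt p) h
  have he1 : e 1 = 0 := by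
    have := hmul 1 1
    rw [mul_one] at this
    exact left_eq_add.mp this
  have hpow : ∀ (f : WithConv (H →ₐ[ℤ_[p]] PadicAlgCl p)) (k : ℕ), e (f ^ k) = k • e f := by
    intro f k
    induction k with
    | zero => rw [pow_zero, he1, zero_smul]
    | succ k ih => rw [pow_succ, hmul, ih, succ_nsmul]
  have hkill : ∀ f : WithConv (H →ₐ[ℤ_[p]] PadicAlgCl p), f ^ n = 1 := by
    intro f
    apply e.injective
    rw [hpow, hn, he1]
  -- the character of `G(Ω)` defined by `φ`
  let χ : WithConv (H →ₐ[ℤ_[p]] PadicAlgCl p) →* PadicAlgCl p :=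
    { toFun := fun x => φ (e x)
      map_one' := by rw [he1, hz]
      map_mul' := fun x y => by rw [hmul, hφmul] }
  obtain ⟨φ', hφ'⟩ := exists_cartierPairing_eq hev χ
  have hχ : ∀ x, χ x = φ (e x) := fun _ => rfl
  -- `φ'` is fixed by inertia
  have hfix : ∀ τ ∈ Iq p, τ • φ' = φ' := by
    intro τ hτ
    apply cartierPairing_right_injective hev.1
    intro x
    have h1 := cartierPairing_smul τ (τ⁻¹ • x) φ'
    rw [smul_inv_smul] at h1
    rw [h1, hφ', hφ', hχ, hχ, heq, hφeq τ⁻¹ (inv_mem hτ), AlgEquiv.smul_def]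
    exact τ.apply_symm_apply _
  -- `φ'` is orthogonal to the multiplicative points
  have horth : ∀ y ∈ multPts H (unitBall p), cartierPairing y φ' = 1 := by
    intro y hy
    rw [hφ', hχ]
    apply hφT
    intro σ hσ c hc
    rw [← heq, smul_eq_pow_of_mem_multPts_local hevD.1 hσ n c hkill hc hy, hpow]
  have h1 := eq_one_of_fixed_of_forall_multPts_local hp2 hev hevD.1 φ' hfix horth
  obtain ⟨x, rfl⟩ := e.surjective m
  rw [← hχ, ← hφ', h1, cartierPairing_one_right]

end Local

end

end Fermat.Agent.TW.FLAT.FlatIntrinsic7
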