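/-
Programme T, chapter FLAT, file PeuRamifie7 (helper7): **(O2) — flat ⇒ peu ramifié**: the Kummer
radical of an extension of a constant group by `μ_n` inside a finite flat group scheme is a UNIT.

Generic setting: `R` a PID (domain), `Ω` an algebraically closed field of characteristic `0`,
`A : ValuationSubring Ω` containing the image of `R`, `Γ` a group acting on `Ω` with
`FixedInFrac R Ω Γ` (`Ω^Γ = Frac R`), `H` a finite free commutative cocommutative Hopf algebra over `R`
such that `Ω ⊗ H` is the algebra of functions on `G = G(Ω)` (`hev`, see `FlatIntrinsic7.exists_good`).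

* `intSpan A : Submodule A (G → Ω)` — the `A`-span of the functions `x ↦ x h`, `h ∈ H` (the image of
  `A ⊗ H`); `cartierPairing_mem_intSpan` : for a point `φ'` of the Cartier dual, `x ↦ ⟨x, φ'⟩` lies in
  it (integrality of group-like elements); `apply_mem_of_mem_intSpan`.
* **`exists_unit_radical`** : `T ≤ G` a `Γ`-stable subgroup, `j : T →* Ωˣ` `Γ`-equivariant,
  `x₀ ∈ G` with `a_σ := σ • x₀ * x₀⁻¹ ∈ T` for all `σ`. Then there is `u ∈ A^×` with
  `σ • u = j (a_σ) * u` for all `σ ∈ Γ`.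
  (Proof: Lagrange resolvent `u₀ = Σ_t j(t)⁻¹ f(x₀ t)` for a coordinate function `f` of the model of
  the coset `x₀ T`; extend `j` to a character `φ` of `G`; its group-like element restricted to the
  coset is `(φ(x₀)/u₀) ·` (a `Γ`-equivariant function); comparing coordinates in an `R`-basis of the
  model of the coset forces `u₀` to be a unit times a `Γ`-fixed element.)
-/
import Mathlib
import Fermat.Agent.TW.FLAT.FlatIntrinsic7

set_option autoImplicit false
set_option linter.style.haveILetI false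
set_option linter.unusedSectionVars false

open WithConv TensorProduct

namespace Fermat.Agent.TW.FLAT.PeuRamifie7

open Fermat.Agent.TW.FLAT.Points6 Fermat.Agent.TW.FLAT.ConnEt7
  Fermat.Agent.TW.FLAT.CartierDual7 Fermat.Agent.TW.FLAT.CartierPairing7
  Fermat.Agent.TW.FLAT.CartierPerfect7 Fermat.Agent.TW.FLAT.Descent6 Fermat.Agent.TW.FLAT.Closure6
open scoped Fermat.Agent.TW.FLAT.CartierDual7

noncomputable section

section IntSpan

variable {R Ω H : Type*} [CommRing R] [Field Ω] [Algebra R Ω]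
  [CommRing H] [HopfAlgebra R H] [Coalgebra.IsCocomm R H] [Module.Free R H] [Module.Finite R H]
  (A : ValuationSubring Ω) [Algebra R A] [IsScalarTower R A Ω]

variable (H) in
/-- The `A`-span of the coordinate functions `x ↦ x h` on `G(Ω)`. -/
def intSpan : Submodule A (WithConv (H →ₐ[R] Ω) → Ω) :=
  Submodule.span A (Set.range fun (h : H) (x : WithConv (H →ₐ[R] Ω)) => x h)

omit [Coalgebra.IsCocomm R H] [Module.Free R H] in
theorem apply_mem_of_mem_intSpan {F : WithConv (H →ₐ[R] Ω) → Ω} (hF : F ∈ intSpan H A)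
    (x : WithConv (H →ₐ[R] Ω)) : F x ∈ A := by
  induction hF using Submodule.span_induction with
  | mem f hf =>
    obtain ⟨h, rfl⟩ := hf
    exact pt_mem A x.ofConv h
  | zero => exact A.zero_mem
  | add f g _ _ hf hg => exact A.add_mem _ _ hf hg
  | smul a f _ hf => exact A.mul_mem _ _ a.2 hf

omit [Coalgebra.IsCocomm R H] [Module.Free R H] [Module.Finite R H] in
theorem mulMap_mem_intSpan (g : A ⊗[R] H) :
    (fun x : WithConv (H →ₐ[R] Ω) => mulMap x.ofConv.toLinearMap
      (TensorProduct.map (IsScalarTower.toAlgHom R A Ω).toLinearMap LinearMap.id g)) ∈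
      intSpan H A := by
  induction g using TensorProduct.induction_on with
  | zero =>
    have : (fun x : WithConv (H →ₐ[R] Ω) => mulMap x.ofConv.toLinearMap
        (TensorProduct.map (IsScalarTower.toAlgHom R A Ω).toLinearMap LinearMap.id
          (0 : A ⊗[R] H))) = 0 := by
      funext x
      simp
    rw [this]
    exact Submodule.zero_mem _
  | add g₁ g₂ h₁ h₂ =>
    have : (fun x : WithConv (H →ₐ[R] Ω) => mulMap x.ofConv.toLinearMap
        (TensorProduct.map (IsScalarTower.toAlgHom R A Ω).toLinearMap LinearMap.id (g₁ + g₂))) =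
        (fun x : WithConv (H →ₐ[R] Ω) => mulMap x.ofConv.toLinearMap
          (TensorProduct.map (IsScalarTower.toAlgHom R A Ω).toLinearMap LinearMap.id g₁)) +
        (fun x : WithConv (H →ₐ[R] Ω) => mulMap x.ofConv.toLinearMap
          (TensorProduct.map (IsScalarTower.toAlgHom R A Ω).toLinearMap LinearMap.id g₂)) := by
      funext x
      simp [map_add]
    rw [this]
    exact Submodule.add_mem _ h₁ h₂
  | tmul a h =>
    have : (fun x : WithConv (H →ₐ[R] Ω) => mulMap x.ofConv.toLinearMap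
        (TensorProduct.map (IsScalarTower.toAlgHom R A Ω).toLinearMap LinearMap.id (a ⊗ₜ[R] h))) =
        a • (fun x : WithConv (H →ₐ[R] Ω) => x h) := by
      funext x
      simp [mulMap_tmul, Algebra.smul_def]
    rw [this]
    exact Submodule.smul_mem _ _ (Submodule.subset_span ⟨h, rfl⟩)

/-- **Integrality of group-like elements**: the character `x ↦ ⟨x, φ'⟩` of a point of the Cartier
dual is an `A`-linear combination of coordinate functions. -/
theorem cartierPairing_mem_intSpan (φ' : WithConv (CDual R H →ₐ[R] Ω)) :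
    (fun x : WithConv (H →ₐ[R] Ω) => cartierPairing x φ') ∈ intSpan H A := by
  haveI : Algebra.IsIntegral R (CDual R H) := Algebra.IsIntegral.of_finite R (CDual R H)
  set φA : CDual R H →ₐ[R] A := ptToA A φ'.ofConv with hφA
  set gA : A ⊗[R] H := (thetaH R H A).symm (toConv φA.toLinearMap) with hgA
  have h1 : thetaH R H A gA = toConv φA.toLinearMap := by rw [hgA, AlgEquiv.apply_symm_apply]
  have h2 := thetaH_map (IsScalarTower.toAlgHom R A Ω) gA
  rw [h1] at h2
  have h3 : thetaH R H Ω (TensorProduct.map (IsScalarTower.toAlgHom R A Ω).toLinearMap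
      LinearMap.id gA) = toConv φ'.ofConv.toLinearMap := by
    rw [h2]
    rfl
  have h4 : (fun x : WithConv (H →ₐ[R] Ω) => cartierPairing x φ') =
      fun x : WithConv (H →ₐ[R] Ω) => mulMap x.ofConv.toLinearMap
        (TensorProduct.map (IsScalarTower.toAlgHom R A Ω).toLinearMap LinearMap.id gA) := by
    funext x
    exact cartierPairing_eq_of_thetaH x φ' _ h3
  rw [h4]
  exact mulMap_mem_intSpan A gA

end IntSpan

/-! ### Abstract lattice lemmas (no Hopf algebras) -/

section Abstract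

variable {Ω : Type*} [Field Ω] (A : ValuationSubring Ω) {ι T : Type*} [Fintype ι] [Fintype T]
  (B : Module.Basis ι Ω (T → Ω))

/-- If the basis functions are `A`-valued with `A`-integral structure constants, a function all of
whose coordinates are non-units cannot be inverted by a function with integral coordinates. -/
theorem not_forall_repr_mem_nonunits [Nonempty T] (hBA : ∀ i t, B i t ∈ A)
    (hstr : ∀ i j k, B.repr (B i * B j) k ∈ A) {f f' : T → Ω} (hff' : f * f' = 1)
    (hf' : ∀ i, B.repr f' i ∈ A) : ¬ ∀ i, B.repr f i ∈ A.nonunits := by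
  classical
  intro hf
  -- coordinates of `1 = f * f'`
  have hprod : f * f' = ∑ i, ∑ j, (B.repr f i * B.repr f' j) • (B i * B j) := by
    conv_lhs => rw [← B.sum_repr f, ← B.sum_repr f']
    rw [Finset.sum_mul]
    refine Finset.sum_congr rfl fun i _ => ?_
    rw [Finset.mul_sum]
    refine Finset.sum_congr rfl fun j _ => ?_
    rw [smul_mul_smul_comm]
  have hone : ∀ k, B.repr (1 : T → Ω) k ∈ A.nonunits := by
    intro k
    rw [← hff', hprod, map_sum, Finset.sum_apply']
    rw [ValuationSubring.mem_nonunits_iff]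
    refine Valuation.map_sum_lt _ one_ne_zero fun i _ => ?_
    rw [map_sum, Finset.sum_apply']
    refine Valuation.map_sum_lt _ one_ne_zero fun j _ => ?_
    rw [map_smul, Finsupp.smul_apply, smul_eq_mul, map_mul, map_mul]
    have h1 := (ValuationSubring.mem_nonunits_iff A).1 (hf i)
    have h2 := (A.valuation_le_one_iff _).2 (hf' j)
    have h3 := (A.valuation_le_one_iff _).2 (hstr i j k)
    calc A.valuation (B.repr f i) * A.valuation (B.repr f' j) * A.valuation (B.repr (B i * B j) k)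
        ≤ A.valuation (B.repr f i) * 1 * 1 := by gcongr
      _ < 1 := by rwa [mul_one, mul_one]
  -- evaluate at a point
  obtain ⟨t⟩ := ‹Nonempty T›
  have h1 : (1 : Ω) = ∑ k, B.repr (1 : T → Ω) k * B k t := by
    have := congrFun (B.sum_repr (1 : T → Ω)) t
    rw [Finset.sum_apply] at this
    simpa using this.symm
  have h2 : A.valuation (1 : Ω) < 1 := by
    rw [h1]
    refine Valuation.map_sum_lt _ one_ne_zero fun k _ => ?_
    rw [map_mul]
    have h3 := (ValuationSubring.mem_nonunits_iff A).1 (hone k)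
    have h4 := (A.valuation_le_one_iff _).2 (hBA k t)
    calc A.valuation (B.repr (1 : T → Ω) k) * A.valuation (B k t)
        ≤ A.valuation (B.repr (1 : T → Ω) k) * 1 := by gcongr
      _ < 1 := by rwa [mul_one]
  rw [map_one] at h2
  exact lt_irrefl _ h2

variable {Γ : Type*} [Group Γ] [MulSemiringAction Γ Ω] (act : Γ → T ≃ T)

/-- The coordinates of an equivariant function in a basis of equivariant functions are fixed. -/
theorem smul_repr_eq_of_equivariant (hB : ∀ i σ t, B i (act σ t) = σ • B i t) {f : T → Ω}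
    (hf : ∀ σ t, f (act σ t) = σ • f t) (σ : Γ) (i : ι) : σ • B.repr f i = B.repr f i := by
  classical
  set f' : T → Ω := ∑ i, (σ • B.repr f i) • B i with hf'
  have h1 : f' = f := by
    funext t'
    obtain ⟨t, rfl⟩ := (act σ).surjective t'
    rw [hf σ t, hf', Finset.sum_apply]
    have h2 : f t = ∑ i, B.repr f i * B i t := by
      have := congrFun (B.sum_repr f) t
      rw [Finset.sum_apply] at this
      simpa using this.symm
    rw [h2, Finset.smul_sum]
    refine Finset.sum_congr rfl fun i _ => ?_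
    rw [Pi.smul_apply, smul_eq_mul, hB i σ t, smul_mul']
  have h3 : B.repr f' i = σ • B.repr f i := by
    rw [hf', map_sum, Finset.sum_apply']
    simp [Finsupp.single_apply]
  rw [← h3, h1]

/-- **Lagrange resolvents.** -/
theorem exists_resolvent (hB : ∀ i σ t, B i (act σ t) = σ • B i t) (j : T → Ω)
    (hj0 : ∀ t, j t ≠ 0) (m : Γ → Ω) (hjm : ∀ σ t, j (act σ t) = m σ * σ • j t) [Nonempty T] :
    ∃ u₀ : Ω, u₀ ≠ 0 ∧ ∀ σ : Γ, σ • u₀ = m σ * u₀ := by
  classical
  let Res : (T → Ω) →ₗ[Ω] Ω :=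
    { toFun := fun f => ∑ t, (j t)⁻¹ * f t
      map_add' := fun f g => by
        simp only [Pi.add_apply, mul_add, Finset.sum_add_distrib]
      map_smul' := fun c f => by
        simp only [Pi.smul_apply, smul_eq_mul, RingHom.id_apply, Finset.mul_sum]
        refine Finset.sum_congr rfl fun t _ => ?_
        ring }
  have hRes : ∀ f, Res f = ∑ t, (j t)⁻¹ * f t := fun _ => rfl
  obtain ⟨t₀⟩ := ‹Nonempty T›
  have hne : Res ≠ 0 := by
    intro h0
    have h1 : Res (Pi.single t₀ 1) = (j t₀)⁻¹ := by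
      rw [hRes, Finset.sum_eq_single t₀]
      · simp
      · intro t _ ht
        simp [ht]
      · intro h
        exact absurd (Finset.mem_univ _) h
    rw [h0, LinearMap.zero_apply] at h1
    exact inv_ne_zero (hj0 t₀) h1.symm
  have hex : ∃ i, Res (B i) ≠ 0 := by
    by_contra hall
    simp only [not_exists, not_not] at hall
    exact hne (B.ext fun i => by rw [hall i, LinearMap.zero_apply])
  obtain ⟨i, hi⟩ := hex
  refine ⟨Res (B i), hi, fun σ => ?_⟩
  have hm0 : ∀ σ, m σ ≠ 0 := by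
    intro σ h0
    have := hjm σ t₀
    rw [h0, zero_mul] at this
    exact hj0 _ this
  rw [hRes, Finset.smul_sum, ← Equiv.sum_comp (act σ) (fun t => (j t)⁻¹ * B i t), Finset.mul_sum]
  refine Finset.sum_congr rfl fun t _ => ?_
  rw [smul_mul', smul_inv'', hjm σ t, hB i σ t, mul_inv, ← mul_assoc, ← mul_assoc,
    mul_inv_cancel₀ (hm0 σ), one_mul]

/-- **The lattice argument.** `B` a basis of `A`-valued equivariant functions with integral
structure constants; `fφ = c₀ • j` and `fψ` mutually inverse functions with integral coordinates,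
`j` twisted-equivariant with multiplier `m`. Then `m` is the multiplier of a UNIT of `A`. -/
theorem exists_unit_of_lattice [Nonempty T] (hBA : ∀ i t, B i t ∈ A)
    (hstr : ∀ i j k, B.repr (B i * B j) k ∈ A)
    (hB : ∀ i σ t, B i (act σ t) = σ • B i t) (j : T → Ω)
    (hj0 : ∀ t, j t ≠ 0) (m : Γ → Ω) (hjm : ∀ σ t, j (act σ t) = m σ * σ • j t)
    (c₀ : Ω) (hc₀ : c₀ ∈ A) (hc₀' : c₀⁻¹ ∈ A) (hc₀0 : c₀ ≠ 0) (fψ : T → Ω)
    (hinv : (c₀ • j) * fψ = 1) (hfφ : ∀ i, B.repr (c₀ • j) i ∈ A) (hfψ : ∀ i, B.repr fψ i ∈ A) :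
    ∃ u : Ω, u ≠ 0 ∧ u ∈ A ∧ u⁻¹ ∈ A ∧ ∀ σ : Γ, σ • u = m σ * u := by
  classical
  obtain ⟨u₀, hu₀, hu₀σ⟩ := exists_resolvent B act hB j hj0 m hjm
  -- the equivariant function `τ = u₀ • j`
  set τ : T → Ω := u₀ • j with hτ
  have hτeq : ∀ σ t, τ (act σ t) = σ • τ t := by
    intro σ t
    rw [hτ, Pi.smul_apply, Pi.smul_apply, smul_eq_mul, smul_eq_mul, hjm σ t, smul_mul', hu₀σ σ]
    ring
  have hcfix : ∀ σ i, σ • B.repr τ i = B.repr τ i :=
    fun σ i => smul_repr_eq_of_equivariant B act hB hτeq σ i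
  have hτ0 : τ ≠ 0 := by
    intro h0
    obtain ⟨t⟩ := ‹Nonempty T›
    have := congrFun h0 t
    rw [hτ, Pi.smul_apply, smul_eq_mul, Pi.zero_apply] at this
    rcases mul_eq_zero.1 this with h | h
    · exact hu₀ h
    · exact hj0 t h
  have hex : ∃ i, B.repr τ i ≠ 0 := by
    by_contra hall
    simp only [not_exists, not_not] at hall
    apply hτ0
    apply B.repr.injective
    ext i
    rw [hall i, map_zero, Finsupp.zero_apply]
  -- a coordinate of maximal valuation
  obtain ⟨i₁, -, hi₁⟩ := Finset.exists_max_image Finset.univ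
    (fun i => A.valuation (B.repr τ i)) ⟨hex.choose, Finset.mem_univ _⟩
  have hci₁ : B.repr τ i₁ ≠ 0 := by
    obtain ⟨i, hi⟩ := hex
    intro h0
    have h1 := hi₁ i (Finset.mem_univ _)
    rw [h0, map_zero] at h1
    exact hi ((map_eq_zero _).1 (le_antisymm h1 zero_le))
  -- `c₀ • j = (c₀ / u₀) • τ`
  have hrel : c₀ • j = (c₀ / u₀) • τ := by
    rw [hτ, smul_smul, div_mul_cancel₀ _ hu₀]
  have hcoord : ∀ i, B.repr (c₀ • j) i = (c₀ / u₀) * B.repr τ i := by
    intro i
    rw [hrel, map_smul, Finsupp.smul_apply, smul_eq_mul]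
  set w : Ω := (c₀ / u₀) * B.repr τ i₁ with hw
  have hwA : w ∈ A := by rw [hw, ← hcoord]; exact hfφ i₁
  have hwunit : w ∉ A.nonunits := by
    intro hwn
    apply not_forall_repr_mem_nonunits A B hBA hstr hinv hfψ
    intro i
    rw [hcoord, ValuationSubring.mem_nonunits_iff, map_mul]
    have h1 := (ValuationSubring.mem_nonunits_iff A).1 hwn
    rw [hw, map_mul] at h1
    calc A.valuation (c₀ / u₀) * A.valuation (B.repr τ i)
        ≤ A.valuation (c₀ / u₀) * A.valuation (B.repr τ i₁) := by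
          gcongr
          exact hi₁ i (Finset.mem_univ _)
      _ < 1 := h1
  have hw0 : w ≠ 0 := by
    rw [hw]
    exact mul_ne_zero (div_ne_zero hc₀0 hu₀) hci₁
  have hwinv : w⁻¹ ∈ A := by
    have h1 : A.valuation w ≤ 1 := (A.valuation_le_one_iff _).2 hwA
    have h2 : ¬ A.valuation w < 1 := fun h => hwunit ((ValuationSubring.mem_nonunits_iff A).2 h)
    have h3 : A.valuation w = 1 := le_antisymm h1 (not_lt.1 h2)
    apply (A.valuation_le_one_iff _).1
    rw [map_inv₀, h3, inv_one]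
  refine ⟨u₀ / B.repr τ i₁, div_ne_zero hu₀ hci₁, ?_, ?_, fun σ => ?_⟩
  · have : u₀ / B.repr τ i₁ = c₀ * w⁻¹ := by
      rw [hw]
      field_simp
    rw [this]
    exact A.mul_mem _ _ hc₀ hwinv
  · have : (u₀ / B.repr τ i₁)⁻¹ = w * c₀⁻¹ := by
      rw [hw]
      field_simp
    rw [this]
    exact A.mul_mem _ _ hwA hc₀'
  · rw [smul_div₀', hu₀σ σ, hcfix σ i₁, mul_div_assoc]

end Abstract

/-! ### The model of a coset -/

section Coset

universe u

variable {R Ω Γ : Type*} {H : Type u} [CommRing R] [IsDomain R] [IsPrincipalIdealRing R] [Field Ω]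
  [Algebra R Ω] [FaithfulSMul R Ω] [Group Γ] [MulSemiringAction Γ Ω] [SMulCommClass Γ R Ω]
  [CommRing H] [HopfAlgebra R H] [Module.Free R H] [Module.Finite R H]

/-- The family of points of the coset `x₀ T`. -/
def cosetFam (T : Subgroup (WithConv (H →ₐ[R] Ω))) (x₀ : WithConv (H →ₐ[R] Ω)) :
    T → (H →ₐ[R] Ω) := fun t => (x₀ * t.1).ofConv

omit [IsDomain R] [IsPrincipalIdealRing R] [FaithfulSMul R Ω] [Module.Free R H]
  [Module.Finite R H] in
theorem cosetFam_injective (T : Subgroup (WithConv (H →ₐ[R] Ω))) (x₀ : WithConv (H →ₐ[R] Ω)) :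
    Function.Injective (cosetFam T x₀) := by
  intro t t' h
  have h1 : x₀ * t.1 = x₀ * t'.1 := WithConv.ext h
  exact Subtype.ext (mul_left_cancel h1)

/-- **A basis of the functions on the coset `x₀ T` made of coordinate functions**, in which all
coordinate functions have `R`-rational coordinates. -/
theorem exists_coset_basis (hF : FixedInFrac R Ω Γ) (T : Subgroup (WithConv (H →ₐ[R] Ω)))
    [Finite T] (x₀ : WithConv (H →ₐ[R] Ω)) (hst : StableFam Γ (cosetFam T x₀)) :
    ∃ (ι : Type u) (_ : Fintype ι) (B : Module.Basis ι Ω (T → Ω)),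
      (∀ i, ∃ h : H, B i = fun t : T => (x₀ * t.1) h) ∧
      ∀ (h : H) (k : ι), B.repr (fun t : T => (x₀ * t.1) h) k ∈ Set.range (algebraMap R Ω) := by
  classical
  set fam := cosetFam T x₀ with hfam
  -- the quotient is finite and torsion free, hence free
  haveI hfin : Module.Finite R (H ⧸ vanishingIdeal fam) :=
    Module.Finite.of_surjective (Ideal.Quotient.mkₐ R (vanishingIdeal fam)).toLinearMap
      (Ideal.Quotient.mkₐ_surjective R _)
  haveI htf : Module.IsTorsionFree R (H ⧸ vanishingIdeal fam) := by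
    apply Module.IsTorsionFree.of_smul_eq_zero
    intro r a hra
    by_cases hr : r = 0
    · exact Or.inl hr
    right
    apply quotFam_injective fam
    funext k
    have h1 : quotFam fam k (r • a) = 0 := by rw [hra, map_zero]
    rw [map_smul, Algebra.smul_def, mul_eq_zero] at h1
    rcases h1 with h1 | h1
    · exact absurd ((map_eq_zero_iff _ (FaithfulSMul.algebraMap_injective R Ω)).1 h1) hr
    · simpa using h1
  haveI hfree : Module.Free R (H ⧸ vanishingIdeal fam) := inferInstance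
  let b := Module.Free.chooseBasis R (H ⧸ vanishingIdeal fam)
  let bΩ := Algebra.TensorProduct.basis Ω b
  have hbij : Function.Bijective (evFam (quotFam fam)).toLinearMap := by
    refine ⟨evFam_quot_injective hF hst, evFam_surjective ?_⟩
    intro t t' h
    apply cosetFam_injective T x₀
    apply AlgHom.ext
    intro a
    have := congrArg (fun q => q (Ideal.Quotient.mk _ a)) h
    simpa using this
  let eΩ : (Ω ⊗[R] (H ⧸ vanishingIdeal fam)) ≃ₗ[Ω] (T → Ω) :=
    LinearEquiv.ofBijective (evFam (quotFam fam)).toLinearMap hbij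
  let B := bΩ.map eΩ
  have hBapp : ∀ i, B i = fun t : T => quotFam fam t (b i) := by
    intro i
    funext t
    change eΩ (bΩ i) t = _
    rw [Algebra.TensorProduct.basis_apply]
    change evFam (quotFam fam) ((1 : Ω) ⊗ₜ[R] b i) t = _
    rw [evFam_tmul, one_mul]
  refine ⟨_, inferInstance, B, fun i => ?_, fun h k => ?_⟩
  · obtain ⟨h, hh⟩ := Ideal.Quotient.mk_surjective (b i)
    refine ⟨h, ?_⟩
    rw [hBapp, ← hh]
    rfl
  · have h1 : (fun t : T => (x₀ * t.1) h) =
        eΩ ((1 : Ω) ⊗ₜ[R] (Ideal.Quotient.mk (vanishingIdeal fam) h)) := by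
      funext t
      change _ = evFam (quotFam fam) ((1 : Ω) ⊗ₜ[R] (Ideal.Quotient.mk _ h)) t
      rw [evFam_tmul, one_mul]
      rfl
    rw [h1, Module.Basis.map_repr, LinearEquiv.trans_apply, LinearEquiv.symm_apply_apply,
      Algebra.TensorProduct.basis_repr_tmul, one_smul, Finsupp.mapRange_apply]
    exact ⟨_, rfl⟩

end Coset

/-! ### The main theorem -/

section Main

universe u

variable {R Ω Γ : Type*} {H : Type u} [CommRing R] [IsDomain R] [IsPrincipalIdealRing R] [Field Ω]
  [IsAlgClosed Ω] [CharZero Ω] [Algebra R Ω] [FaithfulSMul R Ω] [Group Γ] [MulSemiringAction Γ Ω]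
  [SMulCommClass Γ R Ω] [CommRing H] [HopfAlgebra R H] [Coalgebra.IsCocomm R H] [Module.Free R H]
  [Module.Finite R H] (A : ValuationSubring Ω) [Algebra R A] [IsScalarTower R A Ω]

omit [IsDomain R] [IsPrincipalIdealRing R] [IsAlgClosed Ω] [CharZero Ω] [FaithfulSMul R Ω]
  [Coalgebra.IsCocomm R H] [Module.Free R H] [Module.Finite R H] in
theorem algebraMap_mem_valuationSubring (r : R) : algebraMap R Ω r ∈ A := by
  rw [IsScalarTower.algebraMap_apply R A Ω]
  exact (algebraMap R A r).2

/-- **(O2) Flat ⇒ peu ramifié**: the multiplier `σ ↦ j (σ • x₀ * x₀⁻¹)` of an extension of a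
constant group by the `Γ`-module `T ≅ μ` inside the points of a finite flat group scheme is the
multiplier of a UNIT of the valuation ring. -/
theorem exists_unit_radical (hF : FixedInFrac R Ω Γ)
    (hev : Function.Bijective (evPoints R H Ω))
    (T : Subgroup (WithConv (H →ₐ[R] Ω))) (hT : ∀ (σ : Γ), ∀ t ∈ T, σ • t ∈ T)
    (j : T →* Ωˣ)
    (hj : ∀ (σ : Γ) (t : T), ((j ⟨σ • t.1, hT σ t.1 t.2⟩ : Ωˣ) : Ω) = σ • ((j t : Ωˣ) : Ω))
    (x₀ : WithConv (H →ₐ[R] Ω)) (hx₀ : ∀ σ : Γ, σ • x₀ * x₀⁻¹ ∈ T) :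
    ∃ u : Ω, u ≠ 0 ∧ u ∈ A ∧ u⁻¹ ∈ A ∧
      ∀ σ : Γ, σ • u = ((j ⟨σ • x₀ * x₀⁻¹, hx₀ σ⟩ : Ωˣ) : Ω) * u := by
  classical
  haveI : Algebra.IsIntegral R H := Algebra.IsIntegral.of_finite R H
  haveI : Fintype T := Fintype.ofFinite T
  haveI : Nonempty T := ⟨1⟩
  -- the twisted action on `T`
  let act : Γ → T ≃ T := fun σ =>
    { toFun := fun t => ⟨(σ • x₀ * x₀⁻¹) * σ • t.1, T.mul_mem (hx₀ σ) (hT σ t.1 t.2)⟩
      invFun := fun t => ⟨σ⁻¹ • ((σ • x₀ * x₀⁻¹)⁻¹ * t.1),
        hT σ⁻¹ _ (T.mul_mem (T.inv_mem (hx₀ σ)) t.2)⟩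
      left_inv := fun t => by
        apply Subtype.ext
        change σ⁻¹ • ((σ • x₀ * x₀⁻¹)⁻¹ * ((σ • x₀ * x₀⁻¹) * σ • t.1)) = t.1
        rw [inv_mul_cancel_left, inv_smul_smul]
      right_inv := fun t => by
        apply Subtype.ext
        change (σ • x₀ * x₀⁻¹) * σ • (σ⁻¹ • ((σ • x₀ * x₀⁻¹)⁻¹ * t.1)) = t.1
        rw [smul_inv_smul, mul_inv_cancel_left] }
  have hact : ∀ (σ : Γ) (t : T), x₀ * (act σ t).1 = σ • (x₀ * t.1) := by
    intro σ t
    change x₀ * ((σ • x₀ * x₀⁻¹) * σ • t.1) = σ • (x₀ * t.1)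
    rw [smul_mul', mul_comm (σ • x₀) x₀⁻¹, mul_assoc, mul_inv_cancel_left]
  have hst : StableFam Γ (cosetFam T x₀) := by
    intro σ k
    refine ⟨act σ k, ?_⟩
    change (x₀ * (act σ k).1).ofConv = _
    rw [hact σ k]
    rfl
  obtain ⟨ι, hι, B, hB1, hB2⟩ := exists_coset_basis hF T x₀ hst
  have hRA : ∀ r : R, algebraMap R Ω r ∈ A := algebraMap_mem_valuationSubring A
  have hBA : ∀ i t, B i t ∈ A := by
    intro i t
    obtain ⟨h, hh⟩ := hB1 i
    rw [hh]
    exact pt_mem A (x₀ * t.1).ofConv h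
  have hstr : ∀ i j k, B.repr (B i * B j) k ∈ A := by
    intro i j k
    obtain ⟨h, hh⟩ := hB1 i
    obtain ⟨h', hh'⟩ := hB1 j
    have : B i * B j = fun t : T => (x₀ * t.1) (h * h') := by
      rw [hh, hh']
      funext t
      simp only [Pi.mul_apply, map_mul]
    rw [this]
    obtain ⟨r, hr⟩ := hB2 (h * h') k
    rw [← hr]
    exact hRA r
  have hBeq : ∀ i σ t, B i (act σ t) = σ • B i t := by
    intro i σ t
    obtain ⟨h, hh⟩ := hB1 i
    rw [hh]
    change (x₀ * (act σ t).1) h = σ • ((x₀ * t.1) h)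
    rw [hact σ t]
    rfl
  -- the character `φ` extending `j`
  haveI : NeZero (Monoid.exponent (WithConv (H →ₐ[R] Ω))) :=
    ⟨Monoid.exponent_ne_zero_of_finite (G := WithConv (H →ₐ[R] Ω))⟩
  obtain ⟨φ, hφ⟩ := MonoidHom.domRestrict_surjective (G := WithConv (H →ₐ[R] Ω)) (M := Ω) T j
  have hφT : ∀ t : T, φ t.1 = j t := by
    intro t
    have := congrArg (fun f => f t) hφ
    simpa using this
  obtain ⟨φ', hφ'⟩ := exists_cartierPairing_eq hev ((Units.coeHom Ω).comp φ)
  obtain ⟨φ'', hφ''⟩ := exists_cartierPairing_eq hev ((Units.coeHom Ω).comp φ⁻¹)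
  have hFφ : (fun x : WithConv (H →ₐ[R] Ω) => ((φ x : Ωˣ) : Ω)) ∈ intSpan H A := by
    have := cartierPairing_mem_intSpan A φ'
    have h2 : (fun x : WithConv (H →ₐ[R] Ω) => cartierPairing x φ') =
        fun x : WithConv (H →ₐ[R] Ω) => ((φ x : Ωˣ) : Ω) := by
      funext x
      rw [hφ' x]
      rfl
    rwa [h2] at this
  have hFψ : (fun x : WithConv (H →ₐ[R] Ω) => (((φ x)⁻¹ : Ωˣ) : Ω)) ∈ intSpan H A := by
    have := cartierPairing_mem_intSpan A φ''
    have h2 : (fun x : WithConv (H →ₐ[R] Ω) => cartierPairing x φ'') =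
        fun x : WithConv (H →ₐ[R] Ω) => (((φ x)⁻¹ : Ωˣ) : Ω) := by
      funext x
      rw [hφ'' x]
      rfl
    rwa [h2] at this
  -- restrictions to the coset have integral coordinates
  have hres : ∀ F ∈ intSpan H A, ∀ k, B.repr (fun t : T => F (x₀ * t.1)) k ∈ A := by
    intro F hF'
    induction hF' using Submodule.span_induction with
    | mem f hf =>
      obtain ⟨h, rfl⟩ := hf
      intro k
      obtain ⟨r, hr⟩ := hB2 h k
      rw [← hr]
      exact hRA r
    | zero =>
      intro k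
      have : (fun t : T => (0 : WithConv (H →ₐ[R] Ω) → Ω) (x₀ * t.1)) = 0 := rfl
      rw [this, map_zero, Finsupp.zero_apply]
      exact A.zero_mem
    | add f g _ _ hf hg =>
      intro k
      have : (fun t : T => (f + g) (x₀ * t.1)) =
          (fun t : T => f (x₀ * t.1)) + fun t : T => g (x₀ * t.1) := rfl
      rw [this, map_add, Finsupp.add_apply]
      exact A.add_mem _ _ (hf k) (hg k)
    | smul a f _ hf =>
      intro k
      have : (fun t : T => (a • f) (x₀ * t.1)) = (a : Ω) • fun t : T => f (x₀ * t.1) := rfl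
      rw [this, map_smul, Finsupp.smul_apply, smul_eq_mul]
      exact A.mul_mem _ _ a.2 (hf k)
  -- assemble
  set jf : T → Ω := fun t => ((j t : Ωˣ) : Ω) with hjf
  set c₀ : Ω := ((φ x₀ : Ωˣ) : Ω) with hc₀
  have hrel : c₀ • jf = fun t : T => ((φ (x₀ * t.1) : Ωˣ) : Ω) := by
    funext t
    rw [Pi.smul_apply, smul_eq_mul, map_mul, Units.val_mul, hφT t]
  have hjm : ∀ σ t, jf (act σ t) =
      ((j ⟨σ • x₀ * x₀⁻¹, hx₀ σ⟩ : Ωˣ) : Ω) * σ • jf t := by
    intro σ t
    have h1 : act σ t = ⟨σ • x₀ * x₀⁻¹, hx₀ σ⟩ * ⟨σ • t.1, hT σ t.1 t.2⟩ := rfl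
    rw [hjf]
    change ((j (act σ t) : Ωˣ) : Ω) = _
    rw [h1, map_mul, Units.val_mul, hj σ t]
  refine exists_unit_of_lattice A B act hBA hstr hBeq jf (fun t => Units.ne_zero _)
    (fun σ => ((j ⟨σ • x₀ * x₀⁻¹, hx₀ σ⟩ : Ωˣ) : Ω)) hjm c₀
    (apply_mem_of_mem_intSpan A hFφ x₀) ?_ (Units.ne_zero _)
    (fun t : T => (((φ (x₀ * t.1))⁻¹ : Ωˣ) : Ω)) ?_ ?_ ?_
  · have := apply_mem_of_mem_intSpan A hFψ x₀
    rwa [Units.val_inv_eq_inv_val] at this
  · rw [hrel]
    funext t
    have hne : ((φ (x₀ * t.1) : Ωˣ) : Ω) ≠ 0 := Units.ne_zero _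
    rw [Pi.mul_apply, Units.val_inv_eq_inv_val, mul_inv_cancel₀ hne]
    rfl
  · intro i
    rw [hrel]
    exact hres _ hFφ i
  · intro i
    exact hres _ hFψ i

end Main

end

end Fermat.Agent.TW.FLAT.PeuRamifie7
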