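/-
Programme T, chapter FLAT, file PeuLocal7 (helper7): **(O2), local module form — flat ⇒ peu ramifié.**

`M` a `Gq p`-module with a finite flat model over `ℤ_p`, `T ≤ M` a subgroup stable under `Iq p`,
`j : T → ℚ̄_pˣ` an `Iq p`-equivariant character (`j (act σ t) = σ (j t)`, e.g. `T ≅ μ_p ⊗ (…)`),
`m₀ ∈ M` with `act σ m₀ - m₀ ∈ T` for all `σ ∈ Iq p`.  Then the Kummer cocycle
`σ ↦ j (act σ m₀ - m₀)` of `Iq p` has a UNIT radical:

  **`exists_unit_kummer`** : `∃ u, ‖u‖ = 1 ∧ ∀ σ ∈ Iq p, σ u = j (act σ m₀ - m₀) * u`.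

(Instance of `PeuRamifie7.exists_unit_radical` over the base `UnrBase7.Our p`, `Γ = Iq p`.)
-/
import Mathlib
import Fermat.Agent.TW.FLAT.PeuRamifie7
import Fermat.Agent.TW.FLAT.UnrBase7

set_option autoImplicit false
set_option linter.style.haveILetI false

open WithConv

namespace Fermat.Agent.TW.FLAT.PeuLocal7

open Fermat.Agent.TW.FLAT.Points6 Fermat.Agent.TW.FLAT.FlatIntrinsic7
  Fermat.Agent.TW.FLAT.IntrinsicLocal7 Fermat.Agent.TW.FLAT.UnrBase7
  Fermat.Agent.TW.FLAT.PeuRamifie7 Fermat.Agent.TW.LOC.Defs2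

noncomputable section

attribute [local instance] Fermat.Agent.TW.FLAT.UnrBase7.algOurBall

variable {p : ℕ} [Fact p.Prime]

/-- **(O2) flat ⇒ peu ramifié**, module form. -/
theorem exists_unit_kummer {M : Type} [AddCommGroup M] {act : Gq p → M → M}
    (h : HasFlatModel ℤ_[p] (PadicAlgCl p) (Gq p) M act)
    (T : AddSubgroup M) (hT : ∀ σ ∈ Iq p, ∀ t ∈ T, act σ t ∈ T)
    (j : M → PadicAlgCl p) (hj1 : j 0 = 1) (hjmul : ∀ a ∈ T, ∀ b ∈ T, j (a + b) = j a * j b)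
    (hjeq : ∀ σ ∈ Iq p, ∀ t ∈ T, j (act σ t) = σ (j t))
    (m₀ : M) (hm₀ : ∀ σ ∈ Iq p, act σ m₀ - m₀ ∈ T) :
    ∃ u : PadicAlgCl p, ‖u‖ = 1 ∧ ∀ σ ∈ Iq p, σ u = j (act σ m₀ - m₀) * u := by
  obtain ⟨H, i1, i2, hco, hfin, hfree, hev, -, e, hmul, heq⟩ :=
    exists_good (fixedInFrac_Our p) (hasFlatModel_Our h)
  have he1 : e 1 = 0 := by
    have := hmul 1 1
    rw [mul_one] at this
    exact left_eq_add.mp this
  have heinv : ∀ f : WithConv (H →ₐ[Our p] PadicAlgCl p), e f⁻¹ = - e f := by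
    intro f
    have := hmul f f⁻¹
    rw [mul_inv_cancel, he1] at this
    exact (neg_eq_of_add_eq_zero_right this.symm).symm
  -- the subgroup of `G(Ω)` corresponding to `T`
  let TG : Subgroup (WithConv (H →ₐ[Our p] PadicAlgCl p)) :=
    { carrier := {x | e x ∈ T}
      mul_mem' := fun {a b} ha hb => by
        change e (a * b) ∈ T
        rw [hmul]
        exact T.add_mem ha hb
      one_mem' := by
        change e 1 ∈ T
        rw [he1]
        exact T.zero_mem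
      inv_mem' := fun {a} ha => by
        change e a⁻¹ ∈ T
        rw [heinv]
        exact T.neg_mem ha }
  have hTG : ∀ (σ : Iq p), ∀ t ∈ TG, σ • t ∈ TG := by
    intro σ t ht
    change e (σ • t) ∈ T
    rw [heq]
    exact hT σ.1 σ.2 _ ht
  have hj0 : ∀ t ∈ T, j t ≠ 0 := by
    intro t ht h0
    have := hjmul t ht (-t) (T.neg_mem ht)
    rw [add_neg_cancel, hj1, h0, zero_mul] at this
    exact one_ne_zero this
  let jG : TG →* (PadicAlgCl p)ˣ :=
    { toFun := fun x => Units.mk0 (j (e x.1)) (hj0 _ x.2)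
      map_one' := by
        apply Units.ext
        change j (e 1) = 1
        rw [he1, hj1]
      map_mul' := fun x y => by
        apply Units.ext
        change j (e (x.1 * y.1)) = j (e x.1) * j (e y.1)
        rw [hmul, hjmul _ x.2 _ y.2] }
  have hjG : ∀ (σ : Iq p) (t : TG),
      ((jG ⟨σ • t.1, hTG σ t.1 t.2⟩ : (PadicAlgCl p)ˣ) : PadicAlgCl p) =
        σ • ((jG t : (PadicAlgCl p)ˣ) : PadicAlgCl p) := by
    intro σ t
    change j (e (σ • t.1)) = σ.1 (j (e t.1))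
    rw [heq, hjeq σ.1 σ.2 _ t.2]
  set x₀ := e.symm m₀ with hx₀def
  have hx₀ : ∀ σ : Iq p, σ • x₀ * x₀⁻¹ ∈ TG := by
    intro σ
    change e (σ • x₀ * x₀⁻¹) ∈ T
    rw [hmul, heinv, heq, hx₀def, e.apply_symm_apply, ← sub_eq_add_neg]
    exact hm₀ σ.1 σ.2
  obtain ⟨u, hu0, huA, huA', huσ⟩ := exists_unit_radical (unitBall p) (fixedInFrac_Our p) hev TG hTG
    jG hjG x₀ hx₀
  refine ⟨u, ?_, fun σ hσ => ?_⟩
  · have h1 : ‖u‖ ≤ 1 := huA
    have h2 : ‖u⁻¹‖ ≤ 1 := huA'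
    rw [norm_inv] at h2
    have h3 : 0 < ‖u‖ := norm_pos_iff.2 hu0
    have h4 : 1 ≤ ‖u‖ := by
      rwa [inv_le_one_iff₀, or_iff_right (not_le.2 h3)] at h2
    exact le_antisymm h1 h4
  · have h1 := huσ ⟨σ, hσ⟩
    change σ u = j (e (_ • x₀ * x₀⁻¹)) * u at h1
    rw [h1, hmul, heinv, heq, hx₀def, e.apply_symm_apply, ← sub_eq_add_neg]

end

end Fermat.Agent.TW.FLAT.PeuLocal7
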