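/-
Programme T, chapter FLAT, file Ordinary7 (helper7): **(O1) — a flat module all of whose inertia
constituents are `1` or `ω` is ordinary** (`p` odd).

Setting: `M` a finite abelian group killed by `p` with an action `act : Gq p → M → M` having a finite
flat model over `ℤ_p` (`HasFlatModel ℤ_[p] (PadicAlgCl p) (Gq p) M act`), `I = Iq p`.

* `IsCycExp n σ c` : `σ ζ = ζ ^ c` for all `n`-th roots of unity `ζ ∈ ℚ̄_p`; `exists_isCycExp`;
  `isCycExp_conj`.
* consequences of a model: `act_mul`, `act_one`, `act_neg`, `act_sub`, `act_nsmul`, `finite_of_model`.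
* `cycSub h n : AddSubgroup M` (`M^{I = ω}`), `augI_le`-type lemmas, stability under `Gq p`.
* **`inf_augI_le_step_triv`**, **`inf_augI_le_step_cyc`** : if `N ⊓ aug_I M ≤ M^{I=ω}` and `Iq p` acts on
  `N'/N` trivially (resp. through the cyclotomic character), then `N' ⊓ aug_I M ≤ M^{I=ω}`.
* **`augI_le_cycSub_of_chain4`** : for a chain `0 ≤ N₁ ≤ N₂ ≤ N₃ ≤ M` with inertia acting by
  `ω, 1, ω, 1` on the successive quotients (the shape of a `k[ε]`-deformation of an ordinary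
  `ρ̄`), `aug_I M ≤ M^{I=ω}`: inertia acts through `ω` on `aug_I M` (and trivially on `M / aug_I M`).
-/
import Mathlib
import Fermat.Agent.TW.FLAT.FlatIntrinsic7
import Fermat.Agent.TW.FLAT.SubQuot6

set_option autoImplicit false
set_option linter.style.haveILetI false

open WithConv

namespace Fermat.Agent.TW.FLAT.Ordinary7

open Fermat.Agent.TW.FLAT.Points6 Fermat.Agent.TW.FLAT.FlatIntrinsic7
  Fermat.Agent.TW.FLAT.LocalPoints6 Fermat.Agent.TW.LOC.Defs2

noncomputable section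

variable {p : ℕ} [Fact p.Prime]

/-- `c` is a cyclotomic exponent of `σ` modulo `n`: `σ ζ = ζ ^ c` on the `n`-th roots of unity. -/
def IsCycExp (n : ℕ) (σ : Gq p) (c : ℕ) : Prop :=
  ∀ ζ : PadicAlgCl p, ζ ^ n = 1 → σ ζ = ζ ^ c

theorem exists_isCycExp (n : ℕ) [NeZero n] (σ : Gq p) : ∃ c : ℕ, IsCycExp n σ c := by
  obtain ⟨m, hm⟩ := rootsOfUnity.integer_power_of_ringEquiv (L := PadicAlgCl p) n
    (σ : PadicAlgCl p ≃+* PadicAlgCl p)
  refine ⟨(m % (n : ℤ)).toNat, fun ζ hζ => ?_⟩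
  have hn0 : (n : ℤ) ≠ 0 := by exact_mod_cast NeZero.ne n
  have hnn : 0 ≤ m % (n : ℤ) := Int.emod_nonneg m hn0
  have hζu : IsUnit ζ := IsUnit.of_pow_eq_one hζ (NeZero.ne n)
  obtain ⟨u, rfl⟩ := hζu
  have hu : u ∈ rootsOfUnity n (PadicAlgCl p) := by
    rw [mem_rootsOfUnity]
    exact Units.ext (by simpa using hζ)
  have h1 := hm ⟨u, hu⟩
  have h2 : (σ : PadicAlgCl p ≃+* PadicAlgCl p) (u : PadicAlgCl p) = σ (u : PadicAlgCl p) := rfl
  rw [h2] at h1
  rw [h1]
  have hun : u ^ (n : ℤ) = 1 := by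
    rw [zpow_natCast]
    exact hu
  have h3 : u ^ m = u ^ (m % (n : ℤ)) := by
    conv_lhs => rw [← Int.emod_add_mul_ediv m n, zpow_add, zpow_mul, hun, one_zpow, mul_one]
  have h4 : u ^ (m % (n : ℤ)) = u ^ ((m % (n : ℤ)).toNat) := by
    conv_lhs => rw [← Int.toNat_of_nonneg hnn]
    rw [zpow_natCast]
  change ((u ^ m : (PadicAlgCl p)ˣ) : PadicAlgCl p) = _
  rw [h3, h4, Units.val_pow_eq_pow_val]

theorem isCycExp_conj {n : ℕ} {σ : Gq p} {c : ℕ} (h : IsCycExp n σ c) (g : Gq p) :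
    IsCycExp n (g⁻¹ * σ * g) c := by
  intro ζ hζ
  have h1 : (g ζ) ^ n = 1 := by rw [← map_pow, hζ, map_one]
  change g⁻¹ (σ (g ζ)) = ζ ^ c
  rw [h (g ζ) h1, ← map_pow]
  change g.symm (g (ζ ^ c)) = ζ ^ c
  exact g.symm_apply_apply _

variable {M : Type} [AddCommGroup M] {act : Gq p → M → M}

section ActLemmas

theorem act_mul (h : HasFlatModel ℤ_[p] (PadicAlgCl p) (Gq p) M act) (σ τ : Gq p) (m : M) :
    act (σ * τ) m = act σ (act τ m) := by
  obtain ⟨H, i1, i2, -, -, -, e, hmul, heq⟩ := h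
  obtain ⟨f, rfl⟩ := e.surjective m
  rw [← heq, ← heq, ← heq, mul_smul]

theorem act_one (h : HasFlatModel ℤ_[p] (PadicAlgCl p) (Gq p) M act) (m : M) :
    act 1 m = m := by
  obtain ⟨H, i1, i2, -, -, -, e, hmul, heq⟩ := h
  obtain ⟨f, rfl⟩ := e.surjective m
  rw [← heq, one_smul]

theorem act_neg (h : HasFlatModel ℤ_[p] (PadicAlgCl p) (Gq p) M act) (σ : Gq p) (m : M) :
    act σ (-m) = - act σ m := by
  have h1 := act_add h σ m (-m)
  rw [add_neg_cancel, act_zero h] at h1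
  exact (neg_eq_of_add_eq_zero_right h1.symm).symm

theorem act_sub (h : HasFlatModel ℤ_[p] (PadicAlgCl p) (Gq p) M act) (σ : Gq p) (a b : M) :
    act σ (a - b) = act σ a - act σ b := by
  rw [sub_eq_add_neg, act_add h, act_neg h, ← sub_eq_add_neg]

theorem act_nsmul (h : HasFlatModel ℤ_[p] (PadicAlgCl p) (Gq p) M act) (σ : Gq p) (c : ℕ)
    (m : M) : act σ (c • m) = c • act σ m := by
  induction c with
  | zero => rw [zero_smul, zero_smul, act_zero h]
  | succ c ih => rw [succ_nsmul, succ_nsmul, act_add h, ih]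

theorem act_inv_act (h : HasFlatModel ℤ_[p] (PadicAlgCl p) (Gq p) M act) (σ : Gq p) (m : M) :
    act σ⁻¹ (act σ m) = m := by
  rw [← act_mul h, inv_mul_cancel, act_one h]

theorem act_act_inv (h : HasFlatModel ℤ_[p] (PadicAlgCl p) (Gq p) M act) (σ : Gq p) (m : M) :
    act σ (act σ⁻¹ m) = m := by
  rw [← act_mul h, mul_inv_cancel, act_one h]

theorem finite_of_model (h : HasFlatModel ℤ_[p] (PadicAlgCl p) (Gq p) M act) : Finite M := by
  obtain ⟨H, i1, i2, hfin, -, -, e, -, -⟩ := h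
  exact Finite.of_equiv _ e

/-- The action as an additive endomorphism. -/
def actHom (h : HasFlatModel ℤ_[p] (PadicAlgCl p) (Gq p) M act) (σ : Gq p) : M →+ M where
  toFun := act σ
  map_zero' := act_zero h σ
  map_add' := act_add h σ

@[simp] theorem actHom_apply (h : HasFlatModel ℤ_[p] (PadicAlgCl p) (Gq p) M act) (σ : Gq p)
    (m : M) : actHom h σ m = act σ m := rfl

end ActLemmas

section Subgroups

variable (h : HasFlatModel ℤ_[p] (PadicAlgCl p) (Gq p) M act)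

/-- `M^{I = ω}` as a subgroup. -/
def cycSub (n : ℕ) : AddSubgroup M where
  carrier := {m | IsCyc act n m}
  zero_mem' := fun σ _ c _ => by rw [act_zero h, smul_zero]
  add_mem' := fun {a b} ha hb σ hσ c hc => by
    rw [act_add h, ha σ hσ c hc, hb σ hσ c hc, smul_add]
  neg_mem' := fun {a} ha σ hσ c hc => by
    rw [act_neg h, ha σ hσ c hc, smul_neg]

theorem mem_cycSub_iff {n : ℕ} {m : M} :
    m ∈ cycSub h n ↔ ∀ σ ∈ Iq p, ∀ c : ℕ, IsCycExp n σ c → act σ m = c • m := Iff.rfl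

/-- `M^{I=ω}` is stable under `Gq p`. -/
theorem act_mem_cycSub {n : ℕ} (g : Gq p) {m : M} (hm : m ∈ cycSub h n) :
    act g m ∈ cycSub h n := by
  intro σ hσ c hc
  have h1 : g⁻¹ * σ * g ∈ Iq p := by
    have := (Iq_normal p).conj_mem σ hσ g⁻¹
    rwa [inv_inv] at this
  have h2 := hm (g⁻¹ * σ * g) h1 c (isCycExp_conj hc g)
  have h3 : act σ (act g m) = act g (act (g⁻¹ * σ * g) m) := by
    rw [← act_mul h, ← act_mul h]
    congr 1
    group
  rw [h3, h2, act_nsmul h]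

include h in
/-- `aug_I M` is stable under `Gq p`. -/
theorem act_mem_augI (g : Gq p) {m : M} (hm : m ∈ augI act) : act g m ∈ augI act := by
  induction hm using AddSubgroup.closure_induction with
  | mem x hx =>
    obtain ⟨σ, hσ, y, rfl⟩ := hx
    apply AddSubgroup.subset_closure
    refine ⟨g * σ * g⁻¹, (Iq_normal p).conj_mem σ hσ g, act g y, ?_⟩
    rw [act_sub h, ← act_mul h, ← act_mul h]
    congr 2
    group
  | zero =>
    rw [act_zero h]
    exact AddSubgroup.zero_mem _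
  | add x y _ _ hx hy =>
    rw [act_add h]
    exact AddSubgroup.add_mem _ hx hy
  | neg x _ hx =>
    rw [act_neg h]
    exact AddSubgroup.neg_mem _ hx

theorem act_sub_mem_augI {σ : Gq p} (hσ : σ ∈ Iq p) (m : M) : act σ m - m ∈ augI act :=
  AddSubgroup.subset_closure ⟨σ, hσ, m, rfl⟩

end Subgroups

section Steps

variable (h : HasFlatModel ℤ_[p] (PadicAlgCl p) (Gq p) M act)

/-- The action induced on `M / M^{I=ω}`. -/
def quotAct (n : ℕ) (σ : Gq p) : M ⧸ cycSub h n → M ⧸ cycSub h n :=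
  QuotientAddGroup.map (cycSub h n) (cycSub h n) (actHom h σ)
    (fun _ hm => act_mem_cycSub h σ hm)

theorem hasFlatModel_quot (n : ℕ) :
    HasFlatModel ℤ_[p] (PadicAlgCl p) (Gq p) (M ⧸ cycSub h n) (quotAct h n) :=
  h.of_surjective (fixedInFrac_padicInt p) (QuotientAddGroup.mk' (cycSub h n))
    (QuotientAddGroup.mk'_surjective _) (fun _ _ => rfl)

/-- **Step (trivial character).** -/
theorem inf_augI_le_step_triv (hp2 : p ≠ 2) (n : ℕ) {N N' : AddSubgroup M}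
    (hN : N ⊓ augI act ≤ cycSub h n)
    (hNN' : ∀ σ ∈ Iq p, ∀ m ∈ N', act σ m - m ∈ N) : N' ⊓ augI act ≤ cycSub h n := by
  rintro x ⟨hxN', hxX⟩
  have hq := hasFlatModel_quot h n
  -- the image of `x` lies in `aug_I (M / T)`
  have h1 : (QuotientAddGroup.mk' (cycSub h n)) x ∈ augI (quotAct h n) := by
    have hle : (augI act).map (QuotientAddGroup.mk' (cycSub h n)) ≤ augI (quotAct h n) := by
      rw [augI, AddMonoidHom.map_closure, AddSubgroup.closure_le]
      rintro _ ⟨m, ⟨σ, hσ, y, rfl⟩, rfl⟩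
      apply AddSubgroup.subset_closure
      exact ⟨σ, hσ, QuotientAddGroup.mk' (cycSub h n) y, by rw [map_sub]; rfl⟩
    exact hle ⟨x, hxX, rfl⟩
  -- and is fixed by inertia
  have h2 : ∀ τ ∈ Iq p, quotAct h n τ (QuotientAddGroup.mk' (cycSub h n) x) =
      QuotientAddGroup.mk' (cycSub h n) x := by
    intro τ hτ
    have h3 : act τ x - x ∈ cycSub h n :=
      hN ⟨hNN' τ hτ x hxN', act_sub_mem_augI hτ x⟩
    have h4 : quotAct h n τ (QuotientAddGroup.mk' (cycSub h n) x) =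
        QuotientAddGroup.mk' (cycSub h n) (act τ x) := rfl
    rw [h4, ← sub_eq_zero, ← map_sub]
    exact (QuotientAddGroup.eq_zero_iff _).2 h3
  have h5 := eq_zero_of_mem_augI_of_fixed hp2 hq h1 h2
  exact (QuotientAddGroup.eq_zero_iff x).1 h5

/-- The subgroup of elements on which inertia acts through the cyclotomic character modulo
`M^{I=ω}`. -/
def cycSub2 (n : ℕ) : AddSubgroup M where
  carrier := {v | ∀ σ ∈ Iq p, ∀ c : ℕ, IsCycExp n σ c → act σ v - c • v ∈ cycSub h n}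
  zero_mem' := fun σ _ c _ => by
    rw [act_zero h, smul_zero, sub_zero]
    exact AddSubgroup.zero_mem _
  add_mem' := fun {a b} ha hb σ hσ c hc => by
    have : act σ (a + b) - c • (a + b) = (act σ a - c • a) + (act σ b - c • b) := by
      rw [act_add h, smul_add]; abel
    rw [this]
    exact AddSubgroup.add_mem _ (ha σ hσ c hc) (hb σ hσ c hc)
  neg_mem' := fun {a} ha σ hσ c hc => by
    have : act σ (-a) - c • (-a) = -(act σ a - c • a) := by
      rw [act_neg h, smul_neg]; abel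
    rw [this]
    exact AddSubgroup.neg_mem _ (ha σ hσ c hc)

theorem cycSub_le_cycSub2 (n : ℕ) : cycSub h n ≤ cycSub2 h n := by
  intro m hm σ hσ c hc
  rw [hm σ hσ c hc, sub_self]
  exact AddSubgroup.zero_mem _

theorem act_mem_cycSub2 {n : ℕ} (g : Gq p) {m : M} (hm : m ∈ cycSub2 h n) :
    act g m ∈ cycSub2 h n := by
  intro σ hσ c hc
  have h1 : g⁻¹ * σ * g ∈ Iq p := by
    have := (Iq_normal p).conj_mem σ hσ g⁻¹
    rwa [inv_inv] at this
  have h2 := hm (g⁻¹ * σ * g) h1 c (isCycExp_conj hc g)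
  have h3 : act σ (act g m) = act g (act (g⁻¹ * σ * g) m) := by
    rw [← act_mul h, ← act_mul h]
    congr 1
    group
  have h4 : act σ (act g m) - c • act g m = act g (act (g⁻¹ * σ * g) m - c • m) := by
    rw [h3, act_sub h, act_nsmul h]
  rw [h4]
  exact act_mem_cycSub h g h2

/-- **Step (cyclotomic character).** -/
theorem inf_augI_le_step_cyc (hp2 : p ≠ 2) (n : ℕ) [NeZero n] (hn : ∀ m : M, n • m = 0)
    {N N' : AddSubgroup M} (hN : N ⊓ augI act ≤ cycSub h n)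
    (hNN' : ∀ σ ∈ Iq p, ∀ c : ℕ, IsCycExp n σ c → ∀ m ∈ N', act σ m - c • m ∈ N) :
    N' ⊓ augI act ≤ cycSub h n := by
  classical
  rintro x ⟨hxN', hxX⟩
  set T := cycSub h n with hT
  set W := cycSub2 h n with hW
  have hxW : x ∈ W := by
    intro σ hσ c hc
    refine hN ⟨hNN' σ hσ c hc x hxN', ?_⟩
    exact AddSubgroup.sub_mem _ (act_mem_augI h σ hxX) (AddSubgroup.nsmul_mem _ hxX c)
  by_contra hxT
  have hWst : ∀ (σ : Gq p), ∀ m ∈ W, act σ m ∈ W := fun σ m hm => act_mem_cycSub2 h σ hm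
  have hWflat := h.subgroup (fixedInFrac_padicInt p) W hWst
  haveI : Finite M := finite_of_model h
  -- the quotient `W / T`
  let T' : AddSubgroup W := T.addSubgroupOf W
  let Q := W ⧸ T'
  let q : W →+ Q := QuotientAddGroup.mk' T'
  have hq0 : ∀ w : W, q w = 0 ↔ (w : M) ∈ T := fun w =>
    (QuotientAddGroup.eq_zero_iff w).trans AddSubgroup.mem_addSubgroupOf
  have hxq : q ⟨x, hxW⟩ ≠ 0 := fun h0 => hxT ((hq0 _).1 h0)
  haveI : NeZero (Monoid.exponent (Multiplicative Q)) :=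
    ⟨Monoid.exponent_ne_zero_of_finite (G := Multiplicative Q)⟩
  have hne : Multiplicative.ofAdd (q ⟨x, hxW⟩) ≠ 1 := fun h0 => hxq (by simpa using h0)
  obtain ⟨φ₀, hφ₀⟩ := CommGroup.exists_apply_ne_one_of_hasEnoughRootsOfUnity
    (Multiplicative Q) (PadicAlgCl p) hne
  let φ : W → PadicAlgCl p := fun w => ((φ₀ (Multiplicative.ofAdd (q w)) : (PadicAlgCl p)ˣ) : PadicAlgCl p)
  have hφn : ∀ w : W, φ w ^ n = 1 := by
    intro w
    have h1 : (φ₀ (Multiplicative.ofAdd (q w))) ^ n = 1 := by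
      rw [← map_pow, ← ofAdd_nsmul, ← map_nsmul]
      have : n • w = 0 := Subtype.ext (by simpa using hn (w : M))
      rw [this, map_zero, ofAdd_zero, map_one]
    change ((φ₀ (Multiplicative.ofAdd (q w)) : (PadicAlgCl p)ˣ) : PadicAlgCl p) ^ n = 1
    rw [← Units.val_pow_eq_pow_val, h1, Units.val_one]
  have key := char_eq_one_of_fixed hp2 hWflat n
    (fun w => Subtype.ext (by simpa using hn (w : M))) φ
    (fun a b => by
      change ((φ₀ (Multiplicative.ofAdd (q (a + b))) : (PadicAlgCl p)ˣ) : PadicAlgCl p) = _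
      rw [map_add, ofAdd_add, map_mul, Units.val_mul])
    (fun τ hτ w => by
      obtain ⟨c, hc⟩ := exists_isCycExp n τ
      have h1 : q ⟨act τ w.1, hWst τ w.1 w.2⟩ = c • q w := by
        rw [← map_nsmul, ← sub_eq_zero, ← map_sub, hq0]
        exact w.2 τ hτ c hc
      change ((φ₀ (Multiplicative.ofAdd (q ⟨act τ w.1, hWst τ w.1 w.2⟩)) : (PadicAlgCl p)ˣ) :
        PadicAlgCl p) = τ (φ w)
      rw [h1, ofAdd_nsmul, map_pow, Units.val_pow_eq_pow_val, hc (φ w) (hφn w)])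
    (fun w hw => by
      have h1 : (w : M) ∈ T := by
        intro σ hσ c hc
        have := hw σ hσ c hc
        have h2 := congrArg Subtype.val this
        simpa using h2
      change ((φ₀ (Multiplicative.ofAdd (q w)) : (PadicAlgCl p)ˣ) : PadicAlgCl p) = 1
      rw [(hq0 w).2 h1, ofAdd_zero, map_one, Units.val_one])
    ⟨x, hxW⟩
  apply hφ₀
  apply Units.ext
  exact key

end Steps

section Chain

variable (h : HasFlatModel ℤ_[p] (PadicAlgCl p) (Gq p) M act)

/-- **(O1)**: for a chain `0 ≤ N₁ ≤ N₂ ≤ N₃ ≤ M` on whose successive quotients inertia acts by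
`ω, 1, ω, 1`, inertia acts on `aug_I M` through the cyclotomic character: `aug_I M ≤ M^{I=ω}`. -/
theorem augI_le_cycSub_of_chain4 (hp2 : p ≠ 2) (n : ℕ) [NeZero n] (hn : ∀ m : M, n • m = 0)
    (N₁ N₂ N₃ : AddSubgroup M)
    (h1 : ∀ σ ∈ Iq p, ∀ c : ℕ, IsCycExp n σ c → ∀ m ∈ N₁, act σ m = c • m)
    (h2 : ∀ σ ∈ Iq p, ∀ m ∈ N₂, act σ m - m ∈ N₁)
    (h3 : ∀ σ ∈ Iq p, ∀ c : ℕ, IsCycExp n σ c → ∀ m ∈ N₃, act σ m - c • m ∈ N₂)
    (h4 : ∀ σ ∈ Iq p, ∀ m : M, act σ m - m ∈ N₃) : augI act ≤ cycSub h n := by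
  have s0 : (⊥ : AddSubgroup M) ⊓ augI act ≤ cycSub h n := by
    rintro x ⟨hx, -⟩
    have hx0 : x = 0 := (AddSubgroup.mem_bot (G := M)).1 hx
    rw [hx0]
    exact AddSubgroup.zero_mem _
  have s1 : N₁ ⊓ augI act ≤ cycSub h n :=
    inf_augI_le_step_cyc h hp2 n hn s0 (fun σ hσ c hc m hm => by
      rw [h1 σ hσ c hc m hm, sub_self]
      exact AddSubgroup.zero_mem _)
  have s2 : N₂ ⊓ augI act ≤ cycSub h n := inf_augI_le_step_triv h hp2 n s1 h2
  have s3 : N₃ ⊓ augI act ≤ cycSub h n := inf_augI_le_step_cyc h hp2 n hn s2 h3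
  have s4 : (⊤ : AddSubgroup M) ⊓ augI act ≤ cycSub h n :=
    inf_augI_le_step_triv h hp2 n s3 (fun σ hσ m _ => h4 σ hσ m)
  intro x hx
  exact s4 ⟨AddSubgroup.mem_top x, hx⟩

include h in
/-- Reformulation: inertia acts through `ω` on every `σ y - y`. -/
theorem act_act_sub_of_chain4 (hp2 : p ≠ 2) (n : ℕ) [NeZero n] (hn : ∀ m : M, n • m = 0)
    (N₁ N₂ N₃ : AddSubgroup M)
    (h1 : ∀ σ ∈ Iq p, ∀ c : ℕ, IsCycExp n σ c → ∀ m ∈ N₁, act σ m = c • m)
    (h2 : ∀ σ ∈ Iq p, ∀ m ∈ N₂, act σ m - m ∈ N₁)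
    (h3 : ∀ σ ∈ Iq p, ∀ c : ℕ, IsCycExp n σ c → ∀ m ∈ N₃, act σ m - c • m ∈ N₂)
    (h4 : ∀ σ ∈ Iq p, ∀ m : M, act σ m - m ∈ N₃)
    {σ τ : Gq p} (hσ : σ ∈ Iq p) (hτ : τ ∈ Iq p) {c : ℕ} (hc : IsCycExp n σ c) (y : M) :
    act σ (act τ y - y) = c • (act τ y - y) :=
  augI_le_cycSub_of_chain4 h hp2 n hn N₁ N₂ N₃ h1 h2 h3 h4 (act_sub_mem_augI hτ y) σ hσ c hc

end Chain

end

end Fermat.Agent.TW.FLAT.Ordinary7
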