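/-
Programme T (S56), chapter T/FLAT, local-local chain, **tame-structure part of (S-STRUCT)** (helper4;
consumer: helper2's construction of `LLPackage3.LLStruct`, fields `hunit` (S1), `hord` (S3), `hcyc` (S5)).
`Ω = PadicAlgCl p`, `L : IntermediateField ℚ_[p] Ω` finite Galois, `Gq p`, `Iq p`, `rq p` (`TW/LOC/Defs2`),
`thetaL`, `resL` (`TW/LOC/TameProfinite4`), `theta0`, `inertia` (`TW/LOC/TameInertia4`).

Matrix algebra (Mathlib only, `k` a field of odd characteristic `p`):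
* `mul_add_mul_of_trace_zero`, `mul_self_of_trace_zero` (traceless `2 × 2` identities);
* `eq_one_of_commute_of_pow_eq_one`: `U A = A U`, `U ^ p = 1`, `tr(A)² - 4 det(A) ≠ 0` ⇒ `U = 1`;
* `not_dvd_orderOf_of_sq_commute`: `B` of finite order, `B² A = A B²`, `disc A ≠ 0` ⇒ `p ∤ orderOf B`.
Tame structure:
* `ramIdx_eq_of_snorm p L πu hπ e he : ramIdx p ℚ_[p] L = e` from `snorm p = snorm πu ^ e`;
* `theta0_injective`, `orderOf_thetaL` (tame case `(ramIdx p ℚ_[p] L).Coprime p`);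
* `exists_tame_generator` **(S3)**: `∃ g₀ ∈ Iq p, orderOf (thetaL p L ⟨g₀, _⟩) = ramIdx p ℚ_[p] L`;
* `resL_mem_powers`, `map_eq_of_resL_eq`, `map_mem_powers` **(S5)**: `∀ σ ∈ Iq p, ∃ j, ρ σ = ρ g₀ ^ j`;
* `resL_conj_frob` (tame relation `φ g φ⁻¹ ≡ g ^ p` on `L`);
* `index_fixingSubgroup`, `not_dvd_card_of_frob`, `isUnit_index` **(S1)**, `disc_ne_zero`,
  `pow_ne_self_of_orderOf`.
In the vocabulary of `LLStruct` (`rbar : GQ →* M2 k` unfolded to Mathlib types):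
* `exists_g0_of_LL L πu hπ he : ∃ g₀ hg₀, orderOf (thetaL p L ⟨g₀, hg₀⟩) = p ^ 2 - 1`;
* `hcyc_of_LL L rbar htriv πu hπ he g₀ hg₀ hord : ∀ σ ∈ Iq p, ∃ j : ℕ, rbar (rq p σ) = rbar (rq p g₀) ^ j`;
* `isUnit_index_of_LL L hp2 rbar ω g₀ hg₀ a₀ b₀ πu φr htriv hfaith htr hdet hπ he hord hφa hφb :
  IsUnit ((L.fixingSubgroup.index : ℕ) : k)`, where
  `hfaith : ∀ g, rbar (rq p g) = 1 → ω g = 1 → g ∈ L.fixingSubgroup` (`L` is cut out by `ρ̄ × ω`).
The cut-out field: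
* `exists_cutout ρ ω hρ hω : ∃ L, FiniteDimensional ℚ_[p] L ∧ IsGalois ℚ_[p] L ∧
    ∀ g, g ∈ L.fixingSubgroup ↔ (ρ g = 1 ∧ ω g = 1)`;  `zeta_mem_of_le_ker` (`ζ ∈ L`).
-/
import Mathlib
import Fermat.Agent.TW.LOC.UnramGq4
import Fermat.Agent.TW.LOC.UnramFixed4

set_option autoImplicit false
set_option linter.unusedSectionVars false

open Fermat.Agent.PT.LOC.Interface12 Fermat.Agent.PT.LOC.Structure14
  Fermat.Agent.PT.LOC.StructureNorm14 Fermat.Agent.PT.LOC.StructureTowerEF27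
  Fermat.Agent.PT.LOC.Unram11
open Fermat.Agent.TW.LOC.Defs2 Fermat.Agent.TW.LOC.TameInertia4 Fermat.Agent.TW.LOC.TameProfinite4
  Fermat.Agent.TW.LOC.UnramGq4 Fermat.Agent.TW.LOC.UnramFixed4

namespace Fermat.Agent.TW.FLAT.TameStruct4

section Mat

variable {k : Type*} [Field k]

/-- `XY + YX = tr(XY)` for traceless `2 × 2` matrices. -/
theorem mul_add_mul_of_trace_zero (X Y : Matrix (Fin 2) (Fin 2) k) (hX : X.trace = 0)
    (hY : Y.trace = 0) : X * Y + Y * X = (X * Y).trace • (1 : Matrix (Fin 2) (Fin 2) k) := by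
  rw [Matrix.trace_fin_two] at hX hY
  have hX' : X 1 1 = - X 0 0 := by linear_combination hX
  have hY' : Y 1 1 = - Y 0 0 := by linear_combination hY
  ext i j
  fin_cases i <;> fin_cases j <;>
    simp [Matrix.mul_apply, Fin.sum_univ_two, Matrix.trace_fin_two, hX', hY'] <;> ring

/-- Cayley–Hamilton for traceless `2 × 2` matrices. -/
theorem mul_self_of_trace_zero (X : Matrix (Fin 2) (Fin 2) k) (hX : X.trace = 0) :
    X * X = (-X.det) • (1 : Matrix (Fin 2) (Fin 2) k) := by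
  rw [Matrix.trace_fin_two] at hX
  have hX' : X 1 1 = - X 0 0 := by linear_combination hX
  ext i j
  fin_cases i <;> fin_cases j <;>
    simp [Matrix.mul_apply, Fin.sum_univ_two, Matrix.det_fin_two, hX'] <;> ring

variable (p : ℕ) [Fact p.Prime] [CharP k p]

theorem two_ne_zero_of_charP (hp2 : p ≠ 2) : (2 : k) ≠ 0 := by
  intro h
  have h1 : ((2 : ℕ) : k) = 0 := by exact_mod_cast h
  rw [CharP.cast_eq_zero_iff k p 2] at h1
  exact hp2 ((Nat.prime_dvd_prime_iff_eq (Fact.out : p.Prime) Nat.prime_two).1 h1)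

/-- **Matrix lemma.**  In odd characteristic `p`, an element of order dividing `p` of `M₂(k)`
commuting with a matrix of non-zero discriminant is `1`. -/
theorem eq_one_of_commute_of_pow_eq_one (hp2 : p ≠ 2) (A U : Matrix (Fin 2) (Fin 2) k)
    (hcomm : U * A = A * U) (hU : U ^ p = 1) (hdisc : A.trace ^ 2 - 4 * A.det ≠ 0) : U = 1 := by
  have h2 : (2 : k) ≠ 0 := two_ne_zero_of_charP p hp2
  set N : Matrix (Fin 2) (Fin 2) k := U - 1 with hN
  have hNp : N ^ p = 0 := by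
    rw [hN, sub_pow_char_of_commute p (Commute.one_right U), hU, one_pow, sub_self]
  have hNnil : IsNilpotent N := ⟨p, hNp⟩
  have hNtr : N.trace = 0 := (Matrix.isNilpotent_trace_of_isNilpotent hNnil).eq_zero
  set D : Matrix (Fin 2) (Fin 2) k := A - (A.trace / 2) • (1 : Matrix (Fin 2) (Fin 2) k) with hD
  have hDtr : D.trace = 0 := by
    rw [hD, Matrix.trace_sub, Matrix.trace_smul, Matrix.trace_one, Fintype.card_fin]
    simp only [smul_eq_mul, Nat.cast_ofNat]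
    field_simp
    ring
  have hND : Commute N D := by
    have h1 : Commute U A := hcomm
    have h3 : Commute N A := (h1.sub_left (Commute.one_left A))
    exact h3.sub_right (Commute.smul_right (Commute.one_right N) _)
  have hNDnil : IsNilpotent (N * D) := hND.isNilpotent_mul_right hNnil
  have hNDtr : (N * D).trace = 0 := (Matrix.isNilpotent_trace_of_isNilpotent hNDnil).eq_zero
  have h3 := mul_add_mul_of_trace_zero N D hNtr hDtr
  rw [hNDtr, zero_smul, ← hND.eq, ← two_mul] at h3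
  have hND0 : N * D = 0 := by
    have h4 : (2 : k) • (N * D) = 0 := by
      rw [← h3, two_mul, two_smul]
    rcases smul_eq_zero.1 h4 with h | h
    · exact absurd h h2
    · exact h
  have hDD := mul_self_of_trace_zero D hDtr
  have h4 : (4 : k) ≠ 0 := by
    have : (4 : k) = 2 * 2 := by norm_num
    rw [this]
    exact mul_ne_zero h2 h2
  have hdet : -D.det = (A.trace ^ 2 - 4 * A.det) / 4 := by
    set h : k := A.trace / 2 with hh
    have hh2 : 2 * h = A 0 0 + A 1 1 := by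
      rw [hh, ← Matrix.trace_fin_two, mul_div_cancel₀ _ h2]
    rw [eq_div_iff h4, hD, Matrix.det_fin_two, Matrix.det_fin_two, Matrix.trace_fin_two]
    simp only [Matrix.sub_apply, Matrix.smul_apply, Matrix.one_apply_eq, smul_eq_mul, mul_one,
      Matrix.one_apply_ne (show (0 : Fin 2) ≠ 1 by decide),
      Matrix.one_apply_ne (show (1 : Fin 2) ≠ 0 by decide), mul_zero, sub_zero]
    linear_combination (-(2 * h - (A 0 0 + A 1 1))) * hh2
  have hdet0 : -D.det ≠ 0 := by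
    rw [hdet]
    exact div_ne_zero hdisc h4
  have hN0 : N = 0 := by
    have h5 : N * (D * D) = 0 := by rw [← mul_assoc, hND0, zero_mul]
    rw [hDD, Matrix.mul_smul, mul_one] at h5
    rcases smul_eq_zero.1 h5 with h | h
    · exact absurd h hdet0
    · exact h
  exact sub_eq_zero.1 hN0

/-- If `B ^ 2` commutes with a matrix of non-zero discriminant and `B` has finite order, then the
order of `B` is prime to `p`. -/
theorem not_dvd_orderOf_of_sq_commute (hp2 : p ≠ 2) (A B : Matrix (Fin 2) (Fin 2) k)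
    (hfin : ∃ n : ℕ, 0 < n ∧ B ^ n = 1) (hcomm : B ^ 2 * A = A * B ^ 2)
    (hdisc : A.trace ^ 2 - 4 * A.det ≠ 0) : ¬ p ∣ orderOf B := by
  rintro ⟨m, hm⟩
  have hpos : 0 < orderOf B := by
    obtain ⟨n, hn, hBn⟩ := hfin
    exact orderOf_pos_iff.2 (isOfFinOrder_iff_pow_eq_one.2 ⟨n, hn, hBn⟩)
  have hm0 : 0 < m := by
    rcases Nat.eq_zero_or_pos m with h | h
    · rw [h, mul_zero] at hm; omega
    · exact h
  set U : Matrix (Fin 2) (Fin 2) k := (B ^ 2) ^ m with hU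
  have hUp : U ^ p = 1 := by
    rw [hU, ← pow_mul, ← pow_mul, mul_comm m p, ← hm, mul_comm, pow_mul, pow_orderOf_eq_one,
      one_pow]
  have hUA : U * A = A * U := by
    have h1 : Commute (B ^ 2) A := hcomm
    exact (h1.pow_left m).eq
  have hU1 := eq_one_of_commute_of_pow_eq_one p hp2 A U hUA hUp hdisc
  rw [hU, ← pow_mul] at hU1
  have hdvd : orderOf B ∣ 2 * m := orderOf_dvd_of_pow_eq_one hU1
  rw [hm] at hdvd
  have h2 : p ∣ 2 := Nat.dvd_of_mul_dvd_mul_right hm0 hdvd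
  exact hp2 ((Nat.prime_dvd_prime_iff_eq (Fact.out : p.Prime) Nat.prime_two).1 h2)

end Mat


noncomputable section

section Tame

variable (p : ℕ) [Fact p.Prime]
variable (L : IntermediateField ℚ_[p] (PadicAlgCl p)) [FiniteDimensional ℚ_[p] L]
  [IsGalois ℚ_[p] L]

/-- `e(L/ℚ_p)` from the norm of `p`. -/
theorem ramIdx_eq_of_snorm (πu : (↥L)ˣ) (hπ : IsUniformizer p ↥L (πu : ↥L)) (e : ℕ)
    (he : snorm p ↥L ((p : ℕ) : ↥L) = snorm p ↥L (πu : ↥L) ^ e) : ramIdx p ℚ_[p] ↥L = e := by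
  have hp0 : (p : ℚ_[p]) ≠ 0 := by exact_mod_cast (Fact.out : p.Prime).ne_zero
  set pU : ℚ_[p]ˣ := Units.mk0 (p : ℚ_[p]) hp0 with hpU
  have h1 : ord p ℚ_[p] pU = 1 := (isUniformizer_iff_ord p ℚ_[p] pU).1 (isUniformizer_padic p)
  have h2 := ord_algebraMap p ℚ_[p] ↥L pU
  rw [h1, mul_one] at h2
  have h3 := snorm_eq_zpow p ↥L πu hπ (Units.map (algebraMap ℚ_[p] ↥L : ℚ_[p] →* ↥L) pU)
  rw [h2] at h3
  have h4 : ((Units.map (algebraMap ℚ_[p] ↥L : ℚ_[p] →* ↥L) pU : (↥L)ˣ) : ↥L) = ((p : ℕ) : ↥L) := by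
    rw [Units.coe_map, hpU, Units.val_mk0]
    exact map_natCast (algebraMap ℚ_[p] ↥L) p
  rw [h4, he, zpow_natCast] at h3
  have hpos : 0 < snorm p ↥L (πu : ↥L) := snorm_pos p ↥L πu.ne_zero
  have hlt : snorm p ↥L (πu : ↥L) < 1 := snorm_uniformizer_lt_one p ↥L _ hπ
  exact (pow_right_injective₀ hpos hlt.ne h3).symm

variable {p L}

/-- In the tame case `θ₀` is injective. -/
theorem theta0_injective (h : (ramIdx p ℚ_[p] ↥L).Coprime p) :
    Function.Injective (theta0 p ℚ_[p] ↥L) := by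
  rw [← MonoidHom.ker_eq_bot_iff]
  have h1 : IsPGroup p (theta0 p ℚ_[p] ↥L).ker := isPGroup_ker_theta0 p ℚ_[p] ↥L
  obtain ⟨n, hn⟩ := IsPGroup.iff_card.1 h1
  have h2 : Nat.card (theta0 p ℚ_[p] ↥L).ker ∣ ramIdx p ℚ_[p] ↥L := by
    rw [← card_inertia p ℚ_[p] ↥L]
    exact Subgroup.card_subgroup_dvd_card _
  have h3 : Nat.card (theta0 p ℚ_[p] ↥L).ker = 1 := by
    rw [hn] at h2 ⊢
    rcases Nat.eq_zero_or_pos n with h0 | h0
    · rw [h0, pow_zero]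
    · exfalso
      have h5 : p ∣ ramIdx p ℚ_[p] ↥L := dvd_trans (dvd_pow_self p h0.ne') h2
      exact (Fact.out : p.Prime).one_lt.ne' (Nat.Coprime.eq_one_of_dvd h.symm h5)
  exact (Subgroup.card_eq_one).1 h3

theorem orderOf_thetaL (h : (ramIdx p ℚ_[p] ↥L).Coprime p) (g : Iq p) :
    orderOf (thetaL p L g) = orderOf (resL p L (g : Gq p)) := by
  rw [thetaL, MonoidHom.comp_apply, orderOf_injective _ (theta0_injective h),
    ← coe_resI p L g, Subgroup.orderOf_coe]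

/-- **(S3)** a tame generator. -/
theorem exists_tame_generator (h : (ramIdx p ℚ_[p] ↥L).Coprime p) :
    ∃ g₀ : Gq p, ∃ hg₀ : g₀ ∈ Iq p, orderOf (thetaL p L ⟨g₀, hg₀⟩) = ramIdx p ℚ_[p] ↥L := by
  have hcyc : IsCyclic (inertia p ℚ_[p] ↥L) :=
    isCyclic_of_injective (theta0 p ℚ_[p] ↥L) (theta0_injective h)
  obtain ⟨τ, hτ⟩ := hcyc.exists_generator
  obtain ⟨g, hg⟩ := resI_surjective p L τ
  refine ⟨g, g.2, ?_⟩
  have h1 : orderOf τ = Nat.card (inertia p ℚ_[p] ↥L) := orderOf_eq_card_of_forall_mem_zpowers hτ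
  rw [thetaL, MonoidHom.comp_apply, orderOf_injective _ (theta0_injective h)]
  change orderOf (resI p L g) = _
  rw [hg, h1, card_inertia]

/-- **(S5)**, level form: a tame generator generates the image of inertia. -/
theorem resL_mem_powers (h : (ramIdx p ℚ_[p] ↥L).Coprime p) {g₀ : Gq p} (hg₀ : g₀ ∈ Iq p)
    (hord : orderOf (thetaL p L ⟨g₀, hg₀⟩) = ramIdx p ℚ_[p] ↥L) {σ : Gq p} (hσ : σ ∈ Iq p) :
    ∃ j : ℕ, resL p L σ = resL p L g₀ ^ j := by
  set τ : inertia p ℚ_[p] ↥L := resI p L ⟨g₀, hg₀⟩ with hτ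
  have h1 : orderOf τ = Nat.card (inertia p ℚ_[p] ↥L) := by
    rw [card_inertia, ← hord, thetaL, MonoidHom.comp_apply,
      orderOf_injective _ (theta0_injective h)]
  have h2 : Subgroup.zpowers τ = ⊤ := by
    apply Subgroup.eq_top_of_card_eq
    rw [Nat.card_zpowers, h1]
  have h3 : resI p L ⟨σ, hσ⟩ ∈ Subgroup.zpowers τ := by rw [h2]; exact Subgroup.mem_top _
  rw [← mem_powers_iff_mem_zpowers] at h3
  obtain ⟨j, hj⟩ := h3
  refine ⟨j, ?_⟩
  have h4 := congrArg (fun x : inertia p ℚ_[p] ↥L => (x : ↥L ≃ₐ[ℚ_[p]] ↥L)) hj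
  simp only [SubmonoidClass.coe_pow] at h4
  exact h4.symm

/-- A homomorphism trivial on `Gal(Ω/L)` factors through `resL`. -/
theorem map_eq_of_resL_eq {H : Type*} [Monoid H] (ρ : Gq p →* H)
    (htriv : ∀ v ∈ L.fixingSubgroup, ρ v = 1) {x y : Gq p} (hxy : resL p L x = resL p L y) :
    ρ x = ρ y := by
  have h1 : x * y⁻¹ ∈ L.fixingSubgroup := by
    rw [← ker_resL, MonoidHom.mem_ker, map_mul, map_inv, hxy, mul_inv_cancel]
  have h2 : x = (x * y⁻¹) * y := by group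
  rw [h2, map_mul, htriv _ h1, one_mul]

/-- **(S5)** in the shape of `LLStruct.hcyc`. -/
theorem map_mem_powers (h : (ramIdx p ℚ_[p] ↥L).Coprime p) {H : Type*} [Monoid H] (ρ : Gq p →* H)
    (htriv : ∀ v ∈ L.fixingSubgroup, ρ v = 1) {g₀ : Gq p} (hg₀ : g₀ ∈ Iq p)
    (hord : orderOf (thetaL p L ⟨g₀, hg₀⟩) = ramIdx p ℚ_[p] ↥L) :
    ∀ σ ∈ Iq p, ∃ j : ℕ, ρ σ = ρ g₀ ^ j := by
  intro σ hσ
  obtain ⟨j, hj⟩ := resL_mem_powers h hg₀ hord hσ
  refine ⟨j, ?_⟩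
  rw [← map_pow]
  apply map_eq_of_resL_eq ρ htriv
  rw [hj, map_pow]

/-- **Tame relation**: `φ g φ⁻¹ ≡ g ^ p` on `L` for `g ∈ Iq`, `φ` a Frobenius lift. -/
theorem resL_conj_frob (h : (ramIdx p ℚ_[p] ↥L).Coprime p) {φ : Gq p} (hφ : IsFrobLift p φ)
    {g : Gq p} (hg : g ∈ Iq p) : resL p L (φ * g * φ⁻¹) = resL p L g ^ p := by
  have hφ' := isFrob_resL p L hφ
  have h1 := theta0_conj_frob p ℚ_[p] ↥L hφ' (resI p L ⟨g, hg⟩)
  rw [resCard_padic, ← map_pow] at h1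
  have h2 := theta0_injective h h1
  have h3 := congrArg (fun x : inertia p ℚ_[p] ↥L => (x : ↥L ≃ₐ[ℚ_[p]] ↥L)) h2
  simp only [SubmonoidClass.coe_pow, coe_resI] at h3
  rw [map_mul, map_mul, map_inv]
  exact h3

end Tame

section Index

variable {p : ℕ} [Fact p.Prime]
variable {L : IntermediateField ℚ_[p] (PadicAlgCl p)} [FiniteDimensional ℚ_[p] L]
  [IsGalois ℚ_[p] L]

theorem coprime_sq_sub_one : (p ^ 2 - 1).Coprime p := by
  have hp : p.Prime := Fact.out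
  apply Nat.Coprime.symm
  rw [Nat.Prime.coprime_iff_not_dvd hp]
  intro hd
  have h1 : p ∣ p ^ 2 := dvd_pow_self p (by norm_num)
  have h2 : 1 ≤ p ^ 2 := Nat.one_le_pow _ _ hp.pos
  have h3 : p ∣ p ^ 2 - (p ^ 2 - 1) := Nat.dvd_sub h1 hd
  have h4 : p ^ 2 - (p ^ 2 - 1) = 1 := by omega
  rw [h4] at h3
  exact hp.one_lt.ne' (Nat.dvd_one.1 h3)

theorem index_fixingSubgroup : L.fixingSubgroup.index = Nat.card (↥L ≃ₐ[ℚ_[p]] ↥L) := by
  rw [← ker_resL, Subgroup.index_ker, MonoidHom.range_eq_top.2 (resL_surjective p L),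
    Subgroup.card_top]

/-- `Gal(L/ℚ_p)` is generated by inertia and a Frobenius: its order is prime to `p` as soon as
`e(L/ℚ_p)` and the order of a Frobenius are. -/
theorem not_dvd_card_of_frob (h : (ramIdx p ℚ_[p] ↥L).Coprime p) {φ : Gq p}
    (hφ : IsFrobLift p φ) (hφord : ¬ p ∣ orderOf (resL p L φ)) :
    ¬ p ∣ Nat.card (↥L ≃ₐ[ℚ_[p]] ↥L) := by
  have hp : p.Prime := Fact.out
  set I := inertia p ℚ_[p] ↥L with hI
  have hcard := Subgroup.card_eq_card_quotient_mul_card_subgroup I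
  set x : (↥L ≃ₐ[ℚ_[p]] ↥L) ⧸ I := QuotientGroup.mk' I (resL p L φ) with hx
  have hgen : ∀ y : (↥L ≃ₐ[ℚ_[p]] ↥L) ⧸ I, y ∈ Subgroup.zpowers x := by
    intro y
    obtain ⟨σ, rfl⟩ := QuotientGroup.mk_surjective y
    obtain ⟨j, hj⟩ := exists_pow_inv_mul_mem_inertia p ℚ_[p] ↥L (isFrob_resL p L hφ) σ
    rw [Subgroup.mem_zpowers_iff]
    refine ⟨(j : ℤ), ?_⟩
    rw [zpow_natCast, hx, ← map_pow]
    exact (QuotientGroup.eq.2 hj)
  have h1 : orderOf x = Nat.card ((↥L ≃ₐ[ℚ_[p]] ↥L) ⧸ I) :=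
    orderOf_eq_card_of_forall_mem_zpowers hgen
  have h2 : orderOf x ∣ orderOf (resL p L φ) := orderOf_map_dvd (QuotientGroup.mk' I) _
  rw [hcard, ← h1, card_inertia]
  intro hd
  rcases (Nat.Prime.dvd_mul hp).1 hd with h3 | h3
  · exact hφord (dvd_trans h3 h2)
  · exact hp.one_lt.ne' (Nat.Coprime.eq_one_of_dvd h.symm h3)

variable {k : Type*} [Field k] [CharP k p]

/-- **(S1)** `p ∤ [L : ℚ_p]`, for `L` cut out by `ρ × ω` (`hfaith`), `e(L/ℚ_p) = p² - 1`, and a tame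
generator `g₀` whose image `ρ g₀` has non-zero discriminant. -/
theorem isUnit_index (hp2 : p ≠ 2) (ρ : Gq p →* Matrix (Fin 2) (Fin 2) k) (ω : Gq p →* (ZMod p)ˣ)
    (htriv : ∀ v ∈ L.fixingSubgroup, ρ v = 1)
    (hfaith : ∀ g : Gq p, ρ g = 1 → ω g = 1 → g ∈ L.fixingSubgroup)
    (hram : ramIdx p ℚ_[p] ↥L = p ^ 2 - 1) {g₀ : Gq p} (hg₀ : g₀ ∈ Iq p)
    (hord : orderOf (thetaL p L ⟨g₀, hg₀⟩) = p ^ 2 - 1)
    (hdisc : (ρ g₀).trace ^ 2 - 4 * (ρ g₀).det ≠ 0) :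
    IsUnit ((L.fixingSubgroup.index : ℕ) : k) := by
  have hp : p.Prime := Fact.out
  have hcop : (ramIdx p ℚ_[p] ↥L).Coprime p := by rw [hram]; exact coprime_sq_sub_one
  obtain ⟨φ, hφ⟩ := exists_isFrobLift p
  -- `ρ φ ^ 2` commutes with `ρ g₀`
  have hordg : orderOf (resL p L g₀) = p ^ 2 - 1 := by
    rw [← hord, orderOf_thetaL hcop]
  have h1 : resL p L (φ ^ 2 * g₀ * (φ ^ 2)⁻¹) = resL p L g₀ := by
    have h2 : φ ^ 2 * g₀ * (φ ^ 2)⁻¹ = φ * (φ * g₀ * φ⁻¹) * φ⁻¹ := by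
      rw [pow_two, mul_inv_rev]
      simp only [mul_assoc]
    have h3 : φ * g₀ * φ⁻¹ ∈ Iq p := (Iq_normal p).conj_mem g₀ hg₀ φ
    rw [h2, resL_conj_frob hcop hφ h3, resL_conj_frob hcop hφ hg₀, ← pow_mul]
    have h4 : p * p = (p ^ 2 - 1) + 1 := by
      have : 1 ≤ p ^ 2 := Nat.one_le_pow _ _ hp.pos
      rw [← pow_two]; omega
    rw [h4, pow_succ, ← hordg, pow_orderOf_eq_one, one_mul]
  have h5 : ρ (φ ^ 2 * g₀ * (φ ^ 2)⁻¹) = ρ g₀ := map_eq_of_resL_eq ρ htriv h1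
  have hcomm : ρ φ ^ 2 * ρ g₀ = ρ g₀ * ρ φ ^ 2 := by
    have h6 : ρ (φ ^ 2) * ρ g₀ = ρ (φ ^ 2 * g₀ * (φ ^ 2)⁻¹) * ρ (φ ^ 2) := by
      rw [← map_mul, ← map_mul, inv_mul_cancel_right]
    rw [h5, map_pow] at h6
    exact h6
  -- `ρ φ` has finite order
  have hfin : ∃ n : ℕ, 0 < n ∧ ρ φ ^ n = 1 := by
    refine ⟨orderOf (resL p L φ), orderOf_pos _, ?_⟩
    rw [← map_pow]
    apply htriv
    rw [← ker_resL, MonoidHom.mem_ker, map_pow, pow_orderOf_eq_one]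
  have hB : ¬ p ∣ orderOf (ρ φ) :=
    not_dvd_orderOf_of_sq_commute p hp2 (ρ g₀) (ρ φ) hfin hcomm hdisc
  -- the order of `resL φ`
  have hφord : ¬ p ∣ orderOf (resL p L φ) := by
    have h7 : resL p L φ ^ (orderOf (ρ φ) * (p - 1)) = 1 := by
      rw [← map_pow, ← MonoidHom.mem_ker, ker_resL]
      apply hfaith
      · rw [map_pow, pow_mul, pow_orderOf_eq_one, one_pow]
      · rw [map_pow, mul_comm, pow_mul, ZMod.units_pow_card_sub_one_eq_one, one_pow]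
    intro hd
    have h8 := dvd_trans hd (orderOf_dvd_of_pow_eq_one h7)
    rcases (Nat.Prime.dvd_mul hp).1 h8 with h9 | h9
    · exact hB h9
    · have := Nat.le_of_dvd (by have := hp.two_le; omega) h9
      have := hp.two_le
      omega
  have hcard := not_dvd_card_of_frob hcop hφ hφord
  rw [index_fixingSubgroup, isUnit_iff_ne_zero]
  intro h0
  exact hcard ((CharP.cast_eq_zero_iff k p _).1 h0)

/-- The discriminant of `X² - a₀ X + b₀` is non-zero when its roots are `θ`, `θ ^ p` with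
`θ ^ p ≠ θ`. -/
theorem disc_ne_zero {F : Type*} [Field F] (φr : ZMod p →+* F) (a₀ b₀ : ZMod p) (θ : F)
    (hφa : φr a₀ = θ + θ ^ p) (hφb : φr b₀ = θ ^ (p + 1)) (hθ : θ ^ p ≠ θ) :
    a₀ ^ 2 - 4 * b₀ ≠ 0 := by
  intro h0
  have h1 := congrArg φr h0
  rw [map_sub, map_pow, map_mul, hφa, hφb, map_zero, map_ofNat] at h1
  have h2 : (θ ^ p - θ) ^ 2 = 0 := by
    rw [← h1, pow_succ]; ring
  exact hθ (sub_eq_zero.1 (pow_eq_zero_iff (by norm_num) |>.1 h2))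

theorem pow_ne_self_of_orderOf {F : Type*} [Field F] (θ : Fˣ) (hθ : orderOf θ = p ^ 2 - 1) :
    (θ : F) ^ p ≠ (θ : F) := by
  have hp : p.Prime := Fact.out
  intro h
  have h1 : θ ^ (p - 1) = 1 := by
    apply Units.ext
    rw [Units.val_pow_eq_pow_val, Units.val_one]
    have h2 : (θ : F) ^ (p - 1) * θ = 1 * θ := by
      rw [← pow_succ, Nat.sub_add_cancel hp.pos, h, one_mul]
    exact mul_right_cancel₀ θ.ne_zero h2
  have h3 := orderOf_dvd_of_pow_eq_one h1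
  rw [hθ] at h3
  have h4 := Nat.le_of_dvd (by have := hp.two_le; omega) h3
  have h5 : p ^ 2 = p * p := pow_two p
  have h6 := hp.two_le
  have h7 : 2 * p ≤ p ^ 2 := by rw [h5]; exact Nat.mul_le_mul_right p h6
  omega

end Index

/-! ### The statements in the vocabulary of `LLPackage3.LLStruct` -/

section LL

variable {p : ℕ} [Fact p.Prime]
variable (L : IntermediateField ℚ_[p] (PadicAlgCl p)) [FiniteDimensional ℚ_[p] L]
  [IsGalois ℚ_[p] L]

/-- **(S3)** from `e(L/ℚ_p) = p² - 1`. -/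
theorem exists_g0_of_LL (πu : (↥L)ˣ) (hπ : IsUniformizer p ↥L (πu : ↥L))
    (he : snorm p ↥L ((p : ℕ) : ↥L) = snorm p ↥L (πu : ↥L) ^ (p ^ 2 - 1)) :
    ∃ g₀ : Gq p, ∃ hg₀ : g₀ ∈ Iq p, orderOf (thetaL p L ⟨g₀, hg₀⟩) = p ^ 2 - 1 := by
  have hram := ramIdx_eq_of_snorm p L πu hπ _ he
  have hcop : (ramIdx p ℚ_[p] ↥L).Coprime p := by rw [hram]; exact coprime_sq_sub_one
  obtain ⟨g₀, hg₀, h⟩ := exists_tame_generator hcop
  exact ⟨g₀, hg₀, by rw [h, hram]⟩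

/-- **(S5)** = `LLStruct.hcyc`. -/
theorem hcyc_of_LL {H : Type*} [Monoid H]
    (rbar : (AlgebraicClosure ℚ ≃ₐ[ℚ] AlgebraicClosure ℚ) →* H)
    (htriv : ∀ v ∈ L.fixingSubgroup, rbar (rq p v) = 1)
    (πu : (↥L)ˣ) (hπ : IsUniformizer p ↥L (πu : ↥L))
    (he : snorm p ↥L ((p : ℕ) : ↥L) = snorm p ↥L (πu : ↥L) ^ (p ^ 2 - 1))
    (g₀ : Gq p) (hg₀ : g₀ ∈ Iq p) (hord : orderOf (thetaL p L ⟨g₀, hg₀⟩) = p ^ 2 - 1) :
    ∀ σ ∈ Iq p, ∃ j : ℕ, rbar (rq p σ) = rbar (rq p g₀) ^ j := by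
  have hram := ramIdx_eq_of_snorm p L πu hπ _ he
  have hcop : (ramIdx p ℚ_[p] ↥L).Coprime p := by rw [hram]; exact coprime_sq_sub_one
  exact map_mem_powers hcop (rbar.comp (rq p)) htriv hg₀ (by rw [hord, hram])

/-- **(S1)** = `LLStruct.hunit`, for `L` cut out by `ρ̄|_{G_p} × ω` (`hfaith`). -/
theorem isUnit_index_of_LL (hp2 : p ≠ 2) {k : Type*} [Field k] [CharP k p]
    (rbar : (AlgebraicClosure ℚ ≃ₐ[ℚ] AlgebraicClosure ℚ) →* Matrix (Fin 2) (Fin 2) k)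
    (ω : Gq p →* (ZMod p)ˣ) (g₀ : Gq p) (hg₀ : g₀ ∈ Iq p) (a₀ b₀ : ZMod p) (πu : (↥L)ˣ)
    (φr : ZMod p →+* resF p ↥L)
    (htriv : ∀ v ∈ L.fixingSubgroup, rbar (rq p v) = 1)
    (hfaith : ∀ g : Gq p, rbar (rq p g) = 1 → ω g = 1 → g ∈ L.fixingSubgroup)
    (htr : (rbar (rq p g₀)).trace = ZMod.castHom (dvd_refl p) k a₀)
    (hdet : (rbar (rq p g₀)).det = ZMod.castHom (dvd_refl p) k b₀)
    (hπ : IsUniformizer p ↥L (πu : ↥L))
    (he : snorm p ↥L ((p : ℕ) : ↥L) = snorm p ↥L (πu : ↥L) ^ (p ^ 2 - 1))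
    (hord : orderOf (thetaL p L ⟨g₀, hg₀⟩) = p ^ 2 - 1)
    (hφa : φr a₀ = (↑(thetaL p L ⟨g₀, hg₀⟩) : resF p ↥L) +
      (↑(thetaL p L ⟨g₀, hg₀⟩) : resF p ↥L) ^ p)
    (hφb : φr b₀ = (↑(thetaL p L ⟨g₀, hg₀⟩) : resF p ↥L) ^ (p + 1)) :
    IsUnit ((L.fixingSubgroup.index : ℕ) : k) := by
  have hram := ramIdx_eq_of_snorm p L πu hπ _ he
  have hd : a₀ ^ 2 - 4 * b₀ ≠ 0 :=
    disc_ne_zero φr a₀ b₀ _ hφa hφb (pow_ne_self_of_orderOf _ hord)
  refine isUnit_index hp2 (rbar.comp (rq p)) ω htriv hfaith hram hg₀ hord ?_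
  change (rbar (rq p g₀)).trace ^ 2 - 4 * (rbar (rq p g₀)).det ≠ 0
  rw [htr, hdet]
  intro h0
  apply hd
  apply (ZMod.castHom (dvd_refl p) k).injective
  rw [map_sub, map_pow, map_mul, map_zero, map_ofNat]
  exact h0

end LL

/-! ### The field cut out by `ρ × ω` -/

section Cutout

variable {p : ℕ} [Fact p.Prime]

local instance isAlgClosurePadicS4 : IsAlgClosure ℚ_[p] (PadicAlgCl p) :=
  ⟨inferInstance, inferInstance⟩
local instance isGaloisPadicS4 : IsGalois ℚ_[p] (PadicAlgCl p) :=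
  IsAlgClosure.isGalois ℚ_[p] (PadicAlgCl p)

/-- The finite Galois extension of `ℚ_p` cut out by a pair of level homomorphisms. -/
theorem exists_cutout {H : Type*} [Monoid H] (ρ : Gq p →* H) (ω : Gq p →* (ZMod p)ˣ)
    (hρ : ∃ U ∈ (Fermat.Agent.PT.GLUE.Objects21.levelLoc p).sets, ∀ s ∈ U, ρ s = 1)
    (hω : ∃ U ∈ (Fermat.Agent.PT.GLUE.Objects21.levelLoc p).sets, ∀ s ∈ U, ω s = 1) :
    ∃ L : IntermediateField ℚ_[p] (PadicAlgCl p), FiniteDimensional ℚ_[p] L ∧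
      IsGalois ℚ_[p] L ∧ ∀ g : Gq p, g ∈ L.fixingSubgroup ↔ (ρ g = 1 ∧ ω g = 1) := by
  obtain ⟨U₁, hU₁, h₁⟩ := hρ
  obtain ⟨U₂, hU₂, h₂⟩ := hω
  obtain ⟨W, hW, hWle⟩ := (Fermat.Agent.PT.GLUE.Objects21.levelLoc p).isBasis.directed U₁ hU₁ U₂ hU₂
  obtain ⟨L₁, hfd, hgal, hL₁⟩ := exists_galois_level p hW
  set N : Subgroup (Gq p) := ρ.ker ⊓ ω.ker with hN
  have hNmem : ∀ g : Gq p, g ∈ N ↔ (ρ g = 1 ∧ ω g = 1) := by
    intro g
    rw [hN, Subgroup.mem_inf, MonoidHom.mem_ker, MonoidHom.mem_ker]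
  have hle : L₁.fixingSubgroup ≤ N := by
    intro g hg
    have := hWle (hL₁ hg)
    rw [hNmem]
    exact ⟨h₁ g this.1, h₂ g this.2⟩
  have hopen : IsOpen (N : Set (Gq p)) := Subgroup.isOpen_mono hle L₁.fixingSubgroup_isOpen
  have hclosed : IsClosed (N : Set (Gq p)) := Subgroup.isClosed_of_isOpen N hopen
  have hfix := InfiniteGalois.fixingSubgroup_fixedField (k := ℚ_[p]) (K := PadicAlgCl p)
    ⟨N, hclosed⟩
  change (IntermediateField.fixedField N).fixingSubgroup = N at hfix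
  have hnormal : N.Normal := by
    rw [hN]
    infer_instance
  have hLle : IntermediateField.fixedField N ≤ L₁ := by
    have h3 := InfiniteGalois.fixedField_fixingSubgroup (k := ℚ_[p]) (K := PadicAlgCl p) L₁
    rw [← h3]
    exact IntermediateField.fixedField_antitone hle
  refine ⟨IntermediateField.fixedField N, ?_, ?_, ?_⟩
  · exact Module.Finite.of_injective (IntermediateField.inclusion hLle).toLinearMap
      (IntermediateField.inclusion hLle).injective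
  · rw [← InfiniteGalois.normal_iff_isGalois, hfix]
    exact hnormal
  · intro g
    rw [hfix, hNmem]

/-- If `ω` is the cyclotomic character w.r.t. `ζ` and `Gal(Ω/L) ≤ ker ω` then `ζ ∈ L`. -/
theorem zeta_mem_of_le_ker (L : IntermediateField ℚ_[p] (PadicAlgCl p)) (ζ : PadicAlgCl p)
    (ω : Gq p →* (ZMod p)ˣ)
    (hωζ : ∀ g : Gq p, g ζ = ζ ^ ((ω g : (ZMod p)ˣ) : ZMod p).val)
    (hL : ∀ g ∈ L.fixingSubgroup, ω g = 1) : ζ ∈ L := by
  have h3 := InfiniteGalois.fixedField_fixingSubgroup (k := ℚ_[p]) (K := PadicAlgCl p) L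
  rw [← h3, IntermediateField.mem_fixedField_iff]
  intro g hg
  rw [hωζ g, hL g hg, Units.val_one, ZMod.val_one, pow_one]

end Cutout

end

end Fermat.Agent.TW.FLAT.TameStruct4
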