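/-
Programme T (S56), chapter T/FLAT, local-local chain, (S-STRUCT): helper2's requests (T1), (T2), (C)
(msg 352), in his exact shapes (helper4).  `g : Gq p →* H` a level homomorphism (`H` a group,
`hlev : ∃ U ∈ (levelLoc p).sets, U ≤ g.ker`).

* **(T1)** `exists_tame_gen g hlev : ∃ g₀ ∈ Iq p, ∃ P : Subgroup (Gq p), P ≤ Iq p ∧ P.Normal ∧
    (∀ π ∈ P, ∃ n : ℕ, g π ^ (p ^ n) = 1) ∧ (∀ σ ∈ Iq p, ∃ j : ℕ, ∃ π ∈ P, g σ = g g₀ ^ j * g π) ∧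
    (∀ φ : Gq p, IsFrobLift p φ → ∃ π ∈ P, g (φ * g₀ * φ⁻¹) = g g₀ ^ p * g π)`
  (`P = Iq ∩ resL⁻¹(wild inertia of L₁/ℚ_p)`, `L₁` a finite Galois level of `g`).
* **(T2)** `exists_frob_mul g hlev φ hφ : ∀ σ, ∃ j : ℕ, ∃ τ ∈ Iq p, g σ = g φ ^ j * g τ`.
* **(C)** for `L` finite Galois with `hL : L.fixingSubgroup = g.ker`, `hg₀ : g₀ ∈ Iq p`,
  `hcyc : ∀ σ ∈ Iq p, ∃ j : ℕ, g σ = g g₀ ^ j`:
  `ramIdx_eq_orderOf g L hL hg₀ hcyc : ramIdx p ℚ_[p] L = orderOf (g g₀)`;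
  **(C1)+(C3)** `exists_uniformizer_snorm g L hL hg₀ hcyc : ∃ πu : Lˣ, IsUniformizer p L πu ∧
    snorm p L p = snorm p L πu ^ orderOf (g g₀) ∧ ∀ x ≠ 0, ∃ j : ℤ, snorm p L x = snorm p L πu ^ j`;
  **(C2)** `orderOf_thetaL_eq g L hL hg₀ hcyc (hn : (orderOf (g g₀)).Coprime p) :
    orderOf (thetaL p L ⟨g₀, hg₀⟩) = orderOf (g g₀)`;
  also `resL_eq_of_map_eq`, `orderOf_resL_eq`.
* `dvd_ramIdx_of_snorm_pow L x m (h : snorm p L x ^ m = snorm p L p) :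
    m ∣ ramIdx p ℚ_[p] L ∧ (m = ramIdx p ℚ_[p] L → IsUniformizer p L x)`.
-/
import Mathlib
import Fermat.Agent.TW.FLAT.TameStruct4

set_option autoImplicit false
set_option linter.unusedSectionVars false

open Fermat.Agent.PT.LOC.Interface12 Fermat.Agent.PT.LOC.Structure14
  Fermat.Agent.PT.LOC.StructureNorm14 Fermat.Agent.PT.LOC.StructureTowerEF27
  Fermat.Agent.PT.LOC.Unram11
open Fermat.Agent.PT.GLUE.Objects21
open Fermat.Agent.TW.LOC.Defs2 Fermat.Agent.TW.LOC.TameInertia4 Fermat.Agent.TW.LOC.TameProfinite4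
  Fermat.Agent.TW.LOC.UnramGq4 Fermat.Agent.TW.LOC.UnramFixed4
  Fermat.Agent.TW.FLAT.TameStruct4

namespace Fermat.Agent.TW.FLAT.TameGen4

noncomputable section

variable {p : ℕ} [Fact p.Prime] {H : Type} [Group H]

/-- **(T1)** a tame generator `g₀` and the "wild" subgroup `P` of `Iq p` for a level homomorphism
`g`. -/
theorem exists_tame_gen (g : Gq p →* H) (hlev : ∃ U ∈ (levelLoc p).sets, U ≤ g.ker) :
    ∃ g₀ ∈ Iq p, ∃ P : Subgroup (Gq p), P ≤ Iq p ∧ P.Normal ∧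
      (∀ π ∈ P, ∃ n : ℕ, g π ^ (p ^ n) = 1) ∧
      (∀ σ ∈ Iq p, ∃ j : ℕ, ∃ π ∈ P, g σ = g g₀ ^ j * g π) ∧
      (∀ φ : Gq p, IsFrobLift p φ → ∃ π ∈ P, g (φ * g₀ * φ⁻¹) = g g₀ ^ p * g π) := by
  obtain ⟨U, hU, hUg⟩ := hlev
  obtain ⟨L, hfd, hgal, hLU⟩ := exists_galois_level p hU
  obtain ⟨τ, hτ⟩ := exists_thetaL_generator p L
  -- the wild part
  set P : Subgroup (Gq p) := Iq p ⊓ (wild p ℚ_[p] ↥L).comap (resL p L) with hP
  have hPmem : ∀ π : Gq p, π ∈ P ↔ ∃ h : π ∈ Iq p, thetaL p L ⟨π, h⟩ = 1 := by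
    intro π
    rw [hP, Subgroup.mem_inf, Subgroup.mem_comap, mem_wild_iff_theta0]
    constructor
    · rintro ⟨h1, h2, h3⟩
      exact ⟨h1, h3⟩
    · rintro ⟨h1, h3⟩
      exact ⟨h1, resL_mem_inertia p L h1, h3⟩
  refine ⟨τ, τ.2, P, inf_le_left, ?_, ?_, ?_, ?_⟩
  · have h1 : ((wild p ℚ_[p] ↥L).comap (resL p L)).Normal := inferInstance
    have h2 : (Iq p).Normal := Iq_normal p
    rw [hP]
    infer_instance
  · intro π hπ
    obtain ⟨h, h1⟩ := (hPmem π).1 hπ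
    obtain ⟨n, hn⟩ := isPGroup_ker_theta0 p ℚ_[p] ↥L ⟨resI p L ⟨π, h⟩, h1⟩
    refine ⟨n, ?_⟩
    rw [← map_pow, ← MonoidHom.mem_ker]
    apply hUg
    apply hLU
    rw [← ker_resL, MonoidHom.mem_ker, map_pow]
    have h2 := congrArg (fun x : (theta0 p ℚ_[p] ↥L).ker =>
      ((x : inertia p ℚ_[p] ↥L) : ↥L ≃ₐ[ℚ_[p]] ↥L)) hn
    simp only [SubmonoidClass.coe_pow, OneMemClass.coe_one] at h2
    exact h2
  · intro σ hσ
    have h1 := hτ ⟨σ, hσ⟩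
    rw [← mem_powers_iff_mem_zpowers] at h1
    obtain ⟨j, hj⟩ := h1
    have hmem : (τ : Gq p)⁻¹ ^ j * σ ∈ P := by
      rw [hPmem]
      refine ⟨(Iq p).mul_mem ((Iq p).pow_mem ((Iq p).inv_mem τ.2) j) hσ, ?_⟩
      have h2 : (⟨(τ : Gq p)⁻¹ ^ j * σ, (Iq p).mul_mem ((Iq p).pow_mem ((Iq p).inv_mem τ.2) j) hσ⟩ : Iq p)
          = τ⁻¹ ^ j * ⟨σ, hσ⟩ := rfl
      rw [h2, map_mul, map_pow, map_inv, ← hj, inv_pow, inv_mul_cancel]
    refine ⟨j, _, hmem, ?_⟩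
    rw [← map_pow, ← map_mul]
    congr 1
    group
  · intro φ hφ
    have hconj : φ * (τ : Gq p) * φ⁻¹ ∈ Iq p := (Iq_normal p).conj_mem τ τ.2 φ
    have hmem : (τ : Gq p)⁻¹ ^ p * (φ * τ * φ⁻¹) ∈ P := by
      rw [hPmem]
      refine ⟨(Iq p).mul_mem ((Iq p).pow_mem ((Iq p).inv_mem τ.2) p) hconj, ?_⟩
      have h2 : (⟨(τ : Gq p)⁻¹ ^ p * (φ * τ * φ⁻¹),
          (Iq p).mul_mem ((Iq p).pow_mem ((Iq p).inv_mem τ.2) p) hconj⟩ : Iq p)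
          = τ⁻¹ ^ p * ⟨φ * τ * φ⁻¹, hconj⟩ := rfl
      rw [h2, map_mul, map_pow, map_inv]
      have h3 := theta0_conj_frob p ℚ_[p] ↥L (isFrob_resL p L hφ) (resI p L τ)
      rw [resCard_padic] at h3
      have h4 : thetaL p L ⟨φ * τ * φ⁻¹, hconj⟩ = thetaL p L τ ^ p := by
        have h5 : resI p L ⟨φ * τ * φ⁻¹, hconj⟩
            = ⟨resL p L φ * (resI p L τ : ↥L ≃ₐ[ℚ_[p]] ↥L) * (resL p L φ)⁻¹,
              (inertia_normal p ℚ_[p] ↥L).conj_mem _ (resI p L τ).2 _⟩ := by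
          apply Subtype.ext
          change resL p L (φ * τ * φ⁻¹) = _
          rw [map_mul, map_mul, map_inv]
          rfl
        change theta0 p ℚ_[p] ↥L (resI p L ⟨φ * τ * φ⁻¹, hconj⟩)
          = (theta0 p ℚ_[p] ↥L (resI p L τ)) ^ p
        rw [h5]
        exact h3
      rw [h4, inv_pow, inv_mul_cancel]
    refine ⟨_, hmem, ?_⟩
    rw [← map_pow, ← map_mul]
    congr 1
    group

/-- **(T2)** modulo the kernel, `Gq = ⟨φ⟩ · Iq`. -/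
theorem exists_frob_mul (g : Gq p →* H) (hlev : ∃ U ∈ (levelLoc p).sets, U ≤ g.ker) (φ : Gq p)
    (hφ : IsFrobLift p φ) : ∀ σ : Gq p, ∃ j : ℕ, ∃ τ ∈ Iq p, g σ = g φ ^ j * g τ := by
  intro σ
  obtain ⟨U, hU, hUg⟩ := hlev
  obtain ⟨j, τ, hτ, u, hu, rfl⟩ := gen_of_isFrobLift p hφ hU σ
  refine ⟨j, τ, hτ, ?_⟩
  rw [map_mul, map_mul, map_pow, MonoidHom.mem_ker.1 (hUg hu), mul_one]

section C

variable (g : Gq p →* H) (L : IntermediateField ℚ_[p] (PadicAlgCl p)) [FiniteDimensional ℚ_[p] L]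
  [IsGalois ℚ_[p] L] (hL : L.fixingSubgroup = g.ker)
include hL

theorem resL_eq_of_map_eq {x y : Gq p} (h : g x = g y) : resL p L x = resL p L y := by
  have h1 : x * y⁻¹ ∈ (resL p L).ker := by
    rw [ker_resL, hL, MonoidHom.mem_ker, map_mul, map_inv, h, mul_inv_cancel]
  rw [MonoidHom.mem_ker, map_mul, map_inv, mul_inv_eq_one] at h1
  exact h1

theorem orderOf_resL_eq (x : Gq p) : orderOf (resL p L x) = orderOf (g x) := by
  rw [orderOf_eq_orderOf_iff]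
  intro n
  rw [← map_pow, ← map_pow, ← MonoidHom.mem_ker, ← MonoidHom.mem_ker, ker_resL, hL]

variable {g₀ : Gq p} (hg₀ : g₀ ∈ Iq p) (hcyc : ∀ σ ∈ Iq p, ∃ j : ℕ, g σ = g g₀ ^ j)
include hg₀ hcyc

/-- `e(L/ℚ_p)` is the order of `g g₀` when `g (Iq)` is generated by `g g₀`. -/
theorem ramIdx_eq_orderOf : ramIdx p ℚ_[p] ↥L = orderOf (g g₀) := by
  rw [← card_inertia p ℚ_[p] ↥L, ← orderOf_resL_eq g L hL g₀, ← coe_resI p L ⟨g₀, hg₀⟩,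
    Subgroup.orderOf_coe]
  symm
  apply orderOf_eq_card_of_forall_mem_zpowers
  intro τ
  obtain ⟨σ, rfl⟩ := resI_surjective p L τ
  obtain ⟨j, hj⟩ := hcyc σ σ.2
  rw [Subgroup.mem_zpowers_iff]
  refine ⟨(j : ℤ), ?_⟩
  rw [zpow_natCast]
  apply Subtype.ext
  rw [SubmonoidClass.coe_pow, coe_resI, coe_resI]
  rw [← map_pow] at hj ⊢
  exact (resL_eq_of_map_eq g L hL hj).symm

/-- **(C1) + (C3)**: a uniformizer `πu` of `L` with `‖p‖ = ‖πu‖ ^ n`, `n = orderOf (g g₀)`, and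
the value group of `L` is `‖πu‖ ^ ℤ`. -/
theorem exists_uniformizer_snorm :
    ∃ πu : (↥L)ˣ, IsUniformizer p ↥L (πu : ↥L) ∧
      snorm p ↥L ((p : ℕ) : ↥L) = snorm p ↥L (πu : ↥L) ^ orderOf (g g₀) ∧
      ∀ x : ↥L, x ≠ 0 → ∃ j : ℤ, snorm p ↥L x = snorm p ↥L (πu : ↥L) ^ j := by
  obtain ⟨πu, hπ⟩ := exists_isUniformizer p ↥L
  refine ⟨πu, hπ, ?_, fun x hx => ⟨ord p ↥L (Units.mk0 x hx), snorm_eq_zpow p ↥L πu hπ (Units.mk0 x hx)⟩⟩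
  have hp0 : (p : ℚ_[p]) ≠ 0 := by exact_mod_cast (Fact.out : p.Prime).ne_zero
  set pU : ℚ_[p]ˣ := Units.mk0 (p : ℚ_[p]) hp0 with hpU
  have h1 : ord p ℚ_[p] pU = 1 := (isUniformizer_iff_ord p ℚ_[p] pU).1 (isUniformizer_padic p)
  have h2 := ord_algebraMap p ℚ_[p] ↥L pU
  rw [h1, mul_one] at h2
  have h3 := snorm_eq_zpow p ↥L πu hπ (Units.map (algebraMap ℚ_[p] ↥L : ℚ_[p] →* ↥L) pU)
  rw [h2] at h3
  have h4 : ((Units.map (algebraMap ℚ_[p] ↥L : ℚ_[p] →* ↥L) pU : (↥L)ˣ) : ↥L) = ((p : ℕ) : ↥L) := by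
    rw [Units.coe_map, hpU, Units.val_mk0]
    exact map_natCast (algebraMap ℚ_[p] ↥L) p
  rw [h4, zpow_natCast, ramIdx_eq_orderOf g L hL hg₀ hcyc] at h3
  exact h3

/-- **(C2)** in the tame case `θ_L(g₀)` has the same order as `g g₀`. -/
theorem orderOf_thetaL_eq (hn : (orderOf (g g₀)).Coprime p) :
    orderOf (thetaL p L ⟨g₀, hg₀⟩) = orderOf (g g₀) := by
  have hcop : (ramIdx p ℚ_[p] ↥L).Coprime p := by
    rw [ramIdx_eq_orderOf g L hL hg₀ hcyc]; exact hn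
  rw [orderOf_thetaL hcop, orderOf_resL_eq g L hL]

end C

/-! ### Divisibility of the ramification index by norms -/

section Dvd

variable (L : IntermediateField ℚ_[p] (PadicAlgCl p)) [FiniteDimensional ℚ_[p] L]
  [IsGalois ℚ_[p] L]

/-- If `‖x‖ ^ m = ‖p‖` for some `x ∈ L` then `m ∣ e(L/ℚ_p)`; if `m = e(L/ℚ_p)` then `x` is a
uniformizer. -/
theorem dvd_ramIdx_of_snorm_pow (x : ↥L) (m : ℕ)
    (h : snorm p ↥L x ^ m = snorm p ↥L ((p : ℕ) : ↥L)) :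
    m ∣ ramIdx p ℚ_[p] ↥L ∧ (m = ramIdx p ℚ_[p] ↥L → IsUniformizer p ↥L x) := by
  obtain ⟨πu, hπ⟩ := exists_isUniformizer p ↥L
  have hpos : 0 < snorm p ↥L (πu : ↥L) := snorm_pos p ↥L πu.ne_zero
  have hlt : snorm p ↥L (πu : ↥L) < 1 := snorm_uniformizer_lt_one p ↥L _ hπ
  have hp0' : ((p : ℕ) : ↥L) ≠ 0 := by exact_mod_cast (Fact.out : p.Prime).ne_zero
  have hx0 : x ≠ 0 := by
    rintro rfl
    rw [snorm_zero] at h
    rcases Nat.eq_zero_or_pos m with hm | hm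
    · rw [hm, pow_zero] at h
      have h5 : snorm p ↥L ((p : ℕ) : ↥L) < 1 := by
        have h6 : ((p : ℕ) : ↥L) = algebraMap ℚ_[p] ↥L (p : ℚ_[p]) := (map_natCast _ _).symm
        rw [h6, snorm_algebraMap, Padic.norm_p]
        have hq : (1 : ℝ) < p := by exact_mod_cast (Fact.out : p.Prime).one_lt
        exact inv_lt_one_of_one_lt₀ hq
      rw [← h] at h5
      exact lt_irrefl _ h5
    · rw [zero_pow hm.ne'] at h
      exact (snorm_pos p ↥L hp0').ne' h.symm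
  have he : snorm p ↥L ((p : ℕ) : ↥L) = snorm p ↥L (πu : ↥L) ^ ramIdx p ℚ_[p] ↥L := by
    have hp0 : (p : ℚ_[p]) ≠ 0 := by exact_mod_cast (Fact.out : p.Prime).ne_zero
    set pU : ℚ_[p]ˣ := Units.mk0 (p : ℚ_[p]) hp0 with hpU
    have h1 : ord p ℚ_[p] pU = 1 := (isUniformizer_iff_ord p ℚ_[p] pU).1 (isUniformizer_padic p)
    have h2 := ord_algebraMap p ℚ_[p] ↥L pU
    rw [h1, mul_one] at h2
    have h3 := snorm_eq_zpow p ↥L πu hπ (Units.map (algebraMap ℚ_[p] ↥L : ℚ_[p] →* ↥L) pU)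
    rw [h2] at h3
    have h4 : ((Units.map (algebraMap ℚ_[p] ↥L : ℚ_[p] →* ↥L) pU : (↥L)ˣ) : ↥L)
        = ((p : ℕ) : ↥L) := by
      rw [Units.coe_map, hpU, Units.val_mk0]
      exact map_natCast (algebraMap ℚ_[p] ↥L) p
    rw [h4, zpow_natCast] at h3
    exact h3
  have hx := snorm_eq_zpow p ↥L πu hπ (Units.mk0 x hx0)
  rw [Units.val_mk0] at hx
  rw [hx, he, ← zpow_natCast, ← zpow_mul, ← zpow_natCast] at h
  have h7 := zpow_right_injective₀ hpos hlt.ne h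
  constructor
  · have : (m : ℤ) ∣ (ramIdx p ℚ_[p] ↥L : ℤ) := ⟨ord p ↥L (Units.mk0 x hx0), by rw [← h7, mul_comm]⟩
    exact_mod_cast this
  · intro hm
    have hepos : (0 : ℤ) < (ramIdx p ℚ_[p] ↥L : ℤ) := by exact_mod_cast ramIdx_pos p ℚ_[p] ↥L
    rw [hm] at h7
    have h8 : ord p ↥L (Units.mk0 x hx0) = 1 := by
      have : ord p ↥L (Units.mk0 x hx0) * (ramIdx p ℚ_[p] ↥L : ℤ) = 1 * (ramIdx p ℚ_[p] ↥L : ℤ) := by
        rw [h7, one_mul]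
      exact mul_right_cancel₀ hepos.ne' this
    have := (isUniformizer_iff_ord p ↥L (Units.mk0 x hx0)).2 h8
    rwa [Units.val_mk0] at this

end Dvd

end

end Fermat.Agent.TW.FLAT.TameGen4
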