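/-
Programme T (S56), chapter FLAT, brick (F-f.0) — helper7.

BRIDGE FROM THE PRELUDE'S `IsFlatAt` OF A MATRIX REPRESENTATION OVER A FINITE LOCAL RING TO THE
LOCAL FLAT MODULE `A²`.

For `A` a finite local ring, `r : GQ →* M2 A` continuous with `(ofMatrix r hr).IsFlatAt p`, the
module `Fin 2 → A`, with `Gq p` acting through `rq p` and `r` (matrix times vector), has a finite
flat model over `ℤ_[p]` on `PadicAlgCl p`-points (take `I = ⊥` in `IsFlatAt`, transport along
`V ⧸ ⊥ • ⊤ ≃ V`, then `LocalPoints6.hasFlatModel_local`).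
-/
import Mathlib
import Fermat.Agent.TW.FLAT.LocalPoints6
import Fermat.Agent.S53.Defs

set_option autoImplicit false
set_option linter.unusedSectionVars false
set_option linter.style.haveILetI false

open Fermat.Agent.TW.FLAT.Points6 Fermat.Agent.TW.FLAT.LocalPoints6
open Fermat.Agent.TW.LOC.Defs2
open Fermat.Agent.S53 (MatCont ofMatrix)
open GaloisRep

namespace Fermat.Agent.TW.FLAT.FlatLift7

noncomputable section

variable {p : ℕ} [Fact p.Prime] {A : Type} [CommRing A] [IsLocalRing A]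

/-- Global form: the `G_ℚ`-module `A²` of a flat matrix representation over a finite local ring
has a finite flat model over `ℤ_(p)`. -/
theorem hasFlatModel_global_of_isFlatAt [Finite A]
    (r : (AlgebraicClosure ℚ ≃ₐ[ℚ] AlgebraicClosure ℚ) →* Matrix (Fin 2) (Fin 2) A)
    (hr : MatCont r) (hfl : (ofMatrix r hr).IsFlatAt p) :
    HasFlatModel (ratLocalizedAt p) (AlgebraicClosure ℚ)
      (AlgebraicClosure ℚ ≃ₐ[ℚ] AlgebraicClosure ℚ) (Fin 2 → A)
      (fun σ v => (r σ).mulVec v) := by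
  have hfin : Finite (A ⧸ (⊥ : Ideal A)) :=
    Finite.of_surjective (Ideal.Quotient.mk (⊥ : Ideal A)) Ideal.Quotient.mk_surjective
  have h1 := ((isFlatAt_iff (ofMatrix r hr) p).1 hfl).2 ⊥ hfin
  have hbot : ((⊥ : Ideal A) • (⊤ : Submodule A (ofMatrix r hr).V)) = ⊥ := Submodule.bot_smul _
  let φ : ((ofMatrix r hr).V ⧸ ((⊥ : Ideal A) • (⊤ : Submodule A (ofMatrix r hr).V))) ≃+
      (Fin 2 → A) := (Submodule.quotEquivOfEqBot _ hbot).toAddEquiv
  refine HasFlatModel.of_addEquiv h1 φ ?_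
  intro σ m
  obtain ⟨v, rfl⟩ := Submodule.Quotient.mk_surjective _ m
  rfl

/-- **Local form**: `A²`, with `Gq p` acting through `r ∘ rq p`, has a finite flat model over
`ℤ_[p]` on `PadicAlgCl p`-points. -/
theorem hasFlatModel_of_isFlatAt [Finite A]
    (r : (AlgebraicClosure ℚ ≃ₐ[ℚ] AlgebraicClosure ℚ) →* Matrix (Fin 2) (Fin 2) A)
    (hr : MatCont r) (hfl : (ofMatrix r hr).IsFlatAt p) :
    HasFlatModel ℤ_[p] (PadicAlgCl p) (Gq p) (Fin 2 → A)
      (fun τ v => (r (rq p τ)).mulVec v) :=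
  hasFlatModel_local p (hasFlatModel_global_of_isFlatAt r hr hfl)

end

end Fermat.Agent.TW.FLAT.FlatLift7
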