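/-
Programme T (S56), chapter T/FLAT, local-local chain (lead): **(X4) top Kummer level implies
unramified**, in norm language.

Generic (`K` a normed field with ultrametric distance, `q` prime, `zeta` a primitive `q`-th root
of unity in `K`):
* `norm_pow_sub_one_le`: `|t| <= 1` implies `|t^n - 1| <= |t - 1|`;
* `norm_zeta_pow_sub_one`: `|zeta^j - 1| = |zeta - 1|` whenever `zeta^j != 1`;
* `norm_sub_one_le_of_pow`: `|y^q - 1| <= |zeta - 1|^q` implies `|y - 1| <= |zeta - 1|`;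
* `norm_natCast_eq`: `|q| = |zeta - 1|^(q-1)`; `norm_zeta_sub_one_lt_one`;
* `eq_of_top`: if `|y^q - 1| <= |zeta - 1|^q` and `tau` moves integral elements by `< 1`, fixes
  `zeta`, and `tau y = zeta^j y`, then `tau y = y`.
Local (`PadicAlgCl q`, `Iq q` of `TW/LOC/Defs2`):
* `eq_of_mem_Iq_of_top`: `|y^q w^q - 1| <= |zeta - 1|^q`, `w != 0`, `tau` in `Iq q` fixing `zeta`
  and `w`, `tau y = zeta^j y` imply `tau y = y`.
-/
import Mathlib
import Fermat.Agent.TW.LOC.TameProfinite4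

set_option autoImplicit false
set_option linter.unusedSectionVars false

namespace Fermat.Agent.TW.FLAT.KummerTop0

open Polynomial

section Generic

variable {K : Type*} [NormedField K] [IsUltrametricDist K]

theorem norm_sub_le_max' (a b : K) : ‖a - b‖ ≤ max ‖a‖ ‖b‖ := by
  have := IsUltrametricDist.norm_add_le_max a (-b)
  rwa [norm_neg, ← sub_eq_add_neg] at this

theorem norm_pow_sub_one_le (t : K) (ht : ‖t‖ ≤ 1) (n : ℕ) : ‖t ^ n - 1‖ ≤ ‖t - 1‖ := by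
  induction n with
  | zero => simp
  | succ n ih =>
    have : t ^ (n + 1) - 1 = t * (t ^ n - 1) + (t - 1) := by ring
    rw [this]
    refine le_trans (IsUltrametricDist.norm_add_le_max _ _) (max_le ?_ le_rfl)
    rw [norm_mul]
    calc ‖t‖ * ‖t ^ n - 1‖ ≤ 1 * ‖t - 1‖ := mul_le_mul ht ih (norm_nonneg _) zero_le_one
      _ = _ := one_mul _

variable {q : ℕ} (hq : q.Prime) {ζ : K} (hζ : IsPrimitiveRoot ζ q)
include hq hζ

theorem norm_zeta_eq_one : ‖ζ‖ = 1 := by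
  have h1 : ‖ζ‖ ^ q = 1 := by rw [← norm_pow, hζ.pow_eq_one, norm_one]
  exact (pow_eq_one_iff_of_nonneg (norm_nonneg ζ) hq.ne_zero).1 h1

/-- All `ζ ^ j ≠ 1` are equally far from `1`. -/
theorem norm_zeta_pow_sub_one (j : ℕ) (hj : ζ ^ j ≠ 1) : ‖ζ ^ j - 1‖ = ‖ζ - 1‖ := by
  have hζ1 : ‖ζ‖ = 1 := norm_zeta_eq_one hq hζ
  apply le_antisymm (norm_pow_sub_one_le ζ hζ1.le j)
  -- `ζ` is a power of `ζ ^ j`
  have hndvd : ¬ q ∣ j := fun h => hj ((hζ.pow_eq_one_iff_dvd j).2 h)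
  have hcop : Nat.Coprime j q := ((Nat.Prime.coprime_iff_not_dvd hq).2 hndvd).symm
  have hprim : IsPrimitiveRoot (ζ ^ j) q := hζ.pow_of_coprime j hcop
  have : NeZero q := ⟨hq.ne_zero⟩
  obtain ⟨i, -, hi⟩ := hprim.eq_pow_of_pow_eq_one hζ.pow_eq_one
  have h1 : ‖ζ ^ j‖ ≤ 1 := by rw [norm_pow, hζ1, one_pow]
  calc ‖ζ - 1‖ = ‖(ζ ^ j) ^ i - 1‖ := by rw [hi]
    _ ≤ ‖ζ ^ j - 1‖ := norm_pow_sub_one_le _ h1 i

/-- If `‖y ^ q - 1‖ ≤ ‖ζ - 1‖ ^ q` then `‖y - 1‖ ≤ ‖ζ - 1‖`. -/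
theorem norm_sub_one_le_of_pow (y : K) (hy : ‖y ^ q - 1‖ ≤ ‖ζ - 1‖ ^ q) : ‖y - 1‖ ≤ ‖ζ - 1‖ := by
  classical
  have : NeZero q := ⟨hq.ne_zero⟩
  have hζ1 : ‖ζ‖ = 1 := norm_zeta_eq_one hq hζ
  have hprod : y ^ q - 1 = ∏ μ ∈ nthRootsFinset q (1 : K), (y - μ) := by
    have := congrArg (Polynomial.eval y) (X_pow_sub_one_eq_prod hq.pos hζ)
    simpa [Polynomial.eval_prod] using this
  have hcard : (nthRootsFinset q (1 : K)).card = q := hζ.card_nthRootsFinset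
  by_contra hlt
  rw [not_le] at hlt
  -- every factor is `> ‖ζ - 1‖`
  have hall : ∀ μ ∈ nthRootsFinset q (1 : K), ‖ζ - 1‖ < ‖y - μ‖ := by
    intro μ hμ
    by_contra hle
    rw [not_lt] at hle
    have hμ1 : μ ^ q = 1 := (mem_nthRootsFinset hq.pos (1 : K)).1 hμ
    obtain ⟨i, -, hi⟩ := hζ.eq_pow_of_pow_eq_one hμ1
    have h2 : ‖μ - 1‖ ≤ ‖ζ - 1‖ := by
      rw [← hi]; exact norm_pow_sub_one_le ζ hζ1.le i
    have h3 : y - 1 = (y - μ) + (μ - 1) := by ring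
    have h4 : ‖y - 1‖ ≤ ‖ζ - 1‖ := by
      rw [h3]
      exact le_trans (IsUltrametricDist.norm_add_le_max _ _) (max_le hle h2)
    exact absurd h4 (not_le.2 hlt)
  have hpos : 0 < ‖ζ - 1‖ := norm_pos_iff.2 (sub_ne_zero.2 (hζ.ne_one hq.one_lt))
  have h5 : ‖ζ - 1‖ ^ q < ‖y ^ q - 1‖ := by
    have hpow : ‖ζ - 1‖ ^ q = ∏ _μ ∈ nthRootsFinset q (1 : K), ‖ζ - 1‖ := by
      rw [Finset.prod_const, hcard]
    rw [hprod, norm_prod, hpow]
    apply Finset.prod_lt_prod_of_nonempty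
    · intro μ _; exact hpos
    · exact hall
    · rw [← Finset.card_pos, hcard]; exact hq.pos
  exact absurd hy (not_le.2 h5)

/-- `‖q‖ = ‖ζ - 1‖ ^ (q - 1)`. -/
theorem norm_natCast_eq : ‖(q : K)‖ = ‖ζ - 1‖ ^ (q - 1) := by
  have hq1 : q = (q - 1) + 1 := (Nat.succ_pred_eq_of_pos hq.pos).symm
  have hζ' : IsPrimitiveRoot ζ ((q - 1) + 1) := by rwa [← hq1]
  have hprod := hζ'.prod_one_sub_pow_eq_order
  have h1 : ((q : ℕ) : K) = ∏ k ∈ Finset.range (q - 1), (1 - ζ ^ (k + 1)) := by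
    rw [hprod]
    have : ((q : ℕ) : K) = (((q - 1) + 1 : ℕ) : K) := by rw [← hq1]
    rw [this]; push_cast; ring
  rw [h1, norm_prod]
  have : ∀ k ∈ Finset.range (q - 1), ‖1 - ζ ^ (k + 1)‖ = ‖ζ - 1‖ := by
    intro k hk
    rw [← norm_neg, neg_sub]
    apply norm_zeta_pow_sub_one hq hζ
    intro h
    have hdvd := (hζ.pow_eq_one_iff_dvd (k + 1)).1 h
    have hlt : k + 1 < q := by
      have := Finset.mem_range.1 hk; omega
    exact absurd (Nat.le_of_dvd (by omega) hdvd) (by omega)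
  rw [Finset.prod_congr rfl this, Finset.prod_const, Finset.card_range]

/-- In residue characteristic `q`, `‖ζ - 1‖ < 1`. -/
theorem norm_zeta_sub_one_lt_one (hqK : ‖(q : K)‖ < 1) : ‖ζ - 1‖ < 1 := by
  by_contra h
  rw [not_lt] at h
  have := norm_natCast_eq hq hζ
  rw [this] at hqK
  exact absurd (one_le_pow₀ h) (not_le.2 hqK)

/-- **Top level ⇒ unramified.**  If `‖y ^ q - 1‖ ≤ ‖ζ - 1‖ ^ q`, and `τ` is a ring endomorphism
which moves integral elements by less than `1` ("`τ` lies in the inertia group"), fixes `ζ` and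
multiplies `y` by a `q`-th root of unity, then `τ y = y`. -/
theorem eq_of_top (hqK : ‖(q : K)‖ < 1) (y : K) (hy : ‖y ^ q - 1‖ ≤ ‖ζ - 1‖ ^ q) (τ : K →+* K)
    (hτ : ∀ x : K, ‖x‖ ≤ 1 → ‖τ x - x‖ < 1) (hτζ : τ ζ = ζ) (j : ℕ) (hτy : τ y = ζ ^ j * y) :
    τ y = y := by
  by_contra hne
  have hj : ζ ^ j ≠ 1 := by
    intro h; rw [h, one_mul] at hτy; exact hne hτy
  have hlam1 : ‖ζ - 1‖ < 1 := norm_zeta_sub_one_lt_one hq hζ hqK
  have hζne : ζ - 1 ≠ 0 := sub_ne_zero.2 (hζ.ne_one hq.one_lt)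
  have hpos : 0 < ‖ζ - 1‖ := norm_pos_iff.2 hζne
  have hy1 : ‖y - 1‖ ≤ ‖ζ - 1‖ := norm_sub_one_le_of_pow hq hζ y hy
  have hynorm : ‖y‖ = 1 := by
    have h1 : ‖y - 1‖ < ‖(1 : K)‖ := by rw [norm_one]; exact lt_of_le_of_lt hy1 hlam1
    have h2 : y = 1 + (y - 1) := by ring
    have h3 := IsUltrametricDist.norm_add_eq_max_of_norm_ne_norm (x := (1 : K)) (y := y - 1)
      (ne_of_gt h1)
    rw [← h2, max_eq_left h1.le, norm_one] at h3
    exact h3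
  set β := (y - 1) * (ζ - 1)⁻¹ with hβ
  have hβ1 : ‖β‖ ≤ 1 := by
    rw [hβ, norm_mul, norm_inv, ← div_eq_mul_inv, div_le_one hpos]
    exact hy1
  have h4 := hτ β hβ1
  have h5 : τ β - β = (ζ ^ j - 1) * y * (ζ - 1)⁻¹ := by
    rw [hβ, map_mul, map_sub, map_one, map_inv₀, map_sub, map_one, hτζ, hτy]
    ring
  rw [h5, norm_mul, norm_mul, norm_inv, norm_zeta_pow_sub_one hq hζ j hj, hynorm, mul_one,
    mul_inv_cancel₀ hpos.ne'] at h4
  exact lt_irrefl _ h4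

end Generic

/-! ### The local form: `Ω = PadicAlgCl q`, `Iq q` -/

section Local

open Fermat.Agent.TW.LOC.Defs2 Fermat.Agent.TW.LOC.TameProfinite4

variable (q : ℕ) [Fact q.Prime]

theorem norm_natCast_q_lt_one : ‖((q : ℕ) : PadicAlgCl q)‖ < 1 := by
  have h1 : ‖((q : ℚ_[q]) : PadicAlgCl q)‖ = ‖(q : ℚ_[q])‖ := PadicAlgCl.norm_extends q _
  have h2 : ((q : ℚ_[q]) : PadicAlgCl q) = ((q : ℕ) : PadicAlgCl q) := map_natCast _ _
  rw [← h2, h1, Padic.norm_p]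
  have hq : (1 : ℝ) < q := by exact_mod_cast (Fact.out : q.Prime).one_lt
  exact inv_lt_one_of_one_lt₀ hq

/-- **(X4)** In `PadicAlgCl q`: if the Kummer generator `y` (`τ y = ζ ^ j y`) becomes, after
multiplication by some `w ≠ 0` fixed by `τ`, `‖ζ - 1‖ ^ q`-close to `1` (`‖y ^ q w ^ q - 1‖ ≤
‖ζ - 1‖ ^ q`, "top level"), then every `τ ∈ Iq q` fixing `ζ` and `w` fixes `y`. -/
theorem eq_of_mem_Iq_of_top (ζ : PadicAlgCl q) (hζ : IsPrimitiveRoot ζ q) (y w : PadicAlgCl q)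
    (hw : w ≠ 0) (hyw : ‖y ^ q * w ^ q - 1‖ ≤ ‖ζ - 1‖ ^ q) (τ : Gq q) (hτ : τ ∈ Iq q)
    (hτζ : τ ζ = ζ) (hτw : τ w = w) (j : ℕ) (hτy : τ y = ζ ^ j * y) : τ y = y := by
  have h1 : ‖(y * w) ^ q - 1‖ ≤ ‖ζ - 1‖ ^ q := by rwa [mul_pow]
  have h2 : (τ : PadicAlgCl q →+* PadicAlgCl q) (y * w) = ζ ^ j * (y * w) := by
    change τ (y * w) = _
    rw [map_mul, hτy, hτw, mul_assoc]
  have h3 := eq_of_top (Fact.out : q.Prime) hζ (norm_natCast_q_lt_one q) (y * w) h1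
    (τ : PadicAlgCl q →+* PadicAlgCl q) (fun x hx => (mem_Iq_iff_norm q τ).1 hτ x hx) hτζ j h2
  change τ (y * w) = y * w at h3
  rw [map_mul, hτw] at h3
  exact mul_right_cancel₀ hw h3

end Local

end Fermat.Agent.TW.FLAT.KummerTop0
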