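/-
Programme T (S56), chapter FLAT, brick (F-f.1) — helper7.

THE ORDINARY FLAT LOCAL CONDITION AT `p` IN AN ADAPTED BASIS: DEFINITION AND COUNT.

`k` a finite field of characteristic `p` odd, `rbar : GQ →* M2 k` whose restriction to `Gq p`
(along `rq p`) is upper triangular, `(ω *; 0 1)` on `Iq p` (`IsAdapted`).

* closure properties of `PeuCount4.IsPeu` (`isPeu_congr`, `isPeu_add`, `isPeu_smul`, `isPeu_cob`);
* `chi1 chi2 eta : Gq p →* kˣ` (diagonal characters, `η = χ₁/χ₂`, `= ω` on inertia);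
* `ordZ rbar ζ hζ` : the level cocycles `z` of `ad⁰ρ̄|Gq p` with `z₁₀ = 0`, `z₀₀ = 0` on `Iq p`,
  `IsPeu ζ z₀₁`; `ordL` : their classes in `Hq1 (ad0Rep rbar) p`;
* **`card_ordL_le`** : `Finite ordL ∧ #ordL ≤ #k · #H⁰(Gq p, ad⁰ρ̄)` provided `ρ̄₀₁` is PEU.
-/
import Mathlib
import Fermat.Agent.TW.DEF.Basic1
import Fermat.Agent.TW.LOC.UnramGq4
import Fermat.Agent.TW.LOC.TWLocalAd4
import Fermat.Agent.TW.FLAT.Ordinary7
import Fermat.Agent.TW.FLAT.PeuCount4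

set_option autoImplicit false
set_option linter.unusedSectionVars false
set_option linter.style.haveILetI false

open groupCohomology
open Fermat.Agent.PT.PRO.LevelCoh28 Fermat.Agent.PT.GLUE.Objects21
open Fermat.Agent.TW.LOC.Defs2
open Fermat.Agent.TW.LOC.TameProfinite4 Fermat.Agent.TW.LOC.UnramGq4
open Fermat.Agent.TW.LOC.TWLocalAd4 (IsLevelAt isDiscrete_Mq_ad0 Mq_ρ_apply)
open Fermat.Agent.TW.DEF.Basic1 (GQ M2 Mq Hq1 ad0Rep ad0Val ad0Val_injective ad0Val_ρ_apply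
  trace_ad0Val rbar_mul_inv rbar_inv_mul mem_sl2_iff sl2)
open Fermat.Agent.TW.FLAT.Ordinary7 (IsCycExp exists_isCycExp)
open Fermat.Agent.TW.FLAT.PeuCount4 (IsPeu finite_and_card_peu_le)

namespace Fermat.Agent.TW.FLAT.OrdCount7

noncomputable section

variable {p : ℕ} [Fact p.Prime]

/-! ### Powers of a `p`-th root of unity indexed by `ZMod p` -/

section Zeta

variable {ζ : PadicAlgCl p}

theorem zeta_pow_val_eq (hζ : ζ ^ p = 1) (x : ZMod p) (n : ℕ) (h : (n : ZMod p) = x) :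
    ζ ^ x.val = ζ ^ n := by
  subst h
  rw [ZMod.val_natCast, ← pow_eq_pow_mod n hζ]

theorem zeta_pow_val_add (hζ : ζ ^ p = 1) (a b : ZMod p) :
    ζ ^ (a + b).val = ζ ^ a.val * ζ ^ b.val := by
  rw [zeta_pow_val_eq hζ (a + b) (a.val + b.val) (by simp), pow_add]

theorem zeta_pow_val_natCast_mul (hζ : ζ ^ p = 1) (c : ℕ) (a : ZMod p) :
    ζ ^ ((c : ZMod p) * a).val = (ζ ^ a.val) ^ c := by
  rw [zeta_pow_val_eq hζ ((c : ZMod p) * a) (a.val * c) (by simp [mul_comm]), pow_mul]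

theorem norm_zeta (hζ : ζ ^ p = 1) : ‖ζ‖ = 1 := by
  have hp0 : p ≠ 0 := (Fact.out : p.Prime).ne_zero
  have h1 : ‖ζ‖ ^ p = 1 := by rw [← norm_pow, hζ, norm_one]
  exact (pow_eq_one_iff_of_nonneg (norm_nonneg ζ) hp0).1 h1

end Zeta

/-! ### Closure properties of `IsPeu` -/

section Peu

variable {k : Type} [Field k] [Algebra (ZMod p) k] {ζ : PadicAlgCl p}

theorem isPeu_congr {β β' : Gq p → k} (h : ∀ σ ∈ Iq p, β σ = β' σ) (hβ : IsPeu ζ β) :
    IsPeu ζ β' := by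
  intro ℓ
  obtain ⟨u, hu, h1⟩ := hβ ℓ
  exact ⟨u, hu, fun σ hσ => by rw [← h σ hσ]; exact h1 σ hσ⟩

theorem isPeu_zero : IsPeu ζ (fun _ : Gq p => (0 : k)) := by
  intro ℓ
  exact ⟨1, norm_one, fun σ _ => by simp⟩

theorem isPeu_add (hζ : ζ ^ p = 1) {β β' : Gq p → k} (hβ : IsPeu ζ β) (hβ' : IsPeu ζ β') :
    IsPeu ζ (fun σ => β σ + β' σ) := by
  intro ℓ
  obtain ⟨u, hu, h1⟩ := hβ ℓ
  obtain ⟨u', hu', h1'⟩ := hβ' ℓ
  refine ⟨u * u', by rw [norm_mul, hu, hu', one_mul], fun σ hσ => ?_⟩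
  rw [map_mul, h1 σ hσ, h1' σ hσ, map_add, zeta_pow_val_add hζ]
  ring

theorem isPeu_smul (a : k) {β : Gq p → k} (hβ : IsPeu ζ β) : IsPeu ζ (fun σ => a * β σ) := by
  intro ℓ
  obtain ⟨u, hu, h1⟩ := hβ (ℓ.comp (LinearMap.mulLeft (ZMod p) a))
  exact ⟨u, hu, fun σ hσ => by simpa using h1 σ hσ⟩

/-- Coboundaries of the twisted module are PEU. -/
theorem isPeu_cob (hζ : ζ ^ p = 1) (e : Gq p → k)
    (he : ∀ σ ∈ Iq p, ∀ c : ℕ, IsCycExp p σ c → e σ = (c : k)) (n : k) :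
    IsPeu ζ (fun σ => (e σ - 1) * n) := by
  intro ℓ
  refine ⟨ζ ^ (ℓ n).val, by rw [norm_pow, norm_zeta hζ, one_pow], fun σ hσ => ?_⟩
  haveI : NeZero p := ⟨(Fact.out : p.Prime).ne_zero⟩
  obtain ⟨c, hc⟩ := exists_isCycExp p σ
  rw [map_pow, hc ζ hζ]
  show (ζ ^ c) ^ (ℓ n).val = ζ ^ (ℓ ((e σ - 1) * n)).val * ζ ^ (ℓ n).val
  rw [he σ hσ c hc]
  have h1 : ((c : k) - 1) * n = ((c : ZMod p) - 1) • n := by
    rw [Algebra.smul_def, map_sub, map_natCast, map_one]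
  rw [h1, map_smul, smul_eq_mul, ← zeta_pow_val_add hζ, sub_mul, one_mul, sub_add_cancel,
    zeta_pow_val_natCast_mul hζ, ← pow_mul, ← pow_mul, mul_comm]

end Peu

/-! ### Adapted bases and the diagonal characters -/

section Adapted

variable {k : Type} [Field k]

/-- `rbar|Gq p` is upper triangular, and `(ω *; 0 1)` on inertia. -/
structure IsAdapted (p : ℕ) [Fact p.Prime] (rbar : GQ →* M2 k) : Prop where
  lower : ∀ τ : Gq p, rbar (rq p τ) 1 0 = 0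
  one11 : ∀ τ ∈ Iq p, rbar (rq p τ) 1 1 = 1
  cyc00 : ∀ τ ∈ Iq p, ∀ c : ℕ, IsCycExp p τ c → rbar (rq p τ) 0 0 = (c : k)

variable {rbar : GQ →* M2 k}

theorem IsAdapted.lower_inv (had : IsAdapted p rbar) (τ : Gq p) : rbar (rq p τ)⁻¹ 1 0 = 0 := by
  rw [← map_inv]
  exact had.lower τ⁻¹

theorem IsAdapted.one11_inv (had : IsAdapted p rbar) {τ : Gq p} (hτ : τ ∈ Iq p) :
    rbar (rq p τ)⁻¹ 1 1 = 1 := by
  rw [← map_inv]
  exact had.one11 τ⁻¹ ((Iq p).inv_mem hτ)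

/-- The upper left entry as a monoid homomorphism. -/
def d0 (had : IsAdapted p rbar) : Gq p →* k where
  toFun τ := rbar (rq p τ) 0 0
  map_one' := by simp
  map_mul' σ τ := by
    rw [map_mul, map_mul, Matrix.mul_apply, Fin.sum_univ_two, had.lower τ, mul_zero, add_zero]

/-- The lower right entry as a monoid homomorphism. -/
def d1 (had : IsAdapted p rbar) : Gq p →* k where
  toFun τ := rbar (rq p τ) 1 1
  map_one' := by simp
  map_mul' σ τ := by
    rw [map_mul, map_mul, Matrix.mul_apply, Fin.sum_univ_two, had.lower σ, zero_mul, zero_add]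

/-- `χ₁`. -/
def chi1 (had : IsAdapted p rbar) : Gq p →* kˣ := (d0 had).toHomUnits

/-- `χ₂`. -/
def chi2 (had : IsAdapted p rbar) : Gq p →* kˣ := (d1 had).toHomUnits

/-- `η = χ₁ / χ₂`, the character of the upper nilpotent line. -/
def eta (had : IsAdapted p rbar) : Gq p →* kˣ := chi1 had * (chi2 had)⁻¹

@[simp] theorem coe_chi1 (had : IsAdapted p rbar) (τ : Gq p) :
    ((chi1 had τ : kˣ) : k) = rbar (rq p τ) 0 0 := rfl

@[simp] theorem coe_chi2 (had : IsAdapted p rbar) (τ : Gq p) :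
    ((chi2 had τ : kˣ) : k) = rbar (rq p τ) 1 1 := rfl

theorem entry00_mul_inv (had : IsAdapted p rbar) (τ : Gq p) :
    rbar (rq p τ) 0 0 * rbar (rq p τ)⁻¹ 0 0 = 1 := by
  have h := congrFun (congrFun (rbar_mul_inv rbar (rq p τ)) 0) 0
  rw [Matrix.mul_apply, Fin.sum_univ_two, had.lower_inv τ, mul_zero, add_zero] at h
  simpa using h

theorem entry11_mul_inv (had : IsAdapted p rbar) (τ : Gq p) :
    rbar (rq p τ) 1 1 * rbar (rq p τ)⁻¹ 1 1 = 1 := by
  have h := congrFun (congrFun (rbar_mul_inv rbar (rq p τ)) 1) 1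
  rw [Matrix.mul_apply, Fin.sum_univ_two, had.lower τ, zero_mul, zero_add] at h
  simpa using h

theorem entry01_mul_inv (rbar : GQ →* M2 k) (τ : Gq p) :
    rbar (rq p τ) 0 0 * rbar (rq p τ)⁻¹ 0 1 + rbar (rq p τ) 0 1 * rbar (rq p τ)⁻¹ 1 1 = 0 := by
  have h := congrFun (congrFun (rbar_mul_inv rbar (rq p τ)) 0) 1
  rw [Matrix.mul_apply, Fin.sum_univ_two] at h
  simpa using h

theorem coe_eta (had : IsAdapted p rbar) (τ : Gq p) :
    ((eta had τ : kˣ) : k) = rbar (rq p τ) 0 0 * rbar (rq p τ)⁻¹ 1 1 := by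
  have h1 : rbar (rq p τ)⁻¹ 1 1 = (rbar (rq p τ) 1 1)⁻¹ :=
    eq_inv_of_mul_eq_one_right (entry11_mul_inv had τ)
  rw [eta, MonoidHom.mul_apply, MonoidHom.inv_apply, Units.val_mul, Units.val_inv_eq_inv_val,
    coe_chi1, coe_chi2, h1]

theorem coe_eta_of_mem_Iq (had : IsAdapted p rbar) {τ : Gq p} (hτ : τ ∈ Iq p) (c : ℕ)
    (hc : IsCycExp p τ c) : ((eta had τ : kˣ) : k) = (c : k) := by
  rw [coe_eta, had.one11_inv hτ, mul_one, had.cyc00 τ hτ c hc]

/-! ### Conjugation of Borel matrices by upper triangular matrices -/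

theorem conj_entry10 (had : IsAdapted p rbar) (τ : Gq p) {X : M2 k} (hX : X 1 0 = 0) :
    (rbar (rq p τ) * X * rbar (rq p τ)⁻¹) 1 0 = 0 := by
  simp only [Matrix.mul_apply, Fin.sum_univ_two, had.lower τ, had.lower_inv τ, hX]
  ring

theorem conj_entry00 (had : IsAdapted p rbar) (τ : Gq p) {X : M2 k} (hX : X 1 0 = 0) :
    (rbar (rq p τ) * X * rbar (rq p τ)⁻¹) 0 0 = X 0 0 := by
  simp only [Matrix.mul_apply, Fin.sum_univ_two, had.lower_inv τ, hX]
  linear_combination (X 0 0) * entry00_mul_inv had τ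

theorem conj_entry01 (had : IsAdapted p rbar) (τ : Gq p) {X : M2 k} (hX : X 1 0 = 0)
    (hX1 : X 1 1 = - X 0 0) :
    (rbar (rq p τ) * X * rbar (rq p τ)⁻¹) 0 1 =
      ((eta had τ : kˣ) : k) * X 0 1 - 2 * X 0 0 * (rbar (rq p τ) 0 1 * rbar (rq p τ)⁻¹ 1 1) := by
  rw [coe_eta]
  simp only [Matrix.mul_apply, Fin.sum_univ_two, hX, hX1]
  linear_combination (X 0 0) * entry01_mul_inv rbar τ

end Adapted

/-! ### The ordinary flat condition -/

section Cond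

variable {k : Type} [Field k] [Algebra (ZMod p) k] (rbar : GQ →* M2 k) (ζ : PadicAlgCl p)

/-- The level cocycles of `ad⁰ρ̄|Gq p` with values in the Borel, diagonal part vanishing on
inertia, and peu ramifié upper right entry. -/
def ordZ (hζ : ζ ^ p = 1) : Submodule k (Gq p → Mq (ad0Rep rbar) p) where
  carrier := {c | c ∈ Z1 (levelLoc p) (Mq (ad0Rep rbar) p) ∧
    (∀ τ, ad0Val rbar (c τ) 1 0 = 0) ∧ (∀ τ ∈ Iq p, ad0Val rbar (c τ) 0 0 = 0) ∧
    IsPeu ζ (fun τ => ad0Val rbar (c τ) 0 1)}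
  add_mem' := by
    rintro c c' ⟨h0, h1, h2, h3⟩ ⟨h0', h1', h2', h3'⟩
    refine ⟨Submodule.add_mem _ h0 h0', fun τ => ?_, fun τ hτ => ?_, ?_⟩
    · show ad0Val rbar (c τ + c' τ) 1 0 = 0
      rw [map_add, Matrix.add_apply, h1 τ, h1' τ, add_zero]
    · show ad0Val rbar (c τ + c' τ) 0 0 = 0
      rw [map_add, Matrix.add_apply, h2 τ hτ, h2' τ hτ, add_zero]
    · have := isPeu_add hζ h3 h3'
      refine isPeu_congr (fun τ _ => ?_) this
      show _ = ad0Val rbar (c τ + c' τ) 0 1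
      rw [map_add, Matrix.add_apply]
  zero_mem' := by
    refine ⟨Submodule.zero_mem _, fun τ => ?_, fun τ _ => ?_, ?_⟩
    · show ad0Val rbar 0 1 0 = 0
      rw [map_zero, Matrix.zero_apply]
    · show ad0Val rbar 0 0 0 = 0
      rw [map_zero, Matrix.zero_apply]
    · refine isPeu_congr (fun τ _ => ?_) isPeu_zero
      show (0 : k) = ad0Val rbar 0 0 1
      rw [map_zero, Matrix.zero_apply]
  smul_mem' := by
    rintro a c ⟨h0, h1, h2, h3⟩
    refine ⟨Submodule.smul_mem _ a h0, fun τ => ?_, fun τ hτ => ?_, ?_⟩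
    · show ad0Val rbar (a • c τ) 1 0 = 0
      rw [map_smul, Matrix.smul_apply, h1 τ, smul_zero]
    · show ad0Val rbar (a • c τ) 0 0 = 0
      rw [map_smul, Matrix.smul_apply, h2 τ hτ, smul_zero]
    · refine isPeu_congr (fun τ _ => ?_) (isPeu_smul a h3)
      show _ = ad0Val rbar (a • c τ) 0 1
      rw [map_smul, Matrix.smul_apply, smul_eq_mul]

theorem mem_ordZ_iff (hζ : ζ ^ p = 1) (c : Gq p → Mq (ad0Rep rbar) p) :
    c ∈ ordZ rbar ζ hζ ↔ c ∈ Z1 (levelLoc p) (Mq (ad0Rep rbar) p) ∧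
      (∀ τ, ad0Val rbar (c τ) 1 0 = 0) ∧
      (∀ τ ∈ Iq p, ad0Val rbar (c τ) 0 0 = 0) ∧ IsPeu ζ (fun τ => ad0Val rbar (c τ) 0 1) :=
  Iff.rfl

theorem ordZ_le (hζ : ζ ^ p = 1) : ordZ rbar ζ hζ ≤ Z1 (levelLoc p) (Mq (ad0Rep rbar) p) :=
  fun _ hc => hc.1

/-- The class map on `ordZ`. -/
def ordMk (hζ : ζ ^ p = 1) : ↥(ordZ rbar ζ hζ) →ₗ[k] Hq1 (ad0Rep rbar) p :=
  (H1mk (levelLoc p) (Mq (ad0Rep rbar) p)).comp (Submodule.inclusion (ordZ_le rbar ζ hζ))

/-- **The ordinary flat local condition at `p`** (adapted basis). -/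
def ordL (hζ : ζ ^ p = 1) : Submodule k (Hq1 (ad0Rep rbar) p) :=
  LinearMap.range (ordMk rbar ζ hζ)

theorem mem_ordL_of (hζ : ζ ^ p = 1) (c : ↥(Z1 (levelLoc p) (Mq (ad0Rep rbar) p)))
    (hc : c.1 ∈ ordZ rbar ζ hζ) : H1mk (levelLoc p) (Mq (ad0Rep rbar) p) c ∈ ordL rbar ζ hζ :=
  ⟨⟨c.1, hc⟩, rfl⟩

end Cond

/-! ### The count -/

section Count

theorem card_eq_card_ker_mul_card_range {R M N : Type*} [Ring R] [AddCommGroup M] [Module R M]
    [AddCommGroup N] [Module R N] (f : M →ₗ[R] N) :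
    Nat.card M = Nat.card (LinearMap.ker f) * Nat.card (LinearMap.range f) := by
  rw [Submodule.card_eq_card_quotient_mul_card (LinearMap.ker f),
    Nat.card_congr f.quotKerEquivRange.toEquiv]

variable {k : Type} [Field k] {rbar : GQ →* M2 k}

/-- The cocycle relation in matrix form. -/
theorem val_mul (c : ↥(Z1 (levelLoc p) (Mq (ad0Rep rbar) p))) (σ τ : Gq p) :
    ad0Val rbar (c.1 (σ * τ)) =
      rbar (rq p σ) * ad0Val rbar (c.1 τ) * rbar (rq p σ)⁻¹ + ad0Val rbar (c.1 σ) := by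
  have h := (mem_cocycles₁_iff c.1).1 c.2.1 σ τ
  rw [h, map_add, Mq_ρ_apply]

theorem entry11_eq_neg (X : ad0Rep rbar) : ad0Val rbar X 1 1 = - ad0Val rbar X 0 0 := by
  have h := trace_ad0Val rbar X
  rw [Matrix.trace_fin_two] at h
  linear_combination h

section X

variable (had : IsAdapted p rbar) (c : ↥(Z1 (levelLoc p) (Mq (ad0Rep rbar) p)))
  (h10 : ∀ τ, ad0Val rbar (c.1 τ) 1 0 = 0)

include had h10

theorem x_mul (σ τ : Gq p) : ad0Val rbar (c.1 (σ * τ)) 0 0 =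
    ad0Val rbar (c.1 τ) 0 0 + ad0Val rbar (c.1 σ) 0 0 := by
  rw [val_mul, Matrix.add_apply, conj_entry00 had σ (h10 τ)]

theorem x_one : ad0Val rbar (c.1 1) 0 0 = 0 := by
  have h := x_mul had c h10 1 1
  rw [mul_one] at h
  exact left_eq_add.mp h

theorem x_pow (φ : Gq p) (j : ℕ) :
    ad0Val rbar (c.1 (φ ^ j)) 0 0 = j • ad0Val rbar (c.1 φ) 0 0 := by
  induction j with
  | zero => rw [pow_zero, zero_smul, x_one had c h10]
  | succ j ih => rw [pow_succ, x_mul had c h10, ih, succ_nsmul, add_comm]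

/-- The diagonal part of a Borel valued cocycle which is unramified is determined by its value
at a Frobenius lift. -/
theorem x_eq_zero (h00 : ∀ τ ∈ Iq p, ad0Val rbar (c.1 τ) 0 0 = 0) {φ : Gq p}
    (hφ : IsFrobLift p φ) (hφ0 : ad0Val rbar (c.1 φ) 0 0 = 0) (g : Gq p) :
    ad0Val rbar (c.1 g) 0 0 = 0 := by
  obtain ⟨U, hU, hinv⟩ := c.2.2
  obtain ⟨j, τ, hτ, u, hu, rfl⟩ := gen_of_isFrobLift p hφ hU g
  rw [hinv _ u hu, x_mul had c h10, x_pow had c h10, hφ0, h00 τ hτ, smul_zero, add_zero]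

end X

/-- The upper right entry of a cocycle with values in the upper nilpotent line is a cocycle for
`η`. -/
theorem y_mul (had : IsAdapted p rbar) (c : ↥(Z1 (levelLoc p) (Mq (ad0Rep rbar) p)))
    (h10 : ∀ τ, ad0Val rbar (c.1 τ) 1 0 = 0) (h00 : ∀ τ, ad0Val rbar (c.1 τ) 0 0 = 0)
    (σ τ : Gq p) : ad0Val rbar (c.1 (σ * τ)) 0 1 =
      ad0Val rbar (c.1 σ) 0 1 + ((eta had σ : kˣ) : k) * ad0Val rbar (c.1 τ) 0 1 := by
  rw [val_mul, Matrix.add_apply, conj_entry01 had σ (h10 τ) (entry11_eq_neg _), h00 τ]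
  ring

end Count

/-! ### The bound on the cocycles -/

section CountZ

variable {k : Type} [Field k] [Finite k] [Algebra (ZMod p) k] {rbar : GQ →* M2 k}
  {ζ : PadicAlgCl p}

/-- An element of `ordZ` as a level cocycle. -/
def toZ1 (hζ : ζ ^ p = 1) (c : ↥(ordZ rbar ζ hζ)) : ↥(Z1 (levelLoc p) (Mq (ad0Rep rbar) p)) :=
  ⟨c.1, c.2.1⟩

/-- The value at `φ` of the diagonal part. -/
def xAt (hζ : ζ ^ p = 1) (φ : Gq p) : ↥(ordZ rbar ζ hζ) →ₗ[k] k where
  toFun c := ad0Val rbar (c.1 φ) 0 0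
  map_add' c c' := by
    show ad0Val rbar (c.1 φ + c'.1 φ) 0 0 = _
    rw [map_add, Matrix.add_apply]
  map_smul' a c := by
    show ad0Val rbar (a • c.1 φ) 0 0 = _
    rw [map_smul, Matrix.smul_apply]
    rfl

theorem finite_ker_xAt (hp2 : p ≠ 2) (hζ : IsPrimitiveRoot ζ p) (had : IsAdapted p rbar)
    {φ : Gq p} (hφ : IsFrobLift p φ) :
    Finite ↥(LinearMap.ker (xAt (rbar := rbar) hζ.pow_eq_one φ)) ∧
      Nat.card ↥(LinearMap.ker (xAt (rbar := rbar) hζ.pow_eq_one φ)) ≤ Nat.card k ^ 2 := by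
  obtain ⟨hfin, hcard⟩ := finite_and_card_peu_le hp2 ζ hζ (eta had)
    (fun σ hσ c hc => coe_eta_of_mem_Iq had hσ c hc)
  have hx : ∀ c : ↥(LinearMap.ker (xAt (rbar := rbar) hζ.pow_eq_one φ)),
      ∀ g, ad0Val rbar (c.1.1 g) 0 0 = 0 := fun c g =>
    x_eq_zero had (toZ1 hζ.pow_eq_one c.1) c.1.2.2.1 c.1.2.2.2.1 hφ (LinearMap.mem_ker.1 c.2) g
  let Ψ : ↥(LinearMap.ker (xAt (rbar := rbar) hζ.pow_eq_one φ)) →
      {β : Gq p → k // (∀ σ τ, β (σ * τ) = β σ + ((eta had σ : kˣ) : k) * β τ) ∧ IsPeu ζ β} :=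
    fun c => ⟨fun τ => ad0Val rbar (c.1.1 τ) 0 1,
      fun σ τ => y_mul had (toZ1 hζ.pow_eq_one c.1) c.1.2.2.1 (hx c) σ τ, c.1.2.2.2.2⟩
  have hΨ : Function.Injective Ψ := by
    intro c c' hcc
    have h01 : ∀ τ, ad0Val rbar (c.1.1 τ) 0 1 = ad0Val rbar (c'.1.1 τ) 0 1 :=
      fun τ => congrFun (congrArg Subtype.val hcc) τ
    apply Subtype.ext
    apply Subtype.ext
    funext τ
    apply ad0Val_injective
    ext i j
    fin_cases i <;> fin_cases j
    · exact (hx c τ).trans (hx c' τ).symm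
    · exact h01 τ
    · exact (c.1.2.2.1 τ).trans (c'.1.2.2.1 τ).symm
    · show ad0Val rbar (c.1.1 τ) 1 1 = ad0Val rbar (c'.1.1 τ) 1 1
      rw [entry11_eq_neg, entry11_eq_neg, hx c τ, hx c' τ]
  haveI := hfin
  exact ⟨Finite.of_injective Ψ hΨ, (Nat.card_le_card_of_injective Ψ hΨ).trans hcard⟩

theorem finite_ordZ (hp2 : p ≠ 2) (hζ : IsPrimitiveRoot ζ p) (had : IsAdapted p rbar) :
    Finite ↥(ordZ rbar ζ hζ.pow_eq_one) ∧
      Nat.card ↥(ordZ rbar ζ hζ.pow_eq_one) ≤ Nat.card k ^ 2 * Nat.card k := by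
  obtain ⟨φ, hφ⟩ := exists_isFrobLift p
  obtain ⟨hfin, hcard⟩ := finite_ker_xAt hp2 hζ had hφ
  have h1 := card_eq_card_ker_mul_card_range (R := k) (M := ↥(ordZ rbar ζ hζ.pow_eq_one)) (N := k)
    (xAt (rbar := rbar) hζ.pow_eq_one φ)
  have h2 : Nat.card ↥(LinearMap.range (xAt (rbar := rbar) hζ.pow_eq_one φ)) ≤ Nat.card k :=
    Nat.card_le_card_of_injective _ Subtype.val_injective
  have h3 : 0 < Nat.card ↥(LinearMap.range (xAt (rbar := rbar) hζ.pow_eq_one φ)) :=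
    Nat.card_pos
  have h4 : 0 < Nat.card ↥(LinearMap.ker (xAt (rbar := rbar) hζ.pow_eq_one φ)) := Nat.card_pos
  refine ⟨Nat.finite_of_card_ne_zero ?_, ?_⟩
  · rw [h1]
    exact (Nat.mul_pos h4 h3).ne'
  · rw [h1]
    exact Nat.mul_le_mul hcard h2

end CountZ

/-! ### Coboundaries of the Borel and the final count -/

section CountL

variable {k : Type} [Field k]

/-- The Borel matrix `(x y; 0 -x)`. -/
def borelM : (k × k) →ₗ[k] M2 k where
  toFun v := !![v.1, v.2; 0, -v.1]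
  map_add' v w := by
    ext i j
    fin_cases i <;> fin_cases j <;> simp [add_comm]
  map_smul' a v := by
    ext i j
    fin_cases i <;> fin_cases j <;> simp

theorem borelM_mem (v : k × k) : borelM v ∈ sl2 k := by
  rw [mem_sl2_iff, Matrix.trace_fin_two]
  simp [borelM]

/-- The Borel matrix `(x y; 0 -x)` as an element of `ad⁰ρ̄`. -/
def borel (rbar : GQ →* M2 k) : (k × k) →ₗ[k] (ad0Rep rbar) :=
  LinearMap.codRestrict (sl2 k) borelM borelM_mem

@[simp] theorem ad0Val_borel (rbar : GQ →* M2 k) (v : k × k) :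
    ad0Val rbar (borel rbar v) = !![v.1, v.2; 0, -v.1] := rfl

theorem borel_injective (rbar : GQ →* M2 k) : Function.Injective (borel rbar) := by
  intro v w h
  have h1 := congrArg (ad0Val rbar) h
  rw [ad0Val_borel, ad0Val_borel] at h1
  have h00 := congrFun (congrFun h1 0) 0
  have h01 := congrFun (congrFun h1 0) 1
  simp at h00 h01
  exact Prod.ext h00 h01

variable [Finite k] [Algebra (ZMod p) k] {rbar : GQ →* M2 k} {ζ : PadicAlgCl p}

/-- The coboundary of a Borel matrix. -/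
def cobBorel (rbar : GQ →* M2 k) : (k × k) →ₗ[k] (Gq p → Mq (ad0Rep rbar) p) :=
  (d₀₁ (Mq (ad0Rep rbar) p)).hom.comp (borel rbar)

theorem ad0Val_cobBorel (v : k × k) (τ : Gq p) :
    ad0Val rbar (cobBorel (p := p) rbar v τ) =
      rbar (rq p τ) * ad0Val rbar (borel rbar v) * rbar (rq p τ)⁻¹ - ad0Val rbar (borel rbar v) := by
  show ad0Val rbar ((d₀₁ (Mq (ad0Rep rbar) p)).hom (borel rbar v) τ) = _
  rw [d₀₁_hom_apply, map_sub, Mq_ρ_apply]

theorem cobBorel_mem_ordZ (hζ : ζ ^ p = 1) (had : IsAdapted p rbar) (hlev : IsLevelAt p rbar)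
    (hb : IsPeu ζ (fun τ => rbar (rq p τ) 0 1)) (v : k × k) :
    cobBorel (p := p) rbar v ∈ ordZ rbar ζ hζ := by
  have hX : ad0Val rbar (borel rbar v) = !![v.1, v.2; 0, -v.1] := rfl
  have hX00 : ad0Val rbar (borel rbar v) 0 0 = v.1 := by rw [hX]; rfl
  have hX01 : ad0Val rbar (borel rbar v) 0 1 = v.2 := by rw [hX]; rfl
  have hX10 : ad0Val rbar (borel rbar v) 1 0 = 0 := by rw [hX]; rfl
  have hX11 : ad0Val rbar (borel rbar v) 1 1 = - ad0Val rbar (borel rbar v) 0 0 := by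
    rw [hX]; rfl
  refine ⟨coboundaries₁_le_Z1 (isDiscrete_Mq_ad0 hlev) ⟨borel rbar v, rfl⟩, fun τ => ?_,
    fun τ _ => ?_, ?_⟩
  · rw [ad0Val_cobBorel, Matrix.sub_apply, conj_entry10 had τ hX10, hX10, sub_zero]
  · rw [ad0Val_cobBorel, Matrix.sub_apply, conj_entry00 had τ hX10, sub_self]
  · have h1 : IsPeu ζ (fun τ => (((eta had τ : kˣ) : k) - 1) * v.2 +
        (-2 * v.1) * rbar (rq p τ) 0 1) :=
      isPeu_add hζ (isPeu_cob hζ (fun τ => ((eta had τ : kˣ) : k))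
        (fun σ hσ c hc => coe_eta_of_mem_Iq had hσ c hc) v.2) (isPeu_smul (-2 * v.1) hb)
    refine isPeu_congr (fun τ hτ => ?_) h1
    rw [ad0Val_cobBorel, Matrix.sub_apply, conj_entry01 had τ hX10 hX11, had.one11_inv hτ,
      hX00, hX01]
    ring

/-- The coboundary map into `ordZ`. -/
def cobZ (hζ : ζ ^ p = 1) (had : IsAdapted p rbar) (hlev : IsLevelAt p rbar)
    (hb : IsPeu ζ (fun τ => rbar (rq p τ) 0 1)) : (k × k) →ₗ[k] ↥(ordZ rbar ζ hζ) :=
  LinearMap.codRestrict (ordZ rbar ζ hζ) (cobBorel (p := p) rbar)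
    (cobBorel_mem_ordZ hζ had hlev hb)

/-- **The count**: `#L_p^{ord} ≤ #k · #H⁰(ℚ_p, ad⁰ρ̄)`. -/
theorem card_ordL_le (hp2 : p ≠ 2) (hζ : IsPrimitiveRoot ζ p) (had : IsAdapted p rbar)
    (hlev : IsLevelAt p rbar) (hb : IsPeu ζ (fun τ => rbar (rq p τ) 0 1)) :
    Finite ↥(ordL rbar ζ hζ.pow_eq_one) ∧ Nat.card ↥(ordL rbar ζ hζ.pow_eq_one) ≤
      Nat.card k * Nat.card ↥(Mq (ad0Rep rbar) p).ρ.invariants := by
  obtain ⟨hfinZ, hcardZ⟩ := finite_ordZ (rbar := rbar) hp2 hζ had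
  haveI : Finite (Mq (ad0Rep rbar) p) := Finite.of_injective _ (ad0Val_injective rbar)
  have hfinL : Finite ↥(ordL rbar ζ hζ.pow_eq_one) :=
    Finite.of_surjective (ordMk rbar ζ hζ.pow_eq_one).rangeRestrict
      (LinearMap.surjective_rangeRestrict _)
  refine ⟨hfinL, ?_⟩
  set D := cobZ hζ.pow_eq_one had hlev hb with hD
  -- `#Z = #ker π · #L`
  have e1 := card_eq_card_ker_mul_card_range (R := k) (M := ↥(ordZ rbar ζ hζ.pow_eq_one))
    (N := Hq1 (ad0Rep rbar) p) (ordMk rbar ζ hζ.pow_eq_one)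
  -- `#k² = #ker D · #range D`
  have e2 := card_eq_card_ker_mul_card_range (R := k) (M := k × k)
    (N := ↥(ordZ rbar ζ hζ.pow_eq_one)) D
  rw [Nat.card_prod] at e2
  -- `range D ≤ ker π`
  have hle : LinearMap.range D ≤ LinearMap.ker (ordMk rbar ζ hζ.pow_eq_one) := by
    rintro _ ⟨v, rfl⟩
    rw [LinearMap.mem_ker]
    show H1mk (levelLoc p) (Mq (ad0Rep rbar) p) ⟨cobBorel (p := p) rbar v, _⟩ = 0
    rw [H1mk_eq_zero_iff]
    exact ⟨borel rbar v, rfl⟩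
  have e3 : Nat.card ↥(LinearMap.range D) ≤
      Nat.card ↥(LinearMap.ker (ordMk rbar ζ hζ.pow_eq_one)) :=
    Nat.card_le_card_of_injective (Submodule.inclusion hle) (Submodule.inclusion_injective hle)
  -- `ker D ↪ invariants`
  have e4 : Nat.card ↥(LinearMap.ker D) ≤ Nat.card ↥(Mq (ad0Rep rbar) p).ρ.invariants := by
    let Φ : ↥(LinearMap.ker D) → ↥(Mq (ad0Rep rbar) p).ρ.invariants := fun v =>
      ⟨borel rbar v.1, by
        rw [Representation.mem_invariants]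
        intro τ
        have h1 : D v.1 = 0 := LinearMap.mem_ker.1 v.2
        have h2 : cobBorel (p := p) rbar v.1 τ = 0 := by
          have := congrArg Subtype.val h1
          exact congrFun this τ
        have h3 : (d₀₁ (Mq (ad0Rep rbar) p)).hom (borel rbar v.1) τ = 0 := h2
        rw [d₀₁_hom_apply] at h3
        exact sub_eq_zero.1 h3⟩
    have hΦ : Function.Injective Φ := by
      intro v w h
      apply Subtype.ext
      exact borel_injective rbar (congrArg Subtype.val h)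
    exact Nat.card_le_card_of_injective Φ hΦ
  have hk : 0 < Nat.card k := Nat.card_pos
  have hk2 : 0 < Nat.card k * Nat.card k := Nat.mul_pos hk hk
  apply Nat.le_of_mul_le_mul_left _ hk2
  calc Nat.card k * Nat.card k * Nat.card ↥(ordL rbar ζ hζ.pow_eq_one)
      = Nat.card ↥(LinearMap.ker D) * Nat.card ↥(LinearMap.range D) *
          Nat.card ↥(ordL rbar ζ hζ.pow_eq_one) := by rw [e2]
    _ ≤ Nat.card ↥(Mq (ad0Rep rbar) p).ρ.invariants *
          Nat.card ↥(LinearMap.ker (ordMk rbar ζ hζ.pow_eq_one)) *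
          Nat.card ↥(ordL rbar ζ hζ.pow_eq_one) :=
        Nat.mul_le_mul_right _ (Nat.mul_le_mul e4 e3)
    _ = Nat.card ↥(Mq (ad0Rep rbar) p).ρ.invariants *
          Nat.card ↥(ordZ rbar ζ hζ.pow_eq_one) := by rw [e1, ordL, mul_assoc]
    _ ≤ Nat.card ↥(Mq (ad0Rep rbar) p).ρ.invariants * (Nat.card k ^ 2 * Nat.card k) :=
        Nat.mul_le_mul_left _ hcardZ
    _ = Nat.card k * Nat.card k *
          (Nat.card k * Nat.card ↥(Mq (ad0Rep rbar) p).ρ.invariants) := by ring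

end CountL

end

end Fermat.Agent.TW.FLAT.OrdCount7
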