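/-
Programme T (S56), chapter FLAT, brick (F-f.2) — helper7.

FLAT LIFTS OF AN ORDINARY RESIDUAL REPRESENTATION ARE ORDINARY AND PEU RAMIFIÉ (adapted basis).

`k` a field which is a `ZMod p`-algebra, `p` odd, `rbar : GQ →* M2 k` adapted at `p`
(`OrdCount7.IsAdapted`), `r : GQ →* M2 k[ε]` a lift such that the module `k[ε]²` (with `Gq p`
acting through `r ∘ rq p`) has a finite flat model over `ℤ_[p]`.  Then:

* `augI_le_cycSub` : inertia acts through `ω` on `aug_I (k[ε]²)` ((O1), chain `εke₁ ⊂ εV ⊂ ke₁+εV`);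
* `exists_unit_entry01` : for every additive `L : k[ε] → 𝔽_p` the Kummer cocycle
  `σ ↦ ζ ^ L (r σ)₀₁` of `Iq p` has a unit radical ((O2)); hence `isPeu_rbar01`, `isPeu_snd01`;
* `exists_line` : `aug_I = M^{I=ω} = k[ε]·(e₁ + t e₂)`, `t ∈ εk`;
* **`resq1_liftClass_mem_ordL`** : the class of `r` at `p` lies in `OrdCount7.ordL`.
-/
import Mathlib
import Fermat.Agent.TW.DEF.LiftCocycle1
import Fermat.Agent.TW.FLAT.OrdCount7
import Fermat.Agent.TW.FLAT.PeuLocal7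
import Fermat.Agent.TW.FLAT.KummerTop0
import Fermat.Agent.TW.LOC.UnramFixed4

set_option autoImplicit false
set_option linter.unusedSectionVars false
set_option linter.style.haveILetI false

open groupCohomology
open Fermat.Agent.PT.PRO.LevelCoh28 Fermat.Agent.PT.GLUE.Objects21
open Fermat.Agent.TW.LOC.Defs2
open Fermat.Agent.TW.LOC.TWLocalAd4 (IsLevelAt isDiscrete_Mq_ad0 Mq_ρ_apply)
open Fermat.Agent.TW.DEF.Basic1 (GQ M2 Mq Hq1 ad0Rep ad0Val ad0Val_injective ad0Val_ρ_apply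
  trace_ad0Val rbar_mul_inv rbar_inv_mul mem_sl2_iff sl2 resq1 resZ1 resZ1_apply resq1_mk'
  isLevelHom_rq)
open Fermat.Agent.TW.DEF.LiftCocycle1
open Fermat.Agent.TW.FLAT.Points6 (HasFlatModel)
open Fermat.Agent.TW.FLAT.FlatIntrinsic7 (augI IsCyc act_add act_zero)
open Fermat.Agent.TW.FLAT.Ordinary7
open Fermat.Agent.TW.FLAT.PeuCount4 (IsPeu)
open Fermat.Agent.TW.FLAT.OrdCount7

namespace Fermat.Agent.TW.FLAT.OrdLift7

noncomputable section

variable {p : ℕ} [Fact p.Prime] {k : Type} [Field k] [Algebra (ZMod p) k]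

/-- `k` has characteristic `p`. -/
theorem charP_of_algebra : CharP k p :=
  charP_of_injective_algebraMap (algebraMap (ZMod p) k).injective p

/-- The cyclotomic character is nontrivial on inertia (`p` odd). -/
theorem exists_mem_Iq_ne (hp2 : p ≠ 2) {ζ : PadicAlgCl p} (hζ : IsPrimitiveRoot ζ p) :
    ∃ σ ∈ Iq p, σ ζ ≠ ζ := by
  by_contra hcon
  push Not at hcon
  have hpr : p.Prime := Fact.out
  have hlt := Fermat.Agent.TW.FLAT.KummerTop0.norm_zeta_sub_one_lt_one hpr hζ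
    (Fermat.Agent.TW.FLAT.KummerTop0.norm_natCast_q_lt_one p)
  have hfix : ∀ τ ∈ Iq p, τ (ζ - 1) = ζ - 1 := fun τ hτ => by
    rw [map_sub, map_one, hcon τ hτ]
  have h1 := Fermat.Agent.TW.LOC.UnramFixed4.norm_le_norm_q_of_fixed p (ζ - 1) hfix hlt
  rw [Fermat.Agent.TW.FLAT.KummerTop0.norm_natCast_eq hpr hζ] at h1
  have hpos : 0 < ‖ζ - 1‖ := by
    rw [norm_pos_iff, sub_ne_zero]
    exact hζ.ne_one hpr.one_lt
  have h3 : 2 ≤ p - 1 := by
    have := hpr.two_le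
    omega
  have h4 : ‖ζ - 1‖ ^ (p - 1) ≤ ‖ζ - 1‖ ^ 2 := pow_le_pow_of_le_one hpos.le hlt.le h3
  have h5 : ‖ζ - 1‖ ^ 2 < ‖ζ - 1‖ := by
    rw [sq]
    calc ‖ζ - 1‖ * ‖ζ - 1‖ < 1 * ‖ζ - 1‖ := mul_lt_mul_of_pos_right hlt hpos
      _ = _ := one_mul _
  exact absurd (h1.trans_lt (h4.trans_lt h5)) (lt_irrefl _)

/-! ### The module `k[ε]²` of a lift -/

section Lift

variable {rbar : GQ →* M2 k} {r : GQ →* M2 (DualNumber k)}

/-- The action of `Gq p` on `k[ε]²` through `r ∘ rq p`. -/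
abbrev actR (p : ℕ) [Fact p.Prime] (r : GQ →* M2 (DualNumber k)) :
    Gq p → (Fin 2 → DualNumber k) → (Fin 2 → DualNumber k) :=
  fun τ v => (r (rq p τ)).mulVec v

theorem mulVec_zero' (R : M2 (DualNumber k)) (v : Fin 2 → DualNumber k) :
    R.mulVec v 0 = R 0 0 * v 0 + R 0 1 * v 1 := by
  simp [Matrix.mulVec, dotProduct, Fin.sum_univ_two]

theorem mulVec_one' (R : M2 (DualNumber k)) (v : Fin 2 → DualNumber k) :
    R.mulVec v 1 = R 1 0 * v 0 + R 1 1 * v 1 := by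
  simp [Matrix.mulVec, dotProduct, Fin.sum_univ_two]

theorem fst_entry (h : IsLiftOf rbar r) (σ : GQ) (i j : Fin 2) :
    (r σ i j).fst = rbar σ i j := congrFun (congrFun (h σ) i) j

theorem actR_smul (a : DualNumber k) (τ : Gq p) (v : Fin 2 → DualNumber k) :
    actR p r τ (a • v) = a • actR p r τ v := Matrix.mulVec_smul _ _ _

theorem nsmul_eq_zero (m : Fin 2 → DualNumber k) : p • m = 0 := by
  haveI := charP_of_algebra (p := p) (k := k)
  funext i
  rw [Pi.smul_apply, Pi.zero_apply]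
  apply TrivSqZeroExt.ext
  · rw [TrivSqZeroExt.fst_smul, TrivSqZeroExt.fst_zero, nsmul_eq_mul, CharP.cast_eq_zero,
      zero_mul]
  · rw [TrivSqZeroExt.snd_smul, TrivSqZeroExt.snd_zero, nsmul_eq_mul, CharP.cast_eq_zero,
      zero_mul]

/-- `ε k e₁`. -/
def N1 (k : Type) [Field k] : AddSubgroup (Fin 2 → DualNumber k) where
  carrier := {v | v 1 = 0 ∧ (v 0).fst = 0}
  zero_mem' := by simp
  add_mem' := by
    rintro a b ⟨h1, h2⟩ ⟨h1', h2'⟩
    exact ⟨by rw [Pi.add_apply, h1, h1', add_zero],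
      by rw [Pi.add_apply, TrivSqZeroExt.fst_add, h2, h2', add_zero]⟩
  neg_mem' := by
    rintro a ⟨h1, h2⟩
    exact ⟨by rw [Pi.neg_apply, h1, neg_zero], by rw [Pi.neg_apply, TrivSqZeroExt.fst_neg, h2,
      neg_zero]⟩

/-- `ε V`. -/
def N2 (k : Type) [Field k] : AddSubgroup (Fin 2 → DualNumber k) where
  carrier := {v | (v 0).fst = 0 ∧ (v 1).fst = 0}
  zero_mem' := by simp
  add_mem' := by
    rintro a b ⟨h1, h2⟩ ⟨h1', h2'⟩
    exact ⟨by rw [Pi.add_apply, TrivSqZeroExt.fst_add, h1, h1', add_zero],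
      by rw [Pi.add_apply, TrivSqZeroExt.fst_add, h2, h2', add_zero]⟩
  neg_mem' := by
    rintro a ⟨h1, h2⟩
    exact ⟨by rw [Pi.neg_apply, TrivSqZeroExt.fst_neg, h1, neg_zero],
      by rw [Pi.neg_apply, TrivSqZeroExt.fst_neg, h2, neg_zero]⟩

/-- `k e₁ + ε V`. -/
def N3 (k : Type) [Field k] : AddSubgroup (Fin 2 → DualNumber k) where
  carrier := {v | (v 1).fst = 0}
  zero_mem' := by simp
  add_mem' := by
    rintro a b h1 h1'
    show ((a + b) 1).fst = 0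
    rw [Pi.add_apply, TrivSqZeroExt.fst_add, h1, h1', add_zero]
  neg_mem' := by
    rintro a h1
    show ((-a) 1).fst = 0
    rw [Pi.neg_apply, TrivSqZeroExt.fst_neg, h1, neg_zero]

variable (hfl : HasFlatModel ℤ_[p] (PadicAlgCl p) (Gq p) (Fin 2 → DualNumber k) (actR p r))

/-- **(O1)** for the lift: inertia acts on `aug_I (k[ε]²)` through the cyclotomic character. -/
theorem augI_le_cycSub (hp2 : p ≠ 2) (had : IsAdapted p rbar) (h : IsLiftOf rbar r) :
    augI (actR p r) ≤ cycSub hfl p := by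
  haveI : NeZero p := ⟨(Fact.out : p.Prime).ne_zero⟩
  refine augI_le_cycSub_of_chain4 hfl hp2 p nsmul_eq_zero (N1 k) (N2 k) (N3 k) ?_ ?_ ?_ ?_
  · rintro σ hσ c hc m ⟨hm1, hm0⟩
    have h00 := had.cyc00 σ hσ c hc
    have h10 := had.lower σ
    funext i
    fin_cases i
    · show (r (rq p σ)).mulVec m 0 = (c • m) 0
      rw [mulVec_zero', hm1, mul_zero, add_zero, Pi.smul_apply]
      apply TrivSqZeroExt.ext
      · simp [hm0]
      · simp [hm0, fst_entry h, h00]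
    · show (r (rq p σ)).mulVec m 1 = (c • m) 1
      rw [mulVec_one', hm1, mul_zero, add_zero, Pi.smul_apply, hm1, smul_zero]
      apply TrivSqZeroExt.ext
      · simp [hm0]
      · simp [hm0, fst_entry h, h10]
  · rintro σ hσ m ⟨hm0, hm1⟩
    have h10 := had.lower σ
    have h11 := had.one11 σ hσ
    refine ⟨?_, ?_⟩
    · show (r (rq p σ)).mulVec m 1 - m 1 = 0
      rw [mulVec_one']
      apply TrivSqZeroExt.ext
      · simp [hm0, hm1]
      · simp [hm0, hm1, fst_entry h, h10, h11]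
    · show ((r (rq p σ)).mulVec m 0 - m 0).fst = 0
      rw [mulVec_zero']
      simp [hm0, hm1]
  · rintro σ hσ c hc m hm1
    have hm1' : (m 1).fst = 0 := hm1
    have h00 := had.cyc00 σ hσ c hc
    have h10 := had.lower σ
    refine ⟨?_, ?_⟩
    · show ((r (rq p σ)).mulVec m 0 - (c • m) 0).fst = 0
      rw [mulVec_zero', Pi.smul_apply]
      simp [hm1', fst_entry h, h00]
    · show ((r (rq p σ)).mulVec m 1 - (c • m) 1).fst = 0
      rw [mulVec_one', Pi.smul_apply]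
      simp [hm1', fst_entry h, h10]
  · intro σ hσ m
    have h10 := had.lower σ
    have h11 := had.one11 σ hσ
    show ((r (rq p σ)).mulVec m 1 - m 1).fst = 0
    rw [mulVec_one']
    simp [fst_entry h, h10, h11]

end Lift

/-! ### (O2): the upper right entry is peu ramifié -/

section Peu

variable {rbar : GQ →* M2 k} {r : GQ →* M2 (DualNumber k)}
  (hfl : HasFlatModel ℤ_[p] (PadicAlgCl p) (Gq p) (Fin 2 → DualNumber k) (actR p r))

include hfl

/-- **(O2)** for the lift: for every additive `L : k[ε] → 𝔽_p`, the Kummer cocycle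
`σ ↦ ζ ^ L ((r σ)₀₁)` of `Iq p` has a unit radical. -/
theorem exists_unit_entry01 (hp2 : p ≠ 2) (had : IsAdapted p rbar) (h : IsLiftOf rbar r)
    {ζ : PadicAlgCl p} (hζ : ζ ^ p = 1) (L : DualNumber k →+ ZMod p) :
    ∃ u : PadicAlgCl p, ‖u‖ = 1 ∧
      ∀ σ ∈ Iq p, σ u = ζ ^ (L (r (rq p σ) 0 1)).val * u := by
  haveI : NeZero p := ⟨(Fact.out : p.Prime).ne_zero⟩
  have hcyc := augI_le_cycSub hfl hp2 had h
  obtain ⟨u, hu, hσu⟩ := Fermat.Agent.TW.FLAT.PeuLocal7.exists_unit_kummer hfl (cycSub hfl p)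
    (fun σ _ t ht => act_mem_cycSub hfl σ ht)
    (fun v => ζ ^ (L (v 0)).val) (by simp)
    (fun a _ b _ => by
      show ζ ^ (L ((a + b) 0)).val = _
      rw [Pi.add_apply, map_add, zeta_pow_val_add hζ])
    (fun σ hσ t ht => by
      obtain ⟨c, hc⟩ := exists_isCycExp p σ
      have h1 : actR p r σ t = c • t := ht σ hσ c hc
      show ζ ^ (L ((actR p r σ t) 0)).val = σ (ζ ^ (L (t 0)).val)
      rw [h1, Pi.smul_apply, map_nsmul, nsmul_eq_mul, zeta_pow_val_natCast_mul hζ, map_pow,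
        hc ζ hζ, ← pow_mul, ← pow_mul, mul_comm])
    (fun i => if i = 1 then 1 else 0)
    (fun σ hσ => hcyc (act_sub_mem_augI hσ _))
  refine ⟨u, hu, fun σ hσ => ?_⟩
  rw [hσu σ hσ]
  congr 4
  show (r (rq p σ)).mulVec (fun i => if i = 1 then 1 else 0) 0 - (if (0 : Fin 2) = 1 then 1 else 0)
    = r (rq p σ) 0 1
  rw [mulVec_zero']
  simp

/-- `ρ̄₀₁` is peu ramifié. -/
theorem isPeu_rbar01 (hp2 : p ≠ 2) (had : IsAdapted p rbar) (h : IsLiftOf rbar r)
    {ζ : PadicAlgCl p} (hζ : ζ ^ p = 1) : IsPeu ζ (fun τ => rbar (rq p τ) 0 1) := by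
  intro ℓ
  obtain ⟨u, hu, h1⟩ := exists_unit_entry01 hfl hp2 had h hζ
    (ℓ.toAddMonoidHom.comp (TrivSqZeroExt.fstHom k k k).toLinearMap.toAddMonoidHom)
  refine ⟨u, hu, fun σ hσ => ?_⟩
  rw [h1 σ hσ]
  congr 3
  exact congrArg ℓ (fst_entry h (rq p σ) 0 1)

/-- The `ε`-part of `r₀₁` is peu ramifié. -/
theorem isPeu_snd01 (hp2 : p ≠ 2) (had : IsAdapted p rbar) (h : IsLiftOf rbar r)
    {ζ : PadicAlgCl p} (hζ : ζ ^ p = 1) : IsPeu ζ (fun τ => (r (rq p τ) 0 1).snd) := by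
  intro ℓ
  obtain ⟨u, hu, h1⟩ := exists_unit_entry01 hfl hp2 had h hζ
    (ℓ.toAddMonoidHom.comp (TrivSqZeroExt.sndHom k k).toAddMonoidHom)
  exact ⟨u, hu, fun σ hσ => h1 σ hσ⟩

end Peu

/-! ### The line `aug_I = k[ε]·(e₁ + t e₂)` -/

section Line

variable {rbar : GQ →* M2 k} {r : GQ →* M2 (DualNumber k)}

theorem smul_mem_augI (a : DualNumber k) {v : Fin 2 → DualNumber k}
    (hv : v ∈ augI (actR p r)) : a • v ∈ augI (actR p r) := by
  unfold augI at hv ⊢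
  induction hv using AddSubgroup.closure_induction with
  | mem x hx =>
    obtain ⟨σ, hσ, y, rfl⟩ := hx
    apply AddSubgroup.subset_closure
    exact ⟨σ, hσ, a • y, by rw [actR_smul, smul_sub]⟩
  | zero => rw [smul_zero]; exact zero_mem _
  | add x y _ _ hx hy => rw [smul_add]; exact add_mem hx hy
  | neg x _ hx => rw [smul_neg]; exact neg_mem hx

theorem isUnit_of_fst_ne_zero {a : DualNumber k} (h : a.fst ≠ 0) : IsUnit a :=
  TrivSqZeroExt.isUnit_iff_isUnit_fst.2 (IsUnit.mk0 _ h)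

theorem mul_self_of_fst_eq_zero {t : DualNumber k} (ht : t.fst = 0) : t * t = 0 := by
  apply TrivSqZeroExt.ext <;> simp [ht]

theorem natCast_ne_one_of_ne {ζ : PadicAlgCl p} (hζ : ζ ^ p = 1) {c : ℕ} (hne : ζ ^ c ≠ ζ) :
    (c : k) ≠ 1 := by
  intro hc
  apply hne
  have h1' : algebraMap (ZMod p) k (c : ZMod p) = algebraMap (ZMod p) k 1 := by
    rw [map_natCast, map_one]
    exact hc
  have h2 : (c : ZMod p) = ((1 : ℕ) : ZMod p) := by
    rw [Nat.cast_one]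
    exact (algebraMap (ZMod p) k).injective h1'
  have h3 : c % p = 1 % p := (ZMod.natCast_eq_natCast_iff' c 1 p).1 h2
  have hp1 : 1 % p = 1 := Nat.one_mod_eq_one.2 (Fact.out : p.Prime).ne_one
  rw [pow_eq_pow_mod c hζ, h3, hp1, pow_one]

variable (hfl : HasFlatModel ℤ_[p] (PadicAlgCl p) (Gq p) (Fin 2 → DualNumber k) (actR p r))

include hfl

theorem smul_mem_cycSub (a : DualNumber k) {v : Fin 2 → DualNumber k}
    (hv : v ∈ cycSub hfl p) : a • v ∈ cycSub hfl p := by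
  intro σ hσ c hc
  rw [actR_smul, hv σ hσ c hc, smul_comm]

/-- **The ordinary line of the lift.** -/
theorem exists_line (hp2 : p ≠ 2) (had : IsAdapted p rbar) (h : IsLiftOf rbar r)
    {ζ : PadicAlgCl p} (hζ : IsPrimitiveRoot ζ p) :
    ∃ t : DualNumber k, t.fst = 0 ∧
      (fun i : Fin 2 => if i = 0 then 1 else t) ∈ augI (actR p r) ∧
      ∀ v ∈ cycSub hfl p, v 1 = v 0 * t := by
  haveI : NeZero p := ⟨(Fact.out : p.Prime).ne_zero⟩
  have hcyc := augI_le_cycSub hfl hp2 had h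
  obtain ⟨σ₀, hσ₀, hne⟩ := exists_mem_Iq_ne hp2 hζ
  obtain ⟨c₀, hc₀⟩ := exists_isCycExp p σ₀
  rw [hc₀ ζ hζ.pow_eq_one] at hne
  have hc1 : (c₀ : k) ≠ 1 := natCast_ne_one_of_ne hζ.pow_eq_one hne
  have h00 : (r (rq p σ₀) 0 0).fst = (c₀ : k) := by
    rw [fst_entry h]
    exact had.cyc00 σ₀ hσ₀ c₀ hc₀
  have h10 : (r (rq p σ₀) 1 0).fst = 0 := by
    rw [fst_entry h]
    exact had.lower σ₀
  have h11 : (r (rq p σ₀) 1 1).fst = 1 := by
    rw [fst_entry h]
    exact had.one11 σ₀ hσ₀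
  set e₁ : Fin 2 → DualNumber k := fun i => if i = 0 then 1 else 0 with he₁
  have hx : actR p r σ₀ e₁ - e₁ ∈ augI (actR p r) := act_sub_mem_augI hσ₀ e₁
  have hx0 : (actR p r σ₀ e₁ - e₁) 0 = r (rq p σ₀) 0 0 - 1 := by
    show (r (rq p σ₀)).mulVec e₁ 0 - e₁ 0 = _
    rw [mulVec_zero']
    simp [he₁]
  have hx1 : (actR p r σ₀ e₁ - e₁) 1 = r (rq p σ₀) 1 0 := by
    show (r (rq p σ₀)).mulVec e₁ 1 - e₁ 1 = _
    rw [mulVec_one']
    simp [he₁]
  have hu : IsUnit (r (rq p σ₀) 0 0 - 1) := by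
    apply isUnit_of_fst_ne_zero
    rw [TrivSqZeroExt.fst_sub, h00, TrivSqZeroExt.fst_one]
    exact sub_ne_zero.2 hc1
  obtain ⟨u, hu⟩ := hu
  set t : DualNumber k := (↑u⁻¹ : DualNumber k) * r (rq p σ₀) 1 0 with ht
  have ht0 : t.fst = 0 := by
    rw [ht, TrivSqZeroExt.fst_mul, h10, mul_zero]
  have hx₁ : (fun i : Fin 2 => if i = 0 then 1 else t) =
      (↑u⁻¹ : DualNumber k) • (actR p r σ₀ e₁ - e₁) := by
    funext i
    fin_cases i
    · show (1 : DualNumber k) = (↑u⁻¹ : DualNumber k) * (actR p r σ₀ e₁ - e₁) 0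
      rw [hx0, ← hu, Units.inv_mul]
    · show t = (↑u⁻¹ : DualNumber k) * (actR p r σ₀ e₁ - e₁) 1
      rw [hx1]
  have hx₁mem : (fun i : Fin 2 => if i = 0 then 1 else t) ∈ augI (actR p r) := by
    rw [hx₁]
    exact smul_mem_augI _ hx
  refine ⟨t, ht0, hx₁mem, fun v hv => ?_⟩
  -- `w = v - v 0 • x₁` has first coordinate `0` and lies in `M^{I=ω}`
  set w : Fin 2 → DualNumber k := v - v 0 • (fun i : Fin 2 => if i = 0 then 1 else t) with hw
  have hwmem : w ∈ cycSub hfl p :=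
    sub_mem hv (smul_mem_cycSub hfl _ (hcyc hx₁mem))
  have hw0 : w 0 = 0 := by
    show v 0 - v 0 * 1 = 0
    rw [mul_one, sub_self]
  have hw1 : w 1 = v 1 - v 0 * t := rfl
  have h1 := congrFun (hwmem σ₀ hσ₀ c₀ hc₀) 1
  have h2 : actR p r σ₀ w 1 = r (rq p σ₀) 1 1 * w 1 := by
    show (r (rq p σ₀)).mulVec w 1 = _
    rw [mulVec_one', hw0, mul_zero, zero_add]
  rw [h2, Pi.smul_apply, nsmul_eq_mul] at h1
  have h3 : (r (rq p σ₀) 1 1 - (c₀ : DualNumber k)) * w 1 = 0 := by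
    rw [sub_mul, h1, sub_self]
  have hu' : IsUnit (r (rq p σ₀) 1 1 - (c₀ : DualNumber k)) := by
    apply isUnit_of_fst_ne_zero
    rw [TrivSqZeroExt.fst_sub, h11, TrivSqZeroExt.fst_natCast]
    exact sub_ne_zero.2 (Ne.symm hc1)
  have h4 : w 1 = 0 := (hu'.mul_right_eq_zero).1 h3
  rw [hw1, sub_eq_zero] at h4
  exact h4

end Line

/-! ### Conjugation into the Borel, and the class of the lift -/

section Conj

/-- The lower nilpotent matrix `(0 0; w 0)`. -/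
def lowM (w : k) : M2 k := !![0, 0; w, 0]

theorem neg_lowM (w : k) : -lowM w = lowM (-w) := by
  ext i j
  fin_cases i <;> fin_cases j <;> simp [lowM]

theorem trace_lowM (w : k) : (lowM w).trace = 0 := by
  simp [lowM, Matrix.trace_fin_two]

theorem onePlusEps_lowM (w : k) :
    onePlusEps (lowM w) = !![1, 0; TrivSqZeroExt.inr w, 1] := by
  ext i j
  · fin_cases i <;> fin_cases j <;> rfl
  · fin_cases i <;> fin_cases j <;> rfl

variable (R : M2 (DualNumber k)) (t : DualNumber k)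

theorem conj00 : ((!![1, 0; -t, 1] : M2 (DualNumber k)) * R * !![1, 0; t, 1]) 0 0 =
    R 0 0 + R 0 1 * t := by
  rw [Matrix.mul_apply, Fin.sum_univ_two, Matrix.mul_apply, Matrix.mul_apply, Fin.sum_univ_two,
    Fin.sum_univ_two]
  simp

theorem conj01 : ((!![1, 0; -t, 1] : M2 (DualNumber k)) * R * !![1, 0; t, 1]) 0 1 = R 0 1 := by
  rw [Matrix.mul_apply, Fin.sum_univ_two, Matrix.mul_apply, Matrix.mul_apply, Fin.sum_univ_two,
    Fin.sum_univ_two]
  simp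

theorem conj10 : ((!![1, 0; -t, 1] : M2 (DualNumber k)) * R * !![1, 0; t, 1]) 1 0 =
    R 1 0 + R 1 1 * t - t * (R 0 0 + R 0 1 * t) := by
  rw [Matrix.mul_apply, Fin.sum_univ_two, Matrix.mul_apply, Matrix.mul_apply, Fin.sum_univ_two,
    Fin.sum_univ_two]
  simp
  ring

theorem conj11 : ((!![1, 0; -t, 1] : M2 (DualNumber k)) * R * !![1, 0; t, 1]) 1 1 =
    R 1 1 - t * R 0 1 := by
  rw [Matrix.mul_apply, Fin.sum_univ_two, Matrix.mul_apply, Matrix.mul_apply, Fin.sum_univ_two,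
    Fin.sum_univ_two]
  simp
  ring

end Conj

section Main

variable {rbar : GQ →* M2 k} {r : GQ →* M2 (DualNumber k)}
  (hfl : HasFlatModel ℤ_[p] (PadicAlgCl p) (Gq p) (Fin 2 → DualNumber k) (actR p r))

include hfl

/-- The relations between the entries of the lift on `Gq p` and `Iq p`. -/
theorem exists_relations (hp2 : p ≠ 2) (had : IsAdapted p rbar) (h : IsLiftOf rbar r)
    {ζ : PadicAlgCl p} (hζ : IsPrimitiveRoot ζ p) :
    ∃ w : k,
      (∀ τ : Gq p, r (rq p τ) 1 0 + r (rq p τ) 1 1 * TrivSqZeroExt.inr w =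
        (r (rq p τ) 0 0 + r (rq p τ) 0 1 * TrivSqZeroExt.inr w) * TrivSqZeroExt.inr w) ∧
      (∀ τ ∈ Iq p, ∀ c : ℕ, IsCycExp p τ c →
        r (rq p τ) 0 0 + r (rq p τ) 0 1 * TrivSqZeroExt.inr w = (c : DualNumber k)) ∧
      (∀ τ ∈ Iq p, r (rq p τ) 1 1 - 1 = r (rq p τ) 0 1 * TrivSqZeroExt.inr w) := by
  have hcyc := augI_le_cycSub hfl hp2 had h
  obtain ⟨t, ht0, hx₁, hline⟩ := exists_line hfl hp2 had h hζ
  have htw : t = TrivSqZeroExt.inr t.snd := by
    apply TrivSqZeroExt.ext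
    · rw [ht0, TrivSqZeroExt.fst_inr]
    · rw [TrivSqZeroExt.snd_inr]
  refine ⟨t.snd, ?_, ?_, ?_⟩
  · intro τ
    rw [← htw]
    have h1 := hline _ (hcyc (act_mem_augI hfl τ hx₁))
    have h2 : actR p r τ (fun i : Fin 2 => if i = 0 then 1 else t) 0 =
        r (rq p τ) 0 0 + r (rq p τ) 0 1 * t := by
      show (r (rq p τ)).mulVec _ 0 = _
      rw [mulVec_zero']
      simp
    have h3 : actR p r τ (fun i : Fin 2 => if i = 0 then 1 else t) 1 =
        r (rq p τ) 1 0 + r (rq p τ) 1 1 * t := by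
      show (r (rq p τ)).mulVec _ 1 = _
      rw [mulVec_one']
      simp
    rw [h2, h3] at h1
    exact h1
  · intro τ hτ c hc
    rw [← htw]
    have h1 := congrFun (hcyc hx₁ τ hτ c hc) 0
    have h2 : actR p r τ (fun i : Fin 2 => if i = 0 then 1 else t) 0 =
        r (rq p τ) 0 0 + r (rq p τ) 0 1 * t := by
      show (r (rq p τ)).mulVec _ 0 = _
      rw [mulVec_zero']
      simp
    rw [h2, Pi.smul_apply] at h1
    rw [h1]
    simp
  · intro τ hτ
    rw [← htw]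
    set e₂ : Fin 2 → DualNumber k := fun i => if i = 1 then 1 else 0 with he₂
    have h1 := hline _ (hcyc (act_sub_mem_augI hτ e₂))
    have h2 : (actR p r τ e₂ - e₂) 0 = r (rq p τ) 0 1 := by
      show (r (rq p τ)).mulVec e₂ 0 - e₂ 0 = _
      rw [mulVec_zero']
      simp [he₂]
    have h3 : (actR p r τ e₂ - e₂) 1 = r (rq p τ) 1 1 - 1 := by
      show (r (rq p τ)).mulVec e₂ 1 - e₂ 1 = _
      rw [mulVec_one']
      simp [he₂]
    rw [h2, h3] at h1
    exact h1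

/-- **(hL), adapted basis**: the class at `p` of a flat lift lies in the ordinary flat
condition. -/
theorem resq1_liftClass_mem_ordL (hp2 : p ≠ 2) {ζ : PadicAlgCl p} (hζ : IsPrimitiveRoot ζ p)
    (had : IsAdapted p rbar) (hlevbar : IsLevelAt p rbar) (h : IsLiftOf rbar r)
    (Sg : Finset Nat.Primes) (hlev : ∃ U ∈ (levelS Sg).sets, ∀ s ∈ U, r s = 1)
    (htr : ∀ σ, (liftCocycle rbar r σ).trace = 0) :
    resq1 Sg (ad0Rep rbar) p (liftClass Sg h hlev htr) ∈ ordL rbar ζ hζ.pow_eq_one := by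
  obtain ⟨w, hrel1, hrel2, hrel3⟩ := exists_relations hfl hp2 had h hζ
  set t : DualNumber k := TrivSqZeroExt.inr w with ht
  have htt : t * t = 0 := mul_self_of_fst_eq_zero (TrivSqZeroExt.fst_inr k w)
  -- the conjugated lift
  set r' : GQ →* M2 (DualNumber k) := conjEps (-lowM w) r with hr'
  have hR' : ∀ σ : GQ, r' σ = (!![1, 0; -t, 1] : M2 (DualNumber k)) * r σ * !![1, 0; t, 1] := by
    intro σ
    rw [hr', conjEps_apply, neg_neg, neg_lowM, onePlusEps_lowM, onePlusEps_lowM,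
      TrivSqZeroExt.inr_neg]
  have e00 : ∀ τ ∈ Iq p, ∀ c : ℕ, IsCycExp p τ c → r' (rq p τ) 0 0 = (c : DualNumber k) := by
    intro τ hτ c hc
    rw [hR', conj00]
    exact hrel2 τ hτ c hc
  have e01 : ∀ τ : Gq p, r' (rq p τ) 0 1 = r (rq p τ) 0 1 := fun τ => by rw [hR', conj01]
  have e10 : ∀ τ : Gq p, r' (rq p τ) 1 0 = 0 := by
    intro τ
    rw [hR', conj10, hrel1 τ, mul_comm t, sub_self]
  -- the cocycles
  set c₀ : ↥(Z1 (levelLoc p) (Mq (ad0Rep rbar) p)) :=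
    resZ1 Sg (ad0Rep rbar) p ⟨liftCocycle0 rbar r htr, liftCocycle0_mem_Z1 Sg h hlev htr⟩ with hc₀
  have hclass : resq1 Sg (ad0Rep rbar) p (liftClass Sg h hlev htr) =
      H1mk (levelLoc p) (Mq (ad0Rep rbar) p) c₀ := rfl
  set m0 : ad0Rep rbar := ⟨lowM w, (mem_sl2_iff _).2 (trace_lowM w)⟩ with hm0
  have hdisc := isDiscrete_Mq_ad0 hlevbar
  set b₀ : ↥(Z1 (levelLoc p) (Mq (ad0Rep rbar) p)) :=
    ⟨(d₀₁ (Mq (ad0Rep rbar) p)).hom m0, coboundaries₁_le_Z1 hdisc ⟨m0, rfl⟩⟩ with hb₀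
  have hb0 : H1mk (levelLoc p) (Mq (ad0Rep rbar) p) b₀ = 0 := by
    rw [H1mk_eq_zero_iff]
    exact ⟨m0, rfl⟩
  have hsum : H1mk (levelLoc p) (Mq (ad0Rep rbar) p) c₀ =
      H1mk (levelLoc p) (Mq (ad0Rep rbar) p) (c₀ + b₀) := by
    rw [map_add, hb0, add_zero]
  rw [hclass, hsum]
  -- the values of the new cocycle
  have key : ∀ τ : Gq p, ad0Val rbar ((c₀ + b₀).1 τ) =
      sndM (r' (rq p τ)) * rbar (rq p τ)⁻¹ := by
    intro τ
    have h1 : (c₀ + b₀).1 τ = c₀.1 τ + b₀.1 τ := rfl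
    have h2 : ad0Val rbar (c₀.1 τ) = liftCocycle rbar r (rq p τ) := rfl
    have h3 : ad0Val rbar (b₀.1 τ) =
        rbar (rq p τ) * lowM w * rbar (rq p τ)⁻¹ - lowM w := by
      show ad0Val rbar ((d₀₁ (Mq (ad0Rep rbar) p)).hom m0 τ) = _
      rw [d₀₁_hom_apply, map_sub, Mq_ρ_apply]
      rfl
    have h4 := liftCocycle_conjEps h (-lowM w) (rq p τ)
    rw [h1, map_add, h2, h3]
    show _ = liftCocycle rbar r' (rq p τ)
    rw [hr', h4]
    simp only [mul_neg, neg_mul, sub_neg_eq_add]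
    abel
  refine mem_ordL_of rbar ζ hζ.pow_eq_one (c₀ + b₀) ⟨(c₀ + b₀).2, fun τ => ?_, fun τ hτ => ?_, ?_⟩
  · rw [key, Matrix.mul_apply, Fin.sum_univ_two, sndM_apply, sndM_apply, e10, had.lower_inv τ]
    simp
  · haveI : NeZero p := ⟨(Fact.out : p.Prime).ne_zero⟩
    obtain ⟨c, hc⟩ := exists_isCycExp p τ
    rw [key, Matrix.mul_apply, Fin.sum_univ_two, sndM_apply, sndM_apply, e00 τ hτ c hc,
      had.lower_inv τ]
    simp
  · refine isPeu_congr (fun τ hτ => ?_) (isPeu_snd01 hfl hp2 had h hζ.pow_eq_one)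
    haveI : NeZero p := ⟨(Fact.out : p.Prime).ne_zero⟩
    obtain ⟨c, hc⟩ := exists_isCycExp p τ
    rw [key, Matrix.mul_apply, Fin.sum_univ_two, sndM_apply, sndM_apply, e00 τ hτ c hc, e01,
      had.one11_inv hτ]
    simp

end Main

end

end Fermat.Agent.TW.FLAT.OrdLift7
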