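/-
Programme T (S56), chapter FLAT, brick (F-f.3) — helper7.

THE (LOC-FL) PACKAGE IN THE ORDINARY CASE, in the vocabulary of `TW/DEF` (any basis).

`k` a finite field, `ZMod p`-algebra, `p` odd; `rbar : GQ →* M2 k` of finite level at `p`, with
`det = ω` on the inertia group `Iq p`, such that inertia fixes a nonzero linear form (ORD).  Then
there is a `k`-subspace `Lp ⊆ Hq1 (ad0Rep rbar) p`, finite, with `#Lp ≤ #k · #H⁰(ℚ_p, ad⁰ρ̄)`,
containing the classes at `p` of all lifts `r` of `rbar` to `k[ε]` with constant determinant whose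
Galois representation is flat at `p` (Prelude `IsFlatAt`): **`exists_Lp_ord`**.

Route: adapted basis (`exists_adapted`), `OrdCount7.card_ordL_le`,
`OrdLift7.resq1_liftClass_mem_ordL`, `OrdLift7.isPeu_rbar01`, transport along the conjugation
isomorphism (`EquivTransport8.hq1Iso`).
-/
import Mathlib
import Fermat.Agent.TW.FLAT.OrdLift7
import Fermat.Agent.TW.FLAT.FlatLift7
import Fermat.Agent.TW.ASM.EquivTransport8

set_option autoImplicit false
set_option linter.unusedSectionVars false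
set_option linter.style.haveILetI false

open groupCohomology
open Fermat.Agent.PT.PRO.LevelCoh28 Fermat.Agent.PT.GLUE.Objects21
open Fermat.Agent.TW.LOC.Defs2
open Fermat.Agent.TW.LOC.TWLocalAd4 (IsLevelAt isDiscrete_Mq_ad0 Mq_ρ_apply)
open Fermat.Agent.TW.DEF.Basic1 (GQ M2 Mq Hq1 HS1 ad0Rep ad0Val ad0Val_injective ad0Val_ρ_apply
  trace_ad0Val rbar_mul_inv rbar_inv_mul mem_sl2_iff sl2 resq1 resZ1 resZ1_apply resq1_mk'
  isLevelHom_rq)
open Fermat.Agent.TW.DEF.LiftCocycle1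
open Fermat.Agent.TW.FLAT.Points6 (HasFlatModel)
open Fermat.Agent.TW.FLAT.Ordinary7 (IsCycExp exists_isCycExp)
open Fermat.Agent.TW.FLAT.PeuCount4 (IsPeu)
open Fermat.Agent.TW.FLAT.OrdCount7 Fermat.Agent.TW.FLAT.OrdLift7
open Fermat.Agent.TW.ASM.EquivTransport8
open Fermat.Agent.S53 (MatCont ofMatrix)

namespace Fermat.Agent.TW.FLAT.OrdLocal7

noncomputable section

/-! ### Conjugation of matrix representations by a constant matrix -/

section Conj

variable {A : Type} [CommRing A]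

/-- `σ ↦ Q * r σ * P` for mutually inverse `Q`, `P`. -/
def conjHom (Q P : M2 A) (hQP : Q * P = 1) (r : GQ →* M2 A) : GQ →* M2 A where
  toFun σ := Q * r σ * P
  map_one' := by rw [map_one, mul_one, hQP]
  map_mul' σ τ := by
    have hPQ : P * Q = 1 := mul_eq_one_comm.1 hQP
    rw [map_mul]
    calc Q * (r σ * r τ) * P = Q * r σ * 1 * r τ * P := by simp only [mul_one, mul_assoc]
      _ = Q * r σ * P * (Q * r τ * P) := by rw [← hPQ]; simp only [mul_assoc]

@[simp] theorem conjHom_apply (Q P : M2 A) (hQP : Q * P = 1) (r : GQ →* M2 A) (σ : GQ) :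
    conjHom Q P hQP r σ = Q * r σ * P := rfl

end Conj

/-! ### An adapted basis from an inertia-fixed linear form -/

section Adapt

variable {p : ℕ} [Fact p.Prime] {k : Type} [Field k] [Algebra (ZMod p) k]

theorem exists_matrix_row {l : Fin 2 → k} (hl : l ≠ 0) :
    ∃ Q : M2 k, IsUnit Q.det ∧ ∀ j, Q 1 j = l j := by
  by_cases h1 : l 1 = 0
  · have h0 : l 0 ≠ 0 := by
      intro h0
      apply hl
      funext i
      fin_cases i
      · exact h0
      · exact h1
    refine ⟨!![0, 1; l 0, l 1], ?_, fun j => by fin_cases j <;> rfl⟩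
    rw [Matrix.det_fin_two_of, isUnit_iff_ne_zero]
    simpa using h0
  · refine ⟨!![1, 0; l 0, l 1], ?_, fun j => by fin_cases j <;> rfl⟩
    rw [Matrix.det_fin_two_of, isUnit_iff_ne_zero]
    simpa using h1

/-- **Adapted basis.** If inertia fixes a nonzero linear form and `det = ω` on inertia, then
`rbar|Gq p` is upper triangular, `(ω *; 0 1)` on inertia, in a suitable basis. -/
theorem exists_adapted (hp2 : p ≠ 2) {ζ : PadicAlgCl p} (hζ : IsPrimitiveRoot ζ p)
    (rbar : GQ →* M2 k)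
    (hdet : ∀ τ ∈ Iq p, ∀ c : ℕ, IsCycExp p τ c → (rbar (rq p τ)).det = (c : k))
    (hord : ∃ l : Fin 2 → k, l ≠ 0 ∧ ∀ τ ∈ Iq p, Matrix.vecMul l (rbar (rq p τ)) = l) :
    ∃ (Q P : M2 k) (hQP : Q * P = 1), IsAdapted p (conjHom Q P hQP rbar) := by
  haveI : NeZero p := ⟨(Fact.out : p.Prime).ne_zero⟩
  obtain ⟨l, hl0, hl⟩ := hord
  obtain ⟨Q, hQ, hQl⟩ := exists_matrix_row hl0
  have hQP : Q * Q⁻¹ = 1 := Matrix.mul_nonsing_inv Q hQ
  refine ⟨Q, Q⁻¹, hQP, ?_⟩
  -- the second row on inertia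
  have hrow : ∀ τ ∈ Iq p, ∀ j, (Q * rbar (rq p τ) * Q⁻¹) 1 j = (1 : M2 k) 1 j := by
    intro τ hτ j
    have h1 : ∀ m, (Q * rbar (rq p τ)) 1 m = Q 1 m := by
      intro m
      have h2 := congrFun (hl τ hτ) m
      rw [Matrix.mul_apply]
      simp only [Matrix.vecMul, dotProduct] at h2
      rw [hQl m, ← h2]
      exact Finset.sum_congr rfl fun i _ => by rw [hQl i]
    rw [Matrix.mul_apply, ← hQP, Matrix.mul_apply]
    exact Finset.sum_congr rfl fun m _ => by rw [h1 m]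
  have h10 : ∀ τ ∈ Iq p, (conjHom Q Q⁻¹ hQP rbar) (rq p τ) 1 0 = 0 := fun τ hτ => by
    rw [conjHom_apply, hrow τ hτ 0]
    simp
  have h11 : ∀ τ ∈ Iq p, (conjHom Q Q⁻¹ hQP rbar) (rq p τ) 1 1 = 1 := fun τ hτ => by
    rw [conjHom_apply, hrow τ hτ 1]
    simp
  have h00 : ∀ τ ∈ Iq p, ∀ c : ℕ, IsCycExp p τ c →
      (conjHom Q Q⁻¹ hQP rbar) (rq p τ) 0 0 = (c : k) := by
    intro τ hτ c hc
    have hd : ((conjHom Q Q⁻¹ hQP rbar) (rq p τ)).det = (c : k) := by
      rw [conjHom_apply, Matrix.det_mul, Matrix.det_mul, hdet τ hτ c hc, mul_right_comm,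
        ← Matrix.det_mul, hQP, Matrix.det_one, one_mul]
    rw [Matrix.det_fin_two, h10 τ hτ, h11 τ hτ, mul_one, mul_zero, sub_zero] at hd
    exact hd
  -- a ramified element of inertia
  obtain ⟨σ₀, hσ₀, hne⟩ := exists_mem_Iq_ne hp2 hζ
  obtain ⟨c₀, hc₀⟩ := exists_isCycExp p σ₀
  rw [hc₀ ζ hζ.pow_eq_one] at hne
  have hc1 : (c₀ : k) ≠ 1 := natCast_ne_one_of_ne hζ.pow_eq_one hne
  refine ⟨fun g => ?_, h11, h00⟩
  set A := conjHom Q Q⁻¹ hQP rbar with hA
  have hτ' : g * σ₀ * g⁻¹ ∈ Iq p := (Iq_normal p).conj_mem σ₀ hσ₀ g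
  have hcomm : A (rq p g) * A (rq p σ₀) = A (rq p (g * σ₀ * g⁻¹)) * A (rq p g) := by
    rw [← map_mul, ← map_mul, ← map_mul, ← map_mul]
    congr 2
    group
  have h1 := congrFun (congrFun hcomm 1) 0
  rw [Matrix.mul_apply, Matrix.mul_apply, Fin.sum_univ_two, Fin.sum_univ_two, h10 σ₀ hσ₀,
    h00 σ₀ hσ₀ c₀ hc₀, h10 _ hτ', h11 _ hτ', mul_zero, add_zero, zero_mul, zero_add, one_mul] at h1
  have h2 : A (rq p g) 1 0 * ((c₀ : k) - 1) = 0 := by rw [mul_sub, h1, mul_one, sub_self]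
  exact (mul_eq_zero.1 h2).resolve_right (sub_ne_zero.2 hc1)

end Adapt

/-! ### Transport along a change of basis -/

section Transport

variable {k : Type} [Field k] (Q P : M2 k) (hQP : Q * P = 1)

include hQP in
theorem trace_conj (X : M2 k) : (Q * X * P).trace = X.trace := by
  have hPQ : P * Q = 1 := mul_eq_one_comm.1 hQP
  rw [Matrix.trace_mul_cycle, hPQ, one_mul]

/-- `X ↦ Q X P` on trace-zero matrices. -/
def conjSl : ↥(sl2 k) →ₗ[k] ↥(sl2 k) :=
  LinearMap.codRestrict (sl2 k)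
    (((LinearMap.mulLeft k Q).comp (LinearMap.mulRight k P)).comp (sl2 k).subtype)
    (fun X => by
      rw [mem_sl2_iff]
      show (Q * ((X : M2 k) * P)).trace = 0
      rw [← mul_assoc, trace_conj Q P hQP, (mem_sl2_iff _).1 X.2])

theorem coe_conjSl (X : ↥(sl2 k)) : ((conjSl Q P hQP X : ↥(sl2 k)) : M2 k) = Q * (X : M2 k) * P := by
  show Q * ((X : M2 k) * P) = _
  rw [mul_assoc]

/-- The change of basis isomorphism `ad⁰ρ̄ ≅ ad⁰(Qρ̄P)`. -/
def adIso (rbar : GQ →* M2 k) :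
    (ad0Rep rbar).V ≃ₗ[k] (ad0Rep (conjHom Q P hQP rbar)).V :=
  LinearEquiv.ofLinearMap (conjSl Q P hQP) (conjSl P Q (mul_eq_one_comm.1 hQP))
    (LinearMap.ext fun X => by
      apply Subtype.ext
      show ((conjSl Q P hQP (conjSl P Q (mul_eq_one_comm.1 hQP) X) : ↥(sl2 k)) : M2 k) =
        (X : M2 k)
      rw [coe_conjSl, coe_conjSl]
      calc Q * (P * (X : M2 k) * Q) * P = (Q * P) * (X : M2 k) * (Q * P) := by
            simp only [mul_assoc]
        _ = (X : M2 k) := by rw [hQP, one_mul, mul_one])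
    (LinearMap.ext fun X => by
      have hPQ : P * Q = 1 := mul_eq_one_comm.1 hQP
      apply Subtype.ext
      show ((conjSl P Q hPQ (conjSl Q P hQP X) : ↥(sl2 k)) : M2 k) = (X : M2 k)
      rw [coe_conjSl, coe_conjSl]
      calc P * (Q * (X : M2 k) * P) * Q = (P * Q) * (X : M2 k) * (P * Q) := by
            simp only [mul_assoc]
        _ = (X : M2 k) := by rw [hPQ, one_mul, mul_one])

theorem ad0Val_adIso (rbar : GQ →* M2 k) (X : (ad0Rep rbar).V) :
    ad0Val (conjHom Q P hQP rbar) (adIso Q P hQP rbar X) = Q * ad0Val rbar X * P :=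
  coe_conjSl Q P hQP X

theorem adIso_equivariant (rbar : GQ →* M2 k) (g : GQ) (X : (ad0Rep rbar).V) :
    adIso Q P hQP rbar ((ad0Rep rbar).ρ g X) =
      (ad0Rep (conjHom Q P hQP rbar)).ρ g (adIso Q P hQP rbar X) := by
  have hPQ : P * Q = 1 := mul_eq_one_comm.1 hQP
  apply ad0Val_injective
  rw [ad0Val_adIso, ad0Val_ρ_apply, ad0Val_ρ_apply, ad0Val_adIso, conjHom_apply, conjHom_apply]
  calc Q * (rbar g * ad0Val rbar X * rbar g⁻¹) * P
      = Q * rbar g * 1 * ad0Val rbar X * 1 * rbar g⁻¹ * P := by simp only [mul_one, mul_assoc]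
    _ = Q * rbar g * P * (Q * ad0Val rbar X * P) * (Q * rbar g⁻¹ * P) := by
        rw [← hPQ]; simp only [mul_assoc]

/-! ### Change of basis for lifts to the dual numbers -/

/-- A constant matrix over `k[ε]`. -/
def inlM (Q : M2 k) : M2 (DualNumber k) := Q.map (TrivSqZeroExt.inlHom k k)

@[simp] theorem fstM_inlM (Q : M2 k) : fstM (inlM Q) = Q := by
  ext i j
  simp [inlM]

@[simp] theorem sndM_inlM (Q : M2 k) : sndM (inlM Q) = 0 := by
  ext i j
  simp [inlM]

theorem inlM_mul (Q P : M2 k) : inlM Q * inlM P = inlM (Q * P) := by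
  rw [inlM, inlM, inlM, Matrix.map_mul]

theorem inlM_one : inlM (1 : M2 k) = 1 := by
  rw [inlM, Matrix.map_one _ (map_zero _) (map_one _)]

include hQP in
theorem inlM_mul_eq_one : inlM Q * inlM P = 1 := by rw [inlM_mul, hQP, inlM_one]

/-- The lift in the new basis. -/
def conjLift (r : GQ →* M2 (DualNumber k)) : GQ →* M2 (DualNumber k) :=
  conjHom (inlM Q) (inlM P) (inlM_mul_eq_one Q P hQP) r

variable {Q P}

theorem fstM_conjLift (r : GQ →* M2 (DualNumber k)) (σ : GQ) :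
    fstM (conjLift Q P hQP r σ) = Q * fstM (r σ) * P := by
  rw [conjLift, conjHom_apply, fstM_mul, fstM_mul, fstM_inlM, fstM_inlM]

theorem sndM_conjLift (r : GQ →* M2 (DualNumber k)) (σ : GQ) :
    sndM (conjLift Q P hQP r σ) = Q * sndM (r σ) * P := by
  rw [conjLift, conjHom_apply, sndM_mul, sndM_mul, fstM_inlM, fstM_inlM, sndM_inlM, sndM_inlM,
    mul_zero, zero_mul, zero_add, add_zero]

theorem isLiftOf_conjLift {rbar : GQ →* M2 k} {r : GQ →* M2 (DualNumber k)}
    (h : IsLiftOf rbar r) : IsLiftOf (conjHom Q P hQP rbar) (conjLift Q P hQP r) := fun σ => by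
  rw [fstM_conjLift, h σ, conjHom_apply]

theorem liftCocycle_conjLift (rbar : GQ →* M2 k) (r : GQ →* M2 (DualNumber k)) (σ : GQ) :
    liftCocycle (conjHom Q P hQP rbar) (conjLift Q P hQP r) σ =
      Q * liftCocycle rbar r σ * P := by
  have hPQ : P * Q = 1 := mul_eq_one_comm.1 hQP
  rw [liftCocycle, liftCocycle, sndM_conjLift, conjHom_apply]
  calc Q * sndM (r σ) * P * (Q * rbar σ⁻¹ * P)
      = Q * sndM (r σ) * (P * Q) * rbar σ⁻¹ * P := by simp only [mul_assoc]
    _ = Q * (sndM (r σ) * rbar σ⁻¹) * P := by rw [hPQ]; simp only [mul_one, mul_assoc]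

theorem conjLift_eq_one {r : GQ →* M2 (DualNumber k)} {s : GQ} (hs : r s = 1) :
    conjLift Q P hQP r s = 1 := by
  rw [conjLift, conjHom_apply, hs, mul_one, inlM_mul_eq_one Q P hQP]

end Transport

/-! ### Flatness in the new basis -/

section FlatTransport

variable {p : ℕ} [Fact p.Prime] {k : Type} [Field k] {Q P : M2 k} (hQP : Q * P = 1)

theorem hasFlatModel_conjLift {r : GQ →* M2 (DualNumber k)}
    (hfl : HasFlatModel ℤ_[p] (PadicAlgCl p) (Gq p) (Fin 2 → DualNumber k) (actR p r)) :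
    HasFlatModel ℤ_[p] (PadicAlgCl p) (Gq p) (Fin 2 → DualNumber k)
      (actR p (conjLift Q P hQP r)) := by
  have h1 : inlM Q * inlM P = 1 := inlM_mul_eq_one Q P hQP
  have h2 : inlM P * inlM Q = 1 := mul_eq_one_comm.1 h1
  let φ : (Fin 2 → DualNumber k) ≃+ (Fin 2 → DualNumber k) :=
    { toFun := fun v => (inlM Q).mulVec v
      invFun := fun v => (inlM P).mulVec v
      left_inv := fun v => by
        show (inlM P).mulVec ((inlM Q).mulVec v) = v
        rw [Matrix.mulVec_mulVec, h2, Matrix.one_mulVec]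
      right_inv := fun v => by
        show (inlM Q).mulVec ((inlM P).mulVec v) = v
        rw [Matrix.mulVec_mulVec, h1, Matrix.one_mulVec]
      map_add' := fun v w => Matrix.mulVec_add _ v w }
  refine HasFlatModel.of_addEquiv hfl φ ?_
  intro τ v
  show (inlM Q).mulVec ((r (rq p τ)).mulVec v) =
    (conjLift Q P hQP r (rq p τ)).mulVec ((inlM Q).mulVec v)
  rw [conjLift, conjHom_apply, Matrix.mulVec_mulVec, Matrix.mulVec_mulVec]
  congr 1
  calc inlM Q * r (rq p τ) = inlM Q * r (rq p τ) * 1 := (mul_one _).symm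
    _ = inlM Q * r (rq p τ) * inlM P * inlM Q := by rw [← h2]; simp only [mul_assoc]

end FlatTransport

/-! ### The main theorem -/

section Main

variable {p : ℕ} [Fact p.Prime] {k : Type} [Field k] [Finite k] [Algebra (ZMod p) k]

/-- **(LOC-FL), ordinary case.** -/
theorem exists_Lp_ord (hp2 : p ≠ 2) (rbar : GQ →* M2 k)
    (hlevbar : ∃ U ∈ (levelLoc p).sets, ∀ s ∈ U, rbar (rq p s) = 1)
    (hdet : ∀ τ ∈ Iq p, ∀ c : ℕ, IsCycExp p τ c → (rbar (rq p τ)).det = (c : k))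
    (hord : ∃ l : Fin 2 → k, l ≠ 0 ∧ ∀ τ ∈ Iq p, Matrix.vecMul l (rbar (rq p τ)) = l) :
    ∃ Lp : Submodule k (Hq1 (ad0Rep rbar) p), Finite ↥Lp ∧
      Nat.card ↥Lp ≤ Nat.card k * Nat.card ↥(Mq (ad0Rep rbar) p).ρ.invariants ∧
      ∀ (Sg : Finset Nat.Primes) (r : GQ →* M2 (DualNumber k)) (hr : MatCont r)
        (h : IsLiftOf rbar r), (ofMatrix r hr).IsFlatAt p →
        ∀ (hlev : ∃ U ∈ (levelS Sg).sets, ∀ s ∈ U, r s = 1)
          (htr : ∀ σ, (liftCocycle rbar r σ).trace = 0),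
          resq1 Sg (ad0Rep rbar) p (liftClass Sg h hlev htr) ∈ Lp := by
  haveI : NeZero p := ⟨(Fact.out : p.Prime).ne_zero⟩
  haveI hfinN : Finite (Mq (ad0Rep rbar) p) := Finite.of_injective _ (ad0Val_injective rbar)
  haveI hfinD : Finite (DualNumber k) := show Finite (k × k) from inferInstance
  obtain ⟨ζ, hζ⟩ := HasEnoughRootsOfUnity.exists_primitiveRoot (PadicAlgCl p) p
  by_cases hex : ∃ (r : GQ →* M2 (DualNumber k)) (hr : MatCont r) (_ : IsLiftOf rbar r),
      (ofMatrix r hr).IsFlatAt p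
  swap
  · refine ⟨⊥, inferInstance, ?_, fun Sg r hr h hfl => absurd ⟨r, hr, h, hfl⟩ hex⟩
    rw [Nat.card_unique]
    exact Nat.mul_pos Nat.card_pos Nat.card_pos
  obtain ⟨Q, P, hQP, had⟩ := exists_adapted hp2 hζ rbar hdet hord
  set rbar' := conjHom Q P hQP rbar with hrbar'
  have hlevbar' : IsLevelAt p rbar' := by
    obtain ⟨U, hU, h1⟩ := hlevbar
    exact ⟨U, hU, fun s hs => by rw [hrbar', conjHom_apply, h1 s hs, mul_one, hQP]⟩
  set e := adIso Q P hQP rbar with he_def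
  have he : ∀ g X, e ((ad0Rep rbar).ρ g X) = (ad0Rep rbar').ρ g (e X) :=
    adIso_equivariant Q P hQP rbar
  -- flat lifts in the new basis
  have hflat' : ∀ (r : GQ →* M2 (DualNumber k)) (hr : MatCont r), (ofMatrix r hr).IsFlatAt p →
      HasFlatModel ℤ_[p] (PadicAlgCl p) (Gq p) (Fin 2 → DualNumber k)
        (actR p (conjLift Q P hQP r)) := fun r hr hfl =>
    hasFlatModel_conjLift hQP (Fermat.Agent.TW.FLAT.FlatLift7.hasFlatModel_of_isFlatAt r hr hfl)
  obtain ⟨r₀, hr₀, h₀, hfl₀⟩ := hex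
  have hb : IsPeu ζ (fun τ => rbar' (rq p τ) 0 1) :=
    isPeu_rbar01 (hflat' r₀ hr₀ hfl₀) hp2 had (isLiftOf_conjLift hQP h₀) hζ.pow_eq_one
  obtain ⟨hfin, hcard⟩ := card_ordL_le hp2 hζ had hlevbar' hb
  set E := hq1Iso e he p with hE
  refine ⟨(ordL rbar' ζ hζ.pow_eq_one).comap (E : Hq1 (ad0Rep rbar) p →ₗ[k] Hq1 (ad0Rep rbar') p),
    ?_, ?_, ?_⟩
  · exact Finite.of_equiv _ (LinearEquiv.ofSubmodule' E (ordL rbar' ζ hζ.pow_eq_one)).symm.toEquiv
  · rw [Nat.card_congr (LinearEquiv.ofSubmodule' E (ordL rbar' ζ hζ.pow_eq_one)).toEquiv,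
      card_invariants_Mq_eq e he p]
    exact hcard
  · intro Sg r hr h hfl hlev htr
    rw [Submodule.mem_comap]
    have h' : IsLiftOf rbar' (conjLift Q P hQP r) := isLiftOf_conjLift hQP h
    have hlev' : ∃ U ∈ (levelS Sg).sets, ∀ s ∈ U, conjLift Q P hQP r s = 1 := by
      obtain ⟨U, hU, h1⟩ := hlev
      exact ⟨U, hU, fun s hs => conjLift_eq_one hQP (h1 s hs)⟩
    have htr' : ∀ σ, (liftCocycle rbar' (conjLift Q P hQP r) σ).trace = 0 := fun σ => by
      rw [liftCocycle_conjLift, trace_conj Q P hQP, htr σ]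
    have hmem := resq1_liftClass_mem_ordL (hflat' r hr hfl) hp2 hζ had hlevbar' h' Sg hlev' htr'
    have hclass : hS1Iso e he Sg (liftClass Sg h hlev htr) = liftClass Sg h' hlev' htr' := by
      show H1mk (levelS Sg) (ad0Rep rbar') _ = H1mk (levelS Sg) (ad0Rep rbar') _
      congr 1
      apply Subtype.ext
      funext σ
      apply ad0Val_injective
      show ad0Val rbar' (e (liftCocycle0 rbar r htr σ)) = liftCocycle rbar' (conjLift Q P hQP r) σ
      rw [he_def, ad0Val_adIso, liftCocycle_conjLift]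
      rfl
    rw [LinearEquiv.coe_coe, hE, ← resq1_hS1Iso, hclass]
    exact hmem

end Main

end

end Fermat.Agent.TW.FLAT.OrdLocal7
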