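/-
Programme T (S56), chapter FLAT, brick (F-f.4) — helper7.

WRAPPERS AROUND `OrdLocal7.exists_Lp_ord` FOR THE FINAL (LOC-FL) ASSEMBLY.

* `hasFlatModel_rbar_of_lift` : if a lift `r` of `rbar` to `k[ε]` is flat at `p` (module form), so is
  `rbar` itself (`V̄ = V_ε / ε V_ε`);  `hasFlatModel_rbar_of_isFlatAt` (Prelude form);
* `apply_eq_pow_of_isCycExp` : the cyclotomic exponent of `τ : Gq p` on `μ_p(ℚ̄_p)` is a cyclotomic
  exponent of `rq p τ` on `μ_p(ℚ̄)`;
* `det_rhoM_of_isCycExp` : the local form `hdet` of `exists_Lp_ord` from the Prelude's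
  `DetIsCyclotomic` of S56, for `rbar = Bridge3.rhoM ρbar`;
* `OrdHyp p rbar` : the ordinary hypothesis (inertia fixes a nonzero linear form);
  `LocFlPackage p rbar` : the (LOC-FL) conclusion;
* **`locFlPackage_of_ll`** : (LOC-FL) for `rbar`, given the package in the case `¬ OrdHyp p rbar`;
* **`locFlPackage_rhoM_of_ll`** : the same for `rhoM ρbar` from the S56 hypothesis `hdet`.
-/
import Mathlib
import Fermat.Agent.TW.FLAT.OrdLocal7
import Fermat.Agent.TW.FLAT.SubQuot6
import Fermat.Agent.TW.GRP.CycSub3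

set_option autoImplicit false
set_option linter.unusedSectionVars false
set_option linter.style.haveILetI false

open groupCohomology
open Fermat.Agent.PT.PRO.LevelCoh28 Fermat.Agent.PT.GLUE.Objects21
open Fermat.Agent.TW.LOC.Defs2
open Fermat.Agent.TW.LOC.TWLocalAd4 (IsLevelAt isLevelAt_of_global)
open Fermat.Agent.TW.DEF.Basic1 (GQ M2 Mq Hq1 HS1 ad0Rep resq1)
open Fermat.Agent.TW.DEF.LiftCocycle1
open Fermat.Agent.TW.FLAT.Points6 (HasFlatModel)
open Fermat.Agent.TW.FLAT.LocalPoints6 (fixedInFrac_padicInt)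
open Fermat.Agent.TW.FLAT.Ordinary7 (IsCycExp)
open Fermat.Agent.TW.FLAT.OrdLift7 (actR fst_entry mulVec_zero' mulVec_one')
open Fermat.Agent.TW.FLAT.OrdLocal7
open Fermat.Agent.TW.GRP.Bridge3
open Fermat.Agent.S53 (MatCont ofMatrix)

namespace Fermat.Agent.TW.FLAT.LocFlWrap7

noncomputable section

variable {p : ℕ} [Fact p.Prime]

/-! ### `rbar` is flat if it has a flat lift -/

section Reduce

variable {k : Type} [Field k] {rbar : GQ →* M2 k} {r : GQ →* M2 (DualNumber k)}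

/-- Reduction modulo `ε` of vectors. -/
def fstVec : (Fin 2 → DualNumber k) →+ (Fin 2 → k) where
  toFun v i := (v i).fst
  map_zero' := rfl
  map_add' _ _ := rfl

theorem fstVec_surjective : Function.Surjective (fstVec (k := k)) := fun w =>
  ⟨fun i => TrivSqZeroExt.inl (w i), funext fun i => TrivSqZeroExt.fst_inl k (w i)⟩

/-- **`V̄ = V_ε/εV_ε` is flat.** -/
theorem hasFlatModel_rbar_of_lift (h : IsLiftOf rbar r)
    (hfl : HasFlatModel ℤ_[p] (PadicAlgCl p) (Gq p) (Fin 2 → DualNumber k) (actR p r)) :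
    HasFlatModel ℤ_[p] (PadicAlgCl p) (Gq p) (Fin 2 → k)
      (fun τ v => (rbar (rq p τ)).mulVec v) := by
  refine HasFlatModel.of_surjective (fixedInFrac_padicInt p) hfl fstVec fstVec_surjective ?_
  intro τ v
  funext i
  show ((r (rq p τ)).mulVec v i).fst = (rbar (rq p τ)).mulVec (fun j => (v j).fst) i
  simp only [Matrix.mulVec, dotProduct, Fin.sum_univ_two, TrivSqZeroExt.fst_add,
    TrivSqZeroExt.fst_mul, fst_entry h]

/-- Prelude form. -/
theorem hasFlatModel_rbar_of_isFlatAt [Finite k] (hr : MatCont r) (h : IsLiftOf rbar r)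
    (hfl : (ofMatrix r hr).IsFlatAt p) :
    HasFlatModel ℤ_[p] (PadicAlgCl p) (Gq p) (Fin 2 → k)
      (fun τ v => (rbar (rq p τ)).mulVec v) := by
  haveI : Finite (DualNumber k) := show Finite (k × k) from inferInstance
  exact hasFlatModel_rbar_of_lift h
    (Fermat.Agent.TW.FLAT.FlatLift7.hasFlatModel_of_isFlatAt r hr hfl)

end Reduce

/-! ### Cyclotomic exponents, local versus global -/

section Cyclo

/-- A cyclotomic exponent of `τ` on `μ_p(ℚ̄_p)` is one of `rq p τ` on `μ_p(ℚ̄)`. -/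
theorem apply_eq_pow_of_isCycExp {τ : Gq p} {c : ℕ} (hc : IsCycExp p τ c)
    (μ : AlgebraicClosure ℚ) (hμ : μ ^ p = 1) : rq p τ μ = μ ^ c := by
  have hinj : Function.Injective (padicEmbedding p) := (padicEmbedding p).injective
  apply hinj
  rw [padicEmbedding_localGaloisToGlobal, map_pow]
  exact hc _ (by rw [← map_pow, hμ, map_one])

variable {k : Type} [Field k] (ρbar : ResidualGaloisRep k)

/-- **`det ρ̄ = ω` locally at `p`**, in the form used by `OrdLocal7.exists_Lp_ord`. -/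
theorem det_rhoM_of_isCycExp
    (hdet : (GaloisRepAdic.ofResidualGaloisRep ρbar).DetIsCyclotomic p) (τ : Gq p) (c : ℕ)
    (hc : IsCycExp p τ c) : (rhoM ρbar (rq p τ)).det = (c : k) := by
  have hp0 := Fermat.Agent.TW.GRP.CycSub3.natCast_eq_zero p ρbar hdet
  have h := hdet.2 1 (rq p τ) c (fun μ hμ => by
    rw [pow_one] at hμ
    exact apply_eq_pow_of_isCycExp hc μ hμ)
  have hz : ((p ^ 1 : ℕ) : k) = 0 := by rw [pow_one, hp0]
  rw [Ideal.span_singleton_eq_bot.mpr hz] at h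
  rw [det_rhoM]
  exact sub_eq_zero.mp ((Submodule.mem_bot k).mp h)

end Cyclo

/-! ### The case split -/

section Split

variable {k : Type} [Field k] [Finite k] [Algebra (ZMod p) k]

/-- (ORD): inertia at `p` fixes a nonzero linear form. -/
def OrdHyp (p : ℕ) [Fact p.Prime] (rbar : GQ →* M2 k) : Prop :=
  ∃ l : Fin 2 → k, l ≠ 0 ∧ ∀ τ ∈ Iq p, Matrix.vecMul l (rbar (rq p τ)) = l

/-- The (LOC-FL) package for `rbar`: a local condition at `p` of the right size containing the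
classes of all flat lifts. -/
def LocFlPackage (p : ℕ) [Fact p.Prime] (rbar : GQ →* M2 k) : Prop :=
  ∃ Lp : Submodule k (Hq1 (ad0Rep rbar) p), Finite ↥Lp ∧
    Nat.card ↥Lp ≤ Nat.card k * Nat.card ↥(Mq (ad0Rep rbar) p).ρ.invariants ∧
    ∀ (Sg : Finset Nat.Primes) (r : GQ →* M2 (DualNumber k)) (hr : MatCont r)
      (h : IsLiftOf rbar r), (ofMatrix r hr).IsFlatAt p →
      ∀ (hlev : ∃ U ∈ (levelS Sg).sets, ∀ s ∈ U, r s = 1)
        (htr : ∀ σ, (liftCocycle rbar r σ).trace = 0),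
        resq1 Sg (ad0Rep rbar) p (liftClass Sg h hlev htr) ∈ Lp

/-- The ordinary case. -/
theorem locFlPackage_of_ord (hp2 : p ≠ 2) (rbar : GQ →* M2 k) (hlevbar : IsLevelAt p rbar)
    (hdet : ∀ τ ∈ Iq p, ∀ c : ℕ, IsCycExp p τ c → (rbar (rq p τ)).det = (c : k))
    (hord : OrdHyp p rbar) : LocFlPackage p rbar :=
  exists_Lp_ord hp2 rbar hlevbar hdet hord

/-- **(LOC-FL)** from the local-local case. -/
theorem locFlPackage_of_ll (hp2 : p ≠ 2) (rbar : GQ →* M2 k) (hlevbar : IsLevelAt p rbar)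
    (hdet : ∀ τ ∈ Iq p, ∀ c : ℕ, IsCycExp p τ c → (rbar (rq p τ)).det = (c : k))
    (hLL : ¬ OrdHyp p rbar → LocFlPackage p rbar) : LocFlPackage p rbar := by
  by_cases hord : OrdHyp p rbar
  · exact locFlPackage_of_ord hp2 rbar hlevbar hdet hord
  · exact hLL hord

/-- **(LOC-FL) for `rhoM ρbar`** under the hypothesis `hdet` of S56. -/
theorem locFlPackage_rhoM_of_ll (hp2 : p ≠ 2) (ρbar : ResidualGaloisRep k)
    (hdet : (GaloisRepAdic.ofResidualGaloisRep ρbar).DetIsCyclotomic p)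
    (hLL : ¬ OrdHyp p (rhoM ρbar) → LocFlPackage p (rhoM ρbar)) :
    LocFlPackage p (rhoM ρbar) :=
  locFlPackage_of_ll hp2 (rhoM ρbar) (isLevelAt_of_global (rhoM_finiteLevel ρbar))
    (fun τ _ c hc => det_rhoM_of_isCycExp ρbar hdet τ c hc) hLL

end Split

end

end Fermat.Agent.TW.FLAT.LocFlWrap7
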