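/-
Programme T (S56, Taylor–Wiles primes), chapter FLAT (helper8): FLATNESS IS STABLE UNDER BASE CHANGE
TO A FINITE LOCAL RING — the hypothesis `hflat` of `AssemblyRel8.s56_flat_of_glob_fl_rel`.

`isFlatAt_baseChangeAlong_of_finite` : `ρ : GaloisRepAdic A` flat at `p`, `φ : A →+* B` a local
homomorphism to a FINITE local ring `B` ⇒ `ρ.baseChangeAlong φ hφ` is flat at `p`.

Proof.  For an ideal `J` of `B` put `I = φ⁻¹ J`; `A / I ↪ B / J` is finite, so the level `W = V / I V`
has a finite flat model.  The level `(B ⊗ V) / J (B ⊗ V)` of the base change is the image of the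
`G_ℚ`-equivariant additive map `W^B → (B ⊗ V) / J (B ⊗ V)`, `(w_b) ↦ ∑ [b ⊗ w_b]`; finite powers of
flat modules are flat (`hasFlatModel_pi_fin`, from `Prod6.HasFlatModel.prod`) and so are equivariant
images (`SubQuot6.hasFlatModel_of_surjective_at`).

Consequence `isFlatAt_baseChangeAlong_dualNumber` : for `DQ : DeformationRingData 𝒪 ρbar (flCond …)`
and a local `𝒪`-algebra homomorphism `φ : DQ.R → k[ε]`, `DQ.ρ.baseChangeAlong φ` is flat at `p`.
-/
import Mathlib
import Fermat.Agent.TW.FLAT.SubQuot6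
import Fermat.Agent.TW.DEF.CondStable8
import Fermat.Prelude.Def_GaloisRep_DeformationRingData

set_option autoImplicit false
set_option linter.unusedSectionVars false
set_option linter.style.haveILetI false

open scoped TensorProduct
open IsLocalRing
open Fermat.Agent.TW.FLAT.Points6 Fermat.Agent.TW.FLAT.SubQuot6
open Fermat.Agent.TW.DEF.CondStable8
open GaloisRep

namespace Fermat.Agent.TW.FLAT.FlatBaseChange8

noncomputable section

/-! ### Finite powers of a flat module -/

section Pi

variable {R : Type} [CommRing R] {Ω : Type} [CommRing Ω] [Algebra R Ω]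
  {Γ : Type} [Monoid Γ] [MulSemiringAction Γ Ω] [SMulCommClass Γ R Ω]
  {M : Type} [AddCommGroup M] {act : Γ → M → M}

/-- `M × M^(n+1) ≃+ M^(n+2)`. -/
def consAddEquiv (n : ℕ) : (M × (Fin (n + 1) → M)) ≃+ (Fin (n + 1 + 1) → M) where
  toFun x := Fin.cons x.1 x.2
  invFun y := (y 0, Fin.tail y)
  left_inv x := by simp
  right_inv y := by simp
  map_add' x y := by
    funext i
    refine Fin.cases ?_ (fun j => ?_) i <;> simp

theorem consAddEquiv_zero (n : ℕ) (x : M × (Fin (n + 1) → M)) : consAddEquiv n x 0 = x.1 := rfl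

theorem consAddEquiv_succ (n : ℕ) (x : M × (Fin (n + 1) → M)) (j : Fin (n + 1)) :
    consAddEquiv n x j.succ = x.2 j := by
  simp [consAddEquiv]

/-- **Finite powers of flat modules are flat.** -/
theorem hasFlatModel_pi_fin (h : HasFlatModel R Ω Γ M act) (n : ℕ) :
    HasFlatModel R Ω Γ (Fin (n + 1) → M) (fun σ x i => act σ (x i)) := by
  induction n with
  | zero =>
    refine HasFlatModel.of_addEquiv h (AddEquiv.funUnique (Fin 1) M).symm ?_
    intro σ m
    funext i
    rfl
  | succ n ih =>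
    refine HasFlatModel.of_addEquiv (HasFlatModel.prod h ih) (consAddEquiv n) ?_
    intro σ x
    funext i
    refine Fin.cases ?_ (fun j => ?_) i
    · rw [consAddEquiv_zero, consAddEquiv_zero]
    · rw [consAddEquiv_succ, consAddEquiv_succ]

end Pi

/-! ### Levels of a base change -/

section Tensor

variable {A B : Type} [CommRing A] [CommRing B] [Algebra A B]
  {V : Type} [AddCommGroup V] [Module A V] (J : Ideal B)

/-- The semilinear map `v ↦ [b ⊗ v]`. -/
def tmulMk (b : B) :
    V →ₛₗ[algebraMap A B] ((B ⊗[A] V) ⧸ (J • (⊤ : Submodule B (B ⊗[A] V)))) where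
  toFun v := Submodule.Quotient.mk (b ⊗ₜ[A] v)
  map_add' v w := by rw [TensorProduct.tmul_add, Submodule.Quotient.mk_add]
  map_smul' r v := by
    rw [TensorProduct.tmul_smul, ← algebraMap_smul B r (b ⊗ₜ[A] v), Submodule.Quotient.mk_smul]

theorem tmulMk_apply (b : B) (v : V) :
    tmulMk J b v = Submodule.Quotient.mk (b ⊗ₜ[A] v) := rfl

theorem comap_smul_top_le_ker (b : B) :
    (J.comap (algebraMap A B)) • (⊤ : Submodule A V) ≤ LinearMap.ker (tmulMk (V := V) J b) := by
  rw [Submodule.smul_le]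
  intro r hr v _
  rw [LinearMap.mem_ker, map_smulₛₗ, tmulMk_apply, ← Submodule.Quotient.mk_smul,
    Submodule.Quotient.mk_eq_zero]
  exact Submodule.smul_mem_smul hr Submodule.mem_top

/-- `[v] ↦ [b ⊗ v]` from the level `V / (φ⁻¹ J) V` to the level `(B ⊗ V) / J (B ⊗ V)`. -/
def levelTmul (b : B) :
    (V ⧸ ((J.comap (algebraMap A B)) • (⊤ : Submodule A V))) →+
      ((B ⊗[A] V) ⧸ (J • (⊤ : Submodule B (B ⊗[A] V)))) :=
  (Submodule.liftQ _ (tmulMk J b) (comap_smul_top_le_ker J b)).toAddMonoidHom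

theorem levelTmul_mk (b : B) (v : V) :
    levelTmul J b (Submodule.Quotient.mk v) = Submodule.Quotient.mk (b ⊗ₜ[A] v) := rfl

/-- Compatibility with an endomorphism of `V`. -/
theorem levelTmul_mapQ (b : B) (g : V →ₗ[A] V)
    (hI : (J.comap (algebraMap A B)) • (⊤ : Submodule A V) ≤
      ((J.comap (algebraMap A B)) • (⊤ : Submodule A V)).comap g)
    (hJ : J • (⊤ : Submodule B (B ⊗[A] V)) ≤
      (J • (⊤ : Submodule B (B ⊗[A] V))).comap (g.baseChange B))
    (w : V ⧸ ((J.comap (algebraMap A B)) • (⊤ : Submodule A V))) :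
    levelTmul J b (Submodule.mapQ _ _ g hI w) =
      Submodule.mapQ _ _ (g.baseChange B) hJ (levelTmul J b w) := by
  obtain ⟨v, rfl⟩ := Submodule.Quotient.mk_surjective
    ((J.comap (algebraMap A B)) • (⊤ : Submodule A V)) w
  rw [Submodule.mapQ_apply, levelTmul_mk, levelTmul_mk, Submodule.mapQ_apply,
    LinearMap.baseChange_tmul]

/-- The sum of the maps `levelTmul (bs i)`. -/
def levelSum {n : ℕ} (bs : Fin n → B) :
    (Fin n → V ⧸ ((J.comap (algebraMap A B)) • (⊤ : Submodule A V))) →+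
      ((B ⊗[A] V) ⧸ (J • (⊤ : Submodule B (B ⊗[A] V)))) :=
  ∑ i, (levelTmul J (bs i)).comp (Pi.evalAddMonoidHom _ i)

theorem levelSum_apply {n : ℕ} (bs : Fin n → B)
    (x : Fin n → V ⧸ ((J.comap (algebraMap A B)) • (⊤ : Submodule A V))) :
    levelSum J bs x = ∑ i, levelTmul J (bs i) (x i) := by
  simp [levelSum]

theorem levelSum_surjective {n : ℕ} (bs : Fin n → B) (hbs : Function.Surjective bs) :
    Function.Surjective (levelSum (A := A) (V := V) J bs) := by
  intro y
  obtain ⟨t, rfl⟩ := Submodule.Quotient.mk_surjective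
    (J • (⊤ : Submodule B (B ⊗[A] V))) y
  induction t using TensorProduct.induction_on with
  | zero => exact ⟨0, map_zero _⟩
  | tmul b v =>
    obtain ⟨i, rfl⟩ := hbs b
    refine ⟨Pi.single i (Submodule.Quotient.mk v), ?_⟩
    rw [levelSum_apply, Finset.sum_eq_single i]
    · rw [Pi.single_eq_same, levelTmul_mk]
    · intro j _ hj
      rw [Pi.single_eq_of_ne hj, map_zero]
    · intro h
      exact absurd (Finset.mem_univ i) h
  | add t t' ht ht' =>
    obtain ⟨x, hx⟩ := ht
    obtain ⟨x', hx'⟩ := ht'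
    exact ⟨x + x', by rw [map_add, hx, hx', Submodule.Quotient.mk_add]⟩

/-- Compatibility of `levelSum` with an endomorphism of `V`. -/
theorem levelSum_mapQ {n : ℕ} (bs : Fin n → B) (g : V →ₗ[A] V)
    (hI : (J.comap (algebraMap A B)) • (⊤ : Submodule A V) ≤
      ((J.comap (algebraMap A B)) • (⊤ : Submodule A V)).comap g)
    (hJ : J • (⊤ : Submodule B (B ⊗[A] V)) ≤
      (J • (⊤ : Submodule B (B ⊗[A] V))).comap (g.baseChange B))
    (x : Fin n → V ⧸ ((J.comap (algebraMap A B)) • (⊤ : Submodule A V))) :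
    levelSum J bs (fun i => Submodule.mapQ _ _ g hI (x i)) =
      Submodule.mapQ _ _ (g.baseChange B) hJ (levelSum J bs x) := by
  rw [levelSum_apply, levelSum_apply, map_sum]
  exact Finset.sum_congr rfl fun i _ => levelTmul_mapQ J (bs i) g hI hJ (x i)

end Tensor

/-! ### The theorem -/

section BaseChange

variable {A : Type} [CommRing A] [IsLocalRing A] {B : Type} [CommRing B] [IsLocalRing B]
  (φ : A →+* B) (hφ : IsLocalHom φ) (ρ : GaloisRepAdic A)

/-- **Flatness at `p` is stable under base change to a finite local ring.** -/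
theorem isFlatAt_baseChangeAlong_of_finite [Finite B] (p : ℕ) [Fact p.Prime]
    (h : ρ.IsFlatAt p) : (ρ.baseChangeAlong φ hφ).IsFlatAt p := by
  letI : Algebra A B := φ.toAlgebra
  rw [isFlatAt_iff] at h ⊢
  refine ⟨Finite.of_surjective _ IsLocalRing.residue_surjective, fun J _ => ?_⟩
  have hfin : Finite (A ⧸ J.comap φ) :=
    Finite.of_injective _ (Ideal.quotientMap_injective (I := J) (f := φ))
  have hW := h.2 (J.comap φ) hfin
  obtain ⟨m, hm⟩ : ∃ m, Nat.card B = m + 1 := Nat.exists_eq_succ_of_ne_zero Nat.card_pos.ne'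
  let e : Fin (m + 1) ≃ B := (finCongr hm.symm).trans (Finite.equivFin B).symm
  have hpi := hasFlatModel_pi_fin hW m
  refine hasFlatModel_of_surjective_at p hpi
    (levelSum (A := A) (V := ρ.V) J (fun i => e i))
    (levelSum_surjective J _ e.surjective) ?_
  intro σ x
  exact levelSum_mapQ (A := A) (V := ρ.V) J (fun i => e i) (ρ.ρ σ) _ _ x

end BaseChange

/-! ### The hypothesis `hflat` of the flat half of S56 -/

section DualNumber

variable {𝒪 : Type} [CommRing 𝒪] [IsDomain 𝒪] [IsDiscreteValuationRing 𝒪]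
  [IsAdicComplete (maximalIdeal 𝒪) 𝒪] [Finite (ResidueField 𝒪)]
  {ρbar : ResidualGaloisRep (ResidueField 𝒪)}

instance : Finite (DualNumber (ResidueField 𝒪)) :=
  inferInstanceAs (Finite (ResidueField 𝒪 × ResidueField 𝒪))

/-- **`hflat`**: the base changes of the universal flat deformation to `k[ε]` are flat at `p`. -/
theorem isFlatAt_baseChangeAlong_dualNumber [Algebra 𝒪 (DualNumber (ResidueField 𝒪))]
    (p : ℕ) [Fact p.Prime] (Sig Smin : Finset ℕ)
    (DQ : DeformationRingData 𝒪 ρbar (flCond 𝒪 p Sig Smin))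
    (φ : DQ.R →ₐ[𝒪] DualNumber (ResidueField 𝒪))
    (hφ : IsLocalHom (φ : DQ.R →+* DualNumber (ResidueField 𝒪))) :
    (DQ.ρ.baseChangeAlong (φ : DQ.R →+* DualNumber (ResidueField 𝒪)) hφ).IsFlatAt p :=
  isFlatAt_baseChangeAlong_of_finite _ hφ DQ.ρ p DQ.isOfType.1.2.1

end DualNumber

end

end Fermat.Agent.TW.FLAT.FlatBaseChange8
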