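/-
Programme T, chapter FLAT, file HeightOne6: the dimension bound for "height one" algebras with a
frame of derivations (structure of Frobenius kernels, lower bound).  Mathlib only.

`K` a field of characteristic `p`, `B` a commutative `K`-algebra.

* `eq_zero_of_sum_pow_mul_eq_zero` (one variable): `D : Derivation K B B`, `D x = 1`, `D (c k) = 0`:
  `∑ k ∈ range n, x ^ k * c k = 0` with `n ≤ p` implies `c k = 0` for all `k < n`.
* `exists_submodule_finrank_eq` / `pow_le_finrank` (exact frame): `x : Fin d → B`,
  `D : Fin d → Derivation K B B` with `D i (x j) = if i = j then 1 else 0`, `B` nontrivial and finite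
  dimensional: `p ^ d ≤ finrank K B`.
* `exists_exact_frame` (local case): `B` local, `ε : B →ₐ[K] K`, `ε (D i (x j)) = if i = j then 1 else 0`
  ⇒ there is `D'` with `D' i (x j) = if i = j then 1 else 0` exactly.
* `frobIdeal ε p : Ideal B` — generated by the `a ^ p`, `ε a = 0`;
  `derivation_mem_frobIdeal` (stable under every derivation), `frobIdeal_le_ker`.
* **`pow_le_finrank_of_aug`** : `B` local, finite dimensional, `ε`, `x i ∈ ker ε`,
  `ε (D i (x j)) = δ_ij` ⇒ `p ^ d ≤ finrank K (B ⧸ frobIdeal ε p)` and `p ^ d ≤ finrank K B`.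
* **`pow_eq_zero_of_finrank_eq`** : if moreover `finrank K B = p ^ d` then `a ^ p = 0` for every
  `a` with `ε a = 0`.
-/
import Mathlib

set_option autoImplicit false

namespace Fermat.Agent.TW.FLAT.HeightOne6

open Module Finset

noncomputable section

theorem natCast_eq_zero (K : Type*) [Field K] {B : Type*} [CommRing B] [Algebra K B]
    (p : ℕ) [CharP K p] : (p : B) = 0 := by
  have h : (p : B) = algebraMap K B (p : K) := (map_natCast (algebraMap K B) p).symm
  rw [h, CharP.cast_eq_zero, map_zero]

variable {K : Type*} [Field K] {B : Type*} [CommRing B] [Algebra K B]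
  (p : ℕ) [hp : Fact p.Prime] [CharP K p]

/-! ### One variable -/

omit hp in
/-- One-variable lemma. -/
theorem eq_zero_of_sum_pow_mul_eq_zero (D : Derivation K B B) {x : B} (hx : D x = 1) :
    ∀ (n : ℕ), n ≤ p → ∀ c : ℕ → B, (∀ k, D (c k) = 0) →
      ∑ k ∈ range n, x ^ k * c k = 0 → ∀ k < n, c k = 0 := by
  intro n
  induction n with
  | zero => intro _ c _ _ k hk; omega
  | succ n ih =>
    intro hn c hc hsum k hk
    -- apply `D`
    have h1 : D (∑ k ∈ range (n + 1), x ^ k * c k) = 0 := by rw [hsum, map_zero]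
    rw [map_sum, sum_range_succ'] at h1
    have h2 : ∀ k, D (x ^ (k + 1) * c (k + 1)) = x ^ k * ((k + 1 : ℕ) • c (k + 1)) := by
      intro k
      rw [Derivation.leibniz, hc, smul_zero, zero_add, Derivation.leibniz_pow, hx]
      simp only [smul_eq_mul, Nat.add_sub_cancel, nsmul_eq_mul, mul_one]
      ring
    have h3 : D (x ^ 0 * c 0) = 0 := by simp [hc]
    rw [h3, add_zero] at h1
    simp only [h2] at h1
    have h4 := ih (by omega) (fun k => (k + 1 : ℕ) • c (k + 1))
      (fun k => by rw [map_nsmul, hc, smul_zero]) h1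
    have h5 : ∀ j, j < n → c (j + 1) = 0 := by
      intro j hj
      have h6 := h4 j hj
      have h7 : ((j + 1 : ℕ) : K) ≠ 0 := by
        intro h
        have := (CharP.cast_eq_zero_iff K p (j + 1)).mp h
        have := Nat.le_of_dvd (by omega) this
        omega
      have h8 : ((j + 1 : ℕ) : K) • c (j + 1) = 0 := by
        rw [Nat.cast_smul_eq_nsmul]; exact h6
      exact (smul_eq_zero.mp h8).resolve_left h7
    rcases Nat.eq_zero_or_pos k with rfl | hkpos
    · -- `c 0 = 0` from the original sum
      rw [sum_range_succ'] at hsum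
      have : ∑ k ∈ range n, x ^ (k + 1) * c (k + 1) = 0 := by
        apply sum_eq_zero
        intro j hj
        rw [h5 j (mem_range.mp hj), mul_zero]
      rw [this, zero_add, pow_zero, one_mul] at hsum
      exact hsum
    · obtain ⟨j, rfl⟩ : ∃ j, k = j + 1 := ⟨k - 1, by omega⟩
      exact h5 j (by omega)

/-! ### Exact frames: the tower argument -/

omit hp in
/-- Exact frame ⇒ a submodule of dimension `p ^ d` inside the subalgebra generated by the `x i`. -/
theorem exists_submodule_finrank_eq [Nontrivial B] [FiniteDimensional K B] :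
    ∀ (d : ℕ) (x : Fin d → B) (D : Fin d → Derivation K B B),
      (∀ i j, D i (x j) = if i = j then 1 else 0) →
      ∃ S : Submodule K B, S ≤ Subalgebra.toSubmodule (Algebra.adjoin K (Set.range x)) ∧
        finrank K S = p ^ d := by
  intro d
  induction d with
  | zero =>
    intro x D _
    refine ⟨Submodule.span K {(1 : B)}, ?_, ?_⟩
    · rw [Submodule.span_le]
      intro b hb
      rw [Set.mem_singleton_iff] at hb
      rw [hb]
      exact Subalgebra.one_mem _
    · rw [pow_zero]
      exact finrank_span_singleton one_ne_zero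
  | succ d ih =>
    intro x D hD
    obtain ⟨S, hS, hfin⟩ := ih (fun i => x i.castSucc) (fun i => D i.castSucc) (by
      intro i j
      rw [hD]
      simp only [Fin.castSucc_inj])
    set y := x (Fin.last d) with hy
    set E := D (Fin.last d) with hE
    -- `E` kills `S`
    have hE0 : ∀ s ∈ S, E s = 0 := by
      intro s hs
      have h1 : Set.EqOn E (0 : Derivation K B B) (Set.range fun i : Fin d => x i.castSucc) := by
        rintro _ ⟨i, rfl⟩
        change E (x i.castSucc) = 0
        rw [hE, hD, if_neg]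
        exact (Fin.castSucc_lt_last i).ne'
      exact Derivation.eqOn_adjoin h1 (hS hs)
    have hEy : E y = 1 := by rw [hE, hy, hD, if_pos rfl]
    -- the map `(s_k) ↦ ∑ y ^ k * s_k`
    let Φ : (Fin p → S) →ₗ[K] B :=
      ∑ k : Fin p, ((LinearMap.mulLeft K (y ^ (k : ℕ))).comp S.subtype).comp (LinearMap.proj k)
    have hΦ : ∀ c : Fin p → S, Φ c = ∑ k : Fin p, y ^ (k : ℕ) * (c k : B) := by
      intro c
      simp [Φ, LinearMap.sum_apply]
    have hinj : Function.Injective Φ := by
      rw [← LinearMap.ker_eq_bot, LinearMap.ker_eq_bot']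
      intro c hc
      rw [hΦ] at hc
      let c' : ℕ → B := fun k => if h : k < p then (c ⟨k, h⟩ : B) else 0
      have h1 : ∑ k ∈ range p, y ^ k * c' k = 0 := by
        rw [← Fin.sum_univ_eq_sum_range (fun k => y ^ k * c' k) p, ← hc]
        apply sum_congr rfl
        intro k _
        simp [c']
      have h2 : ∀ k, E (c' k) = 0 := by
        intro k
        by_cases h : k < p
        · simp only [c', dif_pos h]
          exact hE0 _ (c ⟨k, h⟩).2
        · simp [c', dif_neg h]
      have h3 := eq_zero_of_sum_pow_mul_eq_zero p E hEy p le_rfl c' h2 h1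
      funext k
      have h4 := h3 k k.2
      simp only [c', dif_pos k.2] at h4
      exact Subtype.ext h4
    refine ⟨LinearMap.range Φ, ?_, ?_⟩
    · rintro _ ⟨c, rfl⟩
      rw [hΦ]
      apply Submodule.sum_mem
      intro k _
      have h1 : y ∈ Algebra.adjoin K (Set.range x) := Algebra.subset_adjoin ⟨_, rfl⟩
      have h2 : (c k : B) ∈ Algebra.adjoin K (Set.range x) := by
        have h3 : Algebra.adjoin K (Set.range fun i : Fin d => x i.castSucc) ≤
            Algebra.adjoin K (Set.range x) := by
          apply Algebra.adjoin_mono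
          rintro _ ⟨i, rfl⟩
          exact ⟨_, rfl⟩
        exact h3 (hS (c k).2)
      exact Subalgebra.mul_mem _ (Subalgebra.pow_mem _ h1 _) h2
    · rw [LinearMap.finrank_range_of_inj hinj, Module.finrank_pi_fintype]
      simp [hfin, pow_succ, mul_comm]

omit hp in
theorem pow_le_finrank [Nontrivial B] [FiniteDimensional K B] {d : ℕ} (x : Fin d → B)
    (D : Fin d → Derivation K B B) (hD : ∀ i j, D i (x j) = if i = j then 1 else 0) :
    p ^ d ≤ finrank K B := by
  obtain ⟨S, -, hfin⟩ := exists_submodule_finrank_eq p d x D hD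
  rw [← hfin]
  exact Submodule.finrank_le S

/-! ### From an augmented frame to an exact frame (local case) -/

omit hp [CharP K p] in
theorem ker_eq_maximalIdeal [IsLocalRing B] (ε : B →ₐ[K] K) :
    RingHom.ker ε = IsLocalRing.maximalIdeal B := by
  have hsurj : Function.Surjective ε := fun k => ⟨algebraMap K B k, by simp⟩
  have : (RingHom.ker ε).IsMaximal := RingHom.ker_isMaximal_of_surjective ε hsurj
  exact IsLocalRing.eq_maximalIdeal this

omit hp [CharP K p] in
theorem exists_exact_frame [IsLocalRing B] (ε : B →ₐ[K] K) {d : ℕ} (x : Fin d → B)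
    (D : Fin d → Derivation K B B) (hD : ∀ i j, ε (D i (x j)) = if i = j then 1 else 0) :
    ∃ D' : Fin d → Derivation K B B, ∀ i j, D' i (x j) = if i = j then 1 else 0 := by
  classical
  let M : Matrix (Fin d) (Fin d) B := Matrix.of fun i j => D i (x j)
  have hM : (ε : B →+* K).mapMatrix M = 1 := by
    ext i j
    simp only [RingHom.mapMatrix_apply, Matrix.map_apply, Matrix.of_apply, M, Matrix.one_apply]
    exact hD i j
  have hdet : ε M.det = 1 := by
    have := RingHom.map_det (ε : B →+* K) M
    rw [hM, Matrix.det_one] at this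
    exact this
  have hunit : IsUnit M.det := by
    rw [← IsLocalRing.notMem_maximalIdeal, ← ker_eq_maximalIdeal ε, RingHom.mem_ker]
    change ¬ ε M.det = 0
    rw [hdet]
    exact one_ne_zero
  refine ⟨fun i => ∑ j, (M⁻¹ i j) • D j, ?_⟩
  intro i k
  have h1 : (∑ j, (M⁻¹ i j) • D j) (x k) = ∑ j, M⁻¹ i j * M j k := by
    have h2 : ∀ (s : Finset (Fin d)) (f : Fin d → Derivation K B B) (b : B),
        (∑ j ∈ s, f j) b = ∑ j ∈ s, f j b := by
      intro s f b
      induction s using Finset.induction_on with
      | empty => simp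
      | insert a s ha ih => rw [Finset.sum_insert ha, Finset.sum_insert ha, Derivation.add_apply, ih]
    rw [h2]
    apply Finset.sum_congr rfl
    intro j _
    rw [Derivation.smul_apply, smul_eq_mul]
    rfl
  rw [h1, ← Matrix.mul_apply, Matrix.nonsing_inv_mul _ hunit, Matrix.one_apply]

/-! ### The Frobenius ideal -/

/-- The ideal generated by the `p`-th powers of the augmentation ideal. -/
def frobIdeal (ε : B →ₐ[K] K) : Ideal B := Ideal.span {y | ∃ a, ε a = 0 ∧ y = a ^ p}

omit hp [CharP K p] in
theorem pow_mem_frobIdeal (ε : B →ₐ[K] K) {a : B} (ha : ε a = 0) : a ^ p ∈ frobIdeal p ε :=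
  Ideal.subset_span ⟨a, ha, rfl⟩

omit [CharP K p] in
theorem frobIdeal_le_ker (ε : B →ₐ[K] K) : frobIdeal p ε ≤ RingHom.ker ε := by
  rw [frobIdeal, Ideal.span_le]
  rintro _ ⟨a, ha, rfl⟩
  rw [SetLike.mem_coe, RingHom.mem_ker]
  change ε (a ^ p) = 0
  rw [map_pow, ha, zero_pow hp.out.ne_zero]

omit hp in
theorem derivation_mem_frobIdeal (ε : B →ₐ[K] K) (D : Derivation K B B) {b : B}
    (hb : b ∈ frobIdeal p ε) : D b ∈ frobIdeal p ε := by
  unfold frobIdeal at hb ⊢
  induction hb using Submodule.span_induction with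
  | mem y hy =>
    obtain ⟨a, _, rfl⟩ := hy
    rw [Derivation.leibniz_pow, nsmul_eq_mul, natCast_eq_zero K p, zero_mul]
    exact Ideal.zero_mem _
  | zero => rw [map_zero]; exact Ideal.zero_mem _
  | add y z _ _ hy hz => rw [map_add]; exact Ideal.add_mem _ hy hz
  | smul r y hy hDy =>
    rw [smul_eq_mul, Derivation.leibniz]
    exact Ideal.add_mem _ (Ideal.mul_mem_left _ _ hDy) (Ideal.mul_mem_right _ _ hy)

/-! ### Main theorems -/

section Main

variable [IsLocalRing B] [FiniteDimensional K B] (ε : B →ₐ[K] K) {d : ℕ} (x : Fin d → B)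
  (D : Fin d → Derivation K B B)

omit [IsLocalRing B] [FiniteDimensional K B] [CharP K p] in
theorem frobIdeal_ne_top : frobIdeal p ε ≠ ⊤ := by
  intro h
  have h1 := frobIdeal_le_ker p ε
  rw [h, top_le_iff] at h1
  have h2 : (1 : B) ∈ RingHom.ker ε := by rw [h1]; exact Submodule.mem_top
  rw [RingHom.mem_ker] at h2
  have h3 : ε (1 : B) = 1 := map_one ε
  rw [h3] at h2
  exact one_ne_zero h2

theorem pow_le_finrank_quotient (hD : ∀ i j, ε (D i (x j)) = if i = j then 1 else 0) :
    p ^ d ≤ finrank K (B ⧸ frobIdeal p ε) := by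
  obtain ⟨D', hD'⟩ := exists_exact_frame ε x D hD
  let f : B →ₐ[K] B ⧸ frobIdeal p ε := Ideal.Quotient.mkₐ K (frobIdeal p ε)
  have hf : Function.Surjective f := Ideal.Quotient.mkₐ_surjective K _
  have hd : ∀ i, ∀ b, f b = 0 → f (D' i b) = 0 := by
    intro i b hb
    rw [Ideal.Quotient.mkₐ_eq_mk, Ideal.Quotient.eq_zero_iff_mem] at hb ⊢
    exact derivation_mem_frobIdeal p ε (D' i) hb
  let D'' : Fin d → Derivation K (B ⧸ frobIdeal p ε) (B ⧸ frobIdeal p ε) :=
    fun i => Derivation.liftOfSurjective hf (hd i)
  have : Nontrivial (B ⧸ frobIdeal p ε) :=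
    Ideal.Quotient.nontrivial_iff.mpr (frobIdeal_ne_top p ε)
  apply pow_le_finrank p (fun i => f (x i)) D''
  intro i j
  change Derivation.liftOfSurjective hf (hd i) (f (x j)) = _
  rw [Derivation.liftOfSurjective_apply, hD']
  split_ifs <;> simp

/-- **Dimension bound**: an augmented local algebra with a frame of `d` derivations has dimension
at least `p ^ d`. -/
theorem pow_le_finrank_of_aug (hD : ∀ i j, ε (D i (x j)) = if i = j then 1 else 0) :
    p ^ d ≤ finrank K B := by
  refine (pow_le_finrank_quotient p ε x D hD).trans ?_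
  let f : B →ₗ[K] B ⧸ frobIdeal p ε := (Ideal.Quotient.mkₐ K (frobIdeal p ε)).toLinearMap
  have hf : Function.Surjective f := Ideal.Quotient.mkₐ_surjective K _
  have h1 := LinearMap.finrank_range_add_finrank_ker f
  rw [LinearMap.range_eq_top.mpr hf, finrank_top] at h1
  omega

/-- **Height one**: if the dimension is exactly `p ^ d`, the `p`-th power map kills the
augmentation ideal. -/
theorem pow_eq_zero_of_finrank_eq (hD : ∀ i j, ε (D i (x j)) = if i = j then 1 else 0)
    (hfin : finrank K B = p ^ d) {a : B} (ha : ε a = 0) : a ^ p = 0 := by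
  have h0 := pow_le_finrank_quotient p ε x D hD
  let f : B →ₗ[K] B ⧸ frobIdeal p ε := (Ideal.Quotient.mkₐ K (frobIdeal p ε)).toLinearMap
  have hf : Function.Surjective f := Ideal.Quotient.mkₐ_surjective K _
  have h1 := LinearMap.finrank_range_add_finrank_ker f
  rw [LinearMap.range_eq_top.mpr hf, finrank_top] at h1
  have h2 : finrank K (LinearMap.ker f) = 0 := by omega
  have h3 : LinearMap.ker f = ⊥ := Submodule.finrank_eq_zero.mp h2
  have h4 : a ^ p ∈ LinearMap.ker f := by
    rw [LinearMap.mem_ker]
    change Ideal.Quotient.mk (frobIdeal p ε) (a ^ p) = 0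
    rw [Ideal.Quotient.eq_zero_iff_mem]
    exact pow_mem_frobIdeal p ε ha
  rw [h3, Submodule.mem_bot] at h4
  exact h4

end Main

end

end Fermat.Agent.TW.FLAT.HeightOne6
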