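/-
Programme T, chapter FLAT, file HeightOneHopf6: the height one bound for finite flat local Hopf
algebras over a local ring.  Mathlib + InvDiff6 + HeightOne6.

* `extendDer hs D : Derivation κ B B` for `D : Derivation R B B`, `R → κ` surjective;
  `descendDer J D hD : Derivation R (H ⧸ J) (H ⧸ J)` for `D : Derivation R H (H ⧸ J)` vanishing on `J`.
* Setting: `R` a local ring with residue field `κ = R ⧸ 𝔪` of characteristic `p`, `H` a commutative
  Hopf algebra over `R`, local, finite and free as an `R`-module, whose module of invariant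
  differentials `CoLie R H` is killed by `𝔪`;  `d` with `CoLie R H ≃ₗ[R] (Fin d → κ)`.
  **`pow_le_finrank`** : `p ^ d ≤ finrank R H`;
  **`pow_mem_of_finrank_eq`** : if `finrank R H = p ^ d` then `a ^ p ∈ 𝔪 H` for all `a` in the
  augmentation ideal.
-/
import Mathlib
import Fermat.Agent.TW.FLAT.InvDiff6
import Fermat.Agent.TW.FLAT.HeightOne6

set_option autoImplicit false

namespace Fermat.Agent.TW.FLAT.HeightOneHopf6

open TensorProduct Coalgebra Module IsLocalRing
open Fermat.Agent.TW.FLAT.InvDiff6

noncomputable section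

/-! ### Two general constructions on derivations -/

/-- A derivation over `R` of a `κ`-algebra is a derivation over `κ` when `R → κ` is surjective. -/
def extendDer {R κ B : Type*} [CommRing R] [CommRing κ] [Algebra R κ] [CommRing B] [Algebra R B]
    [Algebra κ B] [IsScalarTower R κ B] (hs : Function.Surjective (algebraMap R κ))
    (D : Derivation R B B) : Derivation κ B B :=
  Derivation.mk'
    { toFun := D
      map_add' := D.map_add
      map_smul' := by
        intro k b
        obtain ⟨r, rfl⟩ := hs k
        simp only [algebraMap_smul, RingHom.id_apply]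
        exact D.map_smul r b }
    (fun a b => D.leibniz a b)

@[simp] theorem extendDer_apply {R κ B : Type*} [CommRing R] [CommRing κ] [Algebra R κ] [CommRing B]
    [Algebra R B] [Algebra κ B] [IsScalarTower R κ B] (hs : Function.Surjective (algebraMap R κ))
    (D : Derivation R B B) (b : B) : extendDer hs D b = D b := rfl

/-- Descend a derivation `H → H ⧸ J` vanishing on `J` to the quotient. -/
def descendDer {R H : Type*} [CommRing R] [CommRing H] [Algebra R H] (J : Ideal H)
    (D : Derivation R H (H ⧸ J)) (hD : ∀ y ∈ J, D y = 0) : Derivation R (H ⧸ J) (H ⧸ J) :=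
  have hs : ∀ b, Ideal.Quotient.mk J (Function.surjInv Ideal.Quotient.mk_surjective b) = b :=
    Function.surjInv_eq _
  have key : ∀ a a' : H, Ideal.Quotient.mk J a = Ideal.Quotient.mk J a' → D a = D a' := by
    intro a a' h
    rw [← sub_eq_zero, ← map_sub]
    exact hD _ (Ideal.Quotient.eq.mp h)
  Derivation.mk'
    { toFun := fun b => D (Function.surjInv Ideal.Quotient.mk_surjective b)
      map_add' := fun x y => by
        rw [← map_add]
        apply key
        rw [map_add, hs, hs, hs]
      map_smul' := fun r x => by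
        rw [RingHom.id_apply, ← D.map_smul]
        apply key
        rw [hs]
        change r • x = (Ideal.Quotient.mkₐ R J) (r • _)
        rw [map_smul]
        congr 1
        exact (hs x).symm }
    (fun x y => by
      change D _ = x • D _ + y • D _
      have h1 : D (Function.surjInv Ideal.Quotient.mk_surjective (x * y)) =
          D (Function.surjInv Ideal.Quotient.mk_surjective x *
            Function.surjInv Ideal.Quotient.mk_surjective y) := by
        apply key
        rw [map_mul, hs, hs, hs]
      rw [h1, D.leibniz]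
      congr 1
      · conv_rhs => rw [← hs x]
        rfl
      · conv_rhs => rw [← hs y]
        rfl)

theorem descendDer_mk {R H : Type*} [CommRing R] [CommRing H] [Algebra R H] (J : Ideal H)
    (D : Derivation R H (H ⧸ J)) (hD : ∀ y ∈ J, D y = 0) (h : H) :
    descendDer J D hD (Ideal.Quotient.mk J h) = D h := by
  change D _ = D h
  rw [← sub_eq_zero, ← map_sub]
  apply hD
  apply Ideal.Quotient.eq.mp
  exact Function.surjInv_eq _ _

/-! ### The special fibre of a Hopf algebra over a local ring -/

section Main

attribute [local instance] Ideal.Quotient.field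

variable (R : Type*) [CommRing R] [IsLocalRing R] (H : Type*) [CommRing H] [HopfAlgebra R H]

/-- The residue field `R ⧸ 𝔪`. -/
abbrev Res : Type _ := R ⧸ maximalIdeal R

/-- The special fibre `H ⧸ 𝔪 H`. -/
abbrev Fib : Type _ := H ⧸ Ideal.map (algebraMap R H) (maximalIdeal R)

theorem map_le_ker_counit :
    Ideal.map (algebraMap R H) (maximalIdeal R) ≤
      RingHom.ker ((Ideal.Quotient.mk (maximalIdeal R)).comp
        (Bialgebra.counitAlgHom R H : H →+* R)) := by
  rw [Ideal.map_le_iff_le_comap]
  intro r hr
  rw [Ideal.mem_comap, RingHom.mem_ker, RingHom.comp_apply]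
  have : (Bialgebra.counitAlgHom R H : H →+* R) (algebraMap R H r) = r := by
    simp
  rw [this]
  exact Ideal.Quotient.eq_zero_iff_mem.mpr hr

/-- The counit of the special fibre. -/
def counitFib : Fib R H →ₐ[Res R] Res R :=
  { Ideal.Quotient.lift _ ((Ideal.Quotient.mk (maximalIdeal R)).comp
      (Bialgebra.counitAlgHom R H : H →+* R)) (fun y hy => by
        have := map_le_ker_counit R H hy
        rwa [RingHom.mem_ker] at this) with
    commutes' := by
      intro k
      obtain ⟨r, rfl⟩ := Ideal.Quotient.mk_surjective k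
      change Ideal.Quotient.lift _ _ _ (Ideal.Quotient.mk _ (algebraMap R H r)) = _
      rw [Ideal.Quotient.lift_mk, RingHom.comp_apply]
      simp }

variable {R H}

@[simp] theorem counitFib_mk (h : H) :
    counitFib R H (Ideal.Quotient.mk _ h) =
      Ideal.Quotient.mk (maximalIdeal R) (counit (R := R) h) := by
  change Ideal.Quotient.lift _ _ _ (Ideal.Quotient.mk _ h) = _
  rw [Ideal.Quotient.lift_mk, RingHom.comp_apply]
  rfl

/-- `h ⊗ w ↦ φ(w) • [h]`. -/
def gPhi (φ : CoLie R H →ₗ[R] Res R) : H ⊗[R] CoLie R H →ₗ[H] Fib R H :=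
  LinearMap.liftBaseChange H
    (((Algebra.linearMap (Res R) (Fib R H)).restrictScalars R).comp φ)

theorem gPhi_tmul (φ : CoLie R H →ₗ[R] Res R) (a : H) (w : CoLie R H) :
    gPhi φ (a ⊗ₜ w) = Ideal.Quotient.mk _ a * algebraMap (Res R) (Fib R H) (φ w) := by
  simp [gPhi, Algebra.smul_def]

/-- The derivation `h ↦ Σ φ(π h₂) • [h₁]` with values in the special fibre. -/
def der1 (φ : CoLie R H →ₗ[R] Res R) : Derivation R H (Fib R H) :=
  (gPhi φ).compDer (invDer R H)

theorem der1_apply (φ : CoLie R H →ₗ[R] Res R) (h : H) :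
    der1 φ h = gPhi φ (idProj R H (comul h)) := rfl

theorem counitFib_der1 (φ : CoLie R H →ₗ[R] Res R) (h : H) :
    counitFib R H (der1 φ h) = φ (proj R H h) := by
  -- two `R`-linear maps `H ⊗ H → κ`
  let Ψ : H ⊗[R] H →ₗ[R] Res R :=
    ((counitFib R H).toLinearMap.restrictScalars R).comp
      (((gPhi φ).restrictScalars R).comp (idProj R H))
  let Θ : H ⊗[R] H →ₗ[R] Res R :=
    (φ.comp (proj R H)).comp ((TensorProduct.lid R H).toLinearMap.comp
      ((counit (R := R) (A := H)).rTensor H))
  have hΨΘ : Ψ = Θ := by
    apply TensorProduct.ext'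
    intro a b
    simp only [Ψ, Θ, LinearMap.comp_apply, LinearMap.restrictScalars_apply, idProj_tmul,
      gPhi_tmul, AlgHom.toLinearMap_apply, map_mul, counitFib_mk, AlgHom.commutes,
      LinearMap.rTensor_tmul, LinearEquiv.coe_coe, TensorProduct.lid_tmul, map_smul]
    rw [Algebra.smul_def]
    rfl
  have h1 : counitFib R H (der1 φ h) = Ψ (comul h) := rfl
  rw [h1, hΨΘ]
  simp only [Θ, LinearMap.comp_apply, Coalgebra.rTensor_counit_comul, LinearEquiv.coe_coe,
    TensorProduct.lid_tmul, one_smul]

theorem der1_eq_zero_of_mem (φ : CoLie R H →ₗ[R] Res R) {y : H}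
    (hy : y ∈ Ideal.map (algebraMap R H) (maximalIdeal R)) : der1 φ y = 0 := by
  unfold Ideal.map at hy
  induction hy using Submodule.span_induction with
  | mem y hy =>
    obtain ⟨r, _, rfl⟩ := hy
    exact Derivation.map_algebraMap _ r
  | zero => exact map_zero _
  | add y z _ _ hy hz => rw [map_add, hy, hz, add_zero]
  | smul a y hy hDy =>
    rw [smul_eq_mul, Derivation.leibniz, hDy, smul_zero, zero_add, Algebra.smul_def]
    have : algebraMap H (Fib R H) y = 0 := Ideal.Quotient.eq_zero_iff_mem.mpr hy
    rw [this, zero_mul]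

/-- The derivation of the special fibre attached to a functional on `CoLie R H`. -/
def derFib (φ : CoLie R H →ₗ[R] Res R) : Derivation (Res R) (Fib R H) (Fib R H) :=
  extendDer (Ideal.Quotient.mk_surjective (I := maximalIdeal R))
    (descendDer _ (der1 φ) (fun _ hy => der1_eq_zero_of_mem φ hy))

theorem counitFib_derFib (φ : CoLie R H →ₗ[R] Res R) (h : H) :
    counitFib R H (derFib φ (Ideal.Quotient.mk _ h)) = φ (proj R H h) := by
  rw [derFib, extendDer_apply, descendDer_mk, counitFib_der1]

/-! ### The bound -/

theorem charP_res (p : ℕ) [hp : Fact p.Prime] (hpR : (p : R) ∈ maximalIdeal R) :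
    CharP (Res R) p := by
  obtain ⟨q, hq⟩ := CharP.exists (Res R)
  have h1 : ((p : ℕ) : Res R) = 0 := by
    rw [← map_natCast (Ideal.Quotient.mk (maximalIdeal R))]
    exact Ideal.Quotient.eq_zero_iff_mem.mpr hpR
  have h2 : q ∣ p := (CharP.cast_eq_zero_iff (Res R) q p).mp h1
  rcases (Nat.dvd_prime hp.out).mp h2 with h | h
  · subst h
    exact absurd rfl (CharP.char_ne_one (Res R) 1)
  · subst h
    exact hq

variable (R H) in
theorem nontrivial_fib : Nontrivial (Fib R H) :=
  (counitFib R H).toRingHom.domain_nontrivial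

variable (R H) in
theorem isLocalRing_fib [IsLocalRing H] : IsLocalRing (Fib R H) :=
  have := nontrivial_fib R H
  IsLocalRing.of_surjective' (Ideal.Quotient.mk (Ideal.map (algebraMap R H) (maximalIdeal R)))
    Ideal.Quotient.mk_surjective

variable (R H) in
theorem finite_fib [Module.Finite R H] : Module.Finite (Res R) (Fib R H) :=
  have : Module.Finite R (Fib R H) :=
    Module.Finite.of_surjective (Ideal.Quotient.mkₐ R _).toLinearMap
      (Ideal.Quotient.mkₐ_surjective R _)
  Module.Finite.of_restrictScalars_finite R (Res R) (Fib R H)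

/-- Lifts of a basis of `CoLie R H` to the augmentation ideal. -/
theorem exists_lifts {d : ℕ} (e : CoLie R H ≃ₗ[R] (Fin d → Res R)) :
    ∃ x : Fin d → H, (∀ j, x j ∈ augIdeal R H) ∧
      ∀ i j, e (proj R H (x j)) i = if i = j then 1 else 0 := by
  have h1 : ∀ j : Fin d, ∃ h : H, h ∈ augIdeal R H ∧
      proj R H h = e.symm (Pi.single j 1) := by
    intro j
    obtain ⟨h, hh⟩ := proj_surjective (R := R) (H := H) (e.symm (Pi.single j 1))
    refine ⟨h - algebraMap R H (counit h), ?_, ?_⟩
    · rw [mem_augIdeal]; simp
    · rw [map_sub, proj_algebraMap, sub_zero, hh]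
  choose x hx1 hx2 using h1
  refine ⟨x, hx1, ?_⟩
  intro i j
  rw [hx2, LinearEquiv.apply_symm_apply, Pi.single_apply]

/-- **Height one bound**: `p ^ d ≤ rank H`, `d` the dimension of the invariant differentials. -/
theorem pow_le_finrank (p : ℕ) [hp : Fact p.Prime] (hpR : (p : R) ∈ maximalIdeal R)
    [IsLocalRing H] [Module.Free R H] [Module.Finite R H] {d : ℕ}
    (e : CoLie R H ≃ₗ[R] (Fin d → Res R)) : p ^ d ≤ finrank R H := by
  have := charP_res p hpR
  have := isLocalRing_fib R H
  have := finite_fib R H
  obtain ⟨x, _, hx⟩ := exists_lifts e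
  have h1 := HeightOne6.pow_le_finrank_of_aug p (counitFib R H)
    (fun j => Ideal.Quotient.mk _ (x j))
    (fun i => derFib ((LinearMap.proj i).comp e.toLinearMap)) (by
      intro i j
      rw [counitFib_derFib]
      exact hx i j)
  rwa [IsLocalRing.finrank_quotient_map] at h1

/-- **Height one**: if `rank H = p ^ d` then the `p`-th power of the augmentation ideal lies in
`𝔪 H`. -/
theorem pow_mem_of_finrank_eq (p : ℕ) [hp : Fact p.Prime] (hpR : (p : R) ∈ maximalIdeal R)
    [IsLocalRing H] [Module.Free R H] [Module.Finite R H] {d : ℕ}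
    (e : CoLie R H ≃ₗ[R] (Fin d → Res R)) (hfin : finrank R H = p ^ d) {a : H}
    (ha : a ∈ augIdeal R H) : a ^ p ∈ Ideal.map (algebraMap R H) (maximalIdeal R) := by
  have := charP_res p hpR
  have := isLocalRing_fib R H
  have := finite_fib R H
  obtain ⟨x, _, hx⟩ := exists_lifts e
  have h1 := HeightOne6.pow_eq_zero_of_finrank_eq p (counitFib R H)
    (fun j => Ideal.Quotient.mk _ (x j))
    (fun i => derFib ((LinearMap.proj i).comp e.toLinearMap)) (by
      intro i j
      rw [counitFib_derFib]
      exact hx i j) (by rw [IsLocalRing.finrank_quotient_map, hfin])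
    (a := Ideal.Quotient.mk _ a) (by
      rw [counitFib_mk, mem_augIdeal.mp ha, map_zero])
  rw [← map_pow, Ideal.Quotient.eq_zero_iff_mem] at h1
  exact h1

end Main

end

end Fermat.Agent.TW.FLAT.HeightOneHopf6
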