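/-
Programme T, chapter FLAT, file DiffIdeal6: the difference ideal lemma, size ideals of points,
congruence subgroups and the additive "leading term" map.  Mathlib + Points6.

`R` a commutative ring, `H` a commutative Hopf algebra over `R` with augmentation ideal
`augI R H = ker ε`, `S` a commutative `R`-algebra, points `x y z : WithConv (H →ₐ[R] S)`
(group structure `Points6.ptsGroup`).

* `sizeIdeal z : Ideal S` — the ideal generated by `z (augI R H)` ("size" of the point `z`);
  `diffIdeal x y : Ideal S` — the ideal generated by all `x a - y a`.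
* **Difference ideal lemma** `diffIdeal_eq : diffIdeal x y = sizeIdeal (x * y⁻¹)`.
* Galois form: for a monoid `Γ` acting on `S` (`MulSemiringAction Γ S`, `SMulCommClass Γ R S`):
  `sizeIdeal_smul_mul_inv : sizeIdeal (σ • x * x⁻¹) = Ideal.span {s | ∃ a, s = σ • x a - x a}`,
  `sizeIdeal_le_of_forall : (∀ a, σ • x a - x a ∈ J) → sizeIdeal (σ • x * x⁻¹) ≤ J`
  (if `σ` acts trivially modulo `J` on the coordinates of `x`, then the point `σx - x` has size
  `≤ J`: lower ramification numbers are bounded by sizes of torsion points).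
* `congrSub J : Subgroup (WithConv (H →ₐ[R] S))` — points `z` with `z a - ε a ∈ J` for all `a`
  (kernel of `G(S) → G(S/J)`); `mem_congrSub_iff`, `mem_congrSub_iff_sizeIdeal_le`.
* `mul_apply_sub_eq : (z * w) a - z a - w a + ε a = Σ (z a₁ - ε a₁) (w a₂ - ε a₂)`; hence
  `mul_apply_sub_mem : z w ∈ congrSub J → a ∈ augI → (z * w) a - z a - w a ∈ J * J`
  (**additivity of the leading term map** `congrSub J → Hom(I, J/J²)`),
  `inv_apply_add_mem : z ∈ congrSub J → a ∈ augI → z⁻¹ a + z a ∈ J * J`,
  `pow_apply_sub_mem : (z ^ n) a - n • z a ∈ J * J`,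
  `nsmul_apply_mem_of_pow_eq_one : z ^ n = 1 → n • z a ∈ J * J`.
-/
import Mathlib
import Fermat.Agent.TW.FLAT.Points6

set_option autoImplicit false

namespace Fermat.Agent.TW.FLAT.DiffIdeal6

open WithConv TensorProduct Coalgebra Fermat.Agent.TW.FLAT.Points6

noncomputable section

variable (R : Type*) [CommRing R] (H : Type*) [CommRing H] [HopfAlgebra R H]

/-- The augmentation ideal. -/
def augI : Ideal H := RingHom.ker (Bialgebra.counitAlgHom R H)

variable {R H}

lemma mem_augI {a : H} : a ∈ augI R H ↔ counit (R := R) a = 0 := by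
  simp [augI, RingHom.mem_ker]

lemma sub_counit_mem_augI (a : H) : a - algebraMap R H (counit a) ∈ augI R H := by
  rw [mem_augI]; simp

variable {S : Type*} [CommRing S] [Algebra R S]

/-- The ideal generated by the values of the point `z` on the augmentation ideal. -/
def sizeIdeal (z : WithConv (H →ₐ[R] S)) : Ideal S :=
  Ideal.span {s | ∃ a ∈ augI R H, s = z a}

/-- The ideal generated by the differences of the values of two points. -/
def diffIdeal (x y : WithConv (H →ₐ[R] S)) : Ideal S :=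
  Ideal.span {s | ∃ a : H, s = x a - y a}

lemma apply_mem_sizeIdeal (z : WithConv (H →ₐ[R] S)) {a : H} (ha : a ∈ augI R H) :
    z a ∈ sizeIdeal z := Ideal.subset_span ⟨a, ha, rfl⟩

lemma apply_sub_counit_mem_sizeIdeal (z : WithConv (H →ₐ[R] S)) (a : H) :
    z a - algebraMap R S (counit a) ∈ sizeIdeal z := by
  have := apply_mem_sizeIdeal z (sub_counit_mem_augI (R := R) a)
  rw [map_sub] at this
  have h2 : z (algebraMap R H (counit a)) = algebraMap R S (counit a) :=
    z.ofConv.commutes _
  rwa [h2] at this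

lemma sub_mem_diffIdeal (x y : WithConv (H →ₐ[R] S)) (a : H) : x a - y a ∈ diffIdeal x y :=
  Ideal.subset_span ⟨a, rfl⟩

/-- **Difference ideal lemma.** -/
theorem diffIdeal_eq (x y : WithConv (H →ₐ[R] S)) : diffIdeal x y = sizeIdeal (x * y⁻¹) := by
  set z := x * y⁻¹ with hz
  have hx : x = z * y := by rw [hz, inv_mul_cancel_right]
  apply le_antisymm
  · rw [diffIdeal, Ideal.span_le]
    rintro s ⟨a, rfl⟩
    -- x a - y a = Σ (z a₁ - ε a₁) y a₂
    have h1 : x a = ∑ i ∈ (ℛ R a).index, z ((ℛ R a).left i) * y ((ℛ R a).right i) := by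
      rw [hx]; exact mul_apply_repr z y (ℛ R a)
    have h2 : y a = ∑ i ∈ (ℛ R a).index,
        algebraMap R S (counit (R := R) ((ℛ R a).left i)) * y ((ℛ R a).right i) := by
      conv_lhs => rw [← sum_counit_smul (ℛ R a)]
      rw [map_sum]
      apply Finset.sum_congr rfl
      intro i _
      rw [map_smul, Algebra.smul_def]
    rw [SetLike.mem_coe, h1, h2, ← Finset.sum_sub_distrib]
    apply Ideal.sum_mem
    intro i _
    rw [← sub_mul]
    exact Ideal.mul_mem_right _ _ (apply_sub_counit_mem_sizeIdeal z _)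
  · rw [sizeIdeal, Ideal.span_le]
    rintro s ⟨a, ha, rfl⟩
    -- z a = Σ (x a₁ - y a₁) y (S a₂)
    have h1 : z a = ∑ i ∈ (ℛ R a).index,
        x ((ℛ R a).left i) * y (HopfAlgebra.antipode R ((ℛ R a).right i)) := by
      rw [hz, mul_apply_repr x y⁻¹ (ℛ R a)]
      rfl
    have h2 : (0 : S) = ∑ i ∈ (ℛ R a).index,
        y ((ℛ R a).left i) * y (HopfAlgebra.antipode R ((ℛ R a).right i)) := by
      have h3 := HopfAlgebra.sum_mul_antipode_eq_algebraMap_counit (ℛ R a)
      rw [mem_augI.mp ha, map_zero] at h3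
      have h4 := congrArg (fun t => y t) h3
      simp only [map_sum, map_mul, map_zero] at h4
      exact h4.symm
    rw [SetLike.mem_coe, ← sub_zero (z a), h1, h2, ← Finset.sum_sub_distrib]
    apply Ideal.sum_mem
    intro i _
    rw [← sub_mul]
    exact Ideal.mul_mem_right _ _ (sub_mem_diffIdeal x y _)

section Galois

variable {Γ : Type*} [Monoid Γ] [MulSemiringAction Γ S] [SMulCommClass Γ R S]

/-- Galois form of the difference ideal lemma. -/
theorem sizeIdeal_smul_mul_inv (σ : Γ) (x : WithConv (H →ₐ[R] S)) :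
    sizeIdeal (σ • x * x⁻¹) = Ideal.span {s | ∃ a : H, s = σ • x a - x a} := by
  rw [← diffIdeal_eq]
  rfl

/-- If `σ` moves the coordinates of `x` only by elements of `J`, the point `σx - x` has size
`≤ J`. -/
theorem sizeIdeal_le_of_forall (σ : Γ) (x : WithConv (H →ₐ[R] S)) (J : Ideal S)
    (h : ∀ a : H, σ • x a - x a ∈ J) : sizeIdeal (σ • x * x⁻¹) ≤ J := by
  rw [sizeIdeal_smul_mul_inv, Ideal.span_le]
  rintro s ⟨a, rfl⟩
  exact h a

end Galois

/-! ### Congruence subgroups and the leading term map -/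

lemma sizeIdeal_le_iff (z : WithConv (H →ₐ[R] S)) (J : Ideal S) :
    sizeIdeal z ≤ J ↔ ∀ a : H, z a - algebraMap R S (counit a) ∈ J := by
  constructor
  · intro h a
    exact h (apply_sub_counit_mem_sizeIdeal z a)
  · intro h
    rw [sizeIdeal, Ideal.span_le]
    rintro s ⟨a, ha, rfl⟩
    have := h a
    rwa [mem_augI.mp ha, map_zero, sub_zero] at this

lemma sizeIdeal_one : sizeIdeal (1 : WithConv (H →ₐ[R] S)) = ⊥ := by
  rw [eq_bot_iff, sizeIdeal_le_iff]
  intro a
  simp

lemma sizeIdeal_mul_le (z w : WithConv (H →ₐ[R] S)) :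
    sizeIdeal (z * w) ≤ sizeIdeal z ⊔ sizeIdeal w := by
  rw [sizeIdeal_le_iff]
  intro a
  -- (z*w) a - ε a = Σ (z a₁ - ε a₁) w a₂ + Σ ε a₁ (w a₂) - ε a
  have h1 : (z * w) a = ∑ i ∈ (ℛ R a).index, z ((ℛ R a).left i) * w ((ℛ R a).right i) :=
    mul_apply_repr z w (ℛ R a)
  have h2 : w a = ∑ i ∈ (ℛ R a).index,
      algebraMap R S (counit (R := R) ((ℛ R a).left i)) * w ((ℛ R a).right i) := by
    conv_lhs => rw [← sum_counit_smul (ℛ R a)]
    rw [map_sum]
    apply Finset.sum_congr rfl
    intro i _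
    rw [map_smul, Algebra.smul_def]
  have h3 : (z * w) a - algebraMap R S (counit a) =
      ((z * w) a - w a) + (w a - algebraMap R S (counit a)) := by ring
  rw [h3]
  apply Ideal.add_mem
  · rw [h1, h2, ← Finset.sum_sub_distrib]
    apply Ideal.sum_mem
    intro i _
    rw [← sub_mul]
    exact Ideal.mul_mem_right _ _
      (Ideal.mem_sup_left (apply_sub_counit_mem_sizeIdeal z _))
  · exact Ideal.mem_sup_right (apply_sub_counit_mem_sizeIdeal w a)

lemma sizeIdeal_inv_le (z : WithConv (H →ₐ[R] S)) : sizeIdeal z⁻¹ ≤ sizeIdeal z := by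
  rw [sizeIdeal_le_iff]
  intro a
  have := apply_sub_counit_mem_sizeIdeal z (HopfAlgebra.antipode R a)
  rwa [HopfAlgebra.counit_antipode] at this

lemma sizeIdeal_inv (z : WithConv (H →ₐ[R] S)) : sizeIdeal z⁻¹ = sizeIdeal z :=
  le_antisymm (sizeIdeal_inv_le z) (by simpa using sizeIdeal_inv_le z⁻¹)

/-- The congruence subgroup: points congruent to the identity modulo `J`. -/
def congrSub (J : Ideal S) : Subgroup (WithConv (H →ₐ[R] S)) where
  carrier := {z | sizeIdeal z ≤ J}
  one_mem' := by
    change sizeIdeal 1 ≤ J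
    rw [sizeIdeal_one]; exact bot_le
  mul_mem' := by
    intro z w hz hw
    exact (sizeIdeal_mul_le z w).trans (sup_le hz hw)
  inv_mem' := by
    intro z hz
    exact (sizeIdeal_inv_le z).trans hz

lemma mem_congrSub_iff_sizeIdeal_le (J : Ideal S) (z : WithConv (H →ₐ[R] S)) :
    z ∈ congrSub (R := R) (H := H) J ↔ sizeIdeal z ≤ J := Iff.rfl

lemma mem_congrSub_iff (J : Ideal S) (z : WithConv (H →ₐ[R] S)) :
    z ∈ congrSub (R := R) (H := H) J ↔ ∀ a : H, z a - algebraMap R S (counit a) ∈ J :=
  sizeIdeal_le_iff z J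

lemma apply_mem_of_mem_congrSub {J : Ideal S} {z : WithConv (H →ₐ[R] S)}
    (hz : z ∈ congrSub (R := R) (H := H) J) {a : H} (ha : a ∈ augI R H) : z a ∈ J :=
  hz (apply_mem_sizeIdeal z ha)

/-! ### Additivity of the leading term map -/

lemma sum_smul_counit_right {a : H} {ι : Type*} (r : Coalgebra.Repr R a ι) :
    ∑ i ∈ r.index, counit (R := R) (r.right i) • r.left i = a := by
  have := congr(TensorProduct.lift ((LinearMap.lsmul R H).flip)
    $(Coalgebra.sum_tmul_counit_eq (R := R) r))
  simpa only [map_sum, TensorProduct.lift.tmul, LinearMap.flip_apply, LinearMap.lsmul_apply,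
    one_smul] using this

/-- The basic identity: `(z * w) a - z a - w a + ε a = Σ (z a₁ - ε a₁) (w a₂ - ε a₂)`. -/
lemma mul_apply_sub_eq (z w : WithConv (H →ₐ[R] S)) (a : H) :
    (z * w) a - z a - w a + algebraMap R S (counit a) =
      ∑ i ∈ (ℛ R a).index,
        (z ((ℛ R a).left i) - algebraMap R S (counit (R := R) ((ℛ R a).left i))) *
        (w ((ℛ R a).right i) - algebraMap R S (counit (R := R) ((ℛ R a).right i))) := by
  have h1 : (z * w) a = ∑ i ∈ (ℛ R a).index, z ((ℛ R a).left i) * w ((ℛ R a).right i) :=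
    mul_apply_repr z w (ℛ R a)
  have h2 : w a = ∑ i ∈ (ℛ R a).index,
      algebraMap R S (counit (R := R) ((ℛ R a).left i)) * w ((ℛ R a).right i) := by
    conv_lhs => rw [← sum_counit_smul (ℛ R a)]
    rw [map_sum]
    apply Finset.sum_congr rfl
    intro i _
    rw [map_smul, Algebra.smul_def]
  have h3 : z a = ∑ i ∈ (ℛ R a).index,
      z ((ℛ R a).left i) * algebraMap R S (counit (R := R) ((ℛ R a).right i)) := by
    conv_lhs => rw [← sum_smul_counit_right (ℛ R a)]
    rw [map_sum]
    apply Finset.sum_congr rfl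
    intro i _
    rw [map_smul, Algebra.smul_def, mul_comm]
  have h4 : algebraMap R S (counit (R := R) a) = ∑ i ∈ (ℛ R a).index,
      algebraMap R S (counit (R := R) ((ℛ R a).left i)) *
        algebraMap R S (counit (R := R) ((ℛ R a).right i)) := by
    conv_lhs => rw [← sum_counit_smul (ℛ R a)]
    rw [map_sum, map_sum]
    apply Finset.sum_congr rfl
    intro i _
    rw [map_smul, smul_eq_mul, map_mul]
  conv_lhs => rw [h1, h2, h3, h4]
  rw [← Finset.sum_sub_distrib, ← Finset.sum_sub_distrib, ← Finset.sum_add_distrib]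
  apply Finset.sum_congr rfl
  intro i _
  ring

/-- General form of the additivity of the leading term. -/
theorem mul_apply_sub_add_mem {J : Ideal S} {z w : WithConv (H →ₐ[R] S)}
    (hz : z ∈ congrSub (R := R) (H := H) J) (hw : w ∈ congrSub (R := R) (H := H) J) (a : H) :
    (z * w) a - z a - w a + algebraMap R S (counit a) ∈ J * J := by
  rw [mul_apply_sub_eq]
  apply Ideal.sum_mem
  intro i _
  exact Ideal.mul_mem_mul ((mem_congrSub_iff J z).mp hz _) ((mem_congrSub_iff J w).mp hw _)

/-- **Additivity of the leading term map** `congrSub J → Hom(I, J/J²)`. -/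
theorem mul_apply_sub_mem {J : Ideal S} {z w : WithConv (H →ₐ[R] S)}
    (hz : z ∈ congrSub (R := R) (H := H) J) (hw : w ∈ congrSub (R := R) (H := H) J) {a : H}
    (ha : a ∈ augI R H) : (z * w) a - z a - w a ∈ J * J := by
  have := mul_apply_sub_add_mem hz hw a
  rwa [mem_augI.mp ha, map_zero, add_zero] at this

theorem inv_apply_add_mem {J : Ideal S} {z : WithConv (H →ₐ[R] S)}
    (hz : z ∈ congrSub (R := R) (H := H) J) {a : H} (ha : a ∈ augI R H) :
    z⁻¹ a + z a ∈ J * J := by
  have h := mul_apply_sub_mem hz (inv_mem hz) ha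
  rw [mul_inv_cancel] at h
  have h1 : (1 : WithConv (H →ₐ[R] S)) a = 0 := by
    have : (1 : WithConv (H →ₐ[R] S)) a = algebraMap R S (counit a) := by simp
    rw [this, mem_augI.mp ha, map_zero]
  rw [h1] at h
  have h2 : z⁻¹ a + z a = -(0 - z a - z⁻¹ a) := by ring
  rw [h2]
  exact neg_mem h

theorem pow_apply_sub_mem {J : Ideal S} {z : WithConv (H →ₐ[R] S)}
    (hz : z ∈ congrSub (R := R) (H := H) J) {a : H} (ha : a ∈ augI R H) (n : ℕ) :
    (z ^ n) a - n • z a ∈ J * J := by
  induction n with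
  | zero =>
    have h1 : (1 : WithConv (H →ₐ[R] S)) a = 0 := by
      have : (1 : WithConv (H →ₐ[R] S)) a = algebraMap R S (counit a) := by simp
      rw [this, mem_augI.mp ha, map_zero]
    simp [h1]
  | succ n ih =>
    have h := mul_apply_sub_mem (pow_mem hz n) hz ha
    have h2 : (z ^ (n + 1)) a - (n + 1) • z a =
        ((z ^ n * z) a - (z ^ n) a - z a) + ((z ^ n) a - n • z a) := by
      rw [pow_succ, succ_nsmul]; ring
    rw [h2]
    exact add_mem h ih

/-- If `z ^ n = 1` and `z ≡ 1` modulo `J`, then `n • z a ∈ J²` for `a` in the augmentation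
ideal. -/
theorem nsmul_apply_mem_of_pow_eq_one {J : Ideal S} {z : WithConv (H →ₐ[R] S)}
    (hz : z ∈ congrSub (R := R) (H := H) J) {a : H} (ha : a ∈ augI R H) {n : ℕ}
    (hn : z ^ n = 1) : n • z a ∈ J * J := by
  have h := pow_apply_sub_mem hz ha n
  rw [hn] at h
  have h1 : (1 : WithConv (H →ₐ[R] S)) a = 0 := by
    have : (1 : WithConv (H →ₐ[R] S)) a = algebraMap R S (counit a) := by simp
    rw [this, mem_augI.mp ha, map_zero]
  rw [h1, zero_sub] at h
  simpa using neg_mem h

end

end Fermat.Agent.TW.FLAT.DiffIdeal6
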