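/-
Programme T, chapter FLAT, file NoSmall6: the refined "no small torsion" congruence.
Mathlib + DiffIdeal6 + NoSmallTorsion7 (`exists_one_add_pow_prime`).

`R` a commutative ring, `H` a commutative cocommutative Hopf algebra over `R`, `S` a commutative
`R`-algebra, `J` an ideal of `S`.

* `valIn J : Ideal (WithConv (H →ₗ[R] S))` — the linear maps with values in `J` (an ideal of the
  commutative convolution ring); `mul_mem_valIn`, `pow_mem_valIn`.
* **`natCast_mul_apply_mem`** : `q` prime, `z ∈ congrSub J` a point with `z ^ q = 1`; then for all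
  `a : H`:  `q * (z a - ε a) ∈ (q) * J ^ 2 ⊔ J ^ q`.
  (With a valuation, `v(q) = 1`, size `s > 0`: `1 + s ≥ min (1 + 2 s, q s)`, hence `s ≤ 1/(q-1)`.)
-/
import Mathlib
import Fermat.Agent.TW.FLAT.DiffIdeal6
import Fermat.Agent.TW.FLAT.NoSmallTorsion7

set_option autoImplicit false
set_option linter.unusedSectionVars false

namespace Fermat.Agent.TW.FLAT.NoSmall6

open WithConv Coalgebra Fermat.Agent.TW.FLAT.Points6 Fermat.Agent.TW.FLAT.DiffIdeal6

noncomputable section

variable {R : Type*} [CommRing R] {H : Type*} [CommRing H] [HopfAlgebra R H]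
  [Coalgebra.IsCocomm R H] {S : Type*} [CommRing S] [Algebra R S]

/-- The linear maps with values in the ideal `J`, an ideal of the convolution ring. -/
def valIn (J : Ideal S) : Ideal (WithConv (H →ₗ[R] S)) where
  carrier := {c | ∀ h, c h ∈ J}
  add_mem' := by
    intro c c' hc hc' h
    exact J.add_mem (hc h) (hc' h)
  zero_mem' := by
    intro h
    exact J.zero_mem
  smul_mem' := by
    intro c' c hc h
    rw [smul_eq_mul, (ℛ R h).convMul_apply]
    exact J.sum_mem fun i _ => J.mul_mem_left _ (hc _)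

theorem mem_valIn {J : Ideal S} {c : WithConv (H →ₗ[R] S)} :
    c ∈ valIn (R := R) (H := H) J ↔ ∀ h, c h ∈ J := Iff.rfl

theorem mul_mem_valIn {J₁ J₂ : Ideal S} {c c' : WithConv (H →ₗ[R] S)}
    (hc : c ∈ valIn (R := R) (H := H) J₁) (hc' : c' ∈ valIn (R := R) (H := H) J₂) :
    c * c' ∈ valIn (R := R) (H := H) (J₁ * J₂) := by
  intro h
  rw [(ℛ R h).convMul_apply]
  exact Ideal.sum_mem _ fun i _ => Ideal.mul_mem_mul (hc _) (hc' _)

theorem pow_mem_valIn {J : Ideal S} {c : WithConv (H →ₗ[R] S)}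
    (hc : c ∈ valIn (R := R) (H := H) J) (n : ℕ) :
    c ^ n ∈ valIn (R := R) (H := H) (J ^ n) := by
  induction n with
  | zero =>
    intro h
    rw [pow_zero, Ideal.one_eq_top]
    exact Submodule.mem_top
  | succ n ih =>
    rw [pow_succ, pow_succ]
    exact mul_mem_valIn ih hc

/-- **Refined no small torsion.** -/
theorem natCast_mul_apply_mem {q : ℕ} (hq : q.Prime) {J : Ideal S}
    {z : WithConv (H →ₐ[R] S)} (hz : z ∈ congrSub (R := R) (H := H) J) (hzq : z ^ q = 1)
    (a : H) :
    (q : S) * (z a - algebraMap R S (counit a)) ∈ Ideal.span {(q : S)} * J ^ 2 ⊔ J ^ q := by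
  set zL : WithConv (H →ₗ[R] S) := toConv z.ofConv.toLinearMap with hzL
  set y : WithConv (H →ₗ[R] S) := zL - 1 with hy
  have hyJ : y ∈ valIn (R := R) (H := H) J := by
    intro h
    exact (mem_congrSub_iff J z).mp hz h
  have hzLq : zL ^ q = 1 := by
    rw [hzL, ← AlgHom.toLinearMap_convPow, hzq]
    rfl
  obtain ⟨r, hr⟩ := NoSmallTorsion7.exists_one_add_pow_prime hq y
  have h1 : (1 : WithConv (H →ₗ[R] S)) + y = zL := by rw [hy]; ring
  rw [h1, hzLq] at hr
  have h2 : (q : WithConv (H →ₗ[R] S)) * y = -((q : WithConv (H →ₗ[R] S)) * (y ^ 2 * r)) - y ^ q := by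
    linear_combination -hr
  have h3 : ∀ (c : WithConv (H →ₗ[R] S)) (h : H),
      ((q : WithConv (H →ₗ[R] S)) * c) h = (q : S) * c h := by
    intro c h
    rw [← nsmul_eq_mul, ← nsmul_eq_mul]
    rfl
  have h4 : (q : S) * (z a - algebraMap R S (counit a)) =
      ((q : WithConv (H →ₗ[R] S)) * y) a := by
    rw [h3]
    rfl
  rw [h4, h2]
  have h5 : (-((q : WithConv (H →ₗ[R] S)) * (y ^ 2 * r)) - y ^ q) a =
      -((q : S) * (y ^ 2 * r) a) - (y ^ q) a := by
    rw [← h3]
    rfl
  rw [h5]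
  apply Ideal.sub_mem
  · apply neg_mem
    apply Ideal.mem_sup_left
    apply Ideal.mul_mem_mul (Ideal.mem_span_singleton_self _)
    exact (valIn (R := R) (H := H) (J ^ 2)).mul_mem_right r (pow_mem_valIn hyJ 2) a
  · exact Ideal.mem_sup_right (pow_mem_valIn hyJ q a)

end

end Fermat.Agent.TW.FLAT.NoSmall6
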