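/-
Programme T, chapter FLAT, file BallPoints6: the unit ball of an ultrametric normed field as a
ring of values for points of integral Hopf algebras; ball ideals.  Mathlib + Points6 + DiffIdeal6.

`E` a normed field with `[IsUltrametricDist E]`.
* `ball E : Subring E` (`mem_ball : y ∈ ball E ↔ ‖y‖ ≤ 1`);
  `ballIdeal E t : Ideal (ball E)` for `t : NNReal` (`mem_ballIdeal : y ∈ ballIdeal E t ↔ ‖(y:E)‖ ≤ t`);
  `ballIdeal_mono`, `ballIdeal_mul_le`, `ballIdeal_pow_le`, `span_singleton_le_ballIdeal`,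
  `span_singleton_mul_ballIdeal_le`.
* `class NormLeOne R E : Prop` (`∀ r, ‖algebraMap R E r‖ ≤ 1`); then `Algebra R (ball E)`,
  `IsScalarTower R (ball E) E`, `incl R E : ball E →ₐ[R] E`.
* `norm_le_one_of_isIntegral : IsIntegral R y → ‖y‖ ≤ 1`;
  `norm_apply_le_one (z : H →ₐ[R] E) (h : H) : ‖z h‖ ≤ 1` for `H` integral over `R`;
* `toBall z : WithConv (H →ₐ[R] ball E)` for a point `z : WithConv (H →ₐ[R] E)` of an integral Hopf
  algebra; `ballEquiv : WithConv (H →ₐ[R] ball E) ≃* WithConv (H →ₐ[R] E)`; `toBall_apply`.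
* sizes: `SizeLe z t := ∀ a ∈ augI R H, ‖z a‖ ≤ t`;
  `sizeLe_iff_mem_congrSub : SizeLe z t ↔ toBall z ∈ congrSub (ballIdeal E t)`;
  `sizeLe_iff_forall : SizeLe z t ↔ ∀ a, ‖z a - ε a‖ ≤ t`;
  `SizeLe.mul`, `SizeLe.inv`, `SizeLe.one`, `sizeSub t : Subgroup (WithConv (H →ₐ[R] E))`.
* norm forms of DiffIdeal6 / NoSmall6 (`hz : SizeLe z t`, `hw : SizeLe w t`, `a ∈ augI R H`):
  `norm_mul_apply_sub_le : ‖(z * w) a - z a - w a‖ ≤ t ^ 2`,
  `norm_pow_apply_sub_le : ‖(z ^ n) a - n • z a‖ ≤ t ^ 2`,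
  `norm_natCast_mul_apply_le` (`H` cocommutative, `q` prime, `z ^ q = 1`) :
     `‖(q : E)‖ * ‖z a‖ ≤ max (‖(q : E)‖ * t ^ 2) (t ^ q)`.
-/
import Mathlib
import Fermat.Agent.TW.FLAT.DiffIdeal6
import Fermat.Agent.TW.FLAT.NoSmall6

set_option autoImplicit false
set_option linter.unusedSectionVars false

namespace Fermat.Agent.TW.FLAT.BallPoints6

open WithConv Coalgebra Fermat.Agent.TW.FLAT.Points6 Fermat.Agent.TW.FLAT.DiffIdeal6
open scoped NNReal

noncomputable section

section Ball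

variable (E : Type*) [NormedField E] [IsUltrametricDist E]

/-- The closed unit ball as a subring. -/
def ball : Subring E where
  carrier := {y | ‖y‖ ≤ 1}
  mul_mem' := by
    intro a b ha hb
    change ‖a * b‖ ≤ 1
    rw [norm_mul]
    exact mul_le_one₀ ha (norm_nonneg _) hb
  one_mem' := by simp
  add_mem' := by
    intro a b ha hb
    exact (IsUltrametricDist.norm_add_le_max _ _).trans (max_le ha hb)
  zero_mem' := by simp
  neg_mem' := by
    intro a ha
    change ‖-a‖ ≤ 1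
    rwa [norm_neg]

variable {E}

theorem mem_ball {y : E} : y ∈ ball E ↔ ‖y‖ ≤ 1 := Iff.rfl

theorem norm_coe_le_one (y : ball E) : ‖(y : E)‖ ≤ 1 := y.2

variable (E)

/-- The ideal of elements of norm `≤ t`. -/
def ballIdeal (t : ℝ≥0) : Ideal (ball E) where
  carrier := {y | ‖(y : E)‖ ≤ t}
  add_mem' := by
    intro a b ha hb
    exact (IsUltrametricDist.norm_add_le_max _ _).trans (max_le ha hb)
  zero_mem' := by simp
  smul_mem' := by
    intro c y hy
    change ‖((c • y : ball E) : E)‖ ≤ t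
    rw [smul_eq_mul, Subring.coe_mul, norm_mul]
    calc ‖(c : E)‖ * ‖(y : E)‖ ≤ 1 * t := mul_le_mul c.2 hy (norm_nonneg _) zero_le_one
      _ = t := one_mul _

variable {E}

theorem mem_ballIdeal {t : ℝ≥0} {y : ball E} : y ∈ ballIdeal E t ↔ ‖(y : E)‖ ≤ t := Iff.rfl

theorem ballIdeal_mono {t t' : ℝ≥0} (h : t ≤ t') : ballIdeal E t ≤ ballIdeal E t' := by
  intro y hy
  rw [mem_ballIdeal] at hy ⊢
  exact hy.trans (by exact_mod_cast h)

theorem ballIdeal_mul_le (t t' : ℝ≥0) : ballIdeal E t * ballIdeal E t' ≤ ballIdeal E (t * t') := by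
  rw [Ideal.mul_le]
  intro a ha b hb
  rw [mem_ballIdeal] at ha hb ⊢
  rw [Subring.coe_mul, norm_mul, NNReal.coe_mul]
  exact mul_le_mul ha hb (norm_nonneg _) t.2

theorem ballIdeal_pow_le (t : ℝ≥0) (n : ℕ) : ballIdeal E t ^ n ≤ ballIdeal E (t ^ n) := by
  induction n with
  | zero =>
    intro y _
    rw [mem_ballIdeal, pow_zero]
    exact y.2
  | succ n ih =>
    rw [pow_succ, pow_succ]
    exact (Ideal.mul_mono_left ih).trans (ballIdeal_mul_le _ _)

theorem span_singleton_le_ballIdeal {c : ball E} {t : ℝ≥0} (hc : ‖(c : E)‖ ≤ t) :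
    Ideal.span {c} ≤ ballIdeal E t := by
  rw [Ideal.span_le]
  intro y hy
  rw [Set.mem_singleton_iff] at hy
  rw [hy]
  exact hc

theorem span_singleton_mul_ballIdeal_le {c : ball E} {t t' : ℝ≥0} (hc : ‖(c : E)‖ ≤ t) :
    Ideal.span {c} * ballIdeal E t' ≤ ballIdeal E (t * t') :=
  (Ideal.mul_mono_left (span_singleton_le_ballIdeal hc)).trans (ballIdeal_mul_le _ _)

end Ball

/-! ### Algebras over a ring of integers -/

/-- The base ring maps into the unit ball. -/
class NormLeOne (R : Type*) (E : Type*) [CommRing R] [NormedField E] [Algebra R E] : Prop where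
  norm_algebraMap_le : ∀ r : R, ‖algebraMap R E r‖ ≤ 1

section Alg

variable (R : Type*) [CommRing R] (E : Type*) [NormedField E] [IsUltrametricDist E] [Algebra R E]
  [NormLeOne R E]

instance : Algebra R (ball E) :=
  ((algebraMap R E).codRestrict (ball E) NormLeOne.norm_algebraMap_le).toAlgebra

instance : IsScalarTower R (ball E) E := IsScalarTower.of_algebraMap_eq (fun _ => rfl)

/-- The inclusion of the unit ball. -/
def incl : ball E →ₐ[R] E := IsScalarTower.toAlgHom R (ball E) E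

variable {R E}

@[simp] theorem incl_apply (y : ball E) : incl R E y = (y : E) := rfl

theorem coe_algebraMap (r : R) : ((algebraMap R (ball E) r : ball E) : E) = algebraMap R E r := rfl

theorem incl_injective : Function.Injective (incl R E) := Subtype.val_injective

/-- Integral elements have norm at most one. -/
theorem norm_le_one_of_isIntegral {y : E} (hy : IsIntegral R y) : ‖y‖ ≤ 1 := by
  by_contra hlt
  rw [not_le] at hlt
  obtain ⟨P, hmonic, hP⟩ := hy
  have hy0 : 0 < ‖y‖ := lt_trans zero_lt_one hlt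
  set n := P.natDegree with hn
  rw [Polynomial.eval₂_eq_sum_range, Finset.sum_range_succ, ← hn] at hP
  have hlead : P.coeff n = 1 := hmonic.coeff_natDegree
  rw [hlead, map_one, one_mul] at hP
  have h1 : y ^ n = -∑ i ∈ Finset.range n, algebraMap R E (P.coeff i) * y ^ i := by
    rw [eq_neg_iff_add_eq_zero, add_comm]; exact hP
  rcases Nat.eq_zero_or_pos n with hn0 | hnpos
  · rw [hn0] at h1
    simp at h1
  · have h2 : ‖∑ i ∈ Finset.range n, algebraMap R E (P.coeff i) * y ^ i‖ ≤ ‖y‖ ^ (n - 1) := by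
      apply IsUltrametricDist.norm_sum_le_of_forall_le_of_nonneg (by positivity)
      intro i hi
      rw [Finset.mem_range] at hi
      rw [norm_mul, norm_pow]
      calc ‖algebraMap R E (P.coeff i)‖ * ‖y‖ ^ i ≤ 1 * ‖y‖ ^ i :=
            mul_le_mul_of_nonneg_right (NormLeOne.norm_algebraMap_le _) (by positivity)
        _ = ‖y‖ ^ i := one_mul _
        _ ≤ ‖y‖ ^ (n - 1) := pow_le_pow_right₀ hlt.le (by omega)
    have h3 : ‖y‖ ^ n ≤ ‖y‖ ^ (n - 1) := by
      rw [← norm_pow, h1, norm_neg]; exact h2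
    have h4 : ‖y‖ ^ (n - 1) < ‖y‖ ^ n := pow_lt_pow_right₀ hlt (by omega)
    exact absurd h3 (not_le.mpr h4)

end Alg

/-! ### Points with values in the unit ball -/

section Points

variable {R : Type*} [CommRing R] {E : Type*} [NormedField E] [IsUltrametricDist E] [Algebra R E]
  [NormLeOne R E] {H : Type*} [CommRing H] [HopfAlgebra R H] [Algebra.IsIntegral R H]

theorem norm_apply_le_one (z : H →ₐ[R] E) (h : H) : ‖z h‖ ≤ 1 :=
  norm_le_one_of_isIntegral (R := R) ((Algebra.IsIntegral.isIntegral (R := R) h).map z)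

/-- Corestriction of a point to the unit ball. -/
def toBallHom (z : H →ₐ[R] E) : H →ₐ[R] ball E where
  toFun h := ⟨z h, norm_apply_le_one z h⟩
  map_one' := Subtype.ext (map_one z)
  map_mul' a b := Subtype.ext (map_mul z a b)
  map_zero' := Subtype.ext (map_zero z)
  map_add' a b := Subtype.ext (map_add z a b)
  commutes' r := Subtype.ext (z.commutes r)

/-- Points with values in the unit ball are the same as points with values in `E`. -/
def ballEquiv : WithConv (H →ₐ[R] ball E) ≃* WithConv (H →ₐ[R] E) :=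
  MulEquiv.ofBijective (mapB (incl R E))
    ⟨mapB_injective (φ := incl R E) incl_injective,
      fun z => ⟨toConv (toBallHom z.ofConv), by ext h; rfl⟩⟩

/-- The point `z`, with values in the unit ball. -/
def toBall (z : WithConv (H →ₐ[R] E)) : WithConv (H →ₐ[R] ball E) := ballEquiv.symm z

@[simp] theorem ballEquiv_apply (y : WithConv (H →ₐ[R] ball E)) (h : H) :
    ballEquiv y h = ((y h : ball E) : E) := rfl

@[simp] theorem coe_toBall_apply (z : WithConv (H →ₐ[R] E)) (h : H) :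
    ((toBall z h : ball E) : E) = z h := by
  have : ballEquiv (toBall z) = z := MulEquiv.apply_symm_apply _ _
  rw [← ballEquiv_apply, this]

@[simp] theorem toBall_mul (z w : WithConv (H →ₐ[R] E)) : toBall (z * w) = toBall z * toBall w :=
  map_mul ballEquiv.symm z w

@[simp] theorem toBall_one : toBall (1 : WithConv (H →ₐ[R] E)) = 1 := map_one ballEquiv.symm

@[simp] theorem toBall_inv (z : WithConv (H →ₐ[R] E)) : toBall z⁻¹ = (toBall z)⁻¹ :=
  map_inv ballEquiv.symm z

@[simp] theorem toBall_pow (z : WithConv (H →ₐ[R] E)) (n : ℕ) : toBall (z ^ n) = toBall z ^ n :=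
  map_pow ballEquiv.symm z n

theorem toBall_eq_one_iff (z : WithConv (H →ₐ[R] E)) : toBall z = 1 ↔ z = 1 :=
  ballEquiv.symm.map_eq_one_iff

/-- The point `z` has size at most `t`: `‖z a‖ ≤ t` on the augmentation ideal. -/
def SizeLe (z : WithConv (H →ₐ[R] E)) (t : ℝ≥0) : Prop := ∀ a ∈ augI R H, ‖z a‖ ≤ t

theorem sizeLe_iff_mem_congrSub (z : WithConv (H →ₐ[R] E)) (t : ℝ≥0) :
    SizeLe z t ↔ toBall z ∈ congrSub (R := R) (H := H) (ballIdeal E t) := by
  rw [mem_congrSub_iff_sizeIdeal_le, sizeIdeal, Ideal.span_le]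
  constructor
  · rintro h _ ⟨a, ha, rfl⟩
    rw [SetLike.mem_coe, mem_ballIdeal, coe_toBall_apply]
    exact h a ha
  · intro h a ha
    have := h ⟨a, ha, rfl⟩
    rwa [SetLike.mem_coe, mem_ballIdeal, coe_toBall_apply] at this

theorem sizeLe_iff_forall (z : WithConv (H →ₐ[R] E)) (t : ℝ≥0) :
    SizeLe z t ↔ ∀ a : H, ‖z a - algebraMap R E (counit a)‖ ≤ t := by
  rw [sizeLe_iff_mem_congrSub, mem_congrSub_iff]
  constructor
  · intro h a
    have := h a
    rwa [mem_ballIdeal, AddSubgroupClass.coe_sub, coe_toBall_apply, coe_algebraMap] at this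
  · intro h a
    rw [mem_ballIdeal, AddSubgroupClass.coe_sub, coe_toBall_apply, coe_algebraMap]
    exact h a

theorem SizeLe.mono {z : WithConv (H →ₐ[R] E)} {t t' : ℝ≥0} (h : SizeLe z t) (htt : t ≤ t') :
    SizeLe z t' := fun a ha => (h a ha).trans (by exact_mod_cast htt)

theorem SizeLe.one (t : ℝ≥0) : SizeLe (1 : WithConv (H →ₐ[R] E)) t := by
  rw [sizeLe_iff_mem_congrSub, toBall_one]
  exact one_mem _

theorem SizeLe.mul {z w : WithConv (H →ₐ[R] E)} {t : ℝ≥0} (hz : SizeLe z t) (hw : SizeLe w t) :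
    SizeLe (z * w) t := by
  rw [sizeLe_iff_mem_congrSub] at hz hw ⊢
  rw [toBall_mul]
  exact mul_mem hz hw

theorem SizeLe.inv {z : WithConv (H →ₐ[R] E)} {t : ℝ≥0} (hz : SizeLe z t) : SizeLe z⁻¹ t := by
  rw [sizeLe_iff_mem_congrSub] at hz ⊢
  rw [toBall_inv]
  exact inv_mem hz

/-- The subgroup of points of size at most `t`. -/
def sizeSub (t : ℝ≥0) : Subgroup (WithConv (H →ₐ[R] E)) where
  carrier := {z | SizeLe z t}
  one_mem' := SizeLe.one t
  mul_mem' := fun hz hw => SizeLe.mul hz hw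
  inv_mem' := fun hz => SizeLe.inv hz

theorem mem_sizeSub {z : WithConv (H →ₐ[R] E)} {t : ℝ≥0} :
    z ∈ sizeSub (R := R) (H := H) (E := E) t ↔ SizeLe z t := Iff.rfl

/-! ### Norm forms of the leading term lemmas -/

theorem norm_mul_apply_sub_le {z w : WithConv (H →ₐ[R] E)} {t : ℝ≥0} (hz : SizeLe z t)
    (hw : SizeLe w t) {a : H} (ha : a ∈ augI R H) : ‖(z * w) a - z a - w a‖ ≤ (t : ℝ) ^ 2 := by
  rw [sizeLe_iff_mem_congrSub] at hz hw
  have h := ballIdeal_mul_le t t (mul_apply_sub_mem hz hw ha)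
  rw [mem_ballIdeal, ← toBall_mul] at h
  simp only [AddSubgroupClass.coe_sub, coe_toBall_apply, NNReal.coe_mul] at h
  rw [pow_two]
  exact h

theorem norm_pow_apply_sub_le {z : WithConv (H →ₐ[R] E)} {t : ℝ≥0} (hz : SizeLe z t)
    {a : H} (ha : a ∈ augI R H) (n : ℕ) : ‖(z ^ n) a - n • z a‖ ≤ (t : ℝ) ^ 2 := by
  rw [sizeLe_iff_mem_congrSub] at hz
  have h := ballIdeal_mul_le t t (pow_apply_sub_mem hz ha n)
  rw [mem_ballIdeal, ← toBall_pow] at h
  simp only [AddSubgroupClass.coe_sub, coe_toBall_apply, NNReal.coe_mul,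
    AddSubmonoidClass.coe_nsmul] at h
  rw [pow_two]
  exact h

theorem norm_natCast_mul_apply_le [Coalgebra.IsCocomm R H] {q : ℕ} (hq : q.Prime)
    {z : WithConv (H →ₐ[R] E)} {t : ℝ≥0} (hz : SizeLe z t) (hzq : z ^ q = 1) {a : H}
    (ha : a ∈ augI R H) :
    ‖(q : E)‖ * ‖z a‖ ≤ max (‖(q : E)‖ * (t : ℝ) ^ 2) ((t : ℝ) ^ q) := by
  rw [sizeLe_iff_mem_congrSub] at hz
  have hzq' : toBall z ^ q = 1 := by rw [← toBall_pow, hzq, toBall_one]
  have h := NoSmall6.natCast_mul_apply_mem hq hz hzq' a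
  rw [mem_augI.mp ha, map_zero, sub_zero] at h
  have hqn : ‖(((q : ball E)) : E)‖ ≤ (‖(q : E)‖₊ : ℝ≥0) := by
    rw [coe_nnnorm]
    exact le_of_eq rfl
  have h1 : Ideal.span {(q : ball E)} * ballIdeal E t ^ 2 ⊔ ballIdeal E t ^ q ≤
      ballIdeal E (max (‖(q : E)‖₊ * t ^ 2) (t ^ q)) := by
    apply sup_le
    · refine (Ideal.mul_mono_right (ballIdeal_pow_le t 2)).trans ?_
      refine (span_singleton_mul_ballIdeal_le hqn).trans ?_
      exact ballIdeal_mono (le_max_left _ _)
    · exact (ballIdeal_pow_le t q).trans (ballIdeal_mono (le_max_right _ _))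
  have h2 := h1 h
  rw [mem_ballIdeal, Subring.coe_mul, norm_mul, coe_toBall_apply] at h2
  have h3 : (((q : ball E)) : E) = (q : E) := rfl
  rw [h3] at h2
  refine h2.trans (le_of_eq ?_)
  push_cast
  rfl

end Points

end

end Fermat.Agent.TW.FLAT.BallPoints6
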