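/-
Programme T, chapter FLAT, file SizeFn6: the size function of points of a finite free Hopf algebra
with values in an ultrametric field; Galois invariance; the quotient formula.
Mathlib + BallPoints6.

Setting: `R` a commutative ring, `E` an ultrametric normed field, `[Algebra R E] [NormLeOne R E]`,
`H` a commutative Hopf algebra over `R`, finite and free; `G = WithConv (H →ₐ[R] E)`.

* `augGen : ι → H` (`ι = Module.Free.ChooseBasisIndex R H`), `augGen i = b i - ε (b i)`;
  `augI_eq_span : augI R H = Ideal.span (range augGen)`, `augI_fg`, `exists_repr_augGen`.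
* `nsize z : ℝ≥0` — the size of the point `z` (`= max_i ‖z (augGen i)‖`);
  `sizeLe_iff_nsize_le : SizeLe z t ↔ nsize z ≤ t`, `sizeLe_nsize`, `norm_apply_le_nsize`,
  `exists_apply_eq_nsize [Nontrivial H] : ∃ a ∈ augI R H, ‖z a‖ = nsize z`,
  `nsize_le_one`, `nsize_eq_zero_iff : nsize z = 0 ↔ z = 1`, `nsize_one`, `nsize_inv`,
  `nsize_mul_le : nsize (z * w) ≤ max (nsize z) (nsize w)`,
  `sizeLe_of_forall_lt`, `nsize_lt_iff (ht : 0 < t) : nsize z < t ↔ ∀ a ∈ augI R H, ‖z a‖ < t`.
* Galois (`Γ` a group acting on `E`, `hiso : ∀ σ y, ‖σ • y‖ = ‖y‖`): `nsize_smul`, `SizeLe.smul`.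
* quotient formula: `mul_inv_apply : (x * y⁻¹) a = ∑ i, (x l_i - y l_i) * y (S r_i)` for `a ∈ augI`;
  `nsize_mul_inv_lt (ht : 0 < t) (h : ∀ a ∈ augI R H, ‖x a - y a‖ < t) : nsize (x * y⁻¹) < t`.
-/
import Mathlib
import Fermat.Agent.TW.FLAT.BallPoints6

set_option autoImplicit false
set_option linter.unusedSectionVars false

namespace Fermat.Agent.TW.FLAT.SizeFn6

open WithConv Coalgebra Module Fermat.Agent.TW.FLAT.Points6 Fermat.Agent.TW.FLAT.DiffIdeal6
  Fermat.Agent.TW.FLAT.BallPoints6
open scoped NNReal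

noncomputable section

variable {R : Type*} [CommRing R] {E : Type*} [NormedField E] [IsUltrametricDist E] [Algebra R E]
  [NormLeOne R E] {H : Type*} [CommRing H] [HopfAlgebra R H] [Module.Free R H] [Module.Finite R H]

/-! ### Generators of the augmentation ideal -/

variable (R H) in
/-- Generators of the augmentation ideal: `b i - ε (b i)` for the chosen basis `b`. -/
def augGen (i : Module.Free.ChooseBasisIndex R H) : H :=
  Module.Free.chooseBasis R H i - algebraMap R H (counit (Module.Free.chooseBasis R H i))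

theorem augGen_mem (i : Module.Free.ChooseBasisIndex R H) : augGen R H i ∈ augI R H :=
  sub_counit_mem_augI _

theorem exists_repr_augGen {a : H} (ha : a ∈ augI R H) :
    a = ∑ i, (Module.Free.chooseBasis R H).repr a i • augGen R H i := by
  have h1 : a = ∑ i, (Module.Free.chooseBasis R H).repr a i • Module.Free.chooseBasis R H i :=
    ((Module.Free.chooseBasis R H).sum_repr a).symm
  have h2 : (0 : R) = ∑ i, (Module.Free.chooseBasis R H).repr a i *
      counit (R := R) (Module.Free.chooseBasis R H i) := by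
    rw [← mem_augI.mp ha]
    conv_lhs => rw [h1]
    rw [map_sum]
    apply Finset.sum_congr rfl
    intro i _
    rw [map_smul, smul_eq_mul]
  conv_lhs => rw [h1, ← sub_zero (∑ i, _ • _), ← map_zero (algebraMap R H), h2, map_sum,
    ← Finset.sum_sub_distrib]
  apply Finset.sum_congr rfl
  intro i _
  rw [augGen, smul_sub, map_mul]
  simp only [Algebra.smul_def]

variable (R H) in
theorem augI_eq_span : augI R H = Ideal.span (Set.range (augGen R H)) := by
  apply le_antisymm
  · intro a ha
    rw [exists_repr_augGen ha]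
    apply Ideal.sum_mem
    intro i _
    rw [Algebra.smul_def]
    exact Ideal.mul_mem_left _ _ (Ideal.subset_span ⟨i, rfl⟩)
  · rw [Ideal.span_le]
    rintro _ ⟨i, rfl⟩
    exact augGen_mem i

variable (R H) in
theorem augI_fg : (augI R H).FG := by
  rw [augI_eq_span]
  exact Submodule.fg_span (Set.finite_range _)

/-! ### The size function -/

/-- The size of a point. -/
def nsize (z : WithConv (H →ₐ[R] E)) : ℝ≥0 :=
  Finset.univ.sup fun i : Module.Free.ChooseBasisIndex R H => ‖z (augGen R H i)‖₊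

theorem sizeLe_iff_nsize_le (z : WithConv (H →ₐ[R] E)) (t : ℝ≥0) : SizeLe z t ↔ nsize z ≤ t := by
  constructor
  · intro h
    apply Finset.sup_le
    intro i _
    exact_mod_cast h _ (augGen_mem i)
  · intro h a ha
    rw [exists_repr_augGen ha, map_sum]
    apply IsUltrametricDist.norm_sum_le_of_forall_le_of_nonneg t.2
    intro i _
    rw [map_smul, Algebra.smul_def, norm_mul]
    have h1 : ‖z (augGen R H i)‖₊ ≤ t := (Finset.le_sup (f := fun i => ‖z (augGen R H i)‖₊)
      (Finset.mem_univ i)).trans h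
    calc ‖algebraMap R E _‖ * ‖z (augGen R H i)‖ ≤ 1 * t :=
          mul_le_mul (NormLeOne.norm_algebraMap_le _) (by exact_mod_cast h1) (norm_nonneg _)
            zero_le_one
      _ = t := one_mul _

theorem sizeLe_nsize (z : WithConv (H →ₐ[R] E)) : SizeLe z (nsize z) :=
  (sizeLe_iff_nsize_le z _).mpr le_rfl

theorem norm_apply_le_nsize (z : WithConv (H →ₐ[R] E)) {a : H} (ha : a ∈ augI R H) :
    ‖z a‖ ≤ nsize z := sizeLe_nsize z a ha

theorem exists_apply_eq_nsize [Nontrivial H] (z : WithConv (H →ₐ[R] E)) :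
    ∃ a ∈ augI R H, ‖z a‖ = nsize z := by
  have : Nonempty (Module.Free.ChooseBasisIndex R H) := by
    by_contra h
    rw [not_nonempty_iff] at h
    have := (Module.Free.chooseBasis R H).repr.toEquiv.subsingleton
    exact not_subsingleton H this
  obtain ⟨i, -, hi⟩ := Finset.exists_mem_eq_sup Finset.univ Finset.univ_nonempty
    (fun i : Module.Free.ChooseBasisIndex R H => ‖z (augGen R H i)‖₊)
  refine ⟨augGen R H i, augGen_mem i, ?_⟩
  rw [nsize, hi]
  rfl

theorem nsize_le_one (z : WithConv (H →ₐ[R] E)) : nsize z ≤ 1 := by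
  rw [← sizeLe_iff_nsize_le]
  intro a _
  have : Algebra.IsIntegral R H := inferInstance
  exact_mod_cast norm_apply_le_one z.ofConv a

theorem nsize_eq_zero_iff (z : WithConv (H →ₐ[R] E)) : nsize z = 0 ↔ z = 1 := by
  constructor
  · intro h
    have h1 : SizeLe z 0 := by rw [sizeLe_iff_nsize_le, h]
    rw [sizeLe_iff_forall] at h1
    ext a
    have h2 := h1 a
    rw [NNReal.coe_zero, norm_le_zero_iff, sub_eq_zero] at h2
    rw [h2]
    simp
  · rintro rfl
    have := (sizeLe_iff_nsize_le (1 : WithConv (H →ₐ[R] E)) 0).mp (SizeLe.one 0)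
    exact le_antisymm this bot_le

@[simp] theorem nsize_one : nsize (1 : WithConv (H →ₐ[R] E)) = 0 := (nsize_eq_zero_iff 1).mpr rfl

theorem nsize_inv (z : WithConv (H →ₐ[R] E)) : nsize z⁻¹ = nsize z := by
  apply le_antisymm
  · rw [← sizeLe_iff_nsize_le]; exact (sizeLe_nsize z).inv
  · rw [← sizeLe_iff_nsize_le]
    have := (sizeLe_nsize z⁻¹).inv
    rwa [inv_inv] at this

theorem nsize_mul_le (z w : WithConv (H →ₐ[R] E)) : nsize (z * w) ≤ max (nsize z) (nsize w) := by
  rw [← sizeLe_iff_nsize_le]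
  exact ((sizeLe_nsize z).mono (le_max_left _ _)).mul ((sizeLe_nsize w).mono (le_max_right _ _))

theorem nsize_lt_iff (z : WithConv (H →ₐ[R] E)) {t : ℝ≥0} (ht : 0 < t) :
    nsize z < t ↔ ∀ a ∈ augI R H, ‖z a‖ < t := by
  constructor
  · intro h a ha
    exact lt_of_le_of_lt (norm_apply_le_nsize z ha) (by exact_mod_cast h)
  · intro h
    rw [nsize, Finset.sup_lt_iff ht]
    intro i _
    exact_mod_cast h _ (augGen_mem i)

/-! ### Galois invariance -/

section Galois

variable {Γ : Type*} [Group Γ] [MulSemiringAction Γ E] [SMulCommClass Γ R E]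

theorem smul_algebraMap (σ : Γ) (r : R) : σ • algebraMap R E r = algebraMap R E r := by
  rw [Algebra.algebraMap_eq_smul_one, smul_comm, smul_one]

variable (hiso : ∀ (σ : Γ) (y : E), ‖σ • y‖ = ‖y‖)
include hiso

theorem SizeLe.smul {z : WithConv (H →ₐ[R] E)} {t : ℝ≥0} (hz : SizeLe z t) (σ : Γ) :
    SizeLe (σ • z) t := by
  intro a ha
  rw [Points6.smul_apply, hiso]
  exact hz a ha

theorem nsize_smul (σ : Γ) (z : WithConv (H →ₐ[R] E)) : nsize (σ • z) = nsize z := by
  apply le_antisymm
  · rw [← sizeLe_iff_nsize_le]; exact SizeLe.smul hiso (sizeLe_nsize z) σ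
  · rw [← sizeLe_iff_nsize_le]
    have := SizeLe.smul hiso (sizeLe_nsize (σ • z)) σ⁻¹
    rwa [inv_smul_smul] at this

end Galois

/-! ### The quotient formula -/

omit [Algebra R E] [NormLeOne R E] in
theorem norm_sum_lt {ι : Type*} (s : Finset ι) (f : ι → E) {t : ℝ} (ht : 0 < t)
    (h : ∀ i ∈ s, ‖f i‖ < t) : ‖∑ i ∈ s, f i‖ < t := by
  classical
  induction s using Finset.induction_on with
  | empty => simpa using ht
  | insert j s hj ih =>
    rw [Finset.sum_insert hj]
    refine lt_of_le_of_lt (IsUltrametricDist.norm_add_le_max _ _) (max_lt ?_ ?_)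
    · exact h j (Finset.mem_insert_self _ _)
    · exact ih (fun i hi => h i (Finset.mem_insert_of_mem hi))

theorem mul_inv_apply (x y : WithConv (H →ₐ[R] E)) {a : H} (ha : a ∈ augI R H) :
    (x * y⁻¹) a = ∑ i ∈ (ℛ R a).index,
      (x ((ℛ R a).left i) - y ((ℛ R a).left i)) *
        y (HopfAlgebra.antipode R ((ℛ R a).right i)) := by
  have h1 : (x * y⁻¹) a = ∑ i ∈ (ℛ R a).index,
      x ((ℛ R a).left i) * y (HopfAlgebra.antipode R ((ℛ R a).right i)) := by
    rw [mul_apply_repr x y⁻¹ (ℛ R a)]
    rfl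
  have h2 : (0 : E) = ∑ i ∈ (ℛ R a).index,
      y ((ℛ R a).left i) * y (HopfAlgebra.antipode R ((ℛ R a).right i)) := by
    have h3 := HopfAlgebra.sum_mul_antipode_eq_algebraMap_counit (ℛ R a)
    rw [mem_augI.mp ha, map_zero] at h3
    have h4 := congrArg (fun t => y t) h3
    simp only [map_sum, map_mul, map_zero] at h4
    exact h4.symm
  rw [← sub_zero ((x * y⁻¹) a), h1, h2, ← Finset.sum_sub_distrib]
  apply Finset.sum_congr rfl
  intro i _
  rw [sub_mul]

theorem nsize_mul_inv_lt (x y : WithConv (H →ₐ[R] E)) {t : ℝ≥0} (ht : 0 < t)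
    (h : ∀ a ∈ augI R H, ‖x a - y a‖ < t) : nsize (x * y⁻¹) < t := by
  rw [nsize_lt_iff _ ht]
  intro a ha
  rw [mul_inv_apply x y ha]
  -- a finite ultrametric sum of terms of norm `< t`
  have hterm : ∀ i ∈ (ℛ R a).index,
      ‖(x ((ℛ R a).left i) - y ((ℛ R a).left i)) *
        y (HopfAlgebra.antipode R ((ℛ R a).right i))‖ < t := by
    intro i _
    rw [norm_mul]
    have h1 : x ((ℛ R a).left i) - y ((ℛ R a).left i) =
        x ((ℛ R a).left i - algebraMap R H (counit ((ℛ R a).left i))) -
        y ((ℛ R a).left i - algebraMap R H (counit ((ℛ R a).left i))) := by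
      rw [map_sub, map_sub]
      have hx : x (algebraMap R H (counit (R := R) ((ℛ R a).left i))) =
          algebraMap R E (counit (R := R) ((ℛ R a).left i)) := x.ofConv.commutes _
      have hy : y (algebraMap R H (counit (R := R) ((ℛ R a).left i))) =
          algebraMap R E (counit (R := R) ((ℛ R a).left i)) := y.ofConv.commutes _
      rw [hx, hy]; ring
    have h2 := h _ (sub_counit_mem_augI (R := R) ((ℛ R a).left i))
    rw [← h1] at h2
    have h3 : ‖y (HopfAlgebra.antipode R ((ℛ R a).right i))‖ ≤ 1 := norm_apply_le_one y.ofConv _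
    calc _ ≤ ‖x ((ℛ R a).left i) - y ((ℛ R a).left i)‖ * 1 :=
          mul_le_mul_of_nonneg_left h3 (norm_nonneg _)
      _ = _ := mul_one _
      _ < t := h2
  exact norm_sum_lt _ _ (by exact_mod_cast ht) hterm

end

end Fermat.Agent.TW.FLAT.SizeFn6
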