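/-
Programme T, chapter FLAT, file IrredSize6: points of a Galois-irreducible finite flat group:
constant size, connectedness, and the `ω`-equivariance of leading terms.  Mathlib + SizeFn6.

Setting: `R`, `E`, `H` as in SizeFn6 (`H` finite free commutative Hopf algebra over `R`, `E` an
ultrametric normed field, `‖R‖ ≤ 1`), `G = WithConv (H →ₐ[R] E)`; `Γ` a group acting on `E`
(`MulSemiringAction Γ E`, `SMulCommClass Γ R E`) with
  `hiso : ∀ σ y, ‖σ • y‖ = ‖y‖`,  `hin : ∀ σ y, ‖y‖ ≤ 1 → ‖σ • y - y‖ < 1` (inertia-like).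

* `IsIrr Γ G := ∀ N : Subgroup G, (∀ σ, ∀ z ∈ N, σ • z ∈ N) → N = ⊥ ∨ N = ⊤`.
* `nsize_eq_of_ne_one hiso hirr : z ≠ 1 → w ≠ 1 → nsize z = nsize w`.
* `smul_eq_of_forall_nsize_eq_one hin` : if every non-trivial point has size `1`, `Γ` acts trivially.
* `nsize_lt_one hiso hin hirr (hcard : Nat.card G = p ^ 2) z : nsize z < 1` (`p` prime): all points
  are connected.
* `smul_eq_pow hiso hin` (**`ω`-equivariance**): `ϖ : E`, `0 < ‖ϖ‖ < 1`, `SizeLe z ‖ϖ‖₊`, all points of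
  size `< ‖ϖ‖` trivial, `‖σ • ϖ - c * ϖ‖ < ‖ϖ‖` (`c : ℕ`) ⇒ `σ • z = z ^ c`.
-/
import Mathlib
import Fermat.Agent.TW.FLAT.SizeFn6

set_option autoImplicit false
set_option linter.unusedSectionVars false

namespace Fermat.Agent.TW.FLAT.IrredSize6

open WithConv Coalgebra Module Fermat.Agent.TW.FLAT.Points6 Fermat.Agent.TW.FLAT.DiffIdeal6
  Fermat.Agent.TW.FLAT.BallPoints6 Fermat.Agent.TW.FLAT.SizeFn6
open scoped NNReal

noncomputable section

/-- `Γ`-irreducibility of a group with `Γ`-action. -/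
def IsIrr (Γ : Type*) (G : Type*) [Group G] [SMul Γ G] : Prop :=
  ∀ N : Subgroup G, (∀ σ : Γ, ∀ z ∈ N, σ • z ∈ N) → N = ⊥ ∨ N = ⊤

variable {R : Type*} [CommRing R] {E : Type*} [NormedField E] [IsUltrametricDist E] [Algebra R E]
  [NormLeOne R E] {H : Type*} [CommRing H] [HopfAlgebra R H] [Module.Free R H] [Module.Finite R H]
  {Γ : Type*} [Group Γ] [MulSemiringAction Γ E] [SMulCommClass Γ R E]

section

variable (hiso : ∀ (σ : Γ) (y : E), ‖σ • y‖ = ‖y‖)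
include hiso

theorem nsize_le_of_ne_one (hirr : IsIrr Γ (WithConv (H →ₐ[R] E))) {z w : WithConv (H →ₐ[R] E)}
    (hz : z ≠ 1) : nsize w ≤ nsize z := by
  have hstab : ∀ σ : Γ, ∀ y ∈ sizeSub (R := R) (H := H) (E := E) (nsize z),
      σ • y ∈ sizeSub (R := R) (H := H) (E := E) (nsize z) := by
    intro σ y hy
    exact SizeLe.smul hiso hy σ
  rcases hirr _ hstab with h | h
  · exfalso
    have : z ∈ sizeSub (R := R) (H := H) (E := E) (nsize z) := sizeLe_nsize z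
    rw [h, Subgroup.mem_bot] at this
    exact hz this
  · have : w ∈ sizeSub (R := R) (H := H) (E := E) (nsize z) := by rw [h]; exact Subgroup.mem_top _
    exact (sizeLe_iff_nsize_le w _).mp this

theorem nsize_eq_of_ne_one (hirr : IsIrr Γ (WithConv (H →ₐ[R] E))) {z w : WithConv (H →ₐ[R] E)}
    (hz : z ≠ 1) (hw : w ≠ 1) : nsize z = nsize w :=
  le_antisymm (nsize_le_of_ne_one hiso hirr hw) (nsize_le_of_ne_one hiso hirr hz)

end

section

variable (hin : ∀ (σ : Γ) (y : E), ‖y‖ ≤ 1 → ‖σ • y - y‖ < 1)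
include hin

theorem smul_eq_of_forall_nsize_eq_one
    (h1 : ∀ w : WithConv (H →ₐ[R] E), w ≠ 1 → nsize w = 1) (σ : Γ)
    (z : WithConv (H →ₐ[R] E)) : σ • z = z := by
  have h2 : nsize (σ • z * z⁻¹) < 1 := by
    apply nsize_mul_inv_lt _ _ zero_lt_one
    intro a _
    rw [Points6.smul_apply]
    exact_mod_cast hin σ (z a) (norm_apply_le_one z.ofConv a)
  by_contra hne
  have h3 : σ • z * z⁻¹ ≠ 1 := by
    intro h
    exact hne (mul_inv_eq_one.mp h)
  rw [h1 _ h3] at h2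
  exact lt_irrefl _ h2

theorem nsize_lt_one (hiso : ∀ (σ : Γ) (y : E), ‖σ • y‖ = ‖y‖)
    (hirr : IsIrr Γ (WithConv (H →ₐ[R] E))) [Finite (WithConv (H →ₐ[R] E))] {p : ℕ}
    [hp : Fact p.Prime] (hcard : Nat.card (WithConv (H →ₐ[R] E)) = p ^ 2)
    (z : WithConv (H →ₐ[R] E)) : nsize z < 1 := by
  by_contra hz
  have hz1 : nsize z = 1 := le_antisymm (nsize_le_one z) (not_lt.mp hz)
  have hzne : z ≠ 1 := by
    rintro rfl
    rw [nsize_one] at hz1
    exact zero_ne_one hz1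
  have h1 : ∀ w : WithConv (H →ₐ[R] E), w ≠ 1 → nsize w = 1 := by
    intro w hw
    rw [← nsize_eq_of_ne_one hiso hirr hzne hw, hz1]
  -- the action is trivial, so every subgroup is stable; take a subgroup of order `p`
  have hdvd : p ∣ Nat.card (WithConv (H →ₐ[R] E)) := by rw [hcard]; exact dvd_pow_self p two_ne_zero
  obtain ⟨g, hg⟩ := exists_prime_orderOf_dvd_card' p hdvd
  rcases hirr (Subgroup.zpowers g) (by
      intro σ y hy
      rwa [smul_eq_of_forall_nsize_eq_one hin h1 σ y]) with h | h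
  · have : g ∈ Subgroup.zpowers g := Subgroup.mem_zpowers g
    rw [h, Subgroup.mem_bot] at this
    rw [this, orderOf_one] at hg
    exact hp.out.one_lt.ne hg
  · have h2 : Nat.card (Subgroup.zpowers g) = p := by rw [Nat.card_zpowers, hg]
    rw [h, Subgroup.card_top, hcard] at h2
    have := hp.out.one_lt
    nlinarith

/-- **`ω`-equivariance of leading terms.** -/
theorem smul_eq_pow (hiso : ∀ (σ : Γ) (y : E), ‖σ • y‖ = ‖y‖) {ϖ : E} (hϖ0 : ϖ ≠ 0)
    (hϖ1 : ‖ϖ‖ < 1) (htriv : ∀ w : WithConv (H →ₐ[R] E), nsize w < ‖ϖ‖₊ → w = 1)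
    {z : WithConv (H →ₐ[R] E)} (hz : SizeLe z ‖ϖ‖₊) {σ : Γ} {c : ℕ}
    (hc : ‖σ • ϖ - (c : E) * ϖ‖ < ‖ϖ‖) : σ • z = z ^ c := by
  have hs0 : 0 < ‖ϖ‖ := norm_pos_iff.mpr hϖ0
  have hs0' : 0 < ‖ϖ‖₊ := by exact_mod_cast hs0
  have key : nsize (σ • z * (z ^ c)⁻¹) < ‖ϖ‖₊ := by
    apply nsize_mul_inv_lt _ _ hs0'
    intro a ha
    rw [Points6.smul_apply, coe_nnnorm]
    set u : E := z a / ϖ with hu
    have hzu : z a = ϖ * u := by rw [hu]; field_simp
    have hu1 : ‖u‖ ≤ 1 := by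
      rw [hu, norm_div, div_le_one hs0]
      exact_mod_cast hz a ha
    have h1 : σ • z a - (z ^ c) a =
        (σ • ϖ - (c : E) * ϖ) * (σ • u) + (c : E) * ϖ * (σ • u - u) +
          ((c : E) * z a - (z ^ c) a) := by
      rw [hzu, smul_mul']; ring
    rw [h1]
    refine lt_of_le_of_lt (IsUltrametricDist.norm_add_le_max _ _) (max_lt ?_ ?_)
    · refine lt_of_le_of_lt (IsUltrametricDist.norm_add_le_max _ _) (max_lt ?_ ?_)
      · rw [norm_mul, hiso]
        calc ‖σ • ϖ - (c : E) * ϖ‖ * ‖u‖ ≤ ‖σ • ϖ - (c : E) * ϖ‖ * 1 :=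
              mul_le_mul_of_nonneg_left hu1 (norm_nonneg _)
          _ = _ := mul_one _
          _ < ‖ϖ‖ := hc
      · rw [norm_mul, norm_mul]
        have h2 : ‖(c : E)‖ ≤ 1 := IsUltrametricDist.norm_natCast_le_one E c
        have h3 : ‖σ • u - u‖ < 1 := hin σ u hu1
        calc ‖(c : E)‖ * ‖ϖ‖ * ‖σ • u - u‖ ≤ 1 * ‖ϖ‖ * ‖σ • u - u‖ := by
              apply mul_le_mul_of_nonneg_right _ (norm_nonneg _)
              exact mul_le_mul_of_nonneg_right h2 (norm_nonneg _)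
          _ = ‖ϖ‖ * ‖σ • u - u‖ := by rw [one_mul]
          _ < ‖ϖ‖ * 1 := mul_lt_mul_of_pos_left h3 hs0
          _ = ‖ϖ‖ := mul_one _
    · have h4 := norm_pow_apply_sub_le hz ha c
      rw [nsmul_eq_mul, norm_sub_rev] at h4
      refine lt_of_le_of_lt h4 ?_
      rw [coe_nnnorm, pow_two]
      calc ‖ϖ‖ * ‖ϖ‖ < ‖ϖ‖ * 1 := mul_lt_mul_of_pos_left hϖ1 hs0
        _ = ‖ϖ‖ := mul_one _
  exact mul_inv_eq_one.mp (htriv _ key)

end

end

end Fermat.Agent.TW.FLAT.IrredSize6
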