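/-
Programme T, chapter FLAT, file PointsIso6: a finite free algebra with as many points as its rank
is split by its points; determinant and characteristic polynomial of multiplications.
Mathlib + Closure6 (`evFam`).

`R` a commutative ring, `A` a commutative `R`-algebra, finite and free as an `R`-module, `Ω` a field
with `[Algebra R Ω]`, `φ : κ → (A →ₐ[R] Ω)` an injective family of points indexed by a finite type
`κ` with `hcard : Nat.card κ = finrank R A`.
* `evFam_bijective hinj hcard : Function.Bijective (Closure6.evFam φ)`;
  `evEquiv hinj hcard : Ω ⊗[R] A ≃ₗ[Ω] (κ → Ω)`.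
* `det_mulLeft hinj hcard a : algebraMap R Ω (LinearMap.det (LinearMap.mulLeft R a)) = ∏ k, φ k a`;
* `charpoly_mulLeft hinj hcard a :
    (LinearMap.mulLeft R a).charpoly.map (algebraMap R Ω) = ∏ k, (X - C (φ k a))`;
* `aeval_charpoly_mulLeft a : aeval a (LinearMap.mulLeft R a).charpoly = 0` (Cayley–Hamilton).
-/
import Mathlib
import Fermat.Agent.TW.FLAT.Closure6

set_option autoImplicit false
set_option linter.unusedSectionVars false

namespace Fermat.Agent.TW.FLAT.PointsIso6

open TensorProduct Module Polynomial Fermat.Agent.TW.FLAT.Closure6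

noncomputable section

variable {R : Type*} [CommRing R] {A : Type*} [CommRing A] [Algebra R A]
  [Module.Free R A] [Module.Finite R A] {Ω : Type*} [Field Ω] [Algebra R Ω]
  {κ : Type*} [Fintype κ] [DecidableEq κ] {φ : κ → (A →ₐ[R] Ω)}

theorem evFam_bijective (hinj : Function.Injective φ) (hcard : Nat.card κ = finrank R A) :
    Function.Bijective (evFam φ) := by
  have hsurj : Function.Surjective (evFam φ) := evFam_surjective hinj
  have : Nontrivial R := (algebraMap R Ω).domain_nontrivial
  refine ⟨?_, hsurj⟩
  have h1 : finrank Ω (Ω ⊗[R] A) = finrank Ω (κ → Ω) := by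
    rw [Module.finrank_baseChange, Module.finrank_fintype_fun_eq_card, ← hcard,
      Nat.card_eq_fintype_card]
  exact (LinearMap.injective_iff_surjective_of_finrank_eq_finrank
    (f := (evFam φ).toLinearMap) h1).mpr hsurj

/-- The splitting `Ω ⊗ A ≃ Ω^κ`. -/
def evEquiv (hinj : Function.Injective φ) (hcard : Nat.card κ = finrank R A) :
    Ω ⊗[R] A ≃ₗ[Ω] (κ → Ω) :=
  LinearEquiv.ofBijective (evFam φ).toLinearMap (evFam_bijective hinj hcard)

theorem evEquiv_apply (hinj : Function.Injective φ) (hcard : Nat.card κ = finrank R A)
    (t : Ω ⊗[R] A) : evEquiv hinj hcard t = evFam φ t := rfl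

/-- Multiplication by `a` becomes the diagonal matrix `(φ k a)_k`. -/
theorem conj_baseChange_mulLeft (hinj : Function.Injective φ)
    (hcard : Nat.card κ = finrank R A) (a : A) :
    (evEquiv hinj hcard).conj ((LinearMap.mulLeft R a).baseChange Ω) =
      Matrix.toLin' (Matrix.diagonal fun k => φ k a) := by
  apply LinearMap.ext
  intro v
  obtain ⟨t, rfl⟩ := (evEquiv hinj hcard).surjective v
  rw [LinearEquiv.conj_apply_apply, LinearEquiv.symm_apply_apply]
  have h1 : (LinearMap.mulLeft R a).baseChange Ω t = ((1 : Ω) ⊗ₜ[R] a) * t := by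
    induction t using TensorProduct.induction_on with
    | zero => simp
    | tmul ω b => simp [Algebra.TensorProduct.tmul_mul_tmul]
    | add x y hx hy => rw [map_add, hx, hy, mul_add]
  rw [h1, evEquiv_apply, evEquiv_apply, map_mul]
  funext k
  rw [Matrix.toLin'_apply, Matrix.mulVec_diagonal, Pi.mul_apply, evFam_tmul, one_mul]

theorem det_mulLeft (hinj : Function.Injective φ) (hcard : Nat.card κ = finrank R A) (a : A) :
    algebraMap R Ω (LinearMap.det (LinearMap.mulLeft R a)) = ∏ k, φ k a := by
  rw [← LinearMap.det_baseChange, ← LinearMap.det_conj _ (evEquiv hinj hcard)]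
  have h := conj_baseChange_mulLeft hinj hcard a
  rw [LinearEquiv.conj_apply] at h
  rw [← LinearMap.comp_assoc, h, LinearMap.det_toLin', Matrix.det_diagonal]

theorem charpoly_mulLeft (hinj : Function.Injective φ) (hcard : Nat.card κ = finrank R A)
    (a : A) :
    (LinearMap.mulLeft R a).charpoly.map (algebraMap R Ω) = ∏ k, (X - C (φ k a)) := by
  rw [← LinearMap.charpoly_baseChange, ← LinearEquiv.charpoly_conj (evEquiv hinj hcard),
    conj_baseChange_mulLeft hinj hcard a, Matrix.charpoly_toLin', Matrix.charpoly_diagonal]

omit [DecidableEq κ] [Fintype κ] in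
/-- Cayley–Hamilton for multiplications. -/
theorem aeval_charpoly_mulLeft (a : A) :
    aeval a (LinearMap.mulLeft R a).charpoly = 0 := by
  have h := LinearMap.aeval_self_charpoly (LinearMap.mulLeft R a)
  have h2 : ∀ P : R[X], (aeval (LinearMap.mulLeft R a) P) 1 = aeval a P := by
    intro P
    induction P using Polynomial.induction_on' with
    | add p q hp hq => rw [map_add, map_add, LinearMap.add_apply, hp, hq]
    | monomial n r =>
      rw [aeval_monomial, aeval_monomial, Module.End.mul_apply, Module.algebraMap_end_apply]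
      have : ∀ n : ℕ, (LinearMap.mulLeft R a ^ n) 1 = a ^ n := by
        intro n
        induction n with
        | zero => simp
        | succ n ih => rw [pow_succ', Module.End.mul_apply, ih, LinearMap.mulLeft_apply, ← pow_succ']
      rw [this, Algebra.smul_def]
  rw [← h2, h, LinearMap.zero_apply]

end

end Fermat.Agent.TW.FLAT.PointsIso6
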