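/-
Programme T, chapter FLAT, file LocalConn6: a finite free Hopf algebra all of whose points are
connected is a local ring.  Mathlib + PointsIso6 + BallPoints6.

Setting: `R` a local ring, `E` an ultrametric normed field with `[Algebra R E] [NormLeOne R E]`,
`hmax : ∀ r ∈ maximalIdeal R, ‖algebraMap R E r‖ < 1`; `H` a commutative Hopf algebra over `R`,
finite and free as a module; the group of points `G = WithConv (H →ₐ[R] E)` is finite with
`hcard : Nat.card G = finrank R H`, and all points are connected:
`hconn : ∀ (z : G) (a : H), a ∈ augI R H → ‖z a‖ < 1`.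

* `norm_algebraMap_eq_one_iff hmax : ‖algebraMap R E r‖ = 1 ↔ IsUnit r`;
* `norm_apply_eq_one`, `isUnit_of_isUnit_counit : IsUnit (counit h) → IsUnit h`;
* **`isLocalRing hmax hcard hconn : IsLocalRing H`**;
  `counit_mem_maximalIdeal_iff : counit h ∈ maximalIdeal R ↔ h ∈ maximalIdeal H`,
  `augI_le_maximalIdeal`, `map_maximalIdeal_le`.
-/
import Mathlib
import Fermat.Agent.TW.FLAT.PointsIso6
import Fermat.Agent.TW.FLAT.BallPoints6

set_option autoImplicit false
set_option linter.unusedSectionVars false

namespace Fermat.Agent.TW.FLAT.LocalConn6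

open WithConv Coalgebra Module IsLocalRing Fermat.Agent.TW.FLAT.Points6
  Fermat.Agent.TW.FLAT.DiffIdeal6 Fermat.Agent.TW.FLAT.BallPoints6

noncomputable section

variable {R : Type*} [CommRing R] [IsLocalRing R] {E : Type*} [NormedField E] [IsUltrametricDist E]
  [Algebra R E] [NormLeOne R E]

theorem norm_algebraMap_eq_one_iff (hmax : ∀ r ∈ maximalIdeal R, ‖algebraMap R E r‖ < 1) (r : R) :
    ‖algebraMap R E r‖ = 1 ↔ IsUnit r := by
  constructor
  · intro h
    by_contra hr
    have := hmax r ((mem_maximalIdeal r).mpr hr)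
    rw [h] at this
    exact lt_irrefl _ this
  · rintro ⟨u, rfl⟩
    apply le_antisymm (NormLeOne.norm_algebraMap_le _)
    have h1 : algebraMap R E (u : R) * algebraMap R E ((u⁻¹ : Rˣ) : R) = 1 := by
      rw [← map_mul, Units.mul_inv, map_one]
    have h2 : ‖algebraMap R E (u : R)‖ * ‖algebraMap R E ((u⁻¹ : Rˣ) : R)‖ = 1 := by
      rw [← norm_mul, h1, norm_one]
    have h3 := NormLeOne.norm_algebraMap_le (E := E) ((u⁻¹ : Rˣ) : R)
    have h4 : 0 ≤ ‖algebraMap R E (u : R)‖ := norm_nonneg _
    nlinarith

theorem norm_add_eq_of_lt {a b : E} (h : ‖b‖ < ‖a‖) : ‖a + b‖ = ‖a‖ := by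
  rw [IsUltrametricDist.norm_add_eq_max_of_norm_ne_norm (ne_of_gt h), max_eq_left h.le]

variable {H : Type*} [CommRing H] [HopfAlgebra R H] [Module.Free R H] [Module.Finite R H]

section

variable (hmax : ∀ r ∈ maximalIdeal R, ‖algebraMap R E r‖ < 1)
  (hconn : ∀ (z : WithConv (H →ₐ[R] E)) (a : H), a ∈ augI R H → ‖z a‖ < 1)
include hmax hconn

theorem norm_apply_eq_one {h : H} (hh : IsUnit (counit (R := R) h)) (z : WithConv (H →ₐ[R] E)) :
    ‖z h‖ = 1 := by
  have h1 : ‖algebraMap R E (counit (R := R) h)‖ = 1 := (norm_algebraMap_eq_one_iff hmax _).mpr hh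
  have h2 : ‖z (h - algebraMap R H (counit (R := R) h))‖ < 1 :=
    hconn z _ (sub_counit_mem_augI h)
  have h3 : z h = algebraMap R E (counit (R := R) h) +
      z (h - algebraMap R H (counit (R := R) h)) := by
    rw [map_sub]
    have : z (algebraMap R H (counit (R := R) h)) = algebraMap R E (counit (R := R) h) :=
      z.ofConv.commutes _
    rw [this]; ring
  rw [h3, norm_add_eq_of_lt (by rw [h1]; exact h2), h1]

variable [Finite (WithConv (H →ₐ[R] E))]
  (hcard : Nat.card (WithConv (H →ₐ[R] E)) = finrank R H)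
include hcard

theorem isUnit_of_isUnit_counit {h : H} (hh : IsUnit (counit (R := R) h)) : IsUnit h := by
  classical
  have := Fintype.ofFinite (WithConv (H →ₐ[R] E))
  have hinj : Function.Injective (fun z : WithConv (H →ₐ[R] E) => z.ofConv) :=
    WithConv.ofConv_injective
  have hdet := PointsIso6.det_mulLeft hinj hcard h
  have h1 : ‖algebraMap R E (LinearMap.det (LinearMap.mulLeft R h))‖ = 1 := by
    rw [hdet, norm_prod]
    apply Finset.prod_eq_one
    intro z _
    exact norm_apply_eq_one hmax hconn hh z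
  have h2 : IsUnit (LinearMap.det (LinearMap.mulLeft R h)) :=
    (norm_algebraMap_eq_one_iff hmax _).mp h1
  have h3 : IsUnit (LinearMap.mulLeft R h) := (LinearMap.isUnit_iff_isUnit_det _).mpr h2
  obtain ⟨u, hu⟩ := h3
  have h4 : Function.Surjective (LinearMap.mulLeft R h) := by
    rw [← hu]
    exact (LinearMap.GeneralLinearGroup.generalLinearEquiv R H u).surjective
  obtain ⟨g, hg⟩ := h4 1
  rw [LinearMap.mulLeft_apply] at hg
  exact IsUnit.of_mul_eq_one g hg

/-- **Connected ⇒ local.** -/
theorem isLocalRing : IsLocalRing H := by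
  have : Nontrivial H := (Bialgebra.counitAlgHom R H : H →+* R).domain_nontrivial
  apply IsLocalRing.of_nonunits_add
  intro a b ha hb
  have ha' : counit (R := R) a ∈ maximalIdeal R := by
    rw [mem_maximalIdeal]
    exact fun hu => ha (isUnit_of_isUnit_counit hmax hconn hcard hu)
  have hb' : counit (R := R) b ∈ maximalIdeal R := by
    rw [mem_maximalIdeal]
    exact fun hu => hb (isUnit_of_isUnit_counit hmax hconn hcard hu)
  intro hab
  have h1 : IsUnit (counit (R := R) (a + b)) :=
    (Bialgebra.counitAlgHom R H).isUnit_map hab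
  rw [map_add] at h1
  exact (mem_maximalIdeal _).mp ((maximalIdeal R).add_mem ha' hb') h1

theorem mem_maximalIdeal_iff_counit [IsLocalRing H] (h : H) :
    h ∈ maximalIdeal H ↔ counit (R := R) h ∈ maximalIdeal R := by
  rw [mem_maximalIdeal, mem_maximalIdeal]
  constructor
  · exact fun hh hu => hh (isUnit_of_isUnit_counit hmax hconn hcard hu)
  · exact fun hh hu => hh ((Bialgebra.counitAlgHom R H).isUnit_map hu)

theorem augI_le_maximalIdeal [IsLocalRing H] : augI R H ≤ maximalIdeal H := by
  intro a ha
  rw [mem_maximalIdeal_iff_counit hmax hconn hcard, mem_augI.mp ha]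
  exact (maximalIdeal R).zero_mem

theorem map_maximalIdeal_le [IsLocalRing H] :
    Ideal.map (algebraMap R H) (maximalIdeal R) ≤ maximalIdeal H := by
  rw [Ideal.map_le_iff_le_comap]
  intro r hr
  rw [Ideal.mem_comap, mem_maximalIdeal_iff_counit hmax hconn hcard]
  have : counit (R := R) (algebraMap R H r) = r := by simp
  rwa [this]

end

end

end Fermat.Agent.TW.FLAT.LocalConn6
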