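/-
Programme T, chapter FLAT, file Principal6: a connected finite flat group scheme killed by `p` over
an UNRAMIFIED base whose augmentation ideal is principal.
Mathlib + PointsIso6 + LocalConn6 + SizeFn6 + KilledBy6 (`PtsSeparate`) + InvDiff6.

Polynomial lemmas (`E` an ultrametric normed field):
* `norm_coeff_prod_le s y (hy : ∀ j ∈ s, ‖y j‖ ≤ 1) i : ‖(∏ j ∈ s, (X - C (y j))).coeff i‖ ≤ 1`;
* `norm_coeff_prod_lt s y (hy : ∀ j ∈ s, ‖y j‖ < 1) (hi : i < s.card) :
    ‖(∏ j ∈ s, (X - C (y j))).coeff i‖ < 1`.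
Nakayama lemmas (`R` local, `H` a module-finite `R`-algebra, `x : H` with
`hx : ∀ h, ∃ r : R, h - algebraMap R H r ∈ Ideal.span {x}`):
* `pow_mem_of_aeval_mem 𝔪 F m (F.natDegree ≤ m) (F.coeff m = 1) (∀ i < m, F.coeff i ∈ 𝔪) x
    (aeval x F ∈ 𝔪H) : x ^ m ∈ 𝔪H` (any commutative `R`, any ideal `𝔪`);
* `top_le_span_pow x hx m (hm : x ^ m ∈ 𝔪H) : ⊤ ≤ span R (range fun i : Fin m => x ^ i)`;
* `finrank_le_of_pow_mem x hx m hm : finrank R H ≤ m`.
Main theorem.  `R` a local domain with `maximalIdeal R = Ideal.span {(p : R)}`, `(p : R) ≠ 0`,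
`E` an ultrametric normed field with `[Algebra R E] [NormLeOne R E]`,
`hmax : ∀ r ∈ maximalIdeal R, ‖algebraMap R E r‖ < 1`; `H` a commutative Hopf algebra, finite free
over `R`; `G = WithConv (H →ₐ[R] E)` a `Fintype` with `hcard : Nat.card G = finrank R H`,
`hsep : PtsSeparate R H E`, `hkill : (toConv (AlgHom.id R H)) ^ p = 1`, `x : H` with
`hx : augI R H = Ideal.span {x}`, `hconn : ∀ z : G, ‖z x‖ < 1`, `hnt : ∃ z : G, z ≠ 1`.  Then
* `eq_one_of_apply_eq_zero hx z (hz : z x = 0) : z = 1`;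
* `exists_integral_of_kill p hkill hx : ∃ w : H, x * w = 0 ∧ counit w = (p : R)`;
* **`prod_norm_eq : ∏ z ∈ Finset.univ.erase (1 : G), ‖z x‖ = ‖(p : E)‖`**.
(For `μ_p`, `x = T - 1`: `∏_{ζ ≠ 1} (ζ - 1) = p`.  The hypothesis that the base is unramified is
essential: the Oort–Tate group `x^p = a x` has `∏ = ± a`.)
-/
import Mathlib
import Fermat.Agent.TW.FLAT.SizeFn6
import Fermat.Agent.TW.FLAT.LocalConn6
import Fermat.Agent.TW.FLAT.KilledBy6

set_option autoImplicit false
set_option linter.unusedSectionVars false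

namespace Fermat.Agent.TW.FLAT.Principal6

open WithConv Coalgebra Module IsLocalRing Polynomial Fermat.Agent.TW.FLAT.Points6
  Fermat.Agent.TW.FLAT.DiffIdeal6 Fermat.Agent.TW.FLAT.BallPoints6
  Fermat.Agent.TW.FLAT.KilledBy6

noncomputable section

section poly

variable {E : Type*} [NormedField E] [IsUltrametricDist E]

theorem coeff_X_sub_C_mul_succ (a : E) (f : E[X]) (i : ℕ) :
    ((X - C a) * f).coeff (i + 1) = f.coeff i - a * f.coeff (i + 1) := by
  rw [sub_mul, coeff_sub, coeff_X_mul, coeff_C_mul]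

theorem coeff_X_sub_C_mul_zero (a : E) (f : E[X]) :
    ((X - C a) * f).coeff 0 = - (a * f.coeff 0) := by
  rw [sub_mul, coeff_sub, coeff_X_mul_zero, coeff_C_mul, zero_sub]

theorem norm_coeff_prod_le {ι : Type*} (s : Finset ι) (y : ι → E) (hy : ∀ j ∈ s, ‖y j‖ ≤ 1)
    (i : ℕ) : ‖(∏ j ∈ s, (X - C (y j))).coeff i‖ ≤ 1 := by
  classical
  induction s using Finset.induction_on generalizing i with
  | empty =>
    rw [Finset.prod_empty, coeff_one]
    split_ifs <;> simp
  | insert a s ha ih =>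
    rw [Finset.prod_insert ha]
    have hya : ‖y a‖ ≤ 1 := hy a (Finset.mem_insert_self a s)
    have ih' := ih (fun j hj => hy j (Finset.mem_insert_of_mem hj))
    cases i with
    | zero =>
      rw [coeff_X_sub_C_mul_zero, norm_neg, norm_mul]
      exact mul_le_one₀ hya (norm_nonneg _) (ih' 0)
    | succ i =>
      rw [coeff_X_sub_C_mul_succ, sub_eq_add_neg]
      refine (IsUltrametricDist.norm_add_le_max _ _).trans (max_le (ih' i) ?_)
      rw [norm_neg, norm_mul]
      exact mul_le_one₀ hya (norm_nonneg _) (ih' (i + 1))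

theorem norm_coeff_prod_lt {ι : Type*} (s : Finset ι) (y : ι → E) (hy : ∀ j ∈ s, ‖y j‖ < 1)
    {i : ℕ} (hi : i < s.card) : ‖(∏ j ∈ s, (X - C (y j))).coeff i‖ < 1 := by
  classical
  induction s using Finset.induction_on generalizing i with
  | empty => simp at hi
  | insert a s ha ih =>
    rw [Finset.prod_insert ha]
    rw [Finset.card_insert_of_notMem ha] at hi
    have hya : ‖y a‖ < 1 := hy a (Finset.mem_insert_self a s)
    have hy' : ∀ j ∈ s, ‖y j‖ < 1 := fun j hj => hy j (Finset.mem_insert_of_mem hj)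
    have hle := norm_coeff_prod_le s y (fun j hj => (hy' j hj).le)
    cases i with
    | zero =>
      rw [coeff_X_sub_C_mul_zero, norm_neg, norm_mul]
      calc ‖y a‖ * ‖(∏ j ∈ s, (X - C (y j))).coeff 0‖ ≤ ‖y a‖ * 1 :=
            mul_le_mul_of_nonneg_left (hle 0) (norm_nonneg _)
        _ < 1 := by rw [mul_one]; exact hya
    | succ i =>
      rw [coeff_X_sub_C_mul_succ, sub_eq_add_neg]
      refine (IsUltrametricDist.norm_add_le_max _ _).trans_lt (max_lt (ih hy' (by omega)) ?_)
      rw [norm_neg, norm_mul]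
      calc ‖y a‖ * ‖(∏ j ∈ s, (X - C (y j))).coeff (i + 1)‖ ≤ ‖y a‖ * 1 :=
            mul_le_mul_of_nonneg_left (hle (i + 1)) (norm_nonneg _)
        _ < 1 := by rw [mul_one]; exact hya

end poly

section nakayama

variable {R : Type*} [CommRing R] {H : Type*} [CommRing H] [Algebra R H]

/-- If `F` has degree `≤ m`, `m`-th coefficient `1`, lower coefficients in `𝔪`, and
`F(x) ∈ 𝔪H`, then `x ^ m ∈ 𝔪H`. -/
theorem pow_mem_of_aeval_mem (𝔪 : Ideal R) (F : R[X]) (m : ℕ) (hdeg : F.natDegree ≤ m)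
    (hlead : F.coeff m = 1) (hco : ∀ i < m, F.coeff i ∈ 𝔪) (x : H)
    (h : aeval x F ∈ Ideal.map (algebraMap R H) 𝔪) :
    x ^ m ∈ Ideal.map (algebraMap R H) 𝔪 := by
  have h1 : aeval x F = ∑ i ∈ Finset.range m, F.coeff i • x ^ i + x ^ m := by
    rw [aeval_eq_sum_range' (Nat.lt_succ_of_le hdeg), Finset.sum_range_succ, hlead, one_smul]
  have h2 : ∑ i ∈ Finset.range m, F.coeff i • x ^ i ∈ Ideal.map (algebraMap R H) 𝔪 := by
    apply Ideal.sum_mem
    intro i hi
    rw [Algebra.smul_def]
    exact Ideal.mul_mem_right _ _ (Ideal.mem_map_of_mem _ (hco i (Finset.mem_range.mp hi)))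
  have h3 : x ^ m = aeval x F - ∑ i ∈ Finset.range m, F.coeff i • x ^ i := by
    rw [h1]; ring
  rw [h3]
  exact Ideal.sub_mem _ h h2

variable [IsLocalRing R] [Module.Finite R H]

/-- Nakayama: if `H = R + xH` and `x ^ m ∈ 𝔪H`, then `1, x, …, x^(m-1)` span `H`. -/
theorem top_le_span_pow (x : H) (hx : ∀ h : H, ∃ r : R, h - algebraMap R H r ∈ Ideal.span {x})
    (m : ℕ) (hm : x ^ m ∈ Ideal.map (algebraMap R H) (maximalIdeal R)) :
    (⊤ : Submodule R H) ≤ Submodule.span R (Set.range fun i : Fin m => x ^ (i : ℕ)) := by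
  set N : Submodule R H := Submodule.span R (Set.range fun i : Fin m => x ^ (i : ℕ)) with hN
  have key : ∀ j ≤ m, ∀ h : H, ∃ n ∈ N, ∃ h' : H, h = n + x ^ j * h' := by
    intro j
    induction j with
    | zero => intro _ h; exact ⟨0, N.zero_mem, h, by simp⟩
    | succ j ih =>
      intro hj h
      obtain ⟨n, hn, h', rfl⟩ := ih (by omega) h
      obtain ⟨r, hr⟩ := hx h'
      obtain ⟨h'', hh''⟩ := Ideal.mem_span_singleton'.mp hr
      refine ⟨n + r • x ^ j, N.add_mem hn (N.smul_mem r ?_), h'', ?_⟩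
      · exact Submodule.subset_span ⟨⟨j, by omega⟩, rfl⟩
      · have : h' = algebraMap R H r + h'' * x := by rw [hh'']; ring
        rw [this, Algebra.smul_def, pow_succ]; ring
  apply Submodule.le_of_le_smul_of_le_jacobson_bot (I := maximalIdeal R) Module.Finite.fg_top
  · rw [jacobson_eq_maximalIdeal ⊥ bot_ne_top]
  · intro h _
    obtain ⟨n, hn, h', rfl⟩ := key m le_rfl h
    apply Submodule.add_mem_sup hn
    rw [Ideal.smul_top_eq_map]
    exact Ideal.mul_mem_right _ _ hm

theorem finrank_le_of_pow_mem (x : H)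
    (hx : ∀ h : H, ∃ r : R, h - algebraMap R H r ∈ Ideal.span {x})
    (m : ℕ) (hm : x ^ m ∈ Ideal.map (algebraMap R H) (maximalIdeal R)) :
    finrank R H ≤ m := by
  have h1 := top_le_span_pow x hx m hm
  have h2 : Submodule.span R (Set.range fun i : Fin m => x ^ (i : ℕ)) = ⊤ := top_le_iff.mp h1
  have h3 := finrank_range_le_card (R := R) (fun i : Fin m => x ^ (i : ℕ))
  rw [Set.finrank, h2, finrank_top, Fintype.card_fin] at h3
  exact h3

end nakayama

section main

variable {R : Type*} [CommRing R] [IsDomain R] [IsLocalRing R] {E : Type*} [NormedField E]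
  [IsUltrametricDist E] [Algebra R E] [NormLeOne R E]
  {H : Type*} [CommRing H] [HopfAlgebra R H] [Module.Free R H] [Module.Finite R H]

/-- A point vanishing at a generator of the augmentation ideal is trivial. -/
theorem eq_one_of_apply_eq_zero {x : H} (hx : augI R H = Ideal.span {x})
    (z : WithConv (H →ₐ[R] E)) (hz : z x = 0) : z = 1 := by
  ext a
  have h1 : a - algebraMap R H (counit a) ∈ Ideal.span {x} := hx ▸ sub_counit_mem_augI a
  obtain ⟨b, hb⟩ := Ideal.mem_span_singleton'.mp h1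
  have h2 : z (a - algebraMap R H (counit a)) = 0 := by
    rw [← hb, map_mul, hz, mul_zero]
  rw [map_sub, sub_eq_zero] at h2
  rw [h2]
  have : z (algebraMap R H (counit (R := R) a)) = algebraMap R E (counit (R := R) a) :=
    z.ofConv.commutes _
  rw [this]
  simp

theorem one_apply' (a : H) : (1 : WithConv (H →ₐ[R] E)) a = algebraMap R E (counit a) := by
  simp

/-- `p x ∈ (x²)` when `[p]` is trivial: there is `w` with `x w = 0`, `ε w = p`. -/
theorem exists_integral_of_kill (p : ℕ)
    (hkill : (toConv (AlgHom.id R H)) ^ p = (1 : WithConv (H →ₐ[R] H)))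
    {x : H} (hx : augI R H = Ideal.span {x}) :
    ∃ w : H, x * w = 0 ∧ counit (R := R) w = (p : R) := by
  have hxI : x ∈ InvDiff6.augIdeal R H := by
    change x ∈ augI R H
    rw [hx]; exact Ideal.mem_span_singleton_self x
  have h1 := InvDiff6.nsmul_coLie_eq_zero p hkill ((InvDiff6.augIdeal R H).toCotangent ⟨x, hxI⟩)
  rw [← map_nsmul, Ideal.toCotangent_eq_zero] at h1
  have h2 : (InvDiff6.augIdeal R H) ^ 2 = Ideal.span {x ^ 2} := by
    change (augI R H) ^ 2 = _
    rw [hx, Ideal.span_singleton_pow]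
  rw [h2] at h1
  obtain ⟨g, hg⟩ := Ideal.mem_span_singleton'.mp h1
  refine ⟨(p : H) - g * x, ?_, ?_⟩
  · have : ((p • (⟨x, hxI⟩ : InvDiff6.augIdeal R H) : InvDiff6.augIdeal R H) : H) = (p : H) * x := by
      simp
    rw [this] at hg
    rw [mul_sub, mul_comm x (p : H), ← hg]; ring
  · have hx0 : counit (R := R) x = 0 := mem_augI.mp hxI
    have : counit (R := R) ((p : H) - g * x) =
        Bialgebra.counitAlgHom R H ((p : H) - g * x) := rfl
    rw [this, map_sub, map_mul, map_natCast]
    have : Bialgebra.counitAlgHom R H x = 0 := hx0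
    rw [this, mul_zero, sub_zero]

variable [Fintype (WithConv (H →ₐ[R] E))] [DecidableEq (WithConv (H →ₐ[R] E))]

/-- **Principal augmentation ideal over an unramified base.** -/
theorem prod_norm_eq (p : ℕ) (hpR : maximalIdeal R = Ideal.span {(p : R)}) (hp0 : (p : R) ≠ 0)
    (hmax : ∀ r ∈ maximalIdeal R, ‖algebraMap R E r‖ < 1)
    (hcard : Nat.card (WithConv (H →ₐ[R] E)) = finrank R H)
    (hsep : PtsSeparate R H E)
    (hkill : (toConv (AlgHom.id R H)) ^ p = (1 : WithConv (H →ₐ[R] H)))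
    {x : H} (hx : augI R H = Ideal.span {x})
    (hconn : ∀ z : WithConv (H →ₐ[R] E), ‖z x‖ < 1)
    (hnt : ∃ z : WithConv (H →ₐ[R] E), z ≠ 1) :
    ∏ z ∈ Finset.univ.erase (1 : WithConv (H →ₐ[R] E)), ‖z x‖ = ‖(p : E)‖ := by
  have hinjφ : Function.Injective (fun z : WithConv (H →ₐ[R] E) => z.ofConv) :=
    WithConv.ofConv_injective
  have hxI : x ∈ augI R H := by rw [hx]; exact Ideal.mem_span_singleton_self x
  have hx0 : counit (R := R) x = 0 := mem_augI.mp hxI
  have hx0' : Bialgebra.counitAlgHom R H x = 0 := hx0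
  have hn2 : 2 ≤ finrank R H := by
    rw [← hcard, Nat.card_eq_fintype_card]
    obtain ⟨z, hz⟩ := hnt
    exact Fintype.one_lt_card_iff.mpr ⟨z, 1, hz⟩
  set n := finrank R H with hn
  set P := (LinearMap.mulLeft R x).charpoly with hP
  have hPmonic : P.Monic := LinearMap.charpoly_monic _
  have hPdeg : P.natDegree = n := LinearMap.charpoly_natDegree _
  have hPmap : P.map (algebraMap R E) =
      ∏ z : WithConv (H →ₐ[R] E), (X - C (z x)) := PointsIso6.charpoly_mulLeft hinjφ hcard x
  have hPx : aeval x P = 0 := PointsIso6.aeval_charpoly_mulLeft x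
  have hcardu : (Finset.univ : Finset (WithConv (H →ₐ[R] E))).card = n := by
    rw [Finset.card_univ, ← Nat.card_eq_fintype_card, hcard]
  -- lower coefficients of `P` lie in the maximal ideal
  have hco : ∀ i < n, P.coeff i ∈ maximalIdeal R := by
    intro i hi
    rw [mem_maximalIdeal, mem_nonunits_iff, ← LocalConn6.norm_algebraMap_eq_one_iff hmax]
    apply ne_of_lt
    rw [← coeff_map, hPmap]
    exact norm_coeff_prod_lt _ _ (fun z _ => hconn z) (by rw [hcardu]; exact hi)
  -- the quotient `Q = P / X`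
  set Q := P.divX with hQ
  have hPQ : Q * X + C (P.coeff 0) = P := divX_mul_X_add P
  set q := aeval x Q with hq
  have hqx0 : q * x + algebraMap R H (P.coeff 0) = 0 := by
    have h1 := congrArg (aeval x) hPQ
    rw [map_add, map_mul, aeval_X, aeval_C, hPx] at h1
    exact h1
  have hP0 : P.coeff 0 = 0 := by
    have h2 := congrArg (Bialgebra.counitAlgHom R H) hqx0
    rw [map_add, map_mul, hx0', mul_zero, zero_add, map_zero, AlgHom.commutes] at h2
    exact h2
  have hqx : q * x = 0 := by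
    rwa [hP0, map_zero, add_zero] at hqx0
  set c₁ := P.coeff 1 with hc₁
  have hqc : counit (R := R) q = c₁ := by
    have h1 : counit (R := R) q = Bialgebra.counitAlgHom R H (aeval x Q) := rfl
    rw [h1, ← aeval_algHom_apply, hx0', ← coeff_zero_eq_aeval_zero, hQ, coeff_divX]
  -- the norm of `c₁`
  have hc₁norm : ‖algebraMap R E c₁‖ =
      ∏ z ∈ Finset.univ.erase (1 : WithConv (H →ₐ[R] E)), ‖z x‖ := by
    rw [hc₁, ← coeff_map, hPmap,
      ← Finset.mul_prod_erase Finset.univ _ (Finset.mem_univ (1 : WithConv (H →ₐ[R] E)))]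
    have h1 : (1 : WithConv (H →ₐ[R] E)) x = 0 := by
      rw [one_apply', hx0, map_zero]
    rw [h1, map_zero, sub_zero, coeff_X_mul, coeff_zero_eq_eval_zero, eval_prod, norm_prod]
    apply Finset.prod_congr rfl
    intro z _
    rw [eval_sub, eval_X, eval_C, zero_sub, norm_neg]
  rw [← hc₁norm]
  -- `c₁ = c' p`
  have hc₁m : c₁ ∈ maximalIdeal R := hco 1 (by omega)
  rw [hpR] at hc₁m
  obtain ⟨c', hc'⟩ := Ideal.mem_span_singleton'.mp hc₁m
  -- the second integral `w`
  obtain ⟨w, hxw, hwc⟩ := exists_integral_of_kill p hkill hx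
  -- integrals are determined by their counit
  have hint : ∀ h : H, x * h = 0 → ∀ z : WithConv (H →ₐ[R] E), z ≠ 1 → z h = 0 := by
    intro h hh z hz
    have h1 : z x * z h = 0 := by rw [← map_mul, hh, map_zero]
    rcases mul_eq_zero.mp h1 with h2 | h2
    · exact absurd (eq_one_of_apply_eq_zero hx z h2) hz
    · exact h2
  have hcw : c₁ • w = (p : R) • q := by
    rw [← sub_eq_zero]
    apply hsep
    intro f
    by_cases hf : toConv f = 1
    · have : f = (1 : WithConv (H →ₐ[R] E)).ofConv := by rw [← hf]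
      have h1 : ∀ a : H, f a = algebraMap R E (counit a) := by
        intro a; rw [this]; exact one_apply' a
      rw [h1, map_sub, map_smul, map_smul, hwc, hqc, smul_eq_mul, smul_eq_mul, mul_comm, sub_self,
        map_zero]
    · have h1 := hint w hxw (toConv f) hf
      have h2 := hint q (by rw [mul_comm]; exact hqx) (toConv f) hf
      change f w = 0 at h1
      change f q = 0 at h2
      rw [map_sub, map_smul, map_smul, h1, h2, smul_zero, smul_zero, sub_zero]
  have hqw : q = c' • w := by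
    rw [← hc', mul_smul] at hcw
    have h1 : (p : R) • (c' • w - q) = 0 := by
      rw [smul_sub, smul_comm, hcw, sub_self]
    rcases smul_eq_zero.mp h1 with h2 | h2
    · exact absurd h2 hp0
    · exact (sub_eq_zero.mp h2).symm
  -- `c'` is a unit
  have hc'u : IsUnit c' := by
    by_contra hnu
    have hc'm : c' ∈ maximalIdeal R := (mem_maximalIdeal c').mpr hnu
    have hqm : aeval x Q ∈ Ideal.map (algebraMap R H) (maximalIdeal R) := by
      rw [← hq, hqw, Algebra.smul_def]
      exact Ideal.mul_mem_right _ _ (Ideal.mem_map_of_mem _ hc'm)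
    have hQdeg : Q.natDegree ≤ n - 1 := by
      rw [hQ, natDegree_divX_eq_natDegree_tsub_one, hPdeg]
    have hQlead : Q.coeff (n - 1) = 1 := by
      rw [hQ, coeff_divX, Nat.sub_add_cancel (by omega), ← hPdeg]
      exact hPmonic.coeff_natDegree
    have hQco : ∀ i < n - 1, Q.coeff i ∈ maximalIdeal R := by
      intro i hi
      rw [hQ, coeff_divX]
      exact hco (i + 1) (by omega)
    have hpow := pow_mem_of_aeval_mem (maximalIdeal R) Q (n - 1) hQdeg hQlead hQco x hqm
    have hgen : ∀ h : H, ∃ r : R, h - algebraMap R H r ∈ Ideal.span {x} :=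
      fun h => ⟨counit h, hx ▸ sub_counit_mem_augI h⟩
    have := finrank_le_of_pow_mem x hgen (n - 1) hpow
    omega
  rw [← hc', map_mul, norm_mul, (LocalConn6.norm_algebraMap_eq_one_iff hmax c').mpr hc'u, one_mul,
    map_natCast]

end main

end

end Fermat.Agent.TW.FLAT.Principal6
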