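/-
Programme T, chapter FLAT, file OrderPSq6 (sizes (B3)): finite flat group schemes of order `p` and
`p²` over an UNRAMIFIED base.  Principal6 + IrredSize6 + HeightOneHopf6.

Setting: `R` a local domain with `hpR : maximalIdeal R = Ideal.span {(p : R)}`, `E` an ultrametric
normed field with `[Algebra R E] [NormLeOne R E]`, `hmax : ∀ r ∈ maximalIdeal R, ‖algebraMap R E r‖ < 1`;
`H` a commutative cocommutative Hopf algebra, finite free over `R`; `G = WithConv (H →ₐ[R] E)` finite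
with `hcard : Nat.card G = finrank R H`, `hsep : PtsSeparate R H E`; `Γ` a group acting on `E` with
`hiso : ∀ σ y, ‖σ • y‖ = ‖y‖`, `hin : ∀ σ y, ‖y‖ ≤ 1 → ‖σ • y - y‖ < 1` (inertia);
`ϖ : E` with `hϖ : ‖ϖ‖ ^ (p - 1) = ‖(p : E)‖`, `hϖ0 : ϖ ≠ 0`.

* `exists_generator haug (e : CoLie R H ≃ₗ[R] (Fin 1 → Res R)) : ∃ x, augI R H = Ideal.span {x}`;
  `augI_eq_bot haug (e : CoLie R H ≃ₗ[R] (Fin 0 → Res R)) : augI R H = ⊥`  (`H` local,
  `haug : augI R H ≤ maximalIdeal H`);
* `nsize_pow_eq_of_finrank_eq p hpR hp0 (e : CoLie R H ≃ₗ[R] (Fin d → Res R))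
    (hfin : finrank R H = p ^ d) (hz1 : z ≠ 1) (hzp : z ^ p = 1) (hzlt : nsize z < 1) :
    (nsize z : ℝ) ^ (p - 1) = ‖(p : E)‖`  (height one case);
* `smul_coLie_eq_zero p hpR hsep hpow : ∀ r ∈ maximalIdeal R, ∀ m : CoLie R H, r • m = 0`;
* **`exists_generator_of_irr`** (`Nat.card G = p ^ 2`, `hpow : ∀ z, z ^ p = 1`,
  `hirr : IsIrr Γ G`, `hϖΓ : ∀ σ, ∃ c : ℕ, ‖σ • ϖ - c * ϖ‖ < ‖ϖ‖`):
    `∃ x : H, augI R H = Ideal.span {x} ∧ ∀ z ≠ 1, ‖z x‖ ^ (p ^ 2 - 1) = ‖(p : E)‖`;
* **`smul_eq_or_of_card_prime`** (`Nat.card G = p`): `(∀ σ z, σ • z = z) ∨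
    (∀ σ z c, ‖σ • ϖ - c * ϖ‖ < ‖ϖ‖ → σ • z = z ^ c)`  (a flat line over an unramified base:
  inertia acts trivially or by the fundamental character of level one).
-/
import Mathlib
import Fermat.Agent.TW.FLAT.Principal6
import Fermat.Agent.TW.FLAT.IrredSize6
import Fermat.Agent.TW.FLAT.HeightOneHopf6

set_option autoImplicit false
set_option linter.unusedSectionVars false

namespace Fermat.Agent.TW.FLAT.OrderPSq6

open WithConv Coalgebra Module IsLocalRing Fermat.Agent.TW.FLAT.Points6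
  Fermat.Agent.TW.FLAT.DiffIdeal6 Fermat.Agent.TW.FLAT.BallPoints6
  Fermat.Agent.TW.FLAT.KilledBy6 Fermat.Agent.TW.FLAT.SizeFn6 Fermat.Agent.TW.FLAT.IrredSize6
  Fermat.Agent.TW.FLAT.InvDiff6 Fermat.Agent.TW.FLAT.HeightOneHopf6

open scoped NNReal

noncomputable section

section generator

variable {R : Type*} [CommRing R] [IsLocalRing R] {H : Type*} [CommRing H] [HopfAlgebra R H]
  [IsLocalRing H] [Module.Free R H] [Module.Finite R H]

/-- If the invariant differentials are `κ¹`, the augmentation ideal is principal. -/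
theorem exists_generator (haug : augI R H ≤ maximalIdeal H)
    (e : CoLie R H ≃ₗ[R] (Fin 1 → Res R)) : ∃ x : H, augI R H = Ideal.span {x} := by
  obtain ⟨x, hxI, hx⟩ := exists_lifts e
  refine ⟨x 0, le_antisymm ?_ ?_⟩
  swap
  · rw [Ideal.span_singleton_le_iff_mem]; exact hxI 0
  have hfg : (augI R H).FG := augI_fg R H
  have hjac : augI R H ≤ (⊥ : Ideal H).jacobson := by
    rw [jacobson_eq_maximalIdeal ⊥ bot_ne_top]; exact haug
  apply Submodule.le_of_le_smul_of_le_jacobson_bot hfg hjac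
  intro a ha
  have haI : a ∈ augIdeal R H := ha
  obtain ⟨r, hr⟩ := Ideal.Quotient.mk_surjective (e ((augIdeal R H).toCotangent ⟨a, haI⟩) 0)
  have h1 : (augIdeal R H).toCotangent ⟨a, haI⟩ = r • proj R H (x 0) := by
    apply e.injective
    funext i
    have hi : i = 0 := Subsingleton.elim _ _
    subst hi
    rw [map_smul, Pi.smul_apply, hx, if_pos rfl, ← hr]
    rw [Algebra.smul_def, mul_one]; rfl
  rw [proj_of_mem (hxI 0)] at h1
  have h2 : (augIdeal R H).toCotangent (⟨a, haI⟩ - r • ⟨x 0, hxI 0⟩) = 0 := by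
    rw [map_sub, h1, LinearMap.map_smul_of_tower, sub_self]
  rw [Ideal.toCotangent_eq_zero] at h2
  have h3 : a = r • x 0 + (a - r • x 0) := by ring
  rw [h3]
  apply Submodule.add_mem_sup
  · rw [Algebra.smul_def]
    exact Ideal.mul_mem_left _ _ (Ideal.mem_span_singleton_self _)
  · rw [smul_eq_mul, ← pow_two]
    exact h2

/-- If the invariant differentials vanish, the augmentation ideal is zero. -/
theorem augI_eq_bot (haug : augI R H ≤ maximalIdeal H)
    (e : CoLie R H ≃ₗ[R] (Fin 0 → Res R)) : augI R H = ⊥ := by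
  have hfg : (augI R H).FG := augI_fg R H
  have hjac : augI R H ≤ (⊥ : Ideal H).jacobson := by
    rw [jacobson_eq_maximalIdeal ⊥ bot_ne_top]; exact haug
  have hsub : Subsingleton (CoLie R H) := e.toEquiv.subsingleton
  have hid : IsIdempotentElem (augIdeal R H) := (Ideal.cotangent_subsingleton_iff _).mp hsub
  apply Submodule.eq_bot_of_le_smul_of_le_jacobson_bot (augI R H) (augI R H) hfg _ hjac
  rw [smul_eq_mul]
  exact le_of_eq hid.symm

end generator

section main

variable {R : Type*} [CommRing R] [IsDomain R] [IsLocalRing R] {E : Type*} [NormedField E]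
  [IsUltrametricDist E] [Algebra R E] [NormLeOne R E]
  {H : Type*} [CommRing H] [HopfAlgebra R H] [Coalgebra.IsCocomm R H] [Module.Free R H]
  [Module.Finite R H]

/-- Height one case: if `rank H = p ^ d` (`d = dim` of the invariant differentials) then every
nontrivial point killed by `p` has size `s` with `s ^ (p - 1) = ‖p‖`. -/
theorem nsize_pow_eq_of_finrank_eq [IsLocalRing H] (p : ℕ) [hp : Fact p.Prime]
    (hpR : maximalIdeal R = Ideal.span {(p : R)}) (hp0 : (p : E) ≠ 0) {d : ℕ}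
    (e : CoLie R H ≃ₗ[R] (Fin d → Res R)) (hfin : finrank R H = p ^ d)
    {z : WithConv (H →ₐ[R] E)} (hz1 : z ≠ 1) (hzp : z ^ p = 1) (hzlt : nsize z < 1) :
    (nsize z : ℝ) ^ (p - 1) = ‖(p : E)‖ := by
  have hpR' : (p : R) ∈ maximalIdeal R := by
    rw [hpR]; exact Ideal.mem_span_singleton_self _
  have hp0R : (p : R) ≠ 0 := by
    intro h
    apply hp0
    rw [← map_natCast (algebraMap R E), h, map_zero]
  obtain ⟨a, ha, hza⟩ := exists_apply_eq_nsize z
  have hs0 : 0 < (nsize z : ℝ) := by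
    have : nsize z ≠ 0 := fun h => hz1 ((nsize_eq_zero_iff z).mp h)
    exact_mod_cast pos_iff_ne_zero.mpr this
  have hs1 : (nsize z : ℝ) < 1 := by exact_mod_cast hzlt
  have hpn : 0 < ‖(p : E)‖ := norm_pos_iff.mpr hp0
  have hp1 : 1 ≤ p := hp.out.one_lt.le
  -- upper bound
  have hup : (nsize z : ℝ) ^ (p - 1) ≤ ‖(p : E)‖ := by
    have h1 := pow_mem_of_finrank_eq p hpR' e hfin (a := a) ha
    rw [hpR, Ideal.map_span, Set.image_singleton, map_natCast] at h1
    obtain ⟨b, hb⟩ := Ideal.mem_span_singleton'.mp h1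
    have hbI : b ∈ augI R H := by
      rw [mem_augI]
      have h2 := congrArg (Bialgebra.counitAlgHom R H) hb
      rw [map_mul, map_natCast, map_pow] at h2
      have h3 : Bialgebra.counitAlgHom R H a = 0 := mem_augI.mp ha
      rw [h3, zero_pow hp.out.ne_zero] at h2
      rcases mul_eq_zero.mp h2 with h4 | h4
      · exact h4
      · exact absurd h4 hp0R
    have h5 : z a ^ p = z b * (p : E) := by
      rw [← map_pow, ← hb, map_mul, map_natCast]
    have h6 : (nsize z : ℝ) ^ p ≤ (nsize z : ℝ) * ‖(p : E)‖ := by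
      rw [← hza, ← norm_pow, h5, norm_mul, hza]
      exact mul_le_mul_of_nonneg_right (norm_apply_le_nsize z hbI) (norm_nonneg _)
    have h7 : (nsize z : ℝ) ^ p = (nsize z : ℝ) * (nsize z : ℝ) ^ (p - 1) := by
      rw [← pow_succ', Nat.sub_add_cancel hp1]
    rw [h7] at h6
    exact le_of_mul_le_mul_left h6 hs0
  -- lower bound
  have hlow : ‖(p : E)‖ ≤ (nsize z : ℝ) ^ (p - 1) := by
    have h1 := norm_natCast_mul_apply_le hp.out (sizeLe_nsize z) hzp ha
    rw [hza] at h1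
    have h2 : ‖(p : E)‖ * (nsize z : ℝ) ^ 2 < ‖(p : E)‖ * (nsize z : ℝ) := by
      apply mul_lt_mul_of_pos_left _ hpn
      rw [pow_two]
      calc (nsize z : ℝ) * (nsize z : ℝ) < (nsize z : ℝ) * 1 := mul_lt_mul_of_pos_left hs1 hs0
        _ = _ := mul_one _
    have h3 : ‖(p : E)‖ * (nsize z : ℝ) ≤ (nsize z : ℝ) ^ p := by
      rcases le_max_iff.mp h1 with h | h
      · exact absurd h (not_le.mpr h2)
      · exact h
    have h7 : (nsize z : ℝ) ^ p = (nsize z : ℝ) ^ (p - 1) * (nsize z : ℝ) := by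
      rw [← pow_succ, Nat.sub_add_cancel hp1]
    rw [h7] at h3
    exact le_of_mul_le_mul_right h3 hs0
  exact le_antisymm hup hlow

variable {Γ : Type*} [Group Γ] [MulSemiringAction Γ E] [SMulCommClass Γ R E]
  [Finite (WithConv (H →ₐ[R] E))]

/-- The invariant differentials are killed by `𝔪 = (p)` when the points are killed by `p`. -/
theorem smul_coLie_eq_zero (p : ℕ) (hpR : maximalIdeal R = Ideal.span {(p : R)})
    (hsep : PtsSeparate R H E) (hpow : ∀ z : WithConv (H →ₐ[R] E), z ^ p = 1) :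
    ∀ r ∈ maximalIdeal R, ∀ m : CoLie R H, r • m = 0 := by
  intro r hr m
  rw [hpR] at hr
  obtain ⟨c, rfl⟩ := Ideal.mem_span_singleton'.mp hr
  rw [mul_smul, Nat.cast_smul_eq_nsmul,
    nsmul_coLie_eq_zero p (convPow_id_eq_one hsep p hpow) m, smul_zero]

/-- Under the hypotheses of the theorem, all points are connected. -/
theorem norm_apply_lt_one_of_irr (p : ℕ) [hp : Fact p.Prime]
    (hp2 : Nat.card (WithConv (H →ₐ[R] E)) = p ^ 2)
    (hiso : ∀ (σ : Γ) (y : E), ‖σ • y‖ = ‖y‖)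
    (hin : ∀ (σ : Γ) (y : E), ‖y‖ ≤ 1 → ‖σ • y - y‖ < 1)
    (hirr : IsIrr Γ (WithConv (H →ₐ[R] E)))
    (z : WithConv (H →ₐ[R] E)) (a : H) (ha : a ∈ augI R H) : ‖z a‖ < 1 := by
  have h1 : nsize z < 1 := nsize_lt_one hin hiso hirr hp2 z
  exact lt_of_le_of_lt (norm_apply_le_nsize z ha) (by exact_mod_cast h1)

/-- **Irreducible groups of order `p²` over an unramified base.** -/
theorem exists_generator_of_irr (p : ℕ) [hp : Fact p.Prime]
    (hpR : maximalIdeal R = Ideal.span {(p : R)})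
    (hmax : ∀ r ∈ maximalIdeal R, ‖algebraMap R E r‖ < 1)
    (hcard : Nat.card (WithConv (H →ₐ[R] E)) = finrank R H)
    (hp2 : Nat.card (WithConv (H →ₐ[R] E)) = p ^ 2)
    (hsep : PtsSeparate R H E)
    (hpow : ∀ z : WithConv (H →ₐ[R] E), z ^ p = 1)
    (hiso : ∀ (σ : Γ) (y : E), ‖σ • y‖ = ‖y‖)
    (hin : ∀ (σ : Γ) (y : E), ‖y‖ ≤ 1 → ‖σ • y - y‖ < 1)
    (hirr : IsIrr Γ (WithConv (H →ₐ[R] E)))
    {ϖ : E} (hϖ : ‖ϖ‖ ^ (p - 1) = ‖(p : E)‖) (hϖ0 : ϖ ≠ 0)
    (hϖΓ : ∀ σ : Γ, ∃ c : ℕ, ‖σ • ϖ - (c : E) * ϖ‖ < ‖ϖ‖) :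
    ∃ x : H, augI R H = Ideal.span {x} ∧
      ∀ z : WithConv (H →ₐ[R] E), z ≠ 1 → ‖z x‖ ^ (p ^ 2 - 1) = ‖(p : E)‖ := by
  classical
  have hp1 : 1 < p := hp.out.one_lt
  have hϖpos : 0 < ‖ϖ‖ := norm_pos_iff.mpr hϖ0
  have hp0 : (p : E) ≠ 0 := by
    rw [← norm_pos_iff, ← hϖ]; exact pow_pos hϖpos _
  have hpR' : (p : R) ∈ maximalIdeal R := by
    rw [hpR]; exact Ideal.mem_span_singleton_self _
  have hp0R : (p : R) ≠ 0 := by
    intro h
    apply hp0
    rw [← map_natCast (algebraMap R E), h, map_zero]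
  have hplt : ‖(p : E)‖ < 1 := by
    rw [← map_natCast (algebraMap R E)]; exact hmax _ hpR'
  have hϖ1 : ‖ϖ‖ < 1 := by
    by_contra h
    rw [not_lt] at h
    have := one_le_pow₀ (n := p - 1) h
    rw [hϖ] at this
    exact absurd hplt (not_lt.mpr this)
  have hconn := norm_apply_lt_one_of_irr (R := R) (H := H) p hp2 hiso hin hirr
  have hloc : IsLocalRing H := LocalConn6.isLocalRing hmax hconn hcard
  have haug : augI R H ≤ maximalIdeal H := LocalConn6.augI_le_maximalIdeal hmax hconn hcard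
  have hfinM : Module.Finite R (CoLie R H) := coLie_finite R H
  obtain ⟨d, ⟨e⟩⟩ := exists_equiv_pi_of_isMaximal (M := CoLie R H) (maximalIdeal R)
    (smul_coLie_eq_zero p hpR hsep hpow)
  have hfin2 : finrank R H = p ^ 2 := by rw [← hcard, hp2]
  have hd2 : d ≤ 2 := by
    have h1 := pow_le_finrank p hpR' e
    rw [hfin2] at h1
    exact (Nat.pow_le_pow_iff_right hp1).mp h1
  -- nontrivial points exist
  have hntriv : ∃ z : WithConv (H →ₐ[R] E), z ≠ 1 := by
    by_contra h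
    rw [not_exists] at h
    have hsub : Subsingleton (WithConv (H →ₐ[R] E)) :=
      ⟨fun a b => by rw [not_not.mp (h a), not_not.mp (h b)]⟩
    have h1 : Nat.card (WithConv (H →ₐ[R] E)) = 1 := Nat.card_unique
    rw [hp2] at h1
    have : 1 < p ^ 2 := Nat.one_lt_pow two_ne_zero hp1
    omega
  have hnsz : ∀ z : WithConv (H →ₐ[R] E), nsize z < 1 :=
    fun z => nsize_lt_one hin hiso hirr hp2 z
  have hd : d = 0 ∨ d = 1 ∨ d = 2 := by omega
  rcases hd with rfl | rfl | rfl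
  · -- `d = 0`: no nontrivial points
    exfalso
    obtain ⟨z, hz⟩ := hntriv
    have h1 := augI_eq_bot haug e
    have h2 : augI R H = Ideal.span {(0 : H)} := by rw [h1, Ideal.span_singleton_eq_bot.mpr rfl]
    exact hz (Principal6.eq_one_of_apply_eq_zero h2 z (map_zero _))
  · -- `d = 1`: principal augmentation ideal
    obtain ⟨x, hx⟩ := exists_generator haug e
    refine ⟨x, hx, ?_⟩
    have hxI : x ∈ augI R H := by rw [hx]; exact Ideal.mem_span_singleton_self _
    have hnx : ∀ z : WithConv (H →ₐ[R] E), ‖z x‖ = nsize z := by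
      intro z
      apply le_antisymm (norm_apply_le_nsize z hxI)
      have h1 : SizeLe z ‖z x‖₊ := by
        intro a ha
        rw [hx] at ha
        obtain ⟨b, rfl⟩ := Ideal.mem_span_singleton'.mp ha
        rw [map_mul, norm_mul, coe_nnnorm]
        calc ‖z b‖ * ‖z x‖ ≤ 1 * ‖z x‖ :=
              mul_le_mul_of_nonneg_right (norm_apply_le_one z.ofConv b) (norm_nonneg _)
          _ = _ := one_mul _
      have h2 := (sizeLe_iff_nsize_le z _).mp h1
      exact_mod_cast h2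
    have := Fintype.ofFinite (WithConv (H →ₐ[R] E))
    have hprod := Principal6.prod_norm_eq p hpR hp0R hmax hcard hsep
      (convPow_id_eq_one hsep p hpow) hx (fun z => hconn z x hxI) hntriv
    intro z hz
    have h1 : ∀ w ∈ Finset.univ.erase (1 : WithConv (H →ₐ[R] E)), ‖w x‖ = ‖z x‖ := by
      intro w hw
      rw [hnx, hnx, nsize_eq_of_ne_one hiso hirr (Finset.ne_of_mem_erase hw) hz]
    rw [Finset.prod_congr rfl h1, Finset.prod_const, Finset.card_erase_of_mem (Finset.mem_univ _),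
      Finset.card_univ, ← Nat.card_eq_fintype_card, hp2] at hprod
    exact hprod
  · -- `d = 2`: height one, contradiction with irreducibility
    exfalso
    obtain ⟨z, hz⟩ := hntriv
    have hsz : ∀ w : WithConv (H →ₐ[R] E), w ≠ 1 → nsize w = ‖ϖ‖₊ := by
      intro w hw
      have h1 := nsize_pow_eq_of_finrank_eq p hpR hp0 e hfin2 hw (hpow w) (hnsz w)
      rw [← hϖ] at h1
      have h2 : (nsize w : ℝ) = ‖ϖ‖ :=
        (pow_left_inj₀ (nsize w).2 (norm_nonneg _) (by omega)).mp h1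
      exact NNReal.coe_injective (by rw [h2, coe_nnnorm])
    have hstab : ∀ σ : Γ, ∀ y ∈ Subgroup.zpowers z, σ • y ∈ Subgroup.zpowers z := by
      intro σ y hy
      obtain ⟨k, rfl⟩ := Subgroup.mem_zpowers_iff.mp hy
      obtain ⟨c, hc⟩ := hϖΓ σ
      have h1 : σ • z = z ^ c := by
        apply smul_eq_pow hin hiso hϖ0 hϖ1 _ _ hc
        · intro w hw
          by_contra hne
          rw [hsz w hne] at hw
          exact lt_irrefl _ hw
        · rw [sizeLe_iff_nsize_le, hsz z hz]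
      rw [smul_zpow', h1]
      exact Subgroup.zpow_mem _ (Subgroup.pow_mem _ (Subgroup.mem_zpowers z) c) k
    rcases hirr _ hstab with h | h
    · have : z ∈ Subgroup.zpowers z := Subgroup.mem_zpowers z
      rw [h, Subgroup.mem_bot] at this
      exact hz this
    · have h2 : Nat.card (Subgroup.zpowers z) = p := by
        rw [Nat.card_zpowers]
        exact orderOf_eq_prime (hpow z) hz
      rw [h, Subgroup.card_top, hp2] at h2
      nlinarith

/-- **Groups of order `p` over an unramified base**: inertia acts trivially or through the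
fundamental character of level one (`σ ϖ ≡ c ϖ ⇒ σ z = z ^ c`, `ϖ ^ (p - 1) ∼ p`). -/
theorem smul_eq_or_of_card_prime (p : ℕ) [hp : Fact p.Prime]
    (hpR : maximalIdeal R = Ideal.span {(p : R)})
    (hmax : ∀ r ∈ maximalIdeal R, ‖algebraMap R E r‖ < 1)
    (hcard : Nat.card (WithConv (H →ₐ[R] E)) = finrank R H)
    (hp2 : Nat.card (WithConv (H →ₐ[R] E)) = p)
    (hsep : PtsSeparate R H E)
    (hiso : ∀ (σ : Γ) (y : E), ‖σ • y‖ = ‖y‖)
    (hin : ∀ (σ : Γ) (y : E), ‖y‖ ≤ 1 → ‖σ • y - y‖ < 1)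
    {ϖ : E} (hϖ : ‖ϖ‖ ^ (p - 1) = ‖(p : E)‖) (hϖ0 : ϖ ≠ 0) :
    (∀ (σ : Γ) (z : WithConv (H →ₐ[R] E)), σ • z = z) ∨
      (∀ (σ : Γ) (z : WithConv (H →ₐ[R] E)) (c : ℕ), ‖σ • ϖ - (c : E) * ϖ‖ < ‖ϖ‖ →
        σ • z = z ^ c) := by
  classical
  have hp1 : 1 < p := hp.out.one_lt
  have hϖpos : 0 < ‖ϖ‖ := norm_pos_iff.mpr hϖ0
  have hp0 : (p : E) ≠ 0 := by
    rw [← norm_pos_iff, ← hϖ]; exact pow_pos hϖpos _
  have hpR' : (p : R) ∈ maximalIdeal R := by
    rw [hpR]; exact Ideal.mem_span_singleton_self _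
  have hplt : ‖(p : E)‖ < 1 := by
    rw [← map_natCast (algebraMap R E)]; exact hmax _ hpR'
  have hϖ1 : ‖ϖ‖ < 1 := by
    by_contra h
    rw [not_lt] at h
    have := one_le_pow₀ (n := p - 1) h
    rw [hϖ] at this
    exact absurd hplt (not_lt.mpr this)
  have hpow : ∀ z : WithConv (H →ₐ[R] E), z ^ p = 1 := by
    intro z
    rw [← hp2]; exact pow_card_eq_one'
  -- the size is constant on nontrivial points
  have hconst : ∀ z w : WithConv (H →ₐ[R] E), z ≠ 1 → nsize w ≤ nsize z := by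
    intro z w hz
    have h1 : w ∈ Subgroup.zpowers z := mem_zpowers_of_prime_card hp2 hz
    have h2 : Subgroup.zpowers z ≤ sizeSub (R := R) (H := H) (E := E) (nsize z) := by
      rw [Subgroup.zpowers_le]; exact sizeLe_nsize z
    exact (sizeLe_iff_nsize_le w _).mp (h2 h1)
  by_cases hall : ∀ w : WithConv (H →ₐ[R] E), w ≠ 1 → nsize w = 1
  · left
    exact fun σ z => smul_eq_of_forall_nsize_eq_one hin hall σ z
  right
  rw [not_forall] at hall
  obtain ⟨w₀, hw₀⟩ := hall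
  rw [Classical.not_imp] at hw₀
  obtain ⟨hw₀1, hw₀s⟩ := hw₀
  have hnsz : ∀ z : WithConv (H →ₐ[R] E), nsize z < 1 := by
    intro z
    exact lt_of_le_of_lt (hconst w₀ z hw₀1) (lt_of_le_of_ne (nsize_le_one w₀) hw₀s)
  have hconn : ∀ (z : WithConv (H →ₐ[R] E)) (a : H), a ∈ augI R H → ‖z a‖ < 1 := by
    intro z a ha
    exact lt_of_le_of_lt (norm_apply_le_nsize z ha) (by exact_mod_cast hnsz z)
  have hloc : IsLocalRing H := LocalConn6.isLocalRing hmax hconn hcard
  have haug : augI R H ≤ maximalIdeal H := LocalConn6.augI_le_maximalIdeal hmax hconn hcard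
  have hfinM : Module.Finite R (CoLie R H) := coLie_finite R H
  obtain ⟨d, ⟨e⟩⟩ := exists_equiv_pi_of_isMaximal (M := CoLie R H) (maximalIdeal R)
    (smul_coLie_eq_zero p hpR hsep hpow)
  have hfin1 : finrank R H = p ^ 1 := by rw [← hcard, hp2, pow_one]
  have hd1 : d ≤ 1 := by
    have h1 := pow_le_finrank p hpR' e
    rw [hfin1] at h1
    exact (Nat.pow_le_pow_iff_right hp1).mp h1
  have hd : d = 1 := by
    rcases Nat.le_one_iff_eq_zero_or_eq_one.mp hd1 with rfl | rfl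
    · exfalso
      have h1 := augI_eq_bot haug e
      have h2 : augI R H = Ideal.span {(0 : H)} := by
        rw [h1, Ideal.span_singleton_eq_bot.mpr rfl]
      exact hw₀1 (Principal6.eq_one_of_apply_eq_zero h2 w₀ (map_zero _))
    · rfl
  subst hd
  have hsz : ∀ w : WithConv (H →ₐ[R] E), w ≠ 1 → nsize w = ‖ϖ‖₊ := by
    intro w hw
    have h1 := nsize_pow_eq_of_finrank_eq p hpR hp0 e hfin1 hw (hpow w) (hnsz w)
    rw [← hϖ] at h1
    have h2 : (nsize w : ℝ) = ‖ϖ‖ :=
      (pow_left_inj₀ (nsize w).2 (norm_nonneg _) (by omega)).mp h1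
    exact NNReal.coe_injective (by rw [h2, coe_nnnorm])
  intro σ z c hc
  by_cases hz : z = 1
  · rw [hz, smul_one, one_pow]
  apply smul_eq_pow hin hiso hϖ0 hϖ1 _ _ hc
  · intro w hw
    by_contra hne
    rw [hsz w hne] at hw
    exact lt_irrefl _ hw
  · rw [sizeLe_iff_nsize_le, hsz z hz]

end main

end

end Fermat.Agent.TW.FLAT.OrderPSq6
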