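/-
Programme T, chapter FLAT, file RamPoint6 (LL-RAM): the ramification estimate for points of a
finite flat group scheme lying over an irreducible subgroup of order `p²`.
OrderPSq6 + Closure6.

ABSTRACT PART.  `R` a commutative ring, `E` an ultrametric normed field, `[Algebra R E]`
`[NormLeOne R E]`; `A`, `B` commutative Hopf algebras, integral over `R`; `φ : A →ₐ[R] B` with
`hφε : ∀ a, counit (φ a) = counit a`; `X : B` with `hX : augI R B = Ideal.span {X}`.
* `eq_one_of_apply_eq_zero hX z (hz : z X = 0) : z = 1`;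
* `apply_eq_sum_mul_inv x y r : y b = ∑ i ∈ r.index, (y * x) (r.left i) * x⁻¹ (r.right i)`;
* `mul_apply_sub_eq_sum w x r : (w * x) a - x a = ∑ i ∈ r.index, (w a₁ - ε a₁) * x a₂`;
* `exists_expansion hX h : ∃ v : R, ∀ w, ∃ δ, ‖δ‖ ≤ ‖w X‖ ∧ w h = ε h + w X * (v + δ)`;
* `exists_leading φ hφε hX x a : ∃ u, ‖u‖ ≤ 1 ∧ ∀ w, ∃ δ, ‖δ‖ ≤ ‖w X‖ ∧
    (toConv (w.ofConv.comp φ) * x) a - x a = w X * (u + δ)`;
* **`exists_norm_apply_sub_eq φ hφε hX (hφs : Surjective φ) (hconn : ∀ w, ‖w X‖ < 1)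
    (hnt : ∃ w, w ≠ 1) x : ∃ a : A, ∀ w : WithConv (B →ₐ[R] E),
      ‖(toConv (w.ofConv.comp φ) * x) a - x a‖ = ‖w X‖`**  (uniform coordinate).
CONCRETE PART.  `R` a local PID with `hpR : maximalIdeal R = Ideal.span {(p : R)}`, `E` with
`[FaithfulSMul R E] [NormLeOne R E]`, `hmax : ∀ r ∈ maximalIdeal R, ‖algebraMap R E r‖ < 1`,
`A` finite free cocommutative Hopf over `R`, `Γ` acting on `E` with `hF : FixedInFrac R E Γ`,
`W : Subgroup (WithConv (A →ₐ[R] E))` finite, `Γ`-stable, `Nat.card W = p ^ 2`, killed by `p`;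
`Γ₀` another group acting on `E` (inertia): `hiso`, `hin`, `hirr : ∀ N ≤ W, Γ₀-stable → N = ⊥ ∨
N = W`, `ϖ` with `‖ϖ‖ ^ (p - 1) = ‖p‖`, `ϖ ≠ 0`, `hϖΓ : ∀ σ : Γ₀, ∃ c : ℕ, ‖σ • ϖ - c * ϖ‖ < ‖ϖ‖`.
* `finrank_quot_closureIdeal hF W hWΓ : finrank R (A ⧸ closureIdeal W) = Nat.card W`;
* **`exists_coordinate … x : ∃ a : A, ∀ w ∈ W, w ≠ 1 →
    ‖(w * x) a - x a‖ ^ (p ^ 2 - 1) = ‖(p : E)‖`**;
* **`exists_ram_element … x : ∃ z : E, ‖z‖ ≤ 1 ∧ ∀ σ : Γ, σ • x * x⁻¹ ∈ W →
    ((σ • z = z ↔ σ • x = x) ∧ (σ • z ≠ z → ‖σ • z - z‖ ^ (p ^ 2 - 1) = ‖(p : E)‖))`**.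
-/
import Mathlib
import Fermat.Agent.TW.FLAT.OrderPSq6
import Fermat.Agent.TW.FLAT.Closure6

set_option autoImplicit false
set_option linter.unusedSectionVars false

namespace Fermat.Agent.TW.FLAT.RamPoint6

open WithConv Coalgebra Module Fermat.Agent.TW.FLAT.Points6
  Fermat.Agent.TW.FLAT.DiffIdeal6 Fermat.Agent.TW.FLAT.BallPoints6
  Fermat.Agent.TW.FLAT.SizeFn6

noncomputable section

section abstract

variable {R : Type*} [CommRing R] {E : Type*} [NormedField E] [IsUltrametricDist E] [Algebra R E]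
  [NormLeOne R E]
  {A : Type*} [CommRing A] [HopfAlgebra R A] [Algebra.IsIntegral R A]
  {B : Type*} [CommRing B] [HopfAlgebra R B] [Algebra.IsIntegral R B]

theorem one_apply' (a : A) : (1 : WithConv (A →ₐ[R] E)) a = algebraMap R E (counit a) := by
  simp

/-- A point vanishing at a generator of the augmentation ideal is trivial. -/
theorem eq_one_of_apply_eq_zero {X : B} (hX : augI R B = Ideal.span {X})
    (z : WithConv (B →ₐ[R] E)) (hz : z X = 0) : z = 1 := by
  ext a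
  have h1 : a - algebraMap R B (counit a) ∈ Ideal.span {X} := hX ▸ sub_counit_mem_augI a
  obtain ⟨b, hb⟩ := Ideal.mem_span_singleton'.mp h1
  have h2 : z (a - algebraMap R B (counit a)) = 0 := by
    rw [← hb, map_mul, hz, mul_zero]
  rw [map_sub, sub_eq_zero] at h2
  rw [h2]
  have : z (algebraMap R B (counit (R := R) a)) = algebraMap R E (counit (R := R) a) :=
    z.ofConv.commutes _
  rw [this]
  simp

/-- Translation: `y b = Σ (y * x)(b₁) x⁻¹(b₂)`. -/
theorem apply_eq_sum_mul_inv (x y : WithConv (A →ₐ[R] E)) {b : A} {ι : Type*}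
    (r : Coalgebra.Repr R b ι) :
    y b = ∑ i ∈ r.index, (y * x) (r.left i) * x⁻¹ (r.right i) := by
  rw [← mul_apply_repr (y * x) x⁻¹ r, mul_inv_cancel_right]

/-- `(w * x) a - x a = Σ (w a₁ - ε a₁) x(a₂)`. -/
theorem mul_apply_sub_eq_sum (w x : WithConv (A →ₐ[R] E)) {a : A} {ι : Type*}
    (r : Coalgebra.Repr R a ι) :
    (w * x) a - x a = ∑ i ∈ r.index,
      (w (r.left i) - algebraMap R E (counit (R := R) (r.left i))) * x (r.right i) := by
  have h1 : (w * x) a = ∑ i ∈ r.index, w (r.left i) * x (r.right i) := mul_apply_repr w x r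
  have h2 : x a = ∑ i ∈ r.index,
      algebraMap R E (counit (R := R) (r.left i)) * x (r.right i) := by
    conv_lhs => rw [← sum_counit_smul r]
    rw [map_sum]
    apply Finset.sum_congr rfl
    intro i _
    rw [map_smul, Algebra.smul_def]
  rw [h1, h2, ← Finset.sum_sub_distrib]
  apply Finset.sum_congr rfl
  intro i _
  ring

variable (φ : A →ₐ[R] B) (hφε : ∀ a : A, counit (R := R) (φ a) = counit (R := R) a)
  {X : B} (hX : augI R B = Ideal.span {X})

include hX in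
/-- First order expansion of a point of `B` along the generator `X` of the augmentation ideal. -/
theorem exists_expansion (h : B) : ∃ v : R, ∀ w : WithConv (B →ₐ[R] E),
    ∃ δ : E, ‖δ‖ ≤ ‖w X‖ ∧ w h = algebraMap R E (counit (R := R) h) +
      w X * (algebraMap R E v + δ) := by
  have h1 : h - algebraMap R B (counit (R := R) h) ∈ Ideal.span {X} :=
    hX ▸ sub_counit_mem_augI h
  obtain ⟨g, hg⟩ := Ideal.mem_span_singleton'.mp h1
  have h2 : g - algebraMap R B (counit (R := R) g) ∈ Ideal.span {X} :=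
    hX ▸ sub_counit_mem_augI g
  obtain ⟨g', hg'⟩ := Ideal.mem_span_singleton'.mp h2
  refine ⟨counit (R := R) g, fun w => ⟨w g' * w X, ?_, ?_⟩⟩
  · rw [norm_mul]
    calc ‖w g'‖ * ‖w X‖ ≤ 1 * ‖w X‖ :=
          mul_le_mul_of_nonneg_right (norm_apply_le_one w.ofConv g') (norm_nonneg _)
      _ = _ := one_mul _
  · have e1 : h = algebraMap R B (counit (R := R) h) + g * X := by rw [hg]; ring
    have e2 : g = algebraMap R B (counit (R := R) g) + g' * X := by rw [hg']; ring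
    have c1 : ∀ r : R, w (algebraMap R B r) = algebraMap R E r := fun r => w.ofConv.commutes r
    conv_lhs => rw [e1, map_add, map_mul, c1]
    conv_lhs => rw [e2, map_add, map_mul, c1]
    ring

include hφε hX in
/-- Leading term of `(w̃ * x) a - x a` (`w̃ = w ∘ φ`). -/
theorem exists_leading (x : WithConv (A →ₐ[R] E)) (a : A) :
    ∃ u : E, ‖u‖ ≤ 1 ∧ ∀ w : WithConv (B →ₐ[R] E), ∃ δ : E, ‖δ‖ ≤ ‖w X‖ ∧
      (toConv (w.ofConv.comp φ) * x) a - x a = w X * (u + δ) := by
  classical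
  set r := ℛ R a with hr
  have hv : ∀ i : r.index, ∃ v : R, ∀ w : WithConv (B →ₐ[R] E),
      ∃ δ : E, ‖δ‖ ≤ ‖w X‖ ∧ w (φ (r.left i)) =
        algebraMap R E (counit (R := R) (φ (r.left i))) + w X * (algebraMap R E v + δ) :=
    fun i => exists_expansion hX (φ (r.left i))
  choose v hv using hv
  refine ⟨∑ i ∈ r.index.attach, algebraMap R E (v i) * x (r.right i), ?_, ?_⟩
  · apply IsUltrametricDist.norm_sum_le_of_forall_le_of_nonneg zero_le_one
    intro i _
    rw [norm_mul]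
    exact mul_le_one₀ (NormLeOne.norm_algebraMap_le _) (norm_nonneg _)
      (norm_apply_le_one x.ofConv _)
  · intro w
    choose δ hδ1 hδ2 using fun i => hv i w
    refine ⟨∑ i ∈ r.index.attach, δ i * x (r.right i), ?_, ?_⟩
    · apply IsUltrametricDist.norm_sum_le_of_forall_le_of_nonneg (norm_nonneg _)
      intro i _
      rw [norm_mul]
      calc ‖δ i‖ * ‖x (r.right i)‖ ≤ ‖w X‖ * 1 :=
            mul_le_mul (hδ1 i) (norm_apply_le_one x.ofConv _) (norm_nonneg _) (norm_nonneg _)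
        _ = _ := mul_one _
    · rw [mul_apply_sub_eq_sum _ x r, ← Finset.sum_attach, ← Finset.sum_add_distrib,
        Finset.mul_sum]
      apply Finset.sum_congr rfl
      intro i _
      have h1 : (toConv (w.ofConv.comp φ)) (r.left i) = w (φ (r.left i)) := rfl
      rw [h1, hδ2 i, hφε]
      ring

include hφε hX in
/-- **Uniform coordinate.**  `B` a connected quotient of `A` with principal augmentation ideal
`(X)`; for every point `x` of `A` there is `a : A` with `‖(w̃ * x) a - x a‖ = ‖w X‖` for all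
points `w` of `B`. -/
theorem exists_norm_apply_sub_eq (hφs : Function.Surjective φ)
    (hconn : ∀ w : WithConv (B →ₐ[R] E), ‖w X‖ < 1)
    (hnt : ∃ w : WithConv (B →ₐ[R] E), w ≠ 1) (x : WithConv (A →ₐ[R] E)) :
    ∃ a : A, ∀ w : WithConv (B →ₐ[R] E),
      ‖(toConv (w.ofConv.comp φ) * x) a - x a‖ = ‖w X‖ := by
  classical
  -- a lift of `X` to the augmentation ideal of `A`
  obtain ⟨X₀, hX₀⟩ := hφs X
  have hXI : X ∈ augI R B := by rw [hX]; exact Ideal.mem_span_singleton_self X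
  have hXc : counit (R := R) X = 0 := mem_augI.mp hXI
  have hX₀c : counit (R := R) X₀ = 0 := by rw [← hφε, hX₀, hXc]
  set r := ℛ R X₀ with hr
  -- leading terms of the coordinates `r.left i`
  choose u hu1 hu2 using fun i : r.index => exists_leading φ hφε hX x (r.left i)
  set c : r.index → E := fun i => x⁻¹ (r.right i) with hc
  have hc1 : ∀ i, ‖c i‖ ≤ 1 := fun i => norm_apply_le_one (x⁻¹).ofConv _
  -- the key identity
  have hone : toConv ((1 : WithConv (B →ₐ[R] E)).ofConv.comp φ) = (1 : WithConv (A →ₐ[R] E)) := by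
    ext a
    change (1 : WithConv (B →ₐ[R] E)) (φ a) = (1 : WithConv (A →ₐ[R] E)) a
    rw [one_apply', hφε]
    simp
  have hkey : ∀ w : WithConv (B →ₐ[R] E), w X = ∑ i ∈ r.index.attach,
      ((toConv (w.ofConv.comp φ) * x) (r.left i) - x (r.left i)) * c i := by
    intro w
    have h1 := apply_eq_sum_mul_inv x (toConv (w.ofConv.comp φ)) r
    have h2 := apply_eq_sum_mul_inv x (1 : WithConv (A →ₐ[R] E)) r
    have h3 : (toConv (w.ofConv.comp φ)) X₀ = w X := by
      change w (φ X₀) = w X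
      rw [hX₀]
    have h4 : (1 : WithConv (A →ₐ[R] E)) X₀ = 0 := by
      rw [one_apply', hX₀c, map_zero]
    rw [h3] at h1
    rw [h4, one_mul] at h2
    rw [Finset.sum_attach r.index (fun i =>
      ((toConv (w.ofConv.comp φ) * x) (r.left i) - x (r.left i)) * x⁻¹ (r.right i))]
    simp only [sub_mul]
    rw [Finset.sum_sub_distrib, ← h1, ← h2, sub_zero]
  -- some leading coefficient is a unit
  obtain ⟨w₀, hw₀⟩ := hnt
  have hw₀X : w₀ X ≠ 0 := fun h => hw₀ (eq_one_of_apply_eq_zero hX w₀ h)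
  have hex : ∃ i : r.index, ‖u i‖ = 1 := by
    by_contra hno
    rw [not_exists] at hno
    have hlt : ∀ i, ‖u i‖ < 1 := fun i => lt_of_le_of_ne (hu1 i) (hno i)
    choose δ hδ1 hδ2 using fun i => hu2 i w₀
    have h1 := hkey w₀
    have h2 : w₀ X = w₀ X * ∑ i ∈ r.index.attach, (u i + δ i) * c i := by
      conv_lhs => rw [h1]
      rw [Finset.mul_sum]
      apply Finset.sum_congr rfl
      intro i _
      rw [hδ2 i]; ring
    have h3 : ∑ i ∈ r.index.attach, (u i + δ i) * c i = 1 := by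
      have := mul_left_cancel₀ hw₀X (a := w₀ X) (b := 1)
        (c := ∑ i ∈ r.index.attach, (u i + δ i) * c i) (by rw [mul_one]; exact h2)
      exact this.symm
    have h4 : ‖∑ i ∈ r.index.attach, (u i + δ i) * c i‖ < 1 := by
      apply norm_sum_lt _ _ zero_lt_one
      intro i _
      rw [norm_mul]
      have h5 : ‖u i + δ i‖ < 1 :=
        lt_of_le_of_lt (IsUltrametricDist.norm_add_le_max _ _)
          (max_lt (hlt i) (lt_of_le_of_lt (hδ1 i) (hconn w₀)))
      calc ‖u i + δ i‖ * ‖c i‖ ≤ ‖u i + δ i‖ * 1 :=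
            mul_le_mul_of_nonneg_left (hc1 i) (norm_nonneg _)
        _ = ‖u i + δ i‖ := mul_one _
        _ < 1 := h5
    rw [h3, norm_one] at h4
    exact lt_irrefl _ h4
  obtain ⟨i, hi⟩ := hex
  refine ⟨r.left i, fun w => ?_⟩
  obtain ⟨δ, hδ1, hδ2⟩ := hu2 i w
  rw [hδ2, norm_mul]
  have h1 : ‖u i + δ‖ = 1 := by
    rw [LocalConn6.norm_add_eq_of_lt (by rw [hi]; exact lt_of_le_of_lt hδ1 (hconn w)), hi]
  rw [h1, mul_one]

end abstract

section closure

open Fermat.Agent.TW.FLAT.Closure6 Fermat.Agent.TW.FLAT.Closed6 Fermat.Agent.TW.FLAT.Descent6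
  Fermat.Agent.TW.FLAT.KilledBy6 Fermat.Agent.TW.FLAT.IrredSize6 IsLocalRing TensorProduct

variable {R : Type*} [CommRing R] [IsDomain R] [IsPrincipalIdealRing R] [IsLocalRing R]
  {E : Type*} [NormedField E] [IsUltrametricDist E] [Algebra R E] [FaithfulSMul R E]
  [NormLeOne R E]
  {A : Type*} [CommRing A] [HopfAlgebra R A] [Coalgebra.IsCocomm R A] [Module.Free R A]
  [Module.Finite R A]
  {Γ : Type*} [Group Γ] [MulSemiringAction Γ E] [SMulCommClass Γ R E]

/-- The rank of the closure of a finite stable subgroup is its order. -/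
theorem finrank_quot_closureIdeal (hF : FixedInFrac R E Γ)
    (W : Subgroup (WithConv (A →ₐ[R] E))) [Finite W]
    (hWΓ : ∀ σ : Γ, ∀ f ∈ W, σ • f ∈ W) :
    finrank R (A ⧸ closureIdeal W) = Nat.card W := by
  classical
  have := Fintype.ofFinite W
  have htf : Module.IsTorsionFree R (A ⧸ closureIdeal W) := quot_closureIdeal_isTorsionFree W
  have hinj : Function.Injective (evFam (quotFam (subFam W))) :=
    evFam_quot_injective hF (stableFam_subFam W hWΓ)
  have hqinj : Function.Injective (quotFam (subFam W)) := by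
    intro k k' h
    apply subFam_injective W
    apply AlgHom.ext
    intro a
    have := congrArg (fun f => f (Ideal.Quotient.mk _ a)) h
    simpa using this
  have hsurj : Function.Surjective (evFam (quotFam (subFam W))) := evFam_surjective hqinj
  have e : (E ⊗[R] (A ⧸ closureIdeal W)) ≃ₗ[E] (W → E) :=
    LinearEquiv.ofBijective (evFam (quotFam (subFam W))).toLinearMap ⟨hinj, hsurj⟩
  rw [← Module.finrank_baseChange (R := E), e.finrank_eq, Module.finrank_fintype_fun_eq_card,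
    Nat.card_eq_fintype_card]

variable {Γ₀ : Type*} [Group Γ₀] [MulSemiringAction Γ₀ E] [SMulCommClass Γ₀ R E]

/-- **(LL-RAM).**  `W` a finite `Γ`-stable subgroup of order `p²` of the points of a finite flat
group scheme over an unramified base, killed by `p` and irreducible under an inertia-like group
`Γ₀`; `x` any point.  There is a coordinate `a` such that every nontrivial translate of `x` by `W`
moves `x a` by exactly `‖p‖ ^ (1 / (p² - 1))`. -/
theorem exists_coordinate (p : ℕ) [hp : Fact p.Prime]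
    (hpR : maximalIdeal R = Ideal.span {(p : R)})
    (hmax : ∀ r ∈ maximalIdeal R, ‖algebraMap R E r‖ < 1)
    (hF : FixedInFrac R E Γ)
    (W : Subgroup (WithConv (A →ₐ[R] E))) [Finite W]
    (hWΓ : ∀ σ : Γ, ∀ f ∈ W, σ • f ∈ W)
    (hWcard : Nat.card W = p ^ 2) (hWp : ∀ f ∈ W, f ^ p = 1)
    (hiso : ∀ (σ : Γ₀) (y : E), ‖σ • y‖ = ‖y‖)
    (hin : ∀ (σ : Γ₀) (y : E), ‖y‖ ≤ 1 → ‖σ • y - y‖ < 1)
    (hirr : ∀ N : Subgroup (WithConv (A →ₐ[R] E)), N ≤ W →
      (∀ σ : Γ₀, ∀ f ∈ N, σ • f ∈ N) → N = ⊥ ∨ N = W)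
    {ϖ : E} (hϖ : ‖ϖ‖ ^ (p - 1) = ‖(p : E)‖) (hϖ0 : ϖ ≠ 0)
    (hϖΓ : ∀ σ : Γ₀, ∃ c : ℕ, ‖σ • ϖ - (c : E) * ϖ‖ < ‖ϖ‖)
    (x : WithConv (A →ₐ[R] E)) :
    ∃ a : A, ∀ w ∈ W, w ≠ 1 → ‖(w * x) a - x a‖ ^ (p ^ 2 - 1) = ‖(p : E)‖ := by
  classical
  have hI : (closureIdeal W).IsHopfIdeal R := closureIdeal_isHopfIdeal hF W hWΓ
  have htf : Module.IsTorsionFree R (A ⧸ closureIdeal W) := quot_closureIdeal_isTorsionFree W
  have hcl : closedPts R (closureIdeal W) E = W := closedPts_closureIdeal hF W hWΓ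
  -- the points of the closure
  let e : WithConv ((A ⧸ closureIdeal W) →ₐ[R] E) ≃* closedPts R (closureIdeal W) E :=
    ptsQuotEquiv (closureIdeal W)
  have he : ∀ (g : WithConv ((A ⧸ closureIdeal W) →ₐ[R] E)) (a : A),
      (e g : WithConv (A →ₐ[R] E)) a = g (Ideal.Quotient.mk _ a) := fun g a => rfl
  have hmemW : ∀ f : WithConv (A →ₐ[R] E), f ∈ closedPts R (closureIdeal W) E ↔ f ∈ W :=
    fun f => by rw [hcl]
  have heW : ∀ g, (e g : WithConv (A →ₐ[R] E)) ∈ W := fun g => (hmemW _).mp (e g).2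
  have hfinB : Finite (WithConv ((A ⧸ closureIdeal W) →ₐ[R] E)) := by
    have : Finite (closedPts R (closureIdeal W) E) :=
      Finite.of_injective (fun f => (⟨f.1, (hmemW _).mp f.2⟩ : W))
        (fun f f' h => Subtype.ext (congrArg (fun u : W => (u : WithConv (A →ₐ[R] E))) h))
    exact Finite.of_equiv _ e.symm.toEquiv
  have hcardB : Nat.card (WithConv ((A ⧸ closureIdeal W) →ₐ[R] E)) = p ^ 2 := by
    rw [Nat.card_congr e.toEquiv, ← hWcard]
    exact Nat.card_congr (Equiv.subtypeEquivRight hmemW)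
  have hcard : Nat.card (WithConv ((A ⧸ closureIdeal W) →ₐ[R] E)) =
      finrank R (A ⧸ closureIdeal W) := by
    rw [hcardB, finrank_quot_closureIdeal hF W hWΓ, hWcard]
  have hsep : PtsSeparate R (A ⧸ closureIdeal W) E := by
    intro b hb
    apply quotFam_injective (subFam W)
    funext k
    change quotFam (subFam W) k b = quotFam (subFam W) k 0
    rw [hb, map_zero]
  have hpow : ∀ z : WithConv ((A ⧸ closureIdeal W) →ₐ[R] E), z ^ p = 1 := by
    intro z
    apply e.injective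
    apply Subtype.ext
    rw [map_pow, map_one, Subgroup.coe_pow, Subgroup.coe_one]
    exact hWp _ (heW z)
  have hirrB : IsIrr Γ₀ (WithConv ((A ⧸ closureIdeal W) →ₐ[R] E)) := by
    intro N hN
    let ι : WithConv ((A ⧸ closureIdeal W) →ₐ[R] E) →* WithConv (A →ₐ[R] E) :=
      (closedPts R (closureIdeal W) E).subtype.comp e.toMonoidHom
    have hι : Function.Injective ι :=
      (Subgroup.subtype_injective _).comp e.injective
    have hιW : ∀ g, ι g ∈ W := heW
    have hιsmul : ∀ (σ : Γ₀) g, ι (σ • g) = σ • ι g := fun σ g => ptsQuotEquiv_smul _ σ g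
    have hιsurj : ∀ f ∈ W, ∃ g, ι g = f := by
      intro f hf
      have hf' : f ∈ closedPts R (closureIdeal W) E := (hmemW f).mpr hf
      exact ⟨e.symm ⟨f, hf'⟩, by simp [ι]⟩
    rcases hirr (N.map ι) (by
        rintro _ ⟨g, _, rfl⟩
        exact hιW g) (by
        rintro σ _ ⟨g, hg, rfl⟩
        exact ⟨σ • g, hN σ g hg, hιsmul σ g⟩) with h | h
    · left
      rw [eq_bot_iff]
      intro g hg
      have : ι g ∈ N.map ι := ⟨g, hg, rfl⟩
      rw [h, Subgroup.mem_bot] at this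
      rw [Subgroup.mem_bot]
      exact hι (by rw [this, map_one])
    · right
      rw [eq_top_iff]
      intro g _
      have : ι g ∈ N.map ι := by rw [h]; exact hιW g
      obtain ⟨g', hg', hgg'⟩ := this
      rwa [← hι hgg']
  -- (B3) for the closure
  obtain ⟨X, hX, hXn⟩ := OrderPSq6.exists_generator_of_irr (R := R) (E := E)
    (H := A ⧸ closureIdeal W) p hpR hmax hcard hcardB hsep hpow hiso hin hirrB hϖ hϖ0 hϖΓ
  have hplt : ‖(p : E)‖ < 1 := by
    rw [← map_natCast (algebraMap R E)]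
    apply hmax
    rw [hpR]; exact Ideal.mem_span_singleton_self _
  have hp1 : 1 < p := hp.out.one_lt
  have hexp : p ^ 2 - 1 ≠ 0 := by
    have : 1 < p ^ 2 := Nat.one_lt_pow two_ne_zero hp1
    omega
  have hconn : ∀ w : WithConv ((A ⧸ closureIdeal W) →ₐ[R] E), ‖w X‖ < 1 := by
    intro w
    by_cases hw : w = 1
    · have hXI : X ∈ augI R (A ⧸ closureIdeal W) := by
        rw [hX]; exact Ideal.mem_span_singleton_self X
      rw [hw, one_apply', mem_augI.mp hXI, map_zero, norm_zero]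
      exact zero_lt_one
    · by_contra hge
      rw [not_lt] at hge
      have := one_le_pow₀ (n := p ^ 2 - 1) hge
      rw [hXn w hw] at this
      exact absurd hplt (not_lt.mpr this)
  have hnt : ∃ w : WithConv ((A ⧸ closureIdeal W) →ₐ[R] E), w ≠ 1 := by
    by_contra h
    rw [not_exists] at h
    have hsub : Subsingleton (WithConv ((A ⧸ closureIdeal W) →ₐ[R] E)) :=
      ⟨fun a b => by rw [not_not.mp (h a), not_not.mp (h b)]⟩
    have h1 : Nat.card (WithConv ((A ⧸ closureIdeal W) →ₐ[R] E)) = 1 := Nat.card_unique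
    rw [hcardB] at h1
    have : 1 < p ^ 2 := Nat.one_lt_pow two_ne_zero hp1
    omega
  obtain ⟨a, ha⟩ := exists_norm_apply_sub_eq (Ideal.Quotient.mkₐ R (closureIdeal W))
    (fun a => rfl) hX (Ideal.Quotient.mkₐ_surjective R _) hconn hnt x
  refine ⟨a, fun w hw hw1 => ?_⟩
  have hw' : w ∈ closedPts R (closureIdeal W) E := (hmemW w).mpr hw
  set g := e.symm ⟨w, hw'⟩ with hg
  have hgw : (e g : WithConv (A →ₐ[R] E)) = w := by rw [hg, MulEquiv.apply_symm_apply]
  have hg1 : g ≠ 1 := by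
    intro h
    apply hw1
    rw [← hgw, h, map_one, Subgroup.coe_one]
  have hcomp : toConv (g.ofConv.comp (Ideal.Quotient.mkₐ R (closureIdeal W))) = w := by
    rw [← hgw]
    ext b
    rfl
  have := ha g
  rw [hcomp] at this
  rw [this, hXn g hg1]

/-- **(LL-RAM), Galois form.**  Same hypotheses; there is an integral `z : E` such that every
`σ : Γ` moving `x` inside its `W`-coset either fixes `x` and `z`, or moves `z` by exactly
`‖p‖ ^ (1 / (p² - 1))`. -/
theorem exists_ram_element (p : ℕ) [hp : Fact p.Prime]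
    (hpR : maximalIdeal R = Ideal.span {(p : R)})
    (hmax : ∀ r ∈ maximalIdeal R, ‖algebraMap R E r‖ < 1)
    (hF : FixedInFrac R E Γ)
    (W : Subgroup (WithConv (A →ₐ[R] E))) [Finite W]
    (hWΓ : ∀ σ : Γ, ∀ f ∈ W, σ • f ∈ W)
    (hWcard : Nat.card W = p ^ 2) (hWp : ∀ f ∈ W, f ^ p = 1)
    (hiso : ∀ (σ : Γ₀) (y : E), ‖σ • y‖ = ‖y‖)
    (hin : ∀ (σ : Γ₀) (y : E), ‖y‖ ≤ 1 → ‖σ • y - y‖ < 1)
    (hirr : ∀ N : Subgroup (WithConv (A →ₐ[R] E)), N ≤ W →
      (∀ σ : Γ₀, ∀ f ∈ N, σ • f ∈ N) → N = ⊥ ∨ N = W)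
    {ϖ : E} (hϖ : ‖ϖ‖ ^ (p - 1) = ‖(p : E)‖) (hϖ0 : ϖ ≠ 0)
    (hϖΓ : ∀ σ : Γ₀, ∃ c : ℕ, ‖σ • ϖ - (c : E) * ϖ‖ < ‖ϖ‖)
    (x : WithConv (A →ₐ[R] E)) :
    ∃ z : E, ‖z‖ ≤ 1 ∧ ∀ σ : Γ, σ • x * x⁻¹ ∈ W →
      ((σ • z = z ↔ σ • x = x) ∧ (σ • z ≠ z → ‖σ • z - z‖ ^ (p ^ 2 - 1) = ‖(p : E)‖)) := by
  obtain ⟨a, ha⟩ := exists_coordinate p hpR hmax hF W hWΓ hWcard hWp hiso hin hirr hϖ hϖ0 hϖΓ x
  have hp0 : (p : E) ≠ 0 := by
    rw [← norm_pos_iff, ← hϖ]; exact pow_pos (norm_pos_iff.mpr hϖ0) _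
  have hp1 : 1 < p := hp.out.one_lt
  have hexp : p ^ 2 - 1 ≠ 0 := by
    have : 1 < p ^ 2 := Nat.one_lt_pow two_ne_zero hp1
    omega
  refine ⟨x a, norm_apply_le_one x.ofConv a, fun σ hσ => ?_⟩
  have hσx : σ • x = (σ • x * x⁻¹) * x := by rw [inv_mul_cancel_right]
  have hσz : σ • x a = (σ • x) a := (Points6.smul_apply σ x a).symm
  have hmove : σ • x ≠ x → ‖σ • x a - x a‖ ^ (p ^ 2 - 1) = ‖(p : E)‖ := by
    intro hne
    have hw1 : σ • x * x⁻¹ ≠ 1 := fun h => hne (mul_inv_eq_one.mp h)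
    have := ha _ hσ hw1
    rwa [← hσx, ← hσz] at this
  have hiff : σ • x a = x a ↔ σ • x = x := by
    constructor
    · intro h
      by_contra hne
      have h1 := hmove hne
      rw [h, sub_self, norm_zero, zero_pow hexp] at h1
      exact hp0 (norm_eq_zero.mp h1.symm)
    · intro h
      rw [hσz, h]
  refine ⟨hiff, fun hne => hmove (fun h => hne (hiff.mpr h))⟩

end closure

end

end Fermat.Agent.TW.FLAT.RamPoint6
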