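/-
Programme T (S56), chapter T/FLAT, local-local chain (lead): **totally ramified extensions of prime
degree**, in norm form, in the abstract model of `PT/LOC/Interface12`.

* `exists_approx` (A1): equal residue cardinalities => every integral `c` of `E'` is congruent to an
  integral element of `E` modulo the maximal ideal.
* `snorm_galois_sub_le` (A3): equal residue cardinalities, `pi` a uniformizer of `E'`:
  `|sigma c - c| <= |sigma pi - pi|` for all integral `c`.
* `snorm_zpow_sub_one_le`: `|t| = 1` implies `|t^x - 1| <= |t - 1|` for all integers `x`.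
* `totally_ramified_of_snorm`: `[E':E] = p` prime, `|gamma|^p = |varpi|^n`, `p` not dividing `n`:
  `e = p`, same residue cardinality, `ord gamma = n`.
* `snorm_galois_sub_pow_le` (TR): in that situation
  `|sigma c - c|^p <= |varpi| * |sigma gamma / gamma - 1|^p` for all integral `c`.
-/
import Mathlib
import Fermat.Agent.TW.LOC.InertiaTower4
import Fermat.Agent.PT.LOC.RootsUnity14
import Fermat.Agent.PT.LOC.StructureTowerEF27

set_option autoImplicit false
set_option linter.unusedSectionVars false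

open scoped Fermat.Agent.PT.LOC.Interface12 Fermat.Agent.PT.LOC.StructureTower27
open Fermat.Agent.PT.LOC.Interface12 Fermat.Agent.PT.LOC.Structure14
  Fermat.Agent.PT.LOC.StructureNorm14 Fermat.Agent.PT.LOC.StructureTower27
  Fermat.Agent.PT.LOC.StructureTowerEF27 Fermat.Agent.PT.LOC.RootsUnity14

namespace Fermat.Agent.TW.FLAT.TotRam0

noncomputable section

variable (q : ℕ) [Fact q.Prime]
  (E : Type) [Field E] [Algebra ℚ_[q] E] [FiniteDimensional ℚ_[q] E]
  (E' : Type) [Field E'] [Algebra ℚ_[q] E'] [FiniteDimensional ℚ_[q] E'] [Algebra E E']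
  [IsScalarTower ℚ_[q] E E']

/-- (A1) If the residue fields of `E ⊆ E'` have the same cardinality, every integral element of
`E'` is congruent to an integral element of `E` modulo the maximal ideal. -/
theorem exists_approx (h : resCard q E' = resCard q E) (c : E') (hc : c ∈ intRing q E') :
    ∃ a : E, a ∈ intRing q E ∧ snorm q E' (c - algebraMap E E' a) < 1 := by
  set R := intRing q E
  set S := intRing q E'
  set φ := algebraMap (R ⧸ IsLocalRing.maximalIdeal R) (S ⧸ IsLocalRing.maximalIdeal S) with hφ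
  have hinj : Function.Injective φ := φ.injective
  have hfinS : Finite (S ⧸ IsLocalRing.maximalIdeal S) := by
    have h0 : Finite (intRing q E' ⧸ maxId q E') := inferInstance
    rw [maxId_eq_maximalIdeal] at h0
    exact h0
  have hcard : Nat.card (S ⧸ IsLocalRing.maximalIdeal S) ≤
      Nat.card (R ⧸ IsLocalRing.maximalIdeal R) := by
    have h1 := resCard_def q E'
    have h2 := resCard_def q E
    rw [maxId_eq_maximalIdeal] at h1 h2
    rw [← h1, ← h2, h]
  have hsurj : Function.Surjective φ :=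
    (Function.Injective.bijective_of_nat_card_le hinj hcard).2
  obtain ⟨ā, hā⟩ := hsurj (Ideal.Quotient.mk _ ⟨c, hc⟩)
  obtain ⟨a, rfl⟩ := Ideal.Quotient.mk_surjective ā
  refine ⟨(a : E), a.2, ?_⟩
  rw [Ideal.Quotient.algebraMap_mk_of_liesOver, Ideal.Quotient.eq] at hā
  have := (mem_maximalIdeal_iff_snorm q E' _).1 hā
  rw [← Fermat.Agent.PT.LOC.RootsUnity14.snorm_neg, neg_sub]
  have h3 : ((algebraMap R S a - ⟨c, hc⟩ : S) : E') = algebraMap E E' (a : E) - c := by
    rw [AddSubgroupClass.coe_sub, coe_algebraMap_intRing]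
  rw [← h3]
  exact this

/-- Auxiliary induction for (A3). -/
theorem snorm_galois_sub_le_max (h : resCard q E' = resCard q E) (π : E')
    (hπ : IsUniformizer q E' π) (σ : E' ≃ₐ[E] E') (N : ℕ) :
    ∀ c : E', c ∈ intRing q E' →
      snorm q E' (σ c - c) ≤ max (snorm q E' (σ π - π)) (snorm q E' π ^ N) := by
  have hπ1 : snorm q E' π ≤ 1 := (snorm_uniformizer_lt_one q E' π hπ).le
  have hπ0 : 0 ≤ snorm q E' π := snorm_nonneg q E' π
  induction N with
  | zero =>
    intro c hc
    rw [pow_zero]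
    refine le_trans ?_ (le_max_right _ _)
    refine le_trans (snorm_sub_le_max q E' _ _) (max_le ?_ ?_)
    · rw [snorm_galois]; exact (mem_intRing_iff q E' c).1 hc
    · exact (mem_intRing_iff q E' c).1 hc
  | succ N ih =>
    intro c hc
    obtain ⟨a, ha, hca⟩ := exists_approx q E E' h c hc
    set c' := (c - algebraMap E E' a) * π⁻¹ with hc'
    have hc'int : c' ∈ intRing q E' := (mul_inv_uniformizer_mem_iff q E' π hπ _).2 hca
    have hπne : π ≠ 0 := hπ.2.1
    have hceq : c = algebraMap E E' a + π * c' := by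
      rw [hc']; field_simp; ring
    have hdiff : σ c - c = (σ π - π) * σ c' + π * (σ c' - c') := by
      rw [hceq]
      simp only [map_add, map_mul, AlgEquiv.commutes]
      ring
    rw [hdiff]
    refine le_trans (snorm_add_le_max q E' _ _) (max_le ?_ ?_)
    · rw [snorm_mul, snorm_galois]
      refine le_trans ?_ (le_max_left _ _)
      calc snorm q E' (σ π - π) * snorm q E' c' ≤ snorm q E' (σ π - π) * 1 :=
            mul_le_mul_of_nonneg_left ((mem_intRing_iff q E' c').1 hc'int) (snorm_nonneg q E' _)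
        _ = _ := mul_one _
    · rw [snorm_mul]
      have h1 := ih c' hc'int
      rcases le_max_iff.1 h1 with h2 | h2
      · refine le_trans ?_ (le_max_left _ _)
        calc snorm q E' π * snorm q E' (σ c' - c') ≤ 1 * snorm q E' (σ π - π) :=
              mul_le_mul hπ1 h2 (snorm_nonneg q E' _) zero_le_one
          _ = _ := one_mul _
      · refine le_trans ?_ (le_max_right _ _)
        rw [pow_succ']
        exact mul_le_mul_of_nonneg_left h2 hπ0

/-- (A3) If the residue fields of `E ⊆ E'` have the same cardinality and `π` is a uniformizer of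
`E'`, then `‖σ c - c‖ ≤ ‖σ π - π‖` for every integral `c` and every `σ ∈ Gal(E'/E)`. -/
theorem snorm_galois_sub_le (h : resCard q E' = resCard q E) (π : E')
    (hπ : IsUniformizer q E' π) (σ : E' ≃ₐ[E] E') (c : E') (hc : c ∈ intRing q E') :
    snorm q E' (σ c - c) ≤ snorm q E' (σ π - π) := by
  by_contra hlt
  rw [not_le] at hlt
  have hpos : 0 < snorm q E' (σ c - c) := lt_of_le_of_lt (snorm_nonneg q E' _) hlt
  obtain ⟨N, hN⟩ := exists_pow_lt_of_lt_one hpos (snorm_uniformizer_lt_one q E' π hπ)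
  have := snorm_galois_sub_le_max q E E' h π hπ σ N c hc
  rcases le_max_iff.1 this with h2 | h2
  · exact absurd h2 (not_le.2 hlt)
  · exact absurd h2 (not_le.2 hN)

/-! ### `‖t ^ x - 1‖ ≤ ‖t - 1‖` -/

theorem snorm_pow_sub_one_le (t : E') (ht : snorm q E' t ≤ 1) (x : ℕ) :
    snorm q E' (t ^ x - 1) ≤ snorm q E' (t - 1) := by
  induction x with
  | zero => simp [snorm_zero, snorm_nonneg]
  | succ x ih =>
    have : t ^ (x + 1) - 1 = t * (t ^ x - 1) + (t - 1) := by ring
    rw [this]
    refine le_trans (snorm_add_le_max q E' _ _) (max_le ?_ le_rfl)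
    rw [snorm_mul]
    calc snorm q E' t * snorm q E' (t ^ x - 1) ≤ 1 * snorm q E' (t - 1) :=
          mul_le_mul ht ih (snorm_nonneg q E' _) zero_le_one
      _ = _ := one_mul _

theorem snorm_zpow_sub_one_le (t : E') (ht : snorm q E' t = 1) (x : ℤ) :
    snorm q E' (t ^ x - 1) ≤ snorm q E' (t - 1) := by
  have ht0 : t ≠ 0 := by
    intro h0
    rw [h0, snorm_zero] at ht
    exact zero_ne_one ht
  cases x with
  | ofNat x =>
    simpa using snorm_pow_sub_one_le q E' t ht.le x
  | negSucc x =>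
    have h1 : t ^ (Int.negSucc x) - 1 = -((t ^ (x + 1))⁻¹ * (t ^ (x + 1) - 1)) := by
      rw [zpow_negSucc]
      have : t ^ (x + 1) ≠ 0 := pow_ne_zero _ ht0
      field_simp
      ring
    rw [h1, Fermat.Agent.PT.LOC.RootsUnity14.snorm_neg, snorm_mul, snorm_inv,
      Fermat.Agent.PT.LOC.RootsUnity14.snorm_pow, ht, one_pow, inv_one, one_mul]
    exact snorm_pow_sub_one_le q E' t ht.le (x + 1)

/-! ### Totally ramified extensions of prime degree -/

/-- If `[E':E] = p` is prime and some `γ ∈ E'` has `‖γ‖ ^ p = ‖ϖ‖ ^ n` with `p ∤ n`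
(`ϖ` a uniformizer of `E`), then `E'/E` is totally ramified: `e = p`, the residue fields have the
same cardinality, and `ord_{E'} γ = n`. -/
theorem totally_ramified_of_snorm (p : ℕ) (hp : p.Prime) (hdeg : Module.finrank E E' = p)
    (ϖ : E) (hϖ : IsUniformizer q E ϖ) (γ : E'ˣ) (n : ℤ) (hn : ¬ (p : ℤ) ∣ n)
    (hγ : snorm q E' (γ : E') ^ p = snorm q E ϖ ^ n) :
    ramIdx q E E' = p ∧ resCard q E' = resCard q E ∧ ord q E' γ = n := by
  obtain ⟨Pi0, hPi⟩ := exists_isUniformizer q E'
  set ϖu : Eˣ := Units.mk0 ϖ hϖ.2.1 with hϖu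
  have hordϖ : ord q E ϖu = 1 := (isUniformizer_iff_ord q E ϖu).1 hϖ
  have h1 : snorm q E ϖ = snorm q E' (Pi0 : E') ^ (ramIdx q E E' : ℤ) := by
    have := snorm_eq_zpow q E' Pi0 hPi (Units.map (algebraMap E E' : E →* E') ϖu)
    rw [ord_algebraMap, hordϖ, mul_one] at this
    rw [← this]
    change _ = snorm q E' (algebraMap E E' ϖ)
    rw [snorm_algebraMap_tower]
  have h2 : snorm q E' (γ : E') = snorm q E' (Pi0 : E') ^ (ord q E' γ) := snorm_eq_zpow q E' Pi0 hPi γ
  have hPi0 : 0 < snorm q E' (Pi0 : E') := snorm_pos q E' Pi0.ne_zero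
  have hPi1 : snorm q E' (Pi0 : E') ≠ 1 := (snorm_uniformizer_lt_one q E' _ hPi).ne
  have h3 : ord q E' γ * p = ramIdx q E E' * n := by
    rw [h1, h2, ← zpow_natCast, ← zpow_mul, ← zpow_mul] at hγ
    exact zpow_right_injective₀ hPi0 hPi1 hγ
  have hef := ramIdx_mul_resDeg q E E'
  rw [hdeg] at hef
  have hdvd : ramIdx q E E' ∣ p := Dvd.intro _ hef
  rcases (Nat.dvd_prime hp).1 hdvd with he | he
  · exfalso
    rw [he] at h3
    apply hn
    exact ⟨ord q E' γ, by push_cast at h3; linarith⟩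
  · have hf : resDeg q E E' = 1 := by
      rw [he] at hef
      have hp0 : 0 < p := hp.pos
      exact Nat.eq_of_mul_eq_mul_left hp0 (by rw [hef, mul_one])
    refine ⟨he, ?_, ?_⟩
    · rw [resCard_tower q E E', hf, pow_one]
    · rw [he] at h3
      have hp0 : (p : ℤ) ≠ 0 := by exact_mod_cast hp.ne_zero
      have : ord q E' γ * p = n * p := by rw [h3]; ring
      exact mul_right_cancel₀ hp0 this

/-- **(TR)** `[E':E] = p` prime, `γ ∈ E'` with `‖γ‖ ^ p = ‖ϖ‖ ^ n`, `p ∤ n`.  Then for all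
`σ ∈ Gal(E'/E)` and all integral `c ∈ E'`: `‖σ c - c‖ ^ p ≤ ‖ϖ‖ · ‖σ γ / γ - 1‖ ^ p`. -/
theorem snorm_galois_sub_pow_le (p : ℕ) (hp : p.Prime) (hdeg : Module.finrank E E' = p)
    (ϖ : E) (hϖ : IsUniformizer q E ϖ) (γ : E'ˣ) (n : ℤ) (hn : ¬ (p : ℤ) ∣ n)
    (hγ : snorm q E' (γ : E') ^ p = snorm q E ϖ ^ n)
    (σ : E' ≃ₐ[E] E') (c : E') (hc : c ∈ intRing q E') :
    snorm q E' (σ c - c) ^ p ≤ snorm q E ϖ * snorm q E' (σ (γ : E') * (γ : E')⁻¹ - 1) ^ p := by
  obtain ⟨he, hres, hord⟩ := totally_ramified_of_snorm q E E' p hp hdeg ϖ hϖ γ n hn hγ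
  set ϖu : Eˣ := Units.mk0 ϖ hϖ.2.1 with hϖu
  have hordϖ : ord q E ϖu = 1 := (isUniformizer_iff_ord q E ϖu).1 hϖ
  set ϖ' : E'ˣ := Units.map (algebraMap E E' : E →* E') ϖu with hϖ'
  have hordϖ' : ord q E' ϖ' = p := by
    rw [hϖ', ord_algebraMap, hordϖ, mul_one, he]
  -- Bezout
  have hcop : Int.gcd n p = 1 := by
    have hpp : Prime (p : ℤ) := Nat.prime_iff_prime_int.1 hp
    have := (Int.isCoprime_iff_gcd_eq_one).1 ((Prime.coprime_iff_not_dvd hpp).2 hn)
    rwa [Int.gcd_comm] at this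
  have hbez := Int.gcd_eq_gcd_ab n p
  rw [hcop] at hbez
  set x := Int.gcdA n p with hx
  set y := Int.gcdB n p with hy
  set π' : E'ˣ := γ ^ x * ϖ' ^ y with hπ'
  have hordπ' : ord q E' π' = 1 := by
    rw [hπ', ord_mul, ord_zpow, ord_zpow, hord, hordϖ']
    push_cast at hbez
    linarith
  have hπ'unif : IsUniformizer q E' (π' : E') := (isUniformizer_iff_ord q E' π').2 hordπ'
  have hA3 := snorm_galois_sub_le q E E' hres (π' : E') hπ'unif σ c hc
  -- `σ π' - π' = π' * (t ^ x - 1)`
  set t : E' := σ (γ : E') * (γ : E')⁻¹ with ht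
  have hγ0 : (γ : E') ≠ 0 := γ.ne_zero
  have htnorm : snorm q E' t = 1 := by
    rw [ht, snorm_mul, snorm_galois, snorm_inv]
    exact mul_inv_cancel₀ (snorm_pos q E' hγ0).ne'
  have hπ'val : (π' : E') = (γ : E') ^ x * (algebraMap E E' ϖ) ^ y := by
    rw [hπ']
    simp only [Units.val_mul, Units.val_zpow_eq_zpow_val]
    rfl
  have hσπ' : σ (π' : E') - (π' : E') = (π' : E') * (t ^ x - 1) := by
    rw [hπ'val, map_mul, map_zpow₀, map_zpow₀, AlgEquiv.commutes, ht, mul_zpow, inv_zpow]
    have : (γ : E') ^ x ≠ 0 := zpow_ne_zero _ hγ0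
    field_simp
  have hnormπ' : snorm q E' (π' : E') ^ p = snorm q E ϖ := by
    have h1 := snorm_eq_zpow q E' π' hπ'unif ϖ'
    rw [hordϖ', zpow_natCast] at h1
    rw [← h1]
    change snorm q E' (algebraMap E E' ϖ) = _
    rw [snorm_algebraMap_tower]
  calc snorm q E' (σ c - c) ^ p ≤ snorm q E' (σ (π' : E') - (π' : E')) ^ p :=
        pow_le_pow_left₀ (snorm_nonneg q E' _) hA3 p
    _ = snorm q E ϖ * snorm q E' (t ^ x - 1) ^ p := by
        rw [hσπ', snorm_mul, mul_pow, hnormπ']
    _ ≤ snorm q E ϖ * snorm q E' (t - 1) ^ p := by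
        apply mul_le_mul_of_nonneg_left _ (snorm_nonneg q E ϖ)
        exact pow_le_pow_left₀ (snorm_nonneg q E' _) (snorm_zpow_sub_one_le q E' t htnorm x) p

end
end Fermat.Agent.TW.FLAT.TotRam0
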