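/-
Programme T (S56), chapter T/FLAT, local-local chain (lead): **(KB) Kummer break versus level**, in
norm form, in the abstract model of `PT/LOC/Interface12` (residue characteristic `q`, Kummer
exponent `q`).

`E` a `q`-adic field containing a primitive `q`-th root of unity `zeta`, `varpi` a uniformizer of
`E`, `E'/E` of degree `q`, `alpha` in `E'` with `alpha^q = u` in `E`, `sigma alpha = zeta alpha`.

* `exists_pow_approx`: every integral element is a `q`-th power modulo the maximal ideal.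
* `snorm_natCast_le`: `|q| <= |zeta - 1|^(q-1)`.
* `nf_step`, `normal_form`: normal form of `u` modulo `q`-th powers: either `q` does not divide
  `ord u`, or `|u w^q - 1| <= |zeta - 1|^q` for some `w`, or `|u w^q - 1| = |varpi|^m > |zeta-1|^q`
  with `q` not dividing `m`.
* `kummer_case_ord`: `q` not dividing `ord u`: `|sigma c - c|^q <= |varpi| |zeta - 1|^q`.
* `kummer_case_unit`: `|u - 1| = |varpi|^m > |zeta - 1|^q`, `q` not dividing `m`:
  `|sigma c - c|^q |u - 1| <= |varpi| |zeta - 1|^q` for all integral `c`.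
* `kummer_break` (KB): if some integral `c` has `B <= |sigma c - c|` with
  `|zeta - 1|^q |varpi| < B^q <= |varpi|`, then for some `w != 0`:
  `|u w^q - 1| B^q <= |zeta - 1|^q |varpi|`.
  (Additively: `v(sigma c - c) <= r` with `1 <= q r < q e1 + 1` gives level
  `v(u w^q - 1) >= q e1 + 1 - q r`, `e1 = v(zeta - 1)`.)
-/
import Mathlib
import Fermat.Agent.TW.FLAT.TotRam0
import Fermat.Agent.PT.LOC.Unram11

set_option autoImplicit false
set_option linter.unusedSectionVars false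

open scoped Fermat.Agent.PT.LOC.Interface12 Fermat.Agent.PT.LOC.StructureTower27
open Fermat.Agent.PT.LOC.Interface12 Fermat.Agent.PT.LOC.Structure14
  Fermat.Agent.PT.LOC.StructureNorm14 Fermat.Agent.PT.LOC.StructureTower27
  Fermat.Agent.PT.LOC.StructureTowerEF27 Fermat.Agent.PT.LOC.RootsUnity14
  Fermat.Agent.PT.LOC.Unram11 Fermat.Agent.TW.FLAT.TotRam0

namespace Fermat.Agent.TW.FLAT.KummerBreak0

noncomputable section

variable (q : ℕ) [Fact q.Prime]
  (E : Type) [Field E] [Algebra ℚ_[q] E] [FiniteDimensional ℚ_[q] E]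

/-! ### Ultrametric preliminaries -/

theorem snorm_add_eq_of_lt {x y : E} (h : snorm q E y < snorm q E x) :
    snorm q E (x + y) = snorm q E x := by
  apply le_antisymm
  · exact le_trans (snorm_add_le_max q E x y) (max_le le_rfl h.le)
  · have h1 : snorm q E x ≤ max (snorm q E (x + y)) (snorm q E y) := by
      have := snorm_sub_le_max q E (x + y) y
      simpa using this
    rcases le_max_iff.1 h1 with h2 | h2
    · exact h2
    · exact absurd h2 (not_le.2 h)

/-- Discreteness: `‖x‖ < ‖π‖ ^ m` implies `‖x‖ ≤ ‖π‖ ^ (m + 1)`. -/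
theorem snorm_le_pow_succ_of_lt (π : E) (hπ : IsUniformizer q E π) (x : E) (m : ℕ)
    (h : snorm q E x < snorm q E π ^ m) : snorm q E x ≤ snorm q E π ^ (m + 1) := by
  have hπ0 : 0 < snorm q E π := snorm_pos q E hπ.2.1
  have h1 : snorm q E (x * (π ^ m)⁻¹) < 1 := by
    rw [snorm_mul, snorm_inv, Fermat.Agent.PT.LOC.RootsUnity14.snorm_pow, ← div_eq_mul_inv,
      div_lt_one (pow_pos hπ0 m)]
    exact h
  have h2 := (snorm_lt_one_iff_le_uniformizer q E π hπ _).1 h1
  rw [snorm_mul, snorm_inv, Fermat.Agent.PT.LOC.RootsUnity14.snorm_pow, ← div_eq_mul_inv,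
    div_le_iff₀ (pow_pos hπ0 m)] at h2
  rw [pow_succ']
  exact h2

/-- The residue field has characteristic `q`. -/
instance charP_resF : CharP (resF q E) q := by
  have h0 : ((q : ℕ) : resF q E) = 0 := by
    have h1 : (q : intRing q E) ∈ mI q E := by
      have := natCast_mem_maxId q E
      rwa [maxId_eq_maximalIdeal] at this
    have : ((q : ℕ) : resF q E) = Ideal.Quotient.mk (mI q E) (q : intRing q E) := by
      simp
    rw [this]
    exact Ideal.Quotient.eq_zero_iff_mem.2 h1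
  have hdvd := ringChar.dvd h0
  have hne : ringChar (resF q E) ≠ 1 := CharP.ringChar_ne_one
  have hq : ringChar (resF q E) = q := by
    rcases (Nat.dvd_prime (Fact.out : q.Prime)).1 hdvd with h | h
    · exact absurd h hne
    · exact h
  exact ringChar.of_eq hq

/-- Every integral element is a `q`-th power modulo the maximal ideal. -/
theorem exists_pow_approx (a : E) (ha : a ∈ intRing q E) :
    ∃ b : E, b ∈ intRing q E ∧ snorm q E (a - b ^ q) < 1 := by
  have : ExpChar (resF q E) q := ExpChar.prime (Fact.out : q.Prime)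
  have : PerfectRing (resF q E) q := PerfectRing.ofFiniteOfIsReduced q (resF q E)
  obtain ⟨bb, hbb⟩ := surjective_frobenius (resF q E) q (Ideal.Quotient.mk (mI q E) ⟨a, ha⟩)
  obtain ⟨b, rfl⟩ := Ideal.Quotient.mk_surjective bb
  refine ⟨(b : E), b.2, ?_⟩
  rw [frobenius_def, ← map_pow, eq_comm, Ideal.Quotient.eq] at hbb
  have := (mem_mI_iff_snorm q E _).1 hbb
  simpa using this

/-! ### `‖q‖ ≤ ‖ζ - 1‖ ^ (q - 1)` -/

theorem snorm_prod_le {ι : Type*} (s : Finset ι) (f : ι → E) (B : ℝ) (hB : 0 ≤ B)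
    (h : ∀ i ∈ s, snorm q E (f i) ≤ B) : snorm q E (∏ i ∈ s, f i) ≤ B ^ s.card := by
  classical
  induction s using Finset.induction_on with
  | empty => simp [snorm_one]
  | insert a s ha ih =>
    rw [Finset.prod_insert ha, Finset.card_insert_of_notMem ha, snorm_mul, pow_succ']
    exact mul_le_mul (h a (Finset.mem_insert_self a s))
      (ih (fun i hi => h i (Finset.mem_insert_of_mem hi))) (snorm_nonneg q E _) hB

theorem snorm_natCast_le (ζ : E) (hζ : IsPrimitiveRoot ζ q) :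
    snorm q E (q : E) ≤ snorm q E (ζ - 1) ^ (q - 1) := by
  have hq : q = (q - 1) + 1 := (Nat.succ_pred_eq_of_pos (Fact.out : q.Prime).pos).symm
  have hζ' : IsPrimitiveRoot ζ ((q - 1) + 1) := by rwa [← hq]
  have hprod := hζ'.prod_one_sub_pow_eq_order
  have hζ1 : snorm q E ζ = 1 :=
    snorm_eq_one_of_pow_eq_one q E (Fact.out : q.Prime).ne_zero hζ.pow_eq_one
  have h1 : ((q : ℕ) : E) = ∏ k ∈ Finset.range (q - 1), (1 - ζ ^ (k + 1)) := by
    rw [hprod]
    have : ((q : ℕ) : E) = (((q - 1) + 1 : ℕ) : E) := by rw [← hq]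
    rw [this]; push_cast; ring
  rw [h1]
  have := snorm_prod_le q E (Finset.range (q - 1)) (fun k => 1 - ζ ^ (k + 1))
    (snorm q E (ζ - 1)) (snorm_nonneg q E _) (by
      intro k _
      have h2 := TotRam0.snorm_pow_sub_one_le q E ζ hζ1.le (k + 1)
      rw [← Fermat.Agent.PT.LOC.RootsUnity14.snorm_neg, neg_sub] at h2
      exact h2)
  simpa using this

/-! ### Normal form of `u` modulo `q`-th powers -/

/-- Improvement step: if `‖u - 1‖ ≤ ‖π‖ ^ m` with `q ∣ m`, `1 ≤ m` and `‖ζ - 1‖ ^ q < ‖π‖ ^ m`, then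
`u` can be multiplied by a `q`-th power so that `‖u w ^ q - 1‖ < ‖π‖ ^ m`. -/
theorem nf_step (π : E) (hπ : IsUniformizer q E π) (ζ : E) (hζ : IsPrimitiveRoot ζ q)
    (u : E) (m : ℕ) (hm1 : 1 ≤ m) (hqm : q ∣ m) (hu : snorm q E (u - 1) ≤ snorm q E π ^ m)
    (hlt : snorm q E (ζ - 1) ^ q < snorm q E π ^ m) :
    ∃ w : E, w ≠ 0 ∧ snorm q E (u * w ^ q - 1) < snorm q E π ^ m := by
  have hqp : q.Prime := Fact.out
  have hπ0 : 0 < snorm q E π := snorm_pos q E hπ.2.1
  have hπ1 : snorm q E π < 1 := snorm_uniformizer_lt_one q E π hπ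
  have hπne : π ≠ 0 := hπ.2.1
  set lam := snorm q E (ζ - 1) with hlam
  have hlam0 : 0 ≤ lam := snorm_nonneg q E _
  obtain ⟨m₁, rfl⟩ := hqm
  have hm₁ : 1 ≤ m₁ := by
    rcases Nat.eq_zero_or_pos m₁ with h | h
    · rw [h] at hm1; omega
    · exact h
  -- `a₀ = (u - 1) / π ^ m`
  set a₀ := (u - 1) * (π ^ (q * m₁))⁻¹ with ha₀
  have ha₀int : a₀ ∈ intRing q E := by
    rw [mem_intRing_iff]
    change snorm q E a₀ ≤ 1
    rw [ha₀, snorm_mul, snorm_inv, Fermat.Agent.PT.LOC.RootsUnity14.snorm_pow, ← div_eq_mul_inv,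
      div_le_one (pow_pos hπ0 _)]
    exact hu
  obtain ⟨b, hbint, hb⟩ := exists_pow_approx q E a₀ ha₀int
  have hbnorm : snorm q E b ≤ 1 := (mem_intRing_iff q E b).1 hbint
  set z := π ^ m₁ * b with hz
  have hznorm : snorm q E z ≤ snorm q E π ^ m₁ := by
    rw [hz, snorm_mul, Fermat.Agent.PT.LOC.RootsUnity14.snorm_pow]
    calc snorm q E π ^ m₁ * snorm q E b ≤ snorm q E π ^ m₁ * 1 :=
          mul_le_mul_of_nonneg_left hbnorm (pow_nonneg hπ0.le _)
      _ = _ := mul_one _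
  have hzlt : snorm q E z < 1 :=
    lt_of_le_of_lt hznorm (pow_lt_one₀ hπ0.le hπ1 (by omega))
  have hzint : z ∈ intRing q E := (mem_intRing_iff q E z).2 hzlt.le
  obtain ⟨r, hr⟩ := exists_add_pow_prime_eq hqp (1 : intRing q E) ⟨z, hzint⟩
  set y := 1 + z with hy
  have hr' : y ^ q = 1 + z ^ q + (q : E) * z * (r : E) := by
    have := congrArg (fun t : intRing q E => (t : E)) hr
    simp only [one_pow, mul_one] at this
    push_cast at this
    rw [hy, this]
  have hrnorm : snorm q E (r : E) ≤ 1 := (mem_intRing_iff q E _).1 r.2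
  have hynorm : snorm q E y = 1 := by
    rw [hy, snorm_add_eq_of_lt q E (by rw [snorm_one]; exact hzlt), snorm_one]
  have hy0 : y ≠ 0 := by
    intro h0; rw [h0, snorm_zero] at hynorm; exact zero_ne_one hynorm
  refine ⟨y⁻¹, inv_ne_zero hy0, ?_⟩
  have h1 : u * y⁻¹ ^ q - 1 = (u - y ^ q) * (y ^ q)⁻¹ := by
    have : y ^ q ≠ 0 := pow_ne_zero _ hy0
    rw [inv_pow, sub_mul, mul_inv_cancel₀ this]
  have h2 : u - y ^ q = π ^ (q * m₁) * (a₀ - b ^ q) - (q : E) * z * (r : E) := by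
    rw [hr', ha₀, hz]
    have : π ^ (q * m₁) ≠ 0 := pow_ne_zero _ hπne
    field_simp
    ring
  rw [h1, snorm_mul, snorm_inv, Fermat.Agent.PT.LOC.RootsUnity14.snorm_pow, hynorm, one_pow,
    inv_one, mul_one, h2]
  refine lt_of_le_of_lt (snorm_sub_le_max q E _ _) (max_lt ?_ ?_)
  · rw [snorm_mul, Fermat.Agent.PT.LOC.RootsUnity14.snorm_pow]
    calc snorm q E π ^ (q * m₁) * snorm q E (a₀ - b ^ q) < snorm q E π ^ (q * m₁) * 1 :=
          mul_lt_mul_of_pos_left hb (pow_pos hπ0 _)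
      _ = _ := mul_one _
  · have hq1 : q = (q - 1) + 1 := (Nat.succ_pred_eq_of_pos hqp.pos).symm
    have hq2 : 2 ≤ q := hqp.two_le
    have hlamlt : lam < snorm q E π ^ m₁ := by
      rw [pow_mul'] at hlt
      exact lt_of_pow_lt_pow_left₀ q (pow_nonneg hπ0.le _) hlt
    have h3 : snorm q E ((q : E) * z * (r : E)) ≤ lam ^ (q - 1) * snorm q E π ^ m₁ := by
      rw [snorm_mul, snorm_mul]
      calc snorm q E (q : E) * snorm q E z * snorm q E (r : E)
          ≤ lam ^ (q - 1) * snorm q E π ^ m₁ * 1 :=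
            mul_le_mul (mul_le_mul (snorm_natCast_le q E ζ hζ) hznorm (snorm_nonneg q E _)
              (pow_nonneg hlam0 _)) hrnorm (snorm_nonneg q E _)
              (mul_nonneg (pow_nonneg hlam0 _) (pow_nonneg hπ0.le _))
        _ = _ := mul_one _
    refine lt_of_le_of_lt h3 ?_
    have h4 : lam ^ (q - 1) < (snorm q E π ^ m₁) ^ (q - 1) :=
      pow_lt_pow_left₀ hlamlt hlam0 (by omega)
    calc lam ^ (q - 1) * snorm q E π ^ m₁
        < (snorm q E π ^ m₁) ^ (q - 1) * snorm q E π ^ m₁ :=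
          mul_lt_mul_of_pos_right h4 (pow_pos hπ0 _)
      _ = snorm q E π ^ (q * m₁) := by
          rw [← pow_succ, ← hq1, ← pow_mul, mul_comm]

/-- The conclusion of the normal form lemma in the unit case. -/
def NFConcl (π ζ u : E) : Prop :=
  (∃ w : E, w ≠ 0 ∧ snorm q E (u * w ^ q - 1) ≤ snorm q E (ζ - 1) ^ q) ∨
  (∃ w : E, w ≠ 0 ∧ ∃ m : ℕ, ¬ q ∣ m ∧ snorm q E (u * w ^ q - 1) = snorm q E π ^ m ∧
    snorm q E (ζ - 1) ^ q < snorm q E π ^ m)

theorem nf_aux (π : E) (hπ : IsUniformizer q E π) (ζ : E) (hζ : IsPrimitiveRoot ζ q) (u : E) :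
    ∀ k m : ℕ, 1 ≤ m → snorm q E π ^ (m + k) ≤ snorm q E (ζ - 1) ^ q →
      (∃ w : E, w ≠ 0 ∧ snorm q E (u * w ^ q - 1) ≤ snorm q E π ^ m) → NFConcl q E π ζ u := by
  intro k
  induction k with
  | zero =>
    intro m _ hle ⟨w, hw0, hw⟩
    exact Or.inl ⟨w, hw0, le_trans hw (by simpa using hle)⟩
  | succ k ih =>
    intro m hm1 hle ⟨w, hw0, hw⟩
    by_cases hle' : snorm q E π ^ m ≤ snorm q E (ζ - 1) ^ q
    · exact Or.inl ⟨w, hw0, le_trans hw hle'⟩
    rw [not_le] at hle'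
    have hle2 : snorm q E π ^ (m + 1 + k) ≤ snorm q E (ζ - 1) ^ q := by
      have : m + 1 + k = m + (k + 1) := by ring
      rw [this]; exact hle
    by_cases h2 : snorm q E (u * w ^ q - 1) ≤ snorm q E π ^ (m + 1)
    · exact ih (m + 1) (by omega) hle2 ⟨w, hw0, h2⟩
    have heq : snorm q E (u * w ^ q - 1) = snorm q E π ^ m := by
      rcases hw.lt_or_eq with h3 | h3
      · exact absurd (snorm_le_pow_succ_of_lt q E π hπ _ m h3) h2
      · exact h3
    by_cases hqm : q ∣ m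
    · obtain ⟨w', hw'0, hw'⟩ := nf_step q E π hπ ζ hζ (u * w ^ q) m hm1 hqm hw hle'
      have h3 := snorm_le_pow_succ_of_lt q E π hπ _ m hw'
      refine ih (m + 1) (by omega) hle2 ⟨w * w', mul_ne_zero hw0 hw'0, ?_⟩
      rw [mul_pow, ← mul_assoc]
      exact h3
    · exact Or.inr ⟨w, hw0, m, hqm, heq, hle'⟩

/-- **Normal form modulo `q`-th powers**: for `u ≠ 0` either `q ∤ ord u`, or `u w ^ q` is
`‖ζ - 1‖ ^ q`-close to `1` for some `w`, or `‖u w ^ q - 1‖ = ‖π‖ ^ m > ‖ζ - 1‖ ^ q` with `q ∤ m`. -/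
theorem normal_form (π : E) (hπ : IsUniformizer q E π) (ζ : E) (hζ : IsPrimitiveRoot ζ q)
    (u : E) (hu : u ≠ 0) :
    (∃ n : ℤ, ¬ (q : ℤ) ∣ n ∧ snorm q E u = snorm q E π ^ n) ∨ NFConcl q E π ζ u := by
  have hqp : q.Prime := Fact.out
  have hπ0 : 0 < snorm q E π := snorm_pos q E hπ.2.1
  have hπ1 : snorm q E π < 1 := snorm_uniformizer_lt_one q E π hπ
  set πu : Eˣ := Units.mk0 π hπ.2.1 with hπu
  have hπu' : IsUniformizer q E (πu : E) := hπ
  set uu : Eˣ := Units.mk0 u hu with huu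
  have hnorm : snorm q E u = snorm q E π ^ ord q E uu := snorm_eq_zpow q E πu hπu' uu
  by_cases hdvd : (q : ℤ) ∣ ord q E uu
  · right
    obtain ⟨n₁, hn₁⟩ := hdvd
    -- `u₀ = u * (π ^ (-n₁)) ^ q` is a unit
    set w₀ : E := π ^ (-n₁) with hw₀
    have hw₀0 : w₀ ≠ 0 := zpow_ne_zero _ hπ.2.1
    have hu₀norm : snorm q E (u * w₀ ^ q) = 1 := by
      have h1 : snorm q E w₀ = snorm q E π ^ (-n₁) := by
        have := snorm_zpow q E πu (-n₁)
        rw [Units.val_zpow_eq_zpow_val] at this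
        exact this
      rw [snorm_mul, Fermat.Agent.PT.LOC.RootsUnity14.snorm_pow, h1, hnorm, hn₁, ← zpow_natCast,
        ← zpow_mul, ← zpow_add₀ hπ0.ne']
      have : (q : ℤ) * n₁ + -n₁ * (q : ℤ) = 0 := by ring
      rw [this, zpow_zero]
    have hu₀int : u * w₀ ^ q ∈ intRing q E := (mem_intRing_iff q E _).2 hu₀norm.le
    obtain ⟨b, hbint, hb⟩ := exists_pow_approx q E _ hu₀int
    have hbnorm : snorm q E b = 1 := by
      rcases ((mem_intRing_iff q E b).1 hbint).lt_or_eq with h | h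
      · exfalso
        have h1 : snorm q E (b ^ q) < 1 := by
          rw [Fermat.Agent.PT.LOC.RootsUnity14.snorm_pow]
          exact pow_lt_one₀ (snorm_nonneg q E b) h hqp.ne_zero
        have h2 : snorm q E (u * w₀ ^ q) < 1 := by
          have : u * w₀ ^ q = (u * w₀ ^ q - b ^ q) + b ^ q := by ring
          rw [this]
          exact lt_of_le_of_lt (snorm_add_le_max q E _ _) (max_lt hb h1)
        rw [hu₀norm] at h2
        exact lt_irrefl _ h2
      · exact h
    have hb0 : b ≠ 0 := by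
      intro h0; rw [h0, snorm_zero] at hbnorm; exact zero_ne_one hbnorm
    obtain ⟨N, hN⟩ := exists_pow_lt_of_lt_one
      (pow_pos (snorm_pos q E (sub_ne_zero.2 (hζ.ne_one hqp.one_lt))) q) hπ1
    refine nf_aux q E π hπ ζ hζ u N 1 le_rfl ?_ ⟨w₀ * b⁻¹, mul_ne_zero hw₀0 (inv_ne_zero hb0), ?_⟩
    · refine le_trans ?_ hN.le
      exact pow_le_pow_of_le_one hπ0.le hπ1.le (by omega)
    · have h1 : u * (w₀ * b⁻¹) ^ q - 1 = (u * w₀ ^ q - b ^ q) * (b ^ q)⁻¹ := by
        have : b ^ q ≠ 0 := pow_ne_zero _ hb0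
        rw [mul_pow, inv_pow, sub_mul, mul_inv_cancel₀ this, mul_assoc]
      rw [h1, snorm_mul, snorm_inv, Fermat.Agent.PT.LOC.RootsUnity14.snorm_pow, hbnorm, one_pow,
        inv_one, mul_one, pow_one]
      exact (snorm_lt_one_iff_le_uniformizer q E π hπ _).1 hb
  · left
    exact ⟨ord q E uu, hdvd, hnorm⟩

/-! ### Kummer extensions of degree `q`: the two ramified cases -/

variable (E' : Type) [Field E'] [Algebra ℚ_[q] E'] [FiniteDimensional ℚ_[q] E'] [Algebra E E']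
  [IsScalarTower ℚ_[q] E E']

/-- Case (i): `q ∤ ord u`.  Then `‖σ c - c‖ ^ q ≤ ‖ϖ‖ · ‖ζ - 1‖ ^ q` for all integral `c`. -/
theorem kummer_case_ord (hdeg : Module.finrank E E' = q) (ϖ : E) (hϖ : IsUniformizer q E ϖ)
    (ζ : E) (α : E') (u : E) (hα : α ^ q = algebraMap E E' u)
    (σ : E' ≃ₐ[E] E') (hσ : σ α = algebraMap E E' ζ * α)
    (n : ℤ) (hn : ¬ (q : ℤ) ∣ n) (hu : snorm q E u = snorm q E ϖ ^ n)
    (c : E') (hc : c ∈ intRing q E') :
    snorm q E' (σ c - c) ^ q ≤ snorm q E ϖ * snorm q E (ζ - 1) ^ q := by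
  have hϖ0 : 0 < snorm q E ϖ := snorm_pos q E hϖ.2.1
  have hα0 : α ≠ 0 := by
    intro h0
    rw [h0, zero_pow (Fact.out : q.Prime).ne_zero] at hα
    have : u = 0 := (algebraMap E E').injective (by rw [← hα, map_zero])
    rw [this, snorm_zero] at hu
    exact (zpow_pos hϖ0 n).ne hu
  have hγ : snorm q E' ((Units.mk0 α hα0 : E'ˣ) : E') ^ q = snorm q E ϖ ^ n := by
    rw [Units.val_mk0, ← Fermat.Agent.PT.LOC.RootsUnity14.snorm_pow, hα, snorm_algebraMap_tower, hu]
  have := snorm_galois_sub_pow_le q E E' q (Fact.out : q.Prime) hdeg ϖ hϖ (Units.mk0 α hα0) n hn hγ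
    σ c hc
  rw [Units.val_mk0, hσ, mul_assoc, mul_inv_cancel₀ hα0, mul_one, ← map_one (algebraMap E E'),
    ← map_sub, snorm_algebraMap_tower] at this
  exact this

/-- Case (ii): `‖u - 1‖ = ‖ϖ‖ ^ m` with `q ∤ m` and `‖ζ - 1‖ ^ q < ‖ϖ‖ ^ m`.  Then
`‖σ c - c‖ ^ q · ‖u - 1‖ ≤ ‖ϖ‖ · ‖ζ - 1‖ ^ q` for all integral `c`. -/
theorem kummer_case_unit (hdeg : Module.finrank E E' = q) (ϖ : E) (hϖ : IsUniformizer q E ϖ)
    (ζ : E) (hζ : IsPrimitiveRoot ζ q) (α : E') (u : E) (hα : α ^ q = algebraMap E E' u)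
    (σ : E' ≃ₐ[E] E') (hσ : σ α = algebraMap E E' ζ * α)
    (m : ℕ) (hm : ¬ q ∣ m) (hu : snorm q E (u - 1) = snorm q E ϖ ^ m)
    (hlt : snorm q E (ζ - 1) ^ q < snorm q E ϖ ^ m)
    (c : E') (hc : c ∈ intRing q E') :
    snorm q E' (σ c - c) ^ q * snorm q E (u - 1) ≤ snorm q E ϖ * snorm q E (ζ - 1) ^ q := by
  have hqp : q.Prime := Fact.out
  have hϖ0 : 0 < snorm q E ϖ := snorm_pos q E hϖ.2.1
  have hϖ1 : snorm q E ϖ < 1 := snorm_uniformizer_lt_one q E ϖ hϖ
  have hm0 : m ≠ 0 := fun h => hm (h ▸ dvd_zero q)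
  set lam := snorm q E (ζ - 1) with hlam
  have hlam0 : 0 ≤ lam := snorm_nonneg q E _
  -- `‖u - 1‖ < 1`, `‖u‖ = 1`, `‖α‖ = 1`
  have hu1 : snorm q E (u - 1) < 1 := by
    rw [hu]; exact pow_lt_one₀ hϖ0.le hϖ1 hm0
  have hunorm : snorm q E u = 1 := by
    have : u = 1 + (u - 1) := by ring
    rw [this, snorm_add_eq_of_lt q E (by rw [snorm_one]; exact hu1), snorm_one]
  have hαnorm : snorm q E' α = 1 := by
    have h1 : snorm q E' α ^ q = 1 := by
      rw [← Fermat.Agent.PT.LOC.RootsUnity14.snorm_pow, hα, snorm_algebraMap_tower, hunorm]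
    exact (pow_eq_one_iff_of_nonneg (snorm_nonneg q E' α) hqp.ne_zero).1 h1
  set β := α - 1 with hβ
  have hβint : β ∈ intRing q E' := by
    rw [mem_intRing_iff]
    refine le_trans (snorm_sub_le_max q E' _ _) (max_le hαnorm.le ?_)
    rw [snorm_one]
  -- the binomial expansion in the ring of integers
  obtain ⟨r, hr⟩ := exists_add_pow_prime_eq hqp (1 : intRing q E') ⟨β, hβint⟩
  have hr' : α ^ q = 1 + β ^ q + (q : E') * β * (r : E') := by
    have := congrArg (fun z : intRing q E' => (z : E')) hr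
    simp only [one_pow, mul_one] at this
    have h2 : (1 : E') + β = α := by rw [hβ]; ring
    push_cast at this
    rw [h2] at this
    rw [this]
  have hrnorm : snorm q E' (r : E') ≤ 1 := (mem_intRing_iff q E' _).1 r.2
  have hqnorm : snorm q E' (q : E') ≤ lam ^ (q - 1) := by
    have h1 := snorm_natCast_le q E ζ hζ
    have h2 : snorm q E' (q : E') = snorm q E (q : E) := by
      rw [← snorm_algebraMap_tower q E E' (q : E), map_natCast]
    rw [h2]; exact h1
  -- `a := u - 1 = β ^ q + q β r`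
  have ha : algebraMap E E' (u - 1) = β ^ q + (q : E') * β * (r : E') := by
    rw [map_sub, map_one, ← hα, hr']; ring
  have hanorm : snorm q E' (β ^ q + (q : E') * β * (r : E')) = snorm q E ϖ ^ m := by
    rw [← ha, snorm_algebraMap_tower, hu]
  have hsmall : snorm q E' ((q : E') * β * (r : E')) ≤ lam ^ (q - 1) * snorm q E' β := by
    rw [snorm_mul, snorm_mul]
    calc snorm q E' (q : E') * snorm q E' β * snorm q E' (r : E')
        ≤ lam ^ (q - 1) * snorm q E' β * 1 :=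
          mul_le_mul (mul_le_mul_of_nonneg_right hqnorm (snorm_nonneg q E' β)) hrnorm
            (snorm_nonneg q E' _) (mul_nonneg (pow_nonneg hlam0 _) (snorm_nonneg q E' β))
      _ = _ := mul_one _
  have hq1 : q = (q - 1) + 1 := (Nat.succ_pred_eq_of_pos hqp.pos).symm
  -- `lam < ‖β‖`
  have hβgt : lam < snorm q E' β := by
    by_contra hle
    rw [not_lt] at hle
    have h1 : snorm q E' (β ^ q + (q : E') * β * (r : E')) ≤ lam ^ q := by
      refine le_trans (snorm_add_le_max q E' _ _) (max_le ?_ ?_)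
      · rw [Fermat.Agent.PT.LOC.RootsUnity14.snorm_pow]
        exact pow_le_pow_left₀ (snorm_nonneg q E' β) hle q
      · refine le_trans hsmall ?_
        calc lam ^ (q - 1) * snorm q E' β ≤ lam ^ (q - 1) * lam :=
              mul_le_mul_of_nonneg_left hle (pow_nonneg hlam0 _)
          _ = lam ^ q := by rw [← pow_succ, ← hq1]
    rw [hanorm] at h1
    exact absurd h1 (not_le.2 hlt)
  have hβ0 : β ≠ 0 := by
    intro h0
    rw [h0, snorm_zero] at hβgt
    exact absurd hβgt (not_lt.2 hlam0)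
  have hβpos : 0 < snorm q E' β := snorm_pos q E' hβ0
  -- `‖β‖ ^ q = ‖u - 1‖`
  have hβq : snorm q E' β ^ q = snorm q E ϖ ^ m := by
    rw [← hanorm, snorm_add_eq_of_lt q E', Fermat.Agent.PT.LOC.RootsUnity14.snorm_pow]
    rw [Fermat.Agent.PT.LOC.RootsUnity14.snorm_pow]
    refine lt_of_le_of_lt hsmall ?_
    have hq2 : 2 ≤ q := hqp.two_le
    have : lam ^ (q - 1) < snorm q E' β ^ (q - 1) :=
      pow_lt_pow_left₀ hβgt hlam0 (by omega)
    calc lam ^ (q - 1) * snorm q E' β < snorm q E' β ^ (q - 1) * snorm q E' β :=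
          mul_lt_mul_of_pos_right this hβpos
      _ = snorm q E' β ^ q := by rw [← pow_succ, ← hq1]
  -- apply (TR) with `γ = β`
  have hmz : ¬ (q : ℤ) ∣ (m : ℤ) := by
    intro h; exact hm (Int.natCast_dvd_natCast.1 h)
  have hγ : snorm q E' ((Units.mk0 β hβ0 : E'ˣ) : E') ^ q = snorm q E ϖ ^ (m : ℤ) := by
    rw [Units.val_mk0, hβq, zpow_natCast]
  have hTR := snorm_galois_sub_pow_le q E E' q hqp hdeg ϖ hϖ (Units.mk0 β hβ0) (m : ℤ) hmz hγ
    σ c hc
  rw [Units.val_mk0] at hTR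
  have hσβ : σ β * β⁻¹ - 1 = algebraMap E E' (ζ - 1) * α * β⁻¹ := by
    rw [hβ, map_sub, map_one, hσ, map_sub, map_one]
    have : α - 1 ≠ 0 := hβ0
    field_simp
    ring
  rw [hσβ, snorm_mul, snorm_mul, snorm_algebraMap_tower, hαnorm, mul_one, snorm_inv, mul_pow,
    inv_pow, hβq] at hTR
  rw [hu]
  have hpos : 0 < snorm q E ϖ ^ m := pow_pos hϖ0 m
  calc snorm q E' (σ c - c) ^ q * snorm q E ϖ ^ m
      ≤ snorm q E ϖ * (lam ^ q * (snorm q E ϖ ^ m)⁻¹) * snorm q E ϖ ^ m :=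
        mul_le_mul_of_nonneg_right hTR hpos.le
    _ = snorm q E ϖ * lam ^ q := by field_simp

/-- **(KB) Kummer break versus level.**  `E'/E` of degree `q` (the residue characteristic),
`E' = E(α)`, `α ^ q = u`, `σ α = ζ α`.  If some integral `c ∈ E'` has `B ≤ ‖σ c - c‖` with
`‖ζ - 1‖ ^ q · ‖ϖ‖ < B ^ q ≤ ‖ϖ‖`, then `u` is, modulo `q`-th powers, congruent to `1` to high
order: `‖u w ^ q - 1‖ · B ^ q ≤ ‖ζ - 1‖ ^ q · ‖ϖ‖` for some `w ≠ 0`. -/
theorem kummer_break (hdeg : Module.finrank E E' = q) (ϖ : E) (hϖ : IsUniformizer q E ϖ)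
    (ζ : E) (hζ : IsPrimitiveRoot ζ q) (α : E') (u : E) (hu : u ≠ 0)
    (hα : α ^ q = algebraMap E E' u)
    (σ : E' ≃ₐ[E] E') (hσ : σ α = algebraMap E E' ζ * α)
    (B : ℝ) (hB0 : 0 ≤ B) (hB1 : B ^ q ≤ snorm q E ϖ)
    (hB2 : snorm q E (ζ - 1) ^ q * snorm q E ϖ < B ^ q)
    (c : E') (hc : c ∈ intRing q E') (hcB : B ≤ snorm q E' (σ c - c)) :
    ∃ w : E, w ≠ 0 ∧
      snorm q E (u * w ^ q - 1) * B ^ q ≤ snorm q E (ζ - 1) ^ q * snorm q E ϖ := by
  have hBq : B ^ q ≤ snorm q E' (σ c - c) ^ q := pow_le_pow_left₀ hB0 hcB q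
  have hlam0 : 0 ≤ snorm q E (ζ - 1) ^ q := pow_nonneg (snorm_nonneg q E _) q
  rcases normal_form q E ϖ hϖ ζ hζ u hu with ⟨n, hn, hnorm⟩ | ⟨w, hw0, hw⟩ | ⟨w, hw0, m, hm, hw, hlt⟩
  · exfalso
    have h1 := kummer_case_ord q E E' hdeg ϖ hϖ ζ α u hα σ hσ n hn hnorm c hc
    have h2 := le_trans hBq h1
    rw [mul_comm] at h2
    exact absurd h2 (not_le.2 hB2)
  · refine ⟨w, hw0, ?_⟩
    exact mul_le_mul hw hB1 (pow_nonneg hB0 q) hlam0
  · refine ⟨w, hw0, ?_⟩
    have hα' : (α * algebraMap E E' w) ^ q = algebraMap E E' (u * w ^ q) := by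
      rw [mul_pow, hα, map_mul, map_pow]
    have hσ' : σ (α * algebraMap E E' w) = algebraMap E E' ζ * (α * algebraMap E E' w) := by
      rw [map_mul, hσ, AlgEquiv.commutes, mul_assoc]
    have h1 := kummer_case_unit q E E' hdeg ϖ hϖ ζ hζ (α * algebraMap E E' w) (u * w ^ q) hα'
      σ hσ' m hm hw hlt c hc
    calc snorm q E (u * w ^ q - 1) * B ^ q
        ≤ snorm q E (u * w ^ q - 1) * snorm q E' (σ c - c) ^ q :=
          mul_le_mul_of_nonneg_left hBq (snorm_nonneg q E _)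
      _ = snorm q E' (σ c - c) ^ q * snorm q E (u * w ^ q - 1) := mul_comm _ _
      _ ≤ snorm q E ϖ * snorm q E (ζ - 1) ^ q := h1
      _ = _ := mul_comm _ _

end
end Fermat.Agent.TW.FLAT.KummerBreak0

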