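/-
Programme T (S56), chapter T/FLAT, local-local chain (lead): **(BR) the bridge** from the
ramification estimate on points (helper6's (LL-RAM) shape, norm language on `PadicAlgCl q`) to the
Kummer level of characters (helper3's `KumLe` shape), through `KummerBreak0.kummer_break`.

Part 1 (any ultrametric normed field): `ball`, `norm_coeff_prod_le`, `exists_coeff_norm_ge`
(the easy half of Serre IV Prop. 3 for the polynomial `prod_{s in S} (X - s)`, `S` an orbit),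
`map_coeff_prod_eq`.
Part 2 (`V` an open subgroup of `Gq q`, `F = fixF q V` its fixed field): `snorm_eq_norm_of_algHom`,
`isClosed_of_level`, `finiteDimensional_fixF`, `mem_of_forall_fixF`, `exists_restrict`,
`finrank_adjoin_eq` (Kummer degree), `isUniformizer_of_norm`.
Main theorems:
* `kumLe_of_ram`: `zeta, pi` fixed by `V`, `pi` a uniformizer of `F` in norm form, `y != 0` with
  `sigma y = zeta^j y` on `V`, `z` integral with `(sigma z = z -> sigma y = y)`, every `sigma` in `V`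
  moving `z` moves it by at least `B0`, the orbit of `z` under the stabiliser of `y` in `V` has at
  most `r` elements, `|zeta - 1|^q |pi| < (B0^r)^q <= |pi|`.  Then there is `w != 0` fixed by `V`
  with `|y^q w^q - 1| (B0^r)^q <= |zeta - 1|^q |pi|`.
* `kumLe_of_ram_ll`: the local-local numerology `|pi|^(q^2-1) = |q|`, `|sigma z - z|^(q^2-1) = |q|`,
  `1 <= r <= q + 1`: `|y^q w^q - 1| <= |pi|^(q(q+1)+1-qr)`  (`r = q`: exponent `q + 1`; `r = 1`:
  exponent `q^2 + 1`).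
-/
import Mathlib
import Fermat.Agent.TW.FLAT.KummerBreak0
import Fermat.Agent.TW.FLAT.KummerTop0
import Fermat.Agent.TW.LOC.TameProfinite4

set_option autoImplicit false
set_option linter.unusedSectionVars false

open Polynomial

namespace Fermat.Agent.TW.FLAT.RamBridge0

noncomputable section

/-! ### Part 1: the coefficient lemma in an ultrametric normed field -/

section Coeff

variable {K : Type*} [NormedField K] [IsUltrametricDist K]

/-- The closed unit ball of an ultrametric normed field, as a subring. -/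
def ball (K : Type*) [NormedField K] [IsUltrametricDist K] : Subring K where
  carrier := {x | ‖x‖ ≤ 1}
  mul_mem' {a b} ha hb := by
    change ‖a * b‖ ≤ 1
    rw [norm_mul]; exact mul_le_one₀ ha (norm_nonneg _) hb
  one_mem' := by change ‖(1 : K)‖ ≤ 1; rw [norm_one]
  add_mem' {a b} ha hb := le_trans (IsUltrametricDist.norm_add_le_max a b) (max_le ha hb)
  zero_mem' := by change ‖(0 : K)‖ ≤ 1; rw [norm_zero]; exact zero_le_one
  neg_mem' {a} ha := by change ‖-a‖ ≤ 1; rw [norm_neg]; exact ha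

theorem mem_ball {x : K} : x ∈ ball K ↔ ‖x‖ ≤ 1 := Iff.rfl

/-- The coefficients of `∏ (X - s)`, `‖s‖ ≤ 1`, have norm `≤ 1`. -/
theorem norm_coeff_prod_le (S : Finset K) (hS : ∀ s ∈ S, ‖s‖ ≤ 1) (k : ℕ) :
    ‖(∏ s ∈ S, (X - C s)).coeff k‖ ≤ 1 := by
  classical
  have hlift : ∏ s ∈ S, (X - C s) =
      (∏ s ∈ S.attach, (X - C (⟨s.1, hS s.1 s.2⟩ : ball K))).map (ball K).subtype := by
    rw [Polynomial.map_prod, ← Finset.prod_attach]
    apply Finset.prod_congr rfl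
    intro s _
    simp
  rw [hlift, Polynomial.coeff_map]
  exact ((∏ s ∈ S.attach, (X - C (⟨s.1, hS s.1 s.2⟩ : ball K))).coeff k).2

/-- **Coefficient lemma.**  `S` a finite set of integral elements containing `z`, `τ` ranging over a
set `H` of ring endomorphisms permuting `S`; `σ` another endomorphism with `B₀ ≤ ‖z - σ s‖` for all
`s ∈ S`.  Then some `c` with `‖c‖ ≤ 1`, fixed by all `τ ∈ H`, has `B₀ ^ #S ≤ ‖σ c - c‖`. -/
theorem exists_coeff_norm_ge (S : Finset K) (z : K) (hzS : z ∈ S) (hS : ∀ s ∈ S, ‖s‖ ≤ 1)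
    (σ : K →+* K) (B₀ : ℝ) (hB₀ : 0 ≤ B₀) (hσ : ∀ s ∈ S, B₀ ≤ ‖z - σ s‖) :
    ∃ k : ℕ, B₀ ^ S.card ≤ ‖σ ((∏ s ∈ S, (X - C s)).coeff k) - (∏ s ∈ S, (X - C s)).coeff k‖ := by
  classical
  set g := ∏ s ∈ S, (X - C s) with hg
  have hz1 : ‖z‖ ≤ 1 := hS z hzS
  have heval0 : g.eval z = 0 := by
    rw [hg, Polynomial.eval_prod]
    exact Finset.prod_eq_zero hzS (by simp)
  have hevalσ : (g.map σ).eval z = ∏ s ∈ S, (z - σ s) := by
    rw [hg, Polynomial.map_prod, Polynomial.eval_prod]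
    simp
  set N := g.natDegree + 1 with hN
  have hdeg1 : g.natDegree < N := Nat.lt_succ_self _
  have hdeg2 : (g.map σ).natDegree < N := lt_of_le_of_lt (Polynomial.natDegree_map_le) hdeg1
  have h1 : (g.map σ).eval z = ∑ k ∈ Finset.range N, (σ (g.coeff k) - g.coeff k) * z ^ k := by
    have e1 := Polynomial.eval_eq_sum_range' hdeg2 z
    have e2 := Polynomial.eval_eq_sum_range' hdeg1 z
    rw [heval0] at e2
    rw [e1]
    have : ∑ k ∈ Finset.range N, (σ (g.coeff k) - g.coeff k) * z ^ k =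
        ∑ k ∈ Finset.range N, (g.map σ).coeff k * z ^ k -
          ∑ k ∈ Finset.range N, g.coeff k * z ^ k := by
      rw [← Finset.sum_sub_distrib]
      apply Finset.sum_congr rfl
      intro k _
      rw [Polynomial.coeff_map]
      ring
    rw [this, ← e2, sub_zero]
  have h2 : B₀ ^ S.card ≤ ‖(g.map σ).eval z‖ := by
    rw [hevalσ, norm_prod, ← Finset.prod_const]
    exact Finset.prod_le_prod (fun _ _ => hB₀) hσ
  -- ultrametric inequality for the sum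
  obtain ⟨k, -, hk⟩ := IsNonarchimedean.finset_image_add (f := fun x : K => ‖x‖) norm_zero
    (fun x => norm_nonneg x) (IsUltrametricDist.isNonarchimedean_norm (R := K))
    (fun k => (σ (g.coeff k) - g.coeff k) * z ^ k) (Finset.range N)
  refine ⟨k, le_trans h2 ?_⟩
  rw [h1]
  refine le_trans hk ?_
  simp only [norm_mul, norm_pow]
  calc ‖σ (g.coeff k) - g.coeff k‖ * ‖z‖ ^ k ≤ ‖σ (g.coeff k) - g.coeff k‖ * 1 :=
        mul_le_mul_of_nonneg_left (pow_le_one₀ (norm_nonneg z) hz1) (norm_nonneg _)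
    _ = _ := mul_one _

/-- If `τ` permutes `S`, the coefficients of `∏ (X - s)` are fixed by `τ`. -/
theorem map_coeff_prod_eq (S : Finset K) (τ : K →+* K) (hτ : ∀ s ∈ S, τ s ∈ S) (k : ℕ) :
    τ ((∏ s ∈ S, (X - C s)).coeff k) = (∏ s ∈ S, (X - C s)).coeff k := by
  classical
  have hinj : Function.Injective τ := τ.injective
  have himg : S.image τ = S := by
    apply Finset.eq_of_subset_of_card_le
    · intro x hx
      obtain ⟨s, hs, rfl⟩ := Finset.mem_image.1 hx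
      exact hτ s hs
    · rw [Finset.card_image_of_injective S hinj]
  have : (∏ s ∈ S, (X - C s)).map τ = ∏ s ∈ S, (X - C s) := by
    rw [Polynomial.map_prod]
    conv_rhs => rw [← himg]
    rw [Finset.prod_image (fun a _ b _ h => hinj h)]
    apply Finset.prod_congr rfl
    intro s _
    simp
  have h2 := congrArg (fun f => Polynomial.coeff f k) this
  simpa [Polynomial.coeff_map] using h2

end Coeff

/-! ### Part 2: fixed fields of open subgroups of `Gq q` -/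

section Fields

open scoped Fermat.Agent.PT.LOC.Interface12 Fermat.Agent.PT.LOC.StructureTower27
open Fermat.Agent.PT.LOC.Interface12 Fermat.Agent.PT.LOC.Structure14
  Fermat.Agent.PT.PRO.LevelCoh28 Fermat.Agent.PT.GLUE.Objects21
  Fermat.Agent.TW.LOC.Defs2 Fermat.Agent.TW.LOC.TameProfinite4

variable (q : ℕ) [Fact q.Prime]

local notation "Ω" => PadicAlgCl q

/-- The spectral norm of an abstract `q`-adic field mapping to `Ω` is the norm of `Ω`. -/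
theorem snorm_eq_norm_of_algHom (E : Type) [Field E] [Algebra ℚ_[q] E] (ι : E →ₐ[ℚ_[q]] Ω) (x : E) :
    snorm q E x = ‖ι x‖ := by
  change spectralNorm ℚ_[q] E x = spectralNorm ℚ_[q] (PadicAlgCl q) (ι x)
  rw [spectralNorm, spectralNorm]
  congr 1
  exact (minpoly.algHom_eq ι ι.injective x).symm

variable (V : Subgroup (Gq q))

/-- The fixed field of `V`. -/
abbrev fixF : IntermediateField ℚ_[q] Ω := IntermediateField.fixedField V

theorem mem_fixF_iff (x : Ω) : x ∈ fixF q V ↔ ∀ σ ∈ V, σ x = x := by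
  rw [IntermediateField.mem_fixedField_iff]

variable (hV : ∃ U ∈ (levelLoc q).sets, U ≤ V)
include hV

theorem isClosed_of_level : IsClosed (V : Set (Gq q)) := by
  obtain ⟨U, hU, hUV⟩ := hV
  obtain ⟨L, hfin, -, hL⟩ := exists_galois_level q hU
  exact Subgroup.isClosed_of_isOpen V (Subgroup.isOpen_mono (hL.trans hUV) L.fixingSubgroup_isOpen)

theorem finiteDimensional_fixF : FiniteDimensional ℚ_[q] (fixF q V) := by
  obtain ⟨U, hU, hUV⟩ := hV
  obtain ⟨L, hfin, -, hL⟩ := exists_galois_level q hU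
  have hle : fixF q V ≤ L := by
    intro x hx
    rw [← InfiniteGalois.fixedField_fixingSubgroup L, IntermediateField.mem_fixedField_iff]
    intro σ hσ
    exact (mem_fixF_iff q V x).1 hx σ (hUV (hL hσ))
  exact Module.Finite.of_injective (IntermediateField.inclusion hle).toLinearMap
    (IntermediateField.inclusion hle).injective

/-- An automorphism fixing the fixed field of `V` pointwise lies in `V`. -/
theorem mem_of_forall_fixF (τ : Gq q) (hτ : ∀ x ∈ fixF q V, τ x = x) : τ ∈ V := by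
  have h1 := InfiniteGalois.fixingSubgroup_fixedField (k := ℚ_[q]) (K := Ω)
    ⟨V, isClosed_of_level q V hV⟩
  have h2 : τ ∈ (IntermediateField.fixedField (V : Subgroup (Gq q))).fixingSubgroup := by
    rw [IntermediateField.mem_fixingSubgroup_iff]
    exact hτ
  rw [h1] at h2
  exact h2

omit hV in
/-- Restriction of `σ` (fixing `F` pointwise, mapping `y` into `F(y)`) to `F(y)`. -/
theorem exists_restrict (F : IntermediateField ℚ_[q] Ω) (y : Ω) (σ : Gq q)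
    (hσF : ∀ x ∈ F, σ x = x) (hσy : σ y ∈ IntermediateField.adjoin F {y}) :
    ∃ σ' : (IntermediateField.adjoin F {y}) ≃ₐ[F] (IntermediateField.adjoin F {y}),
      ∀ x : IntermediateField.adjoin F {y}, ((σ' x : IntermediateField.adjoin F {y}) : Ω) =
        σ (x : Ω) := by
  set M := IntermediateField.adjoin F {y} with hM
  let σF : Ω →ₐ[F] Ω :=
    { (σ : Ω →+* Ω) with commutes' := fun x => hσF x x.2 }
  have hσFapply : ∀ x : Ω, σF x = σ x := fun x => rfl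
  have hmap : M.map σF ≤ M := by
    rw [hM, IntermediateField.adjoin_map, IntermediateField.adjoin_le_iff]
    rintro _ ⟨x, hx, rfl⟩
    rw [Set.mem_singleton_iff] at hx
    rw [hx, hσFapply]
    exact hσy
  have hmem : ∀ x : M, σF.comp M.val x ∈ M.toSubalgebra := by
    intro x
    apply hmap
    exact ⟨x, x.2, rfl⟩
  let f : M →ₐ[F] M := (σF.comp M.val).codRestrict M.toSubalgebra hmem
  have hfapply : ∀ x : M, ((f x : M) : Ω) = σ (x : Ω) := fun x => rfl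
  have halg : Algebra.IsAlgebraic F M := by
    have : Algebra.IsAlgebraic F Ω := Algebra.IsAlgebraic.tower_top (K := ℚ_[q]) F
    exact Algebra.IsAlgebraic.of_injective M.val M.val.injective
  have hbij : Function.Bijective f := Algebra.IsAlgebraic.algHom_bijective f
  exact ⟨AlgEquiv.ofBijective f hbij, fun x => hfapply x⟩

omit hV in
/-- Kummer degree: `y ^ q = u ∈ F`, `ζ ∈ F` a primitive `q`-th root of unity, some `σ₀` fixing
`F` (and `ζ`) moves `y`: then `[F(y) : F] = q`. -/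
theorem finrank_adjoin_eq (F : IntermediateField ℚ_[q] Ω) (ζ y : Ω) (hζ : IsPrimitiveRoot ζ q)
    (hζF : ζ ∈ F) (hy0 : y ≠ 0) (hyq : y ^ q ∈ F) (σ₀ : Gq q) (hσ₀F : ∀ x ∈ F, σ₀ x = x)
    (hσ₀y : σ₀ y ≠ y) :
    Module.finrank F (IntermediateField.adjoin F {y}) = q := by
  have hqp : q.Prime := Fact.out
  have : NeZero q := ⟨hqp.ne_zero⟩
  set u : F := ⟨y ^ q, hyq⟩ with hu
  have hnp : ∀ b : F, b ^ q ≠ u := by
    intro b hb
    have hb' : (b : Ω) ^ q = y ^ q := by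
      have := congrArg (fun t : F => (t : Ω)) hb
      simpa using this
    have hb0 : (b : Ω) ≠ 0 := by
      intro h0
      rw [h0, zero_pow hqp.ne_zero] at hb'
      exact hy0 (pow_eq_zero_iff hqp.ne_zero |>.1 hb'.symm)
    have h1 : (y * (b : Ω)⁻¹) ^ q = 1 := by
      rw [mul_pow, inv_pow, hb', mul_inv_cancel₀ (pow_ne_zero _ hy0)]
    obtain ⟨i, -, hi⟩ := hζ.eq_pow_of_pow_eq_one h1
    have h2 : y = ζ ^ i * (b : Ω) := by
      rw [hi]; field_simp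
    apply hσ₀y
    rw [h2, map_mul, map_pow, hσ₀F ζ hζF, hσ₀F _ b.2]
  have hirr : Irreducible (X ^ q - C u : F[X]) := X_pow_sub_C_irreducible_of_prime hqp hnp
  have hmonic : (X ^ q - C u : F[X]).Monic := monic_X_pow_sub_C u hqp.ne_zero
  have haeval : Polynomial.aeval y (X ^ q - C u : F[X]) = 0 := by
    simp [hu]
  have hmin : (X ^ q - C u : F[X]) = minpoly F y :=
    minpoly.eq_of_irreducible_of_monic hirr haeval hmonic
  have hint : IsIntegral F y := ⟨_, hmonic, haeval⟩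
  rw [IntermediateField.adjoin.finrank hint, ← hmin, natDegree_X_pow_sub_C]

omit hV in
/-- A uniformizer of the fixed field, from the norm characterisation. -/
theorem isUniformizer_of_norm (F : IntermediateField ℚ_[q] Ω) [FiniteDimensional ℚ_[q] F]
    (π : Ω) (hπF : π ∈ F) (hπ0 : π ≠ 0) (hπ1 : ‖π‖ < 1)
    (hπ : ∀ x ∈ F, ‖x‖ < 1 → ‖x‖ ≤ ‖π‖) :
    IsUniformizer q F (⟨π, hπF⟩ : F) := by
  have hsn : ∀ x : F, snorm q F x = ‖(x : Ω)‖ := fun x => snorm_eq_norm_of_algHom q F F.val x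
  have hπpos : 0 < ‖π‖ := norm_pos_iff.2 hπ0
  refine ⟨?_, ?_, ?_, ?_⟩
  · rw [mem_intRing_iff]
    change snorm q F _ ≤ 1
    rw [hsn]; exact hπ1.le
  · intro h0
    exact hπ0 (congrArg (fun t : F => (t : Ω)) h0)
  · rw [mem_intRing_iff]
    change ¬ snorm q F _ ≤ 1
    rw [hsn, not_le]
    change 1 < ‖π⁻¹‖
    rw [norm_inv]
    exact (one_lt_inv₀ hπpos).2 hπ1
  · intro x hx hxinv
    rw [mem_intRing_iff] at hx hxinv ⊢
    change snorm q F _ ≤ 1 at hx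
    change ¬ snorm q F _ ≤ 1 at hxinv
    change snorm q F _ ≤ 1
    rw [hsn] at hx hxinv ⊢
    have hxlt : ‖(x : Ω)‖ < 1 := by
      by_contra hge
      rw [not_lt] at hge
      apply hxinv
      change ‖(x : Ω)⁻¹‖ ≤ 1
      rw [norm_inv]
      exact inv_le_one_of_one_le₀ hge
    have := hπ x x.2 hxlt
    change ‖(x : Ω) * π⁻¹‖ ≤ 1
    rw [norm_mul, norm_inv, ← div_eq_mul_inv, div_le_one hπpos]
    exact this

/-- **(BR)** the bridge: ramification of an integral `z` (moved by at least `B₀` by every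
`σ ∈ V` not fixing it) bounds the Kummer level of `y` (`σ y = ζ ^ j y` on `V`) whenever
`F(y) ⊆ F(z)` and the orbit of `z` under the stabiliser of `y` has at most `r` elements. -/
theorem kumLe_of_ram (ζ : Ω) (hζ : IsPrimitiveRoot ζ q) (hζV : ∀ σ ∈ V, σ ζ = ζ)
    (π : Ω) (hπV : ∀ σ ∈ V, σ π = π) (hπ0 : π ≠ 0) (hπ1 : ‖π‖ < 1)
    (hπ : ∀ x : Ω, (∀ σ ∈ V, σ x = x) → ‖x‖ < 1 → ‖x‖ ≤ ‖π‖)
    (y : Ω) (hy0 : y ≠ 0) (hy : ∀ σ ∈ V, ∃ j : ℕ, σ y = ζ ^ j * y)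
    (z : Ω) (hz : ‖z‖ ≤ 1) (hzy : ∀ σ ∈ V, σ z = z → σ y = y)
    (B₀ : ℝ) (hB₀0 : 0 ≤ B₀) (hB₀1 : B₀ ≤ 1) (hzram : ∀ σ ∈ V, σ z ≠ z → B₀ ≤ ‖σ z - z‖)
    (r : ℕ) (hr : ∀ T : Finset Ω, (∀ x ∈ T, ∃ σ ∈ V, σ y = y ∧ σ z = x) → T.card ≤ r)
    (hB1 : (B₀ ^ r) ^ q ≤ ‖π‖) (hB2 : ‖ζ - 1‖ ^ q * ‖π‖ < (B₀ ^ r) ^ q) :
    ∃ w : Ω, w ≠ 0 ∧ (∀ σ ∈ V, σ w = w) ∧
      ‖y ^ q * w ^ q - 1‖ * (B₀ ^ r) ^ q ≤ ‖ζ - 1‖ ^ q * ‖π‖ := by
  classical
  have hqp : q.Prime := Fact.out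
  by_cases hmove : ∃ σ₀ ∈ V, σ₀ y ≠ y
  swap
  · push Not at hmove
    refine ⟨y⁻¹, inv_ne_zero hy0, fun σ hσ => by rw [map_inv₀, hmove σ hσ], ?_⟩
    rw [inv_pow, mul_inv_cancel₀ (pow_ne_zero _ hy0), sub_self, norm_zero, zero_mul]
    exact mul_nonneg (pow_nonneg (norm_nonneg _) _) (norm_nonneg _)
  obtain ⟨σ₀, hσ₀V, hσ₀y⟩ := hmove
  obtain ⟨j₀, hj₀⟩ := hy σ₀ hσ₀V
  have hζj : ζ ^ j₀ ≠ 1 := by
    intro h; rw [h, one_mul] at hj₀; exact hσ₀y hj₀
  -- the fixed field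
  set F := fixF q V with hF
  have hFfin : FiniteDimensional ℚ_[q] F := finiteDimensional_fixF q V hV
  have hmemF : ∀ x : Ω, x ∈ F ↔ ∀ σ ∈ V, σ x = x := mem_fixF_iff q V
  have hζF : ζ ∈ F := (hmemF ζ).2 hζV
  have hπF : π ∈ F := (hmemF π).2 hπV
  have hyq : y ^ q ∈ F := by
    rw [hmemF]
    intro σ hσ
    obtain ⟨j, hj⟩ := hy σ hσ
    rw [map_pow, hj, mul_pow, ← pow_mul, mul_comm j q, pow_mul, hζ.pow_eq_one, one_pow, one_mul]
  have hσ₀F : ∀ x ∈ F, σ₀ x = x := fun x hx => (hmemF x).1 hx σ₀ hσ₀V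
  -- the Kummer field
  set M := IntermediateField.adjoin F {y} with hM
  have hdeg : Module.finrank F M = q :=
    finrank_adjoin_eq q F ζ y hζ hζF hy0 hyq σ₀ hσ₀F hσ₀y
  have hyM : y ∈ M := IntermediateField.subset_adjoin F {y} (Set.mem_singleton y)
  have hFM : ∀ x ∈ F, x ∈ M := fun x hx => M.algebraMap_mem ⟨x, hx⟩
  have hint : IsIntegral F y := by
    have : Algebra.IsAlgebraic F Ω := Algebra.IsAlgebraic.tower_top (K := ℚ_[q]) F
    exact (Algebra.IsAlgebraic.isAlgebraic y).isIntegral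
  have hMfinF : FiniteDimensional F M := IntermediateField.adjoin.finiteDimensional hint
  have hMfin : FiniteDimensional ℚ_[q] M := FiniteDimensional.trans ℚ_[q] F M
  have hσ₀yM : σ₀ y ∈ M := by
    rw [hj₀]
    exact mul_mem (pow_mem (hFM ζ hζF) _) hyM
  obtain ⟨σ', hσ'⟩ := exists_restrict q F y σ₀ hσ₀F hσ₀yM
  -- norms
  have hsnF : ∀ x : F, snorm q F x = ‖(x : Ω)‖ := fun x => snorm_eq_norm_of_algHom q F F.val x
  have hsnM : ∀ x : M, snorm q M x = ‖(x : Ω)‖ := fun x =>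
    snorm_eq_norm_of_algHom q M (M.val.restrictScalars ℚ_[q]) x
  -- the orbit of `z`
  set Sset : Set Ω := {x | ∃ σ ∈ V, σ y = y ∧ σ z = x} with hSset
  have hSfin : Sset.Finite := by
    have hzalg : IsIntegral ℚ_[q] z := (Algebra.IsAlgebraic.isAlgebraic z).isIntegral
    refine Set.Finite.subset ((minpoly ℚ_[q] z).rootSet_finite Ω) ?_
    rintro x ⟨σ, -, -, rfl⟩
    rw [Polynomial.mem_rootSet]
    refine ⟨minpoly.ne_zero hzalg, ?_⟩
    rw [Polynomial.aeval_algHom_apply, minpoly.aeval, map_zero]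
  set S : Finset Ω := hSfin.toFinset with hS
  have hmemS : ∀ x, x ∈ S ↔ ∃ σ ∈ V, σ y = y ∧ σ z = x := fun x => by
    rw [hS, Set.Finite.mem_toFinset]; rfl
  have hzS : z ∈ S := (hmemS z).2 ⟨1, V.one_mem, rfl, rfl⟩
  have hSnorm : ∀ s ∈ S, ‖s‖ ≤ 1 := by
    intro s hs
    obtain ⟨σ, -, -, rfl⟩ := (hmemS s).1 hs
    rw [norm_galois]; exact hz
  have hScard : S.card ≤ r := hr S (fun x hx => (hmemS x).1 hx)
  -- the coefficient
  have hσS : ∀ s ∈ S, B₀ ≤ ‖z - (σ₀ : Ω →+* Ω) s‖ := by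
    intro s hs
    obtain ⟨h, hhV, hhy, rfl⟩ := (hmemS s).1 hs
    have h1 : (σ₀ * h) y ≠ y := by
      change σ₀ (h y) ≠ y
      rw [hhy]; exact hσ₀y
    have h2 : (σ₀ * h) z ≠ z := fun h3 => h1 (hzy _ (V.mul_mem hσ₀V hhV) h3)
    have h4 := hzram _ (V.mul_mem hσ₀V hhV) h2
    rw [← norm_neg, neg_sub]
    exact h4
  obtain ⟨k, hk⟩ := exists_coeff_norm_ge S z hzS hSnorm (σ₀ : Ω →+* Ω) B₀ hB₀0 hσS
  set c : Ω := (∏ s ∈ S, (X - C s)).coeff k with hc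
  have hcnorm : ‖c‖ ≤ 1 := norm_coeff_prod_le S hSnorm k
  have hcfix : ∀ τ ∈ V, τ y = y → τ c = c := by
    intro τ hτV hτy
    refine map_coeff_prod_eq S (τ : Ω →+* Ω) ?_ k
    intro s hs
    obtain ⟨h, hhV, hhy, rfl⟩ := (hmemS s).1 hs
    refine (hmemS _).2 ⟨τ * h, V.mul_mem hτV hhV, ?_, rfl⟩
    change τ (h y) = y
    rw [hhy, hτy]
  have hcM : c ∈ M := by
    have h1 := InfiniteGalois.fixedField_fixingSubgroup (k := ℚ_[q]) (K := Ω)
      (M.restrictScalars ℚ_[q])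
    have h2 : c ∈ IntermediateField.fixedField (M.restrictScalars ℚ_[q]).fixingSubgroup := by
      rw [IntermediateField.mem_fixedField_iff]
      intro τ hτ
      rw [IntermediateField.mem_fixingSubgroup_iff] at hτ
      have hτM : ∀ x ∈ M, τ x = x := fun x hx => hτ x (by
        rw [IntermediateField.mem_restrictScalars]; exact hx)
      have hτV : τ ∈ V := mem_of_forall_fixF q V hV τ (fun x hx => hτM x (hFM x hx))
      exact hcfix τ hτV (hτM y hyM)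
    rw [h1, IntermediateField.mem_restrictScalars] at h2
    exact h2
  have hBr : B₀ ^ r ≤ B₀ ^ S.card := pow_le_pow_of_le_one hB₀0 hB₀1 hScard
  -- apply (KB)
  have hπunif : IsUniformizer q F (⟨π, hπF⟩ : F) :=
    isUniformizer_of_norm q F π hπF hπ0 hπ1 (fun x hx => hπ x ((hmemF x).1 hx))
  have hqK : ‖((q : ℕ) : Ω)‖ < 1 := KummerTop0.norm_natCast_q_lt_one q
  have hζjnorm : ‖ζ ^ j₀ - 1‖ = ‖ζ - 1‖ := KummerTop0.norm_zeta_pow_sub_one hqp hζ j₀ hζj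
  have hζjF : ζ ^ j₀ ∈ F := pow_mem hζF _
  have hζjprim : IsPrimitiveRoot (⟨ζ ^ j₀, hζjF⟩ : F) q := by
    have hndvd : ¬ q ∣ j₀ := fun h => hζj ((hζ.pow_eq_one_iff_dvd j₀).2 h)
    have hcop : Nat.Coprime j₀ q := ((Nat.Prime.coprime_iff_not_dvd hqp).2 hndvd).symm
    have h1 : IsPrimitiveRoot (ζ ^ j₀) q := hζ.pow_of_coprime j₀ hcop
    exact IsPrimitiveRoot.of_map_of_injective (f := F.val) (by exact h1) F.val.injective
  have hu0 : (⟨y ^ q, hyq⟩ : F) ≠ 0 := by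
    intro h0
    exact pow_ne_zero q hy0 (congrArg (fun t : F => (t : Ω)) h0)
  have hα : (⟨y, hyM⟩ : M) ^ q = algebraMap F M ⟨y ^ q, hyq⟩ := by
    apply Subtype.ext
    rfl
  have hσα : σ' ⟨y, hyM⟩ = algebraMap F M ⟨ζ ^ j₀, hζjF⟩ * ⟨y, hyM⟩ := by
    apply Subtype.ext
    rw [hσ']
    exact hj₀
  have hcint : (⟨c, hcM⟩ : M) ∈ intRing q M := by
    rw [mem_intRing_iff]
    change snorm q M _ ≤ 1
    rw [hsnM]; exact hcnorm
  have hcB : B₀ ^ r ≤ snorm q M (σ' ⟨c, hcM⟩ - ⟨c, hcM⟩) := by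
    rw [hsnM]
    have : ((σ' ⟨c, hcM⟩ - ⟨c, hcM⟩ : M) : Ω) = σ₀ c - c := by
      rw [AddSubgroupClass.coe_sub, hσ']
    rw [this]
    exact le_trans hBr hk
  have hB1' : (B₀ ^ r) ^ q ≤ snorm q F (⟨π, hπF⟩ : F) := by rw [hsnF]; exact hB1
  have hB2' : snorm q F ((⟨ζ ^ j₀, hζjF⟩ : F) - 1) ^ q * snorm q F (⟨π, hπF⟩ : F) <
      (B₀ ^ r) ^ q := by
    rw [hsnF, hsnF]
    change ‖ζ ^ j₀ - 1‖ ^ q * ‖π‖ < _
    rw [hζjnorm]; exact hB2
  obtain ⟨w, hw0, hw⟩ := KummerBreak0.kummer_break q F M hdeg ⟨π, hπF⟩ hπunif ⟨ζ ^ j₀, hζjF⟩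
    hζjprim ⟨y, hyM⟩ ⟨y ^ q, hyq⟩ hu0 hα σ' hσα (B₀ ^ r) (pow_nonneg hB₀0 r) hB1' hB2'
    ⟨c, hcM⟩ hcint hcB
  refine ⟨(w : Ω), fun h0 => hw0 (Subtype.ext h0), fun σ hσ => (hmemF _).1 w.2 σ hσ, ?_⟩
  rw [hsnF, hsnF, hsnF] at hw
  change ‖y ^ q * (w : Ω) ^ q - 1‖ * (B₀ ^ r) ^ q ≤ ‖ζ ^ j₀ - 1‖ ^ q * ‖π‖ at hw
  rw [hζjnorm] at hw
  exact hw

/-- **(BR), local-local numerology**: `e_F = q² - 1` (`‖π‖ ^ (q² - 1) = ‖q‖`), every `σ ∈ V`
moving `z` moves it by exactly `‖q‖ ^ (1/(q² - 1))` (helper6's (LL-RAM) shape), orbit of size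
`≤ r ≤ q + 1`: the Kummer generator is `‖π‖ ^ (q (q + 1) + 1 - q r)`-close to a `q`-th power. -/
theorem kumLe_of_ram_ll (ζ : Ω) (hζ : IsPrimitiveRoot ζ q) (hζV : ∀ σ ∈ V, σ ζ = ζ)
    (π : Ω) (hπV : ∀ σ ∈ V, σ π = π) (hπ0 : π ≠ 0) (hπ1 : ‖π‖ < 1)
    (hπ : ∀ x : Ω, (∀ σ ∈ V, σ x = x) → ‖x‖ < 1 → ‖x‖ ≤ ‖π‖)
    (he : ‖π‖ ^ (q ^ 2 - 1) = ‖((q : ℕ) : Ω)‖)
    (y : Ω) (hy0 : y ≠ 0) (hy : ∀ σ ∈ V, ∃ j : ℕ, σ y = ζ ^ j * y)
    (z : Ω) (hz : ‖z‖ ≤ 1) (hzy : ∀ σ ∈ V, σ z = z → σ y = y)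
    (hzram : ∀ σ ∈ V, σ z ≠ z → ‖σ z - z‖ ^ (q ^ 2 - 1) = ‖((q : ℕ) : Ω)‖)
    (r : ℕ) (hr1 : 1 ≤ r) (hrq : r ≤ q + 1)
    (hr : ∀ T : Finset Ω, (∀ x ∈ T, ∃ σ ∈ V, σ y = y ∧ σ z = x) → T.card ≤ r) :
    ∃ w : Ω, w ≠ 0 ∧ (∀ σ ∈ V, σ w = w) ∧
      ‖y ^ q * w ^ q - 1‖ ≤ ‖π‖ ^ (q * (q + 1) + 1 - q * r) := by
  have hqp : q.Prime := Fact.out
  have hq2 : 2 ≤ q := hqp.two_le
  have hπpos : 0 < ‖π‖ := norm_pos_iff.2 hπ0
  have hsq : q ^ 2 - 1 = (q - 1) * (q + 1) := by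
    obtain ⟨n, rfl⟩ : ∃ n, q = n + 2 := ⟨q - 2, by omega⟩
    have h1 : (n + 2) ^ 2 = (n + 1) * (n + 2 + 1) + 1 := by ring
    rw [h1]; simp
  have hsq0 : q ^ 2 - 1 ≠ 0 := by
    rw [hsq]; exact Nat.mul_ne_zero (by omega) (by omega)
  -- `‖ζ - 1‖ = ‖π‖ ^ (q + 1)`
  have hlam : ‖ζ - 1‖ = ‖π‖ ^ (q + 1) := by
    have h1 := KummerTop0.norm_natCast_eq hqp hζ
    rw [← he, hsq, mul_comm, pow_mul] at h1
    exact ((pow_left_inj₀ (pow_nonneg hπpos.le _) (norm_nonneg _) (by omega)).1 h1).symm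
  have hzram' : ∀ σ ∈ V, σ z ≠ z → ‖π‖ ≤ ‖σ z - z‖ := by
    intro σ hσ hne
    have h1 := hzram σ hσ hne
    rw [← he] at h1
    exact ((pow_left_inj₀ (norm_nonneg _) hπpos.le hsq0).1 h1).ge
  have hrq' : q * r ≤ q * (q + 1) := Nat.mul_le_mul_left q hrq
  have hB1 : (‖π‖ ^ r) ^ q ≤ ‖π‖ := by
    rw [← pow_mul]
    calc ‖π‖ ^ (r * q) ≤ ‖π‖ ^ 1 :=
          pow_le_pow_of_le_one hπpos.le hπ1.le (Nat.mul_pos hr1 hqp.pos)
      _ = ‖π‖ := pow_one _
  have hB2 : ‖ζ - 1‖ ^ q * ‖π‖ < (‖π‖ ^ r) ^ q := by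
    rw [hlam, ← pow_mul, ← pow_succ, ← pow_mul]
    apply pow_lt_pow_right_of_lt_one₀ hπpos hπ1
    have : r * q = q * r := mul_comm _ _
    have h2 : (q + 1) * q = q * (q + 1) := mul_comm _ _
    omega
  obtain ⟨w, hw0, hwV, hw⟩ := kumLe_of_ram q V hV ζ hζ hζV π hπV hπ0 hπ1 hπ y hy0 hy z hz hzy
    ‖π‖ hπpos.le hπ1.le hzram' r hr hB1 hB2
  refine ⟨w, hw0, hwV, ?_⟩
  have hR : (‖π‖ ^ (q + 1)) ^ q * ‖π‖ = ‖π‖ ^ ((q + 1) * q + 1) := by
    rw [← pow_mul, ← pow_succ]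
  have hL : (‖π‖ ^ r) ^ q = ‖π‖ ^ (r * q) := by rw [← pow_mul]
  rw [hlam, hR, hL] at hw
  have hpos : 0 < ‖π‖ ^ (r * q) := pow_pos hπpos _
  have hsplit : ‖π‖ ^ ((q + 1) * q + 1) = ‖π‖ ^ (q * (q + 1) + 1 - q * r) * ‖π‖ ^ (r * q) := by
    rw [← pow_add]
    congr 1
    have : r * q = q * r := mul_comm _ _
    have h2 : (q + 1) * q = q * (q + 1) := mul_comm _ _
    omega
  rw [hsplit] at hw
  exact le_of_mul_le_mul_right hw hpos

end Fields

end
end Fermat.Agent.TW.FLAT.RamBridge0
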