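/-
Programme T (S56), chapter T/FLAT, local-local chain (lead): **the unramified base** for flat models
(helper6's request "UnramBase").  `Omega = PadicAlgCl p`.

* `hasFlatModel_restrict`: a flat model for `Gamma` is a flat model for any monoid acting through
  a map into `Gamma`.
* For `F0` a finite extension of `Q_p` inside `Omega`: `R0 p F0` (ring of integers of `F0`, a type
  with `CommRing`, `IsDomain`, `IsPrincipalIdealRing`, `IsLocalRing`, `Algebra Z_p`, and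
  `algR0 : Algebra (R0 p F0) Omega`), `R0.val`, `R0.mk`, `Gam p F0 := F0.fixingSubgroup`,
  instances `smulCommClass_gam`, `faithfulSMul_R0`, `isScalarTower_R0`;
  `norm_algebraMap_le_one`, `exists_of_norm_le_one`, `fixedInFrac_R0 :
  Descent6.FixedInFrac (R0 p F0) Omega (Gam p F0)`, `maximalIdeal_R0` (`= span {p}` when `p` is a
  uniformizer of `F0` in norm form), `hasFlatModel_base : HasFlatModel Z_p Omega (Gq p) M act ->
  HasFlatModel (R0 p F0) Omega (Gam p F0) M (fun s => act s)`.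
* For a subgroup `V` of `Gq p`: `unrF p V` (fixed field of `V . Iq`), `mem_unrF_iff`,
  `le_gam_unrF`, `Iq_le_gam_unrF`, `unrF_unramified`, `finiteDimensional_unrF` (for `V` open).
-/
import Mathlib
import Fermat.Agent.TW.FLAT.LocalPoints6
import Fermat.Agent.TW.FLAT.RamBridge0
import Fermat.Agent.TW.LOC.UnramFixed4

set_option autoImplicit false
set_option linter.unusedSectionVars false

namespace Fermat.Agent.TW.FLAT.UnramBase0

open Fermat.Agent.TW.FLAT.Points6 Fermat.Agent.TW.FLAT.Descent6 Fermat.Agent.TW.LOC.Defs2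

noncomputable section

/-! ### Restriction of the acting group -/

section Restrict

variable {R : Type} [CommRing R] {Ω : Type} [CommRing Ω] [Algebra R Ω]
  {Γ : Type} [Monoid Γ] [MulSemiringAction Γ Ω] [SMulCommClass Γ R Ω]
  {Γ' : Type} [Monoid Γ'] [MulSemiringAction Γ' Ω] [SMulCommClass Γ' R Ω]
  {M : Type} [AddCommGroup M] {act : Γ → M → M}

/-- A flat model for `Γ` is a flat model for any monoid `Γ'` acting on `Ω` through a map
`φ : Γ' → Γ`. -/
theorem hasFlatModel_restrict (φ : Γ' → Γ) (hφ : ∀ (σ : Γ') (ω : Ω), σ • ω = φ σ • ω)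
    (h : HasFlatModel R Ω Γ M act) : HasFlatModel R Ω Γ' M (fun σ => act (φ σ)) := by
  obtain ⟨H, i1, i2, hfin, hflat, hco, e, hmul, heq⟩ := h
  refine ⟨H, i1, i2, hfin, hflat, hco, e, hmul, ?_⟩
  intro σ f
  have : σ • f = φ σ • f := by
    ext x
    rw [Points6.smul_apply, Points6.smul_apply, hφ]
  rw [this, heq]

end Restrict

/-! ### The unramified base -/

section Base

variable (p : ℕ) [Fact p.Prime]

local notation "Ω" => PadicAlgCl p

variable (F₀ : IntermediateField ℚ_[p] (PadicAlgCl p)) [FiniteDimensional ℚ_[p] F₀]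

/-- The ring of integers of `F₀`, as a type (a `def`, to keep the subalgebra instances away). -/
def R0 : Type := Fermat.Agent.PT.LOC.Interface12.intRing p F₀

instance : CommRing (R0 p F₀) := inferInstanceAs (CommRing (Fermat.Agent.PT.LOC.Interface12.intRing p F₀))
instance : IsDomain (R0 p F₀) := inferInstanceAs (IsDomain (Fermat.Agent.PT.LOC.Interface12.intRing p F₀))
instance : IsPrincipalIdealRing (R0 p F₀) := inferInstanceAs (IsPrincipalIdealRing (Fermat.Agent.PT.LOC.Interface12.intRing p F₀))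
instance : IsLocalRing (R0 p F₀) := inferInstanceAs (IsLocalRing (Fermat.Agent.PT.LOC.Interface12.intRing p F₀))
instance : Algebra ℤ_[p] (R0 p F₀) := inferInstanceAs (Algebra ℤ_[p] (Fermat.Agent.PT.LOC.Interface12.intRing p F₀))

/-- The underlying element of `F₀`. -/
def R0.val : R0 p F₀ →+* F₀ where
  toFun x := Subtype.val (show ↥(Fermat.Agent.PT.LOC.Interface12.intRing p F₀) from x)
  map_one' := rfl
  map_mul' _ _ := rfl
  map_zero' := rfl
  map_add' _ _ := rfl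

/-- `R₀ → Ω`. -/
instance algR0 : Algebra (R0 p F₀) Ω :=
  ((algebraMap F₀ Ω).comp (R0.val p F₀)).toAlgebra

theorem algebraMap_R0_apply (x : R0 p F₀) :
    algebraMap (R0 p F₀) Ω x = ((R0.val p F₀ x : F₀) : Ω) := rfl

theorem R0.val_injective : Function.Injective (R0.val p F₀) := Subtype.val_injective

theorem R0.mem_intRing (x : R0 p F₀) : R0.val p F₀ x ∈ Fermat.Agent.PT.LOC.Interface12.intRing p F₀ := Subtype.property x

/-- Construct an element of `R₀` from an integral element of `F₀`. -/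
def R0.mk (x : F₀) (hx : x ∈ Fermat.Agent.PT.LOC.Interface12.intRing p F₀) : R0 p F₀ := (⟨x, hx⟩ : Fermat.Agent.PT.LOC.Interface12.intRing p F₀)

@[simp] theorem R0.val_mk (x : F₀) (hx : x ∈ Fermat.Agent.PT.LOC.Interface12.intRing p F₀) : R0.val p F₀ (R0.mk p F₀ x hx) = x := rfl

/-- The Galois group of `Ω/F₀`. -/
abbrev Gam : Subgroup (Gq p) := F₀.fixingSubgroup

theorem gam_smul_def (σ : Gam p F₀) (ω : Ω) : σ • ω = (σ : Gq p) ω := rfl

instance smulCommClass_gam : SMulCommClass (Gam p F₀) (R0 p F₀) Ω where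
  smul_comm σ r ω := by
    rw [gam_smul_def, Algebra.smul_def, Algebra.smul_def, gam_smul_def, map_mul]
    congr 1
    rw [algebraMap_R0_apply]
    exact (IntermediateField.mem_fixingSubgroup_iff F₀ _).1 σ.2 _ (R0.val p F₀ r).2

instance faithfulSMul_R0 : FaithfulSMul (R0 p F₀) Ω := by
  rw [faithfulSMul_iff_algebraMap_injective]
  intro x y hxy
  rw [algebraMap_R0_apply, algebraMap_R0_apply] at hxy
  exact R0.val_injective p F₀ (Subtype.ext hxy)

instance isScalarTower_R0 : IsScalarTower ℤ_[p] (R0 p F₀) Ω := by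
  refine IsScalarTower.of_algebraMap_eq (R := ℤ_[p]) (S := R0 p F₀) (A := PadicAlgCl p)
    (fun x => ?_)
  rw [algebraMap_R0_apply p F₀, IsScalarTower.algebraMap_apply ℤ_[p] ℚ_[p] (PadicAlgCl p)]
  rfl

/-! #### Norms -/

theorem snorm_eq_norm (x : F₀) :
    Fermat.Agent.PT.LOC.Structure14.snorm p F₀ x = ‖(x : Ω)‖ :=
  RamBridge0.snorm_eq_norm_of_algHom p F₀ F₀.val x

theorem mem_intRing_iff_norm (x : F₀) :
    x ∈ Fermat.Agent.PT.LOC.Interface12.intRing p F₀ ↔ ‖(x : Ω)‖ ≤ 1 := by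
  rw [Fermat.Agent.PT.LOC.Structure14.mem_intRing_iff, ← snorm_eq_norm]

theorem norm_algebraMap_le_one (x : R0 p F₀) : ‖algebraMap (R0 p F₀) Ω x‖ ≤ 1 := by
  rw [algebraMap_R0_apply]
  exact (mem_intRing_iff_norm p F₀ _).1 (R0.mem_intRing p F₀ x)

/-- Elements of `F₀` of norm `≤ 1` come from `R₀`. -/
theorem exists_of_norm_le_one (x : Ω) (hx : x ∈ F₀) (h1 : ‖x‖ ≤ 1) :
    ∃ r : R0 p F₀, algebraMap (R0 p F₀) Ω r = x :=
  ⟨R0.mk p F₀ ⟨x, hx⟩ ((mem_intRing_iff_norm p F₀ _).2 h1), rfl⟩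

theorem norm_natCast_p : ‖((p : ℕ) : Ω)‖ = (p : ℝ)⁻¹ := by
  have h1 : ‖((p : ℚ_[p]) : PadicAlgCl p)‖ = ‖(p : ℚ_[p])‖ := PadicAlgCl.norm_extends p _
  have h2 : ((p : ℚ_[p]) : PadicAlgCl p) = ((p : ℕ) : PadicAlgCl p) := map_natCast _ _
  rw [← h2, h1, Padic.norm_p]

/-- `Ω ^ Gal(Ω/F₀) = F₀ = Frac R₀`. -/
theorem fixedInFrac_R0 : FixedInFrac (R0 p F₀) Ω (Gam p F₀) := by
  intro ω hω
  have hmem : ω ∈ F₀ := by
    rw [← InfiniteGalois.fixedField_fixingSubgroup F₀, IntermediateField.mem_fixedField_iff]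
    intro σ hσ
    exact hω ⟨σ, hσ⟩
  -- clear denominators with a power of `p`
  have hp1 : ‖((p : ℕ) : Ω)‖ < 1 := KummerTop0.norm_natCast_q_lt_one p
  have hp0 : ((p : ℕ) : Ω) ≠ 0 := by
    exact_mod_cast (Fact.out : p.Prime).ne_zero
  have hppos : 0 < ‖((p : ℕ) : Ω)‖ := norm_pos_iff.2 hp0
  obtain ⟨n, hn⟩ : ∃ n : ℕ, ‖((p : ℕ) : Ω)‖ ^ n * ‖ω‖ ≤ 1 := by
    by_cases hω0 : ω = 0
    · exact ⟨0, by rw [hω0, norm_zero, mul_zero]; exact zero_le_one⟩
    have hωpos : 0 < ‖ω‖ := norm_pos_iff.2 hω0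
    obtain ⟨n, hn⟩ := exists_pow_lt_of_lt_one (inv_pos.2 hωpos) hp1
    refine ⟨n, ?_⟩
    have := mul_le_mul_of_nonneg_right hn.le hωpos.le
    rwa [inv_mul_cancel₀ hωpos.ne'] at this
  have hpF : ((p : ℕ) : Ω) ∈ F₀ := natCast_mem F₀ p
  obtain ⟨s, hs⟩ := exists_of_norm_le_one p F₀ (((p : ℕ) : Ω) ^ n) (pow_mem hpF n) (by
    rw [norm_pow]; exact pow_le_one₀ (norm_nonneg _) hp1.le)
  obtain ⟨r, hr⟩ := exists_of_norm_le_one p F₀ (((p : ℕ) : Ω) ^ n * ω)
    (mul_mem (pow_mem hpF n) hmem) (by rw [norm_mul, norm_pow]; exact hn)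
  refine ⟨s, r, ?_, ?_⟩
  · rw [hs]; exact pow_ne_zero n hp0
  · rw [hs, hr]

/-- If `p` is a uniformizer of `F₀` (norm form), the maximal ideal of `R₀` is `(p)`. -/
theorem maximalIdeal_R0 (hunr : ∀ x : Ω, x ∈ F₀ → ‖x‖ < 1 → ‖x‖ ≤ ‖((p : ℕ) : Ω)‖) :
    IsLocalRing.maximalIdeal (R0 p F₀) = Ideal.span {((p : ℕ) : R0 p F₀)} := by
  have hp1 : ‖((p : ℕ) : Ω)‖ < 1 := KummerTop0.norm_natCast_q_lt_one p
  have hp0 : ((p : ℕ) : Ω) ≠ 0 := by
    exact_mod_cast (Fact.out : p.Prime).ne_zero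
  have hppos : 0 < ‖((p : ℕ) : Ω)‖ := norm_pos_iff.2 hp0
  have hinj : Function.Injective (algebraMap (R0 p F₀) Ω) :=
    (faithfulSMul_iff_algebraMap_injective _ _).1 inferInstance
  -- non-units have norm `< 1`
  have hunit : ∀ x : R0 p F₀, ‖algebraMap (R0 p F₀) Ω x‖ = 1 → IsUnit x := by
    intro x hx
    have hx0 : algebraMap (R0 p F₀) Ω x ≠ 0 := by
      intro h0; rw [h0, norm_zero] at hx; exact zero_ne_one hx
    have hxF : algebraMap (R0 p F₀) Ω x ∈ F₀ := (R0.val p F₀ x).2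
    obtain ⟨y, hy⟩ := exists_of_norm_le_one p F₀ (algebraMap (R0 p F₀) Ω x)⁻¹ (inv_mem hxF) (by
      rw [norm_inv, hx, inv_one])
    refine IsUnit.of_mul_eq_one y (hinj ?_)
    rw [map_mul, hy, map_one, mul_inv_cancel₀ hx0]
  ext x
  rw [IsLocalRing.mem_maximalIdeal, mem_nonunits_iff, Ideal.mem_span_singleton]
  constructor
  · intro hx
    have hlt : ‖algebraMap (R0 p F₀) Ω x‖ < 1 := by
      rcases (norm_algebraMap_le_one p F₀ x).lt_or_eq with h | h
      · exact h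
      · exact absurd (hunit x h) hx
    have hle := hunr _ (R0.val p F₀ x).2 hlt
    obtain ⟨y, hy⟩ := exists_of_norm_le_one p F₀ (algebraMap (R0 p F₀) Ω x * ((p : ℕ) : Ω)⁻¹)
      (mul_mem (R0.val p F₀ x).2 (inv_mem (natCast_mem F₀ p))) (by
        rw [norm_mul, norm_inv, ← div_eq_mul_inv, div_le_one hppos]; exact hle)
    refine ⟨y, hinj ?_⟩
    rw [map_mul, hy, map_natCast]
    field_simp
  · rintro ⟨y, rfl⟩ hu
    have h1 : ‖algebraMap (R0 p F₀) Ω (((p : ℕ) : R0 p F₀) * y)‖ < 1 := by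
      rw [map_mul, map_natCast, norm_mul]
      calc ‖((p : ℕ) : Ω)‖ * ‖algebraMap (R0 p F₀) Ω y‖ ≤ ‖((p : ℕ) : Ω)‖ * 1 :=
            mul_le_mul_of_nonneg_left (norm_algebraMap_le_one p F₀ y) (norm_nonneg _)
        _ < 1 := by rw [mul_one]; exact hp1
    obtain ⟨z, hz⟩ := hu.exists_right_inv
    have h2 : ‖algebraMap (R0 p F₀) Ω (((p : ℕ) : R0 p F₀) * y)‖ *
        ‖algebraMap (R0 p F₀) Ω z‖ = 1 := by
      rw [← norm_mul, ← map_mul, hz, map_one, norm_one]
    have h3 : ‖algebraMap (R0 p F₀) Ω (((p : ℕ) : R0 p F₀) * y)‖ *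
        ‖algebraMap (R0 p F₀) Ω z‖ < 1 := by
      calc _ ≤ ‖algebraMap (R0 p F₀) Ω (((p : ℕ) : R0 p F₀) * y)‖ * 1 :=
            mul_le_mul_of_nonneg_left (norm_algebraMap_le_one p F₀ z) (norm_nonneg _)
        _ < 1 := by rw [mul_one]; exact h1
    rw [h2] at h3
    exact lt_irrefl _ h3

/-! #### Flat models over the unramified base -/

/-- A flat model over `ℤ_p` (for `Gq p`) gives a flat model over `R₀` (for `Gal(Ω/F₀)`). -/
theorem hasFlatModel_base {M : Type} [AddCommGroup M] {act : Gq p → M → M}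
    (h : HasFlatModel ℤ_[p] Ω (Gq p) M act) :
    HasFlatModel (R0 p F₀) Ω (Gam p F₀) M (fun σ => act (σ : Gq p)) := by
  have h1 : HasFlatModel ℤ_[p] Ω (Gam p F₀) M (fun σ => act (σ : Gq p)) :=
    hasFlatModel_restrict (fun σ : Gam p F₀ => (σ : Gq p)) (fun _ _ => rfl) h
  exact h1.baseChange

end Base

/-! ### The maximal unramified subfield of the fixed field of an open subgroup -/

section FromV

open Fermat.Agent.PT.GLUE.Objects21

variable (p : ℕ) [Fact p.Prime] (V : Subgroup (Gq p))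

local notation "Ω" => PadicAlgCl p

/-- The fixed field of `V · Iq`. -/
def unrF : IntermediateField ℚ_[p] Ω := RamBridge0.fixF p (V ⊔ Iq p)

theorem mem_unrF_iff (x : Ω) :
    x ∈ unrF p V ↔ (∀ σ ∈ V, σ x = x) ∧ (∀ τ ∈ Iq p, τ x = x) := by
  rw [unrF, RamBridge0.mem_fixF_iff]
  constructor
  · intro h
    exact ⟨fun σ hσ => h σ (Subgroup.mem_sup_left hσ), fun τ hτ => h τ (Subgroup.mem_sup_right hτ)⟩
  · rintro ⟨h1, h2⟩ σ hσ
    have hle : V ⊔ Iq p ≤ MulAction.stabilizer (Gq p) x :=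
      sup_le (fun σ hσ => MulAction.mem_stabilizer_iff.2 (h1 σ hσ))
        (fun τ hτ => MulAction.mem_stabilizer_iff.2 (h2 τ hτ))
    exact MulAction.mem_stabilizer_iff.1 (hle hσ)

theorem le_gam_unrF : V ≤ Gam p (unrF p V) := by
  intro σ hσ
  rw [IntermediateField.mem_fixingSubgroup_iff]
  intro x hx
  exact ((mem_unrF_iff p V x).1 hx).1 σ hσ

theorem Iq_le_gam_unrF : Iq p ≤ Gam p (unrF p V) := by
  intro σ hσ
  rw [IntermediateField.mem_fixingSubgroup_iff]
  intro x hx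
  exact ((mem_unrF_iff p V x).1 hx).2 σ hσ

/-- `p` is a uniformizer of `unrF` (norm form). -/
theorem unrF_unramified (x : Ω) (hx : x ∈ unrF p V) (h1 : ‖x‖ < 1) : ‖x‖ ≤ ‖((p : ℕ) : Ω)‖ :=
  Fermat.Agent.TW.LOC.UnramFixed4.norm_le_norm_q_of_fixed p x ((mem_unrF_iff p V x).1 hx).2 h1

theorem finiteDimensional_unrF (hV : ∃ U ∈ (levelLoc p).sets, U ≤ V) :
    FiniteDimensional ℚ_[p] (unrF p V) := by
  have hfin : FiniteDimensional ℚ_[p] (RamBridge0.fixF p V) :=
    RamBridge0.finiteDimensional_fixF p V hV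
  have hle : unrF p V ≤ RamBridge0.fixF p V := by
    intro x hx
    rw [RamBridge0.mem_fixF_iff]
    exact ((mem_unrF_iff p V x).1 hx).1
  exact Module.Finite.of_injective (IntermediateField.inclusion hle).toLinearMap
    (IntermediateField.inclusion hle).injective

end FromV

end
end Fermat.Agent.TW.FLAT.UnramBase0
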