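/-
Programme T (S56), chapter T/FLAT, local-local chain (lead): **(FLAT-RAM)** — from a flat lift to
elements of `Omega = PadicAlgCl p` with controlled ramification.

* `exists_norm_zeta_sub_lt`: `zeta - 1` is an eigenvector modulo higher order terms of every Galois
  automorphism.
* `exists_ram_of_hasFlatModel`: module form of helper6's `RamPoint6.exists_ram_element` over the
  unramified base `R0 p F0` of `UnramBase0` (no Hopf algebras in the statement): `Q` with a flat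
  model, `W` a stable subgroup of order `p^2`, killed by `p`, irreducible under inertia, `x : Q`;
  then there is an integral `z` with `sigma z = z <-> act sigma x = x` and
  `|sigma z - z|^(p^2-1) = |p|` otherwise, for all `sigma` with `act sigma x - x` in `W`.
* `gam_unrF_eq`: for `V` an open subgroup (containing a level), `Gal(Omega / unrF p V) = V . Iq`.
* `act2 rho s`: the action of `rho + eps s` on `k^2 + eps k^2` (pairs).
* **`exists_ram_of_flat`** (FLAT-RAM): if `act2 rho s` has a flat model over `Z_p`, `e` is a common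
  eigenvector and `f` a common eigen-covector of `rho` on `V . Iq` (eigenvalues `psi_e`, `psi_f`),
  `S` an additive subgroup of `k` containing `1` and stable under the `psi_e`, `mu : k ->+ Y` onto
  a group of order `p^2` with kernel stable under the `psi_f` and `Y` irreducible under inertia,
  then there is an integral `z` such that for `sigma` in `V`:
  `sigma z = z <-> mu (f (s sigma e)) = 0`, and `|sigma z - z|^(p^2-1) = |p|` otherwise.
-/
import Mathlib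
import Fermat.Agent.TW.FLAT.RamPoint6
import Fermat.Agent.TW.FLAT.UnramBase0
import Fermat.Agent.TW.FLAT.SubQuot6
import Fermat.Agent.TW.FLAT.KummerTop0
import Fermat.Agent.TW.LOC.TameProfinite4

set_option autoImplicit false
set_option linter.unusedSectionVars false
set_option linter.style.haveILetI false

namespace Fermat.Agent.TW.FLAT.FlatRam0

open Fermat.Agent.TW.FLAT.Points6 Fermat.Agent.TW.FLAT.Descent6 Fermat.Agent.TW.LOC.Defs2
  Fermat.Agent.TW.FLAT.UnramBase0 Fermat.Agent.TW.LOC.TameProfinite4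
  Fermat.Agent.TW.FLAT.BallPoints6

noncomputable section

variable (p : ℕ) [Fact p.Prime]

variable (F₀ : IntermediateField ℚ_[p] (PadicAlgCl p)) [FiniteDimensional ℚ_[p] F₀]

instance normLeOne_R0 : NormLeOne (R0 p F₀) (PadicAlgCl p) :=
  ⟨fun r => norm_algebraMap_le_one p F₀ r⟩

/-- inertia inside `Gam p F₀`. -/
abbrev IGam : Subgroup (Gam p F₀) := (Iq p).subgroupOf (Gam p F₀)

theorem igam_smul_def (σ : IGam p F₀) (y : PadicAlgCl p) : σ • y = ((σ : Gam p F₀) : Gq p) y := rfl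

theorem igam_mem (σ : IGam p F₀) : ((σ : Gam p F₀) : Gq p) ∈ Iq p := σ.2

/-- `ζ - 1` is an eigenvector modulo higher order for every Galois automorphism. -/
theorem exists_norm_zeta_sub_lt (ζ : PadicAlgCl p) (hζ : IsPrimitiveRoot ζ p) (σ : Gq p) :
    ∃ c : ℕ, ‖σ (ζ - 1) - (c : PadicAlgCl p) * (ζ - 1)‖ < ‖ζ - 1‖ := by
  have hp : p.Prime := Fact.out
  have hσζ : IsPrimitiveRoot (σ ζ) p := hζ.map_of_injective σ.injective
  obtain ⟨c, -, hc⟩ := hζ.eq_pow_of_pow_eq_one (hσζ.pow_eq_one)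
  refine ⟨c, ?_⟩
  have hlt : ‖ζ - 1‖ < 1 := KummerTop0.norm_zeta_sub_one_lt_one hp hζ (KummerTop0.norm_natCast_q_lt_one p)
  have hne : ζ - 1 ≠ 0 := sub_ne_zero.2 (hζ.ne_one hp.one_lt)
  have hpos : 0 < ‖ζ - 1‖ := norm_pos_iff.2 hne
  -- `ζ^c - 1 - c (ζ - 1) = (ζ - 1) * Σ_{i<c} (ζ^i - 1)`
  have hgeom : ζ ^ c - 1 = (ζ - 1) * ∑ i ∈ Finset.range c, ζ ^ i := by
    rw [mul_comm, geom_sum_mul]
  have hζ1 : ‖ζ‖ = 1 := by
    have h1 : ‖ζ‖ ^ p = 1 := by rw [← norm_pow, hζ.pow_eq_one, norm_one]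
    exact (pow_eq_one_iff_of_nonneg (norm_nonneg _) hp.ne_zero).1 h1
  have hsum : ∀ n : ℕ, ‖∑ i ∈ Finset.range n, (ζ ^ i - 1)‖ ≤ ‖ζ - 1‖ := by
    intro n
    apply IsUltrametricDist.norm_sum_le_of_forall_le_of_nonneg (norm_nonneg _)
    intro i _
    exact KummerTop0.norm_pow_sub_one_le ζ hζ1.le i
  have heq : σ (ζ - 1) - (c : PadicAlgCl p) * (ζ - 1) =
      (ζ - 1) * ∑ i ∈ Finset.range c, (ζ ^ i - 1) := by
    rw [map_sub, map_one, ← hc, hgeom, Finset.sum_sub_distrib]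
    simp
    ring
  rw [heq, norm_mul]
  calc ‖ζ - 1‖ * ‖∑ i ∈ Finset.range c, (ζ ^ i - 1)‖ ≤ ‖ζ - 1‖ * ‖ζ - 1‖ :=
        mul_le_mul_of_nonneg_left (hsum c) hpos.le
    _ < ‖ζ - 1‖ * 1 := mul_lt_mul_of_pos_left hlt hpos
    _ = ‖ζ - 1‖ := mul_one _

/-- **(LL-RAM), module form.**  `Q` a `Gal(Ω/F₀)`-module with a finite flat model over the ring of
integers of the unramified field `F₀`, `W ≤ Q` a stable subgroup of order `p²`, killed by `p` and
irreducible under inertia, `x : Q`: there is an integral `z : Ω` such that every `σ` moving `x`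
inside `x + W` either fixes `x` and `z` or moves `z` by exactly `‖p‖ ^ (1 / (p² - 1))`. -/
theorem exists_ram_of_hasFlatModel
    (hunr : ∀ x : PadicAlgCl p, x ∈ F₀ → ‖x‖ < 1 → ‖x‖ ≤ ‖((p : ℕ) : PadicAlgCl p)‖)
    (ζ : PadicAlgCl p) (hζ : IsPrimitiveRoot ζ p)
    {Q : Type} [AddCommGroup Q] {act : Gam p F₀ → Q → Q}
    (h : HasFlatModel (R0 p F₀) (PadicAlgCl p) (Gam p F₀) Q act)
    (W : AddSubgroup Q) (hWcard : Nat.card W = p ^ 2) (hWp : ∀ w ∈ W, p • w = 0)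
    (hWst : ∀ σ : Gam p F₀, ∀ w ∈ W, act σ w ∈ W)
    (hirr : ∀ N : AddSubgroup Q, N ≤ W →
      (∀ σ : Gam p F₀, ((σ : Gq p) ∈ Iq p) → ∀ w ∈ N, act σ w ∈ N) → N = ⊥ ∨ N = W)
    (x : Q) :
    ∃ z : PadicAlgCl p, ‖z‖ ≤ 1 ∧ ∀ σ : Gam p F₀, act σ x - x ∈ W →
      (((σ : Gq p) z = z ↔ act σ x = x) ∧
        ((σ : Gq p) z ≠ z →
          ‖(σ : Gq p) z - z‖ ^ (p ^ 2 - 1) = ‖((p : ℕ) : PadicAlgCl p)‖)) := by
  classical
  have hp : p.Prime := Fact.out
  obtain ⟨H, i1, i2, hfin, hflat, hco, e, heq⟩ := hasFlatModel_iff_mulEquiv.1 h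
  haveI : Module.Free (R0 p F₀) H := Module.free_of_flat_of_isLocalRing
  let W' : Subgroup (WithConv (H →ₐ[R0 p F₀] PadicAlgCl p)) :=
    (AddSubgroup.toSubgroup W).comap e.toMonoidHom
  have hmemW' : ∀ f, f ∈ W' ↔ Multiplicative.toAdd (e f) ∈ W := fun f => Iff.rfl
  -- cardinality
  have hWcard' : Nat.card W' = p ^ 2 := by
    rw [← hWcard]
    refine Nat.card_congr ⟨fun f => ⟨Multiplicative.toAdd (e f.1), (hmemW' f.1).1 f.2⟩,
      fun w => ⟨e.symm (Multiplicative.ofAdd w.1), by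
        rw [hmemW', MulEquiv.apply_symm_apply]; exact w.2⟩, fun f => ?_, fun w => ?_⟩
    · apply Subtype.ext
      simp
    · apply Subtype.ext
      simp
  haveI : Finite W' := Nat.finite_of_card_ne_zero (by rw [hWcard']; exact pow_ne_zero _ hp.ne_zero)
  have hWΓ : ∀ σ : Gam p F₀, ∀ f ∈ W', σ • f ∈ W' := by
    intro σ f hf
    rw [hmemW', heq]
    exact hWst σ _ ((hmemW' f).1 hf)
  have hWp' : ∀ f ∈ W', f ^ p = 1 := by
    intro f hf
    apply e.injective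
    rw [map_pow, map_one]
    have h1 := hWp _ ((hmemW' f).1 hf)
    apply Multiplicative.toAdd.injective
    rw [toAdd_pow, h1, toAdd_one]
  have hmax : ∀ r ∈ IsLocalRing.maximalIdeal (R0 p F₀), ‖algebraMap (R0 p F₀) (PadicAlgCl p) r‖ < 1 := by
    intro r hr
    rw [maximalIdeal_R0 p F₀ hunr, Ideal.mem_span_singleton'] at hr
    obtain ⟨s, rfl⟩ := hr
    rw [map_mul, norm_mul, map_natCast]
    calc ‖algebraMap (R0 p F₀) (PadicAlgCl p) s‖ * ‖((p : ℕ) : PadicAlgCl p)‖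
        ≤ 1 * ‖((p : ℕ) : PadicAlgCl p)‖ :=
          mul_le_mul_of_nonneg_right (norm_algebraMap_le_one p F₀ s) (norm_nonneg _)
      _ < 1 := by rw [one_mul]; exact KummerTop0.norm_natCast_q_lt_one p
  have hiso : ∀ (σ : IGam p F₀) (y : PadicAlgCl p), ‖σ • y‖ = ‖y‖ := fun σ y => norm_galois p _ y
  have hin : ∀ (σ : IGam p F₀) (y : PadicAlgCl p), ‖y‖ ≤ 1 → ‖σ • y - y‖ < 1 := fun σ y hy =>
    (mem_Iq_iff_norm p _).1 (igam_mem p F₀ σ) y hy
  have hirr' : ∀ N : Subgroup (WithConv (H →ₐ[R0 p F₀] PadicAlgCl p)), N ≤ W' →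
      (∀ σ : IGam p F₀, ∀ f ∈ N, σ • f ∈ N) → N = ⊥ ∨ N = W' := by
    intro N hNW hN
    let N₀ : AddSubgroup Q := AddSubgroup.toSubgroup.symm (N.map e.toMonoidHom)
    have hmemN₀ : ∀ q : Q, q ∈ N₀ ↔ e.symm (Multiplicative.ofAdd q) ∈ N := by
      intro q
      change Multiplicative.ofAdd q ∈ N.map e.toMonoidHom ↔ _
      rw [Subgroup.mem_map]
      constructor
      · rintro ⟨f, hf, hfq⟩
        have : f = e.symm (Multiplicative.ofAdd q) := by
          apply e.injective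
          rw [MulEquiv.apply_symm_apply]
          exact hfq
        rwa [← this]
      · intro hq
        exact ⟨_, hq, e.apply_symm_apply _⟩
    have h1 : N₀ ≤ W := by
      intro q hq
      have := hNW ((hmemN₀ q).1 hq)
      rw [hmemW', MulEquiv.apply_symm_apply] at this
      exact this
    have h2 : ∀ σ : Gam p F₀, ((σ : Gq p) ∈ Iq p) → ∀ w ∈ N₀, act σ w ∈ N₀ := by
      intro σ hσ w hw
      rw [hmemN₀] at hw ⊢
      have h3 := hN ⟨σ, hσ⟩ _ hw
      have h4 : (⟨σ, hσ⟩ : IGam p F₀) • e.symm (Multiplicative.ofAdd w) =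
          e.symm (Multiplicative.ofAdd (act σ w)) := by
        apply e.injective
        rw [MulEquiv.apply_symm_apply]
        apply Multiplicative.toAdd.injective
        have := heq σ (e.symm (Multiplicative.ofAdd w))
        rw [MulEquiv.apply_symm_apply, toAdd_ofAdd] at this
        rw [toAdd_ofAdd, ← this]
        rfl
      rwa [← h4]
    rcases hirr N₀ h1 h2 with h | h
    · left
      rw [eq_bot_iff]
      intro f hf
      have : Multiplicative.toAdd (e f) ∈ N₀ := by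
        rw [hmemN₀, ofAdd_toAdd, MulEquiv.symm_apply_apply]; exact hf
      rw [h, AddSubgroup.mem_bot] at this
      rw [Subgroup.mem_bot]
      apply e.injective
      rw [map_one]
      exact Multiplicative.toAdd.injective this
    · right
      apply le_antisymm hNW
      intro f hf
      have : Multiplicative.toAdd (e f) ∈ N₀ := by rw [h]; exact (hmemW' f).1 hf
      rw [hmemN₀, ofAdd_toAdd, MulEquiv.symm_apply_apply] at this
      exact this
  have hϖ : ‖ζ - 1‖ ^ (p - 1) = ‖((p : ℕ) : PadicAlgCl p)‖ := (KummerTop0.norm_natCast_eq hp hζ).symm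
  have hϖ0 : ζ - 1 ≠ 0 := sub_ne_zero.2 (hζ.ne_one hp.one_lt)
  have hϖΓ : ∀ σ : IGam p F₀, ∃ c : ℕ, ‖σ • (ζ - 1) - (c : PadicAlgCl p) * (ζ - 1)‖ < ‖ζ - 1‖ :=
    fun σ => exists_norm_zeta_sub_lt p ζ hζ _
  obtain ⟨z, hz1, hz⟩ := RamPoint6.exists_ram_element (Γ := Gam p F₀) (Γ₀ := IGam p F₀) p
    (maximalIdeal_R0 p F₀ hunr) hmax (fixedInFrac_R0 p F₀) W' hWΓ hWcard' hWp' hiso hin hirr'
    hϖ hϖ0 hϖΓ (e.symm (Multiplicative.ofAdd x))
  refine ⟨z, hz1, fun σ hσ => ?_⟩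
  have hex : Multiplicative.toAdd (e (σ • e.symm (Multiplicative.ofAdd x))) = act σ x := by
    rw [heq, MulEquiv.apply_symm_apply, toAdd_ofAdd]
  have hmem : σ • e.symm (Multiplicative.ofAdd x) * (e.symm (Multiplicative.ofAdd x))⁻¹ ∈ W' := by
    rw [hmemW', map_mul, map_inv, toAdd_mul, toAdd_inv, hex, MulEquiv.apply_symm_apply, toAdd_ofAdd,
      ← sub_eq_add_neg]
    exact hσ
  obtain ⟨h1, h2⟩ := hz σ hmem
  refine ⟨?_, h2⟩
  rw [show ((σ : Gq p) z = z) ↔ (σ • z = z) from Iff.rfl, h1]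
  constructor
  · intro h3
    rw [← hex, h3, MulEquiv.apply_symm_apply, toAdd_ofAdd]
  · intro h3
    apply e.injective
    apply Multiplicative.toAdd.injective
    rw [hex, h3, MulEquiv.apply_symm_apply, toAdd_ofAdd]

/-! ### The decomposition group of `unrF p V` -/

open Fermat.Agent.PT.GLUE.Objects21 in
theorem gam_unrF_eq (V : Subgroup (Gq p)) (hV : ∃ U ∈ (levelLoc p).sets, U ≤ V) :
    Gam p (unrF p V) = V ⊔ Iq p := by
  apply le_antisymm
  · intro τ hτ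
    obtain ⟨U, hU, hUV⟩ := hV
    obtain ⟨L, hfin, -, hL⟩ := exists_galois_level p hU
    have hopen : IsOpen ((V ⊔ Iq p : Subgroup (Gq p)) : Set (Gq p)) :=
      Subgroup.isOpen_mono (le_trans (hL.trans hUV) le_sup_left) L.fixingSubgroup_isOpen
    have hcl : IsClosed ((V ⊔ Iq p : Subgroup (Gq p)) : Set (Gq p)) :=
      Subgroup.isClosed_of_isOpen _ hopen
    have h1 := InfiniteGalois.fixingSubgroup_fixedField (k := ℚ_[p]) (K := PadicAlgCl p)
      ⟨V ⊔ Iq p, hcl⟩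
    have h2 : τ ∈ (IntermediateField.fixedField (V ⊔ Iq p : Subgroup (Gq p))).fixingSubgroup := hτ
    rw [h1] at h2
    exact h2
  · exact sup_le (le_gam_unrF p V) (Iq_le_gam_unrF p V)

/-! ### From a flat lift to ramified elements -/

section ThmA

open Fermat.Agent.PT.GLUE.Objects21

variable {k : Type} [Field k] [CharP k p]

/-- The action on `k² ⊕ ε k²` attached to `r = ρ + ε s`. -/
def act2 (ρ s : Gq p → Matrix (Fin 2) (Fin 2) k) (σ : Gq p)
    (m : (Fin 2 → k) × (Fin 2 → k)) : (Fin 2 → k) × (Fin 2 → k) :=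
  ((ρ σ).mulVec m.1, (ρ σ).mulVec m.2 + (s σ).mulVec m.1)

variable {p}

/-- **(FLAT-RAM).** -/
theorem exists_ram_of_flat (V : Subgroup (Gq p)) (hV : ∃ U ∈ (levelLoc p).sets, U ≤ V)
    (ζ : PadicAlgCl p) (hζ : IsPrimitiveRoot ζ p)
    (ρ s : Gq p → Matrix (Fin 2) (Fin 2) k)
    (hfl : HasFlatModel ℤ_[p] (PadicAlgCl p) (Gq p) ((Fin 2 → k) × (Fin 2 → k)) (act2 p ρ s))
    (e : Fin 2 → k) (he : e ≠ 0) (f : (Fin 2 → k) →ₗ[k] k) (hf : f ≠ 0)
    (ψe ψf : Gq p → k)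
    (hψe : ∀ σ ∈ V ⊔ Iq p, (ρ σ).mulVec e = ψe σ • e)
    (hψf : ∀ σ ∈ V ⊔ Iq p, ∀ w, f ((ρ σ).mulVec w) = ψf σ * f w)
    (hψeV : ∀ σ ∈ V, ψe σ = 1)
    (S : AddSubgroup k) (h1S : (1 : k) ∈ S) (hS : ∀ σ ∈ V ⊔ Iq p, ∀ a ∈ S, ψe σ * a ∈ S)
    {Y : Type} [AddCommGroup Y] (μ : k →+ Y) (hμ : Function.Surjective μ)
    (hY : Nat.card Y = p ^ 2)
    (hker : ∀ σ ∈ V ⊔ Iq p, ∀ a, μ a = 0 → μ (ψf σ * a) = 0)
    (hirr : ∀ N : AddSubgroup Y, (∀ σ ∈ Iq p, ∀ a, μ a ∈ N → μ (ψf σ * a) ∈ N) → N = ⊥ ∨ N = ⊤) :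
    ∃ z : PadicAlgCl p, ‖z‖ ≤ 1 ∧ ∀ σ ∈ V,
      ((σ z = z ↔ μ (f ((s σ).mulVec e)) = 0) ∧
        (σ z ≠ z → ‖σ z - z‖ ^ (p ^ 2 - 1) = ‖((p : ℕ) : PadicAlgCl p)‖)) := by
  classical
  haveI : FiniteDimensional ℚ_[p] (unrF p V) := finiteDimensional_unrF p V hV
  have h1 := hasFlatModel_base p (unrF p V) hfl
  have hΓ : ∀ σ : Gam p (unrF p V), (σ : Gq p) ∈ V ⊔ Iq p := fun σ => by
    exact (gam_unrF_eq p V hV).le σ.2
  -- the induced map on `Y`
  let b : Gq p → Y → Y := fun σ y => μ (ψf σ * Function.surjInv hμ y)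
  have hb : ∀ σ ∈ V ⊔ Iq p, ∀ a, b σ (μ a) = μ (ψf σ * a) := by
    intro σ hσ a
    have h2 : μ (Function.surjInv hμ (μ a) - a) = 0 := by
      rw [map_sub, Function.surjInv_eq hμ, sub_self]
    have h3 := hker σ hσ _ h2
    rw [mul_sub, map_sub, sub_eq_zero] at h3
    exact h3
  have hb0 : ∀ σ ∈ V ⊔ Iq p, b σ 0 = 0 := by
    intro σ hσ
    have := hb σ hσ 0
    rwa [map_zero, mul_zero, map_zero] at this
  have hbadd : ∀ σ ∈ V ⊔ Iq p, ∀ y y', b σ (y + y') = b σ y + b σ y' := by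
    intro σ hσ y y'
    obtain ⟨a, rfl⟩ := hμ y
    obtain ⟨a', rfl⟩ := hμ y'
    rw [← map_add, hb σ hσ, hb σ hσ, hb σ hσ, mul_add, map_add]
  -- the intermediate module
  let act' : Gam p (unrF p V) → (↥S × (Fin 2 → k)) → (↥S × (Fin 2 → k)) := fun σ m =>
    (⟨ψe (σ : Gq p) * (m.1 : k), hS _ (hΓ σ) _ m.1.2⟩,
      (ρ (σ : Gq p)).mulVec m.2 + (m.1 : k) • (s (σ : Gq p)).mulVec e)
  let ι : (↥S × (Fin 2 → k)) →+ ((Fin 2 → k) × (Fin 2 → k)) :=
    { toFun := fun m => ((m.1 : k) • e, m.2)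
      map_zero' := by simp
      map_add' := fun m m' => by simp [add_smul] }
  have hι : Function.Injective ι := by
    intro m m' h
    have h2 : ((m.1 : k) • e, m.2) = ((m'.1 : k) • e, m'.2) := h
    rw [Prod.mk.injEq] at h2
    obtain ⟨h3, h4⟩ := h2
    have h5 : ((m.1 : k) - (m'.1 : k)) • e = 0 := by rw [sub_smul, h3, sub_self]
    rcases smul_eq_zero.1 h5 with h6 | h6
    · exact Prod.ext (Subtype.ext (sub_eq_zero.1 h6)) h4
    · exact absurd h6 he
  have hιact : ∀ (σ : Gam p (unrF p V)) (m : ↥S × (Fin 2 → k)),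
      ι (act' σ m) = act2 p ρ s (σ : Gq p) (ι m) := by
    intro σ m
    change ((ψe (σ : Gq p) * (m.1 : k)) • e, _) = ((ρ (σ : Gq p)).mulVec ((m.1 : k) • e), _)
    rw [Matrix.mulVec_smul, hψe _ (hΓ σ), smul_smul, mul_comm]
    congr 1
    change _ = (ρ (σ : Gq p)).mulVec m.2 + (s (σ : Gq p)).mulVec ((m.1 : k) • e)
    rw [Matrix.mulVec_smul]
  -- the quotient module
  let act'' : Gam p (unrF p V) → (↥S × Y) → (↥S × Y) := fun σ m =>
    (⟨ψe (σ : Gq p) * (m.1 : k), hS _ (hΓ σ) _ m.1.2⟩,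
      b (σ : Gq p) m.2 + μ ((m.1 : k) * f ((s (σ : Gq p)).mulVec e)))
  let π : (↥S × (Fin 2 → k)) →+ (↥S × Y) :=
    { toFun := fun m => (m.1, μ (f m.2))
      map_zero' := by simp
      map_add' := fun m m' => by simp }
  have hπ : Function.Surjective π := by
    rintro ⟨a, y⟩
    obtain ⟨t, rfl⟩ := hμ y
    have hfs : Function.Surjective f := by
      by_contra hns
      apply hf
      apply LinearMap.ext
      intro w
      by_contra hw
      apply hns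
      intro c
      refine ⟨(c * (f w)⁻¹) • w, ?_⟩
      rw [map_smul, smul_eq_mul, mul_assoc, inv_mul_cancel₀ hw, mul_one]
    obtain ⟨w, rfl⟩ := hfs t
    exact ⟨(a, w), rfl⟩
  have hπact : ∀ (σ : Gam p (unrF p V)) (m : ↥S × (Fin 2 → k)), π (act' σ m) = act'' σ (π m) := by
    intro σ m
    change (_, μ (f ((ρ (σ : Gq p)).mulVec m.2 + (m.1 : k) • (s (σ : Gq p)).mulVec e))) =
      (_, b (σ : Gq p) (μ (f m.2)) + μ ((m.1 : k) * f ((s (σ : Gq p)).mulVec e)))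
    rw [map_add, map_smul, hψf _ (hΓ σ), map_add, hb _ (hΓ σ), smul_eq_mul]
    rfl
  have h2 : HasFlatModel (R0 p (unrF p V)) (PadicAlgCl p) (Gam p (unrF p V)) (↥S × Y) act'' :=
    HasFlatModel.subquotient (fixedInFrac_R0 p (unrF p V)) h1 ι hι hιact π hπ hπact
  -- the irreducible subgroup
  let W : AddSubgroup (↥S × Y) := AddSubgroup.prod ⊥ ⊤
  have hmemW : ∀ m : ↥S × Y, m ∈ W ↔ m.1 = 0 := by
    intro m
    change m ∈ AddSubgroup.prod ⊥ ⊤ ↔ _
    rw [AddSubgroup.mem_prod]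
    simp
  have hWcard : Nat.card W = p ^ 2 := by
    rw [← hY]
    refine Nat.card_congr ⟨fun m => m.1.2, fun y => ⟨(0, y), (hmemW _).2 rfl⟩, fun m => ?_,
      fun y => rfl⟩
    apply Subtype.ext
    exact Prod.ext ((hmemW _).1 m.2).symm rfl
  have hWp : ∀ w ∈ W, p • w = 0 := by
    intro w hw
    obtain ⟨a, ha⟩ := hμ w.2
    apply Prod.ext
    · change p • w.1 = 0
      rw [(hmemW w).1 hw, smul_zero]
    · change p • w.2 = 0
      rw [← ha, ← map_nsmul, nsmul_eq_mul, CharP.cast_eq_zero, zero_mul, map_zero]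
  have hWst : ∀ σ : Gam p (unrF p V), ∀ w ∈ W, act'' σ w ∈ W := by
    intro σ w hw
    rw [hmemW] at hw ⊢
    apply Subtype.ext
    change ψe (σ : Gq p) * (w.1 : k) = 0
    rw [hw]
    simp
  have hirrW : ∀ N : AddSubgroup (↥S × Y), N ≤ W →
      (∀ σ : Gam p (unrF p V), ((σ : Gq p) ∈ Iq p) → ∀ w ∈ N, act'' σ w ∈ N) → N = ⊥ ∨ N = W := by
    intro N hNW hN
    let N₂ : AddSubgroup Y := N.comap (AddMonoidHom.inr ↥S Y)
    have hmemN₂ : ∀ y, y ∈ N₂ ↔ ((0 : ↥S), y) ∈ N := fun y => Iff.rfl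
    have hN₂ : ∀ σ ∈ Iq p, ∀ a, μ a ∈ N₂ → μ (ψf σ * a) ∈ N₂ := by
      intro σ hσ a ha
      rw [hmemN₂] at ha ⊢
      have hσΓ : σ ∈ Gam p (unrF p V) := Iq_le_gam_unrF p V hσ
      have h3 := hN ⟨σ, hσΓ⟩ hσ _ ha
      have h4 : act'' ⟨σ, hσΓ⟩ ((0 : ↥S), μ a) = ((0 : ↥S), μ (ψf σ * a)) := by
        apply Prod.ext
        · apply Subtype.ext
          change ψe σ * ((0 : ↥S) : k) = 0
          simp
        · change b σ (μ a) + μ (((0 : ↥S) : k) * _) = μ (ψf σ * a)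
          rw [hb σ (Subgroup.mem_sup_right hσ)]
          simp
      rwa [h4] at h3
    rcases hirr N₂ hN₂ with h | h
    · left
      rw [eq_bot_iff]
      intro m hm
      have hm1 := (hmemW m).1 (hNW hm)
      have : m.2 ∈ N₂ := by
        rw [hmemN₂]
        convert hm using 1
        exact Prod.ext hm1.symm rfl
      rw [h, AddSubgroup.mem_bot] at this
      rw [AddSubgroup.mem_bot]
      exact Prod.ext hm1 this
    · right
      apply le_antisymm hNW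
      intro m hm
      have hm1 := (hmemW m).1 hm
      have : m.2 ∈ N₂ := by rw [h]; trivial
      rw [hmemN₂] at this
      convert this using 1
      exact Prod.ext hm1 rfl
  obtain ⟨z, hz1, hz⟩ := exists_ram_of_hasFlatModel p (unrF p V)
    (fun x hx h => unrF_unramified p V x hx h) ζ hζ h2 W hWcard hWp hWst hirrW
    (⟨1, h1S⟩, 0)
  refine ⟨z, hz1, fun σ hσ => ?_⟩
  have hσΓ : σ ∈ Gam p (unrF p V) := le_gam_unrF p V hσ
  have hact : act'' ⟨σ, hσΓ⟩ (⟨1, h1S⟩, 0) = (⟨1, h1S⟩, μ (f ((s σ).mulVec e))) := by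
    apply Prod.ext
    · apply Subtype.ext
      change ψe σ * 1 = 1
      rw [hψeV σ hσ, mul_one]
    · change b σ 0 + μ ((1 : k) * _) = _
      rw [hb0 σ (Subgroup.mem_sup_left hσ), zero_add, one_mul]
  have hmem : act'' ⟨σ, hσΓ⟩ (⟨1, h1S⟩, 0) - (⟨1, h1S⟩, 0) ∈ W := by
    rw [hact, hmemW]
    change (⟨1, h1S⟩ : ↥S) - ⟨1, h1S⟩ = 0
    rw [sub_self]
  obtain ⟨h3, h4⟩ := hz ⟨σ, hσΓ⟩ hmem
  refine ⟨?_, h4⟩
  rw [show (σ z = z) ↔ (((⟨σ, hσΓ⟩ : Gam p (unrF p V)) : Gq p) z = z) from Iff.rfl, h3, hact]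
  constructor
  · intro h5
    have := congrArg Prod.snd h5
    exact this
  · intro h5
    rw [h5]

end ThmA

end

end Fermat.Agent.TW.FLAT.FlatRam0
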