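/-
Programme T (S56), chapter FLAT, brick (LL-COH), part 5 — helper3.

WEIGHTS OF `Ad(A)` ON `2 × 2` MATRICES (pure linear algebra, Mathlib only).

* abstract part: an endomorphism `T` of a `k`-module with `P(T)(T - 1) = 0` for
  `P = b X² - s X + b` (`KillsAug T b s`) and `P(1) = 2b - s ≠ 0`: `KillsAug.fixed`
  (`P(T) x` is `T`-fixed), `KillsAug.eq_zero_of_fixed_of_mem_range`
  (`ker (T - 1) ∩ range (T - 1) = 0`), `KillsAug.exists_decomp` (`N = ker (T - 1) + range (T - 1)`);
* matrix part: `conj_killsAug` — for `T X = A X A⁻¹` on `M₂(k)`, `a = tr A`, `b = det A`: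
  `(b T² - (a² - 2b) T + b)(T - 1) = 0` (the eigenvalues of `Ad(A)` are `1, λ/μ, μ/λ`);
  `exists_fixed` — a nonzero trace-zero matrix commuting with `A` when `a² ≠ 4b`, `2 ≠ 0`.
-/
import Mathlib

set_option autoImplicit false

namespace Fermat.Agent.TW.FLAT.AdWeights3

/-! ### Abstract part: an endomorphism with `P(T)(T - 1) = 0`, `P = bX² - sX + b`, `P(1) ≠ 0` -/

section Abstract

variable {k : Type*} [Field k] {N : Type*} [AddCommGroup N] [Module k N]
variable (T : N →ₗ[k] N) (b s : k)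

/-- `P(T) x` for `P = b X² - s X + b`. -/
def polyP (x : N) : N := b • T (T x) - s • T x + b • x

theorem polyP_comm (x : N) : polyP T b s (T x) = T (polyP T b s x) := by
  simp only [polyP, map_add, map_sub, map_smul]

/-- The hypothesis `P(T)(T - 1) = 0`. -/
def KillsAug : Prop := ∀ x, polyP T b s (T x - x) = 0

variable {T b s}

theorem polyP_sub (x y : N) : polyP T b s (x - y) = polyP T b s x - polyP T b s y := by
  simp only [polyP, map_sub, smul_sub]
  abel

theorem polyP_of_fixed {x : N} (hx : T x = x) : polyP T b s x = (2 * b - s) • x := by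
  simp only [polyP, hx]
  rw [sub_smul, two_mul, add_smul]
  abel

theorem KillsAug.fixed (h : KillsAug T b s) (x : N) : T (polyP T b s x) = polyP T b s x := by
  have := h x
  rw [polyP_sub, polyP_comm, sub_eq_zero] at this
  exact this

/-- `ker (T - 1) ∩ range (T - 1) = 0`. -/
theorem KillsAug.eq_zero_of_fixed_of_mem_range (h : KillsAug T b s) (h1 : 2 * b - s ≠ 0) {x : N}
    (hx : T x = x) (hr : ∃ y, x = T y - y) : x = 0 := by
  obtain ⟨y, rfl⟩ := hr
  have h2 := h y
  rw [polyP_of_fixed hx] at h2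
  exact (smul_eq_zero.1 h2).resolve_left h1

/-- `N = ker (T - 1) + range (T - 1)`: the explicit decomposition. -/
theorem KillsAug.exists_decomp (h : KillsAug T b s) (h1 : 2 * b - s ≠ 0) (x : N) :
    ∃ x₀ y, T x₀ = x₀ ∧ x = x₀ + (T y - y) := by
  refine ⟨(2 * b - s)⁻¹ • polyP T b s x, -((2 * b - s)⁻¹ • (b • T x + (b - s) • x)), ?_, ?_⟩
  · rw [map_smul, h.fixed]
  · have e : (2 * b - s) • x =
        polyP T b s x - (T (b • T x + (b - s) • x) - (b • T x + (b - s) • x)) := by
      simp only [polyP, map_add, map_smul]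
      module
    have e2 : x = (2 * b - s)⁻¹ • ((2 * b - s) • x) := by
      rw [smul_smul, inv_mul_cancel₀ h1, one_smul]
    rw [map_neg, map_smul]
    conv_lhs => rw [e2, e]
    module

end Abstract

/-! ### The matrix identity -/

open Matrix

theorem key_entries {k : Type*} [Field k] (x y z w e f g h : k) (hd : x * w - y * z ≠ 0) :
    let A : Matrix (Fin 2) (Fin 2) k := !![x, y; z, w]
    let A' : Matrix (Fin 2) (Fin 2) k := (x * w - y * z)⁻¹ • !![w, -y; -z, x]
    let X : Matrix (Fin 2) (Fin 2) k := !![e, f; g, h]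
    let T : Matrix (Fin 2) (Fin 2) k → Matrix (Fin 2) (Fin 2) k := fun Y => A * Y * A'
    (x * w - y * z) • T (T (T X - X)) - ((x + w) ^ 2 - 2 * (x * w - y * z)) • T (T X - X)
      + (x * w - y * z) • (T X - X) = 0 := by
  intro A A' X T
  ext i j
  fin_cases i <;> fin_cases j <;>
  · simp only [T, A, A', X, Matrix.mul_apply, Fin.sum_univ_two, Matrix.smul_apply, Matrix.add_apply,
      Matrix.sub_apply, Matrix.of_apply, Matrix.cons_val', Matrix.cons_val_zero, Matrix.cons_val_one,
      Matrix.zero_apply, smul_eq_mul, Fin.zero_eta, Fin.mk_one, Matrix.cons_val_fin_one,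
      Fin.isValue]
    field_simp
    ring

/-- **The weight identity for `Ad(A)`**: with `T X = A X A⁻¹`, `a = tr A`, `b = det A`,
`(b T² - (a² - 2b) T + b)(T - 1) = 0`. -/
theorem conj_killsAug {k : Type*} [Field k] (A A' X : Matrix (Fin 2) (Fin 2) k) (h : A * A' = 1) :
    A.det • (A * (A * (A * X * A' - X) * A') * A')
      - (A.trace ^ 2 - 2 * A.det) • (A * (A * X * A' - X) * A') + A.det • (A * X * A' - X) = 0 := by
  have hdet : A.det ≠ 0 := by
    intro h0
    have := congrArg Matrix.det h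
    rw [Matrix.det_mul, h0, zero_mul, Matrix.det_one] at this
    exact zero_ne_one this
  have hA' : A' = (A.det)⁻¹ • A.adjugate := by
    rw [← Matrix.inv_eq_right_inv h, Matrix.inv_def, Ring.inverse_eq_inv']
  have hA : A = !![A 0 0, A 0 1; A 1 0, A 1 1] := by
    ext i j; fin_cases i <;> fin_cases j <;> rfl
  have hX : X = !![X 0 0, X 0 1; X 1 0, X 1 1] := by
    ext i j; fin_cases i <;> fin_cases j <;> rfl
  have hd : A 0 0 * A 1 1 - A 0 1 * A 1 0 ≠ 0 := by rwa [← Matrix.det_fin_two]
  have key := key_entries (A 0 0) (A 0 1) (A 1 0) (A 1 1) (X 0 0) (X 0 1) (X 1 0) (X 1 1) hd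
  simp only at key
  rw [hA', Matrix.adjugate_fin_two, Matrix.det_fin_two, Matrix.trace_fin_two]
  rw [← hA, ← hX] at key
  exact key

/-- A nonzero trace-zero matrix fixed by `Ad(A)`, when the discriminant of `A` is nonzero. -/
theorem exists_fixed {k : Type*} [Field k] (A A' : Matrix (Fin 2) (Fin 2) k) (h : A * A' = 1)
    (h2 : (2 : k) ≠ 0) (hdisc : A.trace ^ 2 - 4 * A.det ≠ 0) :
    ∃ X : Matrix (Fin 2) (Fin 2) k, X.trace = 0 ∧ X ≠ 0 ∧ A * X * A' = X := by
  refine ⟨A - (A.trace / 2) • (1 : Matrix (Fin 2) (Fin 2) k), ?_, ?_, ?_⟩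
  · rw [Matrix.trace_sub, Matrix.trace_smul, Matrix.trace_one, Fintype.card_fin, smul_eq_mul]
    push_cast
    field_simp
    ring
  · intro h0
    apply hdisc
    have hA : A = (A.trace / 2) • (1 : Matrix (Fin 2) (Fin 2) k) := sub_eq_zero.1 h0
    have hdet : A.det = (A.trace / 2) ^ 2 := by
      conv_lhs => rw [hA]
      rw [Matrix.det_smul, Matrix.det_one, Fintype.card_fin, mul_one]
    rw [hdet]
    field_simp
    ring
  · have hcomm : A * (A - (A.trace / 2) • (1 : Matrix (Fin 2) (Fin 2) k)) =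
        (A - (A.trace / 2) • (1 : Matrix (Fin 2) (Fin 2) k)) * A := by
      rw [mul_sub, sub_mul, Matrix.mul_smul, Matrix.smul_mul, mul_one, one_mul]
    rw [hcomm, mul_assoc, h, mul_one]

end Fermat.Agent.TW.FLAT.AdWeights3
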