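/-
Programme T (S56), chapter FLAT, brick (LL-COH), part 1 — helper3.

INFLATION–RESTRICTION bookkeeping for `groupCohomology` 1-cocycles of `A : Rep k G`:

* `mem_cocycles₁_iff_isCoc`, `mem_coboundaries₁_iff_isCob`: dictionary with `Coc3.IsCoc`/`IsCob`;
* `mem_coboundaries₁_of_restrict_eq_zero`: a cocycle vanishing on a subgroup `V` of finite index
  invertible in `k` is a coboundary (restriction is injective on `H¹`);
* `cocycle_mul`, `cocycle_one`; on a subgroup acting trivially a cocycle is additive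
  (`restrict_mul`, `restrict_inv`), and if that subgroup is normal it is conjugation-equivariant
  (`restrict_conj : c (g * v * g⁻¹) = ρ g (c v)`).
-/
import Mathlib
import Fermat.Agent.PT.PRO.LevelCoh28
import Fermat.Agent.TW.GRP.Coc3

set_option autoImplicit false

open groupCohomology
open Fermat.Agent.PT.PRO.LevelCoh28 Fermat.Agent.TW.GRP

namespace Fermat.Agent.TW.FLAT.InfRes3

variable {k G : Type} [CommRing k] [Group G] (A : Rep.{0} k G)

theorem mem_cocycles₁_iff_isCoc (f : G → A.V) : f ∈ cocycles₁ A ↔ Coc3.IsCoc A.ρ f := by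
  rw [mem_cocycles₁_iff]
  refine forall_congr' fun g => forall_congr' fun h => ?_
  rw [add_comm]

theorem mem_coboundaries₁_iff_isCob (f : G → A.V) : f ∈ coboundaries₁ A ↔ Coc3.IsCob A.ρ f := by
  constructor
  · rintro ⟨w, rfl⟩
    exact ⟨w, fun g => rfl⟩
  · rintro ⟨w, hw⟩
    refine ⟨w, ?_⟩
    funext g
    exact (hw g).symm

variable {A}

/-- **Restriction is injective on `H¹`** for a subgroup of finite index invertible in `k`. -/
theorem mem_coboundaries₁_of_restrict_eq_zero (V : Subgroup G) [V.FiniteIndex]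
    (hu : IsUnit ((V.index : ℕ) : k)) {c : G → A.V} (hc : c ∈ cocycles₁ A)
    (h0 : ∀ v ∈ V, c v = 0) : c ∈ coboundaries₁ A := by
  rw [mem_coboundaries₁_iff_isCob]
  refine Coc3.isCob_of_restrict V hu ((mem_cocycles₁_iff_isCoc A c).mp hc) ⟨0, fun v hv => ?_⟩
  rw [h0 v hv, map_zero, sub_zero]

theorem cocycle_mul {c : G → A.V} (hc : c ∈ cocycles₁ A) (g h : G) :
    c (g * h) = c g + A.ρ g (c h) := (mem_cocycles₁_iff_isCoc A c).mp hc g h

theorem cocycle_one {c : G → A.V} (hc : c ∈ cocycles₁ A) : c 1 = 0 :=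
  ((mem_cocycles₁_iff_isCoc A c).mp hc).map_one

/-- On a subgroup acting trivially, a cocycle is additive. -/
theorem restrict_mul {c : G → A.V} (hc : c ∈ cocycles₁ A) {V : Subgroup G}
    (htriv : ∀ v ∈ V, A.ρ v = 1) {v : G} (hv : v ∈ V) (v' : G) : c (v * v') = c v + c v' := by
  rw [cocycle_mul hc, htriv v hv, Module.End.one_apply]

theorem restrict_inv {c : G → A.V} (hc : c ∈ cocycles₁ A) {V : Subgroup G}
    (htriv : ∀ v ∈ V, A.ρ v = 1) {v : G} (hv : v ∈ V) : c v⁻¹ = - c v := by
  have h := restrict_mul hc htriv hv v⁻¹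
  rw [mul_inv_cancel, cocycle_one hc] at h
  exact eq_neg_of_add_eq_zero_right h.symm

/-- On a normal subgroup acting trivially, a cocycle is equivariant for conjugation. -/
theorem restrict_conj {c : G → A.V} (hc : c ∈ cocycles₁ A) {V : Subgroup G} [hn : V.Normal]
    (htriv : ∀ v ∈ V, A.ρ v = 1) (g : G) {v : G} (hv : v ∈ V) :
    c (g * v * g⁻¹) = A.ρ g (c v) := by
  have hconj : g * v * g⁻¹ ∈ V := hn.conj_mem v hv g
  -- `c (g v) = c (g v g⁻¹ · g)`
  have h1 : c (g * v) = c g + A.ρ g (c v) := cocycle_mul hc g v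
  have h2 : c (g * v) = c (g * v * g⁻¹) + c g := by
    have := restrict_mul hc htriv hconj g
    rwa [inv_mul_cancel_right] at this
  rw [h1] at h2
  have h3 : c g + A.ρ g (c v) = c g + c (g * v * g⁻¹) := by rw [h2, add_comm]
  exact (add_left_cancel h3).symm

end Fermat.Agent.TW.FLAT.InfRes3
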