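/-
Programme T (S56), chapter FLAT, brick (LL-COUNT), part 1 — helper9.

THE UNIT FILTRATION of a `p`-adic field `F` in the abstract model of
`Fermat.Agent.PT.LOC.Interface12` / `Structure14` (`𝒪 = intRing p F`, `‖·‖ = snorm p F`,
`κ = resF p F`), and its graded pieces as Galois modules.

* `res p F : F → κ`: residue class of an integral element (junk value `0` outside `𝒪`);
  `res_of_mem`, `res_add`, `res_mul`, `res_neg`, `res_sub`, `res_pow`, `res_one`, `res_zero`,
  `res_eq_zero_iff`, `res_eq_res_iff`, `res_surjective`, `res_galois`, `res_natCast`;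
* `unitFil p F m : Subgroup Fˣ` (`U^(m)`, `U^(0) = unitGroup`), `mem_unitFil_iff`,
  `mem_unitFil_iff_snorm`, `mem_unitFil_of_snorm`, `mem_unitFil_of_eq`, `unitFil_zero`,
  `unitFil_anti`, `map_mem_unitFil_iff` (Galois stability), `eq_one_of_forall_mem` (separatedness),
  `exists_mem_not_mem_succ` (exact level of a principal unit `≠ 1`);
* `grMap p F π m : Fˣ → κ`, `x ↦ [(x - 1) / π ^ m]`: `grMap_mul`, `grMap_one`, `grMap_inv`,
  `grMap_pow`, `grMap_div`, `grMap_eq_zero_iff` (kernel `U^(m+1)`), `grMap_surjective`, the bundled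
  `grHom`, `ker_grHom`, `grHom_surjective`;
* EQUIVARIANCE: `grMap_galois : gr_m (σ x) = [σ π / π] ^ m * σ̄ (gr_m x)` for `σ ∈ Gal(F/E)` and
  `grMap_inertia : gr_m (τ x) = θ₀(τ) ^ m * gr_m x` for `τ` in the inertia group
  (`thetaX`, `theta0`, `redHom` of `TameInertia4` / `Unram11`).
-/
import Mathlib
import Fermat.Agent.PT.LOC.Interface12
import Fermat.Agent.PT.LOC.Structure14
import Fermat.Agent.PT.LOC.StructureNorm14
import Fermat.Agent.PT.LOC.StructureTower27
import Fermat.Agent.PT.LOC.StructureTowerEF27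
import Fermat.Agent.PT.LOC.RootsUnity14
import Fermat.Agent.PT.LOC.Unram11
import Fermat.Agent.TW.LOC.TameInertia4

set_option autoImplicit false
set_option linter.unusedSectionVars false

open scoped Fermat.Agent.PT.LOC.Interface12 Fermat.Agent.PT.LOC.StructureTower27
open Fermat.Agent.PT.LOC.Interface12 Fermat.Agent.PT.LOC.Structure14
  Fermat.Agent.PT.LOC.StructureNorm14 Fermat.Agent.PT.LOC.StructureTower27
  Fermat.Agent.PT.LOC.StructureTowerEF27 Fermat.Agent.PT.LOC.RootsUnity14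
  Fermat.Agent.PT.LOC.Unram11 Fermat.Agent.TW.LOC.TameInertia4

namespace Fermat.Agent.TW.FLAT.UnitFil9

noncomputable section

variable (p : ℕ) [Fact p.Prime] (F : Type) [Field F] [Algebra ℚ_[p] F] [FiniteDimensional ℚ_[p] F]

/-! ### The residue map as a total function -/

open Classical in
/-- The residue class of an integral element of `F` (and `0` for non-integral elements). -/
def res (a : F) : resF p F :=
  if h : a ∈ intRing p F then Ideal.Quotient.mk (mI p F) ⟨a, h⟩ else 0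

variable {p F}

theorem res_of_mem {a : F} (ha : a ∈ intRing p F) :
    res p F a = Ideal.Quotient.mk (mI p F) ⟨a, ha⟩ := dif_pos ha

theorem res_add {a b : F} (ha : a ∈ intRing p F) (hb : b ∈ intRing p F) :
    res p F (a + b) = res p F a + res p F b := by
  rw [res_of_mem ha, res_of_mem hb, res_of_mem (add_mem ha hb), ← map_add]
  rfl

theorem res_mul {a b : F} (ha : a ∈ intRing p F) (hb : b ∈ intRing p F) :
    res p F (a * b) = res p F a * res p F b := by
  rw [res_of_mem ha, res_of_mem hb, res_of_mem (mul_mem ha hb), ← map_mul]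
  rfl

theorem res_zero : res p F (0 : F) = 0 := by
  rw [res_of_mem (zero_mem _)]
  exact map_zero _

theorem res_one : res p F (1 : F) = 1 := by
  rw [res_of_mem (one_mem _)]
  exact map_one _

theorem res_neg {a : F} (ha : a ∈ intRing p F) : res p F (-a) = - res p F a := by
  rw [res_of_mem ha, res_of_mem (neg_mem ha), ← map_neg]
  rfl

theorem res_sub {a b : F} (ha : a ∈ intRing p F) (hb : b ∈ intRing p F) :
    res p F (a - b) = res p F a - res p F b := by
  rw [sub_eq_add_neg, res_add ha (neg_mem hb), res_neg hb, sub_eq_add_neg]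

theorem res_pow {a : F} (ha : a ∈ intRing p F) (n : ℕ) : res p F (a ^ n) = res p F a ^ n := by
  induction n with
  | zero => simp [res_one]
  | succ n ih => rw [pow_succ, res_mul (pow_mem ha n) ha, ih, pow_succ]

theorem res_natCast (n : ℕ) : res p F (n : F) = (n : resF p F) := by
  rw [res_of_mem (natCast_mem _ n)]
  exact map_natCast (Ideal.Quotient.mk (mI p F)) n

theorem res_eq_zero_iff {a : F} (ha : a ∈ intRing p F) : res p F a = 0 ↔ snorm p F a < 1 := by
  rw [res_of_mem ha, Ideal.Quotient.eq_zero_iff_mem, mem_maximalIdeal_iff_snorm]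

theorem res_eq_zero_of_snorm_lt {a : F} (ha : snorm p F a < 1) : res p F a = 0 :=
  (res_eq_zero_iff ((mem_intRing_iff p F a).2 ha.le)).2 ha

theorem res_eq_res_iff {a b : F} (ha : a ∈ intRing p F) (hb : b ∈ intRing p F) :
    res p F a = res p F b ↔ snorm p F (a - b) < 1 := by
  rw [← sub_eq_zero, ← res_sub ha hb, res_eq_zero_iff (sub_mem ha hb)]

theorem res_surjective (c : resF p F) : ∃ a ∈ intRing p F, res p F a = c := by
  obtain ⟨a, rfl⟩ := Ideal.Quotient.mk_surjective c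
  exact ⟨a, a.2, res_of_mem a.2⟩

/-- Integral elements, in terms of the spectral norm. -/
theorem mem_intRing_iff_snorm (a : F) : a ∈ intRing p F ↔ snorm p F a ≤ 1 :=
  mem_intRing_iff p F a

section Galois

variable {E : Type} [Field E] [Algebra ℚ_[p] E] [FiniteDimensional ℚ_[p] E] [Algebra E F]
  [IsScalarTower ℚ_[p] E F] [IsGalois E F]

theorem res_galois (σ : F ≃ₐ[E] F) {a : F} (ha : a ∈ intRing p F) :
    res p F (σ a) = redHom p E F σ (res p F a) := by
  rw [res_of_mem ha, res_of_mem ((mem_intRing_galois_iff p E F σ a).2 ha), redHom_mk]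
  rfl

end Galois

/-! ### The unit filtration -/

variable (p F)

/-- The common norm of the uniformizers. -/
def unifNorm : ℝ := snorm p F ((unif p F : Fˣ) : F)

variable {p F}

theorem snorm_uniformizer {π : F} (hπ : IsUniformizer p F π) : snorm p F π = unifNorm p F := by
  have h0 : π ≠ 0 := hπ.2.1
  have h := snorm_eq_zpow p F (unif p F) (isUniformizer_unif p F) (Units.mk0 π h0)
  rw [(isUniformizer_iff_ord p F (Units.mk0 π h0)).1 (by simpa using hπ), zpow_one] at h
  simpa [unifNorm] using h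

theorem unifNorm_pos : 0 < unifNorm p F := snorm_pos p F (unif p F).ne_zero

theorem unifNorm_lt_one : unifNorm p F < 1 :=
  snorm_uniformizer_lt_one p F _ (isUniformizer_unif p F)

theorem snorm_uniformizer_pos {π : F} (hπ : IsUniformizer p F π) : 0 < snorm p F π :=
  snorm_pos p F hπ.2.1

/-- An element at distance `< 1` from `1` has norm `1`. -/
theorem snorm_eq_one_of_sub_lt {x : F} (h : snorm p F (x - 1) < 1) : snorm p F x = 1 := by
  apply le_antisymm
  · have h1 := snorm_add_le_max p F (x - 1) 1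
    rw [sub_add_cancel, snorm_one] at h1
    exact h1.trans (max_le h.le le_rfl)
  · by_contra hlt
    push Not at hlt
    have h1 := snorm_sub_le_max p F x (x - 1)
    rw [sub_sub_cancel, snorm_one] at h1
    have := h1.trans (max_le hlt.le h.le)
    have h2 : max (snorm p F x) (snorm p F (x - 1)) < 1 := max_lt hlt h
    exact absurd h1 (not_le.2 h2)

variable (p F)

/-- **The unit filtration** `U^(m) = {x ∈ 𝒪ˣ | x ≡ 1 mod 𝔪^m}`. -/
def unitFil (m : ℕ) : Subgroup Fˣ where
  carrier := {x | x ∈ unitGroup p F ∧ snorm p F ((x : F) - 1) ≤ unifNorm p F ^ m}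
  one_mem' := ⟨one_mem _, by
    rw [Units.val_one, sub_self, snorm_zero]
    exact pow_nonneg unifNorm_pos.le m⟩
  mul_mem' := by
    rintro x y ⟨hx, hx'⟩ ⟨hy, hy'⟩
    refine ⟨mul_mem hx hy, ?_⟩
    have hy1 : snorm p F (y : F) = 1 := (mem_unitGroup_iff_snorm p F y).1 hy
    have e : ((x * y : Fˣ) : F) - 1 = ((x : F) - 1) * (y : F) + ((y : F) - 1) := by
      rw [Units.val_mul]; ring
    rw [e]
    refine (snorm_add_le_max p F _ _).trans (max_le ?_ hy')
    rw [snorm_mul, hy1, mul_one]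
    exact hx'
  inv_mem' := by
    rintro x ⟨hx, hx'⟩
    refine ⟨inv_mem hx, ?_⟩
    have hx1 : snorm p F (x : F) = 1 := (mem_unitGroup_iff_snorm p F x).1 hx
    have e : ((x⁻¹ : Fˣ) : F) - 1 = -(((x : F) - 1) * (x : F)⁻¹) := by
      rw [Units.val_inv_eq_inv_val]
      field_simp
      ring
    rw [e, snorm_neg, snorm_mul, snorm_inv, hx1, inv_one, mul_one]
    exact hx'

variable {p F}

theorem mem_unitFil {m : ℕ} {x : Fˣ} : x ∈ unitFil p F m ↔
    x ∈ unitGroup p F ∧ snorm p F ((x : F) - 1) ≤ unifNorm p F ^ m := Iff.rfl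

theorem mem_unitFil_iff_snorm {π : F} (hπ : IsUniformizer p F π) (m : ℕ) (x : Fˣ) :
    x ∈ unitFil p F m ↔ x ∈ unitGroup p F ∧ snorm p F ((x : F) - 1) ≤ snorm p F π ^ m := by
  rw [mem_unitFil, snorm_uniformizer hπ]

theorem snorm_mul_inv_pow {π : F} (hπ : IsUniformizer p F π) (y : F) (m : ℕ) :
    snorm p F (y * (π⁻¹) ^ m) = snorm p F y / snorm p F π ^ m := by
  rw [snorm_mul, snorm_pow, snorm_inv, inv_pow, div_eq_mul_inv]

/-- `y / π ^ m ∈ 𝒪 ↔ ‖y‖ ≤ ‖π‖ ^ m`. -/
theorem mul_inv_pow_mem_iff {π : F} (hπ : IsUniformizer p F π) (y : F) (m : ℕ) :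
    y * (π⁻¹) ^ m ∈ intRing p F ↔ snorm p F y ≤ snorm p F π ^ m := by
  rw [mem_intRing_iff_snorm, snorm_mul_inv_pow hπ,
    div_le_one (pow_pos (snorm_uniformizer_pos hπ) m)]

theorem mem_unitFil_iff {π : F} (hπ : IsUniformizer p F π) (m : ℕ) (x : Fˣ) :
    x ∈ unitFil p F m ↔ x ∈ unitGroup p F ∧ ((x : F) - 1) * (π⁻¹) ^ m ∈ intRing p F := by
  rw [mem_unitFil_iff_snorm hπ, mul_inv_pow_mem_iff hπ]

theorem unitFil_zero : unitFil p F 0 = unitGroup p F := by
  ext x
  rw [mem_unitFil, pow_zero]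
  constructor
  · exact fun h => h.1
  · intro h
    refine ⟨h, ?_⟩
    have h1 : snorm p F (x : F) = 1 := (mem_unitGroup_iff_snorm p F x).1 h
    refine (snorm_sub_le_max p F _ _).trans (max_le h1.le ?_)
    rw [snorm_one]

theorem unitFil_anti {m n : ℕ} (h : m ≤ n) : unitFil p F n ≤ unitFil p F m := by
  rintro x ⟨hx, hx'⟩
  exact ⟨hx, hx'.trans (pow_le_pow_of_le_one unifNorm_pos.le unifNorm_lt_one.le h)⟩

theorem unitFil_le_unitGroup (m : ℕ) : unitFil p F m ≤ unitGroup p F := fun _ h => h.1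

/-- For `m ≥ 1` the condition `x ∈ 𝒪ˣ` is automatic. -/
theorem mem_unitFil_of_snorm {m : ℕ} (hm : 0 < m) {x : Fˣ}
    (h : snorm p F ((x : F) - 1) ≤ unifNorm p F ^ m) : x ∈ unitFil p F m := by
  refine ⟨(mem_unitGroup_iff_snorm p F x).2 (snorm_eq_one_of_sub_lt (lt_of_le_of_lt h ?_)), h⟩
  exact pow_lt_one₀ unifNorm_pos.le unifNorm_lt_one hm.ne'

theorem snorm_pow_mul_le {π : F} (hπ : IsUniformizer p F π) (m : ℕ) {a : F}
    (ha : a ∈ intRing p F) : snorm p F (π ^ m * a) ≤ snorm p F π ^ m := by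
  rw [snorm_mul, snorm_pow]
  exact mul_le_of_le_one_right (pow_nonneg (snorm_nonneg p F π) m) ((mem_intRing_iff_snorm a).1 ha)

theorem mem_unitFil_of_eq {π : F} (hπ : IsUniformizer p F π) {m : ℕ} (hm : 0 < m) {x : Fˣ} {a : F}
    (ha : a ∈ intRing p F) (hx : (x : F) = 1 + π ^ m * a) : x ∈ unitFil p F m := by
  apply mem_unitFil_of_snorm hm
  rw [hx, add_sub_cancel_left, ← snorm_uniformizer hπ]
  exact snorm_pow_mul_le hπ m ha

/-- Elements of `U^(m)` are of the form `1 + π ^ m a`, `a ∈ 𝒪`. -/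
theorem exists_eq_of_mem_unitFil {π : F} (hπ : IsUniformizer p F π) {m : ℕ} {x : Fˣ}
    (hx : x ∈ unitFil p F m) :
    ((x : F) - 1) * (π⁻¹) ^ m ∈ intRing p F ∧
      (x : F) = 1 + π ^ m * (((x : F) - 1) * (π⁻¹) ^ m) := by
  refine ⟨((mem_unitFil_iff hπ m x).1 hx).2, ?_⟩
  have h0 : π ≠ 0 := hπ.2.1
  have h1 : π ^ m * (π⁻¹) ^ m = 1 := by rw [← mul_pow, mul_inv_cancel₀ h0, one_pow]
  linear_combination (1 - (x : F)) * h1

theorem snorm_sub_one_lt_of_mem {m : ℕ} (hm : 0 < m) {x : Fˣ} (hx : x ∈ unitFil p F m) :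
    snorm p F ((x : F) - 1) < 1 :=
  lt_of_le_of_lt hx.2 (pow_lt_one₀ unifNorm_pos.le unifNorm_lt_one hm.ne')

/-- Separatedness: `⋂ U^(m) = 1`. -/
theorem eq_one_of_forall_mem {x : Fˣ} (h : ∀ m, x ∈ unitFil p F m) : x = 1 := by
  apply Units.ext
  rw [Units.val_one, ← sub_eq_zero, ← snorm_eq_zero_iff p F]
  by_contra hne
  have hpos : 0 < snorm p F ((x : F) - 1) :=
    lt_of_le_of_ne (snorm_nonneg p F _) (Ne.symm hne)
  obtain ⟨n, hn⟩ := exists_pow_lt_of_lt_one hpos (unifNorm_lt_one (p := p) (F := F))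
  exact absurd (h n).2 (not_le.2 hn)

/-- A principal unit `≠ 1` has an exact level. -/
theorem exists_mem_not_mem_succ {x : Fˣ} (hx : x ∈ unitFil p F 1) (hx1 : x ≠ 1) :
    ∃ i : ℕ, 0 < i ∧ x ∈ unitFil p F i ∧ x ∉ unitFil p F (i + 1) := by
  classical
  have hex : ∃ m, x ∉ unitFil p F m := by
    by_contra hcon
    push Not at hcon
    exact hx1 (eq_one_of_forall_mem hcon)
  have hfind := Nat.find_spec hex
  have hmin := fun k => Nat.find_min hex (m := k)
  set n := Nat.find hex with hn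
  have hn0 : n ≠ 0 := by
    intro h0
    rw [h0] at hfind
    exact hfind (unitFil_anti (Nat.zero_le 1) hx)
  have hn1 : n ≠ 1 := by
    intro h1
    rw [h1] at hfind
    exact hfind hx
  refine ⟨n - 1, by omega, ?_, ?_⟩
  · by_contra hcon
    exact hmin (n - 1) (by omega) hcon
  · have : n - 1 + 1 = n := by omega
    rw [this]
    exact hfind

section GaloisFil

variable {E : Type} [Field E] [Algebra ℚ_[p] E] [FiniteDimensional ℚ_[p] E] [Algebra E F]
  [IsScalarTower ℚ_[p] E F]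

theorem map_mem_unitFil_iff (σ : F ≃ₐ[E] F) (m : ℕ) (x : Fˣ) :
    Units.map (σ : F →* F) x ∈ unitFil p F m ↔ x ∈ unitFil p F m := by
  rw [mem_unitFil, mem_unitFil, mem_unitGroup_galois_iff p E F σ x]
  have : ((Units.map (σ : F →* F) x : Fˣ) : F) - 1 = σ ((x : F) - 1) := by
    simp
  rw [this, snorm_galois]

end GaloisFil

/-! ### The graded pieces -/

variable (p F)

/-- The leading coefficient `x ↦ [(x - 1) / π ^ m]` of a unit of level `≥ m`. -/
def grMap (π : F) (m : ℕ) (x : Fˣ) : resF p F := res p F (((x : F) - 1) * (π⁻¹) ^ m)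

variable {p F}

theorem grMap_one (π : F) (m : ℕ) : grMap p F π m 1 = 0 := by
  simp [grMap, res_zero]

/-- The leading coefficient of `1 + π ^ m a`. -/
theorem grMap_of_eq {π : F} (hπ : IsUniformizer p F π) {m : ℕ} {x : Fˣ} {a : F}
    (hx : (x : F) = 1 + π ^ m * a) : grMap p F π m x = res p F a := by
  have h0 : π ≠ 0 := hπ.2.1
  have h1 : π ^ m * (π⁻¹) ^ m = 1 := by rw [← mul_pow, mul_inv_cancel₀ h0, one_pow]
  unfold grMap
  congr 1
  rw [hx]
  linear_combination a * h1

theorem grMap_mul {π : F} (hπ : IsUniformizer p F π) {m : ℕ} (hm : 0 < m) {x y : Fˣ}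
    (hx : x ∈ unitFil p F m) (hy : y ∈ unitFil p F m) :
    grMap p F π m (x * y) = grMap p F π m x + grMap p F π m y := by
  obtain ⟨ha, hxa⟩ := exists_eq_of_mem_unitFil hπ hx
  obtain ⟨hb, hyb⟩ := exists_eq_of_mem_unitFil hπ hy
  set a := ((x : F) - 1) * (π⁻¹) ^ m with ha_def
  set b := ((y : F) - 1) * (π⁻¹) ^ m with hb_def
  have hxy : ((x * y : Fˣ) : F) = 1 + π ^ m * (a + b + π ^ m * (a * b)) := by
    rw [Units.val_mul, hxa, hyb]; ring
  rw [grMap_of_eq hπ hxy]
  change _ = res p F a + res p F b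
  have hab : π ^ m * (a * b) ∈ intRing p F := mul_mem (pow_mem hπ.1 m) (mul_mem ha hb)
  rw [res_add (add_mem ha hb) hab, res_add ha hb]
  have hz : res p F (π ^ m * (a * b)) = 0 := by
    apply res_eq_zero_of_snorm_lt
    refine lt_of_le_of_lt (snorm_pow_mul_le hπ m (mul_mem ha hb)) ?_
    exact pow_lt_one₀ (snorm_nonneg p F π) (snorm_uniformizer_lt_one p F π hπ) hm.ne'
  rw [hz, add_zero]

theorem grMap_inv {π : F} (hπ : IsUniformizer p F π) {m : ℕ} (hm : 0 < m) {x : Fˣ}
    (hx : x ∈ unitFil p F m) : grMap p F π m x⁻¹ = - grMap p F π m x := by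
  have h := grMap_mul hπ hm hx (inv_mem hx)
  rw [mul_inv_cancel, grMap_one] at h
  exact eq_neg_of_add_eq_zero_right h.symm

theorem grMap_div {π : F} (hπ : IsUniformizer p F π) {m : ℕ} (hm : 0 < m) {x y : Fˣ}
    (hx : x ∈ unitFil p F m) (hy : y ∈ unitFil p F m) :
    grMap p F π m (x / y) = grMap p F π m x - grMap p F π m y := by
  rw [div_eq_mul_inv, grMap_mul hπ hm hx (inv_mem hy), grMap_inv hπ hm hy, sub_eq_add_neg]

theorem grMap_pow {π : F} (hπ : IsUniformizer p F π) {m : ℕ} (hm : 0 < m) {x : Fˣ}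
    (hx : x ∈ unitFil p F m) (n : ℕ) : grMap p F π m (x ^ n) = n • grMap p F π m x := by
  induction n with
  | zero => simp [grMap_one]
  | succ n ih => rw [pow_succ, grMap_mul hπ hm (pow_mem hx n) hx, ih, succ_nsmul]

/-- The kernel of the leading coefficient map on `U^(m)` is `U^(m+1)`. -/
theorem grMap_eq_zero_iff {π : F} (hπ : IsUniformizer p F π) {m : ℕ} {x : Fˣ}
    (hx : x ∈ unitFil p F m) : grMap p F π m x = 0 ↔ x ∈ unitFil p F (m + 1) := by
  have ha := ((mem_unitFil_iff hπ m x).1 hx).2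
  unfold grMap
  rw [res_eq_zero_iff ha, snorm_lt_one_iff_le_uniformizer p F π hπ, snorm_mul_inv_pow hπ,
    div_le_iff₀ (pow_pos (snorm_uniformizer_pos hπ) m), mem_unitFil_iff_snorm hπ, pow_succ']
  exact ⟨fun h => ⟨hx.1, h⟩, fun h => h.2⟩

theorem grMap_surjective {π : F} (hπ : IsUniformizer p F π) {m : ℕ} (hm : 0 < m) (c : resF p F) :
    ∃ x ∈ unitFil p F m, grMap p F π m x = c := by
  obtain ⟨a, ha, rfl⟩ := res_surjective (p := p) (F := F) c
  have hlt : snorm p F (π ^ m * a) < 1 :=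
    lt_of_le_of_lt (snorm_pow_mul_le hπ m ha)
      (pow_lt_one₀ (snorm_nonneg p F π) (snorm_uniformizer_lt_one p F π hπ) hm.ne')
  have hne : (1 : F) + π ^ m * a ≠ 0 := by
    intro h0
    have h1 : π ^ m * a = -1 := by linear_combination h0
    rw [h1, snorm_neg, snorm_one] at hlt
    exact lt_irrefl _ hlt
  refine ⟨Units.mk0 _ hne, mem_unitFil_of_eq hπ hm ha (Units.val_mk0 hne), ?_⟩
  exact grMap_of_eq hπ (Units.val_mk0 hne)

/-- Two elements of `U^(m)` with the same leading coefficient differ by an element of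
`U^(m+1)`. -/
theorem div_mem_unitFil_succ {π : F} (hπ : IsUniformizer p F π) {m : ℕ} (hm : 0 < m) {x y : Fˣ}
    (hx : x ∈ unitFil p F m) (hy : y ∈ unitFil p F m)
    (h : grMap p F π m x = grMap p F π m y) : x / y ∈ unitFil p F (m + 1) := by
  rw [← grMap_eq_zero_iff hπ (div_mem hx hy), grMap_div hπ hm hx hy, h, sub_self]

variable (p F)

/-- The leading coefficient map as a homomorphism `U^(m) → κ`. -/
def grHom (π : F) (hπ : IsUniformizer p F π) (m : ℕ) (hm : 0 < m) :
    unitFil p F m →* Multiplicative (resF p F) where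
  toFun x := Multiplicative.ofAdd (grMap p F π m (x : Fˣ))
  map_one' := by rw [Subgroup.coe_one, grMap_one]; rfl
  map_mul' x y := by rw [Subgroup.coe_mul, grMap_mul hπ hm x.2 y.2]; rfl

variable {p F}

theorem grHom_apply (π : F) (hπ : IsUniformizer p F π) (m : ℕ) (hm : 0 < m) (x : unitFil p F m) :
    Multiplicative.toAdd (grHom p F π hπ m hm x) = grMap p F π m (x : Fˣ) := rfl

theorem grHom_surjective (π : F) (hπ : IsUniformizer p F π) (m : ℕ) (hm : 0 < m) :
    Function.Surjective (grHom p F π hπ m hm) := by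
  intro c
  obtain ⟨x, hx, hxc⟩ := grMap_surjective hπ hm (Multiplicative.toAdd c)
  exact ⟨⟨x, hx⟩, by rw [← ofAdd_toAdd c, ← hxc]; rfl⟩

theorem ker_grHom (π : F) (hπ : IsUniformizer p F π) (m : ℕ) (hm : 0 < m) :
    (grHom p F π hπ m hm).ker = (unitFil p F (m + 1)).subgroupOf (unitFil p F m) := by
  ext x
  rw [MonoidHom.mem_ker, Subgroup.mem_subgroupOf, ← grMap_eq_zero_iff hπ x.2]
  exact ofAdd_eq_one

/-! ### Galois equivariance of the graded pieces -/

section Equivariance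

variable {E : Type} [Field E] [Algebra ℚ_[p] E] [FiniteDimensional ℚ_[p] E] [Algebra E F]
  [IsScalarTower ℚ_[p] E F] [IsGalois E F]

theorem coe_thetaX_eq_res (σ : F ≃ₐ[E] F) (x : Fˣ) :
    ((thetaX p E F σ x : (resF p F)ˣ) : resF p F) = res p F (σ (x : F) * (x : F)⁻¹) := by
  have hmem : σ (x : F) * (x : F)⁻¹ ∈ intRing p F := by
    rw [← coe_quotHom p E F σ x]
    exact (quotHom p E F σ x).2.1
  rw [res_of_mem hmem, thetaX, MonoidHom.comp_apply, coe_resUnit]
  congr 1
  exact Subtype.ext (coe_quotHom p E F σ x)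

/-- **Equivariance of the graded pieces**: `gr_m (σ x) = [σ π / π] ^ m * σ̄ (gr_m x)`. -/
theorem grMap_galois (σ : F ≃ₐ[E] F) (πu : Fˣ) (hπ : IsUniformizer p F (πu : F)) {m : ℕ} {x : Fˣ}
    (hx : x ∈ unitFil p F m) :
    grMap p F (πu : F) m (Units.map (σ : F →* F) x) =
      ((thetaX p E F σ πu : (resF p F)ˣ) : resF p F) ^ m *
        redHom p E F σ (grMap p F (πu : F) m x) := by
  have ha := ((mem_unitFil_iff hπ m x).1 hx).2
  have h0 : (πu : F) ≠ 0 := πu.ne_zero
  have hσ0 : σ (πu : F) ≠ 0 := by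
    rw [Ne, map_eq_zero_iff σ σ.injective]; exact h0
  have hmem : σ (πu : F) * (πu : F)⁻¹ ∈ intRing p F := by
    rw [← coe_quotHom p E F σ πu]
    exact (quotHom p E F σ πu).2.1
  unfold grMap
  rw [coe_thetaX_eq_res, ← res_galois σ ha, ← res_pow hmem,
    ← res_mul (pow_mem hmem m) ((mem_intRing_galois_iff p E F σ _).2 ha)]
  congr 1
  rw [map_mul, map_pow, map_inv₀, map_sub, map_one]
  simp only [Units.coe_map, MonoidHom.coe_coe]
  have h1 : (σ (πu : F) * (πu : F)⁻¹) ^ m * (σ (πu : F))⁻¹ ^ m = (πu : F)⁻¹ ^ m := by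
    rw [← mul_pow]
    congr 1
    field_simp
  linear_combination (-(σ (x : F) - 1)) * h1

/-- **Inertia acts on `gr^m` through `θ₀ ^ m`.** -/
theorem grMap_inertia (τ : inertia p E F) (π : F) (hπ : IsUniformizer p F π) {m : ℕ} {x : Fˣ}
    (hx : x ∈ unitFil p F m) :
    grMap p F π m (Units.map ((τ : F ≃ₐ[E] F) : F →* F) x) =
      ((theta0 p E F τ : (resF p F)ˣ) : resF p F) ^ m * grMap p F π m x := by
  have h0 : π ≠ 0 := hπ.2.1
  have h1 := grMap_galois (τ : F ≃ₐ[E] F) (Units.mk0 π h0) (by simpa using hπ) hx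
  rw [Units.val_mk0] at h1
  rw [h1, ← theta0_apply p E F τ (Units.mk0 π h0) (by simpa using hπ)]
  have h2 : redHom p E F (τ : F ≃ₐ[E] F) = 1 := τ.2
  rw [h2, AlgEquiv.one_apply]

end Equivariance

end

end Fermat.Agent.TW.FLAT.UnitFil9
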