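/-
Programme T (S56), chapter FLAT, brick (LL-COH), part 2 — helper3.

THE KUMMER DICTIONARY on `Gq p = Gal(ℚ̄_p/ℚ_p)` (`Ω = PadicAlgCl p`), for characters
`χ : Gq p → ZMod p` of a subgroup `V` fixing a `p`-th root of unity `ζ`.

* `zpw_add`, `zpw_mul`, `zpw_zero`, `zpw_eq_one_iff`: powers of `ζ` indexed by `ZMod p`;
* `IsKum V ζ χ y`: `y ≠ 0` and `σ y = ζ ^ χ(σ) · y` for `σ ∈ V` (a Kummer generator);
  `IsKum.congr/mul/inv/div/of_fixed`, `IsKum.pow_fixed` (`y ^ p` is `V`-fixed), `IsKum.div_fixed`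
  (uniqueness up to `V`-fixed elements), `IsKum.eq_zero_of_fixed`, `IsKum.conj`
  (`g y` is a generator of `σ ↦ a · χ(g⁻¹ σ g)` when `g ζ = ζ ^ a`);
* **`exists_isKum`** (Hilbert 90, `InfGalois13.hilbert90_level`): a level function additive on `V`
  has a Kummer generator;
* for `L/ℚ_p` finite (Galois) inside `Ω`, `V = Gal(Ω/L)`: `mem_of_fixed`, `unitOf`, `PthPow L`,
  **`kumClass L ζ χ : Lˣ ⧸ (Lˣ)^p`**, `kumClass_eq`, `kumClass_congr`, `kumClass_zero`,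
  `kumClass_add`, **`kumClass_eq_one_iff`** (injectivity), **`kumClass_conj`** (Galois
  equivariance, in the "lifts" form used by the unit-side count);
* `KumLe L ζ R χ` (Kummer level in norm language: `‖y ^ p w ^ p - 1‖ ≤ R` for some `w ∈ Lˣ`),
  `KumLe.zero/add/neg/congr`, and the transport **`KumLe.exists_unitFil`** to the unit filtration
  `UnitFil9.unitFil p L m` of the abstract model.
-/
import Mathlib
import Fermat.Agent.PT.BR.InfGalois13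
import Fermat.Agent.TW.LOC.TameProfinite4
import Fermat.Agent.TW.FLAT.UnitFil9

set_option autoImplicit false

open Fermat.Agent.PT.PRO.LevelCoh28 Fermat.Agent.PT.GLUE.Objects21
open Fermat.Agent.TW.LOC.Defs2 Fermat.Agent.TW.LOC.TameProfinite4

namespace Fermat.Agent.TW.FLAT.KummerDict3

noncomputable section

variable {p : ℕ} [Fact p.Prime]

local notation "Ω" => PadicAlgCl p
local notation "Γ" => Gq p

/-! ### Powers of a `p`-th root of unity indexed by `ZMod p` -/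

section Zeta

variable {R : Type*} [Monoid R] {ζ : R}

theorem zpw_add (hζ : ζ ^ p = 1) (a b : ZMod p) :
    ζ ^ (a + b).val = ζ ^ a.val * ζ ^ b.val := by
  rw [← pow_add, ZMod.val_add, ← pow_eq_pow_mod _ hζ]

theorem zpw_mul (hζ : ζ ^ p = 1) (a b : ZMod p) :
    ζ ^ (a * b).val = (ζ ^ a.val) ^ b.val := by
  rw [← pow_mul, ZMod.val_mul, ← pow_eq_pow_mod _ hζ]

theorem zpw_zero : ζ ^ (0 : ZMod p).val = 1 := by
  rw [ZMod.val_zero, pow_zero]

end Zeta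


/-! ### Kummer generators -/

local instance isAlgClosurePadicK3 (p : ℕ) [Fact p.Prime] : IsAlgClosure ℚ_[p] (PadicAlgCl p) :=
  ⟨inferInstance, inferInstance⟩
local instance isGaloisPadicK3 (p : ℕ) [Fact p.Prime] : IsGalois ℚ_[p] (PadicAlgCl p) :=
  IsAlgClosure.isGalois ℚ_[p] (PadicAlgCl p)

section Kum

variable (V : Subgroup (Gq p)) (ζ : PadicAlgCl p)

/-- `y` is a Kummer generator for the character `χ` on `V`: `σ y = ζ ^ χ(σ) · y` for `σ ∈ V`. -/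
def IsKum (χ : Γ → ZMod p) (y : Ω) : Prop :=
  y ≠ 0 ∧ ∀ σ : Γ, σ ∈ V → σ y = ζ ^ (χ σ).val * y

variable {V ζ}

theorem IsKum.congr {χ χ' : Γ → ZMod p} {y : Ω} (h : IsKum V ζ χ y)
    (hχ : ∀ σ : Γ, σ ∈ V → χ σ = χ' σ) : IsKum V ζ χ' y :=
  ⟨h.1, fun σ hσ => by rw [h.2 σ hσ, hχ σ hσ]⟩

theorem IsKum.mul (hζ : ζ ^ p = 1) {χ χ' : Γ → ZMod p} {y y' : Ω} (h : IsKum V ζ χ y)
    (h' : IsKum V ζ χ' y') : IsKum V ζ (χ + χ') (y * y') := by
  refine ⟨mul_ne_zero h.1 h'.1, fun σ hσ => ?_⟩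
  rw [map_mul, h.2 σ hσ, h'.2 σ hσ, Pi.add_apply, zpw_add hζ]
  ring

theorem IsKum.of_fixed {y : Ω} (hy : y ≠ 0) (hfix : ∀ σ : Γ, σ ∈ V → σ y = y) :
    IsKum V ζ (0 : Γ → ZMod p) y :=
  ⟨hy, fun σ hσ => by rw [hfix σ hσ, Pi.zero_apply, zpw_zero, one_mul]⟩

theorem IsKum.inv (hζ : ζ ^ p = 1) {χ : Γ → ZMod p} {y : Ω} (h : IsKum V ζ χ y) :
    IsKum V ζ (-χ) y⁻¹ := by
  refine ⟨inv_ne_zero h.1, fun σ hσ => ?_⟩
  have h1 : ζ ^ (-(χ σ)).val * ζ ^ (χ σ).val = 1 := by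
    rw [← zpw_add hζ, neg_add_cancel, zpw_zero]
  have hz : ζ ^ (χ σ).val ≠ 0 := by
    intro h0
    rw [h0, mul_zero] at h1
    exact zero_ne_one h1
  rw [map_inv₀, h.2 σ hσ, Pi.neg_apply, mul_inv, eq_comm]
  congr 1
  exact eq_inv_of_mul_eq_one_left h1

theorem IsKum.div (hζ : ζ ^ p = 1) {χ χ' : Γ → ZMod p} {y y' : Ω} (h : IsKum V ζ χ y)
    (h' : IsKum V ζ χ' y') : IsKum V ζ (χ - χ') (y / y') := by
  rw [sub_eq_add_neg, div_eq_mul_inv]
  exact h.mul hζ (h'.inv hζ)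

theorem IsKum.pow_fixed (hζ : ζ ^ p = 1) {χ : Γ → ZMod p} {y : Ω} (h : IsKum V ζ χ y) :
    ∀ σ : Γ, σ ∈ V → σ (y ^ p) = y ^ p := by
  intro σ hσ
  rw [map_pow, h.2 σ hσ, mul_pow, ← pow_mul, mul_comm (χ σ).val p, pow_mul, hζ, one_pow, one_mul]

theorem IsKum.fixed_of_zero {χ : Γ → ZMod p} {y : Ω} (h : IsKum V ζ χ y)
    (h0 : ∀ σ : Γ, σ ∈ V → χ σ = 0) : ∀ σ : Γ, σ ∈ V → σ y = y := by
  intro σ hσ
  rw [h.2 σ hσ, h0 σ hσ, zpw_zero, one_mul]

/-- Two Kummer generators of the same character differ by a `V`-fixed element. -/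
theorem IsKum.div_fixed (hζ : ζ ^ p = 1) {χ : Γ → ZMod p} {y y' : Ω} (h : IsKum V ζ χ y)
    (h' : IsKum V ζ χ y') : ∀ σ : Γ, σ ∈ V → σ (y' / y) = y' / y :=
  ((h'.div hζ h).congr (χ' := 0) (fun σ _ => by simp)).fixed_of_zero (fun _ _ => rfl)

theorem zpw_eq_one_iff (hζ : ζ ^ p = 1) (hne : ζ ≠ 1) (a : ZMod p) : ζ ^ a.val = 1 ↔ a = 0 := by
  have hord : orderOf ζ = p := @orderOf_eq_prime Ω _ ζ p _ hζ hne
  rw [← orderOf_dvd_iff_pow_eq_one, hord]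
  constructor
  · intro h
    have hlt : a.val < p := ZMod.val_lt a
    have h0 : a.val = 0 := Nat.eq_zero_of_dvd_of_lt h hlt
    exact (ZMod.val_eq_zero a).1 h0
  · rintro rfl
    rw [ZMod.val_zero]
    exact dvd_zero _

/-- A `V`-fixed Kummer generator belongs to the trivial character. -/
theorem IsKum.eq_zero_of_fixed (hζ : ζ ^ p = 1) (hne : ζ ≠ 1) {χ : Γ → ZMod p} {y : Ω}
    (h : IsKum V ζ χ y) (hfix : ∀ σ : Γ, σ ∈ V → σ y = y) : ∀ σ : Γ, σ ∈ V → χ σ = 0 := by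
  intro σ hσ
  have h1 := h.2 σ hσ
  rw [hfix σ hσ] at h1
  have h2 : ζ ^ (χ σ).val = 1 := by
    have : (ζ ^ (χ σ).val - 1) * y = 0 := by rw [sub_mul, one_mul, ← h1, sub_self]
    rcases mul_eq_zero.1 this with h3 | h3
    · exact sub_eq_zero.1 h3
    · exact absurd h3 h.1
  exact (zpw_eq_one_iff hζ hne _).1 h2

/-- Conjugation rule: `g y` is a Kummer generator of `σ ↦ a · χ(g⁻¹ σ g)` if `g ζ = ζ ^ a`. -/
theorem IsKum.conj [hn : V.Normal] (hζ : ζ ^ p = 1) (g : Γ) (a : ZMod p) (hg : g ζ = ζ ^ a.val)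
    {χ : Γ → ZMod p} {y : Ω} (h : IsKum V ζ χ y) :
    IsKum V ζ (fun σ => a * χ (g⁻¹ * σ * g)) (g y) := by
  refine ⟨fun h0 => h.1 ((map_eq_zero_iff g g.injective).1 h0), fun σ hσ => ?_⟩
  have hmem : g⁻¹ * σ * g ∈ V := by
    have := hn.conj_mem σ hσ g⁻¹
    rwa [inv_inv] at this
  have h1 : σ (g y) = g ((g⁻¹ * σ * g) y) := by
    simp [AlgEquiv.mul_apply]
  rw [h1, h.2 _ hmem, map_mul, map_pow, hg, zpw_mul hζ]

/-- **Existence of Kummer generators** (Hilbert 90): a level function `χ : Γ → ZMod p` which is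
additive on `V` has a Kummer generator, provided `V` fixes `ζ`. -/
theorem exists_isKum (hζ : ζ ^ p = 1) (hζV : ∀ σ : Γ, σ ∈ V → σ ζ = ζ) (χ : Γ → ZMod p)
    (hlev : IsLevel₁ (levelLoc p).sets χ)
    (hadd : ∀ v ∈ V, ∀ v' ∈ V, χ (v * v') = χ v + χ v') : ∃ y, IsKum V ζ χ y := by
  obtain ⟨U, hU, hinv⟩ := hlev
  obtain ⟨L', hfd, _, hL'U⟩ := exists_galois_level p hU
  have hp0 : p ≠ 0 := (Fact.out : p.Prime).ne_zero
  have hζ0 : ζ ≠ 0 := by
    rintro rfl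
    rw [zero_pow hp0] at hζ
    exact zero_ne_one hζ
  have hint : IsIntegral ℚ_[p] ζ := Algebra.IsIntegral.isIntegral ζ
  have hfd2 : FiniteDimensional ℚ_[p] (IntermediateField.adjoin ℚ_[p] {ζ}) :=
    IntermediateField.adjoin.finiteDimensional hint
  let E : IntermediateField ℚ_[p] Ω := L' ⊔ IntermediateField.adjoin ℚ_[p] {ζ}
  have hfdE : FiniteDimensional ℚ_[p] E := IntermediateField.finiteDimensional_sup _ _
  have hζE : ζ ∈ E :=
    (le_sup_right : IntermediateField.adjoin ℚ_[p] {ζ} ≤ E)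
      (IntermediateField.mem_adjoin_simple_self ℚ_[p] ζ)
  have hEU : E.fixingSubgroup ≤ U :=
    (IntermediateField.fixingSubgroup_antitone (le_sup_left : L' ≤ E)).trans hL'U
  let ζu : Ωˣ := Units.mk0 ζ hζ0
  let c : Γ → Ωˣ := fun g => ζu ^ (χ g).val
  have hcval : ∀ g, ((c g : Ωˣ) : Ω) = ζ ^ (χ g).val := fun g => by
    simp only [c, Units.val_pow_eq_pow_val, ζu, Units.val_mk0]
  obtain ⟨β, hβ⟩ := Fermat.Agent.PT.BR.InfGalois13.hilbert90_level V E c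
    (fun g s hs => by
      simp only [c]
      rw [hinv g s (hEU hs)])
    (fun g => by
      rw [hcval]
      exact pow_mem hζE _)
    (fun n hn n' hn' => by
      apply Units.ext
      rw [Units.val_mul, hcval, hcval, AlgEquiv.smul_units_def, Units.coe_map, MonoidHom.coe_coe,
        hcval, map_pow, hζV n hn, hadd n hn n' hn', zpw_add hζ, mul_comm])
  refine ⟨(β : Ω), ⟨β.ne_zero, fun σ hσ => ?_⟩⟩
  have h1 := congrArg (fun u : Ωˣ => (u : Ω)) (hβ σ hσ)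
  simp only [hcval, Units.val_div_eq_div_val, AlgEquiv.smul_units_def, Units.coe_map,
    MonoidHom.coe_coe] at h1
  rw [h1, div_mul_cancel₀ _ β.ne_zero]

end Kum


/-! ### The Kummer class of a character of `Gal(Ω/L)` -/

section Level

variable (L : IntermediateField ℚ_[p] (PadicAlgCl p))

theorem mem_of_fixed {x : Ω} (hx : ∀ σ : Γ, σ ∈ L.fixingSubgroup → σ x = x) : x ∈ L := by
  rw [← InfiniteGalois.fixedField_fixingSubgroup L, IntermediateField.mem_fixedField_iff]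
  exact hx

theorem fixed_of_mem {x : Ω} (hx : x ∈ L) : ∀ σ : Γ, σ ∈ L.fixingSubgroup → σ x = x :=
  fun σ hσ => (IntermediateField.mem_fixingSubgroup_iff L σ).1 hσ x hx

/-- A nonzero element of `L` as a unit of `L`. -/
def unitOf (x : Ω) (hx : x ∈ L) (h0 : x ≠ 0) : (↥L)ˣ :=
  Units.mk0 ⟨x, hx⟩ (fun h => h0 (congrArg Subtype.val h))

@[simp] theorem coe_unitOf (x : Ω) (hx : x ∈ L) (h0 : x ≠ 0) :
    (((unitOf L x hx h0 : (↥L)ˣ) : ↥L) : Ω) = x := rfl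

/-- The subgroup of `p`-th powers of `Lˣ`. -/
abbrev PthPow : Subgroup (↥L)ˣ := (powMonoidHom p : (↥L)ˣ →* (↥L)ˣ).range

theorem mk_unitOf_eq_mk_unitOf {a b : Ω} (ha : a ∈ L) (ha0 : a ≠ 0) (hb : b ∈ L) (hb0 : b ≠ 0)
    {w : Ω} (hw : w ∈ L) (hab : b = a * w ^ p) :
    (QuotientGroup.mk (unitOf L a ha ha0) : (↥L)ˣ ⧸ PthPow L) =
      QuotientGroup.mk (unitOf L b hb hb0) := by
  have hw0 : w ≠ 0 := by
    rintro rfl
    rw [zero_pow (Fact.out : p.Prime).ne_zero, mul_zero] at hab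
    exact hb0 hab
  rw [QuotientGroup.eq]
  refine ⟨unitOf L w hw hw0, ?_⟩
  apply Units.ext
  apply Subtype.ext
  rw [powMonoidHom_apply, Units.val_pow_eq_pow_val, Units.val_mul, Units.val_inv_eq_inv_val]
  simp only [SubmonoidClass.coe_pow, MulMemClass.coe_mul, coe_unitOf, IntermediateField.coe_inv]
  rw [hab]
  field_simp

theorem exists_of_mk_unitOf_eq {a b : Ω} (ha : a ∈ L) (ha0 : a ≠ 0) (hb : b ∈ L) (hb0 : b ≠ 0)
    (h : (QuotientGroup.mk (unitOf L a ha ha0) : (↥L)ˣ ⧸ PthPow L) =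
      QuotientGroup.mk (unitOf L b hb hb0)) : ∃ w ∈ L, w ≠ 0 ∧ b = a * w ^ p := by
  rw [QuotientGroup.eq] at h
  obtain ⟨z, hz⟩ := h
  refine ⟨((z : ↥L) : Ω), (z : ↥L).2, fun h0 => z.ne_zero (Subtype.ext h0), ?_⟩
  have h1 := congrArg (fun u : (↥L)ˣ => (((u : ↥L)) : Ω)) hz
  simp only [powMonoidHom_apply, Units.val_pow_eq_pow_val, Units.val_mul,
    Units.val_inv_eq_inv_val, SubmonoidClass.coe_pow, MulMemClass.coe_mul, coe_unitOf,
    IntermediateField.coe_inv] at h1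
  rw [h1]
  field_simp

variable (ζ : PadicAlgCl p)

open Classical in
/-- **The Kummer class** of `χ` in `Lˣ / (Lˣ)^p`: the class of `y ^ p` for a Kummer generator `y`
(and `1` if there is none). -/
def kumClass (χ : Γ → ZMod p) : (↥L)ˣ ⧸ PthPow L :=
  if h : ∃ y, IsKum L.fixingSubgroup ζ χ y ∧ y ^ p ∈ L then
    QuotientGroup.mk (unitOf L (h.choose ^ p) h.choose_spec.2 (pow_ne_zero _ h.choose_spec.1.1))
  else 1

variable {L ζ}

theorem IsKum.pow_mem (hζ : ζ ^ p = 1) {χ : Γ → ZMod p} {y : Ω}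
    (h : IsKum L.fixingSubgroup ζ χ y) : y ^ p ∈ L :=
  mem_of_fixed L (h.pow_fixed hζ)

theorem kumClass_eq (hζ : ζ ^ p = 1) {χ : Γ → ZMod p} {y : Ω}
    (h : IsKum L.fixingSubgroup ζ χ y) :
    kumClass L ζ χ =
      QuotientGroup.mk (unitOf L (y ^ p) (h.pow_mem hζ) (pow_ne_zero _ h.1)) := by
  have hex : ∃ y, IsKum L.fixingSubgroup ζ χ y ∧ y ^ p ∈ L := ⟨y, h, h.pow_mem hζ⟩
  rw [kumClass, dif_pos hex]
  have h0 := hex.choose_spec.1
  have hw : y / hex.choose ∈ L := mem_of_fixed L (h0.div_fixed hζ h)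
  refine mk_unitOf_eq_mk_unitOf L _ _ _ _ hw ?_
  rw [div_pow, mul_div_cancel₀ _ (pow_ne_zero _ h0.1)]

theorem kumClass_of_not_exists {χ : Gq p → ZMod p}
    (h : ¬ ∃ y, IsKum L.fixingSubgroup ζ χ y) : kumClass L ζ χ = 1 := by
  rw [kumClass, dif_neg]
  rintro ⟨y, hy, _⟩
  exact h ⟨y, hy⟩

theorem kumClass_congr (hζ : ζ ^ p = 1) {χ χ' : Gq p → ZMod p}
    (hχ : ∀ σ : Gq p, σ ∈ L.fixingSubgroup → χ σ = χ' σ) : kumClass L ζ χ = kumClass L ζ χ' := by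
  by_cases hex : ∃ y, IsKum L.fixingSubgroup ζ χ y
  · obtain ⟨y, hy⟩ := hex
    rw [kumClass_eq hζ hy, kumClass_eq hζ (hy.congr hχ)]
  · rw [kumClass_of_not_exists hex, kumClass_of_not_exists]
    rintro ⟨y, hy⟩
    exact hex ⟨y, hy.congr (fun σ hσ => (hχ σ hσ).symm)⟩

theorem kumClass_zero (hζ : ζ ^ p = 1) : kumClass L ζ (0 : Gq p → ZMod p) = 1 := by
  have h1 : IsKum L.fixingSubgroup ζ (0 : Gq p → ZMod p) 1 :=
    IsKum.of_fixed one_ne_zero (fun σ _ => map_one σ)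
  rw [kumClass_eq hζ h1]
  rw [QuotientGroup.eq_one_iff]
  refine ⟨1, ?_⟩
  apply Units.ext
  apply Subtype.ext
  simp

theorem kumClass_add (hζ : ζ ^ p = 1) {χ χ' : Gq p → ZMod p} {y y' : PadicAlgCl p}
    (h : IsKum L.fixingSubgroup ζ χ y) (h' : IsKum L.fixingSubgroup ζ χ' y') :
    kumClass L ζ (χ + χ') = kumClass L ζ χ * kumClass L ζ χ' := by
  rw [kumClass_eq hζ h, kumClass_eq hζ h', kumClass_eq hζ (h.mul hζ h'), ← QuotientGroup.mk_mul]
  congr 1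
  apply Units.ext
  apply Subtype.ext
  simp [mul_pow]

/-- The Kummer class is trivial iff the character is trivial on `Gal(Ω/L)` (`ζ ∈ L` primitive). -/
theorem kumClass_eq_one_iff (hζ : ζ ^ p = 1) (hne : ζ ≠ 1) (hζL : ζ ∈ L) {χ : Gq p → ZMod p}
    {y : PadicAlgCl p} (h : IsKum L.fixingSubgroup ζ χ y) :
    kumClass L ζ χ = 1 ↔ ∀ σ : Gq p, σ ∈ L.fixingSubgroup → χ σ = 0 := by
  constructor
  · intro h1
    rw [kumClass_eq hζ h, QuotientGroup.eq_one_iff] at h1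
    obtain ⟨z, hz⟩ := h1
    have hz' : (((z : ↥L) : PadicAlgCl p)) ^ p = y ^ p := by
      have := congrArg (fun u : (↥L)ˣ => (((u : ↥L)) : PadicAlgCl p)) hz
      simpa using this
    have hz0 : ((z : ↥L) : PadicAlgCl p) ≠ 0 := fun h0 => z.ne_zero (Subtype.ext h0)
    have hpow : (y / ((z : ↥L) : PadicAlgCl p)) ^ p = 1 := by
      rw [div_pow, hz', div_self (pow_ne_zero _ h.1)]
    have hprim : IsPrimitiveRoot ζ p := by
      have hord : orderOf ζ = p := @orderOf_eq_prime (PadicAlgCl p) _ ζ p _ hζ hne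
      have := IsPrimitiveRoot.orderOf ζ
      rwa [hord] at this
    have : NeZero p := ⟨(Fact.out : p.Prime).ne_zero⟩
    obtain ⟨i, _, hi⟩ := hprim.eq_pow_of_pow_eq_one hpow
    have hyL : y ∈ L := by
      have : y = ζ ^ i * ((z : ↥L) : PadicAlgCl p) := by
        rw [hi, div_mul_cancel₀ _ hz0]
      rw [this]
      exact mul_mem (pow_mem hζL i) (z : ↥L).2
    exact h.eq_zero_of_fixed hζ hne (fixed_of_mem L hyL)
  · intro h0
    have hfix := h.fixed_of_zero h0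
    have hyL : y ∈ L := mem_of_fixed L hfix
    rw [kumClass_eq hζ h, QuotientGroup.eq_one_iff]
    refine ⟨unitOf L y hyL h.1, ?_⟩
    apply Units.ext
    apply Subtype.ext
    simp

section Galois

variable [FiniteDimensional ℚ_[p] L] [IsGalois ℚ_[p] L]

instance fixingSubgroup_normal : (L.fixingSubgroup).Normal := by
  rw [← ker_resL p L]
  exact MonoidHom.normal_ker _

/-- **Galois equivariance of the Kummer class.** -/
theorem kumClass_conj (hζ : ζ ^ p = 1) (g : Gq p) (a : ZMod p) (hg : g ζ = ζ ^ a.val)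
    {χ : Gq p → ZMod p} {y : PadicAlgCl p} (h : IsKum L.fixingSubgroup ζ χ y) (x : (↥L)ˣ)
    (hx : kumClass L ζ χ = QuotientGroup.mk x) :
    kumClass L ζ (fun σ => a * χ (g⁻¹ * σ * g)) =
      QuotientGroup.mk (Units.map ((resL p L g : ↥L ≃ₐ[ℚ_[p]] ↥L) : ↥L →* ↥L) x) := by
  rw [kumClass_eq hζ (h.conj hζ g a hg)]
  rw [kumClass_eq hζ h, QuotientGroup.eq] at hx
  obtain ⟨z, hz⟩ := hx
  rw [QuotientGroup.eq]
  refine ⟨Units.map ((resL p L g : ↥L ≃ₐ[ℚ_[p]] ↥L) : ↥L →* ↥L) z, ?_⟩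
  have hz' : (((z : ↥L) : PadicAlgCl p)) ^ p = (y ^ p)⁻¹ * (((x : ↥L)) : PadicAlgCl p) := by
    have := congrArg (fun u : (↥L)ˣ => (((u : ↥L)) : PadicAlgCl p)) hz
    simpa using this
  apply Units.ext
  apply Subtype.ext
  simp only [powMonoidHom_apply, Units.val_pow_eq_pow_val, Units.coe_map, MonoidHom.coe_coe,
    SubmonoidClass.coe_pow, coe_resL, Units.val_mul, Units.val_inv_eq_inv_val,
    MulMemClass.coe_mul, IntermediateField.coe_inv, coe_unitOf]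
  rw [← map_pow, hz', map_mul, map_inv₀, map_pow]

end Galois

/-! ### Kummer level in norm language -/

/-- `χ` has **Kummer level `≤ R`** (in norm language): some Kummer generator `y` has
`‖y ^ p · w ^ p - 1‖ ≤ R` for some `w ∈ Lˣ`. -/
def KumLe (L : IntermediateField ℚ_[p] (PadicAlgCl p)) (ζ : PadicAlgCl p) (R : ℝ)
    (χ : Gq p → ZMod p) : Prop :=
  ∃ y, IsKum L.fixingSubgroup ζ χ y ∧ ∃ w ∈ L, w ≠ 0 ∧ ‖y ^ p * w ^ p - 1‖ ≤ R

theorem KumLe.congr {R : ℝ} {χ χ' : Gq p → ZMod p} (h : KumLe L ζ R χ)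
    (hχ : ∀ σ : Gq p, σ ∈ L.fixingSubgroup → χ σ = χ' σ) : KumLe L ζ R χ' := by
  obtain ⟨y, hy, w, hw, hw0, hle⟩ := h
  exact ⟨y, hy.congr hχ, w, hw, hw0, hle⟩

theorem KumLe.zero {R : ℝ} (hR : 0 ≤ R) : KumLe L ζ R (0 : Gq p → ZMod p) :=
  ⟨1, IsKum.of_fixed one_ne_zero (fun σ _ => map_one σ), 1, one_mem _, one_ne_zero, by simpa using hR⟩

theorem norm_eq_one_of_sub_lt {x : PadicAlgCl p} (h : ‖x - 1‖ < 1) : ‖x‖ = 1 := by
  apply le_antisymm
  · have h1 : ‖x‖ ≤ max ‖x - 1‖ ‖(1 : PadicAlgCl p)‖ := by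
      have := IsUltrametricDist.norm_add_le_max (x - 1) (1 : PadicAlgCl p)
      rwa [sub_add_cancel] at this
    rw [norm_one] at h1
    exact h1.trans (max_le h.le le_rfl)
  · by_contra hlt
    push Not at hlt
    have h1 : ‖(1 : PadicAlgCl p)‖ ≤ max ‖x‖ ‖x - 1‖ := by
      have := norm_sub_le_max' p x (x - 1)
      rwa [sub_sub_cancel] at this
    rw [norm_one] at h1
    exact absurd h1 (not_le.2 (max_lt hlt h))

theorem KumLe.add (hζ : ζ ^ p = 1) {R : ℝ} (hR : R < 1) {χ χ' : Gq p → ZMod p}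
    (h : KumLe L ζ R χ) (h' : KumLe L ζ R χ') : KumLe L ζ R (χ + χ') := by
  obtain ⟨y, hy, w, hw, hw0, hle⟩ := h
  obtain ⟨y', hy', w', hw', hw0', hle'⟩ := h'
  refine ⟨y * y', hy.mul hζ hy', w * w', mul_mem hw hw', mul_ne_zero hw0 hw0', ?_⟩
  have h1 : ‖y' ^ p * w' ^ p‖ = 1 := norm_eq_one_of_sub_lt (lt_of_le_of_lt hle' hR)
  have e : (y * y') ^ p * (w * w') ^ p - 1 =
      (y ^ p * w ^ p - 1) * (y' ^ p * w' ^ p) + (y' ^ p * w' ^ p - 1) := by ring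
  rw [e]
  refine (IsUltrametricDist.norm_add_le_max _ _).trans (max_le ?_ hle')
  rw [norm_mul, h1, mul_one]
  exact hle

theorem KumLe.neg (hζ : ζ ^ p = 1) {R : ℝ} (hR : R < 1) {χ : Gq p → ZMod p}
    (h : KumLe L ζ R χ) : KumLe L ζ R (-χ) := by
  obtain ⟨y, hy, w, hw, hw0, hle⟩ := h
  refine ⟨y⁻¹, hy.inv hζ, w⁻¹, inv_mem hw, inv_ne_zero hw0, ?_⟩
  have h1 : ‖y ^ p * w ^ p‖ = 1 := norm_eq_one_of_sub_lt (lt_of_le_of_lt hle hR)
  have hne : y ^ p * w ^ p ≠ 0 := mul_ne_zero (pow_ne_zero _ hy.1) (pow_ne_zero _ hw0)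
  have e : y⁻¹ ^ p * w⁻¹ ^ p - 1 = -((y ^ p * w ^ p - 1) * (y ^ p * w ^ p)⁻¹) := by
    rw [inv_pow, inv_pow, ← mul_inv, sub_mul, mul_inv_cancel₀ hne]
    ring
  rw [e, norm_neg, norm_mul, norm_inv, h1, inv_one, mul_one]
  exact hle

section Galois2

variable [FiniteDimensional ℚ_[p] L] [IsGalois ℚ_[p] L]

open Fermat.Agent.TW.FLAT.UnitFil9 in
/-- Transport to the unit filtration of the abstract model: Kummer level `≤ ϖ ^ m` (`ϖ` the norm
of a uniformizer of `L`, `m > 0`) means that the Kummer class is represented by an element of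
`U^(m)`. -/
theorem KumLe.exists_unitFil (hζ : ζ ^ p = 1) {m : ℕ} (hm : 0 < m) {χ : Gq p → ZMod p}
    (h : KumLe L ζ (unifNorm p ↥L ^ m) χ) :
    ∃ u ∈ unitFil p ↥L m, kumClass L ζ χ = QuotientGroup.mk u := by
  obtain ⟨y, hy, w, hw, hw0, hle⟩ := h
  have hmem : y ^ p * w ^ p ∈ L := mul_mem (hy.pow_mem hζ) (pow_mem hw p)
  have hne : y ^ p * w ^ p ≠ 0 := mul_ne_zero (pow_ne_zero _ hy.1) (pow_ne_zero _ hw0)
  refine ⟨unitOf L (y ^ p * w ^ p) hmem hne, ?_, ?_⟩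
  · apply mem_unitFil_of_snorm hm
    rw [snorm_eq_norm]
    exact hle
  · rw [kumClass_eq hζ hy]
    exact mk_unitOf_eq_mk_unitOf L _ _ _ _ hw rfl

end Galois2

end Level

end

end Fermat.Agent.TW.FLAT.KummerDict3
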