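/-
Programme T (S56), chapter FLAT, brick (LL-COH), part 3 — helper3.

THE COHOMOLOGICAL SIDE OF THE LOCAL-LOCAL COUNT.  `N : Rep k (Gq p)` (think `ad⁰ ρ̄`), `L/ℚ_p` a
finite Galois extension inside `Ω = PadicAlgCl p` with `V = Gal(Ω/L)` acting trivially on `N`,
`ζ ∈ L` a primitive `p`-th root of unity, `ω` the mod `p` cyclotomic character (`KData`).

* `Dual N = (N →+ ZMod p)`, `dualTw N ω` (the twisted dual `Hom(N, 𝔽_p)(1)` as a representation of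
  `Gq p`), `dualTwL N ω L` (descended to `Gal(L/ℚ_p)`), `dualTwL_resL`;
* `KumHomSet L ρ m0`: equivariant homomorphisms `M → Lˣ/(Lˣ)^p` of level `≥ m0` — verbatim the
  Hom-set counted on the unit side (`LLCount9`);
* `kumHomOf D hc : Multiplicative (Dual N) →* Lˣ ⧸ (Lˣ)^p` (the Kummer map of a level cocycle),
  `restrict_eq_of_kumHomOf_eq` (injectivity), `kumHomOf_equivariant`, `kumHomSetOf`;
* `FlatCond L ζ pr₀ pr₁ m0 c` = (F0) `pr₀ ∘ c` kills `Iq ∩ V` ∧ (F1) every `ν ∘ pr₁ ∘ c` has Kummer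
  level `≤ ϖ_L ^ m0` (`KummerDict3.KumLe`); `Lflat … : Submodule k (H1 (levelLoc p) N)`;
* `eq_zero_on_Iq_of_weak` (weak (F0) ⇒ `pr₀ ∘ c` kills all of `Iq`), `mapH1_mem_H1ur`;
* **`card_Lflat_le`**: `#Lflat ≤ #N₀^{Gq} · #KumHomSet L (dualTwL N₁ ω L) m0` for equivariant
  `pr₀ : N → N₀` (`N₀` unramified, finite, discrete), `pr₁ : N → N₁`, jointly injective, `[L : ℚ_p]`
  invertible in `k` (injection `x ↦ (pr₀ x, Kummer map of pr₁ ∘ c)` into
  `H¹_ur(N₀) × KumHomSet`, `UnramGq4.card_H1ur`).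
-/
import Mathlib
import Fermat.Agent.TW.FLAT.InfRes3
import Fermat.Agent.TW.FLAT.KummerDict3
import Fermat.Agent.TW.LOC.UnramGq4

set_option autoImplicit false
set_option linter.unusedSectionVars false
set_option linter.style.haveILetI false

open groupCohomology
open Fermat.Agent.PT.PRO.LevelCoh28 Fermat.Agent.PT.GLUE.Objects21
open Fermat.Agent.TW.LOC.Defs2 Fermat.Agent.TW.LOC.TameProfinite4
open Fermat.Agent.TW.FLAT.KummerDict3 Fermat.Agent.TW.FLAT.InfRes3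
open Fermat.Agent.TW.FLAT.UnitFil9

namespace Fermat.Agent.TW.FLAT.LLCoh3

noncomputable section

variable {p : ℕ} [Fact p.Prime] {k : Type} [Field k]

/-! ### The twisted dual `Hom(N, 𝔽_p)(1)` -/

section Dual

variable (N : Rep.{0} k (Gq p)) (ω : Gq p →* (ZMod p)ˣ)

/-- The `𝔽_p`-dual of (the underlying additive group of) `N`. -/
abbrev Dual : Type := N →+ ZMod p

instance [Finite N] : Finite (Dual N) :=
  Finite.of_injective (fun ν : Dual N => (ν : N → ZMod p)) DFunLike.coe_injective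

/-- The action of `g` on the twisted dual: `ν ↦ ω(g) · ν ∘ ρ(g)⁻¹`. -/
def dualTwFun (g : Gq p) : Dual N →ₗ[ZMod p] Dual N where
  toFun ν := ((ω g : (ZMod p)ˣ) : ZMod p) • ν.comp ((N.ρ g⁻¹ : N →ₗ[k] N).toAddMonoidHom)
  map_add' ν ν' := by
    ext n
    simp [mul_add]
  map_smul' a ν := by
    ext n
    simp [mul_left_comm]

@[simp] theorem dualTwFun_apply (g : Gq p) (ν : Dual N) (n : N) :
    dualTwFun N ω g ν n = ((ω g : (ZMod p)ˣ) : ZMod p) * ν (N.ρ g⁻¹ n) := rfl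

/-- **The twisted dual representation** `Hom(N, 𝔽_p)(1)` of `Gq p`. -/
def dualTw : Representation (ZMod p) (Gq p) (Dual N) where
  toFun := dualTwFun N ω
  map_one' := by
    ext ν n
    simp
  map_mul' g h := by
    ext ν n
    simp [mul_assoc]

@[simp] theorem dualTw_apply (g : Gq p) (ν : Dual N) (n : N) :
    dualTw N ω g ν n = ((ω g : (ZMod p)ˣ) : ZMod p) * ν (N.ρ g⁻¹ n) := rfl

end Dual


/-! ### Descent to `Gal(L/ℚ_p)` -/

section Descent

variable (N : Rep.{0} k (Gq p)) (ω : Gq p →* (ZMod p)ˣ)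
variable (L : IntermediateField ℚ_[p] (PadicAlgCl p)) [FiniteDimensional ℚ_[p] L]
  [IsGalois ℚ_[p] L]

theorem dualTw_eq_one (htriv : ∀ v ∈ L.fixingSubgroup, N.ρ v = 1)
    (hω : ∀ v ∈ L.fixingSubgroup, ω v = 1) {v : Gq p} (hv : v ∈ L.fixingSubgroup) :
    dualTw N ω v = 1 := by
  ext ν n
  have h1 : N.ρ v⁻¹ = 1 := htriv _ (inv_mem hv)
  simp [hω v hv, h1]

theorem dualTw_eq_of_resL_eq (htriv : ∀ v ∈ L.fixingSubgroup, N.ρ v = 1)
    (hω : ∀ v ∈ L.fixingSubgroup, ω v = 1) {g g' : Gq p} (h : resL p L g = resL p L g') :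
    dualTw N ω g = dualTw N ω g' := by
  have hmem : g⁻¹ * g' ∈ L.fixingSubgroup := by
    rw [← ker_resL p L, MonoidHom.mem_ker, map_mul, map_inv, h, inv_mul_cancel]
  have h1 := dualTw_eq_one N ω L htriv hω hmem
  have h2 : dualTw N ω g' = dualTw N ω g * dualTw N ω (g⁻¹ * g') := by
    rw [← map_mul, mul_inv_cancel_left]
  rw [h2, h1, mul_one]

/-- The twisted dual as a representation of `Gal(L/ℚ_p)`, when `Gal(Ω/L)` acts trivially on `N`
and `ω` is trivial on it. -/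
def dualTwL (htriv : ∀ v ∈ L.fixingSubgroup, N.ρ v = 1) (hω : ∀ v ∈ L.fixingSubgroup, ω v = 1) :
    Representation (ZMod p) (↥L ≃ₐ[ℚ_[p]] ↥L) (Dual N) where
  toFun σ := dualTw N ω (Function.surjInv (resL_surjective p L) σ)
  map_one' := by
    have h : resL p L (Function.surjInv (resL_surjective p L) 1) = resL p L 1 := by
      rw [Function.surjInv_eq (resL_surjective p L), map_one]
    rw [dualTw_eq_of_resL_eq N ω L htriv hω h, map_one]
  map_mul' σ τ := by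
    have h : resL p L (Function.surjInv (resL_surjective p L) (σ * τ)) =
        resL p L (Function.surjInv (resL_surjective p L) σ *
          Function.surjInv (resL_surjective p L) τ) := by
      rw [map_mul, Function.surjInv_eq (resL_surjective p L), Function.surjInv_eq (resL_surjective p L),
        Function.surjInv_eq (resL_surjective p L)]
    rw [dualTw_eq_of_resL_eq N ω L htriv hω h, map_mul]

theorem dualTwL_resL (htriv : ∀ v ∈ L.fixingSubgroup, N.ρ v = 1)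
    (hω : ∀ v ∈ L.fixingSubgroup, ω v = 1) (g : Gq p) :
    dualTwL N ω L htriv hω (resL p L g) = dualTw N ω g := by
  change dualTw N ω (Function.surjInv (resL_surjective p L) (resL p L g)) = dualTw N ω g
  exact dualTw_eq_of_resL_eq N ω L htriv hω (Function.surjInv_eq _ _)

end Descent

/-! ### The target of the Kummer map -/

section Target

variable (L : IntermediateField ℚ_[p] (PadicAlgCl p)) [FiniteDimensional ℚ_[p] L]
  [IsGalois ℚ_[p] L]
variable {M : Type} [AddCommGroup M] [Module (ZMod p) M]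

/-- The set of `Gal(L/ℚ_p)`-equivariant homomorphisms `M → Lˣ/(Lˣ)^p` with values of level
`≥ m0` (equivariance stated on lifts) — VERBATIM the shape of the unit-side count (`LLCount9`). -/
def KumHomSet (ρ : Representation (ZMod p) (↥L ≃ₐ[ℚ_[p]] ↥L) M) (m0 : ℕ) : Type :=
  {f : Multiplicative M →* (↥L)ˣ ⧸ (powMonoidHom p : (↥L)ˣ →* (↥L)ˣ).range //
    (∀ (σ : ↥L ≃ₐ[ℚ_[p]] ↥L) (x : (↥L)ˣ) (w : Multiplicative M), f w = ↑x →
      f (Multiplicative.ofAdd (ρ σ w.toAdd)) = ↑(Units.map (σ : ↥L →* ↥L) x)) ∧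
    ∀ w, ∃ u ∈ unitFil p ↥L m0, f w = ↑u}

end Target


/-! ### Additive functionals separate points -/

theorem eq_zero_of_forall_dual [CharP k p] {A : Type} [AddCommGroup A] [Module k A] (n : A)
    (h : ∀ ν : A →+ ZMod p, ν n = 0) : n = 0 := by
  letI : Algebra (ZMod p) k := ZMod.algebra k p
  letI : Module (ZMod p) A := Module.compHom A (algebraMap (ZMod p) k)
  rw [← Module.forall_dual_apply_eq_zero_iff (ZMod p) n]
  intro φ
  exact h φ.toAddMonoidHom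

/-! ### The Kummer map of a cocycle -/

section KumMap

variable (L : IntermediateField ℚ_[p] (PadicAlgCl p)) (ζ : PadicAlgCl p)
  (ω : Gq p →* (ZMod p)ˣ) (N : Rep.{0} k (Gq p))

/-- The standing hypotheses of the Kummer dictionary: `ζ ∈ L` a primitive `p`-th root of unity, `ω`
the mod `p` cyclotomic character, `Gal(Ω/L)` acts trivially on `N`. -/
structure KData : Prop where
  hζ : ζ ^ p = 1
  hne : ζ ≠ 1
  hζL : ζ ∈ L
  hωζ : ∀ g : Gq p, g ζ = ζ ^ ((ω g : (ZMod p)ˣ) : ZMod p).val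
  htriv : ∀ v ∈ L.fixingSubgroup, N.ρ v = 1

variable {L ζ ω N}

theorem KData.hζV (D : KData L ζ ω N) : ∀ σ : Gq p, σ ∈ L.fixingSubgroup → σ ζ = ζ :=
  fixed_of_mem L D.hζL

theorem KData.hω (D : KData L ζ ω N) : ∀ v ∈ L.fixingSubgroup, ω v = 1 := by
  intro v hv
  have h1 := D.hωζ v
  rw [D.hζV v hv] at h1
  have hp1 : 1 < p := (Fact.out : p.Prime).one_lt
  haveI : Fact (1 < p) := ⟨hp1⟩
  have h5 : ζ * ζ ^ (-1 : ZMod p).val = 1 := by
    have := zpw_add D.hζ (1 : ZMod p) (-1)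
    rw [add_neg_cancel, zpw_zero, ZMod.val_one, pow_one] at this
    exact this.symm
  have h2 : ζ ^ (((ω v : (ZMod p)ˣ) : ZMod p) - 1).val = 1 := by
    rw [sub_eq_add_neg, zpw_add D.hζ, ← h1, h5]
  have h4 := (zpw_eq_one_iff D.hζ D.hne _).1 h2
  exact Units.ext (sub_eq_zero.1 h4)

/-- The character `ν ∘ c`. -/
abbrev chiOf (c : Gq p → N) (ν : Dual N) : Gq p → ZMod p := fun g => ν (c g)

theorem chiOf_add (c : Gq p → N) (ν ν' : Dual N) : chiOf c (ν + ν') = chiOf c ν + chiOf c ν' := rfl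

theorem chiOf_zero (c : Gq p → N) : chiOf c (0 : Dual N) = 0 := rfl

theorem chiOf_sub_left (c c' : Gq p → N) (ν : Dual N) :
    chiOf (c - c') ν = chiOf c ν - chiOf c' ν := by
  funext g
  simp [chiOf]

theorem exists_isKum_chiOf (D : KData L ζ ω N) {c : Gq p → N} (hc : c ∈ Z1 (levelLoc p) N)
    (ν : Dual N) : ∃ y, IsKum L.fixingSubgroup ζ (chiOf c ν) y := by
  refine exists_isKum D.hζ D.hζV _ (hc.2.comp ν) (fun v hv v' _ => ?_)
  change ν (c (v * v')) = ν (c v) + ν (c v')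
  rw [restrict_mul hc.1 D.htriv hv, map_add]

/-- **The Kummer map** `Hom(N, 𝔽_p) → Lˣ/(Lˣ)^p` of a level cocycle `c`. -/
def kumHomOf (D : KData L ζ ω N) {c : Gq p → N} (hc : c ∈ Z1 (levelLoc p) N) :
    Multiplicative (Dual N) →* (↥L)ˣ ⧸ PthPow L where
  toFun w := kumClass L ζ (chiOf c w.toAdd)
  map_one' := by
    change kumClass L ζ (chiOf c (0 : Dual N)) = 1
    rw [chiOf_zero, kumClass_zero D.hζ]
  map_mul' w w' := by
    change kumClass L ζ (chiOf c (w.toAdd + w'.toAdd)) = _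
    obtain ⟨y, hy⟩ := exists_isKum_chiOf D hc w.toAdd
    obtain ⟨y', hy'⟩ := exists_isKum_chiOf D hc w'.toAdd
    rw [chiOf_add, kumClass_add D.hζ hy hy']

theorem kumHomOf_apply (D : KData L ζ ω N) {c : Gq p → N} (hc : c ∈ Z1 (levelLoc p) N)
    (w : Multiplicative (Dual N)) : kumHomOf D hc w = kumClass L ζ (chiOf c w.toAdd) := rfl

/-- Injectivity of the Kummer map: equal Kummer maps force equal restrictions to `Gal(Ω/L)`. -/
theorem restrict_eq_of_kumHomOf_eq [CharP k p] (D : KData L ζ ω N) {c c' : Gq p → N}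
    (hc : c ∈ Z1 (levelLoc p) N) (hc' : c' ∈ Z1 (levelLoc p) N)
    (h : kumHomOf D hc = kumHomOf D hc') : ∀ v ∈ L.fixingSubgroup, c v = c' v := by
  intro v hv
  rw [← sub_eq_zero]
  apply eq_zero_of_forall_dual (k := k) (p := p)
  intro ν
  obtain ⟨y, hy⟩ := exists_isKum_chiOf D hc ν
  obtain ⟨y', hy'⟩ := exists_isKum_chiOf D hc' ν
  have hd : IsKum L.fixingSubgroup ζ (chiOf c ν - chiOf c' ν) (y / y') := hy.div D.hζ hy'
  have h1 : kumClass L ζ (chiOf c ν) = kumClass L ζ (chiOf c' ν) :=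
    DFunLike.congr_fun h (Multiplicative.ofAdd ν)
  have h2 : kumClass L ζ (chiOf c ν) =
      kumClass L ζ (chiOf c ν - chiOf c' ν) * kumClass L ζ (chiOf c' ν) := by
    rw [← kumClass_add D.hζ hd hy', sub_add_cancel]
  have h3 : kumClass L ζ (chiOf c ν - chiOf c' ν) = 1 := by
    rw [h1] at h2
    calc kumClass L ζ (chiOf c ν - chiOf c' ν)
        = kumClass L ζ (chiOf c ν - chiOf c' ν) * kumClass L ζ (chiOf c' ν) *
            (kumClass L ζ (chiOf c' ν))⁻¹ := (mul_inv_cancel_right _ _).symm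
      _ = kumClass L ζ (chiOf c' ν) * (kumClass L ζ (chiOf c' ν))⁻¹ := by rw [← h2]
      _ = 1 := mul_inv_cancel _
  have h4 := (kumClass_eq_one_iff D.hζ D.hne D.hζL hd).1 h3 v hv
  rw [map_sub]
  exact h4

section Equivariance

variable [FiniteDimensional ℚ_[p] L] [IsGalois ℚ_[p] L]

/-- **Galois equivariance of the Kummer map** (in the "lifts" form of `KumHomSet`). -/
theorem kumHomOf_equivariant (D : KData L ζ ω N) {c : Gq p → N} (hc : c ∈ Z1 (levelLoc p) N)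
    (σ : ↥L ≃ₐ[ℚ_[p]] ↥L) (x : (↥L)ˣ) (w : Multiplicative (Dual N))
    (hx : kumHomOf D hc w = QuotientGroup.mk x) :
    kumHomOf D hc (Multiplicative.ofAdd (dualTwL N ω L D.htriv D.hω σ w.toAdd)) =
      QuotientGroup.mk (Units.map (σ : ↥L →* ↥L) x) := by
  obtain ⟨g, rfl⟩ := resL_surjective p L σ
  rw [dualTwL_resL, kumHomOf_apply, toAdd_ofAdd]
  obtain ⟨y, hy⟩ := exists_isKum_chiOf D hc w.toAdd
  have hcongr : kumClass L ζ (chiOf c (dualTw N ω g w.toAdd)) =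
      kumClass L ζ (fun τ => ((ω g : (ZMod p)ˣ) : ZMod p) * chiOf c w.toAdd (g⁻¹ * τ * g)) := by
    refine kumClass_congr D.hζ (fun v hv => ?_)
    have h1 := restrict_conj hc.1 D.htriv g⁻¹ hv
    rw [inv_inv] at h1
    change ((ω g : (ZMod p)ˣ) : ZMod p) * w.toAdd (N.ρ g⁻¹ (c v)) = _
    rw [← h1]
  rw [hcongr]
  exact kumClass_conj D.hζ g _ (D.hωζ g) hy x hx

/-- The element of `KumHomSet` attached to a cocycle all of whose characters have Kummer level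
`≤ ϖ ^ m0`. -/
def kumHomSetOf (D : KData L ζ ω N) {c : Gq p → N} (hc : c ∈ Z1 (levelLoc p) N) {m0 : ℕ}
    (hm0 : 0 < m0) (hlev : ∀ ν : Dual N, KumLe L ζ (unifNorm p ↥L ^ m0) (chiOf c ν)) :
    KumHomSet L (dualTwL N ω L D.htriv D.hω) m0 :=
  ⟨kumHomOf D hc, fun σ x w hx => kumHomOf_equivariant D hc σ x w hx,
    fun w => (hlev w.toAdd).exists_unitFil D.hζ hm0⟩

theorem kumHomSetOf_val (D : KData L ζ ω N) {c : Gq p → N} (hc : c ∈ Z1 (levelLoc p) N) {m0 : ℕ}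
    (hm0 : 0 < m0) (hlev : ∀ ν : Dual N, KumLe L ζ (unifNorm p ↥L ^ m0) (chiOf c ν)) :
    (kumHomSetOf D hc hm0 hlev).1 = kumHomOf D hc := rfl

end Equivariance

end KumMap


/-! ### The flat condition and the count -/

section Main

variable (L : IntermediateField ℚ_[p] (PadicAlgCl p)) [FiniteDimensional ℚ_[p] L]
  [IsGalois ℚ_[p] L] (ζ : PadicAlgCl p) (ω : Gq p →* (ZMod p)ˣ)
variable {N N₀ N₁ : Rep.{0} k (Gq p)}
  (pr₀ : N →ₗ[k] N₀) (pr₁ : N →ₗ[k] N₁)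

/-- **The flat condition** on a cochain `c : Gq p → N`, relative to the two equivariant projections
`pr₀ : N → N₀` (weight `0`) and `pr₁ : N → N₁` (weights `±1`):
(F0) `pr₀ ∘ c` kills `Iq ∩ Gal(Ω/L)`; (F1) all characters `ν ∘ pr₁ ∘ c` have Kummer level
`≤ ϖ_L ^ m0`. -/
def FlatCond (m0 : ℕ) (c : Gq p → N) : Prop :=
  (∀ σ ∈ Iq p, σ ∈ L.fixingSubgroup → pr₀ (c σ) = 0) ∧
    ∀ ν : Dual N₁, KumLe L ζ (unifNorm p ↥L ^ m0) (fun g => ν (pr₁ (c g)))

variable {L ζ ω pr₀ pr₁}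

theorem unifNorm_pow_lt_one {m0 : ℕ} (hm0 : 0 < m0) : unifNorm p ↥L ^ m0 < 1 :=
  pow_lt_one₀ unifNorm_pos.le unifNorm_lt_one hm0.ne'

theorem FlatCond.zero (m0 : ℕ) : FlatCond L ζ pr₀ pr₁ m0 (0 : Gq p → N) := by
  refine ⟨fun σ _ _ => by simp, fun ν => ?_⟩
  have : (fun g : Gq p => ν (pr₁ ((0 : Gq p → N) g))) = 0 := by
    funext g
    simp
  rw [this]
  exact KumLe.zero (pow_nonneg unifNorm_pos.le m0)

theorem FlatCond.add (hζ : ζ ^ p = 1) {m0 : ℕ} (hm0 : 0 < m0) {c c' : Gq p → N}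
    (h : FlatCond L ζ pr₀ pr₁ m0 c) (h' : FlatCond L ζ pr₀ pr₁ m0 c') :
    FlatCond L ζ pr₀ pr₁ m0 (c + c') := by
  refine ⟨fun σ hσ hσ' => ?_, fun ν => ?_⟩
  · rw [Pi.add_apply, map_add, h.1 σ hσ hσ', h'.1 σ hσ hσ', add_zero]
  · have : (fun g : Gq p => ν (pr₁ ((c + c') g))) =
        (fun g => ν (pr₁ (c g))) + fun g => ν (pr₁ (c' g)) := by
      funext g
      simp
    rw [this]
    exact (h.2 ν).add hζ (unifNorm_pow_lt_one hm0) (h'.2 ν)

theorem FlatCond.smul {m0 : ℕ} (a : k) {c : Gq p → N} (h : FlatCond L ζ pr₀ pr₁ m0 c) :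
    FlatCond L ζ pr₀ pr₁ m0 (a • c) := by
  refine ⟨fun σ hσ hσ' => ?_, fun ν => ?_⟩
  · rw [Pi.smul_apply, map_smul, h.1 σ hσ hσ', smul_zero]
  · have : (fun g : Gq p => ν (pr₁ ((a • c) g))) =
        fun g => (ν.comp ((LinearMap.lsmul k N₁ a).toAddMonoidHom)) (pr₁ (c g)) := by
      funext g
      simp
    rw [this]
    exact h.2 _

variable (L ζ pr₀ pr₁)

/-- **The flat subspace** of `H¹(ℚ_p, N)`: classes of level cocycles satisfying `FlatCond`. -/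
def Lflat (hζ : ζ ^ p = 1) {m0 : ℕ} (hm0 : 0 < m0) : Submodule k (H1 (levelLoc p) N) where
  carrier := {x | ∃ c : ↥(Z1 (levelLoc p) N), H1mk (levelLoc p) N c = x ∧
    FlatCond L ζ pr₀ pr₁ m0 (c : Gq p → N)}
  add_mem' := by
    rintro _ _ ⟨c, rfl, hc⟩ ⟨c', rfl, hc'⟩
    exact ⟨c + c', map_add _ _ _, hc.add hζ hm0 hc'⟩
  zero_mem' := ⟨0, map_zero _, FlatCond.zero m0⟩
  smul_mem' := by
    rintro a _ ⟨c, rfl, hc⟩
    exact ⟨a • c, map_smul _ _ _, hc.smul a⟩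

variable {L ζ pr₀ pr₁}

theorem mem_Lflat_iff (hζ : ζ ^ p = 1) {m0 : ℕ} (hm0 : 0 < m0) (x : H1 (levelLoc p) N) :
    x ∈ Lflat L ζ pr₀ pr₁ hζ hm0 ↔ ∃ c : ↥(Z1 (levelLoc p) N),
      H1mk (levelLoc p) N c = x ∧ FlatCond L ζ pr₀ pr₁ m0 (c : Gq p → N) := Iff.rfl

/-- On a subgroup acting trivially, a cocycle is additive on powers. -/
theorem cocycle_pow_of_trivial {A : Rep.{0} k (Gq p)} {c : Gq p → A} (hc : c ∈ cocycles₁ A)
    {τ : Gq p} (hτ : ∀ j : ℕ, A.ρ (τ ^ j) = 1) (j : ℕ) : c (τ ^ j) = j • c τ := by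
  induction j with
  | zero => rw [pow_zero, cocycle_one hc, zero_smul]
  | succ j ih =>
    rw [pow_succ, cocycle_mul hc, ih, hτ j, Module.End.one_apply, succ_nsmul]

/-- From the weak form of (F0) (`c₀` kills `Iq ∩ Gal(Ω/L)`) to the strong one (`c₀` kills `Iq`),
when `Iq` acts trivially and `[L : ℚ_p]` is invertible in `k`. -/
theorem eq_zero_on_Iq_of_weak (hur₀ : IsUnramifiedRep p N₀)
    (hunit : IsUnit ((L.fixingSubgroup.index : ℕ) : k)) {c₀ : Gq p → N₀}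
    (hc₀ : c₀ ∈ cocycles₁ N₀) (hweak : ∀ σ ∈ Iq p, σ ∈ L.fixingSubgroup → c₀ σ = 0) :
    ∀ τ ∈ Iq p, c₀ τ = 0 := by
  intro τ hτ
  have hpow : ∀ j : ℕ, N₀.ρ (τ ^ j) = 1 := fun j => hur₀ _ (pow_mem hτ j)
  have h1 := cocycle_pow_of_trivial hc₀ hpow L.fixingSubgroup.index
  have h2 : c₀ (τ ^ L.fixingSubgroup.index) = 0 :=
    hweak _ (pow_mem hτ _) (Subgroup.pow_index_mem _ τ)
  rw [h2, ← Nat.cast_smul_eq_nsmul k] at h1
  exact (hunit.smul_eq_zero).1 h1.symm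

instance finiteIndex_fixingSubgroup : (L.fixingSubgroup).FiniteIndex := by
  rw [← ker_resL p L]
  infer_instance

variable (h₀ : ∀ g a, pr₀ (N.ρ g a) = N₀.ρ g (pr₀ a))
  (h₁ : ∀ g a, pr₁ (N.ρ g a) = N₁.ρ g (pr₁ a))

include h₀ in
/-- The weight-`0` component of a flat class is unramified. -/
theorem mapH1_mem_H1ur (hζ : ζ ^ p = 1) {m0 : ℕ} (hm0 : 0 < m0)
    (hur₀ : IsUnramifiedRep p N₀) (hunit : IsUnit ((L.fixingSubgroup.index : ℕ) : k))
    {x : H1 (levelLoc p) N} (hx : x ∈ Lflat L ζ pr₀ pr₁ hζ hm0) :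
    mapH1 (𝓑 := levelLoc p) pr₀ h₀ x ∈ H1ur p N₀ := by
  obtain ⟨c, rfl, hc⟩ := hx
  refine ⟨mapZ1 pr₀ h₀ c, rfl, 0, fun τ hτ => ?_⟩
  rw [map_zero, sub_zero]
  exact eq_zero_on_Iq_of_weak hur₀ hunit (comp_mem_cocycles₁ pr₀ h₀ c.2.1) hc.1 τ hτ

include h₀ h₁ in
/-- **The injection.**  The flat subspace injects into `H¹_ur(N₀) × KumHomSet(N₁^∨(1))`. -/
theorem exists_injective_Lflat [CharP k p] (D : KData L ζ ω N) (D₁ : KData L ζ ω N₁)
    (htriv₀ : ∀ v ∈ L.fixingSubgroup, N₀.ρ v = 1)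
    (hunit : IsUnit ((L.fixingSubgroup.index : ℕ) : k))
    (hur₀ : IsUnramifiedRep p N₀)
    (hinj : ∀ n : N, pr₀ n = 0 → pr₁ n = 0 → n = 0) {m0 : ℕ} (hm0 : 0 < m0) :
    ∃ Φ : ↥(Lflat L ζ pr₀ pr₁ D.hζ hm0) →
      ↥(H1ur p N₀) × KumHomSet L (dualTwL N₁ ω L D₁.htriv D₁.hω) m0, Function.Injective Φ := by
  classical
  -- choose representatives
  have hrep : ∀ x : ↥(Lflat L ζ pr₀ pr₁ D.hζ hm0), ∃ c : ↥(Z1 (levelLoc p) N),
      H1mk (levelLoc p) N c = x.1 ∧ FlatCond L ζ pr₀ pr₁ m0 (c : Gq p → N) := fun x => x.2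
  choose rep hrep1 hrep2 using hrep
  let Φ : ↥(Lflat L ζ pr₀ pr₁ D.hζ hm0) →
      ↥(H1ur p N₀) × KumHomSet L (dualTwL N₁ ω L D₁.htriv D₁.hω) m0 := fun x =>
    (⟨mapH1 (𝓑 := levelLoc p) pr₀ h₀ x.1, mapH1_mem_H1ur h₀ D.hζ hm0 hur₀ hunit x.2⟩,
      kumHomSetOf D₁ (comp_mem_Z1 pr₁ h₁ (rep x).2) hm0 (hrep2 x).2)
  refine ⟨Φ, ?_⟩
  intro x x' hxx'
  have hA := congrArg (fun z => (z.1 : H1 (levelLoc p) N₀)) hxx'
  have hB := congrArg (fun z => z.2.1) hxx'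
  simp only [Φ] at hA hB
  rw [kumHomSetOf_val, kumHomSetOf_val] at hB
  -- the difference cocycle
  set d : ↥(Z1 (levelLoc p) N) := rep x - rep x' with hd
  have hdv : ∀ g, (d : Gq p → N) g = (rep x : Gq p → N) g - (rep x' : Gq p → N) g := fun g => rfl
  -- weight `±1`: `pr₁ ∘ d` vanishes on `V`
  have h1v : ∀ v ∈ L.fixingSubgroup, pr₁ ((d : Gq p → N) v) = 0 := by
    intro v hv
    have := restrict_eq_of_kumHomOf_eq D₁ (comp_mem_Z1 pr₁ h₁ (rep x).2)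
      (comp_mem_Z1 pr₁ h₁ (rep x').2) hB v hv
    rw [hdv, map_sub]
    exact sub_eq_zero.2 this
  -- weight `0`: `pr₀ ∘ d` is a coboundary, hence vanishes on `V`
  have h0v : ∀ v ∈ L.fixingSubgroup, pr₀ ((d : Gq p → N) v) = 0 := by
    intro v hv
    have hcl : mapH1 (𝓑 := levelLoc p) pr₀ h₀ (H1mk (levelLoc p) N d) = 0 := by
      rw [hd, map_sub, map_sub, hrep1, hrep1, hA, sub_self]
    rw [mapH1_mk, H1mk_eq_zero_iff] at hcl
    obtain ⟨m, hm⟩ := hcl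
    have := congrFun hm v
    simp only [mapZ1, LinearMap.coe_mk, AddHom.coe_mk, Function.comp_apply] at this
    rw [← this, d₀₁_hom_apply, htriv₀ v hv, Module.End.one_apply, sub_self]
  have hdV : ∀ v ∈ L.fixingSubgroup, (d : Gq p → N) v = 0 :=
    fun v hv => hinj _ (h0v v hv) (h1v v hv)
  have hcob : (d : Gq p → N) ∈ coboundaries₁ N :=
    mem_coboundaries₁_of_restrict_eq_zero L.fixingSubgroup hunit d.2.1 hdV
  have hzero : H1mk (levelLoc p) N d = 0 := (H1mk_eq_zero_iff _ _ _).2 hcob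
  rw [hd, map_sub, hrep1, hrep1, sub_eq_zero] at hzero
  exact Subtype.ext hzero

theorem finite_H1ur [Finite N₀] (hdisc₀ : IsDiscrete (levelLoc p).sets N₀) :
    Finite (H1ur p N₀) := by
  apply Nat.finite_of_card_ne_zero
  rw [Fermat.Agent.TW.LOC.UnramGq4.card_H1ur p N₀ hdisc₀]
  exact Nat.card_ne_zero.2 ⟨⟨⟨0, fun g => map_zero _⟩⟩, inferInstance⟩

include h₀ h₁ in
/-- The flat subspace is finite. -/
theorem finite_Lflat [CharP k p] (D : KData L ζ ω N) (D₁ : KData L ζ ω N₁)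
    (htriv₀ : ∀ v ∈ L.fixingSubgroup, N₀.ρ v = 1)
    (hunit : IsUnit ((L.fixingSubgroup.index : ℕ) : k))
    (hur₀ : IsUnramifiedRep p N₀) [Finite N₀] (hdisc₀ : IsDiscrete (levelLoc p).sets N₀)
    (hinj : ∀ n : N, pr₀ n = 0 → pr₁ n = 0 → n = 0) {m0 : ℕ} (hm0 : 0 < m0)
    [Finite (KumHomSet L (dualTwL N₁ ω L D₁.htriv D₁.hω) m0)] :
    Finite (Lflat L ζ pr₀ pr₁ D.hζ hm0) := by
  have hfin : Finite (H1ur p N₀) := finite_H1ur hdisc₀
  obtain ⟨Φ, hΦ⟩ := exists_injective_Lflat h₀ h₁ D D₁ htriv₀ hunit hur₀ hinj hm0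
  exact Finite.of_injective Φ hΦ

include h₀ h₁ in
/-- **The count.**  `#Lflat ≤ #N₀^{Gq} · #KumHomSet(N₁^∨(1))`. -/
theorem card_Lflat_le [CharP k p] (D : KData L ζ ω N) (D₁ : KData L ζ ω N₁)
    (htriv₀ : ∀ v ∈ L.fixingSubgroup, N₀.ρ v = 1)
    (hunit : IsUnit ((L.fixingSubgroup.index : ℕ) : k))
    (hur₀ : IsUnramifiedRep p N₀) [Finite N₀] (hdisc₀ : IsDiscrete (levelLoc p).sets N₀)
    (hinj : ∀ n : N, pr₀ n = 0 → pr₁ n = 0 → n = 0) {m0 : ℕ} (hm0 : 0 < m0)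
    [Finite (KumHomSet L (dualTwL N₁ ω L D₁.htriv D₁.hω) m0)] :
    Nat.card (Lflat L ζ pr₀ pr₁ D.hζ hm0) ≤
      Nat.card {n : N₀ // ∀ g : Gq p, N₀.ρ g n = n} *
        Nat.card (KumHomSet L (dualTwL N₁ ω L D₁.htriv D₁.hω) m0) := by
  rw [← Fermat.Agent.TW.LOC.UnramGq4.card_H1ur p N₀ hdisc₀, ← Nat.card_prod]
  have hfin : Finite (H1ur p N₀) := finite_H1ur hdisc₀
  obtain ⟨Φ, hΦ⟩ := exists_injective_Lflat h₀ h₁ D D₁ htriv₀ hunit hur₀ hinj hm0
  exact Nat.card_le_card_of_injective Φ hΦ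

end Main

end

end Fermat.Agent.TW.FLAT.LLCoh3
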