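/-
Programme T (S56), chapter FLAT, brick (LL-COUNT), part 2 — helper9.

THE `p`-TH POWER MAP ON THE UNIT FILTRATION of a `p`-adic field `F` (model of
`PT.LOC.Interface12`), on top of `UnitFil9`.  `π` is a uniformizer and the absolute ramification
index `e` enters through `he : snorm p F (p : F) = snorm p F π ^ e` (`exists_absRam`).
`ū = res (p / π ^ e) ≠ 0`.  No hypothesis on roots of unity, no tameness.

* `charP_resF : CharP (resF p F) p`, `exists_pow_eq_res` (Frobenius of `κ` is surjective);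
* `exists_absRam : ∃ e > 0, ‖p‖ = ‖π‖ ^ e`;
* `exists_expansion`: `(1 + π^i a)^p = 1 + π^(i+e) (u a) + π^(2i+e) (u a² r) + π^(p i) a^p`;
* for `x ∈ U^(i)`, `i ≥ 1`:
  `pow_p_lt  : p i < i + e → x^p ∈ U^(p i) ∧ gr_{p i} (x^p) = (gr_i x)^p`,
  `pow_p_gt  : i + e < p i → x^p ∈ U^(i+e) ∧ gr_{i+e} (x^p) = ū * gr_i x`,
  `pow_p_eq  : p i = i + e → x^p ∈ U^(p i) ∧ gr_{p i} (x^p) = (gr_i x)^p + ū * gr_i x`,
  `pow_p_mem_unitFil : x^p ∈ U^(min (p i) (i + e))`;
* `exists_pow_mul_of_dvd` : `U^(p i) ⊆ (U^(i))^p U^(p i + 1)` for `p i < i + e`;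
* `unitFil_complete` : infinite products converge; `exists_pow_eq_of_gt` : `U^(j+e) = (U^(j))^p` for
  `j + e < p j` (so `U^(m) ⊆ (Fˣ)^p` for `m > p e / (p - 1)`);
* `p`-th powers inside `U^(m)`: `mem_unitFil_one_of_pow_mem`, `pow_p_mem_succ_of_not_dvd`
  (`p ∤ m < p e/(p-1)`, `y^p ∈ U^(m) ⇒ y^p ∈ U^(m+1)`), `exists_grMap_pow_eq_of_top`
  (`(p-1) m = p e`, `y^p ∈ U^(m) ⇒ gr_m (y^p) = c^p + ū c` for some `c`).
-/
import Mathlib
import Fermat.Agent.PT.LOC.Filtered10
import Fermat.Agent.TW.FLAT.NoSmallTorsion7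
import Fermat.Agent.TW.FLAT.UnitFil9

set_option autoImplicit false
set_option linter.unusedSectionVars false

open scoped Fermat.Agent.PT.LOC.Interface12 Fermat.Agent.PT.LOC.StructureTower27
open Fermat.Agent.PT.LOC.Interface12 Fermat.Agent.PT.LOC.Structure14
  Fermat.Agent.PT.LOC.StructureNorm14 Fermat.Agent.PT.LOC.StructureTower27
  Fermat.Agent.PT.LOC.StructureTowerEF27 Fermat.Agent.PT.LOC.RootsUnity14
  Fermat.Agent.PT.LOC.Unram11 Fermat.Agent.TW.LOC.TameInertia4
  Fermat.Agent.TW.FLAT.UnitFil9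

namespace Fermat.Agent.TW.FLAT.UnitPow9

noncomputable section

variable {p : ℕ} [Fact p.Prime] {F : Type} [Field F] [Algebra ℚ_[p] F] [FiniteDimensional ℚ_[p] F]

/-! ### The residue field has characteristic `p` -/

theorem natCast_p_resF : ((p : ℕ) : resF p F) = 0 := by
  rw [← res_natCast (p := p) (F := F) p]
  apply res_eq_zero_of_snorm_lt
  rw [snorm_natCast_q]
  have hp1 : (1 : ℝ) < p := by exact_mod_cast (Fact.out : p.Prime).one_lt
  exact inv_lt_one_of_one_lt₀ hp1

instance charP_resF : CharP (resF p F) p :=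
  (CharP.charP_iff_prime_eq_zero (Fact.out : p.Prime)).2 natCast_p_resF

/-- The Frobenius of the residue field is surjective. -/
theorem exists_pow_eq_res (c : resF p F) : ∃ b : resF p F, b ^ p = c := by
  have : ExpChar (resF p F) p := ExpChar.prime (Fact.out : p.Prime)
  obtain ⟨b, hb⟩ := surjective_frobenius (resF p F) p c
  exact ⟨b, hb⟩

theorem pow_p_eq_zero_iff (c : resF p F) : c ^ p = 0 ↔ c = 0 :=
  pow_eq_zero_iff (Fact.out : p.Prime).ne_zero

/-- The Frobenius of the residue field is injective. -/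
theorem pow_p_injective {b c : resF p F} (h : b ^ p = c ^ p) : b = c := by
  have : ExpChar (resF p F) p := ExpChar.prime (Fact.out : p.Prime)
  exact frobenius_inj (resF p F) p h

/-! ### The absolute ramification index -/

theorem natCast_p_ne_zero : ((p : ℕ) : F) ≠ 0 := by
  intro h
  have h1 := snorm_natCast_q p F
  rw [h, snorm_zero] at h1
  have hp0 : (0 : ℝ) < p := by exact_mod_cast (Fact.out : p.Prime).pos
  have : (0 : ℝ) < (p : ℝ)⁻¹ := inv_pos.2 hp0
  linarith

theorem exists_absRam {π : F} (hπ : IsUniformizer p F π) :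
    ∃ e : ℕ, 0 < e ∧ snorm p F ((p : ℕ) : F) = snorm p F π ^ e := by
  have h0 : π ≠ 0 := hπ.2.1
  have h1 := snorm_eq_zpow p F (Units.mk0 π h0) (by simpa using hπ)
    (Units.mk0 ((p : ℕ) : F) natCast_p_ne_zero)
  simp only [Units.val_mk0] at h1
  set n := ord p F (Units.mk0 ((p : ℕ) : F) natCast_p_ne_zero) with hn
  have hlt : snorm p F ((p : ℕ) : F) < 1 := by
    rw [snorm_natCast_q]
    have hp1 : (1 : ℝ) < p := by exact_mod_cast (Fact.out : p.Prime).one_lt
    exact inv_lt_one_of_one_lt₀ hp1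
  have hπ1 : snorm p F π < 1 := snorm_uniformizer_lt_one p F π hπ
  have hπ0 : 0 < snorm p F π := snorm_pos p F h0
  have hnpos : 0 < n := by
    by_contra hcon
    have hn0 : n ≤ 0 := not_lt.1 hcon
    have : 1 ≤ snorm p F π ^ n := by
      have h2 : snorm p F π ^ n = (snorm p F π ^ (-n))⁻¹ := by rw [zpow_neg, inv_inv]
      rw [h2]
      apply one_le_inv_iff₀.2
      refine ⟨zpow_pos hπ0 _, ?_⟩
      exact zpow_le_one₀ hπ0 hπ1.le (by omega)
    rw [← h1] at this
    exact absurd hlt (not_lt.2 this)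
  refine ⟨n.toNat, by omega, ?_⟩
  rw [h1]
  have : (n.toNat : ℤ) = n := Int.toNat_of_nonneg hnpos.le
  rw [← zpow_natCast, this]

section Pow

variable {π : F} (hπ : IsUniformizer p F π) {e : ℕ}
  (he : snorm p F ((p : ℕ) : F) = snorm p F π ^ e)

include hπ he

theorem p_div_mem : ((p : ℕ) : F) * (π⁻¹) ^ e ∈ intRing p F :=
  (mul_inv_pow_mem_iff hπ _ e).2 he.le

theorem snorm_p_div : snorm p F (((p : ℕ) : F) * (π⁻¹) ^ e) = 1 := by
  rw [snorm_mul_inv_pow hπ, he, div_self (pow_pos (snorm_uniformizer_pos hπ) e).ne']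

theorem res_p_div_ne_zero : res p F (((p : ℕ) : F) * (π⁻¹) ^ e) ≠ 0 := by
  rw [Ne, res_eq_zero_iff (p_div_mem hπ he), snorm_p_div hπ he]
  exact lt_irrefl _

theorem natCast_p_eq : ((p : ℕ) : F) = π ^ e * (((p : ℕ) : F) * (π⁻¹) ^ e) := by
  have h0 : π ≠ 0 := hπ.2.1
  have h1 : π ^ e * (π⁻¹) ^ e = 1 := by rw [← mul_pow, mul_inv_cancel₀ h0, one_pow]
  linear_combination (-((p : ℕ) : F)) * h1

/-- The binomial expansion of `(1 + π^i a)^p` up to the relevant order. -/
theorem exists_expansion (i : ℕ) {a : F} (ha : a ∈ intRing p F) :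
    ∃ r ∈ intRing p F, (1 + π ^ i * a) ^ p =
      1 + π ^ (i + e) * ((((p : ℕ) : F) * (π⁻¹) ^ e) * a) +
        π ^ (2 * i + e) * ((((p : ℕ) : F) * (π⁻¹) ^ e) * a ^ 2 * r) + π ^ (p * i) * a ^ p := by
  have hz : π ^ i * a ∈ intRing p F := mul_mem (pow_mem hπ.1 i) ha
  obtain ⟨r, hr⟩ := NoSmallTorsion7.exists_one_add_pow_prime (Fact.out : p.Prime)
    (⟨π ^ i * a, hz⟩ : intRing p F)
  refine ⟨(r : F), r.2, ?_⟩
  have h1 := congrArg (fun t : intRing p F => (t : F)) hr
  simp only [Subalgebra.coe_add, Subalgebra.coe_mul, Subalgebra.coe_pow, Subalgebra.coe_one,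
    SubringClass.coe_natCast] at h1
  have hp := natCast_p_eq hπ he
  set u : F := ((p : ℕ) : F) * (π⁻¹) ^ e with hu
  linear_combination h1 + (π ^ i * a + (π ^ i * a) ^ 2 * (r : F)) * hp

omit he in
/-- Terms of positive valuation do not change the residue class. -/
theorem res_add_pow_mul {k : ℕ} (hk : 0 < k) {b c : F} (hb : b ∈ intRing p F)
    (hc : c ∈ intRing p F) : res p F (b + π ^ k * c) = res p F b := by
  rw [res_add hb (mul_mem (pow_mem hπ.1 k) hc)]
  have hz : res p F (π ^ k * c) = 0 := by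
    apply res_eq_zero_of_snorm_lt
    exact lt_of_le_of_lt (snorm_pow_mul_le hπ k hc)
      (pow_lt_one₀ (snorm_nonneg p F π) (snorm_uniformizer_lt_one p F π hπ) hk.ne')
  rw [hz, add_zero]

/-- **Small levels**: for `p i < i + e`, `gr_{p i} (x^p) = (gr_i x)^p`. -/
theorem pow_p_lt {i : ℕ} (hi : 0 < i) (h : p * i < i + e) {x : Fˣ} (hx : x ∈ unitFil p F i) :
    x ^ p ∈ unitFil p F (p * i) ∧
      grMap p F π (p * i) (x ^ p) = (grMap p F π i x) ^ p := by
  obtain ⟨ha, hxa⟩ := exists_eq_of_mem_unitFil hπ hx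
  set a := ((x : F) - 1) * (π⁻¹) ^ i with ha_def
  obtain ⟨r, hr, hexp⟩ := exists_expansion hπ he i ha
  set u : F := ((p : ℕ) : F) * (π⁻¹) ^ e with hu
  have hum : u ∈ intRing p F := p_div_mem hπ he
  obtain ⟨k, hk⟩ : ∃ k, i + e = p * i + k := Nat.exists_eq_add_of_le h.le
  have hk0 : 0 < k := by omega
  have hc : u * a + π ^ i * (u * a ^ 2 * r) ∈ intRing p F :=
    add_mem (mul_mem hum ha) (mul_mem (pow_mem hπ.1 i)
      (mul_mem (mul_mem hum (pow_mem ha 2)) hr))
  have hform : ((x ^ p : Fˣ) : F) =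
      1 + π ^ (p * i) * (a ^ p + π ^ k * (u * a + π ^ i * (u * a ^ 2 * r))) := by
    rw [Units.val_pow_eq_pow_val, hxa, hexp]
    have e1 : π ^ (i + e) = π ^ (p * i) * π ^ k := by rw [hk, pow_add]
    have e2 : π ^ (2 * i + e) = π ^ (p * i) * π ^ k * π ^ i := by
      rw [← pow_add, ← pow_add]; congr 1; omega
    rw [e1, e2]; ring
  have hpi : 0 < p * i := Nat.mul_pos (Fact.out : p.Prime).pos hi
  refine ⟨mem_unitFil_of_eq hπ hpi
    (add_mem (pow_mem ha p) (mul_mem (pow_mem hπ.1 k) hc)) hform, ?_⟩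
  rw [grMap_of_eq hπ hform, res_add_pow_mul hπ hk0 (pow_mem ha p) hc, res_pow ha]
  rfl

/-- **Large levels**: for `i + e < p i`, `gr_{i+e} (x^p) = ū * gr_i x`. -/
theorem pow_p_gt {i : ℕ} (hi : 0 < i) (h : i + e < p * i) {x : Fˣ} (hx : x ∈ unitFil p F i) :
    x ^ p ∈ unitFil p F (i + e) ∧
      grMap p F π (i + e) (x ^ p) =
        res p F (((p : ℕ) : F) * (π⁻¹) ^ e) * grMap p F π i x := by
  obtain ⟨ha, hxa⟩ := exists_eq_of_mem_unitFil hπ hx
  set a := ((x : F) - 1) * (π⁻¹) ^ i with ha_def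
  obtain ⟨r, hr, hexp⟩ := exists_expansion hπ he i ha
  set u : F := ((p : ℕ) : F) * (π⁻¹) ^ e with hu
  have hum : u ∈ intRing p F := p_div_mem hπ he
  obtain ⟨k, hk⟩ : ∃ k, p * i = i + e + k := Nat.exists_eq_add_of_le h.le
  have hk0 : 0 < k := by omega
  have hform : ((x ^ p : Fˣ) : F) =
      1 + π ^ (i + e) * (u * a + π ^ i * (u * a ^ 2 * r) + π ^ k * a ^ p) := by
    rw [Units.val_pow_eq_pow_val, hxa, hexp]
    have e1 : π ^ (p * i) = π ^ (i + e) * π ^ k := by rw [hk, pow_add]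
    have e2 : π ^ (2 * i + e) = π ^ (i + e) * π ^ i := by
      rw [← pow_add]; congr 1; omega
    rw [e1, e2]; ring
  have hie : 0 < i + e := by omega
  have h1 : u * a ∈ intRing p F := mul_mem hum ha
  have h2 : u * a ^ 2 * r ∈ intRing p F := mul_mem (mul_mem hum (pow_mem ha 2)) hr
  refine ⟨mem_unitFil_of_eq hπ hie
    (add_mem (add_mem h1 (mul_mem (pow_mem hπ.1 i) h2)) (mul_mem (pow_mem hπ.1 k) (pow_mem ha p)))
    hform, ?_⟩
  rw [grMap_of_eq hπ hform,
    res_add_pow_mul hπ hk0 (add_mem h1 (mul_mem (pow_mem hπ.1 i) h2)) (pow_mem ha p),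
    res_add_pow_mul hπ hi h1 h2, res_mul hum ha]
  rfl

/-- **The critical level**: for `p i = i + e`, `gr_{p i} (x^p) = (gr_i x)^p + ū * gr_i x`. -/
theorem pow_p_eq {i : ℕ} (hi : 0 < i) (h : p * i = i + e) {x : Fˣ} (hx : x ∈ unitFil p F i) :
    x ^ p ∈ unitFil p F (p * i) ∧
      grMap p F π (p * i) (x ^ p) =
        (grMap p F π i x) ^ p + res p F (((p : ℕ) : F) * (π⁻¹) ^ e) * grMap p F π i x := by
  obtain ⟨ha, hxa⟩ := exists_eq_of_mem_unitFil hπ hx
  set a := ((x : F) - 1) * (π⁻¹) ^ i with ha_def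
  obtain ⟨r, hr, hexp⟩ := exists_expansion hπ he i ha
  set u : F := ((p : ℕ) : F) * (π⁻¹) ^ e with hu
  have hum : u ∈ intRing p F := p_div_mem hπ he
  have hform : ((x ^ p : Fˣ) : F) =
      1 + π ^ (p * i) * (a ^ p + u * a + π ^ i * (u * a ^ 2 * r)) := by
    rw [Units.val_pow_eq_pow_val, hxa, hexp]
    have e1 : π ^ (i + e) = π ^ (p * i) := by rw [h]
    have e2 : π ^ (2 * i + e) = π ^ (p * i) * π ^ i := by
      rw [← pow_add]; congr 1; omega
    rw [e1, e2]; ring
  have hpi : 0 < p * i := Nat.mul_pos (Fact.out : p.Prime).pos hi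
  have h1 : u * a ∈ intRing p F := mul_mem hum ha
  have h2 : u * a ^ 2 * r ∈ intRing p F := mul_mem (mul_mem hum (pow_mem ha 2)) hr
  refine ⟨mem_unitFil_of_eq hπ hpi
    (add_mem (add_mem (pow_mem ha p) h1) (mul_mem (pow_mem hπ.1 i) h2)) hform, ?_⟩
  rw [grMap_of_eq hπ hform, res_add_pow_mul hπ hi (add_mem (pow_mem ha p) h1) h2,
    res_add (pow_mem ha p) h1, res_pow ha, res_mul hum ha]
  rfl

/-- `(U^(i))^p ⊆ U^(min (p i) (i + e))`. -/
theorem pow_p_mem_unitFil {i : ℕ} (hi : 0 < i) {x : Fˣ} (hx : x ∈ unitFil p F i) :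
    x ^ p ∈ unitFil p F (min (p * i) (i + e)) := by
  rcases lt_trichotomy (p * i) (i + e) with h | h | h
  · rw [min_eq_left h.le]; exact (pow_p_lt hπ he hi h hx).1
  · rw [min_eq_left h.le]; exact (pow_p_eq hπ he hi h hx).1
  · rw [min_eq_right h.le]; exact (pow_p_gt hπ he hi h hx).1

/-- **`U^(p i) ⊆ (U^(i))^p · U^(p i + 1)`** for `p i < i + e` (the residue field is perfect). -/
theorem exists_pow_mul_of_dvd {i : ℕ} (hi : 0 < i) (h : p * i < i + e) {x : Fˣ}
    (hx : x ∈ unitFil p F (p * i)) :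
    ∃ y ∈ unitFil p F i, ∃ z ∈ unitFil p F (p * i + 1), x = y ^ p * z := by
  obtain ⟨b, hb⟩ := exists_pow_eq_res (grMap p F π (p * i) x)
  obtain ⟨y, hy, hyb⟩ := grMap_surjective hπ hi b
  obtain ⟨hyp, hgr⟩ := pow_p_lt hπ he hi h hy
  have hpi : 0 < p * i := Nat.mul_pos (Fact.out : p.Prime).pos hi
  refine ⟨y, hy, x / y ^ p, ?_, by rw [mul_div_cancel]⟩
  apply div_mem_unitFil_succ hπ hpi hx hyp
  rw [hgr, hyb, hb]

end Pow

/-! ### Completeness of the unit filtration -/

/-- Membership in a power of the maximal ideal, in terms of the norm. -/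
theorem mem_mI_pow_iff {π : F} (hπ : IsUniformizer p F π) (x : intRing p F) (n : ℕ) :
    x ∈ mI p F ^ n ↔ snorm p F (x : F) ≤ snorm p F π ^ n := by
  have hirr : Irreducible (⟨π, hπ.1⟩ : intRing p F) :=
    (isUniformizer_iff_irreducible p F ⟨π, hπ.1⟩).1 hπ
  rw [mI, hirr.maximalIdeal_eq, Ideal.span_singleton_pow, Ideal.mem_span_singleton',
    ← mul_inv_pow_mem_iff hπ]
  have h0 : π ≠ 0 := hπ.2.1
  have h1 : π ^ n * (π⁻¹) ^ n = 1 := by rw [← mul_pow, mul_inv_cancel₀ h0, one_pow]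
  constructor
  · rintro ⟨c, hc⟩
    have h2 : (x : F) = (c : F) * π ^ n := by
      rw [← hc]; rfl
    have h3 : (x : F) * (π⁻¹) ^ n = (c : F) := by
      rw [h2]; linear_combination (c : F) * h1
    rw [h3]
    exact c.2
  · intro h
    refine ⟨⟨_, h⟩, Subtype.ext ?_⟩
    change (x : F) * (π⁻¹) ^ n * π ^ n = (x : F)
    linear_combination (x : F) * h1

/-- Telescoping estimate for partial products. -/
theorem snorm_prod_sub_prod_le (a : ℕ → Fˣ) (j : ℕ) (hj : 0 < j)
    (ha : ∀ k, a k ∈ unitFil p F (j + k)) (n N : ℕ) (hnN : n ≤ N) :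
    snorm p F (((∏ k ∈ Finset.range N, a k : Fˣ) : F) - ((∏ k ∈ Finset.range n, a k : Fˣ) : F))
      ≤ unifNorm p F ^ (j + n) := by
  have hP : ∀ m, (∏ k ∈ Finset.range m, a k) ∈ unitFil p F j := fun m =>
    Subgroup.prod_mem _ fun k _ => unitFil_anti (Nat.le_add_right j k) (ha k)
  induction N, hnN using Nat.le_induction with
  | base =>
    rw [sub_self, snorm_zero]
    exact pow_nonneg unifNorm_pos.le _
  | succ N hN ih =>
    have e : ((∏ k ∈ Finset.range (N + 1), a k : Fˣ) : F) -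
        ((∏ k ∈ Finset.range n, a k : Fˣ) : F) =
        ((∏ k ∈ Finset.range N, a k : Fˣ) : F) * ((a N : F) - 1) +
          (((∏ k ∈ Finset.range N, a k : Fˣ) : F) - ((∏ k ∈ Finset.range n, a k : Fˣ) : F)) := by
      rw [Finset.prod_range_succ, Units.val_mul]; ring
    rw [e]
    refine (snorm_add_le_max p F _ _).trans (max_le ?_ ih)
    rw [snorm_mul, (mem_unitGroup_iff_snorm p F _).1 (hP N).1, one_mul]
    exact (ha N).2.trans (pow_le_pow_of_le_one unifNorm_pos.le unifNorm_lt_one.le (by omega))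

/-- **Completeness of the unit filtration**: infinite products `∏ a k`, `a k ∈ U^(j+k)`,
converge. -/
theorem unitFil_complete (a : ℕ → Fˣ) (j : ℕ) (hj : 0 < j)
    (ha : ∀ k, a k ∈ unitFil p F (j + k)) :
    ∃ s : Fˣ, ∀ n, s / ∏ k ∈ Finset.range n, a k ∈ unitFil p F (j + n) := by
  have hπ := isUniformizer_unif p F
  set π : F := ((unif p F : Fˣ) : F) with hπ_def
  have hP : ∀ m, (∏ k ∈ Finset.range m, a k) ∈ unitFil p F j := fun m =>
    Subgroup.prod_mem _ fun k _ => unitFil_anti (Nat.le_add_right j k) (ha k)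
  have hPint : ∀ m, ((∏ k ∈ Finset.range m, a k : Fˣ) : F) ∈ intRing p F := fun m => (hP m).1.1
  -- the differences
  let D : ℕ → intRing p F := fun n =>
    ⟨((∏ k ∈ Finset.range (n + 1), a k : Fˣ) : F) - ((∏ k ∈ Finset.range n, a k : Fˣ) : F),
      sub_mem (hPint (n + 1)) (hPint n)⟩
  have hD : ∀ n, D n ∈ maxId p F ^ n := by
    intro n
    rw [maxId_eq_maximalIdeal]
    rw [show IsLocalRing.maximalIdeal (intRing p F) = mI p F from rfl, mem_mI_pow_iff hπ]
    have h1 := snorm_prod_sub_prod_le a j hj ha n (n + 1) (Nat.le_succ n)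
    refine h1.trans ?_
    change unifNorm p F ^ (j + n) ≤ unifNorm p F ^ n
    exact pow_le_pow_of_le_one unifNorm_pos.le unifNorm_lt_one.le (by omega)
  obtain ⟨S, hS⟩ := exists_sum_of_mem_pow p F D hD
  have hsum : ∀ n, ((∑ i ∈ Finset.range n, D i : intRing p F) : F) =
      ((∏ k ∈ Finset.range n, a k : Fˣ) : F) - 1 := by
    intro n
    induction n with
    | zero => simp
    | succ n ih =>
      rw [Finset.sum_range_succ, Subalgebra.coe_add, ih]
      change _ + (((∏ k ∈ Finset.range (n + 1), a k : Fˣ) : F) -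
        ((∏ k ∈ Finset.range n, a k : Fˣ) : F)) = _
      ring
  set s₀ : F := (S : F) + 1 with hs₀
  -- the coarse estimate
  have hcoarse : ∀ N, snorm p F (s₀ - ((∏ k ∈ Finset.range N, a k : Fˣ) : F)) ≤
      unifNorm p F ^ N := by
    intro N
    have h1 := hS N
    rw [maxId_eq_maximalIdeal,
      show IsLocalRing.maximalIdeal (intRing p F) = mI p F from rfl, mem_mI_pow_iff hπ] at h1
    rw [Subalgebra.coe_sub, hsum N] at h1
    have e : s₀ - ((∏ k ∈ Finset.range N, a k : Fˣ) : F) =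
        (S : F) - (((∏ k ∈ Finset.range N, a k : Fˣ) : F) - 1) := by rw [hs₀]; ring
    rw [e]
    exact h1
  -- the fine estimate
  have hfine : ∀ n, snorm p F (s₀ - ((∏ k ∈ Finset.range n, a k : Fˣ) : F)) ≤
      unifNorm p F ^ (j + n) := by
    intro n
    have e : s₀ - ((∏ k ∈ Finset.range n, a k : Fˣ) : F) =
        (s₀ - ((∏ k ∈ Finset.range (j + n), a k : Fˣ) : F)) +
          (((∏ k ∈ Finset.range (j + n), a k : Fˣ) : F) -
            ((∏ k ∈ Finset.range n, a k : Fˣ) : F)) := by ring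
    rw [e]
    exact (snorm_add_le_max p F _ _).trans (max_le (hcoarse (j + n))
      (snorm_prod_sub_prod_le a j hj ha n (j + n) (Nat.le_add_left n j)))
  have hs1 : snorm p F s₀ = 1 := by
    apply snorm_eq_one_of_sub_lt
    have h0 := hfine 0
    simp only [Finset.range_zero, Finset.prod_empty, Units.val_one, add_zero] at h0
    exact lt_of_le_of_lt h0 (pow_lt_one₀ unifNorm_pos.le unifNorm_lt_one hj.ne')
  have hs0 : s₀ ≠ 0 := by
    intro h
    rw [h, snorm_zero] at hs1
    exact zero_ne_one hs1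
  refine ⟨Units.mk0 s₀ hs0, fun n => ?_⟩
  apply mem_unitFil_of_snorm (by omega : 0 < j + n)
  have e : ((Units.mk0 s₀ hs0 / ∏ k ∈ Finset.range n, a k : Fˣ) : F) - 1 =
      (s₀ - ((∏ k ∈ Finset.range n, a k : Fˣ) : F)) *
        ((∏ k ∈ Finset.range n, a k : Fˣ) : F)⁻¹ := by
    rw [Units.val_div_eq_div_val, Units.val_mk0]
    have hne : ((∏ k ∈ Finset.range n, a k : Fˣ) : F) ≠ 0 := Units.ne_zero _
    field_simp
  rw [e, snorm_mul, snorm_inv, (mem_unitGroup_iff_snorm p F _).1 (hP n).1, inv_one, mul_one]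
  exact hfine n

/-! ### `U^(j+e) = (U^(j))^p` above the critical level -/

open Fermat.Agent.PT.LOC.Filtered10 in
/-- **Above the critical level every unit is a `p`-th power**: for `j + e < p j`,
`U^(j+e) = (U^(j))^p`. -/
theorem exists_pow_eq_of_gt {π : F} (hπ : IsUniformizer p F π) {e : ℕ}
    (he : snorm p F ((p : ℕ) : F) = snorm p F π ^ e) {j : ℕ} (hj : 0 < j) (h : j + e < p * j)
    {x : Fˣ} (hx : x ∈ unitFil p F (j + e)) : ∃ y ∈ unitFil p F j, y ^ p = x := by
  let ΦA : Filtration (Additive Fˣ) :=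
    { F := fun k => (unitFil p F (j + k)).toAddSubgroup
      anti := fun k => by
        intro y hy
        exact unitFil_anti (by omega : j + k ≤ j + (k + 1)) hy }
  let ΦB : Filtration (Additive Fˣ) :=
    { F := fun k => (unitFil p F (j + e + k)).toAddSubgroup
      anti := fun k => by
        intro y hy
        exact unitFil_anti (by omega : j + e + k ≤ j + e + (k + 1)) hy }
  let f : Additive Fˣ →+ Additive Fˣ := MonoidHom.toAdditive (powMonoidHom p)
  have hlt : ∀ k, j + k + e < p * (j + k) := by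
    intro k
    have hp2 : 2 ≤ p := (Fact.out : p.Prime).two_le
    have : p * (j + k) = p * j + p * k := by ring
    have h2 : k ≤ p * k := Nat.le_mul_of_pos_left k (by omega)
    omega
  have hf : ∀ k, ∀ a ∈ ΦA.F k, f a ∈ ΦB.F k := by
    intro k a hak
    have h1 := (pow_p_gt hπ he (by omega : 0 < j + k) (hlt k) (x := Additive.toMul a) hak).1
    have e1 : j + k + e = j + e + k := by omega
    rw [e1] at h1
    exact h1
  have hA : ΦA.Complete := by
    intro a ha
    obtain ⟨s, hs⟩ := unitFil_complete (fun k => Additive.toMul (a k)) j hj ha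
    refine ⟨Additive.ofMul s, fun n => ?_⟩
    have h1 := hs n
    have e1 : (Additive.ofMul s - ∑ i ∈ Finset.range n, a i : Additive Fˣ) =
        Additive.ofMul (s / ∏ k ∈ Finset.range n, Additive.toMul (a k)) := by
      rw [ofMul_div, ofMul_prod]
      rfl
    rw [e1]
    exact h1
  have hB : ΦB.Separated := by
    intro y hy
    have : Additive.toMul y = 1 := by
      apply eq_one_of_forall_mem (p := p) (F := F)
      intro m
      exact unitFil_anti (by omega : m ≤ j + e + m) (hy m)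
    exact this
  have hgr : ∀ k, 0 ≤ k → ∀ b ∈ ΦB.F k, ∃ a ∈ ΦA.F k, b - f a ∈ ΦB.F (k + 1) := by
    intro k _ b hb
    have hu := res_p_div_ne_zero hπ he
    obtain ⟨y, hy, hyc⟩ := grMap_surjective hπ (by omega : 0 < j + k)
      ((res p F (((p : ℕ) : F) * (π⁻¹) ^ e))⁻¹ * grMap p F π (j + e + k) (Additive.toMul b))
    obtain ⟨hyp, hgry⟩ := pow_p_gt hπ he (by omega : 0 < j + k) (hlt k) hy
    have e1 : j + k + e = j + e + k := by omega
    rw [e1] at hyp hgry
    refine ⟨Additive.ofMul y, hy, ?_⟩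
    have h2 : Additive.toMul b / y ^ p ∈ unitFil p F (j + e + k + 1) := by
      apply div_mem_unitFil_succ hπ (by omega : 0 < j + e + k) hb hyp
      rw [hgry, hyc, ← mul_assoc, mul_inv_cancel₀ hu, one_mul]
      rfl
    exact h2
  obtain ⟨a, ha, hfa⟩ := exists_preimage_of_graded_surjective ΦA ΦB f hf hA hB 0
    (fun k hk b hb => hgr k hk b hb) (Additive.ofMul x)
    (show x ∈ unitFil p F (j + e + 0) from hx)
  refine ⟨Additive.toMul a, (show Additive.toMul a ∈ unitFil p F (j + 0) from ha), ?_⟩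
  exact hfa

/-! ### `p`-th powers inside the unit filtration -/

/-- If `y ^ p` is a principal unit then so is `y`. -/
theorem mem_unitFil_one_of_pow_mem {y : Fˣ} (hy : y ^ p ∈ unitFil p F 1) : y ∈ unitFil p F 1 := by
  have hp0 : p ≠ 0 := (Fact.out : p.Prime).ne_zero
  have h1 : snorm p F ((y ^ p : Fˣ) : F) = 1 := (mem_unitGroup_iff_snorm p F _).1 hy.1
  rw [Units.val_pow_eq_pow_val, snorm_pow] at h1
  have hy1 : snorm p F (y : F) = 1 :=
    (pow_eq_one_iff_of_nonneg (snorm_nonneg p F _) hp0).1 h1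
  have hym : (y : F) ∈ intRing p F := (mem_intRing_iff_snorm _).2 hy1.le
  have h2 : snorm p F (((y ^ p : Fˣ) : F) - 1) < 1 := snorm_sub_one_lt_of_mem one_pos hy
  rw [Units.val_pow_eq_pow_val, ← res_eq_res_iff (pow_mem hym p) (one_mem _), res_pow hym,
    res_one, ← one_pow (M := resF p F) p] at h2
  have h3 : res p F (y : F) = 1 := pow_p_injective h2
  rw [← res_one (p := p) (F := F), res_eq_res_iff hym (one_mem _)] at h3
  apply mem_unitFil_of_snorm one_pos
  rw [pow_one]
  have hπ := isUniformizer_unif p F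
  exact (snorm_lt_one_iff_le_uniformizer p F _ hπ _).1 h3

section PowIn

variable {π : F} (hπ : IsUniformizer p F π) {e : ℕ}
  (he : snorm p F ((p : ℕ) : F) = snorm p F π ^ e)

include hπ he

/-- **`p`-th powers in `U^(m)`, `p ∤ m` below the critical level, lie in `U^(m+1)`.** -/
theorem pow_p_mem_succ_of_not_dvd {m : ℕ} (hm0 : 0 < m) (hpm : ¬ p ∣ m)
    (hm : (p - 1) * m < p * e) {y : Fˣ} (hy : y ^ p ∈ unitFil p F m) :
    y ^ p ∈ unitFil p F (m + 1) := by
  have hp2 : 2 ≤ p := (Fact.out : p.Prime).two_le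
  have hy1 : y ∈ unitFil p F 1 := mem_unitFil_one_of_pow_mem (unitFil_anti hm0 hy)
  by_cases hone : y = 1
  · rw [hone, one_pow]; exact one_mem _
  obtain ⟨i, hi, hyi, hyi'⟩ := exists_mem_not_mem_succ hy1 hone
  have hc : grMap p F π i y ≠ 0 := fun h0 => hyi' ((grMap_eq_zero_iff hπ hyi).1 h0)
  obtain ⟨q, hq⟩ : ∃ q, p = q + 1 := ⟨p - 1, by omega⟩
  have hq' : p - 1 = q := by omega
  rw [hq'] at hm
  rcases lt_trichotomy (p * i) (i + e) with h | h | h
  · obtain ⟨h1, h2⟩ := pow_p_lt hπ he hi h hyi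
    have hne : grMap p F π (p * i) (y ^ p) ≠ 0 := by
      rw [h2]; exact fun h0 => hc ((pow_p_eq_zero_iff _).1 h0)
    have hnot : y ^ p ∉ unitFil p F (p * i + 1) := fun hmem =>
      hne ((grMap_eq_zero_iff hπ h1).2 hmem)
    have hle : m ≤ p * i := by
      by_contra hcon
      exact hnot (unitFil_anti (by omega) hy)
    have hne' : m ≠ p * i := fun heq => hpm ⟨i, heq⟩
    exact unitFil_anti (by omega) h1
  · obtain ⟨h1, -⟩ := pow_p_eq hπ he hi h hyi
    refine unitFil_anti ?_ h1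
    -- `(p-1) m < p e = p (p-1) i`
    have h3 : q * i = e := by
      have : (q + 1) * i = i + e := by rw [← hq]; exact h
      nlinarith
    have h4 : q * m < q * (p * i) := by
      calc q * m < p * e := hm
        _ = q * (p * i) := by rw [← h3]; ring
    have := lt_of_mul_lt_mul_left h4 (Nat.zero_le q)
    omega
  · obtain ⟨h1, -⟩ := pow_p_gt hπ he hi h hyi
    refine unitFil_anti ?_ h1
    -- `(p-1)(i+e) > p e > (p-1) m`
    have h3 : e < q * i := by
      have : i + e < (q + 1) * i := by rw [← hq]; exact h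
      nlinarith
    have h4 : q * m < q * (i + e) := by
      calc q * m < p * e := hm
        _ = e + q * e := by rw [hq]; ring
        _ < q * i + q * e := by omega
        _ = q * (i + e) := by ring
    have := lt_of_mul_lt_mul_left h4 (Nat.zero_le q)
    omega

/-- **`p`-th powers in `U^(m)` at the critical level `(p-1) m = p e`**: their leading coefficient
is of the form `c^p + ū c`. -/
theorem exists_grMap_pow_eq_of_top {m : ℕ} (hm0 : 0 < m) (hm : (p - 1) * m = p * e) {y : Fˣ}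
    (hy : y ^ p ∈ unitFil p F m) :
    ∃ c : resF p F, grMap p F π m (y ^ p) =
      c ^ p + res p F (((p : ℕ) : F) * (π⁻¹) ^ e) * c := by
  have hp2 : 2 ≤ p := (Fact.out : p.Prime).two_le
  have hp0 : p ≠ 0 := by omega
  have hy1 : y ∈ unitFil p F 1 := mem_unitFil_one_of_pow_mem (unitFil_anti hm0 hy)
  by_cases hone : y = 1
  · refine ⟨0, ?_⟩
    rw [hone, one_pow, grMap_one, zero_pow hp0, mul_zero, add_zero]
  obtain ⟨i, hi, hyi, hyi'⟩ := exists_mem_not_mem_succ hy1 hone
  have hc : grMap p F π i y ≠ 0 := fun h0 => hyi' ((grMap_eq_zero_iff hπ hyi).1 h0)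
  obtain ⟨q, hq⟩ : ∃ q, p = q + 1 := ⟨p - 1, by omega⟩
  have hq' : p - 1 = q := by omega
  rw [hq'] at hm
  have hq0 : 0 < q := by omega
  rcases lt_trichotomy (p * i) (i + e) with h | h | h
  · exfalso
    obtain ⟨h1, h2⟩ := pow_p_lt hπ he hi h hyi
    have hne : grMap p F π (p * i) (y ^ p) ≠ 0 := by
      rw [h2]; exact fun h0 => hc ((pow_p_eq_zero_iff _).1 h0)
    have hnot : y ^ p ∉ unitFil p F (p * i + 1) := fun hmem =>
      hne ((grMap_eq_zero_iff hπ h1).2 hmem)
    have hle : m ≤ p * i := by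
      by_contra hcon
      exact hnot (unitFil_anti (by omega) hy)
    -- but `p i < m`
    have h3 : q * i < e := by
      have : (q + 1) * i < i + e := by rw [← hq]; exact h
      nlinarith
    have h4 : q * (p * i) < q * m := by
      calc q * (p * i) = p * (q * i) := by ring
        _ < p * e := by
          apply Nat.mul_lt_mul_of_pos_left h3; omega
        _ = q * m := hm.symm
    have := lt_of_mul_lt_mul_left h4 (Nat.zero_le q)
    omega
  · obtain ⟨h1, h2⟩ := pow_p_eq hπ he hi h hyi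
    have h3 : q * i = e := by
      have : (q + 1) * i = i + e := by rw [← hq]; exact h
      nlinarith
    have hmi : m = p * i := by
      have h4 : q * m = q * (p * i) := by rw [hm, ← h3]; ring
      exact Nat.eq_of_mul_eq_mul_left hq0 h4
    refine ⟨grMap p F π i y, ?_⟩
    rw [hmi, h2]
  · obtain ⟨h1, -⟩ := pow_p_gt hπ he hi h hyi
    have h3 : e < q * i := by
      have : i + e < (q + 1) * i := by rw [← hq]; exact h
      nlinarith
    have h4 : q * m < q * (i + e) := by
      calc q * m = p * e := hm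
        _ = e + q * e := by rw [hq]; ring
        _ < q * i + q * e := by omega
        _ = q * (i + e) := by ring
    have hlt := lt_of_mul_lt_mul_left h4 (Nat.zero_le q)
    refine ⟨0, ?_⟩
    rw [zero_pow hp0, mul_zero, add_zero, grMap_eq_zero_iff hπ hy]
    exact unitFil_anti (by omega) h1

end PowIn

end

end Fermat.Agent.TW.FLAT.UnitPow9
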