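/-
Programme T (S56), chapter FLAT, brick (LL-COUNT), part 3 — helper9.

THE LEVEL FILTRATION ON KUMMER CLASSES of a `p`-adic field `F` (model of `PT.LOC.Interface12`),
on top of `UnitFil9` and `UnitPow9`.

* `pPow p F : Subgroup Fˣ` (the `p`-th powers), `levelSub p F m := U^(m) ⊔ (Fˣ)^p`
  ("Kummer level `≥ m`"); `mem_levelSub_iff` (`x = u y^p`), `mem_levelSub_iff'`
  (`∃ w, x w^p ∈ U^(m)`), `mem_levelSub_iff_snorm` (`∃ w ≠ 0, ‖x w^p - 1‖ ≤ ϖ^m`, `m ≥ 1`),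
  `levelSub_anti`, `map_mem_levelSub_iff` (Galois stability);
* `levelSub_succ_of_dvd : levelSub (p i + 1) = levelSub (p i)` for `p i < i + e`;
  `levelSub_of_gt : levelSub (j + e) = (Fˣ)^p` for `j + e < p j`;
* for `p ∤ m`, `0 < m`, `(p - 1) m < p e`: the LEADING TERM `ltMap p F π m : Fˣ → κ` on `levelSub m`:
  `ltMap_eq` (`= gr_m (x w^p)` for every `w` with `x w^p ∈ U^(m)`), `ltMap_of_mem_unitFil`,
  `ltMap_mul`, `ltMap_mul_pow`, `ltMap_inv`, `ltMap_eq_zero_iff` (kernel `levelSub (m+1)`),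
  `ltMap_surjective`, `ltMap_galois` (`lt (σ x) = [σ π/π]^m σ̄ (lt x)`), `ltMap_inertia`.
-/
import Mathlib
import Fermat.Agent.TW.FLAT.UnitFil9
import Fermat.Agent.TW.FLAT.UnitPow9

set_option autoImplicit false
set_option linter.unusedSectionVars false

open scoped Fermat.Agent.PT.LOC.Interface12 Fermat.Agent.PT.LOC.StructureTower27
open Fermat.Agent.PT.LOC.Interface12 Fermat.Agent.PT.LOC.Structure14
  Fermat.Agent.PT.LOC.StructureNorm14 Fermat.Agent.PT.LOC.StructureTower27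
  Fermat.Agent.PT.LOC.StructureTowerEF27 Fermat.Agent.PT.LOC.RootsUnity14
  Fermat.Agent.PT.LOC.Unram11 Fermat.Agent.TW.LOC.TameInertia4
  Fermat.Agent.TW.FLAT.UnitFil9 Fermat.Agent.TW.FLAT.UnitPow9

namespace Fermat.Agent.TW.FLAT.KummerLevel9

noncomputable section

variable (p : ℕ) [Fact p.Prime] (F : Type) [Field F] [Algebra ℚ_[p] F] [FiniteDimensional ℚ_[p] F]

/-- The subgroup of `p`-th powers of `Fˣ`. -/
def pPow : Subgroup Fˣ := (powMonoidHom p : Fˣ →* Fˣ).range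

/-- Kummer level `≥ m`: the subgroup `U^(m) · (Fˣ)^p`. -/
def levelSub (m : ℕ) : Subgroup Fˣ := unitFil p F m ⊔ pPow p F

variable {p F}

theorem mem_pPow {x : Fˣ} : x ∈ pPow p F ↔ ∃ y : Fˣ, y ^ p = x := by
  rw [pPow, MonoidHom.mem_range]
  rfl

theorem pow_mem_pPow (y : Fˣ) : y ^ p ∈ pPow p F := mem_pPow.2 ⟨y, rfl⟩

theorem mem_levelSub_iff {m : ℕ} {x : Fˣ} :
    x ∈ levelSub p F m ↔ ∃ u ∈ unitFil p F m, ∃ y : Fˣ, x = u * y ^ p := by
  rw [levelSub, Subgroup.mem_sup]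
  constructor
  · rintro ⟨u, hu, z, hz, rfl⟩
    obtain ⟨y, rfl⟩ := mem_pPow.1 hz
    exact ⟨u, hu, y, rfl⟩
  · rintro ⟨u, hu, y, rfl⟩
    exact ⟨u, hu, y ^ p, pow_mem_pPow y, rfl⟩

theorem mem_levelSub_iff' {m : ℕ} {x : Fˣ} :
    x ∈ levelSub p F m ↔ ∃ w : Fˣ, x * w ^ p ∈ unitFil p F m := by
  rw [mem_levelSub_iff]
  constructor
  · rintro ⟨u, hu, y, rfl⟩
    refine ⟨y⁻¹, ?_⟩
    rw [mul_assoc, ← mul_pow, mul_inv_cancel, one_pow, mul_one]
    exact hu
  · rintro ⟨w, hw⟩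
    refine ⟨x * w ^ p, hw, w⁻¹, ?_⟩
    rw [mul_assoc, ← mul_pow, mul_inv_cancel, one_pow, mul_one]

/-- Norm form of the level condition (`m ≥ 1`). -/
theorem mem_levelSub_iff_snorm {m : ℕ} (hm : 0 < m) {x : Fˣ} :
    x ∈ levelSub p F m ↔
      ∃ w : F, w ≠ 0 ∧ snorm p F ((x : F) * w ^ p - 1) ≤ unifNorm p F ^ m := by
  rw [mem_levelSub_iff']
  constructor
  · rintro ⟨w, hw⟩
    refine ⟨(w : F), w.ne_zero, ?_⟩
    have := hw.2
    rwa [Units.val_mul, Units.val_pow_eq_pow_val] at this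
  · rintro ⟨w, hw0, hw⟩
    refine ⟨Units.mk0 w hw0, mem_unitFil_of_snorm hm ?_⟩
    rwa [Units.val_mul, Units.val_pow_eq_pow_val, Units.val_mk0]

theorem unitFil_le_levelSub (m : ℕ) : unitFil p F m ≤ levelSub p F m := le_sup_left

theorem pPow_le_levelSub (m : ℕ) : pPow p F ≤ levelSub p F m := le_sup_right

theorem levelSub_anti {m n : ℕ} (h : m ≤ n) : levelSub p F n ≤ levelSub p F m :=
  sup_le_sup_right (unitFil_anti h) _

theorem mul_pow_mem_levelSub_iff {m : ℕ} (x y : Fˣ) :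
    x * y ^ p ∈ levelSub p F m ↔ x ∈ levelSub p F m :=
  Subgroup.mul_mem_cancel_right _ (pPow_le_levelSub m (pow_mem_pPow y))

section GaloisLevel

variable {E : Type} [Field E] [Algebra ℚ_[p] E] [FiniteDimensional ℚ_[p] E] [Algebra E F]
  [IsScalarTower ℚ_[p] E F]

theorem map_mem_levelSub (σ : F ≃ₐ[E] F) {m : ℕ} {x : Fˣ} (hx : x ∈ levelSub p F m) :
    Units.map (σ : F →* F) x ∈ levelSub p F m := by
  obtain ⟨u, hu, y, rfl⟩ := mem_levelSub_iff.1 hx
  rw [map_mul, map_pow]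
  exact mem_levelSub_iff.2 ⟨_, (map_mem_unitFil_iff σ m u).2 hu, _, rfl⟩

theorem map_mem_levelSub_iff (σ : F ≃ₐ[E] F) (m : ℕ) (x : Fˣ) :
    Units.map (σ : F →* F) x ∈ levelSub p F m ↔ x ∈ levelSub p F m := by
  refine ⟨fun h => ?_, map_mem_levelSub σ⟩
  have h1 := map_mem_levelSub σ.symm h
  have h2 : Units.map (σ.symm : F →* F) (Units.map (σ : F →* F) x) = x := by
    ext; simp
  rwa [h2] at h1

end GaloisLevel

section Levels

variable {π : F} (hπ : IsUniformizer p F π) {e : ℕ}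
  (he : snorm p F ((p : ℕ) : F) = snorm p F π ^ e)

include hπ he

/-- **Levels divisible by `p` below the critical level are jumped over.** -/
theorem levelSub_succ_of_dvd {i : ℕ} (hi : 0 < i) (h : p * i < i + e) :
    levelSub p F (p * i + 1) = levelSub p F (p * i) := by
  apply le_antisymm (levelSub_anti (Nat.le_succ _))
  intro x hx
  obtain ⟨u, hu, y, rfl⟩ := mem_levelSub_iff.1 hx
  obtain ⟨v, _, z, hz, rfl⟩ := exists_pow_mul_of_dvd hπ he hi h hu
  refine mem_levelSub_iff.2 ⟨z, hz, v * y, ?_⟩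
  rw [mul_pow]
  ac_rfl

/-- **Above the critical level every class is trivial.** -/
theorem levelSub_of_gt {j : ℕ} (hj : 0 < j) (h : j + e < p * j) :
    levelSub p F (j + e) = pPow p F := by
  apply le_antisymm _ (pPow_le_levelSub _)
  intro x hx
  obtain ⟨u, hu, y, rfl⟩ := mem_levelSub_iff.1 hx
  obtain ⟨v, _, rfl⟩ := exists_pow_eq_of_gt hπ he hj h hu
  rw [← mul_pow]
  exact pow_mem_pPow _

end Levels

/-! ### The leading term on `levelSub m`, `p ∤ m` -/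

variable (p F)

open Classical in
/-- The leading term of a class of level `≥ m`: `lt (u y^p) = gr_m u` for `u ∈ U^(m)`
(well defined for `p ∤ m` below the critical level; junk value `0` outside `levelSub m`). -/
def ltMap (π : F) (m : ℕ) (x : Fˣ) : resF p F :=
  if h : ∃ w : Fˣ, x * w ^ p ∈ unitFil p F m then grMap p F π m (x * (Classical.choose h) ^ p)
  else 0

variable {p F}

section Lt

variable {π : F} (hπ : IsUniformizer p F π) {e : ℕ}
  (he : snorm p F ((p : ℕ) : F) = snorm p F π ^ e) {m : ℕ} (hm0 : 0 < m) (hpm : ¬ p ∣ m)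
  (hm : (p - 1) * m < p * e)

include hπ he hm0 hpm hm

/-- Independence of the representative. -/
theorem grMap_mul_pow_eq {x w w' : Fˣ} (hw : x * w ^ p ∈ unitFil p F m)
    (hw' : x * w' ^ p ∈ unitFil p F m) :
    grMap p F π m (x * w ^ p) = grMap p F π m (x * w' ^ p) := by
  have hq : (w / w') ^ p ∈ unitFil p F m := by
    have : (w / w') ^ p = (x * w ^ p) / (x * w' ^ p) := by
      rw [div_pow, mul_div_mul_left_eq_div]
    rw [this]
    exact div_mem hw hw'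
  have hq' := pow_p_mem_succ_of_not_dvd hπ he hm0 hpm hm hq
  have h0 := (grMap_eq_zero_iff hπ hq).2 hq'
  have h1 : x * w ^ p = (x * w' ^ p) * (w / w') ^ p := by
    rw [div_pow, mul_assoc, mul_div_cancel]
  rw [h1, grMap_mul hπ hm0 hw' hq, h0, add_zero]

theorem ltMap_eq {x w : Fˣ} (hw : x * w ^ p ∈ unitFil p F m) :
    ltMap p F π m x = grMap p F π m (x * w ^ p) := by
  have h : ∃ w : Fˣ, x * w ^ p ∈ unitFil p F m := ⟨w, hw⟩
  rw [ltMap, dif_pos h]
  exact grMap_mul_pow_eq hπ he hm0 hpm hm (Classical.choose_spec h) hw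

theorem ltMap_of_mem_unitFil {x : Fˣ} (hx : x ∈ unitFil p F m) :
    ltMap p F π m x = grMap p F π m x := by
  have h1 : x * (1 : Fˣ) ^ p ∈ unitFil p F m := by rwa [one_pow, mul_one]
  rw [ltMap_eq hπ he hm0 hpm hm h1, one_pow, mul_one]

theorem ltMap_mul {x y : Fˣ} (hx : x ∈ levelSub p F m) (hy : y ∈ levelSub p F m) :
    ltMap p F π m (x * y) = ltMap p F π m x + ltMap p F π m y := by
  obtain ⟨w, hw⟩ := mem_levelSub_iff'.1 hx
  obtain ⟨v, hv⟩ := mem_levelSub_iff'.1 hy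
  have h1 : x * y * (w * v) ^ p = (x * w ^ p) * (y * v ^ p) := by
    rw [mul_pow]; ac_rfl
  have h2 : x * y * (w * v) ^ p ∈ unitFil p F m := by rw [h1]; exact mul_mem hw hv
  rw [ltMap_eq hπ he hm0 hpm hm h2, ltMap_eq hπ he hm0 hpm hm hw,
    ltMap_eq hπ he hm0 hpm hm hv, h1, grMap_mul hπ hm0 hw hv]

/-- The leading term only depends on the class modulo `p`-th powers. -/
theorem ltMap_mul_pow {x : Fˣ} (hx : x ∈ levelSub p F m) (y : Fˣ) :
    ltMap p F π m (x * y ^ p) = ltMap p F π m x := by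
  obtain ⟨w, hw⟩ := mem_levelSub_iff'.1 hx
  have h1 : x * y ^ p * (w * y⁻¹) ^ p = x * w ^ p := by
    rw [mul_pow, inv_pow]
    have : y ^ p * (w ^ p * (y ^ p)⁻¹) = w ^ p := by
      rw [mul_comm (w ^ p), ← mul_assoc, mul_inv_cancel, one_mul]
    rw [mul_assoc, this]
  have h2 : x * y ^ p * (w * y⁻¹) ^ p ∈ unitFil p F m := by rw [h1]; exact hw
  rw [ltMap_eq hπ he hm0 hpm hm h2, ltMap_eq hπ he hm0 hpm hm hw, h1]

theorem ltMap_pow_eq_zero (y : Fˣ) : ltMap p F π m (y ^ p) = 0 := by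
  have h1 : y ^ p * (y⁻¹) ^ p ∈ unitFil p F m := by
    rw [← mul_pow, mul_inv_cancel, one_pow]; exact one_mem _
  rw [ltMap_eq hπ he hm0 hpm hm h1, ← mul_pow, mul_inv_cancel, one_pow, grMap_one]

theorem ltMap_one : ltMap p F π m (1 : Fˣ) = 0 := by
  rw [ltMap_of_mem_unitFil hπ he hm0 hpm hm (one_mem _), grMap_one]

theorem ltMap_inv {x : Fˣ} (hx : x ∈ levelSub p F m) :
    ltMap p F π m x⁻¹ = - ltMap p F π m x := by
  have h := ltMap_mul hπ he hm0 hpm hm hx (inv_mem hx)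
  rw [mul_inv_cancel, ltMap_one hπ he hm0 hpm hm] at h
  exact eq_neg_of_add_eq_zero_right h.symm

/-- **The kernel of the leading term on `levelSub m` is `levelSub (m + 1)`.** -/
theorem ltMap_eq_zero_iff {x : Fˣ} (hx : x ∈ levelSub p F m) :
    ltMap p F π m x = 0 ↔ x ∈ levelSub p F (m + 1) := by
  obtain ⟨w, hw⟩ := mem_levelSub_iff'.1 hx
  rw [ltMap_eq hπ he hm0 hpm hm hw, grMap_eq_zero_iff hπ hw]
  constructor
  · intro h
    exact mem_levelSub_iff'.2 ⟨w, h⟩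
  · intro h
    obtain ⟨v, hv⟩ := mem_levelSub_iff'.1 h
    have hv' : x * v ^ p ∈ unitFil p F m := unitFil_anti (Nat.le_succ m) hv
    have h1 := grMap_mul_pow_eq hπ he hm0 hpm hm hw hv'
    rw [← grMap_eq_zero_iff hπ hw, h1, grMap_eq_zero_iff hπ hv']
    exact hv

theorem ltMap_surjective (c : resF p F) : ∃ x ∈ levelSub p F m, ltMap p F π m x = c := by
  obtain ⟨x, hx, hxc⟩ := grMap_surjective hπ hm0 c
  exact ⟨x, unitFil_le_levelSub m hx, by rw [ltMap_of_mem_unitFil hπ he hm0 hpm hm hx, hxc]⟩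

end Lt

section LtGalois

variable {E : Type} [Field E] [Algebra ℚ_[p] E] [FiniteDimensional ℚ_[p] E] [Algebra E F]
  [IsScalarTower ℚ_[p] E F] [IsGalois E F]

/-- **Equivariance of the leading term**: `lt (σ x) = [σ π / π] ^ m * σ̄ (lt x)`. -/
theorem ltMap_galois (σ : F ≃ₐ[E] F) (πu : Fˣ) (hπ : IsUniformizer p F (πu : F)) {e : ℕ}
    (he : snorm p F ((p : ℕ) : F) = snorm p F (πu : F) ^ e) {m : ℕ} (hm0 : 0 < m) (hpm : ¬ p ∣ m)
    (hm : (p - 1) * m < p * e) {x : Fˣ} (hx : x ∈ levelSub p F m) :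
    ltMap p F (πu : F) m (Units.map (σ : F →* F) x) =
      ((thetaX p E F σ πu : (resF p F)ˣ) : resF p F) ^ m *
        redHom p E F σ (ltMap p F (πu : F) m x) := by
  obtain ⟨w, hw⟩ := mem_levelSub_iff'.1 hx
  have h1 : Units.map (σ : F →* F) x * (Units.map (σ : F →* F) w) ^ p =
      Units.map (σ : F →* F) (x * w ^ p) := by rw [map_mul, map_pow]
  have h2 : Units.map (σ : F →* F) x * (Units.map (σ : F →* F) w) ^ p ∈ unitFil p F m := by
    rw [h1]; exact (map_mem_unitFil_iff σ m _).2 hw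
  rw [ltMap_eq hπ he hm0 hpm hm h2, ltMap_eq hπ he hm0 hpm hm hw, h1, grMap_galois σ πu hπ hw]

/-- Inertia acts on the leading terms of level `m` through `θ₀ ^ m`. -/
theorem ltMap_inertia (τ : inertia p E F) {π : F} (hπ : IsUniformizer p F π) {e : ℕ}
    (he : snorm p F ((p : ℕ) : F) = snorm p F π ^ e) {m : ℕ} (hm0 : 0 < m) (hpm : ¬ p ∣ m)
    (hm : (p - 1) * m < p * e) {x : Fˣ} (hx : x ∈ levelSub p F m) :
    ltMap p F π m (Units.map ((τ : F ≃ₐ[E] F) : F →* F) x) =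
      ((theta0 p E F τ : (resF p F)ˣ) : resF p F) ^ m * ltMap p F π m x := by
  obtain ⟨w, hw⟩ := mem_levelSub_iff'.1 hx
  have h1 : Units.map ((τ : F ≃ₐ[E] F) : F →* F) x *
      (Units.map ((τ : F ≃ₐ[E] F) : F →* F) w) ^ p =
      Units.map ((τ : F ≃ₐ[E] F) : F →* F) (x * w ^ p) := by rw [map_mul, map_pow]
  have h2 : Units.map ((τ : F ≃ₐ[E] F) : F →* F) x *
      (Units.map ((τ : F ≃ₐ[E] F) : F →* F) w) ^ p ∈ unitFil p F m := by
    rw [h1]; exact (map_mem_unitFil_iff (τ : F ≃ₐ[E] F) m _).2 hw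
  rw [ltMap_eq hπ he hm0 hpm hm h2, ltMap_eq hπ he hm0 hpm hm hw, h1, grMap_inertia τ π hπ hw]

end LtGalois

end

end Fermat.Agent.TW.FLAT.KummerLevel9
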