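/-
Programme T (S56), chapter FLAT, brick (LL-COUNT), part 5 — helper9.  Pure algebra (Mathlib only).

SEMILINEAR COUNTING.  `K` a finite field of characteristic `p`, `M` a finite `𝔽_p`-vector space.

* `aeval_intertwine`: a linear map intertwining two endomorphisms intertwines their polynomials;
* `preComp φ : End_K (M →ₗ[𝔽_p] K)` (`g ↦ g ∘ φ`), `frobComp j g = (x ↦ x^(p^j)) ∘ g`;
  `card_hom : #(M →ₗ[𝔽_p] K) = #K ^ dim M`;
  `mul_finrank_eigenspace_le : d * dim_K (eigenspace (preComp φ) a) ≤ dim_{𝔽_p} M` as soon as the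
  conjugates `a^(p^j)`, `j < d`, are pairwise distinct (Frobenius twists of eigenspaces);
* `card_semilinear_le` (**semilinear descent count**): `G` a group acting on `M` (`ρ`) and on `K`
  (`act σ`, ring automorphisms whose common fixed points lie in the image of `K₀`), `c : G → K`,
  `τ ∈ G` acting trivially on `K`, the conjugates of `c τ` distinct for `j < d`:
  `#{g : M →+ K | ∀ σ w, g (ρ σ w) = c σ * act σ (g w)} ≤ #K₀ ^ (dim_{𝔽_p} M / d)`.
-/
import Mathlib

set_option autoImplicit false
set_option linter.unusedSectionVars false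

open Polynomial

namespace Fermat.Agent.TW.FLAT.SemilinCount9

section Intertwine

variable {R M N : Type*} [CommRing R] [AddCommGroup M] [Module R M] [AddCommGroup N] [Module R N]

/-- A linear map intertwining `φ` and `ψ` intertwines `Q(φ)` and `Q(ψ)`. -/
theorem aeval_intertwine (g : M →ₗ[R] N) (φ : Module.End R M) (ψ : Module.End R N)
    (h : ∀ w, g (φ w) = ψ (g w)) (Q : R[X]) (w : M) : g (aeval φ Q w) = aeval ψ Q (g w) := by
  induction Q using Polynomial.induction_on generalizing w with
  | C a => simp [Module.algebraMap_end_apply]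
  | add P Q hP hQ => simp [map_add, hP, hQ]
  | monomial n a ih =>
    have e : (C a * X ^ (n + 1) : R[X]) = C a * X ^ n * X := by rw [pow_succ, mul_assoc]
    rw [e, map_mul, map_mul (aeval ψ), aeval_X, aeval_X, Module.End.mul_apply,
      Module.End.mul_apply, ih, h]

end Intertwine

noncomputable section Count

variable {p : ℕ} [Fact p.Prime] {K : Type*} [Field K] [Finite K] [CharP K p]
  [Algebra (ZMod p) K]
  {M : Type*} [AddCommGroup M] [Module (ZMod p) M] [Finite M]

/-- Precomposition with an endomorphism of `M`, as a `K`-linear endomorphism of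
`M →ₗ[𝔽_p] K`. -/
def preComp (φ : M →ₗ[ZMod p] M) : Module.End K (M →ₗ[ZMod p] K) where
  toFun g := g.comp φ
  map_add' g h := LinearMap.add_comp _ _ _
  map_smul' c g := LinearMap.smul_comp _ _ _

@[simp] theorem preComp_apply (φ : M →ₗ[ZMod p] M) (g : M →ₗ[ZMod p] K) (w : M) :
    preComp φ g w = g (φ w) := rfl

theorem mem_eigenspace_preComp (φ : M →ₗ[ZMod p] M) (a : K) (g : M →ₗ[ZMod p] K) :
    g ∈ Module.End.eigenspace (preComp φ) a ↔ ∀ w, g (φ w) = a * g w := by
  rw [Module.End.mem_eigenspace_iff]
  constructor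
  · intro h w
    have := LinearMap.congr_fun h w
    simpa using this
  · intro h
    ext w
    simpa using h w

/-- Post-composition with the `j`-th power of the Frobenius of `K`. -/
def frobComp (j : ℕ) (g : M →ₗ[ZMod p] K) : M →ₗ[ZMod p] K :=
  ((iterateFrobenius K p j : K →+* K).toAddMonoidHom.toZModLinearMap p).comp g

@[simp] theorem frobComp_apply (j : ℕ) (g : M →ₗ[ZMod p] K) (w : M) :
    frobComp (K := K) j g w = (g w) ^ p ^ j := by
  simp [frobComp, iterateFrobenius_def]

theorem frobComp_sub (j : ℕ) (g h : M →ₗ[ZMod p] K) :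
    frobComp j (g - h) = frobComp j g - frobComp j h := by
  unfold frobComp
  exact LinearMap.comp_sub _ _ _

theorem frobComp_injective (j : ℕ) :
    Function.Injective (frobComp (p := p) (K := K) (M := M) j) := by
  intro g h hgh
  ext w
  have h1 := LinearMap.congr_fun hgh w
  rw [frobComp_apply, frobComp_apply] at h1
  have : iterateFrobenius K p j (g w) = iterateFrobenius K p j (h w) := by
    rw [iterateFrobenius_def, iterateFrobenius_def]; exact h1
  exact (iterateFrobenius K p j).injective this

theorem frobComp_mem_eigenspace (φ : M →ₗ[ZMod p] M) (a : K) (j : ℕ) {g : M →ₗ[ZMod p] K}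
    (hg : g ∈ Module.End.eigenspace (preComp φ) a) :
    frobComp j g ∈ Module.End.eigenspace (preComp φ) (a ^ p ^ j) := by
  rw [mem_eigenspace_preComp] at hg ⊢
  intro w
  rw [frobComp_apply, frobComp_apply, hg w, mul_pow]

omit [Fact p.Prime] [CharP K p] [Algebra (ZMod p) K] in
/-- `Nat.card` version of `Module.card_eq_pow_finrank`. -/
theorem natCard_eq_pow_finrank (V : Type*) [AddCommGroup V] [Module K V] [Finite V] :
    Nat.card V = Nat.card K ^ Module.finrank K V := by
  have := Fintype.ofFinite K
  have := Fintype.ofFinite V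
  rw [Nat.card_eq_fintype_card, Nat.card_eq_fintype_card]
  exact Module.card_eq_pow_finrank

omit [Finite K] [CharP K p] in
theorem card_hom :
    Nat.card (M →ₗ[ZMod p] K) = Nat.card K ^ Module.finrank (ZMod p) M := by
  have b := Module.finBasis (ZMod p) M
  rw [Nat.card_congr (b.constr K).symm.toEquiv, Nat.card_fun, Nat.card_eq_fintype_card (α := Fin _),
    Fintype.card_fin]

/-- **Frobenius twists of eigenspaces**: if the conjugates `a^(p^j)`, `j < d`, are pairwise
distinct then `d * dim_K (eigenspace a) ≤ dim_{𝔽_p} M`. -/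
theorem mul_finrank_eigenspace_le (φ : M →ₗ[ZMod p] M) (a : K) (d : ℕ)
    (hd : Function.Injective fun j : Fin d => a ^ p ^ (j : ℕ)) :
    d * Module.finrank K (Module.End.eigenspace (preComp φ) a) ≤ Module.finrank (ZMod p) M := by
  classical
  set T := preComp (K := K) φ with hT
  have hfinV : Finite (M →ₗ[ZMod p] K) := DFunLike.finite _
  -- the injection
  let Ψ : (Fin d → Module.End.eigenspace T a) → (M →ₗ[ZMod p] K) :=
    fun g => ∑ j : Fin d, frobComp (j : ℕ) (g j : M →ₗ[ZMod p] K)
  have hind : iSupIndep fun j : Fin d => Module.End.eigenspace T (a ^ p ^ (j : ℕ)) :=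
    (Module.End.eigenspaces_iSupIndep T).comp hd
  have hΨ : Function.Injective Ψ := by
    intro g g' hgg'
    have h0 : ∑ j : Fin d, (frobComp (j : ℕ) (g j : M →ₗ[ZMod p] K) -
        frobComp (j : ℕ) (g' j : M →ₗ[ZMod p] K)) = 0 := by
      rw [Finset.sum_sub_distrib, sub_eq_zero]
      exact hgg'
    have h1 := (iSupIndep_iff_finsetSum_eq_zero_imp_eq_zero _).1 hind Finset.univ
      (fun j => frobComp (j : ℕ) (g j : M →ₗ[ZMod p] K) -
        frobComp (j : ℕ) (g' j : M →ₗ[ZMod p] K))
      (fun j _ => Submodule.sub_mem _ (frobComp_mem_eigenspace φ a j (g j).2)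
        (frobComp_mem_eigenspace φ a j (g' j).2)) h0
    funext j
    apply Subtype.ext
    exact frobComp_injective (j : ℕ) (sub_eq_zero.1 (h1 j (Finset.mem_univ j)))
  have hcard := Nat.card_le_card_of_injective Ψ hΨ
  have hK1 : 1 < Nat.card K := Finite.one_lt_card
  rw [Nat.card_fun, Nat.card_eq_fintype_card (α := Fin d), Fintype.card_fin, card_hom,
    natCard_eq_pow_finrank (K := K) (Module.End.eigenspace T a), ← pow_mul] at hcard
  have := (Nat.pow_le_pow_iff_right hK1).1 hcard
  rwa [mul_comm] at this

/-! ### The semilinear descent count -/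

variable {K₀ : Type*} [Field K₀] [Algebra K₀ K] {G : Type*} [Group G]

omit [Finite K] [CharP K p] [Finite M] in
/-- Twisting the coefficients of a linear relation between semilinear maps. -/
theorem sum_twist_eq (ρ : Representation (ZMod p) G M) (act : G → K ≃+* K) (c : G → K)
    {ι : Type*} [Fintype ι] (v : ι → M →ₗ[ZMod p] K)
    (hv : ∀ i, ∀ σ w, v i (ρ σ w) = c σ * act σ (v i w))
    (h : M →ₗ[ZMod p] K) (hh : ∀ σ w, h (ρ σ w) = c σ * act σ (h w))
    (l : ι → K) (hl : ∑ i, l i • v i = h) (σ : G) :
    ∑ i, act σ (l i) • v i = h := by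
  ext w
  -- write `w = ρ σ w'`
  have hw : w = ρ σ (ρ σ⁻¹ w) := by
    rw [← Module.End.mul_apply, ← map_mul, mul_inv_cancel, map_one, Module.End.one_apply]
  rw [hw, hh, ← hl]
  simp only [LinearMap.sum_apply, LinearMap.smul_apply, smul_eq_mul, map_sum, map_mul,
    Finset.mul_sum]
  refine Finset.sum_congr rfl fun i _ => ?_
  rw [hv i]
  ring

/-- **Semilinear descent count.** -/
theorem card_semilinear_le (ρ : Representation (ZMod p) G M) (act : G → K ≃+* K)
    (hfix : ∀ x : K, (∀ σ, act σ x = x) → x ∈ (algebraMap K₀ K).range)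
    (c : G → K) (τ : G) (hτ : ∀ x, act τ x = x) (d : ℕ) (hd0 : 0 < d)
    (hd : Function.Injective fun j : Fin d => (c τ) ^ p ^ (j : ℕ)) :
    Nat.card {g : M →+ K // ∀ σ w, g (ρ σ w) = c σ * act σ (g w)} ≤
      Nat.card K₀ ^ (Module.finrank (ZMod p) M / d) := by
  classical
  have hfinV : Finite (M →ₗ[ZMod p] K) := DFunLike.finite _
  have hK₀fin : Finite K₀ := Finite.of_injective _ (algebraMap K₀ K).injective
  -- the set of semilinear maps inside `V`
  set HV : Set (M →ₗ[ZMod p] K) := {g | ∀ σ w, g (ρ σ w) = c σ * act σ (g w)} with hHV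
  -- a maximal independent family
  obtain ⟨b, hbH, hbspan, hbind⟩ := exists_linearIndependent K HV
  have hbfin : Fintype b := Fintype.ofFinite b
  set v : b → (M →ₗ[ZMod p] K) := Subtype.val with hv_def
  have hvH : ∀ i : b, ∀ σ w, v i (ρ σ w) = c σ * act σ (v i w) := fun i => hbH i.2
  have hrange : Set.range v = b := Subtype.range_coe
  -- every element of `HV` is a combination with coefficients in `K₀`
  have hcoord : ∀ h ∈ HV, ∃ l : b → K₀, ∑ i, algebraMap K₀ K (l i) • v i = h := by
    intro h hh
    have hmem : h ∈ Submodule.span K (Set.range v) := by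
      rw [hrange, hbspan]
      exact Submodule.subset_span hh
    obtain ⟨l, hl⟩ := (Submodule.mem_span_range_iff_exists_fun K).1 hmem
    have hfixl : ∀ i, ∀ σ, act σ (l i) = l i := by
      intro i σ
      have h1 := sum_twist_eq ρ act c v hvH h hh l hl σ
      have h2 : ∑ j, (act σ (l j) - l j) • v j = 0 := by
        have e : ∀ j, (act σ (l j) - l j) • v j = act σ (l j) • v j - l j • v j :=
          fun j => sub_smul (act σ (l j)) (l j) (v j)
        rw [Finset.sum_congr rfl (fun j _ => e j), Finset.sum_sub_distrib, h1, hl, sub_self]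
      have h3 := (Fintype.linearIndependent_iff.1 hbind) (fun j => act σ (l j) - l j) h2 i
      exact sub_eq_zero.1 h3
    choose l₀ hl₀ using fun i => hfix (l i) (hfixl i)
    refine ⟨l₀, ?_⟩
    rw [← hl]
    refine Finset.sum_congr rfl fun i _ => ?_
    rw [hl₀ i]
  -- count
  choose! coord hcoordspec using hcoord
  have hinj : Function.Injective (fun h : HV => coord h.1) := by
    intro h h' hhh'
    apply Subtype.ext
    rw [← hcoordspec h.1 h.2, ← hcoordspec h'.1 h'.2]
    have : coord h.1 = coord h'.1 := hhh'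
    rw [this]
  have hcard1 : Nat.card HV ≤ Nat.card K₀ ^ Fintype.card b := by
    have := Nat.card_le_card_of_injective _ hinj
    rwa [Nat.card_fun, Nat.card_eq_fintype_card (α := b)] at this
  -- `card b ≤ dim eigenspace`
  have hbeig : Submodule.span K (Set.range v) ≤
      Module.End.eigenspace (preComp (K := K) (ρ τ)) (c τ) := by
    rw [Submodule.span_le]
    rintro _ ⟨i, rfl⟩
    rw [SetLike.mem_coe, mem_eigenspace_preComp]
    intro w
    rw [hvH i τ w, hτ]
  have hcard2 : Fintype.card b ≤
      Module.finrank K (Module.End.eigenspace (preComp (K := K) (ρ τ)) (c τ)) := by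
    rw [← finrank_span_eq_card hbind]
    exact Submodule.finrank_mono hbeig
  have hcard3 := mul_finrank_eigenspace_le (K := K) (ρ τ) (c τ) d hd
  have hcard4 : Fintype.card b ≤ Module.finrank (ZMod p) M / d := by
    rw [Nat.le_div_iff_mul_le hd0]
    calc Fintype.card b * d ≤ Module.finrank K _ * d := Nat.mul_le_mul_right d hcard2
      _ = d * Module.finrank K _ := Nat.mul_comm _ _
      _ ≤ _ := hcard3
  -- transfer from additive maps to linear maps
  have hK₀1 : 1 ≤ Nat.card K₀ := Nat.one_le_iff_ne_zero.2 (Nat.card_ne_zero.2 ⟨⟨0⟩, hK₀fin⟩)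
  have hle : Nat.card {g : M →+ K // ∀ σ w, g (ρ σ w) = c σ * act σ (g w)} ≤ Nat.card HV := by
    apply Nat.card_le_card_of_injective
      (fun g => (⟨g.1.toZModLinearMap p, fun σ w => g.2 σ w⟩ : HV))
    intro g g' hgg'
    apply Subtype.ext
    have := congrArg Subtype.val hgg'
    exact AddMonoidHom.toZModLinearMap_injective p this
  exact hle.trans (hcard1.trans (Nat.pow_le_pow_right hK₀1 hcard4))

end Count

end Fermat.Agent.TW.FLAT.SemilinCount9
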