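/-
Programme T (S56), chapter FLAT, brick (LL-COUNT), part 6 — helper9.

THE UNIFORM LEADING TERM.  `F` a `p`-adic field (model of `PT.LOC.Interface12`), `π` a
uniformizer, `m ≥ 1` ANY level (no hypothesis on `p ∣ m`, no hypothesis on the position of `m`
with respect to the critical level).

* `RAdd p F π hπ m hm : AddSubgroup κ`, the image of `U^(m) ∩ (Fˣ)^p` under `gr_m`, and
  `RSub … : Submodule (ZMod p) κ` (for the `ZMod p`-algebra structure `algZModResF` on `κ`);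
* `mul_mem_RAdd` : `RAdd` is stable under multiplication by `θ₀(τ)^m` (`τ` in the inertia group),
  `aeval_mul_mem_RSub` : hence by every `Q(θ₀(τ)^m)`, `Q ∈ 𝔽_p[X]`;
* `ltQ p F π hπ m hm : Fˣ → κ ⧸ RSub`, the leading term on `levelSub m` modulo `RSub`:
  `ltQ_eq`, `ltQ_mul`, `ltQ_mul_pow`, `ltQ_eq_zero_iff` (kernel `levelSub (m + 1)`),
  `ltQ_inertia` (`ltQ (τ x) = θ₀(τ)^m · ltQ x`);
* **`mem_levelSub_succ_of_poly`** (the vanishing step): `M` an `𝔽_p`-module with an endomorphism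
  `T`, `h : M → Fˣ` additive and `τ`-equivariant modulo `p`-th powers with values in `levelSub m`;
  if `Q(T) = 0` and `Q(θ₀(τ)^m) ≠ 0` for some `Q ∈ 𝔽_p[X]` then `h` has values in
  `levelSub (m + 1)`.
-/
import Mathlib
import Fermat.Agent.TW.FLAT.UnitFil9
import Fermat.Agent.TW.FLAT.UnitPow9
import Fermat.Agent.TW.FLAT.KummerLevel9
import Fermat.Agent.TW.FLAT.SemilinCount9

set_option autoImplicit false
set_option linter.unusedSectionVars false

open scoped Fermat.Agent.PT.LOC.Interface12 Fermat.Agent.PT.LOC.StructureTower27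
open Fermat.Agent.PT.LOC.Interface12 Fermat.Agent.PT.LOC.Structure14
  Fermat.Agent.PT.LOC.StructureNorm14 Fermat.Agent.PT.LOC.StructureTower27
  Fermat.Agent.PT.LOC.StructureTowerEF27 Fermat.Agent.PT.LOC.RootsUnity14
  Fermat.Agent.PT.LOC.Unram11 Fermat.Agent.TW.LOC.TameInertia4
  Fermat.Agent.TW.FLAT.UnitFil9 Fermat.Agent.TW.FLAT.UnitPow9 Fermat.Agent.TW.FLAT.KummerLevel9
  Fermat.Agent.TW.FLAT.SemilinCount9 Polynomial

namespace Fermat.Agent.TW.FLAT.LevelQuot9

noncomputable section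

variable (p : ℕ) [Fact p.Prime] (F : Type) [Field F] [Algebra ℚ_[p] F] [FiniteDimensional ℚ_[p] F]

/-- The `𝔽_p`-algebra structure of the residue field. -/
@[reducible] def algZModResF : Algebra (ZMod p) (resF p F) := ZMod.algebra (resF p F) p

attribute [local instance] algZModResF

/-- The image of `U^(m) ∩ (Fˣ)^p` under the leading coefficient map `gr_m`. -/
def RAdd (π : F) (hπ : IsUniformizer p F π) (m : ℕ) (hm : 0 < m) : AddSubgroup (resF p F) where
  carrier := {c | ∃ z ∈ unitFil p F m, z ∈ pPow p F ∧ grMap p F π m z = c}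
  zero_mem' := ⟨1, one_mem _, one_mem _, grMap_one π m⟩
  add_mem' := by
    rintro a b ⟨z, hz, hzp, rfl⟩ ⟨z', hz', hzp', rfl⟩
    exact ⟨z * z', mul_mem hz hz', mul_mem hzp hzp', grMap_mul hπ hm hz hz'⟩
  neg_mem' := by
    rintro a ⟨z, hz, hzp, rfl⟩
    exact ⟨z⁻¹, inv_mem hz, inv_mem hzp, grMap_inv hπ hm hz⟩

/-- `RAdd` as an `𝔽_p`-subspace of the residue field. -/
def RSub (π : F) (hπ : IsUniformizer p F π) (m : ℕ) (hm : 0 < m) :
    Submodule (ZMod p) (resF p F) :=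
  AddSubgroup.toZModSubmodule p (RAdd p F π hπ m hm)

variable {p F}

theorem mem_RSub {π : F} {hπ : IsUniformizer p F π} {m : ℕ} {hm : 0 < m} {c : resF p F} :
    c ∈ RSub p F π hπ m hm ↔ ∃ z ∈ unitFil p F m, z ∈ pPow p F ∧ grMap p F π m z = c := Iff.rfl

section Stable

variable {E : Type} [Field E] [Algebra ℚ_[p] E] [FiniteDimensional ℚ_[p] E] [Algebra E F]
  [IsScalarTower ℚ_[p] E F] [IsGalois E F]

theorem map_mem_pPow (σ : F ≃ₐ[E] F) {z : Fˣ} (hz : z ∈ pPow p F) :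
    Units.map (σ : F →* F) z ∈ pPow p F := by
  obtain ⟨y, rfl⟩ := mem_pPow.1 hz
  rw [map_pow]
  exact pow_mem_pPow _

/-- `RSub` is stable under multiplication by `θ₀(τ)^m`. -/
theorem mul_mem_RSub (τ : inertia p E F) {π : F} {hπ : IsUniformizer p F π} {m : ℕ} {hm : 0 < m}
    {c : resF p F} (hc : c ∈ RSub p F π hπ m hm) :
    ((theta0 p E F τ : (resF p F)ˣ) : resF p F) ^ m * c ∈ RSub p F π hπ m hm := by
  obtain ⟨z, hz, hzp, rfl⟩ := hc
  exact ⟨Units.map ((τ : F ≃ₐ[E] F) : F →* F) z, (map_mem_unitFil_iff _ m z).2 hz,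
    map_mem_pPow _ hzp, grMap_inertia τ π hπ hz⟩

/-- `RSub` is stable under multiplication by every polynomial in `θ₀(τ)^m` over `𝔽_p`. -/
theorem aeval_mul_mem_RSub (τ : inertia p E F) {π : F} {hπ : IsUniformizer p F π} {m : ℕ}
    {hm : 0 < m} (Q : (ZMod p)[X]) {c : resF p F} (hc : c ∈ RSub p F π hπ m hm) :
    aeval (((theta0 p E F τ : (resF p F)ˣ) : resF p F) ^ m) Q * c ∈ RSub p F π hπ m hm := by
  induction Q using Polynomial.induction_on generalizing c with
  | C a =>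
    rw [aeval_C, ← Algebra.smul_def]
    exact Submodule.smul_mem _ a hc
  | add P Q hP hQ =>
    rw [map_add, add_mul]
    exact Submodule.add_mem _ (hP hc) (hQ hc)
  | monomial n a ih =>
    have e : (C a * X ^ (n + 1) : (ZMod p)[X]) = C a * X ^ n * X := by rw [pow_succ, mul_assoc]
    rw [e, map_mul, aeval_X, mul_assoc]
    exact ih (mul_mem_RSub τ hc)

end Stable

/-! ### The uniform leading term -/

variable (p F)

open Classical in
/-- The leading term of a class of level `≥ m`, modulo the leading terms of `p`-th powers. -/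
def ltQ (π : F) (hπ : IsUniformizer p F π) (m : ℕ) (hm : 0 < m) (x : Fˣ) :
    resF p F ⧸ RSub p F π hπ m hm :=
  if h : ∃ w : Fˣ, x * w ^ p ∈ unitFil p F m then
    Submodule.Quotient.mk (grMap p F π m (x * (Classical.choose h) ^ p))
  else 0

variable {p F}

section LtQ

variable {π : F} {hπ : IsUniformizer p F π} {m : ℕ} {hm : 0 < m}

theorem mk_grMap_mul_pow_eq {x w w' : Fˣ} (hw : x * w ^ p ∈ unitFil p F m)
    (hw' : x * w' ^ p ∈ unitFil p F m) :
    (Submodule.Quotient.mk (grMap p F π m (x * w ^ p)) : resF p F ⧸ RSub p F π hπ m hm) =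
      Submodule.Quotient.mk (grMap p F π m (x * w' ^ p)) := by
  rw [Submodule.Quotient.eq]
  have hq : (w / w') ^ p ∈ unitFil p F m := by
    have : (w / w') ^ p = (x * w ^ p) / (x * w' ^ p) := by
      rw [div_pow, mul_div_mul_left_eq_div]
    rw [this]
    exact div_mem hw hw'
  have h1 : x * w ^ p = (x * w' ^ p) * (w / w') ^ p := by
    rw [div_pow, mul_assoc, mul_div_cancel]
  rw [h1, grMap_mul hπ hm hw' hq, add_sub_cancel_left]
  exact ⟨(w / w') ^ p, hq, pow_mem_pPow _, rfl⟩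

theorem ltQ_eq {x w : Fˣ} (hw : x * w ^ p ∈ unitFil p F m) :
    ltQ p F π hπ m hm x = Submodule.Quotient.mk (grMap p F π m (x * w ^ p)) := by
  have h : ∃ w : Fˣ, x * w ^ p ∈ unitFil p F m := ⟨w, hw⟩
  rw [ltQ, dif_pos h]
  exact mk_grMap_mul_pow_eq (Classical.choose_spec h) hw

theorem ltQ_mul {x y : Fˣ} (hx : x ∈ levelSub p F m) (hy : y ∈ levelSub p F m) :
    ltQ p F π hπ m hm (x * y) = ltQ p F π hπ m hm x + ltQ p F π hπ m hm y := by
  obtain ⟨w, hw⟩ := mem_levelSub_iff'.1 hx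
  obtain ⟨v, hv⟩ := mem_levelSub_iff'.1 hy
  have h1 : x * y * (w * v) ^ p = (x * w ^ p) * (y * v ^ p) := by
    rw [mul_pow]; ac_rfl
  have h2 : x * y * (w * v) ^ p ∈ unitFil p F m := by rw [h1]; exact mul_mem hw hv
  rw [ltQ_eq h2, ltQ_eq hw, ltQ_eq hv, h1, grMap_mul hπ hm hw hv]
  rfl

theorem ltQ_mul_pow {x : Fˣ} (hx : x ∈ levelSub p F m) (y : Fˣ) :
    ltQ p F π hπ m hm (x * y ^ p) = ltQ p F π hπ m hm x := by
  obtain ⟨w, hw⟩ := mem_levelSub_iff'.1 hx
  have h1 : x * y ^ p * (w * y⁻¹) ^ p = x * w ^ p := by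
    rw [mul_pow, inv_pow]
    have : y ^ p * (w ^ p * (y ^ p)⁻¹) = w ^ p := by
      rw [mul_comm (w ^ p), ← mul_assoc, mul_inv_cancel, one_mul]
    rw [mul_assoc, this]
  have h2 : x * y ^ p * (w * y⁻¹) ^ p ∈ unitFil p F m := by rw [h1]; exact hw
  rw [ltQ_eq h2, ltQ_eq hw, h1]

/-- **The kernel of the uniform leading term on `levelSub m` is `levelSub (m + 1)`.** -/
theorem ltQ_eq_zero_iff {x : Fˣ} (hx : x ∈ levelSub p F m) :
    ltQ p F π hπ m hm x = 0 ↔ x ∈ levelSub p F (m + 1) := by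
  obtain ⟨w, hw⟩ := mem_levelSub_iff'.1 hx
  rw [ltQ_eq hw, Submodule.Quotient.mk_eq_zero]
  constructor
  · rintro ⟨z, hz, hzp, hgr⟩
    obtain ⟨y, rfl⟩ := mem_pPow.1 hzp
    have h1 := div_mem_unitFil_succ hπ hm hw hz hgr.symm
    refine mem_levelSub_iff'.2 ⟨w / y, ?_⟩
    have : x * (w / y) ^ p = x * w ^ p / y ^ p := by rw [div_pow, mul_div_assoc]
    rw [this]
    exact h1
  · intro h
    obtain ⟨v, hv⟩ := mem_levelSub_iff'.1 h
    have hv' : x * v ^ p ∈ unitFil p F m := unitFil_anti (Nat.le_succ m) hv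
    have h1 := mk_grMap_mul_pow_eq (hπ := hπ) (hm := hm) hw hv'
    rw [(grMap_eq_zero_iff hπ hv').2 hv, Submodule.Quotient.mk_zero,
      Submodule.Quotient.mk_eq_zero] at h1
    exact h1

section Inertia

variable {E : Type} [Field E] [Algebra ℚ_[p] E] [FiniteDimensional ℚ_[p] E] [Algebra E F]
  [IsScalarTower ℚ_[p] E F] [IsGalois E F]

/-- Multiplication by `θ₀(τ)^m` on `κ ⧸ RSub`. -/
def mulQ (τ : inertia p E F) (π : F) (hπ : IsUniformizer p F π) (m : ℕ) (hm : 0 < m) :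
    Module.End (ZMod p) (resF p F ⧸ RSub p F π hπ m hm) :=
  (RSub p F π hπ m hm).mapQ (RSub p F π hπ m hm)
    (Algebra.lmul (ZMod p) (resF p F) (((theta0 p E F τ : (resF p F)ˣ) : resF p F) ^ m))
    (fun _ hc => mul_mem_RSub τ hc)

theorem mulQ_mk (τ : inertia p E F) (c : resF p F) :
    mulQ τ π hπ m hm (Submodule.Quotient.mk c) =
      Submodule.Quotient.mk (((theta0 p E F τ : (resF p F)ˣ) : resF p F) ^ m * c) := rfl

/-- Inertia acts on the uniform leading terms through `θ₀ ^ m`. -/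
theorem ltQ_inertia (τ : inertia p E F) {x : Fˣ} (hx : x ∈ levelSub p F m) :
    ltQ p F π hπ m hm (Units.map ((τ : F ≃ₐ[E] F) : F →* F) x) =
      mulQ τ π hπ m hm (ltQ p F π hπ m hm x) := by
  obtain ⟨w, hw⟩ := mem_levelSub_iff'.1 hx
  have h1 : Units.map ((τ : F ≃ₐ[E] F) : F →* F) x *
      (Units.map ((τ : F ≃ₐ[E] F) : F →* F) w) ^ p =
      Units.map ((τ : F ≃ₐ[E] F) : F →* F) (x * w ^ p) := by rw [map_mul, map_pow]
  have h2 : Units.map ((τ : F ≃ₐ[E] F) : F →* F) x *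
      (Units.map ((τ : F ≃ₐ[E] F) : F →* F) w) ^ p ∈ unitFil p F m := by
    rw [h1]; exact (map_mem_unitFil_iff (τ : F ≃ₐ[E] F) m _).2 hw
  rw [ltQ_eq h2, ltQ_eq hw, h1, grMap_inertia τ π hπ hw, mulQ_mk]

/-- `Q(mulQ)` is multiplication by `Q(θ₀(τ)^m)`. -/
theorem aeval_mulQ_mk (τ : inertia p E F) (Q : (ZMod p)[X]) (c : resF p F) :
    aeval (mulQ τ π hπ m hm) Q (Submodule.Quotient.mk c) =
      Submodule.Quotient.mk (aeval (((theta0 p E F τ : (resF p F)ˣ) : resF p F) ^ m) Q * c) := by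
  have h1 := aeval_intertwine (RSub p F π hπ m hm).mkQ
    (Algebra.lmul (ZMod p) (resF p F) (((theta0 p E F τ : (resF p F)ˣ) : resF p F) ^ m))
    (mulQ τ π hπ m hm) (fun c => rfl) Q c
  rw [Submodule.mkQ_apply, Submodule.mkQ_apply] at h1
  rw [← h1, Polynomial.aeval_algHom_apply]
  rfl

include hπ hm in
/-- **The vanishing step.** -/
theorem mem_levelSub_succ_of_poly (τ : inertia p E F) {M : Type*} [AddCommGroup M]
    [Module (ZMod p) M] (T : Module.End (ZMod p) M) (h : M → Fˣ)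
    (hadd : ∀ w w', ∃ z : Fˣ, h (w + w') = h w * h w' * z ^ p)
    (hτ : ∀ w, ∃ z : Fˣ, h (T w) = Units.map ((τ : F ≃ₐ[E] F) : F →* F) (h w) * z ^ p)
    (hlev : ∀ w, h w ∈ levelSub p F m)
    (Q : (ZMod p)[X]) (hQ : aeval T Q = 0)
    (hQt : aeval (((theta0 p E F τ : (resF p F)ˣ) : resF p F) ^ m) Q ≠ 0) (w : M) :
    h w ∈ levelSub p F (m + 1) := by
  -- the additive map `w ↦ ltQ (h w)`
  let g₀ : M →+ resF p F ⧸ RSub p F π hπ m hm :=
    AddMonoidHom.mk' (fun w => ltQ p F π hπ m hm (h w)) (fun w w' => by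
      obtain ⟨z, hz⟩ := hadd w w'
      change ltQ p F π hπ m hm (h (w + w')) = _
      rw [hz, ltQ_mul_pow (mul_mem (hlev w) (hlev w')), ltQ_mul (hlev w) (hlev w')])
  let g : M →ₗ[ZMod p] resF p F ⧸ RSub p F π hπ m hm := g₀.toZModLinearMap p
  have hg : ∀ w, g w = ltQ p F π hπ m hm (h w) := fun w => rfl
  have hint : ∀ w, g (T w) = mulQ τ π hπ m hm (g w) := by
    intro w
    obtain ⟨z, hz⟩ := hτ w
    rw [hg, hg, hz, ltQ_mul_pow (map_mem_levelSub _ (hlev w)), ltQ_inertia τ (hlev w)]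
  have h1 := aeval_intertwine g T (mulQ τ π hπ m hm) hint Q w
  rw [hQ, LinearMap.zero_apply, map_zero] at h1
  -- a representative of `g w`
  obtain ⟨v, hv⟩ := mem_levelSub_iff'.1 (hlev w)
  set c := grMap p F π m (h w * v ^ p) with hc
  have hgc : g w = Submodule.Quotient.mk c := by rw [hg, ltQ_eq hv]
  rw [hgc, aeval_mulQ_mk] at h1
  have h2 : aeval (((theta0 p E F τ : (resF p F)ˣ) : resF p F) ^ m) Q * c ∈
      RSub p F π hπ m hm := (Submodule.Quotient.mk_eq_zero _).1 h1.symm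
  -- invert `Q(θ^m)` by a power
  set a := aeval (((theta0 p E F τ : (resF p F)ˣ) : resF p F) ^ m) Q with ha
  have hfin : Fintype (resF p F) := Fintype.ofFinite _
  have hpow : a ^ (Fintype.card (resF p F) - 1) = 1 := FiniteField.pow_card_sub_one_eq_one a hQt
  have hcard : 2 ≤ Fintype.card (resF p F) := Fintype.one_lt_card
  have h3 : a ^ (Fintype.card (resF p F) - 2) * (a * c) = c := by
    rw [← mul_assoc, ← pow_succ]
    have : Fintype.card (resF p F) - 2 + 1 = Fintype.card (resF p F) - 1 := by omega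
    rw [this, hpow, one_mul]
  have h4 : a ^ (Fintype.card (resF p F) - 2) * (a * c) ∈ RSub p F π hπ m hm := by
    have := aeval_mul_mem_RSub τ (Q ^ (Fintype.card (resF p F) - 2)) h2
    rwa [map_pow] at this
  rw [h3] at h4
  rw [← ltQ_eq_zero_iff (hπ := hπ) (hm := hm) (hlev w), ← hg, hgc,
    Submodule.Quotient.mk_eq_zero]
  exact h4

end Inertia

end LtQ

end

end Fermat.Agent.TW.FLAT.LevelQuot9
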