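/-
Programme T (S56), chapter FLAT, brick (LL-COUNT), part 7 — helper9.

THE COUNT OF EQUIVARIANT KUMMER HOMOMORPHISMS OF BOUNDED LEVEL.

`F/E` a finite Galois extension of `p`-adic fields (model of `PT.LOC.Interface12`; `E = ℚ_[p]` is
allowed), `G = Gal(F/E)`, `κ = resF p F`, `π` a uniformizer of `F`, `‖p‖ = ‖π‖ ^ e`; `M` a finite
`𝔽_p[G]`-module (`ρ : Representation (ZMod p) G M`).

* `KumQ p F = Fˣ ⧸ (Fˣ)^p` with `kmk p F : Fˣ →* KumQ p F`; `galQ σ : KumQ p F →* KumQ p F`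
  (the Galois action on Kummer classes);
* `kumSub ρ m0 : Subgroup (Multiplicative M →* KumQ p F)`: the `G`-equivariant homomorphisms
  with values in the classes of `U^(m0)`; `mem_kumSub_iff_lifts` (equivariance stated on lifts);
  `KumHom ρ m0 := ↥(kumSub ρ m0)`;
* `Passable ρ τ e m`: the level `m` is "jumped over" (`m = p i`, `p i < i + e`) or there is
  `Q ∈ 𝔽_p[X]` with `Q(ρ τ) = 0` and `Q(θ₀(τ)^m) ≠ 0`;
* `lev_succ`, `lev_of_le`: climbing the level filtration through passable levels;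
* **`card_kumHom_le`**: if all levels `m0 ≤ m < mtop`, `m ≠ m1` are passable, `p ∤ m1` is below the
  critical level, `levelSub mtop = (Fˣ)^p`, and the conjugates `(θ₀(τ)^m1)^(p^j)`, `j < d`, are
  pairwise distinct, then `#KumHom ρ m0 ≤ (resCard p E) ^ (dim_{𝔽_p} M / d)`;
* **`card_kumHom_le_of_quadratic`**: the specialisation `e = p² - 1`, `m0 = p + 1`,
  `θ₀(τ)` of order `p² - 1`, `Q` of degree `2` with `Q(ρ τ) = 0` and `Q(θ₀(τ)²) = 0`:
  `#KumHom ρ (p + 1) ≤ (resCard p E) ^ (dim_{𝔽_p} M / 2)`.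
-/
import Mathlib
import Fermat.Agent.TW.FLAT.UnitFil9
import Fermat.Agent.TW.FLAT.UnitPow9
import Fermat.Agent.TW.FLAT.KummerLevel9
import Fermat.Agent.TW.FLAT.SemilinCount9
import Fermat.Agent.TW.FLAT.LevelQuot9

set_option autoImplicit false
set_option linter.unusedSectionVars false

open scoped Fermat.Agent.PT.LOC.Interface12 Fermat.Agent.PT.LOC.StructureTower27
open Fermat.Agent.PT.LOC.Interface12 Fermat.Agent.PT.LOC.Structure14
  Fermat.Agent.PT.LOC.StructureNorm14 Fermat.Agent.PT.LOC.StructureTower27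
  Fermat.Agent.PT.LOC.StructureTowerEF27 Fermat.Agent.PT.LOC.RootsUnity14
  Fermat.Agent.PT.LOC.Unram11 Fermat.Agent.TW.LOC.TameInertia4
  Fermat.Agent.TW.FLAT.UnitFil9 Fermat.Agent.TW.FLAT.UnitPow9 Fermat.Agent.TW.FLAT.KummerLevel9
  Fermat.Agent.TW.FLAT.SemilinCount9 Fermat.Agent.TW.FLAT.LevelQuot9 Polynomial

namespace Fermat.Agent.TW.FLAT.LLCount9

noncomputable section

attribute [local instance] algZModResF

variable {p : ℕ} [Fact p.Prime] {F : Type} [Field F] [Algebra ℚ_[p] F] [FiniteDimensional ℚ_[p] F]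
  {E : Type} [Field E] [Algebra ℚ_[p] E] [FiniteDimensional ℚ_[p] E] [Algebra E F]
  [IsScalarTower ℚ_[p] E F] [IsGalois E F]

/-! ### Kummer classes -/

variable (p F) in
/-- The group of Kummer classes `Fˣ ⧸ (Fˣ)^p`. -/
def KumQ : Type := Fˣ ⧸ pPow p F

instance instCommGroupKumQ : CommGroup (KumQ p F) := QuotientGroup.Quotient.commGroup (pPow p F)

variable (p F) in
/-- The class of an element of `Fˣ` modulo `p`-th powers. -/
def kmk : Fˣ →* KumQ p F := QuotientGroup.mk' (pPow p F)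

theorem kmk_surjective : Function.Surjective (kmk p F) := QuotientGroup.mk'_surjective _

theorem kmk_eq_one_iff {x : Fˣ} : kmk p F x = 1 ↔ x ∈ pPow p F :=
  QuotientGroup.eq_one_iff x

theorem kmk_pow_eq_one (z : Fˣ) : kmk p F (z ^ p) = 1 := kmk_eq_one_iff.2 (pow_mem_pPow z)

theorem exists_eq_mul_pow_of_kmk_eq {x y : Fˣ} (h : kmk p F x = kmk p F y) :
    ∃ z : Fˣ, y = x * z ^ p := by
  have h1 : kmk p F (x⁻¹ * y) = 1 := by rw [map_mul, map_inv, h, inv_mul_cancel]
  obtain ⟨z, hz⟩ := mem_pPow.1 (kmk_eq_one_iff.1 h1)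
  exact ⟨z, by rw [hz, mul_inv_cancel_left]⟩

theorem kmk_mul_pow (x z : Fˣ) : kmk p F (x * z ^ p) = kmk p F x := by
  rw [map_mul, kmk_pow_eq_one, mul_one]

/-- The Galois action on `Fˣ ⧸ (Fˣ)^p`. -/
def galQ (σ : F ≃ₐ[E] F) : KumQ p F →* KumQ p F :=
  QuotientGroup.lift (pPow p F) ((kmk p F).comp (Units.map (σ : F →* F))) (fun z hz => by
    rw [MonoidHom.mem_ker, MonoidHom.comp_apply]
    exact kmk_eq_one_iff.2 (map_mem_pPow σ hz))

theorem galQ_kmk (σ : F ≃ₐ[E] F) (x : Fˣ) :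
    galQ σ (kmk p F x) = kmk p F (Units.map (σ : F →* F) x) := rfl

variable {M : Type} [AddCommGroup M] [Module (ZMod p) M]
  (ρ : Representation (ZMod p) (F ≃ₐ[E] F) M)

/-- The `Gal(F/E)`-equivariant homomorphisms `M → Fˣ ⧸ (Fˣ)^p` with values in the classes of
`U^(m0)`. -/
def kumSub (m0 : ℕ) : Subgroup (Multiplicative M →* KumQ p F) where
  carrier := {f | (∀ σ w, f (Multiplicative.ofAdd (ρ σ (Multiplicative.toAdd w))) = galQ σ (f w)) ∧
    ∀ w, ∃ u ∈ unitFil p F m0, f w = kmk p F u}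
  one_mem' := ⟨fun σ w => by rw [MonoidHom.one_apply, MonoidHom.one_apply, map_one],
    fun w => ⟨1, one_mem _, by rw [MonoidHom.one_apply, map_one]⟩⟩
  mul_mem' := by
    rintro f g ⟨hf, hf'⟩ ⟨hg, hg'⟩
    refine ⟨fun σ w => ?_, fun w => ?_⟩
    · rw [MonoidHom.mul_apply, MonoidHom.mul_apply, hf, hg, map_mul]
    · obtain ⟨u, hu, huw⟩ := hf' w
      obtain ⟨v, hv, hvw⟩ := hg' w
      exact ⟨u * v, mul_mem hu hv, by rw [MonoidHom.mul_apply, huw, hvw, map_mul]⟩
  inv_mem' := by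
    rintro f ⟨hf, hf'⟩
    refine ⟨fun σ w => ?_, fun w => ?_⟩
    · rw [MonoidHom.inv_apply, MonoidHom.inv_apply, hf, map_inv]
    · obtain ⟨u, hu, huw⟩ := hf' w
      exact ⟨u⁻¹, inv_mem hu, by rw [MonoidHom.inv_apply, huw, map_inv]⟩

/-- The set of equivariant Kummer homomorphisms of level `≥ m0`. -/
abbrev KumHom (m0 : ℕ) : Type := ↥(kumSub ρ m0)

/-- Membership in `kumSub`, with the equivariance stated on lifts. -/
theorem mem_kumSub_iff_lifts {m0 : ℕ} (f : Multiplicative M →* KumQ p F) :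
    f ∈ kumSub ρ m0 ↔
      (∀ σ (x : Fˣ) w, f w = kmk p F x →
        f (Multiplicative.ofAdd (ρ σ (Multiplicative.toAdd w))) =
          kmk p F (Units.map (σ : F →* F) x)) ∧
      ∀ w, ∃ u ∈ unitFil p F m0, f w = kmk p F u := by
  constructor
  · rintro ⟨h1, h2⟩
    refine ⟨fun σ x w hx => ?_, h2⟩
    rw [h1, hx, galQ_kmk]
  · rintro ⟨h1, h2⟩
    refine ⟨fun σ w => ?_, h2⟩
    obtain ⟨x, hx⟩ := kmk_surjective (p := p) (F := F) (f w)
    rw [h1 σ x w hx.symm, ← hx, galQ_kmk]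

/-- A lift of the value of `f` at `w`. -/
def liftK (f : Multiplicative M →* KumQ p F) (w : M) : Fˣ :=
  Classical.choose (kmk_surjective (p := p) (F := F) (f (Multiplicative.ofAdd w)))

theorem kmk_liftK (f : Multiplicative M →* KumQ p F) (w : M) :
    kmk p F (liftK f w) = f (Multiplicative.ofAdd w) :=
  Classical.choose_spec (kmk_surjective (p := p) (F := F) (f (Multiplicative.ofAdd w)))

theorem liftK_add (f : Multiplicative M →* KumQ p F) (w w' : M) :
    ∃ z : Fˣ, liftK f (w + w') = liftK f w * liftK f w' * z ^ p := by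
  apply exists_eq_mul_pow_of_kmk_eq
  rw [map_mul, kmk_liftK, kmk_liftK, kmk_liftK, ofAdd_add, map_mul]

theorem liftK_div (f g : Multiplicative M →* KumQ p F) (w : M) :
    ∃ z : Fˣ, liftK (f / g) w = liftK f w / liftK g w * z ^ p := by
  apply exists_eq_mul_pow_of_kmk_eq
  rw [_root_.map_div, kmk_liftK, kmk_liftK, kmk_liftK, MonoidHom.div_apply]

variable {ρ}

theorem liftK_map {m0 : ℕ} {f : Multiplicative M →* KumQ p F} (hf : f ∈ kumSub ρ m0)
    (σ : F ≃ₐ[E] F) (w : M) :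
    ∃ z : Fˣ, liftK f (ρ σ w) = Units.map (σ : F →* F) (liftK f w) * z ^ p := by
  apply exists_eq_mul_pow_of_kmk_eq
  rw [kmk_liftK, ← galQ_kmk, kmk_liftK]
  exact (hf.1 σ (Multiplicative.ofAdd w)).symm

theorem liftK_mem_levelSub {m0 : ℕ} {f : Multiplicative M →* KumQ p F}
    (hf : f ∈ kumSub ρ m0) (w : M) : liftK f w ∈ levelSub p F m0 := by
  obtain ⟨u, hu, huw⟩ := hf.2 (Multiplicative.ofAdd w)
  rw [← kmk_liftK] at huw
  obtain ⟨z, hz⟩ := exists_eq_mul_pow_of_kmk_eq huw.symm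
  rw [hz]
  exact mem_levelSub_iff.2 ⟨u, hu, z, rfl⟩

/-! ### Climbing the level filtration -/

variable (ρ)

/-- The level `m` can be passed: either it is jumped over by the level filtration, or a
polynomial separates the action of `τ` on `M` from the character `θ₀(τ)^m`. -/
def Passable (τ : inertia p E F) (e m : ℕ) : Prop :=
  (∃ i, 0 < i ∧ m = p * i ∧ p * i < i + e) ∨
    ∃ Q : (ZMod p)[X], aeval (ρ (τ : F ≃ₐ[E] F)) Q = 0 ∧
      aeval (((theta0 p E F τ : (resF p F)ˣ) : resF p F) ^ m) Q ≠ 0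

variable {ρ}

section Climb

variable {π : F} (hπ : IsUniformizer p F π) {e : ℕ}
  (he : snorm p F ((p : ℕ) : F) = snorm p F π ^ e) (τ : inertia p E F) {m0 : ℕ}
  {f : Multiplicative M →* KumQ p F} (hf : f ∈ kumSub ρ m0)

include hπ he hf

theorem lev_succ {m : ℕ} (hm : 0 < m) (hpass : Passable ρ τ e m)
    (hlev : ∀ w, liftK f w ∈ levelSub p F m) : ∀ w, liftK f w ∈ levelSub p F (m + 1) := by
  rcases hpass with ⟨i, hi, rfl, hlt⟩ | ⟨Q, hQ, hQt⟩
  · intro w
    rw [levelSub_succ_of_dvd hπ he hi hlt]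
    exact hlev w
  · exact mem_levelSub_succ_of_poly (hπ := hπ) (hm := hm) τ (ρ (τ : F ≃ₐ[E] F)) (liftK f)
      (liftK_add f) (fun w => liftK_map hf _ w) hlev Q hQ hQt

theorem lev_of_le {a b : ℕ} (ha : 0 < a) (hab : a ≤ b)
    (hpass : ∀ m, a ≤ m → m < b → Passable ρ τ e m)
    (hlev : ∀ w, liftK f w ∈ levelSub p F a) : ∀ w, liftK f w ∈ levelSub p F b := by
  induction b, hab using Nat.le_induction with
  | base => exact hlev
  | succ b hab ih =>
    exact lev_succ hπ he τ hf (by omega) (hpass b hab (Nat.lt_succ_self b))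
      (ih fun m h1 h2 => hpass m h1 (by omega))

end Climb

/-! ### The count -/

section Main

variable [Finite M]

/-- **The count of equivariant Kummer homomorphisms of level `≥ m0`.** -/
theorem card_kumHom_le (πu : Fˣ) (hπ : IsUniformizer p F (πu : F)) {e : ℕ}
    (he : snorm p F ((p : ℕ) : F) = snorm p F (πu : F) ^ e) (τ : inertia p E F)
    {m0 m1 mtop : ℕ} (hm0 : 0 < m0) (h01 : m0 ≤ m1) (h1t : m1 < mtop)
    (hpm1 : ¬ p ∣ m1) (hm1 : (p - 1) * m1 < p * e)
    (htop : levelSub p F mtop = pPow p F)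
    (hpass : ∀ m, m0 ≤ m → m < mtop → m ≠ m1 → Passable ρ τ e m)
    (d : ℕ) (hd0 : 0 < d)
    (hd : Function.Injective fun j : Fin d =>
      ((((theta0 p E F τ : (resF p F)ˣ) : resF p F) ^ m1) ^ p ^ (j : ℕ))) :
    Nat.card (KumHom ρ m0) ≤ resCard p E ^ (Module.finrank (ZMod p) M / d) := by
  have hm1pos : 0 < m1 := lt_of_lt_of_le hm0 h01
  -- all `f` have level `≥ m1`
  have hlev1 : ∀ f : KumHom ρ m0, ∀ w, liftK f.1 w ∈ levelSub p F m1 := fun f =>
    lev_of_le hπ he τ f.2 hm0 h01 (fun m h1 h2 => hpass m h1 (by omega) (by omega))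
      (liftK_mem_levelSub f.2)
  -- the leading map
  let c : (F ≃ₐ[E] F) → resF p F := fun σ => ((thetaX p E F σ πu : (resF p F)ˣ) : resF p F) ^ m1
  let act : (F ≃ₐ[E] F) → (resF p F ≃+* resF p F) := fun σ => (redHom p E F σ).toRingEquiv
  let Λ : KumHom ρ m0 → {g : M →+ resF p F // ∀ σ w, g (ρ σ w) = c σ * act σ (g w)} := fun f =>
    ⟨AddMonoidHom.mk' (fun w => ltMap p F (πu : F) m1 (liftK f.1 w)) (fun w w' => by
      obtain ⟨z, hz⟩ := liftK_add f.1 w w'
      rw [hz, ltMap_mul_pow hπ he hm1pos hpm1 hm1 (mul_mem (hlev1 f w) (hlev1 f w')),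
        ltMap_mul hπ he hm1pos hpm1 hm1 (hlev1 f w) (hlev1 f w')]), fun σ w => by
      obtain ⟨z, hz⟩ := liftK_map f.2 σ w
      change ltMap p F (πu : F) m1 (liftK f.1 (ρ σ w)) = _
      rw [hz, ltMap_mul_pow hπ he hm1pos hpm1 hm1 (map_mem_levelSub σ (hlev1 f w)),
        ltMap_galois σ πu hπ he hm1pos hpm1 hm1 (hlev1 f w)]
      rfl⟩
  have hΛ : ∀ f w, (Λ f).1 w = ltMap p F (πu : F) m1 (liftK f.1 w) := fun f w => rfl
  -- injectivity
  have hinj : Function.Injective Λ := by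
    intro f f' hff'
    have hq : f.1 / f'.1 ∈ kumSub ρ m0 := div_mem f.2 f'.2
    -- the quotient has vanishing leading term
    have hq1 : ∀ w, liftK (f.1 / f'.1) w ∈ levelSub p F (m1 + 1) := by
      intro w
      have hl := hlev1 ⟨_, hq⟩ w
      rw [← ltMap_eq_zero_iff hπ he hm1pos hpm1 hm1 hl]
      obtain ⟨z, hz⟩ := liftK_div f.1 f'.1 w
      rw [hz, ltMap_mul_pow hπ he hm1pos hpm1 hm1 (div_mem (hlev1 f w) (hlev1 f' w)),
        div_eq_mul_inv, ltMap_mul hπ he hm1pos hpm1 hm1 (hlev1 f w) (inv_mem (hlev1 f' w)),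
        ltMap_inv hπ he hm1pos hpm1 hm1 (hlev1 f' w), ← hΛ f w, ← hΛ f' w, hff', add_neg_cancel]
    have hq2 : ∀ w, liftK (f.1 / f'.1) w ∈ levelSub p F mtop :=
      lev_of_le hπ he τ hq (Nat.succ_pos m1) h1t
        (fun m h1 h2 => hpass m (by omega) h2 (by omega)) hq1
    apply Subtype.ext
    rw [← div_eq_one]
    refine MonoidHom.ext fun w => ?_
    have h3 := hq2 (Multiplicative.toAdd w)
    rw [htop] at h3
    have h4 := kmk_liftK (f.1 / f'.1) (Multiplicative.toAdd w)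
    rw [ofAdd_toAdd] at h4
    rw [← h4, MonoidHom.one_apply, kmk_eq_one_iff]
    exact h3
  -- the semilinear count
  have hfix : ∀ x : resF p F, (∀ σ, act σ x = x) →
      x ∈ (algebraMap (resF p E) (resF p F)).range := by
    intro x hx
    have h1 : x ∈ Set.range (algebraMap (resF p E) (resF p F)) := by
      rw [IsGalois.mem_range_algebraMap_iff_fixed]
      intro g
      obtain ⟨σ, rfl⟩ := redHom_surjective p E F g
      exact hx σ
    exact h1
  have hτ1 : ∀ x, act (τ : F ≃ₐ[E] F) x = x := by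
    intro x
    have h2 : redHom p E F (τ : F ≃ₐ[E] F) = 1 := τ.2
    change redHom p E F (τ : F ≃ₐ[E] F) x = x
    rw [h2, AlgEquiv.one_apply]
  have hcτ : c (τ : F ≃ₐ[E] F) = ((theta0 p E F τ : (resF p F)ˣ) : resF p F) ^ m1 := by
    change ((thetaX p E F (τ : F ≃ₐ[E] F) πu : (resF p F)ˣ) : resF p F) ^ m1 = _
    rw [theta0_apply p E F τ πu hπ]
  have hcount := card_semilinear_le (K₀ := resF p E) ρ act hfix c (τ : F ≃ₐ[E] F) hτ1 d hd0
    (by rw [hcτ]; exact hd)
  rw [card_resF] at hcount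
  have : Finite (M →+ resF p F) := DFunLike.finite _
  exact (Nat.card_le_card_of_injective Λ hinj).trans hcount

end Main

/-! ### The quadratic specialisation -/

/-- Pure arithmetic: a level `p + 1 ≤ m ≤ p² + p`, `m ≠ p² + 1`, which is not jumped over, is
neither `≡ 2` nor `≡ 2p` modulo `p² - 1`. -/
theorem not_modEq_of_level {q m : ℕ} (hq : 2 ≤ q) (h1 : q + 1 ≤ m) (h2 : m ≤ q ^ 2 + q)
    (h3 : m ≠ q ^ 2 + 1) (h4 : ¬ ∃ i, 0 < i ∧ m = q * i ∧ q * i < i + (q ^ 2 - 1)) :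
    ¬ m ≡ 2 [MOD q ^ 2 - 1] ∧ ¬ m ≡ 2 * q [MOD q ^ 2 - 1] := by
  have hS : 2 * q ≤ q ^ 2 := by nlinarith
  generalize q ^ 2 = S at *
  constructor
  · intro h
    obtain ⟨k, hk⟩ := (Nat.modEq_iff_dvd' (by omega : 2 ≤ m)).1 h.symm
    rcases k with _ | _ | k
    · omega
    · omega
    · have : (S - 1) * (k + 1 + 1) = (S - 1) * k + 2 * (S - 1) := by ring
      omega
  · intro h
    rcases Nat.lt_or_ge m (2 * q) with hm | hm
    · obtain ⟨k, hk⟩ := (Nat.modEq_iff_dvd' hm.le).1 h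
      rcases k with _ | k
      · omega
      · have : (S - 1) * (k + 1) = (S - 1) * k + (S - 1) := by ring
        omega
    · obtain ⟨k, hk⟩ := (Nat.modEq_iff_dvd' hm).1 h.symm
      rcases k with _ | k
      · exact h4 ⟨2, by omega, by omega, by omega⟩
      · have : (S - 1) * (k + 1) = (S - 1) * k + (S - 1) := by ring
        omega

theorem pow_ne_pow_of_not_modEq {K : Type*} [Field K] (u : Kˣ) {a b : ℕ}
    (h : ¬ a ≡ b [MOD orderOf u]) : ((u : K)) ^ a ≠ (u : K) ^ b := by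
  intro hab
  apply h
  rw [← pow_eq_pow_iff_modEq]
  ext
  rw [Units.val_pow_eq_pow_val, Units.val_pow_eq_pow_val]
  exact hab

section Quadratic

variable [Finite M]

/-- **The count in the quadratic (niveau 2) case**: `e = p² - 1`, `θ₀(τ)` of exact order
`p² - 1`, and a quadratic polynomial `Q ∈ 𝔽_p[X]` with `Q(ρ τ) = 0` and `Q(θ₀(τ)²) = 0`. -/
theorem card_kumHom_le_of_quadratic (πu : Fˣ) (hπ : IsUniformizer p F (πu : F))
    (he : snorm p F ((p : ℕ) : F) = snorm p F (πu : F) ^ (p ^ 2 - 1)) (τ : inertia p E F)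
    (hτ : orderOf (theta0 p E F τ) = p ^ 2 - 1)
    (Q : (ZMod p)[X]) (hQdeg : Q.natDegree = 2) (hQρ : aeval (ρ (τ : F ≃ₐ[E] F)) Q = 0)
    (φ : ZMod p →+* resF p F)
    (hQt : Q.eval₂ φ (((theta0 p E F τ : (resF p F)ˣ) : resF p F) ^ 2) = 0) :
    Nat.card (KumHom ρ (p + 1)) ≤ resCard p E ^ (Module.finrank (ZMod p) M / 2) := by
  have hp2 : 2 ≤ p := (Fact.out : p.Prime).two_le
  have hS : 2 * p ≤ p ^ 2 := by nlinarith
  set u : (resF p F)ˣ := theta0 p E F τ with hu
  have hφ : φ = algebraMap (ZMod p) (resF p F) := Subsingleton.elim _ _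
  have hQt' : aeval ((u : resF p F) ^ 2) Q = 0 := by rw [aeval_def, ← hφ]; exact hQt
  have hfrob : ∀ x : resF p F, aeval (x ^ p) Q = (aeval x Q) ^ p := by
    intro x
    rw [← expand_aeval, ZMod.expand_card, map_pow]
  have hQt'' : aeval ((u : resF p F) ^ (2 * p)) Q = 0 := by
    rw [pow_mul, hfrob, hQt', zero_pow (by omega)]
  have hne : (u : resF p F) ^ 2 ≠ (u : resF p F) ^ (2 * p) := by
    apply pow_ne_pow_of_not_modEq
    rw [hτ]
    intro h
    obtain ⟨k, hk⟩ := (Nat.modEq_iff_dvd' (by omega : 2 ≤ 2 * p)).1 h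
    rcases k with _ | k
    · omega
    · have : (p ^ 2 - 1) * (k + 1) = (p ^ 2 - 1) * k + (p ^ 2 - 1) := by ring
      omega
  -- the roots of `Q`
  have hroots : ∀ x : resF p F, aeval x Q = 0 →
      x = (u : resF p F) ^ 2 ∨ x = (u : resF p F) ^ (2 * p) := by
    intro x hx
    classical
    by_contra hcon
    rw [not_or] at hcon
    have hdeg : (Q.map (algebraMap (ZMod p) (resF p F))).natDegree = 2 := by
      rw [natDegree_map, hQdeg]
    have hQ0 : Q.map (algebraMap (ZMod p) (resF p F)) ≠ 0 := by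
      intro h0
      rw [h0, natDegree_zero] at hdeg
      omega
    have hmem : ∀ y : resF p F, aeval y Q = 0 →
        y ∈ (Q.map (algebraMap (ZMod p) (resF p F))).roots := by
      intro y hy
      rw [mem_roots hQ0, IsRoot.def, eval_map, ← aeval_def]
      exact hy
    have hsub : ({(u : resF p F) ^ 2, (u : resF p F) ^ (2 * p), x} : Finset (resF p F)).val ⊆
        (Q.map (algebraMap (ZMod p) (resF p F))).roots := by
      intro y hy
      rw [Finset.mem_val, Finset.mem_insert, Finset.mem_insert, Finset.mem_singleton] at hy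
      rcases hy with rfl | rfl | rfl
      · exact hmem _ hQt'
      · exact hmem _ hQt''
      · exact hmem _ hx
    have hcard := card_le_degree_of_subset_roots hsub
    rw [hdeg, Finset.card_insert_of_notMem, Finset.card_insert_of_notMem,
      Finset.card_singleton] at hcard
    · omega
    · rw [Finset.mem_singleton]
      exact fun h => hcon.2 h.symm
    · rw [Finset.mem_insert, Finset.mem_singleton]
      rintro (h | h)
      · exact hne h
      · exact hcon.1 h.symm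
  have hnoroot : ∀ m, ¬ m ≡ 2 [MOD p ^ 2 - 1] → ¬ m ≡ 2 * p [MOD p ^ 2 - 1] →
      aeval ((u : resF p F) ^ m) Q ≠ 0 := by
    intro m h2 h2p h0
    rcases hroots _ h0 with h | h
    · exact pow_ne_pow_of_not_modEq u (by rw [hτ]; exact h2) h
    · exact pow_ne_pow_of_not_modEq u (by rw [hτ]; exact h2p) h
  have htop : levelSub p F (p ^ 2 + p + 1) = pPow p F := by
    have h := levelSub_of_gt hπ he (j := p + 2) (by omega) (by
      have : p * (p + 2) = p ^ 2 + 2 * p := by ring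
      omega)
    have h' : p + 2 + (p ^ 2 - 1) = p ^ 2 + p + 1 := by omega
    rw [h'] at h
    exact h
  have hm1 : (p - 1) * (p ^ 2 + 1) < p * (p ^ 2 - 1) := by
    obtain ⟨r, hr⟩ : ∃ r, p = r + 2 := ⟨p - 2, by omega⟩
    have e1 : p - 1 = r + 1 := by omega
    have e2 : p ^ 2 - 1 = r ^ 2 + 4 * r + 3 := by
      have : p ^ 2 = r ^ 2 + 4 * r + 4 := by rw [hr]; ring
      omega
    rw [e1, e2, hr]
    nlinarith
  have hpm1 : ¬ p ∣ p ^ 2 + 1 := by
    intro h
    have h1 : p ∣ 1 := (Nat.dvd_add_right (dvd_pow_self p two_ne_zero)).1 h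
    have := Nat.le_of_dvd one_pos h1
    omega
  have hpass : ∀ m, p + 1 ≤ m → m < p ^ 2 + p + 1 → m ≠ p ^ 2 + 1 →
      Passable ρ τ (p ^ 2 - 1) m := by
    intro m h1 h2 h3
    by_cases h4 : ∃ i, 0 < i ∧ m = p * i ∧ p * i < i + (p ^ 2 - 1)
    · exact Or.inl h4
    · obtain ⟨ha, hb⟩ := not_modEq_of_level hp2 h1 (by omega) h3 h4
      exact Or.inr ⟨Q, hQρ, hnoroot m ha hb⟩
  have h1 : (u : resF p F) ^ (p ^ 2 + 1) = (u : resF p F) ^ 2 := by
    have h : p ^ 2 + 1 = (p ^ 2 - 1) + 2 := by omega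
    have h' : (u : resF p F) ^ (p ^ 2 - 1) = 1 := by
      rw [← hτ, ← Units.val_pow_eq_pow_val, pow_orderOf_eq_one, Units.val_one]
    rw [h, pow_add, h', one_mul]
  refine card_kumHom_le (m1 := p ^ 2 + 1) (mtop := p ^ 2 + p + 1) πu hπ he τ (by omega)
    (by omega) (by omega) hpm1 hm1 htop hpass 2 (by norm_num) ?_
  intro i j hij
  by_contra hne'
  have hij2 : ((i : ℕ) = 0 ∧ (j : ℕ) = 1) ∨ ((i : ℕ) = 1 ∧ (j : ℕ) = 0) := by
    have := i.2
    have := j.2
    have : (i : ℕ) ≠ j := fun h => hne' (Fin.ext h)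
    omega
  rcases hij2 with ⟨hi, hj⟩ | ⟨hi, hj⟩
  · simp only [← hu, hi, hj, h1, pow_zero, pow_one] at hij
    exact hne (by rw [hij, pow_mul])
  · simp only [← hu, hi, hj, h1, pow_zero, pow_one] at hij
    exact hne (by rw [← hij, pow_mul])

end Quadratic

end

end Fermat.Agent.TW.FLAT.LLCount9
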