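/-
Programme T (S56), chapter FLAT, brick (LL-COH), part 4 — helper3.

FINAL GLUE OF THE LOCAL-LOCAL COUNT: the cohomological side (`LLCoh3.card_Lflat_le`) composed with
the unit-side count (`LLCount9.card_kumHom_le_of_quadratic`, helper9) and the finiteness of
`Lˣ/(Lˣ)^p` (`PowIndexLoc4`, helper4).

* `finite_kumQuot`, `finite_KumHomSet`, `toKumHom` (+ injectivity): `LLCoh3.KumHomSet` is (a copy
  of) `LLCount9.KumHom` for `F = L`, `E = ℚ_p`;
* `card_dual_eq : #(A →+ 𝔽_p) = #A`, `pow_finrank_half_le`;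
* `card_KumHomSet_le : #KumHomSet L ρ (p+1) ≤ p ^ (finrank M / 2)` in the niveau-2 situation;
* **`card_Lflat_le_card : #Lflat ≤ #H⁰(ℚ_p, N₀) · #k`**.
-/
import Mathlib
import Fermat.Agent.TW.FLAT.LLCoh3
import Fermat.Agent.TW.FLAT.LLCount9
import Fermat.Agent.TW.LOC.PowIndexLoc4

set_option autoImplicit false
set_option linter.unusedSectionVars false
set_option linter.style.haveILetI false

open groupCohomology Polynomial
open scoped Fermat.Agent.PT.LOC.Interface12 Fermat.Agent.PT.LOC.StructureTower27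
open Fermat.Agent.PT.LOC.Interface12 Fermat.Agent.PT.LOC.Structure14
  Fermat.Agent.PT.LOC.Unram11 Fermat.Agent.TW.LOC.TameInertia4
open Fermat.Agent.PT.PRO.LevelCoh28 Fermat.Agent.PT.GLUE.Objects21
open Fermat.Agent.TW.LOC.Defs2 Fermat.Agent.TW.LOC.TameProfinite4
open Fermat.Agent.TW.FLAT.KummerDict3 Fermat.Agent.TW.FLAT.InfRes3
open Fermat.Agent.TW.FLAT.UnitFil9 Fermat.Agent.TW.FLAT.LLCoh3 Fermat.Agent.TW.FLAT.LLCount9

namespace Fermat.Agent.TW.FLAT.LLFinal3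

noncomputable section

variable {p : ℕ} [Fact p.Prime]
variable (L : IntermediateField ℚ_[p] (PadicAlgCl p)) [FiniteDimensional ℚ_[p] L]
  [IsGalois ℚ_[p] L]

/-- `Lˣ/(Lˣ)^p` is finite (`p` odd). -/
theorem finite_kumQuot (hp2 : p ≠ 2) : Finite ((↥L)ˣ ⧸ PthPow L) := by
  have h := Fermat.Agent.TW.LOC.PowIndexLoc4.index_powRange_qadic_ne_zero p ↥L
    (Fact.out : p.Prime) hp2
  haveI : (PthPow L).FiniteIndex := ⟨h⟩
  exact Subgroup.finite_quotient_of_finiteIndex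

variable {M : Type} [AddCommGroup M] [Module (ZMod p) M]
  (ρ : Representation (ZMod p) (↥L ≃ₐ[ℚ_[p]] ↥L) M)

theorem finite_KumHomSet [Finite M] (hp2 : p ≠ 2) (m0 : ℕ) : Finite (KumHomSet L ρ m0) := by
  haveI := finite_kumQuot L hp2
  haveI : Finite (Multiplicative M →* (↥L)ˣ ⧸ PthPow L) :=
    Finite.of_injective (fun f => (f : Multiplicative M → (↥L)ˣ ⧸ PthPow L))
      DFunLike.coe_injective
  exact Subtype.finite

/-- The comparison map to the Hom-set of `LLCount9`. -/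
def toKumHom (m0 : ℕ) (f : KumHomSet L ρ m0) : KumHom ρ m0 :=
  ⟨(f.1 : Multiplicative M →* KumQ p ↥L), (mem_kumSub_iff_lifts ρ _).2 f.2⟩

theorem toKumHom_injective (m0 : ℕ) : Function.Injective (toKumHom L ρ m0) := by
  intro f f' h
  apply Subtype.ext
  exact congrArg (fun z : KumHom ρ m0 => (z.1 : Multiplicative M →* KumQ p ↥L)) h


/-! ### Cardinality bookkeeping -/

theorem card_dual_eq {k : Type} [Field k] [CharP k p] {A : Type} [AddCommGroup A] [Module k A]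
    [Finite A] : Nat.card (A →+ ZMod p) = Nat.card A := by
  letI : Algebra (ZMod p) k := ZMod.algebra k p
  letI : Module (ZMod p) A := Module.compHom A (algebraMap (ZMod p) k)
  have e : (A →+ ZMod p) ≃ Module.Dual (ZMod p) A :=
    { toFun := fun f => AddMonoidHom.toZModLinearMap p f
      invFun := fun f => f.toAddMonoidHom
      left_inv := fun f => by ext; rfl
      right_inv := fun f => by ext; rfl }
  haveI : Module.Finite (ZMod p) A := Module.Finite.of_finite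
  rw [Nat.card_congr e, Module.natCard_eq_pow_finrank (K := ZMod p) (V := Module.Dual (ZMod p) A),
    Subspace.dual_finrank_eq, ← Module.natCard_eq_pow_finrank (K := ZMod p) (V := A)]

theorem pow_half_le {q f d : ℕ} (hq : 2 ≤ q) (h : q ^ f ≤ (q ^ d) ^ 2) : q ^ (f / 2) ≤ q ^ d := by
  rw [← pow_mul] at h
  have h1 : f ≤ d * 2 := (Nat.pow_le_pow_iff_right hq).1 h
  exact Nat.pow_le_pow_right (by omega) (by omega)

theorem pow_finrank_half_le {k : Type} [Field k] [Finite k] [CharP k p] {A : Type}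
    [AddCommGroup A] [Module k A] [Finite A] (hA : Nat.card A ≤ Nat.card k ^ 2) :
    p ^ (Module.finrank (ZMod p) (A →+ ZMod p) / 2) ≤ Nat.card k := by
  haveI : Fintype k := Fintype.ofFinite k
  obtain ⟨n, _, hn⟩ := FiniteField.card k p
  have hk : Nat.card k = p ^ (n : ℕ) := by rw [Nat.card_eq_fintype_card, hn]
  rw [hk] at hA ⊢
  haveI : Finite (A →+ ZMod p) :=
    Finite.of_injective (fun ν : A →+ ZMod p => (ν : A → ZMod p)) DFunLike.coe_injective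
  haveI : Module.Finite (ZMod p) (A →+ ZMod p) := Module.Finite.of_finite
  apply pow_half_le (Fact.out : p.Prime).two_le
  have h1 := Module.natCard_eq_pow_finrank (K := ZMod p) (V := (A →+ ZMod p))
  rw [Nat.card_zmod] at h1
  rw [← h1, card_dual_eq (k := k)]
  exact hA


/-! ### The unit-side count, for `KumHomSet` -/

theorem card_KumHomSet_le [Finite M] (hp2 : p ≠ 2) (πu : (↥L)ˣ)
    (hπ : IsUniformizer p ↥L (πu : ↥L))
    (he : snorm p ↥L ((p : ℕ) : ↥L) = snorm p ↥L (πu : ↥L) ^ (p ^ 2 - 1))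
    (τ : inertia p ℚ_[p] ↥L) (hτ : orderOf (theta0 p ℚ_[p] ↥L τ) = p ^ 2 - 1)
    (Q : (ZMod p)[X]) (hQdeg : Q.natDegree = 2)
    (hQρ : aeval (ρ (τ : ↥L ≃ₐ[ℚ_[p]] ↥L)) Q = 0) (φ : ZMod p →+* resF p ↥L)
    (hQt : Q.eval₂ φ (((theta0 p ℚ_[p] ↥L τ : (resF p ↥L)ˣ) : resF p ↥L) ^ 2) = 0) :
    Nat.card (KumHomSet L ρ (p + 1)) ≤ p ^ (Module.finrank (ZMod p) M / 2) := by
  have h := card_kumHom_le_of_quadratic (ρ := ρ) πu hπ he τ hτ Q hQdeg hQρ φ hQt
  rw [resCard_padic] at h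
  haveI : Finite (KumQ p ↥L) := finite_kumQuot L hp2
  haveI : Finite (Multiplicative M →* KumQ p ↥L) :=
    Finite.of_injective (fun f => (f : Multiplicative M → KumQ p ↥L)) DFunLike.coe_injective
  haveI : Finite (KumHom ρ (p + 1)) := Subtype.finite
  exact (Nat.card_le_card_of_injective _ (toKumHom_injective L ρ (p + 1))).trans h


/-! ### The final count -/

section Final

variable {k : Type} [Field k] [Finite k] [CharP k p]
variable {L} {ζ : PadicAlgCl p} {ω : Gq p →* (ZMod p)ˣ} {N N₀ N₁ : Rep.{0} k (Gq p)}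
  {pr₀ : N →ₗ[k] N₀} {pr₁ : N →ₗ[k] N₁}

/-- **The local-local count**: `#Lflat ≤ #H⁰(ℚ_p, N₀) · #k`.

`N → N₀ × N₁` an equivariant injection (weight `0` and weights `±1` components), `N₀` unramified,
finite, discrete, `#N₁ ≤ #k²`, `[L : ℚ_p]` invertible in `k`, `e(L/ℚ_p) = p² - 1`, `τ` an element of
the inertia group of `L/ℚ_p` whose tame character has exact order `p² - 1`, and a quadratic
polynomial `Q ∈ 𝔽_p[X]` killing both the action of `τ` on `Hom(N₁, 𝔽_p)(1)` and `θ₀(τ)²`. -/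
theorem card_Lflat_le_card (hp2 : p ≠ 2)
    (h₀ : ∀ g a, pr₀ (N.ρ g a) = N₀.ρ g (pr₀ a)) (h₁ : ∀ g a, pr₁ (N.ρ g a) = N₁.ρ g (pr₁ a))
    (D : KData L ζ ω N) (D₁ : KData L ζ ω N₁)
    (htriv₀ : ∀ v ∈ L.fixingSubgroup, N₀.ρ v = 1)
    (hunit : IsUnit ((L.fixingSubgroup.index : ℕ) : k))
    (hur₀ : IsUnramifiedRep p N₀) [Finite N₀] (hdisc₀ : IsDiscrete (levelLoc p).sets N₀)
    (hinj : ∀ n : N, pr₀ n = 0 → pr₁ n = 0 → n = 0)
    [Finite N₁] (hN₁ : Nat.card N₁ ≤ Nat.card k ^ 2)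
    (πu : (↥L)ˣ) (hπ : IsUniformizer p ↥L (πu : ↥L))
    (he : snorm p ↥L ((p : ℕ) : ↥L) = snorm p ↥L (πu : ↥L) ^ (p ^ 2 - 1))
    (τ : inertia p ℚ_[p] ↥L) (hτ : orderOf (theta0 p ℚ_[p] ↥L τ) = p ^ 2 - 1)
    (Q : (ZMod p)[X]) (hQdeg : Q.natDegree = 2)
    (hQρ : aeval (dualTwL N₁ ω L D₁.htriv D₁.hω (τ : ↥L ≃ₐ[ℚ_[p]] ↥L)) Q = 0)
    (φ : ZMod p →+* resF p ↥L)
    (hQt : Q.eval₂ φ (((theta0 p ℚ_[p] ↥L τ : (resF p ↥L)ˣ) : resF p ↥L) ^ 2) = 0) :
    Nat.card (Lflat L ζ pr₀ pr₁ D.hζ (Nat.succ_pos p)) ≤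
      Nat.card {n : N₀ // ∀ g : Gq p, N₀.ρ g n = n} * Nat.card k := by
  haveI : Finite (KumHomSet L (dualTwL N₁ ω L D₁.htriv D₁.hω) (p + 1)) :=
    finite_KumHomSet L _ hp2 _
  have h1 := card_Lflat_le h₀ h₁ D D₁ htriv₀ hunit hur₀ hdisc₀ hinj (Nat.succ_pos p)
  have h2 := card_KumHomSet_le L (dualTwL N₁ ω L D₁.htriv D₁.hω) hp2 πu hπ he τ hτ Q hQdeg hQρ φ hQt
  have h3 : p ^ (Module.finrank (ZMod p) (Dual N₁) / 2) ≤ Nat.card k :=
    pow_finrank_half_le (k := k) hN₁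
  exact h1.trans (Nat.mul_le_mul_left _ (h2.trans h3))

/-- The flat subspace is finite. -/
theorem finite_Lflat_of_odd (hp2 : p ≠ 2)
    (h₀ : ∀ g a, pr₀ (N.ρ g a) = N₀.ρ g (pr₀ a)) (h₁ : ∀ g a, pr₁ (N.ρ g a) = N₁.ρ g (pr₁ a))
    (D : KData L ζ ω N) (D₁ : KData L ζ ω N₁)
    (htriv₀ : ∀ v ∈ L.fixingSubgroup, N₀.ρ v = 1)
    (hunit : IsUnit ((L.fixingSubgroup.index : ℕ) : k))
    (hur₀ : IsUnramifiedRep p N₀) [Finite N₀] (hdisc₀ : IsDiscrete (levelLoc p).sets N₀)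
    (hinj : ∀ n : N, pr₀ n = 0 → pr₁ n = 0 → n = 0) [Finite N₁] {m0 : ℕ} (hm0 : 0 < m0) :
    Finite (Lflat L ζ pr₀ pr₁ D.hζ hm0) := by
  haveI : Finite (KumHomSet L (dualTwL N₁ ω L D₁.htriv D₁.hω) m0) :=
    finite_KumHomSet L _ hp2 _
  exact finite_Lflat h₀ h₁ D D₁ htriv₀ hunit hur₀ hdisc₀ hinj hm0

end Final

end

end Fermat.Agent.TW.FLAT.LLFinal3
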