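/-
Programme T (S56), chapter FLAT, brick (LL-COH), part 6 — helper3.

THE LOCAL-LOCAL COUNT FOR A MODULE WITH A TAME GENERATOR, AND FOR `ad⁰ ρ̄`.

`N : Rep k (Gq p)`, `g₀ ∈ Iq p` such that `Iq p` acts on `N` through the powers of `g₀`
(`IsCycGen N g₀`), `T = ρ(g₀)` with `(b T² - s T + b)(T - 1) = 0` (`AdWeights3.KillsAug`).

* `fixSub N g₀ = ker (T - 1)`, `augSub N g₀ = range (T - 1)`, both `Gq`-stable (`fixSub_stable`,
  `augSub_stable`); the quotient representations `N0 h = N / augSub` (weight `0`, unramified) and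
  `N1 h = N / fixSub` (weights `±1`), projections `pr0 h`, `pr1 h` (equivariant, jointly injective);
* `polyP_N1` (`b T² - s T + b = 0` on `N1`), `card_N1_le` (`#N1 ≤ #k²`), `card_inv_N0_le`
  (`#N0^{Gq} ≤ #N^{Gq}`), `aeval_dualTw_eq_zero` (`X² - s X + b²` kills `g₀` on `Hom(N1, 𝔽_p)(1)`);
* **`card_Lflat_le_of_gen`**: `#Lflat ≤ #N^{Gq} · #k`;
* `flatCond_iff`: `LLCoh3.FlatCond` for `pr0 h`, `pr1 h` in terms of `N` only:
  (F0) `c σ ∈ augSub N g₀` for `σ ∈ Iq ∩ Gal(Ω/L)`, (F1) `KumLe` for all `ν ∘ c`, `ν : N →+ 𝔽_p`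
  killing `fixSub N g₀`;
* **`card_Lflat_ad0_le`**: the case `N = Mq (ad0Rep rbar) p`, with the weight identity from
  `AdWeights3.conj_killsAug` and `a = tr ρ̄(g₀)`, `b = det ρ̄(g₀) = ω(g₀)`, `θ(g₀) = t` of order
  `p² - 1`, `a = t + t^p`, `b = t^(p+1)` in the residue field of `L`.
-/
import Mathlib
import Fermat.Agent.TW.FLAT.LLFinal3
import Fermat.Agent.TW.FLAT.AdWeights3
import Fermat.Agent.TW.DEF.Basic1

set_option autoImplicit false
set_option linter.unusedSectionVars false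
set_option linter.style.haveILetI false

open groupCohomology Polynomial
open scoped Fermat.Agent.PT.LOC.Interface12 Fermat.Agent.PT.LOC.StructureTower27
open Fermat.Agent.PT.LOC.Interface12 Fermat.Agent.PT.LOC.Structure14
  Fermat.Agent.PT.LOC.Unram11 Fermat.Agent.TW.LOC.TameInertia4
open Fermat.Agent.PT.PRO.LevelCoh28 Fermat.Agent.PT.GLUE.Objects21
open Fermat.Agent.TW.LOC.Defs2 Fermat.Agent.TW.LOC.TameProfinite4
open Fermat.Agent.TW.FLAT.KummerDict3 Fermat.Agent.TW.FLAT.InfRes3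
open Fermat.Agent.TW.FLAT.UnitFil9 Fermat.Agent.TW.FLAT.LLCoh3 Fermat.Agent.TW.FLAT.LLFinal3
open Fermat.Agent.TW.FLAT.AdWeights3
open Fermat.Agent.TW.DEF.Basic1 (GQ M2 Mq ad0Rep ad0Val ad0Val_injective rbar_mul_inv sl2 mem_sl2_iff
  finrank_sl2)

namespace Fermat.Agent.TW.FLAT.LLAd3

noncomputable section

variable {p : ℕ} [Fact p.Prime] {k : Type} [Field k]
variable (N : Rep.{0} k (Gq p)) (g₀ : Gq p)

/-! ### The weight decomposition attached to a tame generator -/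

/-- `ker (ρ g₀ - 1)`: the weight `0` part. -/
def fixSub : Submodule k N := LinearMap.ker (N.ρ g₀ - 1)

/-- `range (ρ g₀ - 1)`: the weights `≠ 0` part. -/
def augSub : Submodule k N := LinearMap.range (N.ρ g₀ - 1)

variable {N g₀}

theorem mem_fixSub {x : N} : x ∈ fixSub N g₀ ↔ N.ρ g₀ x = x := by
  rw [fixSub, LinearMap.mem_ker, LinearMap.sub_apply, Module.End.one_apply, sub_eq_zero]

theorem mem_augSub {x : N} : x ∈ augSub N g₀ ↔ ∃ y, x = N.ρ g₀ y - y := by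
  rw [augSub, LinearMap.mem_range]
  constructor
  · rintro ⟨y, rfl⟩
    exact ⟨y, rfl⟩
  · rintro ⟨y, rfl⟩
    exact ⟨y, rfl⟩

variable (N g₀)

/-- `g₀ ∈ Iq p` and `Iq p` acts on `N` through the powers of `g₀`. -/
def IsCycGen : Prop := g₀ ∈ Iq p ∧ ∀ σ ∈ Iq p, ∃ j : ℕ, N.ρ σ = (N.ρ g₀) ^ j

variable {N g₀}

theorem pow_apply_of_fixed {x : N} (hx : N.ρ g₀ x = x) (j : ℕ) : ((N.ρ g₀) ^ j) x = x := by
  induction j with
  | zero => rfl
  | succ j ih => rw [pow_succ, Module.End.mul_apply, hx, ih]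

theorem mem_fixSub_iff_Iq (h : IsCycGen N g₀) {x : N} :
    x ∈ fixSub N g₀ ↔ ∀ σ ∈ Iq p, N.ρ σ x = x := by
  rw [mem_fixSub]
  constructor
  · intro hx σ hσ
    obtain ⟨j, hj⟩ := h.2 σ hσ
    rw [hj, pow_apply_of_fixed hx]
  · intro hx
    exact hx g₀ h.1

theorem fixSub_stable (h : IsCycGen N g₀) (g : Gq p) :
    fixSub N g₀ ≤ (fixSub N g₀).comap (N.ρ g) := by
  intro x hx
  rw [Submodule.mem_comap, mem_fixSub_iff_Iq h]
  intro σ hσ
  have hmem : g⁻¹ * σ * g ∈ Iq p := by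
    have := (Iq_normal p).conj_mem σ hσ g⁻¹
    rwa [inv_inv] at this
  have h1 := (mem_fixSub_iff_Iq h).1 hx _ hmem
  have h2 : N.ρ σ (N.ρ g x) = N.ρ g (N.ρ (g⁻¹ * σ * g) x) := by
    rw [← Module.End.mul_apply, ← Module.End.mul_apply, ← map_mul, ← map_mul]
    congr 2
    group
  rw [h2, h1]

theorem pow_sub_mem_augSub (y : N) (j : ℕ) : ((N.ρ g₀) ^ j) y - y ∈ augSub N g₀ := by
  induction j with
  | zero => simp
  | succ j ih =>
    have e : ((N.ρ g₀) ^ (j + 1)) y - y =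
        (N.ρ g₀ (((N.ρ g₀) ^ j) y) - ((N.ρ g₀) ^ j) y) + (((N.ρ g₀) ^ j) y - y) := by
      rw [pow_succ', Module.End.mul_apply]
      abel
    rw [e]
    exact add_mem (mem_augSub.2 ⟨_, rfl⟩) ih

theorem sub_mem_augSub (h : IsCycGen N g₀) {σ : Gq p} (hσ : σ ∈ Iq p) (y : N) :
    N.ρ σ y - y ∈ augSub N g₀ := by
  obtain ⟨j, hj⟩ := h.2 σ hσ
  rw [hj]
  exact pow_sub_mem_augSub y j

theorem augSub_stable (h : IsCycGen N g₀) (g : Gq p) :
    augSub N g₀ ≤ (augSub N g₀).comap (N.ρ g) := by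
  intro x hx
  obtain ⟨y, rfl⟩ := mem_augSub.1 hx
  rw [Submodule.mem_comap]
  have hmem : g * g₀ * g⁻¹ ∈ Iq p := (Iq_normal p).conj_mem g₀ h.1 g
  have h2 : N.ρ g (N.ρ g₀ y - y) = N.ρ (g * g₀ * g⁻¹) (N.ρ g y) - N.ρ g y := by
    rw [map_sub, ← Module.End.mul_apply, ← Module.End.mul_apply, ← map_mul, ← map_mul]
    congr 3
    group
  rw [h2]
  exact sub_mem_augSub h hmem _


/-! ### The two quotient representations -/

section Quot

variable (h : IsCycGen N g₀)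

/-- The weight `0` quotient `N / range (ρ g₀ - 1)`. -/
def N0 : Rep.{0} k (Gq p) := Rep.of (N.ρ.quotient (augSub N g₀) (augSub_stable h))

/-- The weights `≠ 0` quotient `N / ker (ρ g₀ - 1)`. -/
def N1 : Rep.{0} k (Gq p) := Rep.of (N.ρ.quotient (fixSub N g₀) (fixSub_stable h))

/-- The projection `N → N0`. -/
def pr0 : N →ₗ[k] N0 h := (augSub N g₀).mkQ

/-- The projection `N → N1`. -/
def pr1 : N →ₗ[k] N1 h := (fixSub N g₀).mkQ

theorem pr0_equivariant (g : Gq p) (a : N) : pr0 h (N.ρ g a) = (N0 h).ρ g (pr0 h a) := rfl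

theorem pr1_equivariant (g : Gq p) (a : N) : pr1 h (N.ρ g a) = (N1 h).ρ g (pr1 h a) := rfl

theorem pr0_surjective : Function.Surjective (pr0 h) := Submodule.mkQ_surjective _

theorem pr1_surjective : Function.Surjective (pr1 h) := Submodule.mkQ_surjective _

theorem pr0_eq_zero_iff (x : N) : pr0 h x = 0 ↔ x ∈ augSub N g₀ :=
  Submodule.Quotient.mk_eq_zero _

theorem pr1_eq_zero_iff (x : N) : pr1 h x = 0 ↔ x ∈ fixSub N g₀ :=
  Submodule.Quotient.mk_eq_zero _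

theorem N0_unramified : IsUnramifiedRep p (N0 h) := by
  intro σ hσ
  ext x
  obtain ⟨y, rfl⟩ := pr0_surjective h x
  rw [← pr0_equivariant, Module.End.one_apply, ← sub_eq_zero, ← map_sub, pr0_eq_zero_iff]
  exact sub_mem_augSub h hσ y

theorem N0_trivial_of {V : Subgroup (Gq p)} (htriv : ∀ v ∈ V, N.ρ v = 1) :
    ∀ v ∈ V, (N0 h).ρ v = 1 := by
  intro v hv
  ext x
  obtain ⟨y, rfl⟩ := pr0_surjective h x
  rw [← pr0_equivariant, htriv v hv, Module.End.one_apply, Module.End.one_apply]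

theorem N1_trivial_of {V : Subgroup (Gq p)} (htriv : ∀ v ∈ V, N.ρ v = 1) :
    ∀ v ∈ V, (N1 h).ρ v = 1 := by
  intro v hv
  ext x
  obtain ⟨y, rfl⟩ := pr1_surjective h x
  rw [← pr1_equivariant, htriv v hv, Module.End.one_apply, Module.End.one_apply]

theorem N0_discrete (hdisc : IsDiscrete (levelLoc p).sets N) :
    IsDiscrete (levelLoc p).sets (N0 h) := by
  intro x
  obtain ⟨y, rfl⟩ := pr0_surjective h x
  obtain ⟨U, hU, hUy⟩ := hdisc y
  exact ⟨U, hU, fun s hs => by rw [← pr0_equivariant, hUy s hs]⟩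

instance [Finite N] : Finite (N0 h) := Finite.of_surjective _ (pr0_surjective h)

instance [Finite N] : Finite (N1 h) := Finite.of_surjective _ (pr1_surjective h)

end Quot


/-! ### Consequences of the weight identity -/

section Kills

variable (h : IsCycGen N g₀) {b s : k} (hk : KillsAug (N.ρ g₀) b s) (h1 : 2 * b - s ≠ 0)

include hk h1 in
theorem joint_injective (n : N) (hn0 : pr0 h n = 0) (hn1 : pr1 h n = 0) : n = 0 := by
  rw [pr0_eq_zero_iff] at hn0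
  rw [pr1_eq_zero_iff] at hn1
  exact hk.eq_zero_of_fixed_of_mem_range h1 (mem_fixSub.1 hn1) (mem_augSub.1 hn0)

include hk in
theorem polyP_N1 (x : N1 h) : polyP ((N1 h).ρ g₀) b s x = 0 := by
  obtain ⟨y, rfl⟩ := pr1_surjective h x
  have e : polyP ((N1 h).ρ g₀) b s (pr1 h y) = pr1 h (polyP (N.ρ g₀) b s y) := by
    simp only [polyP, map_add, map_sub, map_smul, pr1_equivariant]
  rw [e, pr1_eq_zero_iff, mem_fixSub]
  exact hk.fixed y

theorem card_N1_le [Finite N] [Finite k] (hfix : ∃ x : N, x ≠ 0 ∧ N.ρ g₀ x = x)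
    (hcard : Nat.card N ≤ Nat.card k ^ 3) : Nat.card (N1 h) ≤ Nat.card k ^ 2 := by
  obtain ⟨x, hx0, hx⟩ := hfix
  have hinj : Function.Injective (fun c : k => (⟨c • x, by
      rw [mem_fixSub, map_smul, hx]⟩ : fixSub N g₀)) := by
    intro c c' hcc
    have h2 : c • x = c' • x := congrArg Subtype.val hcc
    have h3 : (c - c') • x = 0 := by rw [sub_smul, h2, sub_self]
    exact sub_eq_zero.1 ((smul_eq_zero.1 h3).resolve_right hx0)
  have hk1 : Nat.card k ≤ Nat.card (fixSub N g₀) := Nat.card_le_card_of_injective _ hinj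
  have hmul : Nat.card N = Nat.card (N ⧸ fixSub N g₀) * Nat.card (fixSub N g₀) :=
    (Submodule.card_eq_card_quotient_mul_card (fixSub N g₀)).trans (Nat.mul_comm _ _)
  have hkpos : 0 < Nat.card k := Nat.card_pos
  have h4 : Nat.card (N ⧸ fixSub N g₀) * Nat.card k ≤ Nat.card k ^ 2 * Nat.card k := by
    calc Nat.card (N ⧸ fixSub N g₀) * Nat.card k
        ≤ Nat.card (N ⧸ fixSub N g₀) * Nat.card (fixSub N g₀) := Nat.mul_le_mul_left _ hk1
      _ = Nat.card N := hmul.symm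
      _ ≤ Nat.card k ^ 3 := hcard
      _ = Nat.card k ^ 2 * Nat.card k := by ring
  exact Nat.le_of_mul_le_mul_right h4 hkpos

include hk h1 in
theorem card_inv_N0_le [Finite N] :
    Nat.card {n : N0 h // ∀ g : Gq p, (N0 h).ρ g n = n} ≤
      Nat.card {n : N // ∀ g : Gq p, N.ρ g n = n} := by
  let f : {n : N // ∀ g : Gq p, N.ρ g n = n} → {n : N0 h // ∀ g : Gq p, (N0 h).ρ g n = n} :=
    fun n => ⟨pr0 h n.1, fun g => by rw [← pr0_equivariant, n.2 g]⟩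
  refine Nat.card_le_card_of_surjective f ?_
  rintro ⟨x, hx⟩
  obtain ⟨y, rfl⟩ := pr0_surjective h x
  obtain ⟨x₀, z, hx₀, hy⟩ := hk.exists_decomp h1 y
  have hpr : pr0 h y = pr0 h x₀ := by
    rw [hy, map_add, (pr0_eq_zero_iff h _).2 (mem_augSub.2 ⟨z, rfl⟩), add_zero]
  have hinv : ∀ g : Gq p, N.ρ g x₀ = x₀ := by
    intro g
    have h2 : N.ρ g x₀ - x₀ ∈ augSub N g₀ := by
      rw [← pr0_eq_zero_iff h, map_sub, pr0_equivariant, ← hpr, hx g, sub_self]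
    have h3 : N.ρ g x₀ - x₀ ∈ fixSub N g₀ :=
      sub_mem (fixSub_stable h g (mem_fixSub.2 hx₀)) (mem_fixSub.2 hx₀)
    exact sub_eq_zero.1
      (hk.eq_zero_of_fixed_of_mem_range h1 (mem_fixSub.1 h3) (mem_augSub.1 h2))
  exact ⟨⟨x₀, hinv⟩, Subtype.ext hpr.symm⟩

end Kills


/-! ### The quadratic polynomial killing the twisted dual -/

section DualPoly

variable [CharP k p] (M : Rep.{0} k (Gq p)) (ω : Gq p →* (ZMod p)ˣ) (g : Gq p) (b₀ s₀ : ZMod p)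

theorem dual_smul (ν : Dual M) (c : ZMod p) (x : M) :
    ν ((ZMod.castHom (dvd_refl p) k c) • x) = c * ν x := by
  have hc : ((c.val : ℕ) : ZMod p) = c := ZMod.natCast_zmod_val c
  conv_lhs => rw [← hc, map_natCast, Nat.cast_smul_eq_nsmul, map_nsmul, nsmul_eq_mul, hc]

theorem inv_apply_apply (x : M) : M.ρ g (M.ρ g⁻¹ x) = x := by
  rw [← Module.End.mul_apply, ← map_mul, mul_inv_cancel, map_one, Module.End.one_apply]

/-- If `b T² - s T + b = 0` for `T = ρ(g)` on `M` and `ω(g) = b`, then `X² - s X + b²` kills the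
action of `g` on the twisted dual `Hom(M, 𝔽_p)(1)`. -/
theorem aeval_dualTw_eq_zero (hω : ((ω g : (ZMod p)ˣ) : ZMod p) = b₀)
    (hP : ∀ x : M, polyP (M.ρ g) (ZMod.castHom (dvd_refl p) k b₀)
      (ZMod.castHom (dvd_refl p) k s₀) x = 0) :
    aeval (dualTw M ω g) (X ^ 2 - C s₀ * X + C (b₀ ^ 2) : (ZMod p)[X]) = 0 := by
  ext ν x
  simp only [map_add, map_sub, map_mul, map_pow, aeval_X, aeval_C, LinearMap.add_apply,
    LinearMap.sub_apply, Module.End.mul_apply, Module.algebraMap_end_apply, pow_two,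
    LinearMap.zero_apply, AddMonoidHom.add_apply, AddMonoidHom.sub_apply,
    AddMonoidHom.zero_apply, dualTw_apply, hω, AddMonoidHom.coe_smul, Pi.smul_apply, smul_eq_mul]
  set y : M := M.ρ g⁻¹ (M.ρ g⁻¹ x) with hy
  have h1 : M.ρ g y = M.ρ g⁻¹ x := inv_apply_apply M g _
  have h2 : M.ρ g (M.ρ g y) = x := by rw [h1, inv_apply_apply]
  have h3 := congrArg ν (hP y)
  rw [polyP, h2, h1, map_zero, map_add, map_sub, dual_smul, dual_smul, dual_smul] at h3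
  linear_combination b₀ * h3

end DualPoly


/-! ### The count for a module with a tame generator -/

section Count

variable [Finite k] [CharP k p]
variable {L : IntermediateField ℚ_[p] (PadicAlgCl p)} [FiniteDimensional ℚ_[p] L]
  [IsGalois ℚ_[p] L] {ζ : PadicAlgCl p} {ω : Gq p →* (ZMod p)ˣ}

theorem natDegree_quad (b₀ s₀ : ZMod p) :
    (X ^ 2 - C s₀ * X + C (b₀ ^ 2) : (ZMod p)[X]).natDegree = 2 := by
  compute_degree!

/-- **The local-local count for a module with a tame generator `g₀`.**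
`Lflat` is taken with respect to the two quotients `N → N/range(ρ g₀ - 1)` (weight `0`) and
`N → N/ker(ρ g₀ - 1)` (weights `±1`). -/
theorem card_Lflat_le_of_gen (hp2 : p ≠ 2) (h : IsCycGen N g₀) (D : KData L ζ ω N)
    (hunit : IsUnit ((L.fixingSubgroup.index : ℕ) : k)) [Finite N]
    (hdisc : IsDiscrete (levelLoc p).sets N) (b₀ s₀ : ZMod p)
    (hk : KillsAug (N.ρ g₀) (ZMod.castHom (dvd_refl p) k b₀) (ZMod.castHom (dvd_refl p) k s₀))
    (h1 : 2 * ZMod.castHom (dvd_refl p) k b₀ - ZMod.castHom (dvd_refl p) k s₀ ≠ 0)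
    (hfix : ∃ x : N, x ≠ 0 ∧ N.ρ g₀ x = x) (hcard : Nat.card N ≤ Nat.card k ^ 3)
    (hω : ((ω g₀ : (ZMod p)ˣ) : ZMod p) = b₀)
    (πu : (↥L)ˣ) (hπ : IsUniformizer p ↥L (πu : ↥L))
    (he : snorm p ↥L ((p : ℕ) : ↥L) = snorm p ↥L (πu : ↥L) ^ (p ^ 2 - 1))
    (hτ : orderOf (thetaL p L ⟨g₀, h.1⟩) = p ^ 2 - 1)
    (φ : ZMod p →+* resF p ↥L)
    (hφs : φ s₀ = ((thetaL p L ⟨g₀, h.1⟩ : (resF p ↥L)ˣ) : resF p ↥L) ^ 2 +
      ((thetaL p L ⟨g₀, h.1⟩ : (resF p ↥L)ˣ) : resF p ↥L) ^ (2 * p))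
    (hφb : φ b₀ = ((thetaL p L ⟨g₀, h.1⟩ : (resF p ↥L)ˣ) : resF p ↥L) ^ (p + 1)) :
    Nat.card (Lflat L ζ (pr0 h) (pr1 h) D.hζ (Nat.succ_pos p)) ≤
      Nat.card {n : N // ∀ g : Gq p, N.ρ g n = n} * Nat.card k := by
  have D₁ : KData L ζ ω (N1 h) := ⟨D.hζ, D.hne, D.hζL, D.hωζ, N1_trivial_of h D.htriv⟩
  have hQρ : aeval (dualTwL (N1 h) ω L D₁.htriv D₁.hω
      ((resI p L ⟨g₀, h.1⟩ : inertia p ℚ_[p] ↥L) : ↥L ≃ₐ[ℚ_[p]] ↥L))
      (X ^ 2 - C s₀ * X + C (b₀ ^ 2) : (ZMod p)[X]) = 0 := by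
    rw [coe_resI]
    change aeval (dualTwL (N1 h) ω L D₁.htriv D₁.hω (resL p L g₀)) _ = 0
    rw [dualTwL_resL]
    exact aeval_dualTw_eq_zero (N1 h) ω g₀ b₀ s₀ hω (polyP_N1 h hk)
  have hQt : (X ^ 2 - C s₀ * X + C (b₀ ^ 2) : (ZMod p)[X]).eval₂ φ
      (((theta0 p ℚ_[p] ↥L (resI p L ⟨g₀, h.1⟩) : (resF p ↥L)ˣ) : resF p ↥L) ^ 2) = 0 := by
    change (X ^ 2 - C s₀ * X + C (b₀ ^ 2) : (ZMod p)[X]).eval₂ φ
      (((thetaL p L ⟨g₀, h.1⟩ : (resF p ↥L)ˣ) : resF p ↥L) ^ 2) = 0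
    simp only [eval₂_add, eval₂_sub, eval₂_mul, eval₂_pow, eval₂_X, eval₂_C, map_pow]
    rw [hφs, hφb]
    ring
  have hmain := card_Lflat_le_card (pr₀ := pr0 h) (pr₁ := pr1 h) hp2 (pr0_equivariant h)
    (pr1_equivariant h) D D₁ (N0_trivial_of h D.htriv) hunit (N0_unramified h)
    (N0_discrete h hdisc) (joint_injective h hk h1) (card_N1_le h hfix hcard) πu hπ he
    (resI p L ⟨g₀, h.1⟩) hτ _ (natDegree_quad b₀ s₀) hQρ φ hQt
  exact hmain.trans (Nat.mul_le_mul_right _ (card_inv_N0_le h hk h1))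

/-- Finiteness of `Lflat` for a module with a tame generator. -/
theorem finite_Lflat_of_gen (hp2 : p ≠ 2) (h : IsCycGen N g₀) (D : KData L ζ ω N)
    (hunit : IsUnit ((L.fixingSubgroup.index : ℕ) : k)) [Finite N]
    (hdisc : IsDiscrete (levelLoc p).sets N) {b s : k}
    (hk : KillsAug (N.ρ g₀) b s) (h1 : 2 * b - s ≠ 0) {m0 : ℕ} (hm0 : 0 < m0) :
    Finite (Lflat L ζ (pr0 h) (pr1 h) D.hζ hm0) := by
  have D₁ : KData L ζ ω (N1 h) := ⟨D.hζ, D.hne, D.hζL, D.hωζ, N1_trivial_of h D.htriv⟩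
  exact finite_Lflat_of_odd (pr₀ := pr0 h) (pr₁ := pr1 h) hp2 (pr0_equivariant h)
    (pr1_equivariant h) D D₁ (N0_trivial_of h D.htriv) hunit (N0_unramified h)
    (N0_discrete h hdisc) (joint_injective h hk h1) hm0

end Count


/-! ### The flat condition in submodule language -/

section Reformulation

variable (L : IntermediateField ℚ_[p] (PadicAlgCl p)) [FiniteDimensional ℚ_[p] L]
  [IsGalois ℚ_[p] L] (ζ : PadicAlgCl p)

/-- `FlatCond` for the two quotient projections, in terms of `N` only: (F0) `c σ ∈ range(ρ g₀ - 1)`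
for `σ ∈ Iq ∩ Gal(Ω/L)`; (F1) Kummer level `≤ ϖ ^ m0` for all `ν ∘ c`, `ν : N →+ 𝔽_p` vanishing on
`ker(ρ g₀ - 1)`. -/
theorem flatCond_iff (h : IsCycGen N g₀) (m0 : ℕ) (c : Gq p → N) :
    FlatCond L ζ (pr0 h) (pr1 h) m0 c ↔
      (∀ σ ∈ Iq p, σ ∈ L.fixingSubgroup → c σ ∈ augSub N g₀) ∧
      ∀ ν : N →+ ZMod p, (∀ n ∈ fixSub N g₀, ν n = 0) →
        KumLe L ζ (unifNorm p ↥L ^ m0) (fun g => ν (c g)) := by
  constructor
  · rintro ⟨hF0, hF1⟩
    refine ⟨fun σ hσ hσ' => (pr0_eq_zero_iff h _).1 (hF0 σ hσ hσ'), fun ν hν => ?_⟩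
    let νbar : Dual (N1 h) :=
      QuotientAddGroup.lift (fixSub N g₀).toAddSubgroup ν (fun n hn => hν n hn)
    exact hF1 νbar
  · rintro ⟨hF0, hF1⟩
    refine ⟨fun σ hσ hσ' => (pr0_eq_zero_iff h _).2 (hF0 σ hσ hσ'), fun ν => ?_⟩
    exact hF1 (ν.comp (pr1 h).toAddMonoidHom) (fun n hn => by
      change ν (pr1 h n) = 0
      rw [(pr1_eq_zero_iff h n).2 hn, map_zero])

end Reformulation


/-! ### The case `N = ad⁰ ρ̄` -/

section Ad0

variable [Finite k] [CharP k p] (rbar : GQ →* M2 k)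
variable {L : IntermediateField ℚ_[p] (PadicAlgCl p)} [FiniteDimensional ℚ_[p] L]
  [IsGalois ℚ_[p] L] {ζ : PadicAlgCl p} {ω : Gq p →* (ZMod p)ˣ}

theorem ad0_val_ρ (g : Gq p) (X : Mq (ad0Rep rbar) p) :
    ad0Val rbar ((Mq (ad0Rep rbar) p).ρ g X) =
      rbar (rq p g) * ad0Val rbar X * rbar (rq p g)⁻¹ := rfl

theorem ad0_killsAug (g : Gq p) :
    KillsAug ((Mq (ad0Rep rbar) p).ρ g) (rbar (rq p g)).det
      ((rbar (rq p g)).trace ^ 2 - 2 * (rbar (rq p g)).det) := by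
  intro X
  apply ad0Val_injective rbar
  have h := conj_killsAug (rbar (rq p g)) (rbar (rq p g)⁻¹) (ad0Val rbar X) (rbar_mul_inv rbar _)
  exact h

theorem card_ad0 : Nat.card (Mq (ad0Rep rbar) p) = Nat.card k ^ 3 := by
  have h := Module.natCard_eq_pow_finrank (K := k) (V := ↥(sl2 k))
  rw [finrank_sl2] at h
  exact h

theorem ad0_exists_fixed (g : Gq p) (h2 : (2 : k) ≠ 0)
    (hdisc : (rbar (rq p g)).trace ^ 2 - 4 * (rbar (rq p g)).det ≠ 0) :
    ∃ x : Mq (ad0Rep rbar) p, x ≠ 0 ∧ (Mq (ad0Rep rbar) p).ρ g x = x := by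
  obtain ⟨X, hX0, hXne, hXfix⟩ :=
    exists_fixed (rbar (rq p g)) (rbar (rq p g)⁻¹) (rbar_mul_inv rbar _) h2 hdisc
  refine ⟨⟨X, (mem_sl2_iff X).2 hX0⟩, fun h0 => hXne (congrArg Subtype.val h0), ?_⟩
  apply ad0Val_injective rbar
  rw [ad0_val_ρ]
  exact hXfix

theorem two_ne_zero_of_char (hp2 : p ≠ 2) : (2 : k) ≠ 0 := by
  intro h
  have h' : ((2 : ℕ) : k) = 0 := by exact_mod_cast h
  rw [CharP.cast_eq_zero_iff k p] at h'
  have := (Nat.prime_dvd_prime_iff_eq (Fact.out : p.Prime) Nat.prime_two).1 h'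
  exact hp2 this

/-- A unit of order `p² - 1` is not fixed by `x ↦ x ^ p`. -/
theorem ne_pow_of_orderOf {R : Type*} [CommRing R] (u : Rˣ) (hu : orderOf u = p ^ 2 - 1) :
    (u : R) ≠ (u : R) ^ p := by
  intro h
  have hp := (Fact.out : p.Prime)
  have h1 : u ^ (p - 1) = 1 := by
    have h2 : u = u ^ p := Units.ext (by rw [Units.val_pow_eq_pow_val]; exact h)
    have h3 : u ^ p = u ^ (p - 1) * u := by
      rw [← pow_succ, Nat.sub_add_cancel hp.one_le]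
    rw [h3] at h2
    exact (mul_eq_right.1 h2.symm)
  have h4 := orderOf_dvd_of_pow_eq_one h1
  rw [hu] at h4
  have h5 : p ^ 2 - 1 ≤ p - 1 := Nat.le_of_dvd (Nat.sub_pos_of_lt hp.one_lt) h4
  have h6 : p < p ^ 2 := by
    rw [pow_two]
    exact lt_mul_of_one_lt_left hp.pos hp.one_lt
  have h7 := hp.one_lt
  generalize p ^ 2 = P at h5 h6
  omega

/-- **The local-local count for `ad⁰ ρ̄`.** -/
theorem card_Lflat_ad0_le (hp2 : p ≠ 2) (g₀ : Gq p) (h : IsCycGen (Mq (ad0Rep rbar) p) g₀)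
    (D : KData L ζ ω (Mq (ad0Rep rbar) p))
    (hunit : IsUnit ((L.fixingSubgroup.index : ℕ) : k))
    (hdisc : IsDiscrete (levelLoc p).sets (Mq (ad0Rep rbar) p)) (a₀ b₀ : ZMod p)
    (ha : (rbar (rq p g₀)).trace = ZMod.castHom (dvd_refl p) k a₀)
    (hb : (rbar (rq p g₀)).det = ZMod.castHom (dvd_refl p) k b₀)
    (hω : ((ω g₀ : (ZMod p)ˣ) : ZMod p) = b₀)
    (πu : (↥L)ˣ) (hπ : IsUniformizer p ↥L (πu : ↥L))
    (he : snorm p ↥L ((p : ℕ) : ↥L) = snorm p ↥L (πu : ↥L) ^ (p ^ 2 - 1))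
    (hτ : orderOf (thetaL p L ⟨g₀, h.1⟩) = p ^ 2 - 1)
    (φ : ZMod p →+* resF p ↥L)
    (hφa : φ a₀ = ((thetaL p L ⟨g₀, h.1⟩ : (resF p ↥L)ˣ) : resF p ↥L) +
      ((thetaL p L ⟨g₀, h.1⟩ : (resF p ↥L)ˣ) : resF p ↥L) ^ p)
    (hφb : φ b₀ = ((thetaL p L ⟨g₀, h.1⟩ : (resF p ↥L)ˣ) : resF p ↥L) ^ (p + 1)) :
    Nat.card (Lflat L ζ (pr0 h) (pr1 h) D.hζ (Nat.succ_pos p)) ≤
      Nat.card {n : Mq (ad0Rep rbar) p // ∀ g : Gq p, (Mq (ad0Rep rbar) p).ρ g n = n} *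
        Nat.card k := by
  set t : resF p ↥L := ((thetaL p L ⟨g₀, h.1⟩ : (resF p ↥L)ˣ) : resF p ↥L) with ht
  set ι : ZMod p →+* k := ZMod.castHom (dvd_refl p) k with hι
  -- the discriminant
  have hdisc₀ : a₀ ^ 2 - 4 * b₀ ≠ 0 := by
    intro h0
    have h1 := congrArg φ h0
    rw [map_sub, map_pow, map_mul, hφa, hφb, map_zero, map_ofNat] at h1
    have h2 : (t - t ^ p) ^ 2 = 0 := by
      rw [← h1]
      ring
    have h3 : t = t ^ p := sub_eq_zero.1 ((pow_eq_zero_iff (two_ne_zero)).1 h2)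
    exact ne_pow_of_orderOf _ hτ h3
  have hdisck : ι (a₀ ^ 2 - 4 * b₀) ≠ 0 := fun h0 =>
    hdisc₀ ((map_eq_zero_iff ι ι.injective).1 h0)
  have hs : (rbar (rq p g₀)).trace ^ 2 - 2 * (rbar (rq p g₀)).det = ι (a₀ ^ 2 - 2 * b₀) := by
    rw [ha, hb, map_sub, map_pow, map_mul, map_ofNat]
  have hk : KillsAug ((Mq (ad0Rep rbar) p).ρ g₀) (ι b₀) (ι (a₀ ^ 2 - 2 * b₀)) := by
    have := ad0_killsAug (p := p) rbar g₀
    rwa [hs, hb] at this
  have h1 : 2 * ι b₀ - ι (a₀ ^ 2 - 2 * b₀) ≠ 0 := by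
    intro h0
    apply hdisck
    rw [map_sub, map_pow, map_mul, map_ofNat] at h0 ⊢
    linear_combination -h0
  have hfix := ad0_exists_fixed (p := p) rbar g₀ (two_ne_zero_of_char hp2) (by
    rw [ha, hb]
    rw [map_sub, map_pow, map_mul, map_ofNat] at hdisck
    exact hdisck)
  refine card_Lflat_le_of_gen hp2 h D hunit hdisc b₀ (a₀ ^ 2 - 2 * b₀) hk h1 hfix
    (card_ad0 rbar).le hω πu hπ he hτ φ ?_ hφb
  rw [map_sub, map_pow, map_mul, map_ofNat, hφa, hφb]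
  ring

end Ad0

end

end Fermat.Agent.TW.FLAT.LLAd3
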