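/-
Programme T (S56), chapter FLAT, brick (LL-COH), part 7 — helper3.

THE LOCAL-LOCAL PACKAGE AT `p`, modulo the structure data (S-STRUCT).

* `LLStruct p rbar` — (S-STRUCT): `L/ℚ_p` finite Galois trivialising `ρ̄|G_p`, `ζ_p ∈ L`,
  `[L:ℚ_p]` prime to `p`, `e(L/ℚ_p) = p² - 1`, a tame generator `g₀ ∈ Iq p` with
  `t = θ_L(g₀)` of exact order `p² - 1`, `ρ̄(Iq) ⊆ ⟨ρ̄(g₀)⟩`, `tr ρ̄(g₀) = t + t^p`,
  `det ρ̄(g₀) = t^(p+1) = ω(g₀)` (to be produced from flatness + the local-local hypothesis);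
* `LpLL S : Submodule k (Hq1 (ad0Rep rbar) p)` (= `LLCoh3.Lflat` for the two weight quotients of
  `LLAd3`), **`mem_LpLL`** (membership criterion (F0) ∧ (F1) in terms of `ad⁰ ρ̄` only),
  **`finite_LpLL`**, **`card_LpLL_le : #LpLL ≤ #k · #H⁰(ℚ_p, ad⁰ ρ̄)`**.
-/
import Mathlib
import Fermat.Agent.TW.FLAT.LLAd3

set_option autoImplicit false
set_option linter.unusedSectionVars false
set_option linter.style.haveILetI false

open groupCohomology Polynomial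
open scoped Fermat.Agent.PT.LOC.Interface12 Fermat.Agent.PT.LOC.StructureTower27
open Fermat.Agent.PT.LOC.Interface12 Fermat.Agent.PT.LOC.Structure14
  Fermat.Agent.PT.LOC.Unram11 Fermat.Agent.TW.LOC.TameInertia4
open Fermat.Agent.PT.PRO.LevelCoh28 Fermat.Agent.PT.GLUE.Objects21
open Fermat.Agent.TW.LOC.Defs2 Fermat.Agent.TW.LOC.TameProfinite4
open Fermat.Agent.TW.FLAT.KummerDict3 Fermat.Agent.TW.FLAT.InfRes3
open Fermat.Agent.TW.FLAT.UnitFil9 Fermat.Agent.TW.FLAT.LLCoh3 Fermat.Agent.TW.FLAT.LLFinal3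
open Fermat.Agent.TW.FLAT.AdWeights3 Fermat.Agent.TW.FLAT.LLAd3
open Fermat.Agent.TW.DEF.Basic1 (GQ M2 Mq Hq1 ad0Rep ad0Val ad0Val_injective rbar_mul_inv sl2
  mem_sl2_iff finrank_sl2)

namespace Fermat.Agent.TW.FLAT.LLPackage3

noncomputable section

variable (p : ℕ) [Fact p.Prime] {k : Type} [Field k] [CharP k p]

/-- **(S-STRUCT)**: the structure of a local-local (niveau 2) residual representation at `p`.
`L/ℚ_p` finite Galois trivialising `ρ̄|G_p` and containing `ζ_p`, of degree prime to `p` and absolute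
ramification index `p² - 1`; a tame generator `g₀ ∈ Iq p` whose tame character `t = θ_L(g₀)` has
exact order `p² - 1`; `ρ̄(Iq) ⊆ ⟨ρ̄(g₀)⟩`; `tr ρ̄(g₀) = t + t^p`, `det ρ̄(g₀) = t^(p+1) = ω(g₀)`. -/
structure LLStruct (rbar : GQ →* M2 k) where
  L : IntermediateField ℚ_[p] (PadicAlgCl p)
  [fd : FiniteDimensional ℚ_[p] L]
  [gal : IsGalois ℚ_[p] L]
  ζ : PadicAlgCl p
  ω : Gq p →* (ZMod p)ˣ
  g₀ : Gq p
  hg₀ : g₀ ∈ Iq p
  a₀ : ZMod p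
  b₀ : ZMod p
  πu : (↥L)ˣ
  φ : ZMod p →+* resF p ↥L
  hζ : ζ ^ p = 1
  hne : ζ ≠ 1
  hζL : ζ ∈ L
  hωζ : ∀ g : Gq p, g ζ = ζ ^ ((ω g : (ZMod p)ˣ) : ZMod p).val
  htriv : ∀ v ∈ L.fixingSubgroup, rbar (rq p v) = 1
  hunit : IsUnit ((L.fixingSubgroup.index : ℕ) : k)
  hcyc : ∀ σ ∈ Iq p, ∃ j : ℕ, rbar (rq p σ) = rbar (rq p g₀) ^ j
  htr : (rbar (rq p g₀)).trace = ZMod.castHom (dvd_refl p) k a₀
  hdet : (rbar (rq p g₀)).det = ZMod.castHom (dvd_refl p) k b₀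
  hω : ((ω g₀ : (ZMod p)ˣ) : ZMod p) = b₀
  hπ : IsUniformizer p ↥L (πu : ↥L)
  he : snorm p ↥L ((p : ℕ) : ↥L) = snorm p ↥L (πu : ↥L) ^ (p ^ 2 - 1)
  hord : orderOf (thetaL p L ⟨g₀, hg₀⟩) = p ^ 2 - 1
  hφa : φ a₀ = ((thetaL p L ⟨g₀, hg₀⟩ : (resF p ↥L)ˣ) : resF p ↥L) +
    ((thetaL p L ⟨g₀, hg₀⟩ : (resF p ↥L)ˣ) : resF p ↥L) ^ p
  hφb : φ b₀ = ((thetaL p L ⟨g₀, hg₀⟩ : (resF p ↥L)ˣ) : resF p ↥L) ^ (p + 1)


variable {p}

section Derived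

variable {rbar : GQ →* M2 k} (S : LLStruct p rbar)

attribute [instance] LLStruct.fd LLStruct.gal

theorem rbar_inv_eq_of_eq {g g' : GQ} (h : rbar g = rbar g') : rbar g⁻¹ = rbar g'⁻¹ := by
  calc rbar g⁻¹ = rbar g⁻¹ * (rbar g' * rbar g'⁻¹) := by rw [rbar_mul_inv, mul_one]
    _ = rbar g⁻¹ * rbar g * rbar g'⁻¹ := by rw [← h, mul_assoc]
    _ = rbar g'⁻¹ := by
      rw [← map_mul, inv_mul_cancel, map_one, one_mul]

theorem ad0_ρ_eq_of_eq {σ σ' : Gq p} (h : rbar (rq p σ) = rbar (rq p σ')) :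
    (Mq (ad0Rep rbar) p).ρ σ = (Mq (ad0Rep rbar) p).ρ σ' := by
  ext X : 1
  apply ad0Val_injective rbar
  have e1 : ad0Val rbar ((Mq (ad0Rep rbar) p).ρ σ X) =
      rbar (rq p σ) * ad0Val rbar X * rbar (rq p σ)⁻¹ := rfl
  have e2 : ad0Val rbar ((Mq (ad0Rep rbar) p).ρ σ' X) =
      rbar (rq p σ') * ad0Val rbar X * rbar (rq p σ')⁻¹ := rfl
  rw [e1, e2, h, rbar_inv_eq_of_eq h]

theorem ad0_ρ_eq_one_of_eq_one {σ : Gq p} (h : rbar (rq p σ) = 1) :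
    (Mq (ad0Rep rbar) p).ρ σ = 1 := by
  have h1 : rbar (rq p σ) = rbar (rq p 1) := by rw [h, map_one, map_one]
  rw [ad0_ρ_eq_of_eq h1, map_one]

theorem LLStruct.isCycGen : IsCycGen (Mq (ad0Rep rbar) p) S.g₀ := by
  refine ⟨S.hg₀, fun σ hσ => ?_⟩
  obtain ⟨j, hj⟩ := S.hcyc σ hσ
  refine ⟨j, ?_⟩
  have h1 : rbar (rq p σ) = rbar (rq p (S.g₀ ^ j)) := by rw [hj, map_pow, map_pow]
  rw [ad0_ρ_eq_of_eq h1, map_pow]

theorem LLStruct.kdata : KData S.L S.ζ S.ω (Mq (ad0Rep rbar) p) :=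
  ⟨S.hζ, S.hne, S.hζL, S.hωζ, fun v hv => ad0_ρ_eq_one_of_eq_one (S.htriv v hv)⟩

theorem isDiscrete_ad0 (hlevbar : ∃ U ∈ (levelLoc p).sets, ∀ s ∈ U, rbar (rq p s) = 1) :
    IsDiscrete (levelLoc p).sets (Mq (ad0Rep rbar) p) := by
  obtain ⟨U, hU, h⟩ := hlevbar
  intro X
  refine ⟨U, hU, fun s hs => ?_⟩
  rw [ad0_ρ_eq_one_of_eq_one (h s hs), Module.End.one_apply]

end Derived


/-! ### The local condition `Lp` in the local-local case -/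

section Package

variable [Finite k] {rbar : GQ →* M2 k} (S : LLStruct p rbar)

/-- **The local-local condition at `p`**: the flat subspace of `H¹(ℚ_p, ad⁰ ρ̄)` attached to the
structure data `S`. -/
def LpLL : Submodule k (Hq1 (ad0Rep rbar) p) :=
  Lflat S.L S.ζ (pr0 S.isCycGen) (pr1 S.isCycGen) S.hζ (Nat.succ_pos p)

/-- Membership criterion, in terms of `ad⁰ ρ̄` only: a level cocycle `c` with
(F0) `c σ ∈ range (Ad ρ̄(g₀) - 1)` for `σ ∈ Iq ∩ Gal(Ω/L)` and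
(F1) Kummer level `≤ ϖ_L ^ (p+1)` for every `ν ∘ c`, `ν : ad⁰ →+ 𝔽_p` killing `ker (Ad ρ̄(g₀) - 1)`,
has its class in `LpLL S`. -/
theorem mem_LpLL (c : ↥(Z1 (levelLoc p) (Mq (ad0Rep rbar) p)))
    (hF0 : ∀ σ ∈ Iq p, σ ∈ S.L.fixingSubgroup →
      (c : Gq p → Mq (ad0Rep rbar) p) σ ∈ augSub (Mq (ad0Rep rbar) p) S.g₀)
    (hF1 : ∀ ν : (Mq (ad0Rep rbar) p) →+ ZMod p,
      (∀ n ∈ fixSub (Mq (ad0Rep rbar) p) S.g₀, ν n = 0) →
        KumLe S.L S.ζ (unifNorm p ↥S.L ^ (p + 1))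
          (fun g => ν ((c : Gq p → Mq (ad0Rep rbar) p) g))) :
    H1mk (levelLoc p) (Mq (ad0Rep rbar) p) c ∈ LpLL S :=
  ⟨c, rfl, (flatCond_iff S.L S.ζ S.isCycGen (p + 1) _).2 ⟨hF0, hF1⟩⟩

theorem two_b_sub_ne (hp2 : p ≠ 2) :
    2 * ZMod.castHom (dvd_refl p) k S.b₀ - ZMod.castHom (dvd_refl p) k (S.a₀ ^ 2 - 2 * S.b₀) ≠ 0 := by
  set t : resF p ↥S.L := ((thetaL p S.L ⟨S.g₀, S.hg₀⟩ : (resF p ↥S.L)ˣ) : resF p ↥S.L) with ht
  have hdisc₀ : S.a₀ ^ 2 - 4 * S.b₀ ≠ 0 := by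
    intro h0
    have h1 := congrArg S.φ h0
    rw [map_sub, map_pow, map_mul, S.hφa, S.hφb, map_zero, map_ofNat] at h1
    have h2 : (t - t ^ p) ^ 2 = 0 := by
      rw [← h1]
      ring
    have h3 : t = t ^ p := sub_eq_zero.1 ((pow_eq_zero_iff (two_ne_zero)).1 h2)
    exact ne_pow_of_orderOf _ S.hord h3
  intro h0
  apply hdisc₀
  apply (ZMod.castHom (dvd_refl p) k).injective
  rw [map_zero, map_sub, map_pow, map_mul, map_ofNat]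
  rw [map_sub, map_pow, map_mul, map_ofNat] at h0
  linear_combination -h0

theorem killsAug_struct :
    KillsAug ((Mq (ad0Rep rbar) p).ρ S.g₀) (ZMod.castHom (dvd_refl p) k S.b₀)
      (ZMod.castHom (dvd_refl p) k (S.a₀ ^ 2 - 2 * S.b₀)) := by
  have := ad0_killsAug (p := p) rbar S.g₀
  rwa [S.htr, S.hdet, ← map_pow, ← map_ofNat (ZMod.castHom (dvd_refl p) k) 2, ← map_mul,
    ← map_sub] at this

theorem finite_LpLL (hp2 : p ≠ 2)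
    (hlevbar : ∃ U ∈ (levelLoc p).sets, ∀ s ∈ U, rbar (rq p s) = 1) : Finite (LpLL S) := by
  haveI : Finite (Mq (ad0Rep rbar) p) := by
    have : Finite ↥(sl2 k) := inferInstance
    exact this
  exact finite_Lflat_of_gen hp2 S.isCycGen S.kdata S.hunit (isDiscrete_ad0 hlevbar)
    (killsAug_struct S) (two_b_sub_ne S hp2) (Nat.succ_pos p)

/-- **The local-local count**: `#LpLL ≤ #k · #H⁰(ℚ_p, ad⁰ ρ̄)`. -/
theorem card_LpLL_le (hp2 : p ≠ 2)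
    (hlevbar : ∃ U ∈ (levelLoc p).sets, ∀ s ∈ U, rbar (rq p s) = 1) :
    Nat.card (LpLL S) ≤ Nat.card k * Nat.card ↥(Mq (ad0Rep rbar) p).ρ.invariants := by
  have h := card_Lflat_ad0_le rbar hp2 S.g₀ S.isCycGen S.kdata S.hunit (isDiscrete_ad0 hlevbar)
    S.a₀ S.b₀ S.htr S.hdet S.hω S.πu S.hπ S.he S.hord S.φ S.hφa S.hφb
  rw [Nat.mul_comm]
  exact h

end Package

end

end Fermat.Agent.TW.FLAT.LLPackage3
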