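/-
Programme T (S56), chapter T/FLAT, local-local chain (lead): **(F1')** — the Kummer level of the
matrix entries of the cocycle of a flat lift, in a basis diagonalising the tame generator.

`S : LLStruct p rbar` (helper3's structure), `P * P' = 1`, `P' * rbar(g₀) * P = diagonal lam`,
`r` a lift of `rbar` to the dual numbers whose restriction to `Gq p` has a flat model, and
`centry rbar r P P' i j g = (P' * liftCocycle rbar r (rq p g) * P) i j`.

* algebra: `comp2`, `eq_top_of_comp2_stable`, `pairMap μ₀ lam : k →+ 𝔽_p × 𝔽_p`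
  (`x ↦ (μ₀ x, μ₀ (lam x))`), surjective with kernel stable under `lam` when `lam` is a root of an
  irreducible quadratic over `𝔽_p`;
* `pairEquiv`, `hasFlatModel_pairs`: `k[ε]² ≃ k² × k²`, compatible with flat models;
* facts from an `LLStruct`: `piΩ`, `norm_piΩ`, `norm_le_piΩ`, `norm_piΩ_pow`, `isPrimitiveRoot_ζ`,
  `exists_level_le`, `no_root`, `exists_pow_eq`;
* `colV`, `rowF`: column vectors / row functionals of the basis;
* **`kumLe_entry_core`**: `FlatRam0.exists_ram_of_flat` + `RamBridge0.kumLe_of_ram_ll`, with the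
  orbit bound as a parameter;
* **`kumLe_entry`**: all `μ₀ ∘ c_{ij}` have Kummer level `≥ p + 1`;
* **`kumLe_entry_fine`, `kumLe_entry_fine'`**: if `μ₀` is injective on the values of `c_{ij}` on
  `Gal(Ω/L)`, the Kummer level is `≥ p² + 1` (in particular `≥ p + 2`).
-/
import Mathlib
import Fermat.Agent.TW.FLAT.FlatRam0
import Fermat.Agent.TW.FLAT.RamBridge0
import Fermat.Agent.TW.FLAT.LLPackage3
import Fermat.Agent.TW.DEF.LiftCocycle1

set_option autoImplicit false
set_option linter.unusedSectionVars false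
set_option linter.style.haveILetI false

open Fermat.Agent.PT.LOC.Structure14
  Fermat.Agent.PT.LOC.StructureNorm14
  Fermat.Agent.PT.LOC.Unram11 Fermat.Agent.TW.LOC.TameInertia4
open Fermat.Agent.PT.PRO.LevelCoh28 Fermat.Agent.PT.GLUE.Objects21
open Fermat.Agent.TW.LOC.Defs2 Fermat.Agent.TW.LOC.TameProfinite4
open Fermat.Agent.TW.FLAT.KummerDict3
open Fermat.Agent.TW.FLAT.UnitFil9 Fermat.Agent.TW.FLAT.LLPackage3
open Fermat.Agent.TW.DEF.Basic1 (GQ M2)
open Fermat.Agent.TW.FLAT.Points6 Fermat.Agent.TW.DEF.LiftCocycle1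
  Fermat.Agent.TW.FLAT.FlatRam0

namespace Fermat.Agent.TW.FLAT.FlatCondLL0

noncomputable section


section Algebra

variable {p : ℕ} [Fact p.Prime]

/-- The companion operator of `X² - a X + b` on `𝔽_p²`. -/
def comp2 (a b : ZMod p) (y : ZMod p × ZMod p) : ZMod p × ZMod p := (y.2, a * y.2 - b * y.1)

/-- A nonzero additive subgroup of `𝔽_p²` stable under the companion operator of an irreducible
quadratic is everything. -/
theorem eq_top_of_comp2_stable (a b : ZMod p) (hirr : ∀ x : ZMod p, x ^ 2 - a * x + b ≠ 0)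
    (N : AddSubgroup (ZMod p × ZMod p)) (hN : ∀ y ∈ N, comp2 a b y ∈ N) (hne : N ≠ ⊥) : N = ⊤ := by
  have hsm : ∀ (u : ZMod p) (y : ZMod p × ZMod p), y ∈ N → u • y ∈ N := by
    intro u y hy
    have : u • y = u.val • y := by
      rw [← Nat.cast_smul_eq_nsmul (ZMod p), ZMod.natCast_zmod_val]
    rw [this]
    exact N.nsmul_mem hy _
  obtain ⟨n, hn, hn0⟩ : ∃ n ∈ N, n ≠ 0 := by
    by_contra h
    push Not at h
    exact hne ((AddSubgroup.eq_bot_iff_forall N).2 h)
  have hTn := hN n hn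
  set D : ZMod p := n.1 * (a * n.2 - b * n.1) - n.2 * n.2 with hD
  have hD0 : D ≠ 0 := by
    by_cases h1 : n.1 = 0
    · have h2 : n.2 ≠ 0 := by
        intro h2
        exact hn0 (Prod.ext h1 h2)
      rw [hD, h1]
      simp only [zero_mul, zero_sub, ne_eq, neg_eq_zero, mul_self_eq_zero]
      exact h2
    · intro h0
      apply hirr (n.2 / n.1)
      have : (n.2 / n.1) ^ 2 - a * (n.2 / n.1) + b = -D / (n.1 ^ 2) := by
        rw [hD]
        field_simp
        ring
      rw [this, h0, neg_zero, zero_div]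
  rw [eq_top_iff]
  intro y _
  have : y = ((y.1 * (a * n.2 - b * n.1) - y.2 * n.2) / D) • n +
      ((n.1 * y.2 - n.2 * y.1) / D) • comp2 a b n := by
    apply Prod.ext
    · simp only [comp2, Prod.fst_add, Prod.smul_fst, smul_eq_mul]
      field_simp
      rw [hD]
      ring
    · simp only [comp2, Prod.snd_add, Prod.smul_snd, smul_eq_mul]
      field_simp
      rw [hD]
      ring
  rw [this]
  exact N.add_mem (hsm _ _ hn) (hsm _ _ hTn)

end Algebra

section PairMap

variable {p : ℕ} [Fact p.Prime] {k : Type} [Field k] [CharP k p]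

/-- The prime field inside `k`. -/
abbrev cst (c : ZMod p) : k := ZMod.castHom (dvd_refl p) k c

theorem map_cst_mul (μ₀ : k →+ ZMod p) (c : ZMod p) (x : k) :
    μ₀ (cst c * x) = c * μ₀ x := by
  have h1 : (cst c : k) = ((c.val : ℕ) : k) := by
    rw [cst, ZMod.castHom_apply, ZMod.natCast_val]
  rw [h1, ← nsmul_eq_mul, map_nsmul, nsmul_eq_mul, ZMod.natCast_zmod_val]

/-- `x ↦ (μ₀ x, μ₀ (λ x))`. -/
def pairMap (μ₀ : k →+ ZMod p) (lam : k) : k →+ ZMod p × ZMod p :=
  μ₀.prod (μ₀.comp (AddMonoidHom.mulLeft lam))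

@[simp] theorem pairMap_apply (μ₀ : k →+ ZMod p) (lam x : k) :
    pairMap μ₀ lam x = (μ₀ x, μ₀ (lam * x)) := rfl

variable {μ₀ : k →+ ZMod p} {lam : k} {a b : ZMod p}

theorem pairMap_mul (hlam : lam ^ 2 = cst a * lam - cst b) (x : k) :
    pairMap μ₀ lam (lam * x) = comp2 a b (pairMap μ₀ lam x) := by
  rw [pairMap_apply, pairMap_apply, comp2]
  apply Prod.ext
  · rfl
  · change μ₀ (lam * (lam * x)) = a * μ₀ (lam * x) - b * μ₀ x
    have : lam * (lam * x) = cst a * (lam * x) - cst b * x := by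
      rw [← mul_assoc, ← pow_two, hlam]
      ring
    rw [this, map_sub, map_cst_mul, map_cst_mul]

theorem pairMap_pow_mem (hlam : lam ^ 2 = cst a * lam - cst b)
    (N : AddSubgroup (ZMod p × ZMod p)) (hN : ∀ y ∈ N, comp2 a b y ∈ N) (n : ℕ) (x : k)
    (hx : pairMap μ₀ lam x ∈ N) : pairMap μ₀ lam (lam ^ n * x) ∈ N := by
  induction n with
  | zero => simpa using hx
  | succ n ih =>
    rw [pow_succ', mul_assoc, pairMap_mul hlam]
    exact hN _ ih

theorem pairMap_pow_eq_zero (hlam : lam ^ 2 = cst a * lam - cst b) (n : ℕ) (x : k)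
    (hx : pairMap μ₀ lam x = 0) : pairMap μ₀ lam (lam ^ n * x) = 0 := by
  have := pairMap_pow_mem (μ₀ := μ₀) hlam ⊥ (fun y hy => by
    rw [AddSubgroup.mem_bot] at hy ⊢
    rw [hy, comp2]
    simp) n x (by rw [AddSubgroup.mem_bot]; exact hx)
  rwa [AddSubgroup.mem_bot] at this

theorem pairMap_surjective (hirr : ∀ x : ZMod p, x ^ 2 - a * x + b ≠ 0)
    (hlam : lam ^ 2 = cst a * lam - cst b) (hμ₀ : μ₀ ≠ 0) :
    Function.Surjective (pairMap μ₀ lam) := by
  have h1 : (pairMap μ₀ lam).range = ⊤ := by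
    apply eq_top_of_comp2_stable a b hirr
    · rintro _ ⟨x, rfl⟩
      exact ⟨lam * x, pairMap_mul hlam x⟩
    · intro h
      apply hμ₀
      ext x
      have : pairMap μ₀ lam x ∈ (pairMap μ₀ lam).range := ⟨x, rfl⟩
      rw [h, AddSubgroup.mem_bot] at this
      exact congrArg Prod.fst this
  intro y
  have : y ∈ (pairMap μ₀ lam).range := by rw [h1]; trivial
  exact this

end PairMap


section Pairs

variable {k : Type} [Field k]

/-- `k[ε]² ≃ k² × k²`. -/
def pairEquiv : (Fin 2 → DualNumber k) ≃+ ((Fin 2 → k) × (Fin 2 → k)) where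
  toFun v := (fun i => (v i).fst, fun i => (v i).snd)
  invFun m := fun i => (m.1 i, m.2 i)
  left_inv v := by
    funext i
    rfl
  right_inv m := rfl
  map_add' v w := rfl

theorem pairEquiv_mulVec (A : M2 (DualNumber k)) (v : Fin 2 → DualNumber k) :
    pairEquiv (A.mulVec v) =
      ((fstM A).mulVec (pairEquiv v).1,
        (fstM A).mulVec (pairEquiv v).2 + (sndM A).mulVec (pairEquiv v).1) := by
  apply Prod.ext
  · funext i
    change (A.mulVec v i).fst = (fstM A).mulVec (fun i => (v i).fst) i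
    simp only [Matrix.mulVec, dotProduct, Fin.sum_univ_two, fstM_apply, TrivSqZeroExt.fst_add,
      TrivSqZeroExt.fst_mul]
  · funext i
    change (A.mulVec v i).snd = ((fstM A).mulVec (fun i => (v i).snd) +
      (sndM A).mulVec (fun i => (v i).fst)) i
    simp only [Matrix.mulVec, dotProduct, Fin.sum_univ_two, fstM_apply, sndM_apply,
      TrivSqZeroExt.snd_add, TrivSqZeroExt.snd_mul, Pi.add_apply, smul_eq_mul,
      MulOpposite.smul_eq_mul_unop, MulOpposite.unop_op]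
    ring

variable {R : Type} [CommRing R] {Ω : Type} [CommRing Ω] [Algebra R Ω]
  {Γ : Type} [Monoid Γ] [MulSemiringAction Γ Ω] [SMulCommClass Γ R Ω]

theorem hasFlatModel_pairs (r : Γ → M2 (DualNumber k))
    (h : HasFlatModel R Ω Γ (Fin 2 → DualNumber k) (fun τ v => (r τ).mulVec v)) :
    HasFlatModel R Ω Γ ((Fin 2 → k) × (Fin 2 → k)) (fun τ m =>
      ((fstM (r τ)).mulVec m.1, (fstM (r τ)).mulVec m.2 + (sndM (r τ)).mulVec m.1)) :=
  h.of_addEquiv pairEquiv (fun τ v => pairEquiv_mulVec (r τ) v)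

end Pairs


section Struct

open scoped Fermat.Agent.PT.LOC.Interface12 Fermat.Agent.PT.LOC.StructureTower27
open Fermat.Agent.PT.LOC.Interface12

variable {p : ℕ} [Fact p.Prime] {k : Type} [Field k] [CharP k p] {rbar : GQ →* M2 k}
  (S : LLStruct p rbar)

attribute [local instance] LLStruct.fd LLStruct.gal

/-- The uniformizer of `L` inside `Ω`. -/
def piΩ : PadicAlgCl p := ((S.πu : ↥S.L) : PadicAlgCl p)

theorem piΩ_mem : piΩ S ∈ S.L := (S.πu : ↥S.L).2

theorem norm_piΩ : ‖piΩ S‖ = unifNorm p ↥S.L := by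
  rw [← snorm_uniformizer S.hπ, snorm_eq_norm]
  rfl

theorem piΩ_ne_zero : piΩ S ≠ 0 := by
  rw [← norm_pos_iff, norm_piΩ]
  exact unifNorm_pos

theorem norm_piΩ_lt_one : ‖piΩ S‖ < 1 := by
  rw [norm_piΩ]
  exact unifNorm_lt_one

theorem norm_le_piΩ (x : PadicAlgCl p) (hx : x ∈ S.L) (h1 : ‖x‖ < 1) : ‖x‖ ≤ ‖piΩ S‖ := by
  by_cases hx0 : x = 0
  · rw [hx0, norm_zero]; exact norm_nonneg _
  have hxpos : 0 < ‖x‖ := norm_pos_iff.2 hx0
  have hπpos : 0 < ‖piΩ S‖ := norm_pos_iff.2 (piΩ_ne_zero S)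
  obtain ⟨-, -, -, h4⟩ := S.hπ
  have h5 := h4 ⟨x, hx⟩ (by
    rw [mem_intRing_iff]
    change snorm p ↥S.L _ ≤ 1
    rw [snorm_eq_norm]; exact h1.le) (by
    rw [mem_intRing_iff]
    change ¬ snorm p ↥S.L _ ≤ 1
    rw [snorm_eq_norm, not_le]
    change 1 < ‖x⁻¹‖
    rw [norm_inv]
    exact (one_lt_inv₀ hxpos).2 h1)
  rw [mem_intRing_iff] at h5
  change snorm p ↥S.L _ ≤ 1 at h5
  rw [snorm_eq_norm] at h5
  change ‖x * (piΩ S)⁻¹‖ ≤ 1 at h5
  rwa [norm_mul, norm_inv, ← div_eq_mul_inv, div_le_one hπpos] at h5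

theorem norm_piΩ_pow : ‖piΩ S‖ ^ (p ^ 2 - 1) = ‖((p : ℕ) : PadicAlgCl p)‖ := by
  have h := S.he
  rw [snorm_eq_norm, snorm_eq_norm] at h
  change ‖((S.πu : ↥S.L) : PadicAlgCl p)‖ ^ (p ^ 2 - 1) = _
  rw [← h]
  simp

theorem isPrimitiveRoot_ζ : IsPrimitiveRoot S.ζ p := by
  have hp : p.Prime := Fact.out
  have h1 : orderOf S.ζ ∣ p := orderOf_dvd_of_pow_eq_one S.hζ
  have h2 : orderOf S.ζ ≠ 1 := by
    rw [Ne, orderOf_eq_one_iff]
    exact S.hne
  have h3 : orderOf S.ζ = p := by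
    rcases (Nat.dvd_prime hp).1 h1 with h | h
    · exact absurd h h2
    · exact h
  have h4 := IsPrimitiveRoot.orderOf S.ζ
  exact ⟨S.hζ, fun l hl => h3 ▸ h4.dvd_of_pow_eq_one l hl⟩

theorem exists_level_le : ∃ U ∈ (levelLoc p).sets, U ≤ S.L.fixingSubgroup := by
  obtain ⟨F, hF, hle⟩ := Fermat.Agent.PT.BR.LocInj13.exists_le_localField p S.L
  refine ⟨F.fixingSubgroup.comap (localGaloisToGlobal p), ⟨_, ⟨F, hF, rfl⟩, rfl⟩, ?_⟩
  intro τ hτ
  rw [Subgroup.mem_comap, ← Fermat.Agent.PT.BR.LocInj13.mem_fixingSubgroup_localField_iff] at hτ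
  exact IntermediateField.fixingSubgroup_antitone hle hτ

theorem no_root (x : ZMod p) : x ^ 2 - S.a₀ * x + S.b₀ ≠ 0 := by
  intro h0
  set t : resF p ↥S.L := ((thetaL p S.L ⟨S.g₀, S.hg₀⟩ : (resF p ↥S.L)ˣ) : resF p ↥S.L) with ht
  have h1 := congrArg S.φ h0
  rw [map_add, map_sub, map_pow, map_mul, S.hφa, S.hφb, map_zero] at h1
  have h2 : (S.φ x - t) * (S.φ x - t ^ p) = 0 := by
    rw [← h1]; ring
  have h3 : S.φ x ^ p = S.φ x := by rw [← map_pow, ZMod.pow_card]
  have hne : t ≠ t ^ p := Fermat.Agent.TW.FLAT.LLAd3.ne_pow_of_orderOf _ S.hord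
  have hp : p.Prime := Fact.out
  rcases mul_eq_zero.1 h2 with h | h
  · have h4 : S.φ x = t := sub_eq_zero.1 h
    rw [h4] at h3
    exact hne h3.symm
  · have h4 : S.φ x = t ^ p := sub_eq_zero.1 h
    rw [h4] at h3
    -- `t ^ (p^2) = t`
    have h5 : t ^ (p ^ 2 - 1) = 1 := by
      have := pow_orderOf_eq_one (thetaL p S.L ⟨S.g₀, S.hg₀⟩)
      rw [S.hord] at this
      have h6 := congrArg (fun u : (resF p ↥S.L)ˣ => (u : resF p ↥S.L)) this
      rw [ht]
      rw [← Units.val_pow_eq_pow_val]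
      exact h6.trans Units.val_one
    have h7 : t ^ (p ^ 2) = t := by
      have : p ^ 2 = (p ^ 2 - 1) + 1 := (Nat.sub_add_cancel (Nat.one_le_pow _ _ hp.pos)).symm
      rw [this, pow_succ, h5, one_mul]
    have h8 : (t ^ p) ^ p = t ^ (p ^ 2) := by rw [← pow_mul, pow_two]
    rw [h8, h7] at h3
    exact hne h3

instance normal_fixingSubgroup_LL : (S.L.fixingSubgroup).Normal := fixingSubgroup_normal

theorem exists_pow_eq (σ : Gq p) (hσ : σ ∈ S.L.fixingSubgroup ⊔ Iq p) :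
    ∃ n : ℕ, rbar (rq p σ) = rbar (rq p S.g₀) ^ n := by
  obtain ⟨v, hv, i, hi, rfl⟩ := Subgroup.mem_sup_of_normal_left.1 hσ
  obtain ⟨n, hn⟩ := S.hcyc i hi
  refine ⟨n, ?_⟩
  rw [map_mul, map_mul, S.htriv v hv, one_mul, hn]

end Struct

/-! ### Diagonalisation -/

section Diag

variable {k : Type} [Field k] (P P' A : M2 k) (lam : Fin 2 → k)

theorem P'_mul_P (hPP' : P * P' = 1) : P' * P = 1 := mul_eq_one_comm.1 hPP'

theorem conj_pow_eq (hPP' : P * P' = 1) (hdiag : P' * A * P = Matrix.diagonal lam) (n : ℕ) :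
    P' * A ^ n * P = Matrix.diagonal (fun i => lam i ^ n) := by
  have hP'P := P'_mul_P P P' hPP'
  induction n with
  | zero => simp [hP'P]
  | succ n ih =>
    have : P' * A ^ (n + 1) * P = (P' * A ^ n * P) * (P' * A * P) := by
      rw [pow_succ]
      calc P' * (A ^ n * A) * P = P' * A ^ n * (1 : M2 k) * A * P := by
            simp only [mul_one, mul_assoc]
        _ = P' * A ^ n * (P * P') * A * P := by rw [hPP']
        _ = (P' * A ^ n * P) * (P' * A * P) := by simp only [mul_assoc]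
    rw [this, ih, hdiag, Matrix.diagonal_mul_diagonal]
    congr 1
    funext i
    rw [pow_succ]

theorem mul_P_eq (hPP' : P * P' = 1) {B : M2 k} {d : Fin 2 → k}
    (h : P' * B * P = Matrix.diagonal d) : B * P = P * Matrix.diagonal d := by
  rw [← h, ← mul_assoc, ← mul_assoc, hPP', one_mul]

theorem P'_mul_eq (hPP' : P * P' = 1) {B : M2 k} {d : Fin 2 → k}
    (h : P' * B * P = Matrix.diagonal d) : P' * B = Matrix.diagonal d * P' := by
  rw [← h, mul_assoc, mul_assoc, hPP', mul_one]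

theorem trace_eq (hPP' : P * P' = 1) (hdiag : P' * A * P = Matrix.diagonal lam) :
    lam 0 + lam 1 = A.trace := by
  have h1 : (P' * A * P).trace = A.trace := by
    rw [Matrix.trace_mul_comm, ← mul_assoc, hPP', one_mul]
  rw [← h1, hdiag, Matrix.trace_diagonal, Fin.sum_univ_two]

theorem det_eq (hPP' : P * P' = 1) (hdiag : P' * A * P = Matrix.diagonal lam) :
    lam 0 * lam 1 = A.det := by
  have h1 : (P' * A * P).det = A.det := by
    rw [Matrix.det_mul, Matrix.det_mul, mul_comm, ← mul_assoc, ← Matrix.det_mul, hPP',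
      Matrix.det_one, one_mul]
  rw [← h1, hdiag, Matrix.det_diagonal, Fin.prod_univ_two]

theorem lam_sq (hPP' : P * P' = 1) (hdiag : P' * A * P = Matrix.diagonal lam) (i : Fin 2) :
    lam i ^ 2 = A.trace * lam i - A.det := by
  rw [← trace_eq P P' A lam hPP' hdiag, ← det_eq P P' A lam hPP' hdiag]
  fin_cases i <;> simp <;> ring

end Diag


section Entry

variable {k : Type} [Field k] (P P' : M2 k)

/-- Column `j` of `P`. -/
def colV (j : Fin 2) : Fin 2 → k := fun a => P a j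

/-- `w ↦ (P' w)_i`. -/
def rowF (i : Fin 2) : (Fin 2 → k) →ₗ[k] k := (LinearMap.proj i).comp (Matrix.mulVecLin P')

theorem rowF_apply (i : Fin 2) (w : Fin 2 → k) : rowF P' i w = (P'.mulVec w) i := rfl

theorem mulVec_colV (X : M2 k) (j : Fin 2) : X.mulVec (colV P j) = colV (X * P) j := by
  funext a
  simp [colV, Matrix.mulVec, dotProduct, Matrix.mul_apply]

theorem rowF_colV (X : M2 k) (i j : Fin 2) : rowF P' i (colV X j) = (P' * X) i j := by
  simp [rowF_apply, colV, Matrix.mulVec, dotProduct, Matrix.mul_apply]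

theorem rowF_mulVec_colV (X : M2 k) (i j : Fin 2) :
    rowF P' i (X.mulVec (colV P j)) = (P' * X * P) i j := by
  rw [mulVec_colV, rowF_colV, mul_assoc]

theorem colV_mul_diagonal (d : Fin 2 → k) (j : Fin 2) :
    colV (P * Matrix.diagonal d) j = d j • colV P j := by
  funext a
  simp [colV, Matrix.mul_diagonal, mul_comm]

theorem rowF_diagonal_mul (d : Fin 2 → k) (i : Fin 2) (w : Fin 2 → k) :
    rowF (Matrix.diagonal d * P') i w = d i * rowF P' i w := by
  rw [rowF_apply, rowF_apply, ← Matrix.mulVec_mulVec, Matrix.mulVec_diagonal]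

theorem colV_ne_zero (hP'P : P' * P = 1) (j : Fin 2) : colV P j ≠ 0 := by
  intro h
  have h1 : rowF P' j (colV P j) = 1 := by
    rw [rowF_colV, hP'P, Matrix.one_apply_eq]
  rw [h, map_zero] at h1
  exact zero_ne_one h1

theorem rowF_ne_zero (hP'P : P' * P = 1) (i : Fin 2) : rowF P' i ≠ 0 := by
  intro h
  have h1 : rowF P' i (colV P i) = 1 := by
    rw [rowF_colV, hP'P, Matrix.one_apply_eq]
  rw [h, LinearMap.zero_apply] at h1
  exact zero_ne_one h1

end Entry

section Main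

variable {p : ℕ} [Fact p.Prime] {k : Type} [Field k] [CharP k p] {rbar : GQ →* M2 k}
  (S : LLStruct p rbar) {P P' : M2 k} {lam : Fin 2 → k}
  {r : GQ →* M2 (DualNumber k)}

attribute [local instance] LLStruct.fd LLStruct.gal

/-- The `(i, j)` entry of the cocycle of the lift `r` in the basis `P`. -/
def centry (rbar : GQ →* M2 k) (r : GQ →* M2 (DualNumber k)) (P P' : M2 k) (i j : Fin 2)
    (g : Gq p) : k :=
  (P' * liftCocycle rbar r (rq p g) * P) i j

theorem centry_mul (hr : IsLiftOf rbar r) (i j : Fin 2) {v v' : Gq p}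
    (hv : v ∈ S.L.fixingSubgroup) :
    centry rbar r P P' i j (v * v') = centry rbar r P P' i j v + centry rbar r P P' i j v' := by
  unfold centry
  rw [map_mul, liftCocycle_mul hr]
  have h1 : rbar (rq p v) = 1 := S.htriv v hv
  have h2 : rbar (rq p v)⁻¹ = 1 := by
    have := S.htriv v⁻¹ (inv_mem hv)
    rwa [map_inv] at this
  rw [h1, h2, one_mul, mul_one, Matrix.mul_add, Matrix.add_mul, Matrix.add_apply, add_comm]

theorem centry_level (hr : IsLiftOf rbar r)
    (hlev : ∃ U ∈ (levelLoc p).sets, ∀ s ∈ U, r (rq p s) = 1) (i j : Fin 2) :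
    IsLevel₁ (levelLoc p).sets (centry rbar r P P' i j) := by
  obtain ⟨U, hU, h1⟩ := hlev
  refine ⟨U, hU, fun g s hs => ?_⟩
  unfold centry
  rw [map_mul, liftCocycle_mul_right hr (h1 s hs)]

theorem centry_one (i j : Fin 2) : centry (p := p) rbar r P P' i j 1 = 0 := by
  unfold centry
  rw [map_one]
  unfold liftCocycle
  rw [map_one, sndM_one, zero_mul, mul_zero, zero_mul, Matrix.zero_apply]

theorem centry_inv (hr : IsLiftOf rbar r) (i j : Fin 2) {v : Gq p}
    (hv : v ∈ S.L.fixingSubgroup) :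
    centry rbar r P P' i j v⁻¹ = -centry rbar r P P' i j v := by
  have h := centry_mul S (P := P) (P' := P') hr i j (v' := v) (inv_mem hv)
  rw [inv_mul_cancel, centry_one] at h
  exact eq_neg_of_add_eq_zero_left h.symm

/-- **Core**: Kummer level of the characters `μ₀ ∘ c_{ij}` of a flat lift, with the orbit bound as a
parameter. -/
theorem kumLe_entry_core (hPP' : P * P' = 1)
    (hdiag : P' * rbar (rq p S.g₀) * P = Matrix.diagonal lam)
    (hr : IsLiftOf rbar r)
    (hfl : HasFlatModel ℤ_[p] (PadicAlgCl p) (Gq p) (Fin 2 → DualNumber k)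
      (fun τ v => (r (rq p τ)).mulVec v))
    (hlev : ∃ U ∈ (levelLoc p).sets, ∀ s ∈ U, r (rq p s) = 1)
    (i j : Fin 2) (μ₀ : k →+ ZMod p) (hμ₀ : μ₀ ≠ 0)
    (B : Finset (ZMod p × ZMod p)) (hB1 : 1 ≤ B.card) (hBp : B.card ≤ p + 1)
    (hB : ∀ σ ∈ S.L.fixingSubgroup, μ₀ (centry rbar r P P' i j σ) = 0 →
      pairMap μ₀ (lam i) (centry rbar r P P' i j σ) ∈ B) :
    KumLe S.L S.ζ (unifNorm p ↥S.L ^ (p * (p + 1) + 1 - p * B.card))
      (fun g => μ₀ (centry rbar r P P' i j g)) := by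
  have hP'P := P'_mul_P P P' hPP'
  have hp : p.Prime := Fact.out
  -- the quadratic relation
  have hlam : ∀ a : Fin 2, lam a ^ 2 = cst S.a₀ * lam a - cst S.b₀ := by
    intro a
    rw [lam_sq P P' _ lam hPP' hdiag a, S.htr, S.hdet]
  -- powers
  have hpow : ∀ σ ∈ S.L.fixingSubgroup ⊔ Iq p, ∃ n : ℕ,
      P' * rbar (rq p σ) * P = Matrix.diagonal (fun a => lam a ^ n) := by
    intro σ hσ
    obtain ⟨n, hn⟩ := exists_pow_eq S σ hσ
    exact ⟨n, by rw [hn]; exact conj_pow_eq P P' _ lam hPP' hdiag n⟩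
  let ρ : Gq p → M2 k := fun τ => fstM (r (rq p τ))
  let s : Gq p → M2 k := fun τ => sndM (r (rq p τ))
  have hρ : ∀ τ, ρ τ = rbar (rq p τ) := fun τ => hr (rq p τ)
  have hfl' : HasFlatModel ℤ_[p] (PadicAlgCl p) (Gq p) ((Fin 2 → k) × (Fin 2 → k))
      (act2 p ρ s) := hasFlatModel_pairs (fun τ => r (rq p τ)) hfl
  have hψe : ∀ σ ∈ S.L.fixingSubgroup ⊔ Iq p,
      (ρ σ).mulVec (colV P j) = ((P' * rbar (rq p σ) * P) j j) • colV P j := by
    intro σ hσ
    obtain ⟨n, hd⟩ := hpow σ hσ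
    rw [hρ, mulVec_colV, mul_P_eq P P' hPP' hd, colV_mul_diagonal, hd, Matrix.diagonal_apply_eq]
  have hψf : ∀ σ ∈ S.L.fixingSubgroup ⊔ Iq p, ∀ w,
      rowF P' i ((ρ σ).mulVec w) = ((P' * rbar (rq p σ) * P) i i) * rowF P' i w := by
    intro σ hσ w
    obtain ⟨n, hd⟩ := hpow σ hσ
    rw [hd, Matrix.diagonal_apply_eq, hρ, rowF_apply, Matrix.mulVec_mulVec,
      P'_mul_eq P P' hPP' hd, ← rowF_apply, rowF_diagonal_mul]
  have hψeV : ∀ σ ∈ S.L.fixingSubgroup, (P' * rbar (rq p σ) * P) j j = 1 := by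
    intro σ hσ
    rw [S.htriv σ hσ, mul_one, hP'P, Matrix.one_apply_eq]
  have h1S : (1 : k) ∈ AddSubgroup.closure (Set.range (fun n : ℕ => lam j ^ n)) :=
    AddSubgroup.subset_closure ⟨0, pow_zero _⟩
  have hS : ∀ σ ∈ S.L.fixingSubgroup ⊔ Iq p,
      ∀ a ∈ AddSubgroup.closure (Set.range (fun n : ℕ => lam j ^ n)),
      (P' * rbar (rq p σ) * P) j j * a ∈
        AddSubgroup.closure (Set.range (fun n : ℕ => lam j ^ n)) := by
    intro σ hσ a ha
    obtain ⟨n, hd⟩ := hpow σ hσ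
    rw [hd, Matrix.diagonal_apply_eq]
    induction ha using AddSubgroup.closure_induction with
    | mem x hx =>
      obtain ⟨m, rfl⟩ := hx
      change lam j ^ n * lam j ^ m ∈ _
      rw [← pow_add]
      exact AddSubgroup.subset_closure ⟨n + m, rfl⟩
    | zero => rw [mul_zero]; exact zero_mem _
    | add x y _ _ hx hy => rw [mul_add]; exact add_mem hx hy
    | neg x _ hx => rw [mul_neg]; exact neg_mem hx
  have hμsurj : Function.Surjective (pairMap μ₀ (lam i)) :=
    pairMap_surjective (no_root S) (hlam i) hμ₀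
  have hY : Nat.card (ZMod p × ZMod p) = p ^ 2 := by
    rw [Nat.card_prod, Nat.card_zmod, pow_two]
  have hker : ∀ σ ∈ S.L.fixingSubgroup ⊔ Iq p, ∀ a, pairMap μ₀ (lam i) a = 0 →
      pairMap μ₀ (lam i) ((P' * rbar (rq p σ) * P) i i * a) = 0 := by
    intro σ hσ a ha
    obtain ⟨n, hd⟩ := hpow σ hσ
    rw [hd, Matrix.diagonal_apply_eq]
    exact pairMap_pow_eq_zero (hlam i) n a ha
  have hirr : ∀ N : AddSubgroup (ZMod p × ZMod p),
      (∀ σ ∈ Iq p, ∀ a, pairMap μ₀ (lam i) a ∈ N →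
        pairMap μ₀ (lam i) ((P' * rbar (rq p σ) * P) i i * a) ∈ N) → N = ⊥ ∨ N = ⊤ := by
    intro N hN
    by_cases hb : N = ⊥
    · exact Or.inl hb
    · right
      apply eq_top_of_comp2_stable S.a₀ S.b₀ (no_root S) N ?_ hb
      intro y hy
      obtain ⟨a, rfl⟩ := hμsurj y
      have h1 := hN S.g₀ S.hg₀ a hy
      rw [hdiag, Matrix.diagonal_apply_eq, pairMap_mul (hlam i)] at h1
      exact h1
  obtain ⟨z, hz1, hz⟩ := exists_ram_of_flat S.L.fixingSubgroup (exists_level_le S) S.ζ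
    (isPrimitiveRoot_ζ S) ρ s hfl' (colV P j) (colV_ne_zero P P' hP'P j) (rowF P' i)
    (rowF_ne_zero P P' hP'P i) (fun σ => (P' * rbar (rq p σ) * P) j j)
    (fun σ => (P' * rbar (rq p σ) * P) i i) hψe hψf hψeV _ h1S hS (pairMap μ₀ (lam i)) hμsurj hY
    hker hirr
  -- on `V`, `f (s σ e)` is the `(i, j)` entry of the cocycle
  have hkey : ∀ σ ∈ S.L.fixingSubgroup,
      rowF P' i ((s σ).mulVec (colV P j)) = centry rbar r P P' i j σ := by
    intro σ hσ
    rw [rowF_mulVec_colV]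
    unfold centry
    change (P' * sndM (r (rq p σ)) * P) i j = _
    rw [sndM_eq (rbar := rbar), S.htriv σ hσ, mul_one]
  have hχadd : ∀ v ∈ S.L.fixingSubgroup, ∀ v' ∈ S.L.fixingSubgroup,
      (fun g => μ₀ (centry rbar r P P' i j g)) (v * v') =
        (fun g => μ₀ (centry rbar r P P' i j g)) v + (fun g => μ₀ (centry rbar r P P' i j g)) v' := by
    intro v hv v' _
    change μ₀ _ = μ₀ _ + μ₀ _
    rw [centry_mul S hr i j hv, map_add]
  have hχlev : IsLevel₁ (levelLoc p).sets (fun g => μ₀ (centry rbar r P P' i j g)) := by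
    obtain ⟨U, hU, h1⟩ := centry_level (P := P) (P' := P') hr hlev i j
    exact ⟨U, hU, fun g s hs => by change μ₀ _ = μ₀ _; rw [h1 g s hs]⟩
  have hζV : ∀ σ : Gq p, σ ∈ S.L.fixingSubgroup → σ S.ζ = S.ζ := fixed_of_mem S.L S.hζL
  obtain ⟨y, hy⟩ := exists_isKum S.hζ hζV _ hχlev hχadd
  have hfixχ : ∀ σ ∈ S.L.fixingSubgroup, σ y = y → μ₀ (centry rbar r P P' i j σ) = 0 := by
    intro σ hσ hσy
    have h1 := hy.2 σ hσ
    rw [hσy] at h1
    have h2 : S.ζ ^ (μ₀ (centry rbar r P P' i j σ)).val = 1 := by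
      have : (S.ζ ^ (μ₀ (centry rbar r P P' i j σ)).val - 1) * y = 0 := by
        rw [sub_mul, one_mul, ← h1, sub_self]
      rcases mul_eq_zero.1 this with h3 | h3
      · exact sub_eq_zero.1 h3
      · exact absurd h3 hy.1
    exact (zpw_eq_one_iff S.hζ S.hne _).1 h2
  have hzy : ∀ σ ∈ S.L.fixingSubgroup, σ z = z → σ y = y := by
    intro σ hσ hσz
    have h1 := ((hz σ hσ).1).1 hσz
    rw [hkey σ hσ] at h1
    have h2 : μ₀ (centry rbar r P P' i j σ) = 0 := congrArg Prod.fst h1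
    have h3 := hy.2 σ hσ
    change σ y = S.ζ ^ (μ₀ (centry rbar r P P' i j σ)).val * y at h3
    rw [h3, h2, zpw_zero, one_mul]
  have horb : ∀ T : Finset (PadicAlgCl p),
      (∀ x ∈ T, ∃ σ ∈ S.L.fixingSubgroup, σ y = y ∧ σ z = x) → T.card ≤ B.card := by
    intro T hT
    choose! g hgV hgy hgz using hT
    apply Finset.card_le_card_of_injOn
      (fun x => pairMap μ₀ (lam i) (centry rbar r P P' i j (g x)))
    · intro x hx
      exact hB (g x) (hgV x hx) (hfixχ (g x) (hgV x hx) (hgy x hx))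
    · intro x hx x' hx' heq
      change pairMap μ₀ (lam i) _ = pairMap μ₀ (lam i) _ at heq
      have hmem : (g x)⁻¹ * g x' ∈ S.L.fixingSubgroup := mul_mem (inv_mem (hgV x hx)) (hgV x' hx')
      have h1 : pairMap μ₀ (lam i) (centry rbar r P P' i j ((g x)⁻¹ * g x')) = 0 := by
        rw [centry_mul S hr i j (inv_mem (hgV x hx)), centry_inv S hr i j (hgV x hx), map_add,
          map_neg, heq, neg_add_cancel]
      have h2 : ((g x)⁻¹ * g x') z = z := by
        apply ((hz _ hmem).1).2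
        rw [hkey _ hmem]
        exact h1
      have h3 : g x' z = g x z := by
        have h4 : g x' = g x * ((g x)⁻¹ * g x') := by group
        rw [h4, AlgEquiv.mul_apply, h2]
      rw [← hgz x hx, ← hgz x' hx', h3]
  obtain ⟨w, hw0, hwV, hw⟩ := RamBridge0.kumLe_of_ram_ll p S.L.fixingSubgroup (exists_level_le S)
    S.ζ (isPrimitiveRoot_ζ S) hζV (piΩ S) (fun σ hσ => fixed_of_mem S.L (piΩ_mem S) σ hσ)
    (piΩ_ne_zero S) (norm_piΩ_lt_one S)
    (fun x hx h1 => norm_le_piΩ S x (mem_of_fixed S.L hx) h1) (norm_piΩ_pow S) y hy.1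
    (fun σ hσ => ⟨_, hy.2 σ hσ⟩) z hz1 hzy (fun σ hσ => (hz σ hσ).2) B.card hB1 hBp horb
  refine ⟨y, hy, w, mem_of_fixed S.L hwV, hw0, ?_⟩
  rw [← norm_piΩ]
  exact hw

theorem KumLe_mono {L : IntermediateField ℚ_[p] (PadicAlgCl p)} {ζ : PadicAlgCl p} {R R' : ℝ}
    (hRR' : R ≤ R') {χ : Gq p → ZMod p} (h : KumLe L ζ R χ) : KumLe L ζ R' χ := by
  obtain ⟨y, hy, w, hw, hw0, hle⟩ := h
  exact ⟨y, hy, w, hw, hw0, hle.trans hRR'⟩

/-- **(F1')** for all entries: the characters `μ₀ ∘ c_{ij}` of a flat lift have Kummer level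
`≥ p + 1`. -/
theorem kumLe_entry (hPP' : P * P' = 1)
    (hdiag : P' * rbar (rq p S.g₀) * P = Matrix.diagonal lam)
    (hr : IsLiftOf rbar r)
    (hfl : HasFlatModel ℤ_[p] (PadicAlgCl p) (Gq p) (Fin 2 → DualNumber k)
      (fun τ v => (r (rq p τ)).mulVec v))
    (hlev : ∃ U ∈ (levelLoc p).sets, ∀ s ∈ U, r (rq p s) = 1)
    (i j : Fin 2) (μ₀ : k →+ ZMod p) :
    KumLe S.L S.ζ (unifNorm p ↥S.L ^ (p + 1)) (fun g => μ₀ (centry rbar r P P' i j g)) := by
  have hp : p.Prime := Fact.out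
  by_cases hμ₀ : μ₀ = 0
  · refine (KumLe.zero (L := S.L) (ζ := S.ζ) (pow_nonneg unifNorm_pos.le _)).congr (fun σ _ => ?_)
    rw [hμ₀]
    rfl
  have hcard : (({0} : Finset (ZMod p)) ×ˢ (Finset.univ : Finset (ZMod p))).card = p := by
    rw [Finset.card_product, Finset.card_singleton, one_mul, Finset.card_univ, ZMod.card]
  have h := kumLe_entry_core S hPP' hdiag hr hfl hlev i j μ₀ hμ₀
    (({0} : Finset (ZMod p)) ×ˢ (Finset.univ : Finset (ZMod p)))
    (by rw [hcard]; exact hp.one_le) (by rw [hcard]; exact Nat.le_succ p)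
    (fun σ _ h0 => by
      rw [Finset.mem_product]
      exact ⟨by rw [Finset.mem_singleton]; exact h0, Finset.mem_univ _⟩)
  rw [hcard] at h
  have he : p * (p + 1) + 1 - p * p = p + 1 := by
    apply Nat.sub_eq_of_eq_add
    ring
  rwa [he] at h

/-- **Refined level**: if `μ₀` is injective on the values of `c_{ij}` on `Gal(Ω/L)`, the Kummer
level of `μ₀ ∘ c_{ij}` is `≥ p² + 1`. -/
theorem kumLe_entry_fine (hPP' : P * P' = 1)
    (hdiag : P' * rbar (rq p S.g₀) * P = Matrix.diagonal lam)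
    (hr : IsLiftOf rbar r)
    (hfl : HasFlatModel ℤ_[p] (PadicAlgCl p) (Gq p) (Fin 2 → DualNumber k)
      (fun τ v => (r (rq p τ)).mulVec v))
    (hlev : ∃ U ∈ (levelLoc p).sets, ∀ s ∈ U, r (rq p s) = 1)
    (i j : Fin 2) (μ₀ : k →+ ZMod p)
    (hinj : ∀ σ ∈ S.L.fixingSubgroup, μ₀ (centry rbar r P P' i j σ) = 0 →
      centry rbar r P P' i j σ = 0) :
    KumLe S.L S.ζ (unifNorm p ↥S.L ^ (p ^ 2 + 1)) (fun g => μ₀ (centry rbar r P P' i j g)) := by
  have hp : p.Prime := Fact.out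
  by_cases hμ₀ : μ₀ = 0
  · refine (KumLe.zero (L := S.L) (ζ := S.ζ) (pow_nonneg unifNorm_pos.le _)).congr (fun σ _ => ?_)
    rw [hμ₀]
    rfl
  have h := kumLe_entry_core S hPP' hdiag hr hfl hlev i j μ₀ hμ₀ {0}
    (by rw [Finset.card_singleton]) (by rw [Finset.card_singleton]; omega)
    (fun σ hσ h0 => by
      rw [Finset.mem_singleton, hinj σ hσ h0, map_zero])
  rw [Finset.card_singleton] at h
  have he : p * (p + 1) + 1 - p * 1 = p ^ 2 + 1 := by
    apply Nat.sub_eq_of_eq_add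
    ring
  rwa [he] at h

theorem kumLe_entry_fine' (hPP' : P * P' = 1)
    (hdiag : P' * rbar (rq p S.g₀) * P = Matrix.diagonal lam)
    (hr : IsLiftOf rbar r)
    (hfl : HasFlatModel ℤ_[p] (PadicAlgCl p) (Gq p) (Fin 2 → DualNumber k)
      (fun τ v => (r (rq p τ)).mulVec v))
    (hlev : ∃ U ∈ (levelLoc p).sets, ∀ s ∈ U, r (rq p s) = 1)
    (i j : Fin 2) (μ₀ : k →+ ZMod p)
    (hinj : ∀ σ ∈ S.L.fixingSubgroup, μ₀ (centry rbar r P P' i j σ) = 0 →
      centry rbar r P P' i j σ = 0) :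
    KumLe S.L S.ζ (unifNorm p ↥S.L ^ (p + 2)) (fun g => μ₀ (centry rbar r P P' i j g)) := by
  have hp : p.Prime := Fact.out
  refine KumLe_mono ?_ (kumLe_entry_fine S hPP' hdiag hr hfl hlev i j μ₀ hinj)
  apply pow_le_pow_of_le_one unifNorm_pos.le unifNorm_lt_one.le
  have h2 : 2 ≤ p := hp.two_le
  nlinarith

end Main

end

end Fermat.Agent.TW.FLAT.FlatCondLL0
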