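/-
Programme T (S56), chapter T/FLAT, local-local chain: two bricks for the final LL assembly
(lead msg 374; helper4).

* **(DIAG)** `exists_diag M α β hαβ hM : ∃ P P', P * P' = 1 ∧ P' * P = 1 ∧
    P' * M * P = Matrix.diagonal ![α, β]` for a `2 × 2` matrix `M` over a field with
  `M.charpoly = (X - C α) * (X - C β)`, `α ≠ β`.  Also `exists_inv_of_eigen` (general helper),
  `trace_eq_of_charpoly`, `det_eq_of_charpoly`.
* **(MOD-EPS)** `hasFlatModel_rbar_of_lift h hfl`: if the restriction to `Gq p` of a lift `r` of
  `rbar` to the dual numbers has a flat model, so has the restriction of `rbar` (quotient by `ε`).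
-/
import Mathlib
import Fermat.Agent.TW.FLAT.SubQuot6
import Fermat.Agent.TW.FLAT.LocalPoints6
import Fermat.Agent.TW.DEF.LiftCocycle1
import Fermat.Agent.TW.LOC.Defs2

set_option autoImplicit false
set_option linter.unusedSectionVars false

open Polynomial
open Fermat.Agent.PT.GLUE.Objects21
open Fermat.Agent.TW.LOC.Defs2
open Fermat.Agent.TW.DEF.Basic1 (GQ M2)
open Fermat.Agent.TW.FLAT.Points6 Fermat.Agent.TW.DEF.LiftCocycle1
  Fermat.Agent.TW.FLAT.LocalPoints6 Fermat.Agent.TW.FLAT.Descent6

namespace Fermat.Agent.TW.FLAT.LLDiag4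

noncomputable section

section Diag

variable {k : Type} [Field k]

/-- A matrix with invertible determinant conjugating `M` to `D`. -/
theorem exists_inv_of_eigen (M P D : Matrix (Fin 2) (Fin 2) k) (hdet : P.det ≠ 0)
    (h : M * P = P * D) :
    ∃ P' : Matrix (Fin 2) (Fin 2) k, P * P' = 1 ∧ P' * P = 1 ∧ P' * M * P = D := by
  have hu : IsUnit P.det := isUnit_iff_ne_zero.2 hdet
  refine ⟨P⁻¹, Matrix.mul_nonsing_inv P hu, Matrix.nonsing_inv_mul P hu, ?_⟩
  rw [mul_assoc, h, ← mul_assoc, Matrix.nonsing_inv_mul P hu, one_mul]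

theorem trace_eq_of_charpoly (M : Matrix (Fin 2) (Fin 2) k) (α β : k)
    (hM : M.charpoly = (X - C α) * (X - C β)) : M.trace = α + β := by
  have h1 : (X - C α) * (X - C β) = X ^ 2 - C (α + β) * X + C (α * β) := by
    simp only [map_add, map_mul]; ring
  rw [Matrix.charpoly_fin_two, h1] at hM
  have h2 := congrArg (fun q => Polynomial.coeff q 1) hM
  simp [Polynomial.coeff_X_pow] at h2
  linear_combination (-1 : k) * h2

theorem det_eq_of_charpoly (M : Matrix (Fin 2) (Fin 2) k) (α β : k)
    (hM : M.charpoly = (X - C α) * (X - C β)) : M.det = α * β := by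
  have h1 : (X - C α) * (X - C β) = X ^ 2 - C (α + β) * X + C (α * β) := by
    simp only [map_add, map_mul]; ring
  rw [Matrix.charpoly_fin_two, h1] at hM
  have h2 := congrArg (fun q => Polynomial.coeff q 0) hM
  simp [Polynomial.coeff_X_pow, Polynomial.coeff_X] at h2
  exact h2

/-- **(DIAG)** a `2 × 2` matrix with two distinct eigenvalues in `k` is diagonalisable. -/
theorem exists_diag (M : Matrix (Fin 2) (Fin 2) k) (α β : k) (hαβ : α ≠ β)
    (hM : M.charpoly = (X - C α) * (X - C β)) :
    ∃ P P' : Matrix (Fin 2) (Fin 2) k, P * P' = 1 ∧ P' * P = 1 ∧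
      P' * M * P = Matrix.diagonal ![α, β] := by
  have htr := trace_eq_of_charpoly M α β hM
  have hdet := det_eq_of_charpoly M α β hM
  rw [Matrix.trace_fin_two] at htr
  rw [Matrix.det_fin_two] at hdet
  have hne : α - β ≠ 0 := sub_ne_zero.2 hαβ
  by_cases hb : M 0 1 = 0
  · by_cases hc : M 1 0 = 0
    · -- `M` is diagonal
      rw [hb, zero_mul, sub_zero] at hdet
      by_cases ha : M 0 0 = α
      · have hd : M 1 1 = β := by
          rw [ha] at htr
          exact add_left_cancel htr
        refine ⟨1, 1, one_mul _, one_mul _, ?_⟩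
        rw [one_mul, mul_one]
        ext i j
        fin_cases i <;> fin_cases j <;> simp [ha, hd, hb, hc]
      · have h3 : (M 0 0 - α) * (M 0 0 - β) = 0 := by
          linear_combination (M 0 0) * htr - hdet
        have ha' : M 0 0 = β := by
          rcases mul_eq_zero.1 h3 with h4 | h4
          · exact absurd (sub_eq_zero.1 h4) ha
          · exact sub_eq_zero.1 h4
        have hd : M 1 1 = α := by
          rw [ha'] at htr
          linear_combination htr
        obtain ⟨P', h1, h2, h3⟩ := exists_inv_of_eigen M !![0, 1; 1, 0]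
          (Matrix.diagonal ![α, β]) (by simp [Matrix.det_fin_two]) (by
            ext i j
            fin_cases i <;> fin_cases j <;>
              simp [Matrix.mul_apply, Fin.sum_univ_two, ha', hd, hb, hc])
        exact ⟨_, P', h1, h2, h3⟩
    · -- `M 0 1 = 0`, `M 1 0 ≠ 0`
      rw [hb, zero_mul, sub_zero] at hdet
      obtain ⟨P', h1, h2, h3⟩ := exists_inv_of_eigen M !![α - M 1 1, β - M 1 1; M 1 0, M 1 0]
        (Matrix.diagonal ![α, β]) (by
          rw [Matrix.det_fin_two]
          simp only [Matrix.of_apply, Matrix.cons_val', Matrix.cons_val_zero, Matrix.cons_val_one,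
            Matrix.cons_val_fin_one]
          have : (α - M 1 1) * M 1 0 - (β - M 1 1) * M 1 0 = (α - β) * M 1 0 := by ring
          rw [this]
          exact mul_ne_zero hne hc) (by
          ext i j
          fin_cases i <;> fin_cases j <;>
            simp [Matrix.mul_apply, Fin.sum_univ_two, hb]
          · linear_combination α * htr - hdet
          · linear_combination β * htr - hdet
          · ring
          · ring)
      exact ⟨_, P', h1, h2, h3⟩
  · -- `M 0 1 ≠ 0`
    obtain ⟨P', h1, h2, h3⟩ := exists_inv_of_eigen M !![M 0 1, M 0 1; α - M 0 0, β - M 0 0]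
      (Matrix.diagonal ![α, β]) (by
        rw [Matrix.det_fin_two]
        simp only [Matrix.of_apply, Matrix.cons_val', Matrix.cons_val_zero, Matrix.cons_val_one,
          Matrix.cons_val_fin_one]
        have : M 0 1 * (β - M 0 0) - M 0 1 * (α - M 0 0) = -((α - β) * M 0 1) := by ring
        rw [this]
        exact neg_ne_zero.2 (mul_ne_zero hne hb)) (by
        ext i j
        fin_cases i <;> fin_cases j <;>
          simp [Matrix.mul_apply, Fin.sum_univ_two]
        · ring
        · ring
        · linear_combination α * htr - hdet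
        · linear_combination β * htr - hdet)
    exact ⟨_, P', h1, h2, h3⟩

end Diag

section ModEps

variable {p : ℕ} [Fact p.Prime] {k : Type} [Field k] {rbar : GQ →* M2 k}
  {r : GQ →* M2 (DualNumber k)}

/-- Reduction modulo `ε` of vectors. -/
def fstV : (Fin 2 → DualNumber k) →+ (Fin 2 → k) where
  toFun v i := (v i).fst
  map_zero' := by ext i; simp
  map_add' v w := by ext i; simp

theorem fstV_surjective : Function.Surjective (fstV (k := k)) := by
  intro w
  refine ⟨fun i => TrivSqZeroExt.inl (w i), ?_⟩
  ext i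
  simp [fstV]

theorem fstV_mulVec (A : M2 (DualNumber k)) (v : Fin 2 → DualNumber k) :
    fstV (A.mulVec v) = (fstM A).mulVec (fstV v) := by
  ext i
  fin_cases i <;> simp [fstV, Matrix.mulVec, dotProduct, Fin.sum_univ_two]

/-- **(MOD-EPS)** if a lift of `rbar` to the dual numbers is flat at `p`, so is `rbar`. -/
theorem hasFlatModel_rbar_of_lift (h : IsLiftOf rbar r)
    (hfl : HasFlatModel ℤ_[p] (PadicAlgCl p) (Gq p) (Fin 2 → DualNumber k)
      (fun τ v => (r (rq p τ)).mulVec v)) :
    HasFlatModel ℤ_[p] (PadicAlgCl p) (Gq p) (Fin 2 → k)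
      (fun τ v => (rbar (rq p τ)).mulVec v) := by
  refine hfl.of_surjective (fixedInFrac_padicInt (p := p)) fstV fstV_surjective ?_
  intro σ v
  change fstV ((r (rq p σ)).mulVec v) = (rbar (rq p σ)).mulVec (fstV v)
  rw [fstV_mulVec, h (rq p σ)]

end ModEps

end

end Fermat.Agent.TW.FLAT.LLDiag4
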