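/-
Programme T, chapter FLAT, file Raynaud6: the action of inertia on an irreducible group of order
`p²` over an unramified base is through the fundamental character of level 2 (eigenvalue form).
RamPoint6 (OrderPSq6, Closure6).

LEADING TERMS (`H` commutative Hopf, integral over `R`; `SizeLe z t`, `a ∈ augI R H`):
* `norm_inv_apply_add_le`, `norm_zpow_apply_sub_le : ‖(z ^ n) a - (n : E) * z a‖ ≤ t ^ 2` (`n : ℤ`);
* (`H` cocommutative) `norm_prod_apply_sub_le`, `norm_prod_zpow_apply_sub_le :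
    ‖(∏ i ∈ s, w i ^ q i) a - ∑ i ∈ s, (q i : E) * w i a‖ ≤ t ^ 2`.
GALOIS (`Γ` acting on `E`, `hiso : ∀ σ y, ‖σ • y‖ = ‖y‖`, `hin : ∀ σ y, ‖y‖ ≤ 1 → ‖σ • y - y‖ < 1`):
* `norm_smul_apply_sub_lt hiso hin (ϖ₂ ≠ 0) σ z (‖z a‖ ≤ ‖ϖ₂‖) :
    ‖(σ • z) a - (σ • ϖ₂ / ϖ₂) * z a‖ < ‖ϖ₂‖`;  `norm_pow_smul_apply_sub_lt` (iterated);
* `norm_sum_lt_one_of_rel` (abstract eigenvalue statement).
CLOSURE PACKAGE (`R` a PID, `[FaithfulSMul R E]`, `A` finite free Hopf, `W` a subgroup of the points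
with `[(closureIdeal W).IsHopfIdeal R]`; `hF : FixedInFrac R E Γ`, `hWΓ`: `W` is `Γ`-stable, finite):
* `closureIncl W : WithConv ((A ⧸ closureIdeal W) →ₐ[R] E) →* WithConv (A →ₐ[R] E)`,
  `closureIncl_apply`, `closureIncl_eq`, `closureIncl_injective`, `closureIncl_smul` (any acting
  group), `closureIncl_mem`, `exists_closureIncl_eq`, `closure_card`, `closure_finite`,
  `closure_card_eq_finrank`, `closure_ptsSeparate`, `closure_pow_eq_one`, `closure_isIrr`.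
MAIN (hypotheses of `OrderPSq6.exists_generator_of_irr`, resp. of `RamPoint6.exists_coordinate`;
`ϖ₂ : E` ANY element with `‖ϖ₂‖ ^ (p ^ 2 - 1) = ‖(p : E)‖`; `σ` in the inertia-like group):
* **`norm_sum_lt_one … (hz : z ≠ 1) m q (hrel : ∏ i ∈ range m, (σ ^ i • z) ^ q i = 1) :
    ‖∑ i ∈ range m, (q i : E) * (σ • ϖ₂ / ϖ₂) ^ i‖ < 1`**  (whole group irreducible);
* **`norm_sum_lt_one_of_mem … (hzW : z ∈ W) (hz : z ≠ 1) m q hrel : (same conclusion)`**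
  (`W` a stable irreducible subgroup of order `p²` of the points of `A`);
* `exists_norm_pow_eq … : ∃ a : A, ∀ z ∈ W, z ≠ 1 → ‖z a‖ ^ (p ^ 2 - 1) = ‖(p : E)‖`.
I.e.: if `Q = Σ q_i X^i ∈ ℤ[X]` kills the `F_p`-linear action `T_σ` of `σ` on one nonzero element of
`W`, then `Q(θ₂(σ)) = 0` in the residue field, `θ₂(σ) = σ ϖ₂ / ϖ₂ mod 𝔪` the fundamental character
of level 2.
-/
import Mathlib
import Fermat.Agent.TW.FLAT.RamPoint6

set_option autoImplicit false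
set_option linter.unusedSectionVars false

namespace Fermat.Agent.TW.FLAT.Raynaud6

open WithConv Coalgebra Module IsLocalRing Fermat.Agent.TW.FLAT.Points6
  Fermat.Agent.TW.FLAT.DiffIdeal6 Fermat.Agent.TW.FLAT.BallPoints6
  Fermat.Agent.TW.FLAT.KilledBy6 Fermat.Agent.TW.FLAT.SizeFn6 Fermat.Agent.TW.FLAT.IrredSize6

open scoped NNReal

noncomputable section

section additive

variable {R : Type*} [CommRing R] {E : Type*} [NormedField E] [IsUltrametricDist E] [Algebra R E]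
  [NormLeOne R E] {H : Type*} [CommRing H] [HopfAlgebra R H] [Algebra.IsIntegral R H]

theorem one_apply_eq_zero {a : H} (ha : a ∈ augI R H) : (1 : WithConv (H →ₐ[R] E)) a = 0 := by
  have : (1 : WithConv (H →ₐ[R] E)) a = algebraMap R E (counit a) := by simp
  rw [this, mem_augI.mp ha, map_zero]

theorem norm_inv_apply_add_le {z : WithConv (H →ₐ[R] E)} {t : ℝ≥0} (hz : SizeLe z t) {a : H}
    (ha : a ∈ augI R H) : ‖z⁻¹ a + z a‖ ≤ (t : ℝ) ^ 2 := by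
  have h := norm_mul_apply_sub_le hz hz.inv ha
  rw [mul_inv_cancel, one_apply_eq_zero ha] at h
  have : (0 : E) - z a - z⁻¹ a = -(z⁻¹ a + z a) := by ring
  rwa [this, norm_neg] at h

theorem norm_zpow_apply_sub_le {z : WithConv (H →ₐ[R] E)} {t : ℝ≥0} (hz : SizeLe z t) {a : H}
    (ha : a ∈ augI R H) (n : ℤ) : ‖(z ^ n) a - (n : E) * z a‖ ≤ (t : ℝ) ^ 2 := by
  cases n with
  | ofNat n =>
    have := norm_pow_apply_sub_le hz ha n
    rw [nsmul_eq_mul] at this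
    simpa using this
  | negSucc n =>
    rw [zpow_negSucc]
    have hzn : SizeLe (z ^ (n + 1)) t :=
      (sizeSub (R := R) (H := H) (E := E) t).pow_mem hz (n + 1)
    have h1 := norm_inv_apply_add_le hzn ha
    have h2 := norm_pow_apply_sub_le hz ha (n + 1)
    rw [nsmul_eq_mul] at h2
    have e : ((z ^ (n + 1))⁻¹) a - ((Int.negSucc n : ℤ) : E) * z a =
        (((z ^ (n + 1))⁻¹) a + (z ^ (n + 1)) a) - ((z ^ (n + 1)) a - ((n + 1 : ℕ) : E) * z a) := by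
      rw [Int.cast_negSucc]; ring
    rw [e, sub_eq_add_neg]
    refine (IsUltrametricDist.norm_add_le_max _ _).trans (max_le h1 ?_)
    rw [norm_neg]; exact h2

variable [Coalgebra.IsCocomm R H]

/-- The leading term map is additive on finite products. -/
theorem norm_prod_apply_sub_le {ι : Type*} (s : Finset ι) (w : ι → WithConv (H →ₐ[R] E))
    {t : ℝ≥0} (hw : ∀ i ∈ s, SizeLe (w i) t) {a : H} (ha : a ∈ augI R H) :
    ‖(∏ i ∈ s, w i) a - ∑ i ∈ s, w i a‖ ≤ (t : ℝ) ^ 2 := by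
  classical
  induction s using Finset.induction_on with
  | empty =>
    rw [Finset.prod_empty, Finset.sum_empty, one_apply_eq_zero ha, sub_zero, norm_zero]
    positivity
  | insert j s hj ih =>
    have hw' : ∀ i ∈ s, SizeLe (w i) t := fun i hi => hw i (Finset.mem_insert_of_mem hi)
    have hP : SizeLe (∏ i ∈ s, w i) t :=
      (sizeSub (R := R) (H := H) (E := E) t).prod_mem hw'
    have h1 := norm_mul_apply_sub_le (hw j (Finset.mem_insert_self j s)) hP ha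
    have h2 := ih hw'
    rw [Finset.prod_insert hj, Finset.sum_insert hj]
    have e : (w j * ∏ i ∈ s, w i) a - (w j a + ∑ i ∈ s, w i a) =
        ((w j * ∏ i ∈ s, w i) a - w j a - (∏ i ∈ s, w i) a) +
          ((∏ i ∈ s, w i) a - ∑ i ∈ s, w i a) := by ring
    rw [e]
    exact (IsUltrametricDist.norm_add_le_max _ _).trans (max_le h1 h2)

/-- Integer exponents. -/
theorem norm_prod_zpow_apply_sub_le {ι : Type*} (s : Finset ι) (w : ι → WithConv (H →ₐ[R] E))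
    (q : ι → ℤ) {t : ℝ≥0} (hw : ∀ i ∈ s, SizeLe (w i) t) {a : H} (ha : a ∈ augI R H) :
    ‖(∏ i ∈ s, w i ^ q i) a - ∑ i ∈ s, (q i : E) * w i a‖ ≤ (t : ℝ) ^ 2 := by
  have hw' : ∀ i ∈ s, SizeLe (w i ^ q i) t := fun i hi =>
    (sizeSub (R := R) (H := H) (E := E) t).zpow_mem (hw i hi) (q i)
  have h1 := norm_prod_apply_sub_le s (fun i => w i ^ q i) hw' ha
  have h2 : ‖∑ i ∈ s, (w i ^ q i) a - ∑ i ∈ s, (q i : E) * w i a‖ ≤ (t : ℝ) ^ 2 := by
    rw [← Finset.sum_sub_distrib]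
    apply IsUltrametricDist.norm_sum_le_of_forall_le_of_nonneg (by positivity)
    intro i hi
    exact norm_zpow_apply_sub_le (hw i hi) ha (q i)
  have e : (∏ i ∈ s, w i ^ q i) a - ∑ i ∈ s, (q i : E) * w i a =
      ((∏ i ∈ s, w i ^ q i) a - ∑ i ∈ s, (w i ^ q i) a) +
        (∑ i ∈ s, (w i ^ q i) a - ∑ i ∈ s, (q i : E) * w i a) := by ring
  rw [e]
  exact (IsUltrametricDist.norm_add_le_max _ _).trans (max_le h1 h2)

end additive

section galois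

variable {R : Type*} [CommRing R] {E : Type*} [NormedField E] [IsUltrametricDist E] [Algebra R E]
  [NormLeOne R E] {H : Type*} [CommRing H] [HopfAlgebra R H] [Algebra.IsIntegral R H]
  {Γ : Type*} [Group Γ] [MulSemiringAction Γ E] [SMulCommClass Γ R E]
  (hiso : ∀ (σ : Γ) (y : E), ‖σ • y‖ = ‖y‖)
  (hin : ∀ (σ : Γ) (y : E), ‖y‖ ≤ 1 → ‖σ • y - y‖ < 1)

include hiso hin

/-- **`θ`-equivariance of the leading term, one step.** -/
theorem norm_smul_apply_sub_lt {ϖ₂ : E} (h0 : ϖ₂ ≠ 0) (σ : Γ) (z : WithConv (H →ₐ[R] E)) {a : H}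
    (hza : ‖z a‖ ≤ ‖ϖ₂‖) : ‖(σ • z) a - (σ • ϖ₂ / ϖ₂) * z a‖ < ‖ϖ₂‖ := by
  have hs0 : 0 < ‖ϖ₂‖ := norm_pos_iff.mpr h0
  set u : E := z a / ϖ₂ with hu
  have hzu : z a = u * ϖ₂ := by rw [hu]; field_simp
  have hu1 : ‖u‖ ≤ 1 := by rw [hu, norm_div, div_le_one hs0]; exact hza
  have e : (σ • z) a - (σ • ϖ₂ / ϖ₂) * z a = (σ • u - u) * σ • ϖ₂ := by
    rw [Points6.smul_apply, hzu, smul_mul']
    field_simp
  rw [e, norm_mul, hiso]
  calc ‖σ • u - u‖ * ‖ϖ₂‖ < 1 * ‖ϖ₂‖ := mul_lt_mul_of_pos_right (hin σ u hu1) hs0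
    _ = ‖ϖ₂‖ := one_mul _

/-- Iterated form. -/
theorem norm_pow_smul_apply_sub_lt {ϖ₂ : E} (h0 : ϖ₂ ≠ 0) (σ : Γ) {a : H}
    (hall : ∀ w : WithConv (H →ₐ[R] E), ‖w a‖ ≤ ‖ϖ₂‖) (z : WithConv (H →ₐ[R] E)) (i : ℕ) :
    ‖(σ ^ i • z) a - (σ • ϖ₂ / ϖ₂) ^ i * z a‖ < ‖ϖ₂‖ := by
  have hs0 : 0 < ‖ϖ₂‖ := norm_pos_iff.mpr h0
  have hθ : ‖σ • ϖ₂ / ϖ₂‖ = 1 := by rw [norm_div, hiso, div_self hs0.ne']
  induction i with
  | zero => simpa using hs0
  | succ i ih =>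
    have h1 := norm_smul_apply_sub_lt hiso hin h0 σ (σ ^ i • z) (hall _)
    have e : (σ ^ (i + 1) • z) a - (σ • ϖ₂ / ϖ₂) ^ (i + 1) * z a =
        ((σ • σ ^ i • z) a - (σ • ϖ₂ / ϖ₂) * (σ ^ i • z) a) +
          (σ • ϖ₂ / ϖ₂) * ((σ ^ i • z) a - (σ • ϖ₂ / ϖ₂) ^ i * z a) := by
      rw [pow_succ', mul_smul]; ring
    rw [e]
    refine lt_of_le_of_lt (IsUltrametricDist.norm_add_le_max _ _) (max_lt h1 ?_)
    rw [norm_mul, hθ, one_mul]
    exact ih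

/-- **Eigenvalue statement, abstract form.**  If the values at `a` of all points have norm
`≤ ‖ϖ₂‖ < 1`, all points have size `≤ ‖ϖ₂‖`, `‖z a‖ = ‖ϖ₂‖`, and `Q(T_σ) z = 1`
(`Q = Σ q_i X^i`), then `Q(θ) ≡ 0`, `θ = σ ϖ₂ / ϖ₂`. -/
theorem norm_sum_lt_one_of_rel [Coalgebra.IsCocomm R H] {ϖ₂ : E} (h0 : ϖ₂ ≠ 0)
    (h1 : ‖ϖ₂‖ < 1) {a : H} (ha : a ∈ augI R H)
    (hsize : ∀ w : WithConv (H →ₐ[R] E), SizeLe w ‖ϖ₂‖₊) (σ : Γ)
    {z : WithConv (H →ₐ[R] E)} (hza : ‖z a‖ = ‖ϖ₂‖) (m : ℕ) (q : ℕ → ℤ)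
    (hrel : ∏ i ∈ Finset.range m, (σ ^ i • z) ^ q i = 1) :
    ‖∑ i ∈ Finset.range m, (q i : E) * (σ • ϖ₂ / ϖ₂) ^ i‖ < 1 := by
  have hs0 : 0 < ‖ϖ₂‖ := norm_pos_iff.mpr h0
  have hall : ∀ w : WithConv (H →ₐ[R] E), ‖w a‖ ≤ ‖ϖ₂‖ := fun w => by
    have := hsize w a ha
    rwa [coe_nnnorm] at this
  have hA := norm_prod_zpow_apply_sub_le (Finset.range m) (fun i => σ ^ i • z) q
    (fun i _ => hsize _) ha
  rw [hrel, one_apply_eq_zero ha, zero_sub, norm_neg, coe_nnnorm] at hA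
  have hsq : ‖ϖ₂‖ ^ 2 < ‖ϖ₂‖ := by
    rw [pow_two]
    calc ‖ϖ₂‖ * ‖ϖ₂‖ < ‖ϖ₂‖ * 1 := mul_lt_mul_of_pos_left h1 hs0
      _ = _ := mul_one _
  have hB : ‖∑ i ∈ Finset.range m, (q i : E) * (σ ^ i • z) a‖ < ‖ϖ₂‖ := lt_of_le_of_lt hA hsq
  have hBC : ‖∑ i ∈ Finset.range m, (q i : E) * ((σ ^ i • z) a - (σ • ϖ₂ / ϖ₂) ^ i * z a)‖ <
      ‖ϖ₂‖ := by
    apply norm_sum_lt _ _ hs0
    intro i _
    rw [norm_mul]
    calc ‖(q i : E)‖ * ‖(σ ^ i • z) a - (σ • ϖ₂ / ϖ₂) ^ i * z a‖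
        ≤ 1 * ‖(σ ^ i • z) a - (σ • ϖ₂ / ϖ₂) ^ i * z a‖ :=
          mul_le_mul_of_nonneg_right (IsUltrametricDist.norm_intCast_le_one E (q i))
            (norm_nonneg _)
      _ = _ := one_mul _
      _ < ‖ϖ₂‖ := norm_pow_smul_apply_sub_lt hiso hin h0 σ hall z i
  have hC : ‖(∑ i ∈ Finset.range m, (q i : E) * (σ • ϖ₂ / ϖ₂) ^ i) * z a‖ < ‖ϖ₂‖ := by
    have e : (∑ i ∈ Finset.range m, (q i : E) * (σ • ϖ₂ / ϖ₂) ^ i) * z a =
        ∑ i ∈ Finset.range m, (q i : E) * (σ ^ i • z) a -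
          ∑ i ∈ Finset.range m, (q i : E) * ((σ ^ i • z) a - (σ • ϖ₂ / ϖ₂) ^ i * z a) := by
      rw [← Finset.sum_sub_distrib, Finset.sum_mul]
      apply Finset.sum_congr rfl
      intro i _
      ring
    rw [e, sub_eq_add_neg]
    refine lt_of_le_of_lt (IsUltrametricDist.norm_add_le_max _ _) (max_lt hB ?_)
    rw [norm_neg]; exact hBC
  rw [norm_mul, hza] at hC
  by_contra hge
  rw [not_lt] at hge
  have := mul_le_mul_of_nonneg_right hge hs0.le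
  rw [one_mul] at this
  exact absurd hC (not_lt.mpr this)

end galois

/-! ### The closure of a finite stable subgroup, packaged -/

section closure

open Fermat.Agent.TW.FLAT.Closure6 Fermat.Agent.TW.FLAT.Closed6 Fermat.Agent.TW.FLAT.Descent6
  TensorProduct

variable {R : Type*} [CommRing R] [IsDomain R] [IsPrincipalIdealRing R]
  {E : Type*} [Field E] [Algebra R E] [FaithfulSMul R E]
  {A : Type*} [CommRing A] [HopfAlgebra R A] [Module.Free R A] [Module.Finite R A]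
  {Γ : Type*} [Group Γ] [MulSemiringAction Γ E] [SMulCommClass Γ R E]
  (W : Subgroup (WithConv (A →ₐ[R] E))) [hI : (closureIdeal W).IsHopfIdeal R]

/-- The points of the closure of `W`, mapped to the points of `A`. -/
def closureIncl : WithConv ((A ⧸ closureIdeal W) →ₐ[R] E) →* WithConv (A →ₐ[R] E) :=
  (closedPts R (closureIdeal W) E).subtype.comp (ptsQuotEquiv (closureIdeal W)).toMonoidHom

theorem closureIncl_apply (g : WithConv ((A ⧸ closureIdeal W) →ₐ[R] E)) (a : A) :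
    closureIncl W g a = g (Ideal.Quotient.mk _ a) := rfl

theorem closureIncl_eq (g : WithConv ((A ⧸ closureIdeal W) →ₐ[R] E)) :
    closureIncl W g = toConv (g.ofConv.comp (Ideal.Quotient.mkₐ R (closureIdeal W))) := by
  ext a; rfl

theorem closureIncl_injective : Function.Injective (closureIncl W) :=
  (Subgroup.subtype_injective _).comp (ptsQuotEquiv (closureIdeal W)).injective

theorem closureIncl_smul {Γ₀ : Type*} [Group Γ₀] [MulSemiringAction Γ₀ E] [SMulCommClass Γ₀ R E]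
    (σ : Γ₀) (g : WithConv ((A ⧸ closureIdeal W) →ₐ[R] E)) :
    closureIncl W (σ • g) = σ • closureIncl W g := ptsQuotEquiv_smul _ σ g

variable [Finite W] (hF : FixedInFrac R E Γ) (hWΓ : ∀ σ : Γ, ∀ f ∈ W, σ • f ∈ W)
include hF hWΓ

theorem closureIncl_mem (g : WithConv ((A ⧸ closureIdeal W) →ₐ[R] E)) : closureIncl W g ∈ W := by
  have hcl : closedPts R (closureIdeal W) E = W := closedPts_closureIdeal hF W hWΓ
  have h := (ptsQuotEquiv (closureIdeal W) g).2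
  have hmemW : ∀ f : WithConv (A →ₐ[R] E), f ∈ closedPts R (closureIdeal W) E ↔ f ∈ W :=
    fun f => by rw [hcl]
  exact (hmemW _).mp h

theorem exists_closureIncl_eq {f : WithConv (A →ₐ[R] E)} (hf : f ∈ W) :
    ∃ g, closureIncl W g = f := by
  have hcl : closedPts R (closureIdeal W) E = W := closedPts_closureIdeal hF W hWΓ
  have hmemW : ∀ f : WithConv (A →ₐ[R] E), f ∈ closedPts R (closureIdeal W) E ↔ f ∈ W :=
    fun f => by rw [hcl]
  exact ⟨(ptsQuotEquiv (closureIdeal W)).symm ⟨f, (hmemW f).mpr hf⟩, by simp [closureIncl]⟩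

theorem closure_card :
    Nat.card (WithConv ((A ⧸ closureIdeal W) →ₐ[R] E)) = Nat.card W := by
  apply Nat.card_congr
  exact Equiv.ofBijective
    (fun g => (⟨closureIncl W g, closureIncl_mem W hF hWΓ g⟩ : W))
    ⟨fun g g' h => closureIncl_injective W
      (congrArg (fun u : W => (u : WithConv (A →ₐ[R] E))) h),
     fun f => by
      obtain ⟨g, hg⟩ := exists_closureIncl_eq W hF hWΓ f.2
      exact ⟨g, Subtype.ext hg⟩⟩

theorem closure_finite : Finite (WithConv ((A ⧸ closureIdeal W) →ₐ[R] E)) :=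
  Finite.of_injective (fun g => (⟨closureIncl W g, closureIncl_mem W hF hWΓ g⟩ : W))
    (fun _ _ h => closureIncl_injective W
      (congrArg (fun u : W => (u : WithConv (A →ₐ[R] E))) h))

theorem closure_card_eq_finrank :
    Nat.card (WithConv ((A ⧸ closureIdeal W) →ₐ[R] E)) = finrank R (A ⧸ closureIdeal W) := by
  rw [closure_card W hF hWΓ]
  classical
  have := Fintype.ofFinite W
  have htf : Module.IsTorsionFree R (A ⧸ closureIdeal W) := quot_closureIdeal_isTorsionFree W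
  have hinj : Function.Injective (evFam (quotFam (subFam W))) :=
    evFam_quot_injective hF (stableFam_subFam W hWΓ)
  have hqinj : Function.Injective (quotFam (subFam W)) := by
    intro k k' h
    apply subFam_injective W
    apply AlgHom.ext
    intro a
    have := congrArg (fun f => f (Ideal.Quotient.mk _ a)) h
    simpa using this
  have hsurj : Function.Surjective (evFam (quotFam (subFam W))) := evFam_surjective hqinj
  have e : (E ⊗[R] (A ⧸ closureIdeal W)) ≃ₗ[E] (W → E) :=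
    LinearEquiv.ofBijective (evFam (quotFam (subFam W))).toLinearMap ⟨hinj, hsurj⟩
  rw [← Module.finrank_baseChange (R := E), e.finrank_eq, Module.finrank_fintype_fun_eq_card,
    Nat.card_eq_fintype_card]

omit hF hWΓ [Finite W] in
theorem closure_ptsSeparate : PtsSeparate R (A ⧸ closureIdeal W) E := by
  intro b hb
  apply quotFam_injective (subFam W)
  funext k
  change quotFam (subFam W) k b = quotFam (subFam W) k 0
  rw [hb, map_zero]

theorem closure_pow_eq_one {n : ℕ} (hWn : ∀ f ∈ W, f ^ n = 1)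
    (g : WithConv ((A ⧸ closureIdeal W) →ₐ[R] E)) : g ^ n = 1 := by
  apply closureIncl_injective W
  rw [map_pow, map_one]
  exact hWn _ (closureIncl_mem W hF hWΓ g)

theorem closure_isIrr {Γ₀ : Type*} [Group Γ₀] [MulSemiringAction Γ₀ E] [SMulCommClass Γ₀ R E]
    (hirr : ∀ N : Subgroup (WithConv (A →ₐ[R] E)), N ≤ W →
      (∀ σ : Γ₀, ∀ f ∈ N, σ • f ∈ N) → N = ⊥ ∨ N = W) :
    IsIrr Γ₀ (WithConv ((A ⧸ closureIdeal W) →ₐ[R] E)) := by
  intro N hN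
  rcases hirr (N.map (closureIncl W)) (by
      rintro _ ⟨g, _, rfl⟩
      exact closureIncl_mem W hF hWΓ g) (by
      rintro σ _ ⟨g, hg, rfl⟩
      exact ⟨σ • g, hN σ g hg, closureIncl_smul W σ g⟩) with h | h
  · left
    rw [eq_bot_iff]
    intro g hg
    have : closureIncl W g ∈ N.map (closureIncl W) := ⟨g, hg, rfl⟩
    rw [h, Subgroup.mem_bot] at this
    rw [Subgroup.mem_bot]
    exact closureIncl_injective W (by rw [this, map_one])
  · right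
    rw [eq_top_iff]
    intro g _
    have : closureIncl W g ∈ N.map (closureIncl W) := by
      rw [h]; exact closureIncl_mem W hF hWΓ g
    obtain ⟨g', hg', hgg'⟩ := this
    rwa [← closureIncl_injective W hgg']

end closure

/-! ### The eigenvalue statement for irreducible groups of order `p²` -/

section main

variable {R : Type*} [CommRing R] [IsDomain R] [IsLocalRing R] {E : Type*} [NormedField E]
  [IsUltrametricDist E] [Algebra R E] [NormLeOne R E]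
  {H : Type*} [CommRing H] [HopfAlgebra R H] [Coalgebra.IsCocomm R H] [Module.Free R H]
  [Module.Finite R H]
  {Γ : Type*} [Group Γ] [MulSemiringAction Γ E] [SMulCommClass Γ R E]
  [Finite (WithConv (H →ₐ[R] E))]

/-- **Raynaud, level 2** (whole group irreducible of order `p²`). -/
theorem norm_sum_lt_one (p : ℕ) [hp : Fact p.Prime]
    (hpR : maximalIdeal R = Ideal.span {(p : R)})
    (hmax : ∀ r ∈ maximalIdeal R, ‖algebraMap R E r‖ < 1)
    (hcard : Nat.card (WithConv (H →ₐ[R] E)) = finrank R H)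
    (hp2 : Nat.card (WithConv (H →ₐ[R] E)) = p ^ 2)
    (hsep : PtsSeparate R H E)
    (hpow : ∀ z : WithConv (H →ₐ[R] E), z ^ p = 1)
    (hiso : ∀ (σ : Γ) (y : E), ‖σ • y‖ = ‖y‖)
    (hin : ∀ (σ : Γ) (y : E), ‖y‖ ≤ 1 → ‖σ • y - y‖ < 1)
    (hirr : IsIrr Γ (WithConv (H →ₐ[R] E)))
    {ϖ : E} (hϖ : ‖ϖ‖ ^ (p - 1) = ‖(p : E)‖) (hϖ0 : ϖ ≠ 0)
    (hϖΓ : ∀ σ : Γ, ∃ c : ℕ, ‖σ • ϖ - (c : E) * ϖ‖ < ‖ϖ‖)
    {ϖ₂ : E} (hϖ₂ : ‖ϖ₂‖ ^ (p ^ 2 - 1) = ‖(p : E)‖) (σ : Γ)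
    {z : WithConv (H →ₐ[R] E)} (hz : z ≠ 1) (m : ℕ) (q : ℕ → ℤ)
    (hrel : ∏ i ∈ Finset.range m, (σ ^ i • z) ^ q i = 1) :
    ‖∑ i ∈ Finset.range m, (q i : E) * (σ • ϖ₂ / ϖ₂) ^ i‖ < 1 := by
  obtain ⟨x, hx, hxn⟩ := OrderPSq6.exists_generator_of_irr p hpR hmax hcard hp2 hsep hpow hiso
    hin hirr hϖ hϖ0 hϖΓ
  have hp1 : 1 < p := hp.out.one_lt
  have hexp : p ^ 2 - 1 ≠ 0 := by
    have : 1 < p ^ 2 := Nat.one_lt_pow two_ne_zero hp1
    omega
  have hp0 : (p : E) ≠ 0 := by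
    rw [← norm_pos_iff, ← hϖ]; exact pow_pos (norm_pos_iff.mpr hϖ0) _
  have hplt : ‖(p : E)‖ < 1 := by
    rw [← map_natCast (algebraMap R E)]
    apply hmax
    rw [hpR]; exact Ideal.mem_span_singleton_self _
  have h0 : ϖ₂ ≠ 0 := by
    intro h
    rw [h, norm_zero, zero_pow hexp] at hϖ₂
    exact hp0 (norm_eq_zero.mp hϖ₂.symm)
  have h1 : ‖ϖ₂‖ < 1 := by
    by_contra hge
    rw [not_lt] at hge
    have := one_le_pow₀ (n := p ^ 2 - 1) hge
    rw [hϖ₂] at this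
    exact absurd hplt (not_lt.mpr this)
  have hxI : x ∈ augI R H := by rw [hx]; exact Ideal.mem_span_singleton_self x
  have hnx : ∀ w : WithConv (H →ₐ[R] E), w ≠ 1 → ‖w x‖ = ‖ϖ₂‖ := by
    intro w hw
    have := hxn w hw
    rw [← hϖ₂] at this
    exact (pow_left_inj₀ (norm_nonneg _) (norm_nonneg _) hexp).mp this
  have hsize : ∀ w : WithConv (H →ₐ[R] E), SizeLe w ‖ϖ₂‖₊ := by
    intro w a ha
    rw [hx] at ha
    obtain ⟨b, rfl⟩ := Ideal.mem_span_singleton'.mp ha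
    rw [map_mul, norm_mul, coe_nnnorm]
    have hwx : ‖w x‖ ≤ ‖ϖ₂‖ := by
      by_cases hw : w = 1
      · rw [hw, one_apply_eq_zero hxI, norm_zero]; exact norm_nonneg _
      · exact (hnx w hw).le
    have : Algebra.IsIntegral R H := inferInstance
    calc ‖w b‖ * ‖w x‖ ≤ 1 * ‖ϖ₂‖ :=
          mul_le_mul (norm_apply_le_one w.ofConv b) hwx (norm_nonneg _) zero_le_one
      _ = _ := one_mul _
  exact norm_sum_lt_one_of_rel hiso hin h0 h1 hxI hsize σ (hnx z hz) m q hrel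

end main

section subgroup

open Fermat.Agent.TW.FLAT.Closure6 Fermat.Agent.TW.FLAT.Closed6 Fermat.Agent.TW.FLAT.Descent6

variable {R : Type*} [CommRing R] [IsDomain R] [IsPrincipalIdealRing R] [IsLocalRing R]
  {E : Type*} [NormedField E] [IsUltrametricDist E] [Algebra R E] [FaithfulSMul R E]
  [NormLeOne R E]
  {A : Type*} [CommRing A] [HopfAlgebra R A] [Coalgebra.IsCocomm R A] [Module.Free R A]
  [Module.Finite R A]
  {Γ : Type*} [Group Γ] [MulSemiringAction Γ E] [SMulCommClass Γ R E]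
  {Γ₀ : Type*} [Group Γ₀] [MulSemiringAction Γ₀ E] [SMulCommClass Γ₀ R E]

/-- **Raynaud, level 2** (a stable irreducible subgroup `W` of order `p²` of the points of a
finite flat group scheme over an unramified base): if `Q(T_σ) z = 1` for some `1 ≠ z ∈ W`
(`σ : Γ₀` inertia-like, `Q = Σ q_i X^i`), then `Q(θ₂(σ)) ≡ 0`, where
`θ₂(σ) = σ ϖ₂ / ϖ₂ mod 𝔪` for any `ϖ₂` with `‖ϖ₂‖ ^ (p² - 1) = ‖p‖`. -/
theorem norm_sum_lt_one_of_mem (p : ℕ) [hp : Fact p.Prime]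
    (hpR : maximalIdeal R = Ideal.span {(p : R)})
    (hmax : ∀ r ∈ maximalIdeal R, ‖algebraMap R E r‖ < 1)
    (hF : FixedInFrac R E Γ)
    (W : Subgroup (WithConv (A →ₐ[R] E))) [Finite W]
    (hWΓ : ∀ σ : Γ, ∀ f ∈ W, σ • f ∈ W)
    (hWcard : Nat.card W = p ^ 2) (hWp : ∀ f ∈ W, f ^ p = 1)
    (hiso : ∀ (σ : Γ₀) (y : E), ‖σ • y‖ = ‖y‖)
    (hin : ∀ (σ : Γ₀) (y : E), ‖y‖ ≤ 1 → ‖σ • y - y‖ < 1)
    (hirr : ∀ N : Subgroup (WithConv (A →ₐ[R] E)), N ≤ W →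
      (∀ σ : Γ₀, ∀ f ∈ N, σ • f ∈ N) → N = ⊥ ∨ N = W)
    {ϖ : E} (hϖ : ‖ϖ‖ ^ (p - 1) = ‖(p : E)‖) (hϖ0 : ϖ ≠ 0)
    (hϖΓ : ∀ σ : Γ₀, ∃ c : ℕ, ‖σ • ϖ - (c : E) * ϖ‖ < ‖ϖ‖)
    {ϖ₂ : E} (hϖ₂ : ‖ϖ₂‖ ^ (p ^ 2 - 1) = ‖(p : E)‖) (σ : Γ₀)
    {z : WithConv (A →ₐ[R] E)} (hzW : z ∈ W) (hz : z ≠ 1) (m : ℕ) (q : ℕ → ℤ)
    (hrel : ∏ i ∈ Finset.range m, (σ ^ i • z) ^ q i = 1) :
    ‖∑ i ∈ Finset.range m, (q i : E) * (σ • ϖ₂ / ϖ₂) ^ i‖ < 1 := by
  have hI : (closureIdeal W).IsHopfIdeal R := closureIdeal_isHopfIdeal hF W hWΓ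
  have htf : Module.IsTorsionFree R (A ⧸ closureIdeal W) := quot_closureIdeal_isTorsionFree W
  have hfin := closure_finite W hF hWΓ
  obtain ⟨g, hg⟩ := exists_closureIncl_eq W hF hWΓ hzW
  have hg1 : g ≠ 1 := by
    intro h
    apply hz
    rw [← hg, h, map_one]
  have hrelB : ∏ i ∈ Finset.range m, (σ ^ i • g) ^ q i = 1 := by
    apply closureIncl_injective W
    rw [map_prod, map_one, ← hrel]
    apply Finset.prod_congr rfl
    intro i _
    rw [map_zpow, closureIncl_smul, hg]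
  exact norm_sum_lt_one (R := R) (E := E) (H := A ⧸ closureIdeal W) p hpR hmax
    (closure_card_eq_finrank W hF hWΓ) ((closure_card W hF hWΓ).trans hWcard)
    (closure_ptsSeparate W) (closure_pow_eq_one W hF hWΓ hWp) hiso hin
    (closure_isIrr W hF hWΓ hirr) hϖ hϖ0 hϖΓ hϖ₂ σ hg1 m q hrelB

/-- The points of `W` generate elements of norm `‖p‖ ^ (1 / (p² - 1))`: there is a coordinate
`a` with `‖z a‖ ^ (p² - 1) = ‖p‖` for all `1 ≠ z ∈ W`. -/
theorem exists_norm_pow_eq (p : ℕ) [hp : Fact p.Prime]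
    (hpR : maximalIdeal R = Ideal.span {(p : R)})
    (hmax : ∀ r ∈ maximalIdeal R, ‖algebraMap R E r‖ < 1)
    (hF : FixedInFrac R E Γ)
    (W : Subgroup (WithConv (A →ₐ[R] E))) [Finite W]
    (hWΓ : ∀ σ : Γ, ∀ f ∈ W, σ • f ∈ W)
    (hWcard : Nat.card W = p ^ 2) (hWp : ∀ f ∈ W, f ^ p = 1)
    (hiso : ∀ (σ : Γ₀) (y : E), ‖σ • y‖ = ‖y‖)
    (hin : ∀ (σ : Γ₀) (y : E), ‖y‖ ≤ 1 → ‖σ • y - y‖ < 1)
    (hirr : ∀ N : Subgroup (WithConv (A →ₐ[R] E)), N ≤ W →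
      (∀ σ : Γ₀, ∀ f ∈ N, σ • f ∈ N) → N = ⊥ ∨ N = W)
    {ϖ : E} (hϖ : ‖ϖ‖ ^ (p - 1) = ‖(p : E)‖) (hϖ0 : ϖ ≠ 0)
    (hϖΓ : ∀ σ : Γ₀, ∃ c : ℕ, ‖σ • ϖ - (c : E) * ϖ‖ < ‖ϖ‖) :
    ∃ a : A, ∀ z ∈ W, z ≠ 1 → ‖z a‖ ^ (p ^ 2 - 1) = ‖(p : E)‖ := by
  obtain ⟨a, ha⟩ := RamPoint6.exists_coordinate p hpR hmax hF W hWΓ hWcard hWp hiso hin hirr
    hϖ hϖ0 hϖΓ (1 : WithConv (A →ₐ[R] E))
  refine ⟨a - algebraMap R A (counit a), fun z hzW hz => ?_⟩
  have := ha z hzW hz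
  rw [mul_one] at this
  have h1 : (1 : WithConv (A →ₐ[R] E)) a = algebraMap R E (counit a) := by simp
  rw [h1] at this
  rw [map_sub]
  have h2 : z (algebraMap R A (counit (R := R) a)) = algebraMap R E (counit (R := R) a) :=
    z.ofConv.commutes _
  rw [h2]
  exact this

end subgroup

end

end Fermat.Agent.TW.FLAT.Raynaud6
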