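/-
Programme T, chapter FLAT, file ModuleLL6: MODULE-LEVEL exports of the local-local chain (no Hopf
algebras in the statements).  Raynaud6 (RamPoint6, OrderPSq6) + Points6.HasFlatModel.

Transport (`e : G ≃* Multiplicative Q`, `W : AddSubgroup Q`): `pull e W : Subgroup G`, `mem_pull`,
`pullEquiv`, `card_pull`, `finite_pull`, `pow_eq_one_of_mem_pull`, `smul_mem_pull`, `pull_irr`.
Hopf level, lines: `smul_eq_or_of_card_prime` (a `Γ`-stable subgroup `W` of order `p` of the points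
of a finite flat group scheme over an unramified base: `(∀ σ : Γ₀, ∀ z ∈ W, σ • z = z) ∨
(∀ σ z c, ‖σ • ϖ - c * ϖ‖ < ‖ϖ‖ → σ • z = z ^ c)`).

MODULE LEVEL.  Setting: `R : Type` a local PID (domain) with `hpR : maximalIdeal R = span {(p : R)}`,
`Ω : Type` an ultrametric normed field with `[Algebra R Ω] [FaithfulSMul R Ω] [NormLeOne R Ω]`,
`hmax : ∀ r ∈ maximalIdeal R, ‖algebraMap R Ω r‖ < 1`; `Γ` a group acting on `Ω`
(`[MulSemiringAction Γ Ω] [SMulCommClass Γ R Ω]`) with `hF : FixedInFrac R Ω Γ`;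
`h : HasFlatModel R Ω Γ Q act`; `I : Subgroup Γ` (inertia) with
`hiso : ∀ σ ∈ I, ∀ y, ‖σ • y‖ = ‖y‖`, `hin : ∀ σ ∈ I, ∀ y, ‖y‖ ≤ 1 → ‖σ • y - y‖ < 1`;
`ϖ : Ω` with `hϖ : ‖ϖ‖ ^ (p - 1) = ‖(p : Ω)‖`, `hϖ0 : ϖ ≠ 0`,
`hϖΓ : ∀ σ ∈ I, ∃ c : ℕ, ‖σ • ϖ - c * ϖ‖ < ‖ϖ‖`;
`W : AddSubgroup Q` with `hWΓ : ∀ σ : Γ, ∀ w ∈ W, act σ w ∈ W`.
For `Nat.card W = p ^ 2`, `hWp : ∀ w ∈ W, p • w = 0`,
`hirr : ∀ N ≤ W, (∀ σ ∈ I, ∀ w ∈ N, act σ w ∈ N) → N = ⊥ ∨ N = W`:
* **`exists_ram_element … (x : Q) : ∃ z : Ω, ‖z‖ ≤ 1 ∧ ∀ σ : Γ, (act σ x = x → σ • z = z) ∧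
    (act σ x - x ∈ W → act σ x ≠ x → ‖σ • z - z‖ ^ (p ^ 2 - 1) = ‖(p : Ω)‖)`**   (LL-RAM);
* **`norm_sum_lt_one … (hϖ₂ : ‖ϖ₂‖ ^ (p ^ 2 - 1) = ‖(p : Ω)‖) (hσ : σ ∈ I) (hwW : w ∈ W)
    (hw : w ≠ 0) m (q : ℕ → ℤ) (hrel : ∑ i ∈ range m, q i • act (σ ^ i) w = 0) :
    ‖∑ i ∈ range m, (q i : Ω) * (σ • ϖ₂ / ϖ₂) ^ i‖ < 1`**   (Raynaud, level 2, eigenvalue form);
* **`exists_coordinate_fun … : ∃ f : Q → Ω, (∀ σ w, f (act σ w) = σ • f w) ∧ (∀ w, ‖f w‖ ≤ 1) ∧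
    ∀ w ∈ W, w ≠ 0 → ‖f w‖ ^ (p ^ 2 - 1) = ‖(p : Ω)‖`**   (B3).
For `Nat.card W = p`:
* **`act_eq_or_of_card_prime … : (∀ σ ∈ I, ∀ w ∈ W, act σ w = w) ∨
    (∀ σ ∈ I, ∀ w ∈ W, ∀ c : ℕ, ‖σ • ϖ - c * ϖ‖ < ‖ϖ‖ → act σ w = c • w)`**.
Also `exists_free_model`, `coe_smul_pts`, `symm_act`.
-/
import Mathlib
import Fermat.Agent.TW.FLAT.Raynaud6

set_option autoImplicit false
set_option linter.unusedSectionVars false

namespace Fermat.Agent.TW.FLAT.ModuleLL6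

open WithConv Coalgebra Module IsLocalRing Fermat.Agent.TW.FLAT.Points6
  Fermat.Agent.TW.FLAT.DiffIdeal6 Fermat.Agent.TW.FLAT.BallPoints6
  Fermat.Agent.TW.FLAT.Descent6 Fermat.Agent.TW.FLAT.Closure6

noncomputable section

/-! ### Transport of subgroups along `G ≃* Multiplicative Q` -/

section transport

variable {G : Type*} [Group G] {Q : Type*} [AddCommGroup Q] (e : G ≃* Multiplicative Q)
  (W : AddSubgroup Q)

/-- The subgroup of `G` corresponding to `W`. -/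
def pull : Subgroup G where
  carrier := {f | Multiplicative.toAdd (e f) ∈ W}
  one_mem' := by
    change Multiplicative.toAdd (e 1) ∈ W
    rw [map_one]; exact W.zero_mem
  mul_mem' := by
    intro f g hf hg
    change Multiplicative.toAdd (e (f * g)) ∈ W
    rw [map_mul]; exact W.add_mem hf hg
  inv_mem' := by
    intro f hf
    change Multiplicative.toAdd (e f⁻¹) ∈ W
    rw [map_inv]; exact W.neg_mem hf

theorem mem_pull {f : G} : f ∈ pull e W ↔ Multiplicative.toAdd (e f) ∈ W := Iff.rfl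

/-- `pull e W ≃ W`. -/
def pullEquiv : pull e W ≃ W where
  toFun f := ⟨Multiplicative.toAdd (e f.1), f.2⟩
  invFun w := ⟨e.symm (Multiplicative.ofAdd w.1), by
    rw [mem_pull, MulEquiv.apply_symm_apply]; exact w.2⟩
  left_inv f := by
    apply Subtype.ext
    change e.symm (Multiplicative.ofAdd (Multiplicative.toAdd (e f.1))) = f.1
    rw [ofAdd_toAdd, MulEquiv.symm_apply_apply]
  right_inv w := by
    apply Subtype.ext
    change Multiplicative.toAdd (e (e.symm (Multiplicative.ofAdd w.1))) = w.1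
    rw [MulEquiv.apply_symm_apply, toAdd_ofAdd]

theorem card_pull : Nat.card (pull e W) = Nat.card W := Nat.card_congr (pullEquiv e W)

theorem finite_pull [Finite W] : Finite (pull e W) := Finite.of_equiv _ (pullEquiv e W).symm

theorem pow_eq_one_of_mem_pull {n : ℕ} (hW : ∀ w ∈ W, n • w = 0) {f : G} (hf : f ∈ pull e W) :
    f ^ n = 1 := by
  apply e.injective
  rw [map_pow, map_one]
  apply Multiplicative.toAdd.injective
  rw [toAdd_pow, toAdd_one]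
  exact hW _ hf

variable {Γ : Type*} [SMul Γ G] {act : Γ → Q → Q}
  (heq : ∀ (σ : Γ) (f : G), Multiplicative.toAdd (e (σ • f)) = act σ (Multiplicative.toAdd (e f)))
include heq

theorem smul_mem_pull (S : Set Γ) (hW : ∀ σ ∈ S, ∀ w ∈ W, act σ w ∈ W) {σ : Γ} (hσ : σ ∈ S) {f : G}
    (hf : f ∈ pull e W) : σ • f ∈ pull e W := by
  rw [mem_pull, heq]
  exact hW σ hσ _ hf

/-- Irreducibility transfers. -/
theorem pull_irr (S : Set Γ)
    (hirr : ∀ N : AddSubgroup Q, N ≤ W → (∀ σ ∈ S, ∀ w ∈ N, act σ w ∈ N) → N = ⊥ ∨ N = W)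
    (N : Subgroup G) (hNW : N ≤ pull e W) (hN : ∀ σ ∈ S, ∀ f ∈ N, σ • f ∈ N) :
    N = ⊥ ∨ N = pull e W := by
  -- the additive subgroup corresponding to `N`
  let N' : AddSubgroup Q :=
    { carrier := {w | e.symm (Multiplicative.ofAdd w) ∈ N}
      zero_mem' := by
        change e.symm (Multiplicative.ofAdd 0) ∈ N
        rw [ofAdd_zero, map_one]; exact N.one_mem
      add_mem' := by
        intro a b ha hb
        change e.symm (Multiplicative.ofAdd (a + b)) ∈ N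
        rw [ofAdd_add, map_mul]; exact N.mul_mem ha hb
      neg_mem' := by
        intro a ha
        change e.symm (Multiplicative.ofAdd (-a)) ∈ N
        rw [ofAdd_neg, map_inv]; exact N.inv_mem ha }
  have hmem : ∀ f : G, f ∈ N ↔ Multiplicative.toAdd (e f) ∈ N' := by
    intro f
    change f ∈ N ↔ e.symm (Multiplicative.ofAdd (Multiplicative.toAdd (e f))) ∈ N
    rw [ofAdd_toAdd, MulEquiv.symm_apply_apply]
  have hN'W : N' ≤ W := by
    intro w hw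
    have := hNW hw
    rwa [mem_pull, MulEquiv.apply_symm_apply, toAdd_ofAdd] at this
  have hN'S : ∀ σ ∈ S, ∀ w ∈ N', act σ w ∈ N' := by
    intro σ hσ w hw
    have h1 := hN σ hσ _ hw
    rw [hmem, heq, MulEquiv.apply_symm_apply, toAdd_ofAdd] at h1
    exact h1
  rcases hirr N' hN'W hN'S with h | h
  · left
    rw [eq_bot_iff]
    intro f hf
    rw [hmem, h, AddSubgroup.mem_bot] at hf
    rw [Subgroup.mem_bot]
    apply e.injective
    rw [map_one]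
    exact Multiplicative.toAdd.injective hf
  · right
    apply le_antisymm hNW
    intro f hf
    rw [hmem, h]
    exact hf

end transport

/-! ### Lines: Hopf level, for a stable subgroup of order `p` -/

section line

open Fermat.Agent.TW.FLAT.Raynaud6 Fermat.Agent.TW.FLAT.KilledBy6

variable {R : Type*} [CommRing R] [IsDomain R] [IsPrincipalIdealRing R] [IsLocalRing R]
  {E : Type*} [NormedField E] [IsUltrametricDist E] [Algebra R E] [FaithfulSMul R E]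
  [NormLeOne R E]
  {A : Type*} [CommRing A] [HopfAlgebra R A] [Coalgebra.IsCocomm R A] [Module.Free R A]
  [Module.Finite R A]
  {Γ : Type*} [Group Γ] [MulSemiringAction Γ E] [SMulCommClass Γ R E]
  {Γ₀ : Type*} [Group Γ₀] [MulSemiringAction Γ₀ E] [SMulCommClass Γ₀ R E]

/-- A stable subgroup of order `p` of the points of a finite flat group scheme over an unramified
base: inertia acts trivially or by the fundamental character of level one. -/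
theorem smul_eq_or_of_card_prime (p : ℕ) [hp : Fact p.Prime]
    (hpR : maximalIdeal R = Ideal.span {(p : R)})
    (hmax : ∀ r ∈ maximalIdeal R, ‖algebraMap R E r‖ < 1)
    (hF : FixedInFrac R E Γ)
    (W : Subgroup (WithConv (A →ₐ[R] E))) [Finite W]
    (hWΓ : ∀ σ : Γ, ∀ f ∈ W, σ • f ∈ W) (hWcard : Nat.card W = p)
    (hiso : ∀ (σ : Γ₀) (y : E), ‖σ • y‖ = ‖y‖)
    (hin : ∀ (σ : Γ₀) (y : E), ‖y‖ ≤ 1 → ‖σ • y - y‖ < 1)
    {ϖ : E} (hϖ : ‖ϖ‖ ^ (p - 1) = ‖(p : E)‖) (hϖ0 : ϖ ≠ 0) :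
    (∀ (σ : Γ₀), ∀ z ∈ W, σ • z = z) ∨
      (∀ (σ : Γ₀), ∀ z ∈ W, ∀ c : ℕ, ‖σ • ϖ - (c : E) * ϖ‖ < ‖ϖ‖ → σ • z = z ^ c) := by
  have hI : (closureIdeal W).IsHopfIdeal R := closureIdeal_isHopfIdeal hF W hWΓ
  have htf : Module.IsTorsionFree R (A ⧸ closureIdeal W) := quot_closureIdeal_isTorsionFree W
  have hfin := closure_finite W hF hWΓ
  rcases OrderPSq6.smul_eq_or_of_card_prime (R := R) (E := E) (H := A ⧸ closureIdeal W)
    (Γ := Γ₀) p hpR hmax (closure_card_eq_finrank W hF hWΓ)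
    ((closure_card W hF hWΓ).trans hWcard) (closure_ptsSeparate W) hiso hin hϖ hϖ0 with h | h
  · left
    intro σ z hz
    obtain ⟨g, rfl⟩ := exists_closureIncl_eq W hF hWΓ hz
    rw [← closureIncl_smul, h]
  · right
    intro σ z hz c hc
    obtain ⟨g, rfl⟩ := exists_closureIncl_eq W hF hWΓ hz
    rw [← closureIncl_smul, h σ g c hc, map_pow]

end line

/-! ### Module level -/

section module

variable {R : Type} [CommRing R] [IsDomain R] [IsPrincipalIdealRing R] [IsLocalRing R]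
  {Ω : Type} [NormedField Ω] [IsUltrametricDist Ω] [Algebra R Ω] [FaithfulSMul R Ω]
  [NormLeOne R Ω]
  {Γ : Type} [Group Γ] [MulSemiringAction Γ Ω] [SMulCommClass Γ R Ω]
  {Q : Type} [AddCommGroup Q] {act : Γ → Q → Q}

omit [IsDomain R] [IsPrincipalIdealRing R] [FaithfulSMul R Ω] [NormLeOne R Ω]
  [IsUltrametricDist Ω] in
/-- A flat model over a local ring is free. -/
theorem exists_free_model (h : HasFlatModel R Ω Γ Q act) :
    ∃ (H : Type) (_ : CommRing H) (_ : HopfAlgebra R H) (_ : Coalgebra.IsCocomm R H)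
      (_ : Module.Free R H) (_ : Module.Finite R H)
      (e : WithConv (H →ₐ[R] Ω) ≃* Multiplicative Q),
      ∀ (σ : Γ) (f : WithConv (H →ₐ[R] Ω)),
        Multiplicative.toAdd (e (σ • f)) = act σ (Multiplicative.toAdd (e f)) := by
  obtain ⟨H, i1, i2, hfin, hflat, hco, e, heq⟩ := hasFlatModel_iff_mulEquiv.mp h
  exact ⟨H, i1, i2, hco, Module.free_of_flat_of_isLocalRing, hfin, e, heq⟩

variable (I : Subgroup Γ)

/-- The action of the subgroup `I` on points is the restriction of the action of `Γ`. -/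
theorem coe_smul_pts {H : Type*} [CommRing H] [HopfAlgebra R H] (σ : I)
    (f : WithConv (H →ₐ[R] Ω)) : σ • f = (σ : Γ) • f := by
  ext a; rfl

/-- **(LL-RAM), module level.**  `Q` a flat `Γ`-module over an unramified base, `I ≤ Γ` an
inertia-like subgroup, `W ≤ Q` a `Γ`-stable subgroup of order `p²`, killed by `p`, irreducible
under `I`; `x : Q`.  There is an integral `z : Ω` fixed by the stabiliser of `x` and moved by
exactly `‖p‖ ^ (1 / (p² - 1))` by every `σ` with `0 ≠ σ x - x ∈ W`. -/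
theorem exists_ram_element (p : ℕ) [hp : Fact p.Prime]
    (hpR : maximalIdeal R = Ideal.span {(p : R)})
    (hmax : ∀ r ∈ maximalIdeal R, ‖algebraMap R Ω r‖ < 1)
    (hF : FixedInFrac R Ω Γ) (h : HasFlatModel R Ω Γ Q act)
    (W : AddSubgroup Q) (hWΓ : ∀ σ : Γ, ∀ w ∈ W, act σ w ∈ W)
    (hWcard : Nat.card W = p ^ 2) (hWp : ∀ w ∈ W, p • w = 0)
    (hiso : ∀ σ ∈ I, ∀ y : Ω, ‖σ • y‖ = ‖y‖)
    (hin : ∀ σ ∈ I, ∀ y : Ω, ‖y‖ ≤ 1 → ‖σ • y - y‖ < 1)
    (hirr : ∀ N : AddSubgroup Q, N ≤ W → (∀ σ ∈ I, ∀ w ∈ N, act σ w ∈ N) → N = ⊥ ∨ N = W)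
    {ϖ : Ω} (hϖ : ‖ϖ‖ ^ (p - 1) = ‖(p : Ω)‖) (hϖ0 : ϖ ≠ 0)
    (hϖΓ : ∀ σ ∈ I, ∃ c : ℕ, ‖σ • ϖ - (c : Ω) * ϖ‖ < ‖ϖ‖)
    (x : Q) :
    ∃ z : Ω, ‖z‖ ≤ 1 ∧ ∀ σ : Γ, (act σ x = x → σ • z = z) ∧
      (act σ x - x ∈ W → act σ x ≠ x → ‖σ • z - z‖ ^ (p ^ 2 - 1) = ‖(p : Ω)‖) := by
  obtain ⟨H, i1, i2, hco, hfree, hfin, e, heq⟩ := exists_free_model h
  have hWfin : Finite W := Nat.finite_of_card_ne_zero (by
    rw [hWcard]; exact pow_ne_zero _ hp.out.ne_zero)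
  have hfinP : Finite (pull e W) := finite_pull e W
  set x' : WithConv (H →ₐ[R] Ω) := e.symm (Multiplicative.ofAdd x) with hx'
  have hex' : Multiplicative.toAdd (e x') = x := by
    rw [hx', MulEquiv.apply_symm_apply, toAdd_ofAdd]
  obtain ⟨z, hz1, hz⟩ := RamPoint6.exists_ram_element (Γ := Γ) (Γ₀ := I) p hpR hmax hF (pull e W)
    (fun σ f hf => smul_mem_pull e W heq Set.univ (fun σ _ w hw => hWΓ σ w hw) (Set.mem_univ σ) hf)
    ((card_pull e W).trans hWcard)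
    (fun f hf => pow_eq_one_of_mem_pull e W hWp hf)
    (fun σ y => hiso σ σ.2 y) (fun σ y hy => hin σ σ.2 y hy)
    (fun N hNW hN => pull_irr e W heq (I : Set Γ) hirr N hNW
      (fun σ hσ f hf => by
        have := hN ⟨σ, hσ⟩ f hf
        rwa [coe_smul_pts] at this))
    hϖ hϖ0 (fun σ => hϖΓ σ σ.2) x'
  have hact : ∀ σ : Γ, act σ x = Multiplicative.toAdd (e (σ • x')) := by
    intro σ; rw [heq, hex']
  have hfix : ∀ σ : Γ, act σ x = x ↔ σ • x' = x' := by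
    intro σ
    rw [hact]
    constructor
    · intro h1
      apply e.injective
      apply Multiplicative.toAdd.injective
      rw [h1, hex']
    · intro h1
      rw [h1, hex']
  refine ⟨z, hz1, fun σ => ⟨?_, ?_⟩⟩
  · intro hσ
    have hmem : σ • x' * x'⁻¹ ∈ pull e W := by
      rw [(hfix σ).mp hσ, mul_inv_cancel]; exact (pull e W).one_mem
    exact ((hz σ hmem).1).mpr ((hfix σ).mp hσ)
  · intro hσW hσne
    have hmem : σ • x' * x'⁻¹ ∈ pull e W := by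
      rw [mem_pull, map_mul, map_inv, toAdd_mul, toAdd_inv, ← hact, hex', ← sub_eq_add_neg]
      exact hσW
    have h2 := hz σ hmem
    apply h2.2
    intro h3
    exact hσne ((hfix σ).mpr (h2.1.mp h3))

omit [IsDomain R] [IsPrincipalIdealRing R] [IsLocalRing R] [FaithfulSMul R Ω] [NormLeOne R Ω]
  [IsUltrametricDist Ω] in
/-- `e.symm` is equivariant. -/
theorem symm_act {H : Type} [CommRing H] [HopfAlgebra R H]
    (e : WithConv (H →ₐ[R] Ω) ≃* Multiplicative Q)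
    (heq : ∀ (σ : Γ) (f : WithConv (H →ₐ[R] Ω)),
      Multiplicative.toAdd (e (σ • f)) = act σ (Multiplicative.toAdd (e f))) (σ : Γ) (w : Q) :
    e.symm (Multiplicative.ofAdd (act σ w)) = σ • e.symm (Multiplicative.ofAdd w) := by
  apply e.injective
  apply Multiplicative.toAdd.injective
  rw [MulEquiv.apply_symm_apply, toAdd_ofAdd, heq, MulEquiv.apply_symm_apply, toAdd_ofAdd]

/-- **Raynaud level 2, module level**: if `Q(T_σ) w = 0` for some `0 ≠ w ∈ W` (`σ ∈ I`), then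
`Q(θ₂(σ)) ≡ 0`. -/
theorem norm_sum_lt_one (p : ℕ) [hp : Fact p.Prime]
    (hpR : maximalIdeal R = Ideal.span {(p : R)})
    (hmax : ∀ r ∈ maximalIdeal R, ‖algebraMap R Ω r‖ < 1)
    (hF : FixedInFrac R Ω Γ) (h : HasFlatModel R Ω Γ Q act)
    (W : AddSubgroup Q) (hWΓ : ∀ σ : Γ, ∀ w ∈ W, act σ w ∈ W)
    (hWcard : Nat.card W = p ^ 2) (hWp : ∀ w ∈ W, p • w = 0)
    (hiso : ∀ σ ∈ I, ∀ y : Ω, ‖σ • y‖ = ‖y‖)
    (hin : ∀ σ ∈ I, ∀ y : Ω, ‖y‖ ≤ 1 → ‖σ • y - y‖ < 1)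
    (hirr : ∀ N : AddSubgroup Q, N ≤ W → (∀ σ ∈ I, ∀ w ∈ N, act σ w ∈ N) → N = ⊥ ∨ N = W)
    {ϖ : Ω} (hϖ : ‖ϖ‖ ^ (p - 1) = ‖(p : Ω)‖) (hϖ0 : ϖ ≠ 0)
    (hϖΓ : ∀ σ ∈ I, ∃ c : ℕ, ‖σ • ϖ - (c : Ω) * ϖ‖ < ‖ϖ‖)
    {ϖ₂ : Ω} (hϖ₂ : ‖ϖ₂‖ ^ (p ^ 2 - 1) = ‖(p : Ω)‖) {σ : Γ} (hσ : σ ∈ I)
    {w : Q} (hwW : w ∈ W) (hw : w ≠ 0) (m : ℕ) (q : ℕ → ℤ)
    (hrel : ∑ i ∈ Finset.range m, q i • act (σ ^ i) w = 0) :
    ‖∑ i ∈ Finset.range m, (q i : Ω) * (σ • ϖ₂ / ϖ₂) ^ i‖ < 1 := by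
  obtain ⟨H, i1, i2, hco, hfree, hfin, e, heq⟩ := exists_free_model h
  have hWfin : Finite W := Nat.finite_of_card_ne_zero (by
    rw [hWcard]; exact pow_ne_zero _ hp.out.ne_zero)
  have hfinP : Finite (pull e W) := finite_pull e W
  set z : WithConv (H →ₐ[R] Ω) := e.symm (Multiplicative.ofAdd w) with hz
  have hzW : z ∈ pull e W := by
    rw [mem_pull, hz, MulEquiv.apply_symm_apply, toAdd_ofAdd]; exact hwW
  have hz1 : z ≠ 1 := by
    intro h1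
    apply hw
    have := congrArg (fun f => Multiplicative.toAdd (e f)) h1
    simpa [hz] using this
  have hrel' : ∏ i ∈ Finset.range m, ((⟨σ, hσ⟩ : I) ^ i • z) ^ q i = 1 := by
    apply e.injective
    apply Multiplicative.toAdd.injective
    rw [map_prod, map_one, toAdd_one, toAdd_prod, ← hrel]
    apply Finset.sum_congr rfl
    intro i _
    rw [map_zpow, toAdd_zpow, coe_smul_pts, Subgroup.coe_pow, heq, hz,
      MulEquiv.apply_symm_apply, toAdd_ofAdd]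
  exact Raynaud6.norm_sum_lt_one_of_mem (Γ := Γ) (Γ₀ := I) p hpR hmax hF (pull e W)
    (fun σ f hf => smul_mem_pull e W heq Set.univ (fun σ _ w hw => hWΓ σ w hw) (Set.mem_univ σ) hf)
    ((card_pull e W).trans hWcard)
    (fun f hf => pow_eq_one_of_mem_pull e W hWp hf)
    (fun σ y => hiso σ σ.2 y) (fun σ y hy => hin σ σ.2 y hy)
    (fun N hNW hN => pull_irr e W heq (I : Set Γ) hirr N hNW
      (fun σ hσ f hf => by
        have := hN ⟨σ, hσ⟩ f hf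
        rwa [coe_smul_pts] at this))
    hϖ hϖ0 (fun σ => hϖΓ σ σ.2) hϖ₂ ⟨σ, hσ⟩ hzW hz1 m q hrel'

/-- **(B3), module level**: an equivariant integral coordinate on `Q` whose values on `W ∖ 0`
have norm `‖p‖ ^ (1 / (p² - 1))`. -/
theorem exists_coordinate_fun (p : ℕ) [hp : Fact p.Prime]
    (hpR : maximalIdeal R = Ideal.span {(p : R)})
    (hmax : ∀ r ∈ maximalIdeal R, ‖algebraMap R Ω r‖ < 1)
    (hF : FixedInFrac R Ω Γ) (h : HasFlatModel R Ω Γ Q act)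
    (W : AddSubgroup Q) (hWΓ : ∀ σ : Γ, ∀ w ∈ W, act σ w ∈ W)
    (hWcard : Nat.card W = p ^ 2) (hWp : ∀ w ∈ W, p • w = 0)
    (hiso : ∀ σ ∈ I, ∀ y : Ω, ‖σ • y‖ = ‖y‖)
    (hin : ∀ σ ∈ I, ∀ y : Ω, ‖y‖ ≤ 1 → ‖σ • y - y‖ < 1)
    (hirr : ∀ N : AddSubgroup Q, N ≤ W → (∀ σ ∈ I, ∀ w ∈ N, act σ w ∈ N) → N = ⊥ ∨ N = W)
    {ϖ : Ω} (hϖ : ‖ϖ‖ ^ (p - 1) = ‖(p : Ω)‖) (hϖ0 : ϖ ≠ 0)
    (hϖΓ : ∀ σ ∈ I, ∃ c : ℕ, ‖σ • ϖ - (c : Ω) * ϖ‖ < ‖ϖ‖) :
    ∃ f : Q → Ω, (∀ (σ : Γ) (w : Q), f (act σ w) = σ • f w) ∧ (∀ w, ‖f w‖ ≤ 1) ∧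
      ∀ w ∈ W, w ≠ 0 → ‖f w‖ ^ (p ^ 2 - 1) = ‖(p : Ω)‖ := by
  obtain ⟨H, i1, i2, hco, hfree, hfin, e, heq⟩ := exists_free_model h
  have hWfin : Finite W := Nat.finite_of_card_ne_zero (by
    rw [hWcard]; exact pow_ne_zero _ hp.out.ne_zero)
  have hfinP : Finite (pull e W) := finite_pull e W
  obtain ⟨a, ha⟩ := Raynaud6.exists_norm_pow_eq (Γ := Γ) (Γ₀ := I) p hpR hmax hF (pull e W)
    (fun σ f hf => smul_mem_pull e W heq Set.univ (fun σ _ w hw => hWΓ σ w hw) (Set.mem_univ σ) hf)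
    ((card_pull e W).trans hWcard)
    (fun f hf => pow_eq_one_of_mem_pull e W hWp hf)
    (fun σ y => hiso σ σ.2 y) (fun σ y hy => hin σ σ.2 y hy)
    (fun N hNW hN => pull_irr e W heq (I : Set Γ) hirr N hNW
      (fun σ hσ f hf => by
        have := hN ⟨σ, hσ⟩ f hf
        rwa [coe_smul_pts] at this))
    hϖ hϖ0 (fun σ => hϖΓ σ σ.2)
  have : Algebra.IsIntegral R H := inferInstance
  refine ⟨fun w => (e.symm (Multiplicative.ofAdd w)) a, ?_, ?_, ?_⟩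
  · intro σ w
    change (e.symm (Multiplicative.ofAdd (act σ w))) a = σ • (e.symm (Multiplicative.ofAdd w)) a
    rw [symm_act e heq, Points6.smul_apply]
  · intro w
    exact norm_apply_le_one (e.symm (Multiplicative.ofAdd w)).ofConv a
  · intro w hwW hw
    apply ha
    · rw [mem_pull, MulEquiv.apply_symm_apply, toAdd_ofAdd]; exact hwW
    · intro h1
      apply hw
      have := congrArg (fun f => Multiplicative.toAdd (e f)) h1
      simpa using this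

/-- **Lines, module level**: a `Γ`-stable subgroup of order `p` of a flat module over an
unramified base: inertia acts trivially or by the fundamental character of level one. -/
theorem act_eq_or_of_card_prime (p : ℕ) [hp : Fact p.Prime]
    (hpR : maximalIdeal R = Ideal.span {(p : R)})
    (hmax : ∀ r ∈ maximalIdeal R, ‖algebraMap R Ω r‖ < 1)
    (hF : FixedInFrac R Ω Γ) (h : HasFlatModel R Ω Γ Q act)
    (W : AddSubgroup Q) (hWΓ : ∀ σ : Γ, ∀ w ∈ W, act σ w ∈ W)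
    (hWcard : Nat.card W = p)
    (hiso : ∀ σ ∈ I, ∀ y : Ω, ‖σ • y‖ = ‖y‖)
    (hin : ∀ σ ∈ I, ∀ y : Ω, ‖y‖ ≤ 1 → ‖σ • y - y‖ < 1)
    {ϖ : Ω} (hϖ : ‖ϖ‖ ^ (p - 1) = ‖(p : Ω)‖) (hϖ0 : ϖ ≠ 0) :
    (∀ σ ∈ I, ∀ w ∈ W, act σ w = w) ∨
      (∀ σ ∈ I, ∀ w ∈ W, ∀ c : ℕ, ‖σ • ϖ - (c : Ω) * ϖ‖ < ‖ϖ‖ → act σ w = c • w) := by
  obtain ⟨H, i1, i2, hco, hfree, hfin, e, heq⟩ := exists_free_model h
  have hWfin : Finite W := Nat.finite_of_card_ne_zero (by
    rw [hWcard]; exact hp.out.ne_zero)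
  have hfinP : Finite (pull e W) := finite_pull e W
  have hback : ∀ w : Q, Multiplicative.toAdd (e (e.symm (Multiplicative.ofAdd w))) = w := by
    intro w; rw [MulEquiv.apply_symm_apply, toAdd_ofAdd]
  rcases smul_eq_or_of_card_prime (Γ := Γ) (Γ₀ := I) p hpR hmax hF (pull e W)
    (fun σ f hf => smul_mem_pull e W heq Set.univ (fun σ _ w hw => hWΓ σ w hw) (Set.mem_univ σ) hf)
    ((card_pull e W).trans hWcard)
    (fun σ y => hiso σ σ.2 y) (fun σ y hy => hin σ σ.2 y hy) hϖ hϖ0 with h1 | h1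
  · left
    intro σ hσ w hw
    have h2 := h1 ⟨σ, hσ⟩ (e.symm (Multiplicative.ofAdd w)) (by rw [mem_pull, hback]; exact hw)
    rw [coe_smul_pts] at h2
    have h3 := heq σ (e.symm (Multiplicative.ofAdd w))
    rw [h2, hback] at h3
    exact h3.symm
  · right
    intro σ hσ w hw c hc
    have h2 := h1 ⟨σ, hσ⟩ (e.symm (Multiplicative.ofAdd w)) (by rw [mem_pull, hback]; exact hw)
      c hc
    rw [coe_smul_pts] at h2
    have h3 := heq σ (e.symm (Multiplicative.ofAdd w))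
    rw [h2, hback, map_pow, toAdd_pow, hback] at h3
    exact h3.symm

end module

end

end Fermat.Agent.TW.FLAT.ModuleLL6
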