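/-
Programme T (S56), chapter T/FLAT, local-local chain, (S-STRUCT) — helper2.

`LLBase2`: helper6's module-level exports (`ModuleLL6`) instantiated over lead's unramified base
(`UnramBase0`): `V ≤ Gq p` an open subgroup (containing a level), `F₀ := unrF p V` (fixed field of
`V · Iq`), `R := R0 p F₀`, `Γ := Gam p F₀ = V ⊔ Iq`, inertia `Iq p`.  `M` a `Gq p`-module with a flat
model over `ℤ_p`; all statements are about elements `σ : Gq p` (no subtypes).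

* `line_act_eq_or`: a `V · Iq`-stable subgroup of order `p`: inertia acts trivially or by `ω`;
* `plane_norm_sum_lt_one`: Raynaud level 2, eigenvalue form, for a `V · Iq`-stable subgroup of order
  `p²` irreducible under inertia;
* `plane_coordinate`: the equivariant coordinate with `‖f w‖ ^ (p² - 1) = ‖p‖` on `W ∖ 0`.
-/
import Mathlib
import Fermat.Agent.TW.FLAT.ModuleLL6
import Fermat.Agent.TW.FLAT.FlatRam0

set_option autoImplicit false
set_option linter.unusedSectionVars false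
set_option linter.style.haveILetI false

namespace Fermat.Agent.TW.FLAT.LLBase2

open Fermat.Agent.TW.FLAT.Points6 Fermat.Agent.TW.FLAT.Descent6 Fermat.Agent.TW.LOC.Defs2
  Fermat.Agent.TW.FLAT.UnramBase0 Fermat.Agent.TW.LOC.TameProfinite4
  Fermat.Agent.TW.FLAT.BallPoints6 Fermat.Agent.TW.FLAT.FlatRam0
  Fermat.Agent.PT.GLUE.Objects21

noncomputable section

variable (p : ℕ) [Fact p.Prime]

local notation "Ω" => PadicAlgCl p

/-- `σ (ζ - 1) ≡ c (ζ - 1)` modulo higher order terms when `σ ζ = ζ ^ c`. -/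
theorem norm_zeta_sub_lt (ζ : Ω) (hζ : IsPrimitiveRoot ζ p) (σ : Gq p) (c : ℕ)
    (hc : σ ζ = ζ ^ c) : ‖σ (ζ - 1) - (c : Ω) * (ζ - 1)‖ < ‖ζ - 1‖ := by
  have hp : p.Prime := Fact.out
  have hlt : ‖ζ - 1‖ < 1 :=
    KummerTop0.norm_zeta_sub_one_lt_one hp hζ (KummerTop0.norm_natCast_q_lt_one p)
  have hne : ζ - 1 ≠ 0 := sub_ne_zero.2 (hζ.ne_one hp.one_lt)
  have hpos : 0 < ‖ζ - 1‖ := norm_pos_iff.2 hne
  have hgeom : ζ ^ c - 1 = (ζ - 1) * ∑ i ∈ Finset.range c, ζ ^ i := by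
    rw [mul_comm, geom_sum_mul]
  have hζ1 : ‖ζ‖ = 1 := by
    have h1 : ‖ζ‖ ^ p = 1 := by rw [← norm_pow, hζ.pow_eq_one, norm_one]
    exact (pow_eq_one_iff_of_nonneg (norm_nonneg _) hp.ne_zero).1 h1
  have hsum : ∀ n : ℕ, ‖∑ i ∈ Finset.range n, (ζ ^ i - 1)‖ ≤ ‖ζ - 1‖ := by
    intro n
    apply IsUltrametricDist.norm_sum_le_of_forall_le_of_nonneg (norm_nonneg _)
    intro i _
    exact KummerTop0.norm_pow_sub_one_le ζ hζ1.le i
  have heq : σ (ζ - 1) - (c : Ω) * (ζ - 1) =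
      (ζ - 1) * ∑ i ∈ Finset.range c, (ζ ^ i - 1) := by
    rw [map_sub, map_one, hc, hgeom, Finset.sum_sub_distrib]
    simp
    ring
  rw [heq, norm_mul]
  calc ‖ζ - 1‖ * ‖∑ i ∈ Finset.range c, (ζ ^ i - 1)‖ ≤ ‖ζ - 1‖ * ‖ζ - 1‖ :=
        mul_le_mul_of_nonneg_left (hsum c) hpos.le
    _ < ‖ζ - 1‖ * 1 := mul_lt_mul_of_pos_left hlt hpos
    _ = ‖ζ - 1‖ := mul_one _

variable (V : Subgroup (Gq p))

theorem finiteDimensional_unrF' (hV : ∃ U ∈ (levelLoc p).sets, U ≤ V) :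
    FiniteDimensional ℚ_[p] (unrF p V) := finiteDimensional_unrF p V hV

section Module

variable {p V}
variable (hV : ∃ U ∈ (levelLoc p).sets, U ≤ V)
  {M : Type} [AddCommGroup M] {act : Gq p → M → M}
  (hfl : HasFlatModel ℤ_[p] (PadicAlgCl p) (Gq p) M act)
  (ζ : PadicAlgCl p) (hζ : IsPrimitiveRoot ζ p)

include hV hfl hζ

/-- **Lines**: a `V · Iq`-stable subgroup of order `p` of a flat module: inertia acts trivially or
through the mod `p` cyclotomic character. -/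
theorem line_act_eq_or (W : AddSubgroup M)
    (hW : ∀ σ ∈ V ⊔ Iq p, ∀ w ∈ W, act σ w ∈ W) (hcard : Nat.card W = p) :
    (∀ σ ∈ Iq p, ∀ w ∈ W, act σ w = w) ∨
      (∀ σ ∈ Iq p, ∀ w ∈ W, ∀ c : ℕ, σ ζ = ζ ^ c → act σ w = c • w) := by
  have hp : p.Prime := Fact.out
  haveI := finiteDimensional_unrF' p V hV
  have hgam := gam_unrF_eq p V hV
  have hunr := unrF_unramified p V
  have hmax : ∀ r ∈ IsLocalRing.maximalIdeal (R0 p (unrF p V)),
      ‖algebraMap (R0 p (unrF p V)) (PadicAlgCl p) r‖ < 1 := by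
    intro r hr
    rw [maximalIdeal_R0 p (unrF p V) hunr, Ideal.mem_span_singleton'] at hr
    obtain ⟨s, rfl⟩ := hr
    rw [map_mul, norm_mul, map_natCast]
    calc ‖algebraMap (R0 p (unrF p V)) (PadicAlgCl p) s‖ * ‖((p : ℕ) : PadicAlgCl p)‖
        ≤ 1 * ‖((p : ℕ) : PadicAlgCl p)‖ :=
          mul_le_mul_of_nonneg_right (norm_algebraMap_le_one p (unrF p V) s) (norm_nonneg _)
      _ < 1 := by rw [one_mul]; exact KummerTop0.norm_natCast_q_lt_one p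
  have h1 := hasFlatModel_base p (unrF p V) hfl
  rcases ModuleLL6.act_eq_or_of_card_prime (IGam p (unrF p V)) p
    (maximalIdeal_R0 p (unrF p V) hunr) hmax (fixedInFrac_R0 p (unrF p V)) h1 W
    (fun σ w hw => hW σ (by rw [← hgam]; exact σ.2) w hw) hcard
    (fun σ _ y => norm_galois p _ y)
    (fun σ hσ y hy => (mem_Iq_iff_norm p _).1 (Subgroup.mem_subgroupOf.1 hσ) y hy)
    (ϖ := ζ - 1) (KummerTop0.norm_natCast_eq hp hζ).symm
    (sub_ne_zero.2 (hζ.ne_one hp.one_lt)) with h2 | h2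
  · left
    intro σ hσ w hw
    exact h2 ⟨σ, Iq_le_gam_unrF p V hσ⟩ (Subgroup.mem_subgroupOf.2 hσ) w hw
  · right
    intro σ hσ w hw c hc
    exact h2 ⟨σ, Iq_le_gam_unrF p V hσ⟩ (Subgroup.mem_subgroupOf.2 hσ) w hw c
      (norm_zeta_sub_lt p ζ hζ σ c hc)

/-- **Raynaud, level 2** (eigenvalue form) over the base attached to `V`. -/
theorem plane_norm_sum_lt_one (W : AddSubgroup M)
    (hW : ∀ σ ∈ V ⊔ Iq p, ∀ w ∈ W, act σ w ∈ W) (hcard : Nat.card W = p ^ 2)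
    (hWp : ∀ w ∈ W, p • w = 0)
    (hirr : ∀ N : AddSubgroup M, N ≤ W → (∀ σ ∈ Iq p, ∀ w ∈ N, act σ w ∈ N) → N = ⊥ ∨ N = W)
    {ϖ₂ : PadicAlgCl p} (hϖ₂ : ‖ϖ₂‖ ^ (p ^ 2 - 1) = ‖((p : ℕ) : PadicAlgCl p)‖)
    {σ : Gq p} (hσ : σ ∈ Iq p) {w : M} (hwW : w ∈ W) (hw : w ≠ 0) (m : ℕ) (q : ℕ → ℤ)
    (hrel : ∑ i ∈ Finset.range m, q i • act (σ ^ i) w = 0) :
    ‖∑ i ∈ Finset.range m, (q i : PadicAlgCl p) * (σ ϖ₂ / ϖ₂) ^ i‖ < 1 := by
  have hp : p.Prime := Fact.out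
  haveI := finiteDimensional_unrF' p V hV
  have hgam := gam_unrF_eq p V hV
  have hunr := unrF_unramified p V
  have hmax : ∀ r ∈ IsLocalRing.maximalIdeal (R0 p (unrF p V)),
      ‖algebraMap (R0 p (unrF p V)) (PadicAlgCl p) r‖ < 1 := by
    intro r hr
    rw [maximalIdeal_R0 p (unrF p V) hunr, Ideal.mem_span_singleton'] at hr
    obtain ⟨s, rfl⟩ := hr
    rw [map_mul, norm_mul, map_natCast]
    calc ‖algebraMap (R0 p (unrF p V)) (PadicAlgCl p) s‖ * ‖((p : ℕ) : PadicAlgCl p)‖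
        ≤ 1 * ‖((p : ℕ) : PadicAlgCl p)‖ :=
          mul_le_mul_of_nonneg_right (norm_algebraMap_le_one p (unrF p V) s) (norm_nonneg _)
      _ < 1 := by rw [one_mul]; exact KummerTop0.norm_natCast_q_lt_one p
  have h1 := hasFlatModel_base p (unrF p V) hfl
  exact ModuleLL6.norm_sum_lt_one (IGam p (unrF p V)) p
    (maximalIdeal_R0 p (unrF p V) hunr) hmax (fixedInFrac_R0 p (unrF p V)) h1 W
    (fun σ w hw => hW σ (by rw [← hgam]; exact σ.2) w hw) hcard hWp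
    (fun σ _ y => norm_galois p _ y)
    (fun σ hσ y hy => (mem_Iq_iff_norm p _).1 (Subgroup.mem_subgroupOf.1 hσ) y hy)
    (fun N hNW hN => hirr N hNW (fun σ hσ w hw =>
      hN ⟨σ, Iq_le_gam_unrF p V hσ⟩ (Subgroup.mem_subgroupOf.2 hσ) w hw))
    (ϖ := ζ - 1) (KummerTop0.norm_natCast_eq hp hζ).symm
    (sub_ne_zero.2 (hζ.ne_one hp.one_lt))
    (fun σ _ => exists_norm_zeta_sub_lt p ζ hζ _)
    hϖ₂ (σ := ⟨σ, Iq_le_gam_unrF p V hσ⟩) (Subgroup.mem_subgroupOf.2 hσ) hwW hw m q hrel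

/-- **(B3)** over the base attached to `V`: an equivariant integral coordinate whose values on
`W ∖ 0` have norm `‖p‖ ^ (1 / (p² - 1))`. -/
theorem plane_coordinate (W : AddSubgroup M)
    (hW : ∀ σ ∈ V ⊔ Iq p, ∀ w ∈ W, act σ w ∈ W) (hcard : Nat.card W = p ^ 2)
    (hWp : ∀ w ∈ W, p • w = 0)
    (hirr : ∀ N : AddSubgroup M, N ≤ W → (∀ σ ∈ Iq p, ∀ w ∈ N, act σ w ∈ N) → N = ⊥ ∨ N = W) :
    ∃ f : M → PadicAlgCl p, (∀ σ ∈ V ⊔ Iq p, ∀ w, f (act σ w) = σ (f w)) ∧ (∀ w, ‖f w‖ ≤ 1) ∧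
      ∀ w ∈ W, w ≠ 0 → ‖f w‖ ^ (p ^ 2 - 1) = ‖((p : ℕ) : PadicAlgCl p)‖ := by
  have hp : p.Prime := Fact.out
  haveI := finiteDimensional_unrF' p V hV
  have hgam := gam_unrF_eq p V hV
  have hunr := unrF_unramified p V
  have hmax : ∀ r ∈ IsLocalRing.maximalIdeal (R0 p (unrF p V)),
      ‖algebraMap (R0 p (unrF p V)) (PadicAlgCl p) r‖ < 1 := by
    intro r hr
    rw [maximalIdeal_R0 p (unrF p V) hunr, Ideal.mem_span_singleton'] at hr
    obtain ⟨s, rfl⟩ := hr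
    rw [map_mul, norm_mul, map_natCast]
    calc ‖algebraMap (R0 p (unrF p V)) (PadicAlgCl p) s‖ * ‖((p : ℕ) : PadicAlgCl p)‖
        ≤ 1 * ‖((p : ℕ) : PadicAlgCl p)‖ :=
          mul_le_mul_of_nonneg_right (norm_algebraMap_le_one p (unrF p V) s) (norm_nonneg _)
      _ < 1 := by rw [one_mul]; exact KummerTop0.norm_natCast_q_lt_one p
  have h1 := hasFlatModel_base p (unrF p V) hfl
  obtain ⟨f, hf1, hf2, hf3⟩ := ModuleLL6.exists_coordinate_fun (IGam p (unrF p V)) p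
    (maximalIdeal_R0 p (unrF p V) hunr) hmax (fixedInFrac_R0 p (unrF p V)) h1 W
    (fun σ w hw => hW σ (by rw [← hgam]; exact σ.2) w hw) hcard hWp
    (fun σ _ y => norm_galois p _ y)
    (fun σ hσ y hy => (mem_Iq_iff_norm p _).1 (Subgroup.mem_subgroupOf.1 hσ) y hy)
    (fun N hNW hN => hirr N hNW (fun σ hσ w hw =>
      hN ⟨σ, Iq_le_gam_unrF p V hσ⟩ (Subgroup.mem_subgroupOf.2 hσ) w hw))
    (ϖ := ζ - 1) (KummerTop0.norm_natCast_eq hp hζ).symm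
    (sub_ne_zero.2 (hζ.ne_one hp.one_lt))
    (fun σ _ => exists_norm_zeta_sub_lt p ζ hζ _)
  refine ⟨f, fun σ hσ w => ?_, hf2, hf3⟩
  exact hf1 ⟨σ, by rw [hgam]; exact hσ⟩ w

end Module

end

end Fermat.Agent.TW.FLAT.LLBase2
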