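/-
Programme T (S56), chapter T/FLAT, local-local chain, (S-STRUCT) — helper2.

`LLField2`: the field cut out by a level homomorphism `g : Gq p →* H` (`ker g` contains a level):
`kerF p g := fixF p (ker g)` is finite Galois over `ℚ_p` with `Gal(Ω/kerF) = ker g`; the index of
`ker g`; elements of `ker g ⊔ Iq p`; the primitive `p`-th root of unity `zetaP p` with
`σ ζ = ζ ^ (ω σ).val` (`ω = chiq p p`).
-/
import Mathlib
import Fermat.Agent.TW.FLAT.RamBridge0
import Fermat.Agent.TW.LOC.KummerRaw4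
import Fermat.Agent.TW.LOC.CupDuality2

set_option autoImplicit false
set_option linter.unusedSectionVars false
set_option linter.style.haveILetI false

namespace Fermat.Agent.TW.FLAT.LLField2

open Fermat.Agent.TW.LOC.Defs2 Fermat.Agent.TW.LOC.TameProfinite4
  Fermat.Agent.PT.GLUE.Objects21 Fermat.Agent.TW.LOC.KummerRaw4 Fermat.Agent.TW.LOC.CupDuality2

noncomputable section

variable (p : ℕ) [Fact p.Prime]

local notation "Ω" => PadicAlgCl p

local instance isGaloisPadicLL2 : IsGalois ℚ_[p] (PadicAlgCl p) :=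
  IsAlgClosure.isGalois ℚ_[p] (PadicAlgCl p)

/-! ### The primitive `p`-th root of unity -/

/-- The chosen primitive `p`-th root of unity of `Ω`. -/
def zetaP : Ω := ((jm p p 1 : (PadicAlgCl p)ˣ) : PadicAlgCl p)

theorem zetaP_pow : zetaP p ^ p = 1 := by
  rw [zetaP, ← Units.val_pow_eq_pow_val, jm_pow, Units.val_one]

theorem zetaP_ne_one : zetaP p ≠ 1 := by
  intro h
  have h1 : jm p p 1 = 1 := Units.ext h
  rw [← jm_zero p p] at h1
  exact one_ne_zero (jm_injective p p h1)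

theorem zetaP_isPrimitiveRoot : IsPrimitiveRoot (zetaP p) p :=
  IsPrimitiveRoot.iff_orderOf.2 (orderOf_eq_prime (zetaP_pow p) (zetaP_ne_one p))

theorem jm_natCast (n : ℕ) : jm p p (n : ZMod p) = jm p p 1 ^ n := by
  induction n with
  | zero => rw [Nat.cast_zero, jm_zero, pow_zero]
  | succ n ih => rw [Nat.cast_succ, jm_add, ih, pow_succ]

/-- `σ ζ = ζ ^ (ω σ).val`. -/
theorem smul_zetaP (σ : Gq p) :
    σ (zetaP p) = zetaP p ^ ((chiq p p σ : (ZMod p)ˣ) : ZMod p).val := by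
  have hp : p.Prime := Fact.out
  haveI : NeZero p := ⟨hp.ne_zero⟩
  have h1 := smul_jm p p σ 1
  rw [mul_one] at h1
  have h2 : jm p p ((chiq p p σ : (ZMod p)ˣ) : ZMod p) =
      jm p p 1 ^ ((chiq p p σ : (ZMod p)ˣ) : ZMod p).val := by
    rw [← jm_natCast, ZMod.natCast_zmod_val]
  rw [h2] at h1
  have h3 := congrArg (fun u : (PadicAlgCl p)ˣ => (u : PadicAlgCl p)) h1
  rw [zetaP, ← Units.val_pow_eq_pow_val]
  exact h3

/-! ### Elements of `ker g ⊔ Iq` -/

/-- Elements of `ker g ⊔ Iq` are products. -/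
theorem exists_of_mem_ker_sup_Iq {H' : Type*} [Monoid H'] (g : Gq p →* H') {σ : Gq p}
    (hσ : σ ∈ g.ker ⊔ Iq p) : ∃ τ ∈ Iq p, g σ = g τ := by
  haveI : (g.ker).Normal := MonoidHom.normal_ker g
  have h1 : σ ∈ ((g.ker ⊔ Iq p : Subgroup (Gq p)) : Set (Gq p)) := hσ
  rw [Subgroup.normal_mul] at h1
  obtain ⟨n, hn, τ, hτ, rfl⟩ := Set.mem_mul.1 h1
  refine ⟨τ, hτ, ?_⟩
  rw [map_mul, MonoidHom.mem_ker.1 hn, one_mul]

/-! ### The field cut out by a level homomorphism -/

variable {H : Type*} [Group H] (g : Gq p →* H)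

/-- The fixed field of `ker g`. -/
def kerF : IntermediateField ℚ_[p] Ω := RamBridge0.fixF p g.ker

theorem mem_kerF_iff (x : Ω) : x ∈ kerF p g ↔ ∀ σ : Gq p, g σ = 1 → σ x = x := by
  rw [kerF, RamBridge0.mem_fixF_iff]
  exact ⟨fun h σ hσ => h σ (MonoidHom.mem_ker.2 hσ), fun h σ hσ => h σ (MonoidHom.mem_ker.1 hσ)⟩

variable (hlev : ∃ U ∈ (levelLoc p).sets, U ≤ g.ker)
include hlev

theorem finiteDimensional_kerF : FiniteDimensional ℚ_[p] (kerF p g) :=
  RamBridge0.finiteDimensional_fixF p g.ker hlev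

theorem fixingSubgroup_kerF : (kerF p g).fixingSubgroup = g.ker :=
  InfiniteGalois.fixingSubgroup_fixedField (k := ℚ_[p]) (K := Ω)
    ⟨g.ker, RamBridge0.isClosed_of_level p g.ker hlev⟩

theorem isGalois_kerF : IsGalois ℚ_[p] (kerF p g) := by
  rw [← InfiniteGalois.normal_iff_isGalois, fixingSubgroup_kerF p g hlev]
  exact MonoidHom.normal_ker g

theorem mem_fixingSubgroup_kerF_iff (σ : Gq p) : σ ∈ (kerF p g).fixingSubgroup ↔ g σ = 1 := by
  rw [fixingSubgroup_kerF p g hlev, MonoidHom.mem_ker]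

end

end Fermat.Agent.TW.FLAT.LLField2
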