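/-
Programme T (S56), chapter T/FLAT, local-local chain, (S-STRUCT) — helper2.

`LLLine2`: consequences of flatness + the local-local hypothesis for a level representation
`ρ : Gq p →* M₂(k)` (`k` finite of characteristic `p`, `p` odd, `det ρ|Iq = ω`):

* `eq_zero_of_fixed`   : `V^{Iq} = 0` (from helper7's (S1));
* `no_rational_line`   : no `v ≠ 0` with `ρ(σ) v ∈ 𝔽_p v` for all `σ ∈ Iq` (Raynaud for lines, `ModuleLL6`);
* `wild_trivial`       : a normal subgroup `P ≤ Gq` with `ρ(P)` a `p`-group, such that `Iq` is generated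
  modulo `P` by `g₁` with `φ g₁ φ⁻¹ ≡ g₁ ^ p`, acts trivially (tameness of `ρ`);
* `no_root`            : if `ρ(Iq) ⊆ ⟨ρ(g₀)⟩` with `tr, det ρ(g₀) ∈ 𝔽_p`, the characteristic polynomial of
  `ρ(g₀)` has no root in `𝔽_p`.
-/
import Mathlib
import Fermat.Agent.TW.FLAT.LLBase2
import Fermat.Agent.TW.FLAT.LLField2
import Fermat.Agent.TW.FLAT.FlatIntrinsic7
import Fermat.Agent.TW.FLAT.Ordinary7
import Fermat.Agent.TW.LOC.OrdLineAlg2

set_option autoImplicit false
set_option linter.unusedSectionVars false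
set_option linter.style.haveILetI false

namespace Fermat.Agent.TW.FLAT.LLLine2

open Matrix
open Fermat.Agent.TW.FLAT.Points6 Fermat.Agent.TW.LOC.Defs2
  Fermat.Agent.PT.GLUE.Objects21 Fermat.Agent.TW.LOC.CupDuality2
  Fermat.Agent.TW.FLAT.FlatIntrinsic7 Fermat.Agent.TW.FLAT.Ordinary7
  Fermat.Agent.TW.LOC.OrdLineAlg2 Fermat.Agent.TW.FLAT.LLField2

noncomputable section

/-! ### Pure algebra -/

section Alg

variable {k : Type} [Field k]

/-- If `R v = det R • v` (`R` invertible) then the linear form `perp v` is fixed by `R`. -/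
theorem perp_vecMul_of_eigen_det {R : Matrix (Fin 2) (Fin 2) k} {v : Fin 2 → k}
    (hd : R.det ≠ 0) (hRv : R *ᵥ v = R.det • v) : vecMul (perp v) R = perp v := by
  have h0 := congrFun hRv 0
  have h1 := congrFun hRv 1
  simp only [mulVec, dotProduct, Fin.sum_univ_two, Pi.smul_apply, smul_eq_mul] at h0 h1
  have hdet := Matrix.det_fin_two R
  funext j
  apply mul_left_cancel₀ hd
  fin_cases j
  · simp only [Fin.zero_eta, vecMul, dotProduct, Fin.sum_univ_two, perp_zero_apply,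
      perp_one_apply]
    rw [hdet] at h0 h1 ⊢
    linear_combination (R 0 0) * h1 + (-R 1 0) * h0
  · simp only [Fin.mk_one, vecMul, dotProduct, Fin.sum_univ_two, perp_zero_apply,
      perp_one_apply]
    rw [hdet] at h0 h1 ⊢
    linear_combination (R 0 1) * h1 + (-R 1 1) * h0

/-- Two vectors killed by a non-zero `2 × 2` matrix are proportional. -/
theorem exists_smul_of_mulVec_eq_zero {D : Matrix (Fin 2) (Fin 2) k} (hD : D ≠ 0)
    {v w : Fin 2 → k} (hv : v ≠ 0) (hDv : D *ᵥ v = 0) (hDw : D *ᵥ w = 0) :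
    ∃ c : k, w = c • v := by
  have hrow : ∃ i, D i ≠ 0 := by
    by_contra hcon
    apply hD
    ext i j
    have : D i = 0 := by
      by_contra h
      exact hcon ⟨i, h⟩
    rw [this]
    rfl
  obtain ⟨i, hi⟩ := hrow
  have h1 : D i ⬝ᵥ v = 0 := congrFun hDv i
  have h2 : D i ⬝ᵥ w = 0 := congrFun hDw i
  obtain ⟨t, ht⟩ := eq_smul_perp hv h1
  have ht0 : t ≠ 0 := by
    rintro rfl
    rw [zero_smul] at ht
    exact hi ht
  rw [ht, smul_dotProduct, smul_eq_mul] at h2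
  exact eq_smul_of_perp hv ((mul_eq_zero.1 h2).resolve_left ht0)

variable (p : ℕ) [Fact p.Prime] [CharP k p]

theorem exists_zmod_of_pow_eq_self {x : k} (h : x ^ p = x) :
    ∃ a : ZMod p, ZMod.castHom (dvd_refl p) k a = x := by
  have h1 : x ∈ (⊥ : Subfield k) := (Subfield.mem_bot_iff_pow_eq_self k p).2 h
  rw [← ZMod.fieldRange_castHom_eq_bot p] at h1
  exact h1

theorem castHom_eq_natCast_val (a : ZMod p) :
    ZMod.castHom (dvd_refl p) k a = ((a.val : ℕ) : k) := by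
  rw [ZMod.castHom_apply, ZMod.natCast_val]

/-- A `p`-group of matrices over a finite field of characteristic `p` has a common fixed vector. -/
theorem exists_fixed_vector [Finite k] {Γ : Type*} [Group Γ]
    (r : Γ →* Matrix (Fin 2) (Fin 2) k) (S : Subgroup Γ)
    (hS : ∀ s ∈ S, ∃ n : ℕ, r s ^ (p ^ n) = 1) :
    ∃ v : Fin 2 → k, v ≠ 0 ∧ ∀ s ∈ S, r s *ᵥ v = v := by
  have hp : p.Prime := Fact.out
  set G : Subgroup (Matrix (Fin 2) (Fin 2) k)ˣ := S.map r.toHomUnits with hG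
  letI act : MulAction G (Fin 2 → k) :=
    { smul := fun u v => ((u : (Matrix (Fin 2) (Fin 2) k)ˣ) : Matrix (Fin 2) (Fin 2) k) *ᵥ v
      one_smul := fun v => Matrix.one_mulVec v
      mul_smul := fun u u' v => (Matrix.mulVec_mulVec v _ _).symm }
  have hGp : IsPGroup p G := by
    intro x
    obtain ⟨s, hs, hx⟩ := Subgroup.mem_map.1 x.2
    obtain ⟨n, hn⟩ := hS s hs
    refine ⟨n, ?_⟩
    apply Subtype.ext
    rw [Subgroup.coe_pow, Subgroup.coe_one, ← hx]
    apply Units.ext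
    rw [Units.val_pow_eq_pow_val, MonoidHom.coe_toHomUnits, Units.val_one]
    exact hn
  have hcard : p ∣ Nat.card (Fin 2 → k) := by
    have h1 : p ∣ Nat.card k := by
      have h2 : addOrderOf (1 : k) = p := CharP.eq k (CharP.addOrderOf_one k) inferInstance
      rw [← h2]
      exact addOrderOf_dvd_natCard 1
    rw [Nat.card_fun, Nat.card_fin]
    exact dvd_pow h1 (by norm_num)
  have h0 : (0 : Fin 2 → k) ∈ MulAction.fixedPoints G (Fin 2 → k) := by
    intro x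
    exact Matrix.mulVec_zero _
  obtain ⟨b, hb, hb0⟩ :=
    hGp.exists_fixed_point_of_prime_dvd_card_of_fixed_point (Fin 2 → k) hcard h0
  refine ⟨b, fun h => hb0 h.symm, fun s hs => ?_⟩
  exact hb ⟨r.toHomUnits s, Subgroup.mem_map.2 ⟨s, hs, rfl⟩⟩

end Alg

/-! ### The representation -/

variable {p : ℕ} [Fact p.Prime] {k : Type} [Field k] [CharP k p]
  (ρ : Gq p →* Matrix (Fin 2) (Fin 2) k)

local notation "ι" => ZMod.castHom (dvd_refl p) k

theorem rho_inv_mul (σ : Gq p) : ρ σ⁻¹ * ρ σ = 1 := by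
  rw [← map_mul, inv_mul_cancel, map_one]

theorem rho_mul_inv (σ : Gq p) : ρ σ * ρ σ⁻¹ = 1 := by
  rw [← map_mul, mul_inv_cancel, map_one]

theorem det_rho_ne_zero (σ : Gq p) : (ρ σ).det ≠ 0 := by
  intro h
  have h1 := congrArg Matrix.det (rho_inv_mul ρ σ)
  rw [Matrix.det_mul, h, mul_zero, Matrix.det_one] at h1
  exact zero_ne_one h1

theorem rho_mulVec_mul (σ τ : Gq p) (v : Fin 2 → k) : ρ (σ * τ) *ᵥ v = ρ σ *ᵥ (ρ τ *ᵥ v) := by
  rw [map_mul, Matrix.mulVec_mulVec]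

theorem rho_pow_mulVec_eigen {B : Matrix (Fin 2) (Fin 2) k} {v : Fin 2 → k} {c : k}
    (h : B *ᵥ v = c • v) (j : ℕ) : (B ^ j) *ᵥ v = c ^ j • v := by
  induction j with
  | zero => rw [pow_zero, pow_zero, Matrix.one_mulVec, one_smul]
  | succ j ih =>
    rw [pow_succ, ← Matrix.mulVec_mulVec, h, Matrix.mulVec_smul, ih, smul_smul, pow_succ, mul_comm]

/-- The cyclotomic exponent of `σ` is `(ω σ).val`. -/
theorem isCycExp_chiq (σ : Gq p) :
    IsCycExp p σ ((chiq p p σ : (ZMod p)ˣ) : ZMod p).val := by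
  intro ζ' hζ'
  have hp : p.Prime := Fact.out
  obtain ⟨i, -, hi⟩ := (zetaP_isPrimitiveRoot p).eq_pow_of_pow_eq_one hζ'
  rw [← hi, map_pow, smul_zetaP, ← pow_mul, ← pow_mul, mul_comm]

section Flat

variable (hp2 : p ≠ 2) (hlev : ∃ U ∈ (levelLoc p).sets, U ≤ ρ.ker)
  (hdet : ∀ τ ∈ Iq p, ∀ c : ℕ, IsCycExp p τ c → (ρ τ).det = (c : k))
  (hll : ¬ ∃ l : Fin 2 → k, l ≠ 0 ∧ ∀ τ ∈ Iq p, vecMul l (ρ τ) = l)
  (hfl : HasFlatModel ℤ_[p] (PadicAlgCl p) (Gq p) (Fin 2 → k) (fun τ v => (ρ τ).mulVec v))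

include hll in
/-- No inertia-fixed linear form: the augmentation submodule is everything. -/
theorem mem_augI_all (v : Fin 2 → k) :
    v ∈ augI (fun (τ : Gq p) (v : Fin 2 → k) => (ρ τ).mulVec v) := by
  set act : Gq p → (Fin 2 → k) → (Fin 2 → k) := fun τ v => (ρ τ).mulVec v with hact
  let S : Submodule k (Fin 2 → k) :=
    { carrier := augI act
      add_mem' := fun ha hb => (augI act).add_mem ha hb
      zero_mem' := (augI act).zero_mem
      smul_mem' := by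
        intro c x hx
        change x ∈ augI act at hx
        change c • x ∈ augI act
        unfold augI at hx ⊢
        induction hx using AddSubgroup.closure_induction with
        | mem x hx =>
          obtain ⟨σ, hσ, y, rfl⟩ := hx
          apply AddSubgroup.subset_closure
          refine ⟨σ, hσ, c • y, ?_⟩
          rw [hact]
          simp only [Matrix.mulVec_smul, smul_sub]
        | zero => rw [smul_zero]; exact AddSubgroup.zero_mem _
        | add x y _ _ hx hy => rw [smul_add]; exact AddSubgroup.add_mem _ hx hy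
        | neg x _ hx => rw [smul_neg]; exact AddSubgroup.neg_mem _ hx }
  have hSmem : ∀ x, x ∈ S ↔ x ∈ augI act := fun _ => Iff.rfl
  by_contra hv
  have hS : S < ⊤ := by
    rw [lt_top_iff_ne_top]
    intro h
    apply hv
    rw [← hSmem, h]
    exact Submodule.mem_top
  obtain ⟨f, hf0, hfS⟩ := Submodule.exists_le_ker_of_lt_top S hS
  apply hll
  set l : Fin 2 → k := fun i => f (Pi.single i 1) with hl
  have hfl' : ∀ x : Fin 2 → k, f x = l ⬝ᵥ x := by
    intro x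
    have hx : x = x 0 • Pi.single 0 1 + x 1 • Pi.single 1 1 := by
      funext i
      fin_cases i <;> simp
    conv_lhs => rw [hx]
    rw [map_add, map_smul, map_smul, dotProduct, Fin.sum_univ_two, hl]
    simp only [smul_eq_mul]
    ring
  refine ⟨l, ?_, ?_⟩
  · intro h0
    apply hf0
    ext x
    rw [LinearMap.comp_apply] 
    simp only [LinearMap.zero_apply, LinearMap.zero_comp]
    rw [hfl', h0, zero_dotProduct]
  · intro τ hτ
    funext j
    have h1 : ρ τ *ᵥ Pi.single j 1 - Pi.single j 1 ∈ S := by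
      rw [hSmem]
      apply AddSubgroup.subset_closure
      exact ⟨τ, hτ, Pi.single j 1, rfl⟩
    have h2 : f (ρ τ *ᵥ Pi.single j 1 - Pi.single j 1) = 0 := hfS h1
    rw [map_sub, sub_eq_zero, hfl', hfl', dotProduct_mulVec] at h2
    simp only [dotProduct_single_one] at h2
    exact h2

include hp2 hll hfl in
/-- **`V^{Iq} = 0`**. -/
theorem eq_zero_of_fixed {v : Fin 2 → k} (hfix : ∀ τ ∈ Iq p, ρ τ *ᵥ v = v) : v = 0 :=
  eq_zero_of_mem_augI_of_fixed hp2 hfl (mem_augI_all ρ hll v) hfix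

include hp2 hlev hdet hll hfl in
/-- **No `𝔽_p`-rational inertia-stable line.** -/
theorem no_rational_line {v : Fin 2 → k} (hv : v ≠ 0)
    (hline : ∀ σ ∈ Iq p, ∃ a : ZMod p, ρ σ *ᵥ v = (ι a) • v) : False := by
  have hp : p.Prime := Fact.out
  set W : AddSubgroup (Fin 2 → k) := AddSubgroup.zmultiples v with hW
  have hpv : p • v = 0 := by
    rw [← Nat.cast_smul_eq_nsmul k, CharP.cast_eq_zero, zero_smul]
  have hcard : Nat.card W = p := by
    rw [hW, Nat.card_zmultiples]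
    exact addOrderOf_eq_prime hpv hv
  have hstab : ∀ σ ∈ ρ.ker ⊔ Iq p, ∀ w ∈ W, (fun (τ : Gq p) (v : Fin 2 → k) => (ρ τ).mulVec v) σ w ∈ W := by
    intro σ hσ w hw
    obtain ⟨τ, hτ, hστ⟩ := exists_of_mem_ker_sup_Iq p ρ hσ
    obtain ⟨a, ha⟩ := hline τ hτ
    obtain ⟨z, rfl⟩ := AddSubgroup.mem_zmultiples_iff.1 hw
    change ρ σ *ᵥ (z • v) ∈ W
    rw [hστ, Matrix.mulVec_smul, ha, castHom_eq_natCast_val, Nat.cast_smul_eq_nsmul]
    exact AddSubgroup.zsmul_mem _ (AddSubgroup.nsmul_mem _ (AddSubgroup.mem_zmultiples v) _) _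
  rcases LLBase2.line_act_eq_or hlev hfl (zetaP p) (zetaP_isPrimitiveRoot p) W hstab hcard with
    h1 | h1
  · exact hv (eq_zero_of_fixed ρ hp2 hll hfl
      (fun τ hτ => h1 τ hτ v (AddSubgroup.mem_zmultiples v)))
  · apply hll
    refine ⟨perp v, perp_ne_zero hv, fun τ hτ => ?_⟩
    have h2 := h1 τ hτ v (AddSubgroup.mem_zmultiples v) _ (smul_zetaP p τ)
    have h3 := hdet τ hτ _ (isCycExp_chiq τ)
    change ρ τ *ᵥ v = _ at h2
    rw [← Nat.cast_smul_eq_nsmul k, ← h3] at h2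
    exact perp_vecMul_of_eigen_det (det_rho_ne_zero ρ τ) h2

include hp2 hlev hdet hll hfl in
/-- **Tameness**: the wild part acts trivially. -/
theorem wild_trivial [Finite k] (g₁ : Gq p) (P : Subgroup (Gq p)) (hPn : P.Normal)
    (hPp : ∀ π ∈ P, ∃ n : ℕ, ρ π ^ (p ^ n) = 1)
    (hgen : ∀ σ ∈ Iq p, ∃ z : ℤ, (g₁ ^ z)⁻¹ * σ ∈ P)
    (φ : Gq p) (hfrob : (g₁ ^ p)⁻¹ * (φ * g₁ * φ⁻¹) ∈ P) : ∀ π ∈ P, ρ π = 1 := by
  have hp : p.Prime := Fact.out
  obtain ⟨v, hv, hvP⟩ := exists_fixed_vector p ρ P hPp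
  by_contra hcon
  have hcon' : ∃ π₀ ∈ P, ρ π₀ ≠ 1 := by
    by_contra h
    apply hcon
    intro π hπ
    by_contra h'
    exact h ⟨π, hπ, h'⟩
  obtain ⟨π₀, hπ₀, hne⟩ := hcon'
  have hD : ρ π₀ - 1 ≠ 0 := sub_ne_zero.2 hne
  have hfixD : ∀ w : Fin 2 → k, ρ π₀ *ᵥ w = w → (ρ π₀ - 1) *ᵥ w = 0 := by
    intro w hw
    rw [Matrix.sub_mulVec, Matrix.one_mulVec, hw, sub_self]
  -- every element of `Gq` preserves the line `k v`
  have hall : ∀ σ : Gq p, ∃ c : k, ρ σ *ᵥ v = c • v := by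
    intro σ
    apply exists_smul_of_mulVec_eq_zero hD hv (hfixD v (hvP π₀ hπ₀))
    apply hfixD
    have h1 : π₀ * σ = σ * (σ⁻¹ * π₀ * σ) := by group
    have h2 : σ⁻¹ * π₀ * σ ∈ P := by
      have := hPn.conj_mem π₀ hπ₀ σ⁻¹
      rwa [inv_inv] at this
    rw [← rho_mulVec_mul, h1, rho_mulVec_mul, hvP _ h2]
  -- the subgroup acting on `v` through `𝔽_p`
  let S : Subgroup (Gq p) :=
    { carrier := {σ | ∃ a : ZMod p, ρ σ *ᵥ v = (ι a) • v}
      one_mem' := ⟨1, by rw [map_one, Matrix.one_mulVec, map_one, one_smul]⟩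
      mul_mem' := by
        rintro σ τ ⟨a, ha⟩ ⟨b, hb⟩
        refine ⟨b * a, ?_⟩
        rw [rho_mulVec_mul, hb, Matrix.mulVec_smul, ha, smul_smul, map_mul]
      inv_mem' := by
        rintro σ ⟨a, ha⟩
        have ha0 : ι a ≠ 0 := by
          intro h0
          rw [h0, zero_smul] at ha
          apply hv
          have := congrArg (fun w => ρ σ⁻¹ *ᵥ w) ha
          simp only [Matrix.mulVec_mulVec, rho_inv_mul, Matrix.one_mulVec,
            Matrix.mulVec_zero] at this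
          exact this
        refine ⟨a⁻¹, ?_⟩
        have h1 := congrArg (fun w => ρ σ⁻¹ *ᵥ w) ha
        simp only [Matrix.mulVec_mulVec, rho_inv_mul, Matrix.one_mulVec,
          Matrix.mulVec_smul] at h1
        rw [map_inv₀]
        conv_rhs => rw [h1]
        rw [smul_smul, inv_mul_cancel₀ ha0, one_smul] }
  have hSmem : ∀ σ, σ ∈ S ↔ ∃ a : ZMod p, ρ σ *ᵥ v = (ι a) • v := fun _ => Iff.rfl
  have hPS : P ≤ S := by
    intro π hπ
    rw [hSmem]
    exact ⟨1, by rw [hvP π hπ, map_one, one_smul]⟩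
  have hg₁S : g₁ ∈ S := by
    rw [hSmem]
    obtain ⟨c, hc⟩ := hall g₁
    obtain ⟨d, hd⟩ := hall φ
    obtain ⟨d', hd'⟩ := hall φ⁻¹
    have hdd' : d' * d = 1 := by
      have h1 : ρ φ *ᵥ (ρ φ⁻¹ *ᵥ v) = v := by
        rw [Matrix.mulVec_mulVec, rho_mul_inv, Matrix.one_mulVec]
      rw [hd', Matrix.mulVec_smul, hd, smul_smul] at h1
      have h2 : (d' * d - 1) • v = 0 := by rw [sub_smul, one_smul, h1, sub_self]
      exact sub_eq_zero.1 ((smul_eq_zero.1 h2).resolve_right hv)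
    have h1 : ρ (φ * g₁ * φ⁻¹) *ᵥ v = c • v := by
      rw [rho_mulVec_mul, rho_mulVec_mul, hd', Matrix.mulVec_smul, hc, Matrix.mulVec_smul,
        Matrix.mulVec_smul, hd, smul_smul, smul_smul, mul_right_comm, hdd', one_mul]
    have h2 : φ * g₁ * φ⁻¹ = g₁ ^ p * ((g₁ ^ p)⁻¹ * (φ * g₁ * φ⁻¹)) := by group
    rw [h2, rho_mulVec_mul, hvP _ hfrob, map_pow, rho_pow_mulVec_eigen hc] at h1
    have h3 : (c ^ p - c) • v = 0 := by rw [sub_smul, h1, sub_self]
    have h4 : c ^ p = c := sub_eq_zero.1 ((smul_eq_zero.1 h3).resolve_right hv)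
    obtain ⟨a, ha⟩ := exists_zmod_of_pow_eq_self p h4
    exact ⟨a, by rw [ha, hc]⟩
  refine no_rational_line ρ hp2 hlev hdet hll hfl hv (fun σ hσ => ?_)
  obtain ⟨z, hz⟩ := hgen σ hσ
  have h1 : σ = g₁ ^ z * ((g₁ ^ z)⁻¹ * σ) := by group
  have h2 : σ ∈ S := by
    rw [h1]
    exact S.mul_mem (S.zpow_mem hg₁S z) (hPS hz)
  exact (hSmem σ).1 h2

include hp2 hlev hdet hll hfl in
/-- **Irreducibility over `𝔽_p`**: the characteristic polynomial of a generator of `ρ(Iq)` has no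
root in `𝔽_p`. -/
theorem no_root (g₀ : Gq p) (hcyc : ∀ σ ∈ Iq p, ∃ j : ℕ, ρ σ = ρ g₀ ^ j) (a₀ b₀ : ZMod p)
    (htr : (ρ g₀).trace = ι a₀) (hdet₀ : (ρ g₀).det = ι b₀) (α : ZMod p) :
    α ^ 2 - a₀ * α + b₀ ≠ 0 := by
  intro h
  have h1 : (ρ g₀ - (ι α) • (1 : Matrix (Fin 2) (Fin 2) k)).det = 0 := by
    have h2 := congrArg (ι) h
    rw [map_add, map_sub, map_pow, map_mul, map_zero, ← htr, ← hdet₀, Matrix.trace_fin_two,
      Matrix.det_fin_two] at h2
    rw [Matrix.det_fin_two]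
    simp only [Matrix.sub_apply, Matrix.smul_apply, Matrix.one_apply_eq, smul_eq_mul, mul_one,
      Matrix.one_apply_ne (show (0 : Fin 2) ≠ 1 by decide),
      Matrix.one_apply_ne (show (1 : Fin 2) ≠ 0 by decide), mul_zero, sub_zero]
    linear_combination h2
  obtain ⟨v, hv, hv0⟩ := Matrix.exists_mulVec_eq_zero_iff.2 h1
  have hBv : ρ g₀ *ᵥ v = (ι α) • v := by
    rw [Matrix.sub_mulVec, Matrix.smul_mulVec, Matrix.one_mulVec, sub_eq_zero] at hv0
    exact hv0
  refine no_rational_line ρ hp2 hlev hdet hll hfl hv (fun σ hσ => ?_)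
  obtain ⟨j, hj⟩ := hcyc σ hσ
  exact ⟨α ^ j, by rw [hj, rho_pow_mulVec_eigen hBv, map_pow]⟩

end Flat

end

end Fermat.Agent.TW.FLAT.LLLine2
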