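/-
# TW/FLAT/LLMatrix6 — (ALG): pure algebra for the local-local structure (helper2's msg 352)

helper6.  `p` prime, `k` a field with `CharP k p`, `ι := ZMod.castHom (dvd_refl p) k`,
`B A A' : Matrix (Fin 2) (Fin 2) k`.

General:
* `charpoly_pow_char (M : Matrix n n k) : (M ^ p).charpoly = M.charpoly.map (frobenius k p)`
* `trace_pow_char [Nonempty n] (M) : (M ^ p).trace = M.trace ^ p`
* `exists_zmod_of_pow_eq (hx : x ^ p = x) : ∃ a : ZMod p, x = ZMod.castHom (dvd_refl p) κ a`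
* **(ALG-0)** `exists_trace_det_eq A A' B (hA : A * A' = 1) (h : A * B = B ^ p * A) :
    ∃ a₀ b₀ : ZMod p, B.trace = ι a₀ ∧ B.det = ι b₀`

`Qpoly a₀ b₀ : (ZMod p)[X] := X ^ 2 - C a₀ * X + C b₀` (`Qpoly_natDegree`, `Qpoly_monic`,
`Qpoly_eval`, `Qpoly_irreducible hirr`), `pow_eq_one_iff_dvd` (generic), `dvd_X_pow_sub_one`.

With `(htr : B.trace = ι a₀) (hdet : B.det = ι b₀) (hirr : ∀ α : ZMod p, α ^ 2 - a₀ * α + b₀ ≠ 0)`:
* `pow_eq_one_iff htr hdet hirr m : B ^ m = 1 ↔ Qpoly a₀ b₀ ∣ X ^ m - 1`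
* **(ALG-1)** `pow_card_sub_one_eq_one htr hdet hirr : B ^ (p ^ 2 - 1) = 1`, `pow_card_eq_self : B ^ p ^ 2 = B`
* **(ALG-4)** `root_facts htr hdet hirr (ψ : ZMod p →+* K) (ht : t ^ 2 - ψ a₀ * t + ψ b₀ = 0) :
    ψ a₀ = t + t ^ p ∧ ψ b₀ = t ^ (p + 1) ∧ ∀ m : ℕ, t ^ m = 1 ↔ B ^ m = 1`
* **(ALG-2)** `cyc p B w₀ : AddSubgroup (Fin 2 → k)` (range of `cycHom p B w₀`),
  `mem_cyc : w ∈ cyc p B w₀ ↔ ∃ x y : ZMod p, w = ι x • w₀ + ι y • (B *ᵥ w₀)`, `self_mem_cyc`,
  `mulVec_self_mem_cyc`, `Finite (cyc p B w₀)`, `mulVec_mem_cyc htr hdet` (`B`-stable),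
  `no_eigen`, `cycHom_injective`, `card_cyc htr hdet hirr (hw₀ : w₀ ≠ 0) : Nat.card (cyc p B w₀) = p ^ 2`,
  `cyc_irr htr hdet hirr hw₀ N' (hN : N' ≤ cyc p B w₀) (hB : ∀ w ∈ N', B *ᵥ w ∈ N') :
    N' = ⊥ ∨ N' = cyc p B w₀`.
* **(ALG-3)** (`hp2 : p ≠ 2`) `sq_commute` (`A * B = B ^ p * A → Commute (A * A) B`), `trace_sq_ne`,
  `exists_coprime_pow_eq_one_of_pos htr hdet hirr hp2 (h : A * B = B ^ p * A) (hm : 0 < m)
    (hAm : A ^ m = 1) : ∃ m', m'.Coprime p ∧ A ^ m' = 1`;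
  `exists_coprime_pow_eq_one [Finite k] … (hA : A * A' = 1) h : ∃ m', m'.Coprime p ∧ A ^ m' = 1`;
  `exists_coprime_pow_eq_one'` (the same as `∀ m, A ^ m = 1 → …`).
  Auxiliary: `mul_self_eq` (Cayley–Hamilton `2 × 2`), `mul_self_eq_zero_of_pow_eq_zero`,
  `trace_sq_eq_of_commute_nilpotent`.
-/
import Mathlib

set_option autoImplicit false
set_option linter.unusedSectionVars false

namespace Fermat.Agent.TW.FLAT.LLMatrix6

open Polynomial Matrix

noncomputable section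

variable {p : ℕ} [Fact p.Prime] {k : Type*} [Field k] [CharP k p]

/-! ### Frobenius twist of the characteristic polynomial -/

theorem expand_charpoly_pow_char {n : Type*} [DecidableEq n] [Fintype n] (M : Matrix n n k) :
    expand k p (M ^ p).charpoly = M.charpoly ^ p := by
  cases (isEmpty_or_nonempty n).symm
  · unfold charpoly
    rw [AlgHom.map_det, ← coe_detMonoidHom, ← (detMonoidHom : Matrix n n k[X] →* k[X]).map_pow]
    apply congr_arg det
    refine matPolyEquiv.injective ?_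
    rw [map_pow, matPolyEquiv_charmatrix, sub_pow_char_of_commute, ← C_pow]
    · exact (id (matPolyEquiv_eq_X_pow_sub_C p M) :)
    · exact (C M).commute_X
  · have h1 : ∀ M' : Matrix n n k, M'.charpoly = 1 := fun M' => by
      unfold charpoly; exact det_isEmpty
    rw [h1, h1, map_one, one_pow]

theorem charpoly_pow_char {n : Type*} [DecidableEq n] [Fintype n] (M : Matrix n n k) :
    (M ^ p).charpoly = M.charpoly.map (frobenius k p) := by
  have hp : 0 < p := (Fact.out : p.Prime).pos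
  apply expand_injective (R := k) hp
  rw [expand_charpoly_pow_char, ← map_expand, map_frobenius_expand]

theorem trace_pow_char {n : Type*} [DecidableEq n] [Fintype n] [Nonempty n] (M : Matrix n n k) :
    (M ^ p).trace = M.trace ^ p := by
  rw [trace_eq_neg_charpoly_coeff, trace_eq_neg_charpoly_coeff, charpoly_pow_char, coeff_map,
    ← frobenius_def, map_neg]

/-- Frobenius-fixed elements lie in the prime field. -/
theorem exists_zmod_of_pow_eq {κ : Type*} [Field κ] [CharP κ p] {x : κ} (hx : x ^ p = x) :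
    ∃ a : ZMod p, x = ZMod.castHom (dvd_refl p) κ a := by
  have h1 : x ∈ (⊥ : Subfield κ) := (Subfield.mem_bot_iff_pow_eq_self κ p).mpr hx
  have h2 : (⊥ : Subfield κ) ≤ (ZMod.castHom (dvd_refl p) κ).fieldRange := bot_le
  obtain ⟨c, hc⟩ := h2 h1
  exact ⟨c, hc.symm⟩

/-- **(ALG-0)** -/
theorem exists_trace_det_eq (A A' B : Matrix (Fin 2) (Fin 2) k) (hA : A * A' = 1)
    (h : A * B = B ^ p * A) :
    ∃ a₀ b₀ : ZMod p, B.trace = ZMod.castHom (dvd_refl p) k a₀ ∧
      B.det = ZMod.castHom (dvd_refl p) k b₀ := by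
  have hA' : A' * A = 1 := mul_eq_one_comm.mp hA
  have hBp : B ^ p = A * B * A' := by
    rw [h, mul_assoc, hA, mul_one]
  have htr : B.trace ^ p = B.trace := by
    rw [← trace_pow_char, hBp, trace_mul_comm, ← mul_assoc, hA', one_mul]
  have hdet : B.det ^ p = B.det := by
    rw [← det_pow, hBp, det_mul, det_mul, mul_right_comm, ← det_mul, hA, det_one, one_mul]
  obtain ⟨a₀, ha⟩ := exists_zmod_of_pow_eq htr
  obtain ⟨b₀, hb⟩ := exists_zmod_of_pow_eq hdet
  exact ⟨a₀, b₀, ha, hb⟩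

/-! ### The quadratic `Q = X² − a₀ X + b₀` over `𝔽_p` -/

/-- `Q = X² − a₀ X + b₀`. -/
def Qpoly (a₀ b₀ : ZMod p) : (ZMod p)[X] := X ^ 2 - C a₀ * X + C b₀

theorem Qpoly_eq (a₀ b₀ : ZMod p) : Qpoly a₀ b₀ = X ^ 2 + (C (-a₀) * X + C b₀) := by
  unfold Qpoly
  rw [C_neg]
  ring

theorem Qpoly_natDegree (a₀ b₀ : ZMod p) : (Qpoly a₀ b₀).natDegree = 2 := by
  rw [Qpoly_eq]
  have h1 : (C (-a₀) * X + C b₀ : (ZMod p)[X]).degree < ((X : (ZMod p)[X]) ^ 2).degree := by
    rw [degree_X_pow]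
    exact lt_of_le_of_lt (degree_linear_le) (by norm_num)
  rw [natDegree_add_eq_left_of_degree_lt h1, natDegree_X_pow]

theorem Qpoly_monic (a₀ b₀ : ZMod p) : (Qpoly a₀ b₀).Monic := by
  rw [Qpoly_eq]
  apply monic_X_pow_add
  exact lt_of_le_of_lt (degree_linear_le) (by norm_num)

theorem Qpoly_eval (a₀ b₀ α : ZMod p) : (Qpoly a₀ b₀).eval α = α ^ 2 - a₀ * α + b₀ := by
  simp [Qpoly]

theorem Qpoly_irreducible {a₀ b₀ : ZMod p} (hirr : ∀ α : ZMod p, α ^ 2 - a₀ * α + b₀ ≠ 0) :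
    Irreducible (Qpoly a₀ b₀) := by
  rw [(Qpoly_monic a₀ b₀).irreducible_iff_roots_eq_zero_of_degree_le_three
    (by rw [Qpoly_natDegree]) (by rw [Qpoly_natDegree]; norm_num)]
  rw [Multiset.eq_zero_iff_forall_notMem]
  intro α hα
  rw [mem_roots (Qpoly_monic a₀ b₀).ne_zero, IsRoot, Qpoly_eval] at hα
  exact hirr α hα

/-- Generic: for a ring hom `F` out of `𝔽_p[X]` killing an irreducible `Q`, `F X` has order
dividing `m` iff `Q ∣ X ^ m − 1`. -/
theorem pow_eq_one_iff_dvd {S : Type*} [Ring S] [Nontrivial S] (F : (ZMod p)[X] →+* S)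
    {Q : (ZMod p)[X]} (hQ : Irreducible Q) (hF : F Q = 0) (m : ℕ) :
    F X ^ m = 1 ↔ Q ∣ X ^ m - 1 := by
  constructor
  · intro h
    rcases dvd_or_isCoprime Q (X ^ m - 1) hQ with hd | ⟨u, v, huv⟩
    · exact hd
    · exfalso
      have := congrArg F huv
      rw [map_add, map_mul, map_mul, hF, mul_zero, zero_add, map_sub, map_pow, map_one, h, sub_self,
        mul_zero] at this
      exact zero_ne_one this
  · rintro ⟨R, hR⟩
    have := congrArg F hR
    rw [map_sub, map_pow, map_one, map_mul, hF, zero_mul, sub_eq_zero] at this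
    exact this

/-- An irreducible quadratic over `𝔽_p` divides `X ^ (p² − 1) − 1`. -/
theorem dvd_X_pow_sub_one {Q : (ZMod p)[X]} (hQ : Irreducible Q) (hdeg : Q.natDegree = 2) :
    Q ∣ X ^ (p ^ 2 - 1) - 1 := by
  have hp : p.Prime := Fact.out
  have h1 : Q ∣ X ^ (Nat.card (ZMod p)) ^ 2 - X :=
    hQ.natDegree_dvd_iff_dvd_X_pow_card_pow_sub_X.mp (by rw [hdeg])
  rw [Nat.card_zmod] at h1
  have h2 : (X : (ZMod p)[X]) ^ p ^ 2 - X = X * (X ^ (p ^ 2 - 1) - 1) := by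
    have : p ^ 2 = (p ^ 2 - 1) + 1 := by
      have : 0 < p ^ 2 := pow_pos hp.pos 2
      omega
    conv_lhs => rw [this, pow_succ]
    ring
  rw [h2] at h1
  rcases hQ.prime.dvd_or_dvd h1 with h | h
  · exfalso
    have := natDegree_le_of_dvd h X_ne_zero
    rw [hdeg, natDegree_X] at this
    omega
  · exact h

/-! ### Evaluation at the matrix `B` -/

/-- Evaluation `𝔽_p[X] → M₂(k)`, `X ↦ B`. -/
def evalB (p : ℕ) [Fact p.Prime] {k : Type*} [Field k] [CharP k p]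
    (B : Matrix (Fin 2) (Fin 2) k) : (ZMod p)[X] →+* Matrix (Fin 2) (Fin 2) k :=
  ((aeval B : k[X] →ₐ[k] Matrix (Fin 2) (Fin 2) k) : k[X] →+* Matrix (Fin 2) (Fin 2) k).comp
    (mapRingHom (ZMod.castHom (dvd_refl p) k))

theorem evalB_X (B : Matrix (Fin 2) (Fin 2) k) : evalB p B X = B := by
  simp [evalB]

theorem map_Qpoly {a₀ b₀ : ZMod p} {B : Matrix (Fin 2) (Fin 2) k}
    (htr : B.trace = ZMod.castHom (dvd_refl p) k a₀)
    (hdet : B.det = ZMod.castHom (dvd_refl p) k b₀) :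
    (Qpoly a₀ b₀).map (ZMod.castHom (dvd_refl p) k) = B.charpoly := by
  rw [charpoly_fin_two, htr, hdet]
  simp [Qpoly]

theorem evalB_Qpoly {a₀ b₀ : ZMod p} {B : Matrix (Fin 2) (Fin 2) k}
    (htr : B.trace = ZMod.castHom (dvd_refl p) k a₀)
    (hdet : B.det = ZMod.castHom (dvd_refl p) k b₀) :
    evalB p B (Qpoly a₀ b₀) = 0 := by
  have : evalB p B (Qpoly a₀ b₀) = aeval B ((Qpoly a₀ b₀).map (ZMod.castHom (dvd_refl p) k)) := rfl
  rw [this, map_Qpoly htr hdet, aeval_self_charpoly]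

section main

variable {a₀ b₀ : ZMod p} {B : Matrix (Fin 2) (Fin 2) k}
  (htr : B.trace = ZMod.castHom (dvd_refl p) k a₀)
  (hdet : B.det = ZMod.castHom (dvd_refl p) k b₀)
  (hirr : ∀ α : ZMod p, α ^ 2 - a₀ * α + b₀ ≠ 0)

include htr hdet hirr

/-- `B ^ m = 1 ↔ Q ∣ X ^ m − 1`. -/
theorem pow_eq_one_iff (m : ℕ) : B ^ m = 1 ↔ Qpoly a₀ b₀ ∣ X ^ m - 1 := by
  have := pow_eq_one_iff_dvd (evalB p B) (Qpoly_irreducible hirr) (evalB_Qpoly htr hdet) m
  rwa [evalB_X] at this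

/-- **(ALG-1)** -/
theorem pow_card_sub_one_eq_one : B ^ (p ^ 2 - 1) = 1 :=
  (pow_eq_one_iff htr hdet hirr _).mpr
    (dvd_X_pow_sub_one (Qpoly_irreducible hirr) (Qpoly_natDegree a₀ b₀))

theorem pow_card_eq_self : B ^ (p ^ 2) = B := by
  have hp : p.Prime := Fact.out
  have : p ^ 2 = (p ^ 2 - 1) + 1 := by
    have : 0 < p ^ 2 := pow_pos hp.pos 2
    omega
  rw [this, pow_succ, pow_card_sub_one_eq_one htr hdet hirr, one_mul]

/-- **(ALG-4)** -/
theorem root_facts {K : Type*} [Field K] [CharP K p] (ψ : ZMod p →+* K) {t : K}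
    (ht : t ^ 2 - ψ a₀ * t + ψ b₀ = 0) :
    ψ a₀ = t + t ^ p ∧ ψ b₀ = t ^ (p + 1) ∧ ∀ m : ℕ, t ^ m = 1 ↔ B ^ m = 1 := by
  have hψ : ∀ x : ZMod p, ψ x ^ p = ψ x := fun x => by rw [← map_pow, ZMod.pow_card]
  -- `t ^ p ≠ t`
  have hne : t ^ p ≠ t := by
    intro h
    obtain ⟨α, hα⟩ := exists_zmod_of_pow_eq h
    have hψ' : ψ = ZMod.castHom (dvd_refl p) K := Subsingleton.elim _ _
    rw [← hψ'] at hα
    rw [hα, ← map_pow, ← map_mul, ← map_sub, ← map_add] at ht
    exact hirr α (ψ.injective (by rw [ht, map_zero]))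
  -- Frobenius twist of the relation
  have ht' : (t ^ p) ^ 2 - ψ a₀ * t ^ p + ψ b₀ = 0 := by
    have h := congrArg (frobenius K p) ht
    rw [map_zero, map_add, map_sub, map_mul, map_pow, frobenius_def, frobenius_def,
      frobenius_def, hψ, hψ] at h
    exact h
  have hsum : ψ a₀ = t + t ^ p := by
    have h1 : (t ^ p - t) * (t ^ p + t - ψ a₀) = 0 := by linear_combination ht' - ht
    rcases mul_eq_zero.mp h1 with h2 | h2
    · exact absurd (sub_eq_zero.mp h2) hne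
    · linear_combination -h2
  refine ⟨hsum, ?_, ?_⟩
  · rw [pow_succ]
    linear_combination ht + t * hsum
  · intro m
    have h1 := pow_eq_one_iff_dvd (eval₂RingHom ψ t) (Qpoly_irreducible hirr)
      (by simp [Qpoly]; linear_combination ht) m
    rw [coe_eval₂RingHom, eval₂_X] at h1
    rw [h1, pow_eq_one_iff htr hdet hirr]

end main

/-! ### (ALG-2): the cyclic `𝔽_p[B]`-module generated by a vector -/

/-- Cayley–Hamilton for `2 × 2` matrices. -/
theorem mul_self_eq (B : Matrix (Fin 2) (Fin 2) k) : B * B = B.trace • B - B.det • 1 := by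
  ext i j
  fin_cases i <;> fin_cases j <;>
    simp [Matrix.mul_apply, Fin.sum_univ_two, trace_fin_two, det_fin_two] <;> ring

theorem mulVec_mulVec_eq (B : Matrix (Fin 2) (Fin 2) k) (w : Fin 2 → k) :
    B *ᵥ (B *ᵥ w) = B.trace • (B *ᵥ w) - B.det • w := by
  rw [mulVec_mulVec, mul_self_eq, sub_mulVec, smul_mulVec, smul_mulVec, one_mulVec]

/-- `(x, y) ↦ ι x • w₀ + ι y • B w₀`. -/
def cycHom (p : ℕ) [Fact p.Prime] {k : Type*} [Field k] [CharP k p]
    (B : Matrix (Fin 2) (Fin 2) k) (w₀ : Fin 2 → k) : (ZMod p × ZMod p) →+ (Fin 2 → k) where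
  toFun xy := ZMod.castHom (dvd_refl p) k xy.1 • w₀ + ZMod.castHom (dvd_refl p) k xy.2 • (B *ᵥ w₀)
  map_zero' := by simp
  map_add' a b := by
    simp only [Prod.fst_add, Prod.snd_add, map_add, add_smul]
    abel

/-- `W = {ι x • w₀ + ι y • B w₀ | x y : 𝔽_p}`. -/
def cyc (p : ℕ) [Fact p.Prime] {k : Type*} [Field k] [CharP k p]
    (B : Matrix (Fin 2) (Fin 2) k) (w₀ : Fin 2 → k) : AddSubgroup (Fin 2 → k) :=
  (cycHom p B w₀).range

theorem mem_cyc {B : Matrix (Fin 2) (Fin 2) k} {w₀ w : Fin 2 → k} :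
    w ∈ cyc p B w₀ ↔ ∃ x y : ZMod p, w = ZMod.castHom (dvd_refl p) k x • w₀ +
      ZMod.castHom (dvd_refl p) k y • (B *ᵥ w₀) := by
  unfold cyc
  rw [AddMonoidHom.mem_range]
  constructor
  · rintro ⟨⟨x, y⟩, rfl⟩
    exact ⟨x, y, rfl⟩
  · rintro ⟨x, y, rfl⟩
    exact ⟨(x, y), rfl⟩

theorem self_mem_cyc (B : Matrix (Fin 2) (Fin 2) k) (w₀ : Fin 2 → k) : w₀ ∈ cyc p B w₀ :=
  mem_cyc.mpr ⟨1, 0, by simp⟩

theorem mulVec_self_mem_cyc (B : Matrix (Fin 2) (Fin 2) k) (w₀ : Fin 2 → k) :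
    B *ᵥ w₀ ∈ cyc p B w₀ :=
  mem_cyc.mpr ⟨0, 1, by simp⟩

instance (B : Matrix (Fin 2) (Fin 2) k) (w₀ : Fin 2 → k) : Finite (cyc p B w₀) := by
  unfold cyc
  exact Set.finite_range _

section main2

variable {a₀ b₀ : ZMod p} {B : Matrix (Fin 2) (Fin 2) k}
  (htr : B.trace = ZMod.castHom (dvd_refl p) k a₀)
  (hdet : B.det = ZMod.castHom (dvd_refl p) k b₀)
  (hirr : ∀ α : ZMod p, α ^ 2 - a₀ * α + b₀ ≠ 0)

include htr hdet

/-- `W` is `B`-stable. -/
theorem mulVec_mem_cyc {w₀ w : Fin 2 → k} (hw : w ∈ cyc p B w₀) : B *ᵥ w ∈ cyc p B w₀ := by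
  obtain ⟨x, y, rfl⟩ := mem_cyc.mp hw
  refine mem_cyc.mpr ⟨-(y * b₀), x + y * a₀, ?_⟩
  rw [mulVec_add, mulVec_smul, mulVec_smul, mulVec_mulVec_eq, htr, hdet]
  simp only [map_neg, map_mul, map_add, smul_sub, smul_smul, add_smul, neg_smul]
  abel

include hirr

/-- `B` has no eigenvector with eigenvalue in `𝔽_p`. -/
theorem no_eigen {w : Fin 2 → k} (hw : w ≠ 0) (α : ZMod p)
    (h : B *ᵥ w = ZMod.castHom (dvd_refl p) k α • w) : False := by
  have h2 := mulVec_mulVec_eq B w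
  rw [h, mulVec_smul, h, htr, hdet, smul_smul, smul_smul, ← sub_smul, ← sub_eq_zero, ← sub_smul,
    smul_eq_zero] at h2
  rcases h2 with h2 | h2
  · apply hirr α
    apply (ZMod.castHom (dvd_refl p) k).injective
    rw [map_zero, map_add, map_sub, map_mul, map_pow]
    linear_combination h2
  · exact hw h2

theorem cycHom_injective {w₀ : Fin 2 → k} (hw₀ : w₀ ≠ 0) :
    Function.Injective (cycHom p B w₀) := by
  rw [injective_iff_map_eq_zero]
  rintro ⟨x, y⟩ hxy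
  change ZMod.castHom (dvd_refl p) k x • w₀ + ZMod.castHom (dvd_refl p) k y • (B *ᵥ w₀) = 0 at hxy
  by_cases hy : y = 0
  · subst hy
    rw [map_zero, zero_smul, add_zero, smul_eq_zero] at hxy
    rcases hxy with h | h
    · have : x = 0 := (ZMod.castHom (dvd_refl p) k).injective (by rw [h, map_zero])
      rw [this]
      rfl
    · exact absurd h hw₀
  · exfalso
    apply no_eigen htr hdet hirr hw₀ (-(x * y⁻¹))
    have hy' : ZMod.castHom (dvd_refl p) k y ≠ 0 := by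
      intro h
      exact hy ((ZMod.castHom (dvd_refl p) k).injective (by rw [h, map_zero]))
    have h1 : ZMod.castHom (dvd_refl p) k y • (B *ᵥ w₀) =
        -(ZMod.castHom (dvd_refl p) k x • w₀) := by
      rw [eq_neg_iff_add_eq_zero, add_comm]; exact hxy
    have h2 : B *ᵥ w₀ = (ZMod.castHom (dvd_refl p) k y)⁻¹ •
        (ZMod.castHom (dvd_refl p) k y • (B *ᵥ w₀)) := by
      rw [smul_smul, inv_mul_cancel₀ hy', one_smul]
    rw [h2, h1, map_neg, map_mul, map_inv₀, smul_neg, smul_smul, neg_smul, mul_comm]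

/-- `#W = p²`. -/
theorem card_cyc {w₀ : Fin 2 → k} (hw₀ : w₀ ≠ 0) : Nat.card (cyc p B w₀) = p ^ 2 := by
  have e := AddMonoidHom.ofInjective (cycHom_injective htr hdet hirr hw₀)
  unfold cyc
  rw [← Nat.card_congr e.toEquiv, Nat.card_prod, Nat.card_zmod, sq]

/-- `W` is irreducible under `B`. -/
theorem cyc_irr {w₀ : Fin 2 → k} (hw₀ : w₀ ≠ 0) (N' : AddSubgroup (Fin 2 → k))
    (hN : N' ≤ cyc p B w₀) (hB : ∀ w ∈ N', B *ᵥ w ∈ N') : N' = ⊥ ∨ N' = cyc p B w₀ := by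
  by_cases hbot : N' = ⊥
  · exact Or.inl hbot
  right
  obtain ⟨⟨w, hw⟩, hw0'⟩ := (AddSubgroup.ne_bot_iff_exists_ne_zero).mp hbot
  have hw0 : w ≠ 0 := fun h => hw0' (Subtype.ext h)
  have hsm : ∀ (x : ZMod p) (v : Fin 2 → k), v ∈ N' → ZMod.castHom (dvd_refl p) k x • v ∈ N' := by
    intro x v hv
    have : ZMod.castHom (dvd_refl p) k x • v = x.val • v := by
      rw [← Nat.cast_smul_eq_nsmul k, ← map_natCast (ZMod.castHom (dvd_refl p) k),
        ZMod.natCast_zmod_val]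
    rw [this]
    exact N'.nsmul_mem hv _
  have h1 : cyc p B w ≤ N' := by
    intro v hv
    obtain ⟨x, y, rfl⟩ := mem_cyc.mp hv
    exact N'.add_mem (hsm x w hw) (hsm y _ (hB w hw))
  have h2 : cyc p B w = cyc p B w₀ := by
    apply AddSubgroup.eq_of_le_of_card_ge (h1.trans hN)
    rw [card_cyc htr hdet hirr hw₀, card_cyc htr hdet hirr hw0]
  exact le_antisymm hN (h2 ▸ h1)

end main2

/-! ### (ALG-3): the order of `A` is prime to `p` -/

/-- A nilpotent `2 × 2` matrix squares to zero. -/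
theorem mul_self_eq_zero_of_pow_eq_zero (N : Matrix (Fin 2) (Fin 2) k) {j : ℕ} (h : N ^ j = 0) :
    N * N = 0 := by
  have hj : j ≠ 0 := by
    rintro rfl
    rw [pow_zero] at h
    exact one_ne_zero h
  have hdet : N.det = 0 := by
    have : N.det ^ j = 0 := by rw [← det_pow, h, det_zero]
    exact pow_eq_zero_iff hj |>.mp this
  have hsq : N * N = N.trace • N := by
    rw [mul_self_eq, hdet, zero_smul, sub_zero]
  have hpow : ∀ i : ℕ, N ^ (i + 1) = N.trace ^ i • N := by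
    intro i
    induction i with
    | zero => simp
    | succ i ih => rw [pow_succ, ih, smul_mul_assoc, hsq, smul_smul, pow_succ]
  obtain ⟨i, rfl⟩ := Nat.exists_eq_succ_of_ne_zero hj
  rw [Nat.succ_eq_add_one, hpow, smul_eq_zero] at h
  rcases h with h | h
  · rcases Nat.eq_zero_or_pos i with rfl | hi
    · rw [pow_zero] at h; exact absurd h one_ne_zero
    · rw [hsq, pow_eq_zero_iff (by omega) |>.mp h, zero_smul]
  · rw [h, mul_zero]

/-- A nonzero square-zero matrix commuting with `B` forces `disc B = 0`. -/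
theorem trace_sq_eq_of_commute_nilpotent {N B : Matrix (Fin 2) (Fin 2) k} (hNN : N * N = 0)
    (hNB : N * B = B * N) (hN : N ≠ 0) : B.trace ^ 2 = 4 * B.det := by
  have e00 := congrFun (congrFun hNN 0) 0
  have e01 := congrFun (congrFun hNN 0) 1
  have e10 := congrFun (congrFun hNN 1) 0
  have e11 := congrFun (congrFun hNN 1) 1
  have c00 := congrFun (congrFun hNB 0) 0
  have c01 := congrFun (congrFun hNB 0) 1
  have c10 := congrFun (congrFun hNB 1) 0
  simp only [Matrix.mul_apply, Fin.sum_univ_two, Matrix.zero_apply] at e00 e01 e10 e11 c00 c01 c10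
  rw [trace_fin_two, det_fin_two]
  -- trace of `N` vanishes
  have hτ : N 0 0 + N 1 1 = 0 := by
    by_contra hτ
    have h01 : N 0 1 = 0 := by
      have : N 0 1 * (N 0 0 + N 1 1) = 0 := by linear_combination e01
      exact (mul_eq_zero.mp this).resolve_right hτ
    have h10 : N 1 0 = 0 := by
      have : N 1 0 * (N 0 0 + N 1 1) = 0 := by linear_combination e10
      exact (mul_eq_zero.mp this).resolve_right hτ
    have h00 : N 0 0 = 0 := by
      have : N 0 0 * N 0 0 = 0 := by rw [h01] at e00; linear_combination e00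
      exact mul_self_eq_zero.mp this
    have h11 : N 1 1 = 0 := by
      have : N 1 1 * N 1 1 = 0 := by rw [h01] at e11; linear_combination e11
      exact mul_self_eq_zero.mp this
    exact hτ (by rw [h00, h11, add_zero])
  have h11 : N 1 1 = -N 0 0 := by linear_combination hτ
  rw [h11] at c01 c10
  have h1 : N 0 0 ^ 2 + N 0 1 * N 1 0 = 0 := by linear_combination e00
  have h2 : N 0 1 * B 1 0 - B 0 1 * N 1 0 = 0 := by linear_combination c00
  have h3 : N 0 1 * (B 0 0 - B 1 1) - 2 * N 0 0 * B 0 1 = 0 := by linear_combination -c01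
  have h4 : N 1 0 * (B 0 0 - B 1 1) - 2 * N 0 0 * B 1 0 = 0 := by linear_combination c10
  set δ := B 0 0 - B 1 1 with hδ
  set D := δ ^ 2 + 4 * B 0 1 * B 1 0 with hD
  have g1 : N 0 0 ^ 2 * D = 0 := by
    rw [hD]
    linear_combination δ ^ 2 * h1 - (N 1 0 * δ) * h3 - (2 * N 0 0 * B 0 1) * h4
  have g2 : N 0 1 ^ 2 * D = 0 := by
    rw [hD]
    linear_combination (N 0 1 * δ + 2 * N 0 0 * B 0 1) * h3 + 4 * N 0 1 * B 0 1 * h2 +
      4 * B 0 1 ^ 2 * h1
  have g3 : N 1 0 ^ 2 * D = 0 := by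
    rw [hD]
    linear_combination (N 1 0 * δ + 2 * N 0 0 * B 1 0) * h4 - 4 * N 1 0 * B 1 0 * h2 +
      4 * B 1 0 ^ 2 * h1
  have hD0 : D = 0 := by
    by_contra hD0
    have z00 : N 0 0 = 0 := by
      have := (mul_eq_zero.mp g1).resolve_right hD0
      exact pow_eq_zero_iff (two_ne_zero) |>.mp this
    have z01 : N 0 1 = 0 := by
      have := (mul_eq_zero.mp g2).resolve_right hD0
      exact pow_eq_zero_iff (two_ne_zero) |>.mp this
    have z10 : N 1 0 = 0 := by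
      have := (mul_eq_zero.mp g3).resolve_right hD0
      exact pow_eq_zero_iff (two_ne_zero) |>.mp this
    apply hN
    ext i j
    fin_cases i <;> fin_cases j <;> simp [z00, z01, z10, h11]
  rw [hD, hδ] at hD0
  linear_combination hD0

theorem mul_pow_eq_of_mul_eq {A B C : Matrix (Fin 2) (Fin 2) k} (h : A * B = C * A) (j : ℕ) :
    A * B ^ j = C ^ j * A := by
  induction j with
  | zero => simp
  | succ j ih => rw [pow_succ, ← mul_assoc, ih, mul_assoc, h, ← mul_assoc, ← pow_succ]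

section main3

variable {a₀ b₀ : ZMod p} {B : Matrix (Fin 2) (Fin 2) k}
  (htr : B.trace = ZMod.castHom (dvd_refl p) k a₀)
  (hdet : B.det = ZMod.castHom (dvd_refl p) k b₀)
  (hirr : ∀ α : ZMod p, α ^ 2 - a₀ * α + b₀ ≠ 0)

include htr hdet hirr

/-- `A²` commutes with `B`. -/
theorem sq_commute {A : Matrix (Fin 2) (Fin 2) k} (h : A * B = B ^ p * A) :
    Commute (A * A) B := by
  have h1 : A * B ^ p = B * A := by
    rw [mul_pow_eq_of_mul_eq h p, ← pow_mul, ← sq, pow_card_eq_self htr hdet hirr]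
  change A * A * B = B * (A * A)
  rw [mul_assoc, h, ← mul_assoc, h1, mul_assoc]

/-- The discriminant of `B` is nonzero (`p` odd). -/
theorem trace_sq_ne (hp2 : p ≠ 2) : B.trace ^ 2 ≠ 4 * B.det := by
  have hp : p.Prime := Fact.out
  intro hdisc
  rw [htr, hdet] at hdisc
  have h4 : (4 : k) = ZMod.castHom (dvd_refl p) k 4 := by
    rw [map_ofNat]
  rw [h4, ← map_pow, ← map_mul] at hdisc
  have h1 : a₀ ^ 2 = 4 * b₀ := (ZMod.castHom (dvd_refl p) k).injective hdisc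
  have h2 : (2 : ZMod p) ≠ 0 := by
    intro h
    have h' : ((2 : ℕ) : ZMod p) = 0 := by exact_mod_cast h
    rw [ZMod.natCast_eq_zero_iff] at h'
    exact hp2 ((Nat.prime_dvd_prime_iff_eq hp Nat.prime_two).mp h')
  apply hirr (a₀ * 2⁻¹)
  field_simp
  linear_combination -h1

/-- **(ALG-3)**, for `m > 0`. -/
theorem exists_coprime_pow_eq_one_of_pos (hp2 : p ≠ 2) {A : Matrix (Fin 2) (Fin 2) k}
    (h : A * B = B ^ p * A) {m : ℕ} (hm : 0 < m) (hAm : A ^ m = 1) :
    ∃ m' : ℕ, m'.Coprime p ∧ A ^ m' = 1 := by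
  have hp : p.Prime := Fact.out
  obtain ⟨s, m', hm', rfl⟩ := Nat.exists_eq_pow_mul_and_not_dvd hm.ne' p hp.ne_one
  refine ⟨2 * m', ?_, ?_⟩
  · apply Nat.Coprime.symm
    rw [hp.coprime_iff_not_dvd]
    intro hd
    rcases hp.dvd_mul.mp hd with h2 | h2
    · exact hp2 ((Nat.prime_dvd_prime_iff_eq hp Nat.prime_two).mp h2)
    · exact hm' h2
  · set U := A ^ (2 * m') with hUdef
    have hU : U ^ (p ^ s) = 1 := by
      rw [hUdef, ← pow_mul, show 2 * m' * p ^ s = (p ^ s * m') * 2 by ring, pow_mul, hAm, one_pow]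
    have hc : Commute U B := by
      rw [hUdef, pow_mul, sq]
      exact (sq_commute htr hdet hirr h).pow_left m'
    by_contra hne
    set N := U - 1 with hNdef
    have hNB : N * B = B * N := by
      rw [hNdef, sub_mul, mul_sub, one_mul, mul_one, hc.eq]
    have hNp : N ^ (p ^ s) = 0 := by
      rw [hNdef, sub_pow_char_pow_of_commute p s (Commute.one_right U), hU, one_pow, sub_self]
    have hNN := mul_self_eq_zero_of_pow_eq_zero N hNp
    have hN : N ≠ 0 := fun h0 => hne (sub_eq_zero.mp h0)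
    exact trace_sq_ne htr hdet hirr hp2 (trace_sq_eq_of_commute_nilpotent hNN hNB hN)

/-- **(ALG-3)** for finite `k`: the order of `A` is prime to `p`. -/
theorem exists_coprime_pow_eq_one [Finite k] (hp2 : p ≠ 2) {A A' : Matrix (Fin 2) (Fin 2) k}
    (hA : A * A' = 1) (h : A * B = B ^ p * A) : ∃ m' : ℕ, m'.Coprime p ∧ A ^ m' = 1 := by
  set u : (Matrix (Fin 2) (Fin 2) k)ˣ := ⟨A, A', hA, mul_eq_one_comm.mp hA⟩ with hu
  have h1 : 0 < orderOf u := orderOf_pos u
  have h2 : A ^ orderOf u = 1 := by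
    have := congrArg Units.val (pow_orderOf_eq_one u)
    rwa [Units.val_pow_eq_pow_val, Units.val_one] at this
  exact exists_coprime_pow_eq_one_of_pos htr hdet hirr hp2 h h1 h2

/-- **(ALG-3)** in helper2's shape. -/
theorem exists_coprime_pow_eq_one' [Finite k] (hp2 : p ≠ 2) {A A' : Matrix (Fin 2) (Fin 2) k}
    (hA : A * A' = 1) (h : A * B = B ^ p * A) :
    ∀ m : ℕ, A ^ m = 1 → ∃ m' : ℕ, m'.Coprime p ∧ A ^ m' = 1 :=
  fun _ _ => exists_coprime_pow_eq_one htr hdet hirr hp2 hA h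

end main3

end

end Fermat.Agent.TW.FLAT.LLMatrix6
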