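/-
Programme T (S56), chapter T/FLAT, local-local chain, (S-STRUCT): helper2's requests (T1'), (U),
(S4') (msg 365), in his exact shapes (helper4).  `L : IntermediateField ℚ_[p] (PadicAlgCl p)`
finite Galois over `ℚ_p`.

* **(T1')** `exists_wild L : ∃ g₁ ∈ Iq p, ∃ P : Subgroup (Gq p), P ≤ Iq p ∧ P.Normal ∧
    (∀ π ∈ P, ∃ n : ℕ, π ^ (p ^ n) ∈ L.fixingSubgroup) ∧
    (∀ σ ∈ Iq p, ∃ z : ℤ, (g₁ ^ z)⁻¹ * σ ∈ P) ∧
    (∀ φ : Gq p, IsFrobLift p φ → (g₁ ^ p)⁻¹ * (φ * g₁ * φ⁻¹) ∈ P) ∧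
    (P ≤ L.fixingSubgroup → (ramIdx p ℚ_[p] ↥L).Coprime p)`.
* **(U)** `isUniformizer_of_pow L ϖ hϖL m hm hϖ hle : ∃ πu : (↥L)ˣ, ((πu : ↥L) : Ω) = ϖ ∧
    IsUniformizer p ↥L (πu : ↥L) ∧ snorm p ↥L ((p : ℕ) : ↥L) = snorm p ↥L (πu : ↥L) ^ m`.
  Also `isUniformizer_of_pow_le` (`hle : ramIdx ≤ m`, conclusion `ramIdx = m ∧ …`) and
  `ramIdx_eq_of_pow : ramIdx p ℚ_[p] ↥L = m`.
* **(S4')** `poly_thetaL` (general polynomial form) and `quad_thetaL` (quadratic form): a relation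
  `‖∑ i, (q i : Ω) * (g₀ πu / πu) ^ i‖ < 1` with integer coefficients reduces to
  `∑ i, φr (q i : ZMod p) * t ^ i = 0` in `resF p L`, `t = thetaL p L ⟨g₀, hg₀⟩`.
-/
import Mathlib
import Fermat.Agent.TW.FLAT.TameGen4

set_option autoImplicit false
set_option linter.unusedSectionVars false

open Fermat.Agent.PT.LOC.Interface12 Fermat.Agent.PT.LOC.Structure14
  Fermat.Agent.PT.LOC.StructureNorm14 Fermat.Agent.PT.LOC.StructureTowerEF27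
  Fermat.Agent.PT.LOC.Unram11
open Fermat.Agent.PT.GLUE.Objects21
open Fermat.Agent.TW.LOC.Defs2 Fermat.Agent.TW.LOC.TameInertia4 Fermat.Agent.TW.LOC.TameProfinite4
  Fermat.Agent.TW.LOC.UnramGq4 Fermat.Agent.TW.LOC.UnramFixed4
  Fermat.Agent.TW.FLAT.TameStruct4 Fermat.Agent.TW.FLAT.TameGen4

namespace Fermat.Agent.TW.FLAT.TameWild4

noncomputable section

variable {p : ℕ} [Fact p.Prime]

variable (L : IntermediateField ℚ_[p] (PadicAlgCl p)) [FiniteDimensional ℚ_[p] L]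
  [IsGalois ℚ_[p] L]

/-- **(T1')** the wild subgroup `P` of `Iq p` at level `L` and a tame generator `g₁`. -/
theorem exists_wild :
    ∃ g₁ ∈ Iq p, ∃ P : Subgroup (Gq p), P ≤ Iq p ∧ P.Normal ∧
      (∀ π ∈ P, ∃ n : ℕ, π ^ (p ^ n) ∈ L.fixingSubgroup) ∧
      (∀ σ ∈ Iq p, ∃ z : ℤ, (g₁ ^ z)⁻¹ * σ ∈ P) ∧
      (∀ φ : Gq p, IsFrobLift p φ → (g₁ ^ p)⁻¹ * (φ * g₁ * φ⁻¹) ∈ P) ∧
      (P ≤ L.fixingSubgroup → (ramIdx p ℚ_[p] ↥L).Coprime p) := by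
  obtain ⟨τ, hτ⟩ := exists_thetaL_generator p L
  set P : Subgroup (Gq p) := Iq p ⊓ (wild p ℚ_[p] ↥L).comap (resL p L) with hP
  have hPmem : ∀ π : Gq p, π ∈ P ↔ ∃ h : π ∈ Iq p, thetaL p L ⟨π, h⟩ = 1 := by
    intro π
    rw [hP, Subgroup.mem_inf, Subgroup.mem_comap, mem_wild_iff_theta0]
    constructor
    · rintro ⟨h1, h2, h3⟩
      exact ⟨h1, h3⟩
    · rintro ⟨h1, h3⟩
      exact ⟨h1, resL_mem_inertia p L h1, h3⟩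
  refine ⟨τ, τ.2, P, inf_le_left, ?_, ?_, ?_, ?_, ?_⟩
  · have h1 : ((wild p ℚ_[p] ↥L).comap (resL p L)).Normal := inferInstance
    have h2 : (Iq p).Normal := Iq_normal p
    rw [hP]
    infer_instance
  · intro π hπ
    obtain ⟨h, h1⟩ := (hPmem π).1 hπ
    obtain ⟨n, hn⟩ := isPGroup_ker_theta0 p ℚ_[p] ↥L ⟨resI p L ⟨π, h⟩, h1⟩
    refine ⟨n, ?_⟩
    rw [← ker_resL, MonoidHom.mem_ker, map_pow]
    have h2 := congrArg (fun x : (theta0 p ℚ_[p] ↥L).ker =>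
      ((x : inertia p ℚ_[p] ↥L) : ↥L ≃ₐ[ℚ_[p]] ↥L)) hn
    simp only [SubmonoidClass.coe_pow, OneMemClass.coe_one] at h2
    exact h2
  · intro σ hσ
    obtain ⟨z, hz⟩ := Subgroup.mem_zpowers_iff.1 (hτ ⟨σ, hσ⟩)
    refine ⟨z, ?_⟩
    rw [hPmem]
    have hmem : ((τ : Gq p) ^ z)⁻¹ * σ ∈ Iq p :=
      (Iq p).mul_mem ((Iq p).inv_mem ((Iq p).zpow_mem τ.2 z)) hσ
    refine ⟨hmem, ?_⟩
    have h2 : (⟨((τ : Gq p) ^ z)⁻¹ * σ, hmem⟩ : Iq p) = (τ ^ z)⁻¹ * ⟨σ, hσ⟩ := rfl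
    rw [h2, map_mul, map_inv, map_zpow, hz, inv_mul_cancel]
  · intro φ hφ
    have hconj : φ * (τ : Gq p) * φ⁻¹ ∈ Iq p := (Iq_normal p).conj_mem τ τ.2 φ
    rw [hPmem]
    have hmem : ((τ : Gq p) ^ p)⁻¹ * (φ * τ * φ⁻¹) ∈ Iq p :=
      (Iq p).mul_mem ((Iq p).inv_mem ((Iq p).pow_mem τ.2 p)) hconj
    refine ⟨hmem, ?_⟩
    have h2 : (⟨((τ : Gq p) ^ p)⁻¹ * (φ * τ * φ⁻¹), hmem⟩ : Iq p)
        = (τ ^ p)⁻¹ * ⟨φ * τ * φ⁻¹, hconj⟩ := rfl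
    rw [h2, map_mul, map_inv, map_pow]
    have h3 := theta0_conj_frob p ℚ_[p] ↥L (isFrob_resL p L hφ) (resI p L τ)
    rw [resCard_padic] at h3
    have h4 : thetaL p L ⟨φ * τ * φ⁻¹, hconj⟩ = thetaL p L τ ^ p := by
      have h5 : resI p L ⟨φ * τ * φ⁻¹, hconj⟩
          = ⟨resL p L φ * (resI p L τ : ↥L ≃ₐ[ℚ_[p]] ↥L) * (resL p L φ)⁻¹,
            (inertia_normal p ℚ_[p] ↥L).conj_mem _ (resI p L τ).2 _⟩ := by
        apply Subtype.ext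
        change resL p L (φ * τ * φ⁻¹) = _
        rw [map_mul, map_mul, map_inv]
        rfl
      change theta0 p ℚ_[p] ↥L (resI p L ⟨φ * τ * φ⁻¹, hconj⟩)
        = (theta0 p ℚ_[p] ↥L (resI p L τ)) ^ p
      rw [h5]
      exact h3
    rw [h4, inv_mul_cancel]
  · intro hle
    -- `θ₀` is injective
    have hinj : Function.Injective (theta0 p ℚ_[p] ↥L) := by
      rw [injective_iff_map_eq_one]
      intro ρ hρ
      obtain ⟨σ, rfl⟩ := resI_surjective p L ρ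
      have h1 : (σ : Gq p) ∈ P := by
        rw [hPmem]
        exact ⟨σ.2, hρ⟩
      have h2 := hle h1
      rw [← ker_resL, MonoidHom.mem_ker] at h2
      apply Subtype.ext
      rw [coe_resI]
      exact h2
    have hfin : Finite (resF p ↥L)ˣ := inferInstance
    have h1 : Nat.card (inertia p ℚ_[p] ↥L) ∣ Nat.card (resF p ↥L)ˣ :=
      Subgroup.card_dvd_of_injective _ hinj
    rw [card_inertia] at h1
    exact Nat.Coprime.coprime_dvd_left h1 (card_units_resF_coprime p ↥L)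

/-- **(U)** an element of `L` whose `m`-th power has the norm of `p`, with `e(L/ℚ_p) ∣ m`, is a
uniformizer of `L` (and then `e(L/ℚ_p) = m`). -/
theorem isUniformizer_of_pow (ϖ : PadicAlgCl p) (hϖL : ϖ ∈ L) (m : ℕ) (hm : 0 < m)
    (hϖ : ‖ϖ‖ ^ m = ‖((p : ℕ) : PadicAlgCl p)‖) (hle : ramIdx p ℚ_[p] ↥L ∣ m) :
    ∃ πu : (↥L)ˣ, ((πu : ↥L) : PadicAlgCl p) = ϖ ∧ IsUniformizer p ↥L (πu : ↥L) ∧
      snorm p ↥L ((p : ℕ) : ↥L) = snorm p ↥L (πu : ↥L) ^ m := by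
  have hp0 : ((p : ℕ) : PadicAlgCl p) ≠ 0 := by
    exact_mod_cast (Fact.out : p.Prime).ne_zero
  have hϖ0 : ϖ ≠ 0 := by
    rintro rfl
    rw [norm_zero, zero_pow hm.ne'] at hϖ
    exact (norm_ne_zero_iff.2 hp0) hϖ.symm
  set x : ↥L := ⟨ϖ, hϖL⟩ with hx
  have hx0 : x ≠ 0 := by
    intro h
    exact hϖ0 (congrArg Subtype.val h)
  have h1 : snorm p ↥L x ^ m = snorm p ↥L ((p : ℕ) : ↥L) := by
    rw [snorm_eq_norm, snorm_eq_norm]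
    have h2 : ((((p : ℕ) : ↥L) : ↥L) : PadicAlgCl p) = ((p : ℕ) : PadicAlgCl p) := by
      simp
    rw [h2]
    exact hϖ
  obtain ⟨h3, h4⟩ := dvd_ramIdx_of_snorm_pow L x m h1
  have h5 : m = ramIdx p ℚ_[p] ↥L := Nat.dvd_antisymm h3 hle
  refine ⟨Units.mk0 x hx0, rfl, ?_, ?_⟩
  · rw [Units.val_mk0]
    exact h4 h5
  · rw [Units.val_mk0]
    exact h1.symm

/-- **(U), `≤` variant**, also giving `e(L/ℚ_p) = m`. -/
theorem isUniformizer_of_pow_le (ϖ : PadicAlgCl p) (hϖL : ϖ ∈ L) (m : ℕ) (hm : 0 < m)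
    (hϖ : ‖ϖ‖ ^ m = ‖((p : ℕ) : PadicAlgCl p)‖) (hle : ramIdx p ℚ_[p] ↥L ≤ m) :
    ramIdx p ℚ_[p] ↥L = m ∧ ∃ πu : (↥L)ˣ, ((πu : ↥L) : PadicAlgCl p) = ϖ ∧
      IsUniformizer p ↥L (πu : ↥L) ∧
      snorm p ↥L ((p : ℕ) : ↥L) = snorm p ↥L (πu : ↥L) ^ m := by
  have h1 : snorm p ↥L (⟨ϖ, hϖL⟩ : ↥L) ^ m = snorm p ↥L ((p : ℕ) : ↥L) := by
    rw [snorm_eq_norm, snorm_eq_norm]
    have h2 : ((((p : ℕ) : ↥L) : ↥L) : PadicAlgCl p) = ((p : ℕ) : PadicAlgCl p) := by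
      simp
    rw [h2]
    exact hϖ
  obtain ⟨h3, -⟩ := dvd_ramIdx_of_snorm_pow L ⟨ϖ, hϖL⟩ m h1
  have h4 : m ≤ ramIdx p ℚ_[p] ↥L := Nat.le_of_dvd (ramIdx_pos p ℚ_[p] ↥L) h3
  have h5 : ramIdx p ℚ_[p] ↥L = m := le_antisymm hle h4
  exact ⟨h5, isUniformizer_of_pow L ϖ hϖL m hm hϖ (by rw [h5])⟩

/-- In the situation of **(U)**, `e(L/ℚ_p) = m`. -/
theorem ramIdx_eq_of_pow (ϖ : PadicAlgCl p) (hϖL : ϖ ∈ L) (m : ℕ) (hm : 0 < m)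
    (hϖ : ‖ϖ‖ ^ m = ‖((p : ℕ) : PadicAlgCl p)‖) (hle : ramIdx p ℚ_[p] ↥L ∣ m) :
    ramIdx p ℚ_[p] ↥L = m :=
  (isUniformizer_of_pow_le L ϖ hϖL m hm hϖ (Nat.le_of_dvd hm hle)).1

/-- **(S4'), general form**: a polynomial relation with integer coefficients, modulo the maximal
ideal, for the unit `g₀ πu / πu` gives the same relation for the tame character `θ_L(g₀)` in the
residue field. -/
theorem poly_thetaL (πu : (↥L)ˣ) (hπ : IsUniformizer p ↥L (πu : ↥L)) (g₀ : Gq p)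
    (hg₀ : g₀ ∈ Iq p) (m : ℕ) (q : ℕ → ℤ)
    (h : ‖∑ i ∈ Finset.range m, (q i : PadicAlgCl p) *
        (g₀ ((πu : ↥L) : PadicAlgCl p) / ((πu : ↥L) : PadicAlgCl p)) ^ i‖ < 1)
    (φr : ZMod p →+* resF p ↥L) :
    ∑ i ∈ Finset.range m, φr (q i : ZMod p) *
      ((thetaL p L ⟨g₀, hg₀⟩ : (resF p ↥L)ˣ) : resF p ↥L) ^ i = 0 := by
  set σ : inertia p ℚ_[p] ↥L := resI p L ⟨g₀, hg₀⟩ with hσ
  have h1 : thetaL p L ⟨g₀, hg₀⟩ = thetaX p ℚ_[p] ↥L (σ : ↥L ≃ₐ[ℚ_[p]] ↥L) πu :=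
    theta0_apply p ℚ_[p] ↥L σ πu hπ
  set w : unitGroup p ↥L := quotHom p ℚ_[p] ↥L (σ : ↥L ≃ₐ[ℚ_[p]] ↥L) πu with hw
  set u : intRing p ↥L := ⟨((w : (↥L)ˣ) : ↥L), w.2.1⟩ with hu
  have h2 : ((thetaL p L ⟨g₀, hg₀⟩ : (resF p ↥L)ˣ) : resF p ↥L)
      = Ideal.Quotient.mk (mI p ↥L) u := by
    rw [h1]
    rfl
  have h3 : ∀ i : ℕ, φr (q i : ZMod p) = Ideal.Quotient.mk (mI p ↥L) ((q i : ℤ) : intRing p ↥L) := by
    intro i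
    rw [map_intCast, map_intCast]
  rw [h2]
  simp_rw [h3, ← map_pow, ← map_mul]
  rw [← map_sum, Ideal.Quotient.eq_zero_iff_mem, mem_maximalIdeal_iff_snorm, snorm_eq_norm]
  have h4 : (((u : ↥L)) : PadicAlgCl p)
      = g₀ ((πu : ↥L) : PadicAlgCl p) / ((πu : ↥L) : PadicAlgCl p) := by
    rw [hu]
    change ((((w : (↥L)ˣ) : ↥L)) : PadicAlgCl p) = _
    rw [hw, coe_quotHom, hσ, coe_resI]
    rw [div_eq_mul_inv]
    push_cast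
    rw [coe_resL]
  have h5 : (((∑ i ∈ Finset.range m, ((q i : ℤ) : intRing p ↥L) * u ^ i : intRing p ↥L) : ↥L)
      : PadicAlgCl p) = ∑ i ∈ Finset.range m, (q i : PadicAlgCl p) *
        (g₀ ((πu : ↥L) : PadicAlgCl p) / ((πu : ↥L) : PadicAlgCl p)) ^ i := by
    rw [← h4]
    push_cast
    rfl
  rw [h5]
  exact h

/-- **(S4')** the quadratic case. -/
theorem quad_thetaL (πu : (↥L)ˣ) (hπ : IsUniformizer p ↥L (πu : ↥L)) (g₀ : Gq p)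
    (hg₀ : g₀ ∈ Iq p) (c0 c1 : ℤ)
    (h : ‖(c0 : PadicAlgCl p) + (c1 : PadicAlgCl p) *
        (g₀ ((πu : ↥L) : PadicAlgCl p) / ((πu : ↥L) : PadicAlgCl p)) +
        (g₀ ((πu : ↥L) : PadicAlgCl p) / ((πu : ↥L) : PadicAlgCl p)) ^ 2‖ < 1)
    (φr : ZMod p →+* resF p ↥L) :
    φr (c0 : ZMod p) + φr (c1 : ZMod p) * ((thetaL p L ⟨g₀, hg₀⟩ : (resF p ↥L)ˣ) : resF p ↥L) +
      ((thetaL p L ⟨g₀, hg₀⟩ : (resF p ↥L)ˣ) : resF p ↥L) ^ 2 = 0 := by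
  have h1 := poly_thetaL L πu hπ g₀ hg₀ 3 (fun i => if i = 0 then c0 else if i = 1 then c1 else 1)
    (by
      simp only [Finset.sum_range_succ, Finset.sum_range_zero]
      simpa using h) φr
  simp only [Finset.sum_range_succ, Finset.sum_range_zero] at h1
  simpa using h1

end

end Fermat.Agent.TW.FLAT.TameWild4
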