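/-
Programme T (S56), chapter T/FLAT, local-local chain, (S-STRUCT) — helper2.

`LLPlane2`: for a level representation `ρ : Gq p →* M₂(k)` which is flat, local-local, with
`det ρ|Iq = ω`:

* `gPair ρ = (ρ, ω) : Gq p →* M₂(k)ˣ × 𝔽_pˣ`, the field `Lk ρ := kerF p (gPair ρ)` it cuts out;
* `ramIdx_coprime` : `e(Lk ρ / ℚ_p)` is prime to `p` (tameness, from `LLLine2.wild_trivial` and
  helper4's `TameWild4.exists_wild`);
* `exists_plane_unif` : if `ρ(Iq) ⊆ ⟨ρ(g₀)⟩`, `tr, det ρ(g₀) = a₀, b₀ ∈ 𝔽_p`, there is `ϖ₂ ∈ Ω` fixed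
  by `ker ρ`, with `‖ϖ₂‖ ^ (p² - 1) = ‖p‖`, and `u = g₀ ϖ₂ / ϖ₂` satisfies
  `‖b₀ - a₀ u + u²‖ < 1` (Raynaud, level 2, `ModuleLL6` through `LLBase2`).
-/
import Mathlib
import Fermat.Agent.TW.FLAT.LLLine2
import Fermat.Agent.TW.FLAT.TameWild4
import Fermat.Agent.TW.FLAT.LLMatrix6

set_option autoImplicit false
set_option linter.unusedSectionVars false
set_option linter.style.haveILetI false

namespace Fermat.Agent.TW.FLAT.LLPlane2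

open Matrix
open Fermat.Agent.TW.FLAT.Points6 Fermat.Agent.TW.LOC.Defs2
  Fermat.Agent.PT.GLUE.Objects21 Fermat.Agent.TW.LOC.CupDuality2
  Fermat.Agent.TW.FLAT.Ordinary7 Fermat.Agent.TW.FLAT.LLField2 Fermat.Agent.TW.FLAT.LLLine2
  Fermat.Agent.TW.LOC.TameProfinite4 Fermat.Agent.TW.FLAT.LLMatrix6

noncomputable section

variable {p : ℕ} [Fact p.Prime] {k : Type} [Field k] [CharP k p]
  (ρ : Gq p →* Matrix (Fin 2) (Fin 2) k)

local notation "ι" => ZMod.castHom (dvd_refl p) k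

/-! ### The pair `(ρ, ω)` -/

/-- `(ρ, ω) : Gq p →* M₂(k)ˣ × 𝔽_pˣ`. -/
def gPair : Gq p →* (Matrix (Fin 2) (Fin 2) k)ˣ × (ZMod p)ˣ := ρ.toHomUnits.prod (chiq p p)

theorem gPair_fst (σ : Gq p) :
    (((gPair ρ σ).1 : (Matrix (Fin 2) (Fin 2) k)ˣ) : Matrix (Fin 2) (Fin 2) k) = ρ σ := rfl

theorem gPair_snd (σ : Gq p) : (gPair ρ σ).2 = chiq p p σ := rfl

theorem gPair_eq_one_iff (σ : Gq p) : gPair ρ σ = 1 ↔ ρ σ = 1 ∧ chiq p p σ = 1 := by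
  constructor
  · intro h
    refine ⟨?_, ?_⟩
    · rw [← gPair_fst, h]; rfl
    · rw [← gPair_snd ρ, h]; rfl
  · rintro ⟨h1, h2⟩
    apply Prod.ext
    · apply Units.ext
      rw [gPair_fst, h1]; rfl
    · rw [gPair_snd, h2]; rfl

theorem rho_eq_of_gPair_eq {σ τ : Gq p} (h : gPair ρ σ = gPair ρ τ) : ρ σ = ρ τ := by
  rw [← gPair_fst, h, gPair_fst]

theorem gPair_eq_pow_iff (σ τ : Gq p) (j : ℕ) :
    gPair ρ σ = gPair ρ τ ^ j ↔ ρ σ = ρ τ ^ j ∧ chiq p p σ = chiq p p τ ^ j := by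
  rw [← map_pow]
  constructor
  · intro h
    refine ⟨?_, ?_⟩
    · rw [← map_pow]; exact rho_eq_of_gPair_eq ρ h
    · rw [← map_pow, ← gPair_snd ρ, h, gPair_snd]
  · rintro ⟨h1, h2⟩
    apply Prod.ext
    · apply Units.ext
      rw [gPair_fst, gPair_fst, h1, map_pow]
    · rw [gPair_snd, gPair_snd, h2, map_pow]

theorem hlev_gPair (hlev : ∃ U ∈ (levelLoc p).sets, U ≤ ρ.ker) :
    ∃ U ∈ (levelLoc p).sets, U ≤ (gPair ρ).ker := by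
  obtain ⟨U, hU, hUρ⟩ := hlev
  obtain ⟨W, hW, hWle⟩ := (levelLoc p).isBasis.directed U hU _ (zetaLevel_mem p p)
  refine ⟨W, hW, fun σ hσ => ?_⟩
  rw [MonoidHom.mem_ker, gPair_eq_one_iff]
  exact ⟨MonoidHom.mem_ker.1 (hUρ (hWle hσ).1), chiq_eq_one_of_mem p p (hWle hσ).2⟩

/-- The field cut out by `(ρ, ω)`. -/
abbrev Lk : IntermediateField ℚ_[p] (PadicAlgCl p) := kerF p (gPair ρ)

theorem chiq_pow_pred (σ : Gq p) : chiq p p σ ^ (p - 1) = 1 :=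
  ZMod.units_pow_card_sub_one_eq_one p _

/-- An element of `𝔽_pˣ` of `p`-power order is trivial. -/
theorem units_eq_one_of_pow (x : (ZMod p)ˣ) (n : ℕ) (h : x ^ (p ^ n) = 1) : x = 1 := by
  have hp : p.Prime := Fact.out
  have h1 : orderOf x ∣ p ^ n := orderOf_dvd_of_pow_eq_one h
  have h2 : orderOf x ∣ p - 1 := orderOf_dvd_of_pow_eq_one (ZMod.units_pow_card_sub_one_eq_one p x)
  have hcop : Nat.Coprime (p ^ n) (p - 1) := by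
    apply Nat.Coprime.pow_left
    rw [Nat.Prime.coprime_iff_not_dvd hp]
    intro hd
    have h3 : p ≤ p - 1 := Nat.le_of_dvd (by have := hp.two_le; omega) hd
    have := hp.two_le
    omega
  exact orderOf_eq_one_iff.1 (Nat.eq_one_of_dvd_coprimes hcop h1 h2)

section Flat

variable (hp2 : p ≠ 2) (hlev : ∃ U ∈ (levelLoc p).sets, U ≤ ρ.ker)
  (hdet : ∀ τ ∈ Iq p, ∀ c : ℕ, IsCycExp p τ c → (ρ τ).det = (c : k))
  (hll : ¬ ∃ l : Fin 2 → k, l ≠ 0 ∧ ∀ τ ∈ Iq p, vecMul l (ρ τ) = l)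
  (hfl : HasFlatModel ℤ_[p] (PadicAlgCl p) (Gq p) (Fin 2 → k) (fun τ v => (ρ τ).mulVec v))

include hp2 hlev hdet hll hfl in
/-- **Tameness**: `e(L/ℚ_p)` is prime to `p` for the field `L` cut out by `(ρ, ω)`. -/
theorem ramIdx_coprime [Finite k] :
    haveI := finiteDimensional_kerF p (gPair ρ) (hlev_gPair ρ hlev)
    (Fermat.Agent.PT.LOC.StructureTowerEF27.ramIdx p ℚ_[p] ↥(Lk ρ)).Coprime p := by
  haveI hfd := finiteDimensional_kerF p (gPair ρ) (hlev_gPair ρ hlev)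
  haveI hgal := isGalois_kerF p (gPair ρ) (hlev_gPair ρ hlev)
  have hfix := fixingSubgroup_kerF p (gPair ρ) (hlev_gPair ρ hlev)
  obtain ⟨g₁, hg₁, P, hPI, hPn, hPp, hgen, hfrob, hcop⟩ := TameWild4.exists_wild (Lk ρ)
  obtain ⟨φ, hφ⟩ := Fermat.Agent.TW.LOC.UnramGq4.exists_isFrobLift p
  have hPg : ∀ π ∈ P, ∃ n : ℕ, gPair ρ π ^ (p ^ n) = 1 := by
    intro π hπ
    obtain ⟨n, hn⟩ := hPp π hπ
    refine ⟨n, ?_⟩
    rw [hfix, MonoidHom.mem_ker, map_pow] at hn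
    exact hn
  have hPρ : ∀ π ∈ P, ∃ n : ℕ, ρ π ^ (p ^ n) = 1 := by
    intro π hπ
    obtain ⟨n, hn⟩ := hPg π hπ
    refine ⟨n, ?_⟩
    rw [← map_pow] at hn ⊢
    exact ((gPair_eq_one_iff ρ _).1 hn).1
  have hρP := wild_trivial ρ hp2 hlev hdet hll hfl g₁ P hPn hPρ hgen φ (hfrob φ hφ)
  apply hcop
  intro π hπ
  rw [hfix, MonoidHom.mem_ker, gPair_eq_one_iff]
  refine ⟨hρP π hπ, ?_⟩
  obtain ⟨n, hn⟩ := hPg π hπ
  rw [← map_pow] at hn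
  have h2 := ((gPair_eq_one_iff ρ _).1 hn).2
  rw [map_pow] at h2
  exact units_eq_one_of_pow _ n h2

/-- The integer coefficients of `X² - a₀ X + b₀`. -/
def qQ (a₀ b₀ : ZMod p) : ℕ → ℤ := fun i => if i = 0 then (b₀.val : ℤ) else if i = 1 then -(a₀.val : ℤ) else 1

include hlev hfl in
/-- **The plane**: the Raynaud coordinate of a non-zero vector. -/
theorem exists_plane_unif (g₀ : Gq p) (hg₀ : g₀ ∈ Iq p)
    (hcyc : ∀ σ ∈ Iq p, ∃ j : ℕ, ρ σ = ρ g₀ ^ j) (a₀ b₀ : ZMod p)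
    (htr : (ρ g₀).trace = ι a₀) (hdet₀ : (ρ g₀).det = ι b₀)
    (hirr : ∀ α : ZMod p, α ^ 2 - a₀ * α + b₀ ≠ 0) :
    ∃ ϖ₂ : PadicAlgCl p, (∀ σ : Gq p, ρ σ = 1 → σ ϖ₂ = ϖ₂) ∧
      ‖ϖ₂‖ ^ (p ^ 2 - 1) = ‖((p : ℕ) : PadicAlgCl p)‖ ∧
      ‖∑ i ∈ Finset.range 3, (qQ a₀ b₀ i : PadicAlgCl p) * (g₀ ϖ₂ / ϖ₂) ^ i‖ < 1 := by
  have hp : p.Prime := Fact.out
  set B := ρ g₀ with hB
  set w₀ : Fin 2 → k := Pi.single 0 1 with hw₀def
  have hw₀ : w₀ ≠ 0 := by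
    intro h
    have := congrFun h 0
    simp [hw₀def] at this
  set W : AddSubgroup (Fin 2 → k) := cyc p B w₀ with hWdef
  have hBpow : ∀ (j : ℕ) (w : Fin 2 → k), w ∈ W → (B ^ j) *ᵥ w ∈ W := by
    intro j
    induction j with
    | zero => intro w hw; rw [pow_zero, Matrix.one_mulVec]; exact hw
    | succ j ih =>
      intro w hw
      rw [pow_succ, ← Matrix.mulVec_mulVec]
      exact ih _ (mulVec_mem_cyc htr hdet₀ hw)
  have hW : ∀ σ ∈ ρ.ker ⊔ Iq p, ∀ w ∈ W,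
      (fun (τ : Gq p) (v : Fin 2 → k) => (ρ τ).mulVec v) σ w ∈ W := by
    intro σ hσ w hw
    obtain ⟨τ, hτ, hστ⟩ := exists_of_mem_ker_sup_Iq p ρ hσ
    obtain ⟨j, hj⟩ := hcyc τ hτ
    change ρ σ *ᵥ w ∈ W
    rw [hστ, hj]
    exact hBpow j w hw
  have hcard : Nat.card W = p ^ 2 := card_cyc htr hdet₀ hirr hw₀
  have hWp : ∀ w ∈ W, p • w = 0 := by
    intro w _
    rw [← Nat.cast_smul_eq_nsmul k, CharP.cast_eq_zero, zero_smul]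
  have hirrW : ∀ N : AddSubgroup (Fin 2 → k), N ≤ W →
      (∀ σ ∈ Iq p, ∀ w ∈ N, (fun (τ : Gq p) (v : Fin 2 → k) => (ρ τ).mulVec v) σ w ∈ N) →
      N = ⊥ ∨ N = W := by
    intro N hNW hN
    exact cyc_irr htr hdet₀ hirr hw₀ N hNW (fun w hw => hN g₀ hg₀ w hw)
  obtain ⟨f, hf1, hf2, hf3⟩ := LLBase2.plane_coordinate hlev hfl (zetaP p)
    (zetaP_isPrimitiveRoot p) W hW hcard hWp hirrW
  have hw₀W : w₀ ∈ W := self_mem_cyc B w₀
  refine ⟨f w₀, ?_, hf3 w₀ hw₀W hw₀, ?_⟩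
  · intro σ hσ
    have h1 := hf1 σ (Subgroup.mem_sup_left (MonoidHom.mem_ker.2 hσ)) w₀
    rw [← h1]
    change f (ρ σ *ᵥ w₀) = f w₀
    rw [hσ, Matrix.one_mulVec]
  · have h1 := hf1 g₀ (Subgroup.mem_sup_right hg₀) w₀
    apply LLBase2.plane_norm_sum_lt_one hlev hfl (zetaP p) (zetaP_isPrimitiveRoot p) W hW hcard hWp
      hirrW (hf3 w₀ hw₀W hw₀) hg₀ hw₀W hw₀ 3 (qQ a₀ b₀)
    change ∑ i ∈ Finset.range 3, qQ a₀ b₀ i • (ρ (g₀ ^ i) *ᵥ w₀) = 0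
    simp only [Finset.sum_range_succ, Finset.sum_range_zero, zero_add, qQ, if_true,
      one_ne_zero, if_false, pow_zero, pow_one, Matrix.one_mulVec,
      (by norm_num : (2 : ℕ) ≠ 0), (by norm_num : (2 : ℕ) ≠ 1), one_smul, map_pow]
    rw [pow_two, ← Matrix.mulVec_mulVec, ← hB, mulVec_mulVec_eq, htr, hdet₀,
      castHom_eq_natCast_val, castHom_eq_natCast_val, neg_smul, natCast_zsmul, natCast_zsmul,
      Nat.cast_smul_eq_nsmul, Nat.cast_smul_eq_nsmul]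
    abel

end Flat

end

end Fermat.Agent.TW.FLAT.LLPlane2
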