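/-
Programme T (S56), chapter T/FLAT, local-local chain — helper2.

**(S-STRUCT)**: a flat, local-local residual representation at `p` (with `det ρ̄|Iq = ω`) has the
structure data `LLStruct p rbar` of helper3's `LLPackage3`:
`nonempty_llStruct : Nonempty (LLStruct p rbar)`.

Route: `L` := the field cut out by `(ρ̄|G_p, ω)` (`LLPlane2.Lk`); tameness (`LLPlane2.ramIdx_coprime`,
from `LLLine2.wild_trivial`); a tame generator `g₀` (helper4's `TameStruct4`); `tr, det ρ̄(g₀) ∈ 𝔽_p`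
(helper6's `LLMatrix6`), no root in `𝔽_p` (`LLLine2.no_root`); the Raynaud coordinate `ϖ₂ ∈ L` with
`‖ϖ₂‖^(p²-1) = ‖p‖` (`LLPlane2.exists_plane_unif`), hence `e(L/ℚ_p) = p² - 1`, `ϖ₂` a uniformizer
(helper4's `TameWild4`), and the eigenvalue relation for `θ_L(g₀)`.
-/
import Mathlib
import Fermat.Agent.TW.FLAT.LLPlane2
import Fermat.Agent.TW.FLAT.LLPackage3

set_option autoImplicit false
set_option linter.unusedSectionVars false
set_option linter.style.haveILetI false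

namespace Fermat.Agent.TW.FLAT.LLStruct2

open Matrix
open Fermat.Agent.TW.FLAT.Points6 Fermat.Agent.TW.LOC.Defs2
  Fermat.Agent.PT.GLUE.Objects21 Fermat.Agent.TW.LOC.CupDuality2
  Fermat.Agent.TW.FLAT.Ordinary7 Fermat.Agent.TW.FLAT.LLField2 Fermat.Agent.TW.FLAT.LLLine2
  Fermat.Agent.TW.FLAT.LLPlane2
  Fermat.Agent.TW.LOC.TameProfinite4 Fermat.Agent.TW.FLAT.LLMatrix6
  Fermat.Agent.TW.FLAT.LLPackage3
open Fermat.Agent.TW.DEF.Basic1 (GQ M2)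

noncomputable section

variable {p : ℕ} [Fact p.Prime] {k : Type} [Field k] [Finite k] [CharP k p]

/-- **(S-STRUCT)**. -/
theorem nonempty_llStruct (hp2 : p ≠ 2) (rbar : GQ →* M2 k)
    (hlevbar : ∃ U ∈ (levelLoc p).sets, ∀ s ∈ U, rbar (rq p s) = 1)
    (hdet : ∀ τ ∈ Iq p, ∀ c : ℕ, IsCycExp p τ c → (rbar (rq p τ)).det = (c : k))
    (hll : ¬ ∃ l : Fin 2 → k, l ≠ 0 ∧ ∀ τ ∈ Iq p, Matrix.vecMul l (rbar (rq p τ)) = l)
    (hfl : HasFlatModel ℤ_[p] (PadicAlgCl p) (Gq p) (Fin 2 → k)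
      (fun τ v => (rbar (rq p τ)).mulVec v)) :
    Nonempty (LLStruct p rbar) := by
  have hp : p.Prime := Fact.out
  set ρ : Gq p →* Matrix (Fin 2) (Fin 2) k := rbar.comp (rq p) with hρ
  have hlev : ∃ U ∈ (levelLoc p).sets, U ≤ ρ.ker := by
    obtain ⟨U, hU, h⟩ := hlevbar
    exact ⟨U, hU, fun s hs => MonoidHom.mem_ker.2 (h s hs)⟩
  have hlevg := hlev_gPair ρ hlev
  haveI hfd := finiteDimensional_kerF p (gPair ρ) hlevg
  haveI hgal := isGalois_kerF p (gPair ρ) hlevg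
  have hfix := fixingSubgroup_kerF p (gPair ρ) hlevg
  have hcop := ramIdx_coprime ρ hp2 hlev hdet hll hfl
  -- a tame generator
  obtain ⟨g₀, hg₀, hord0⟩ := TameStruct4.exists_tame_generator hcop
  have htrivg : ∀ v ∈ (Lk ρ).fixingSubgroup, gPair ρ v = 1 := fun v hv => by
    rw [hfix] at hv
    exact MonoidHom.mem_ker.1 hv
  have hcycg := TameStruct4.map_mem_powers hcop (gPair ρ) htrivg hg₀ hord0
  have hcycρ : ∀ σ ∈ Iq p, ∃ j : ℕ, ρ σ = ρ g₀ ^ j := fun σ hσ => by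
    obtain ⟨j, hj⟩ := hcycg σ hσ
    exact ⟨j, ((gPair_eq_pow_iff ρ σ g₀ j).1 hj).1⟩
  -- the Frobenius relation
  obtain ⟨φ, hφ⟩ := Fermat.Agent.TW.LOC.UnramGq4.exists_isFrobLift p
  have hfrobg : gPair ρ (φ * g₀ * φ⁻¹) = gPair ρ g₀ ^ p := by
    rw [← map_pow]
    apply TameStruct4.map_eq_of_resL_eq (gPair ρ) htrivg
    rw [TameStruct4.resL_conj_frob hcop hφ hg₀, map_pow]
  have hfrobρ : ρ (φ * g₀ * φ⁻¹) = ρ g₀ ^ p := ((gPair_eq_pow_iff ρ _ g₀ p).1 hfrobg).1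
  have hAB : ρ φ * ρ g₀ = ρ g₀ ^ p * ρ φ := by
    rw [← hfrobρ, ← map_mul, ← map_mul]
    congr 1
    group
  obtain ⟨a₀, b₀, htr, hdetB⟩ :=
    exists_trace_det_eq (ρ φ) (ρ φ⁻¹) (ρ g₀) (rho_mul_inv ρ φ) hAB
  have hirr := no_root ρ hp2 hlev hdet hll hfl g₀ hcycρ a₀ b₀ htr hdetB
  have hBpow : ρ g₀ ^ (p ^ 2 - 1) = 1 := pow_card_sub_one_eq_one htr hdetB hirr
  have hpos : 0 < p ^ 2 - 1 := by
    have h1 : 2 ^ 2 ≤ p ^ 2 := Nat.pow_le_pow_left hp.two_le 2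
    omega
  -- `e ∣ p² - 1`
  have hdvd : Fermat.Agent.PT.LOC.StructureTowerEF27.ramIdx p ℚ_[p] ↥(Lk ρ) ∣ p ^ 2 - 1 := by
    rw [← hord0, TameStruct4.orderOf_thetaL hcop ⟨g₀, hg₀⟩]
    apply orderOf_dvd_of_pow_eq_one
    rw [← map_pow, ← MonoidHom.mem_ker, ker_resL, hfix, MonoidHom.mem_ker, gPair_eq_one_iff,
      map_pow, map_pow]
    refine ⟨hBpow, ?_⟩
    have h1 : p ^ 2 - 1 = (p - 1) * (p + 1) := by
      have h2 : 1 ≤ p := hp.one_lt.le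
      zify [h2, Nat.one_le_pow 2 p hp.pos]
      ring
    rw [h1, pow_mul, chiq_pow_pred, one_pow]
  -- the Raynaud coordinate
  obtain ⟨ϖ₂, hϖfix, hϖnorm, hϖsum⟩ :=
    exists_plane_unif ρ hlev hfl g₀ hg₀ hcycρ a₀ b₀ htr hdetB hirr
  have hϖL : ϖ₂ ∈ Lk ρ := by
    rw [mem_kerF_iff]
    intro σ hσ
    exact hϖfix σ ((gPair_eq_one_iff ρ σ).1 hσ).1
  obtain ⟨πu, hπu, hπ, he⟩ :=
    TameWild4.isUniformizer_of_pow (Lk ρ) ϖ₂ hϖL (p ^ 2 - 1) hpos hϖnorm hdvd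
  have hram := TameStruct4.ramIdx_eq_of_snorm p (Lk ρ) πu hπ _ he
  have hord : orderOf (thetaL p (Lk ρ) ⟨g₀, hg₀⟩) = p ^ 2 - 1 := hord0.trans hram
  -- the eigenvalue relation in the residue field
  set φr : ZMod p →+* Fermat.Agent.PT.LOC.Unram11.resF p ↥(Lk ρ) :=
    ZMod.castHom (dvd_refl p) (Fermat.Agent.PT.LOC.Unram11.resF p ↥(Lk ρ)) with hφr
  set t : Fermat.Agent.PT.LOC.Unram11.resF p ↥(Lk ρ) :=
    ((thetaL p (Lk ρ) ⟨g₀, hg₀⟩ : (Fermat.Agent.PT.LOC.Unram11.resF p ↥(Lk ρ))ˣ) :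
      Fermat.Agent.PT.LOC.Unram11.resF p ↥(Lk ρ)) with ht
  have hrel := TameWild4.poly_thetaL (Lk ρ) πu hπ g₀ hg₀ 3 (qQ a₀ b₀)
    (by rw [hπu]; exact hϖsum) φr
  have htq : t ^ 2 - φr a₀ * t + φr b₀ = 0 := by
    simp only [Finset.sum_range_succ, Finset.sum_range_zero, zero_add, qQ, if_true,
      one_ne_zero, if_false, pow_zero, pow_one, mul_one,
      (by norm_num : (2 : ℕ) ≠ 0), (by norm_num : (2 : ℕ) ≠ 1)] at hrel
    rw [← ht] at hrel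
    have h1 : (((b₀.val : ℕ) : ℤ) : ZMod p) = b₀ := by
      rw [Int.cast_natCast, ZMod.natCast_zmod_val]
    have h2 : ((-((a₀.val : ℕ) : ℤ) : ℤ) : ZMod p) = -a₀ := by
      rw [Int.cast_neg, Int.cast_natCast, ZMod.natCast_zmod_val]
    rw [h1, h2, Int.cast_one, map_one, map_neg] at hrel
    linear_combination hrel
  obtain ⟨hφa, hφb, -⟩ := root_facts htr hdetB hirr φr htq
  -- `ω(g₀) = b₀`
  have hω : ((chiq p p g₀ : (ZMod p)ˣ) : ZMod p) = b₀ := by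
    have h1 := hdet g₀ hg₀ _ (isCycExp_chiq g₀)
    apply (ZMod.castHom (dvd_refl p) k).injective
    rw [← hdetB, castHom_eq_natCast_val]
    exact h1.symm
  have htriv : ∀ v ∈ (Lk ρ).fixingSubgroup, rbar (rq p v) = 1 := fun v hv =>
    ((gPair_eq_one_iff ρ v).1 (htrivg v hv)).1
  have hfaith : ∀ g : Gq p, rbar (rq p g) = 1 → chiq p p g = 1 → g ∈ (Lk ρ).fixingSubgroup := by
    intro g h1 h2
    rw [hfix, MonoidHom.mem_ker, gPair_eq_one_iff]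
    exact ⟨h1, h2⟩
  have hunit := TameStruct4.isUnit_index_of_LL (Lk ρ) hp2 rbar (chiq p p) g₀ hg₀ a₀ b₀ πu φr
    htriv hfaith htr hdetB hπ he hord hφa hφb
  have hζL : zetaP p ∈ Lk ρ := by
    rw [mem_kerF_iff]
    intro σ hσ
    have h1 := ((gPair_eq_one_iff ρ σ).1 hσ).2
    rw [smul_zetaP, h1, Units.val_one, ZMod.val_one, pow_one]
  exact ⟨{
    L := Lk ρ
    ζ := zetaP p
    ω := chiq p p
    g₀ := g₀
    hg₀ := hg₀
    a₀ := a₀
    b₀ := b₀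
    πu := πu
    φ := φr
    hζ := zetaP_pow p
    hne := zetaP_ne_one p
    hζL := hζL
    hωζ := smul_zetaP p
    htriv := htriv
    hunit := hunit
    hcyc := hcycρ
    htr := htr
    hdet := hdetB
    hω := hω
    hπ := hπ
    he := he
    hord := hord
    hφa := hφa
    hφb := hφb }⟩

end

end Fermat.Agent.TW.FLAT.LLStruct2
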