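/-
Programme T (S56), chapter FLAT, brick (LL-COH), part 8 — helper3.

BRIDGE (E): from the matrix entries of a cocycle `c : Gq p → ad⁰ ρ̄` in a basis, over an extension
field `k' ⊇ k`, diagonalising `ρ̄(g₀)`, to the membership criterion `LLPackage3.mem_LpLL`.

* `exists_factor_linear`, `exists_factor`: an additive functional `ν` on a `p`-torsion group factors
  through an additive map `f` as soon as `ker f ≤ ker ν`;
* `coord P P' X = P' X P` (`X ∈ M₂(k) ⊆ M₂(k')`): `coord_add/sub/zero/mul/one`, `coord_injective`,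
  `trace_coord`; for `coord A = diag(l, m)`, `l ≠ m`: `comm_iff` (commutant = vanishing off-diagonal
  coordinates), `coord_conj_sub_apply` (`(A Y A⁻¹ - Y)₀₀ = 0`);
* `mem_augSub_of_coord` ((F0) from `c₁₁ = 0`), `exists_entry_functionals` (functionals killing the
  commutant are sums of functionals of the entries `(0,1)`, `(1,0)`);
* **`mem_LpLL_of_entries`**: `c₁₁ = 0` on `Iq ∩ Gal(Ω/L)` and `KumLe … ϖ_L^(p+1)` for all `μ ∘ c₁₂`,
  `μ ∘ c₂₁` (`μ : k' →+ 𝔽_p`) imply `[c] ∈ LpLL S`.
-/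
import Mathlib
import Fermat.Agent.TW.FLAT.LLPackage3

set_option autoImplicit false
set_option linter.unusedSectionVars false

open groupCohomology
open scoped Fermat.Agent.PT.LOC.Interface12 Fermat.Agent.PT.LOC.StructureTower27
open Fermat.Agent.PT.LOC.Interface12 Fermat.Agent.PT.LOC.Structure14
  Fermat.Agent.PT.LOC.Unram11 Fermat.Agent.TW.LOC.TameInertia4
open Fermat.Agent.PT.PRO.LevelCoh28 Fermat.Agent.PT.GLUE.Objects21
open Fermat.Agent.TW.LOC.Defs2 Fermat.Agent.TW.LOC.TameProfinite4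
open Fermat.Agent.TW.FLAT.KummerDict3 Fermat.Agent.TW.FLAT.InfRes3
open Fermat.Agent.TW.FLAT.UnitFil9 Fermat.Agent.TW.FLAT.LLCoh3 Fermat.Agent.TW.FLAT.LLFinal3
open Fermat.Agent.TW.FLAT.AdWeights3 Fermat.Agent.TW.FLAT.LLAd3 Fermat.Agent.TW.FLAT.LLPackage3
open Fermat.Agent.TW.DEF.Basic1 (GQ M2 Mq Hq1 ad0Rep ad0Val ad0Val_injective rbar_mul_inv
  rbar_inv_mul trace_ad0Val sl2 mem_sl2_iff finrank_sl2)

namespace Fermat.Agent.TW.FLAT.EntryBridge3

/-- Factoring a linear functional through a linear map (vector spaces over a field). -/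
theorem exists_factor_linear {K : Type*} [Field K] {A W : Type*} [AddCommGroup A] [Module K A]
    [AddCommGroup W] [Module K W] (F : A →ₗ[K] W) (V : A →ₗ[K] K)
    (hle : LinearMap.ker F ≤ LinearMap.ker V) : ∃ μ : W →ₗ[K] K, ∀ a, μ (F a) = V a := by
  let Fbar : (A ⧸ LinearMap.ker F) →ₗ[K] W := (LinearMap.ker F).liftQ F le_rfl
  let Vbar : (A ⧸ LinearMap.ker F) →ₗ[K] K := (LinearMap.ker F).liftQ V hle
  have hinj : LinearMap.ker Fbar = ⊥ := Submodule.ker_liftQ_eq_bot _ _ _ le_rfl
  obtain ⟨g, hg⟩ := Fbar.exists_leftInverse_of_injective hinj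
  refine ⟨Vbar.comp g, fun a => ?_⟩
  have h1 : g (F a) = Submodule.Quotient.mk a := by
    have := LinearMap.congr_fun hg (Submodule.Quotient.mk a)
    simpa [Fbar] using this
  change Vbar (g (F a)) = V a
  rw [h1]
  rfl

/-- Factoring an additive functional through an additive map of `p`-torsion groups. -/
theorem exists_factor (p : ℕ) [Fact p.Prime] {A W : Type*} [AddCommGroup A] [AddCommGroup W]
    (hA : ∀ a : A, p • a = 0) (hW : ∀ w : W, p • w = 0) (f : A →+ W) (ν : A →+ ZMod p)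
    (hker : ∀ a, f a = 0 → ν a = 0) : ∃ μ : W →+ ZMod p, ∀ a, μ (f a) = ν a := by
  letI : Module (ZMod p) A := AddCommGroup.zmodModule hA
  letI : Module (ZMod p) W := AddCommGroup.zmodModule hW
  obtain ⟨μ, hμ⟩ := exists_factor_linear (f.toZModLinearMap p) (ν.toZModLinearMap p) (by
    intro a ha
    rw [LinearMap.mem_ker] at ha ⊢
    exact hker a ha)
  exact ⟨μ.toAddMonoidHom, hμ⟩

/-! ### Coordinates in a diagonalising basis over an extension field -/

section Coord

open Matrix

variable {k k' : Type*} [Field k] [Field k'] [Algebra k k']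
variable (P P' : Matrix (Fin 2) (Fin 2) k')

/-- `X ↦ P' X P`, for `X ∈ M₂(k) ⊆ M₂(k')`. -/
def coord (X : Matrix (Fin 2) (Fin 2) k) : Matrix (Fin 2) (Fin 2) k' :=
  P' * X.map (algebraMap k k') * P

theorem coord_add (X Y : Matrix (Fin 2) (Fin 2) k) :
    coord P P' (X + Y) = coord P P' X + coord P P' Y := by
  simp only [coord, Matrix.map_add (algebraMap k k') (map_add _), mul_add, add_mul]

theorem coord_zero : coord P P' (0 : Matrix (Fin 2) (Fin 2) k) = 0 := by
  simp [coord]

theorem coord_sub (X Y : Matrix (Fin 2) (Fin 2) k) :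
    coord P P' (X - Y) = coord P P' X - coord P P' Y := by
  simp only [coord, Matrix.map_sub (algebraMap k k') (map_sub _), mul_sub, sub_mul]

variable {P P'}

theorem coord_mul (hPP' : P * P' = 1) (X Y : Matrix (Fin 2) (Fin 2) k) :
    coord P P' (X * Y) = coord P P' X * coord P P' Y := by
  simp only [coord, Matrix.map_mul]
  calc P' * (X.map (algebraMap k k') * Y.map (algebraMap k k')) * P
      = P' * X.map (algebraMap k k') * 1 * (Y.map (algebraMap k k') * P) := by
        simp only [mul_one, mul_assoc]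
    _ = P' * X.map (algebraMap k k') * P * (P' * Y.map (algebraMap k k') * P) := by
        rw [← hPP']
        simp only [mul_assoc]

theorem coord_one (hP'P : P' * P = 1) : coord P P' (1 : Matrix (Fin 2) (Fin 2) k) = 1 := by
  simp [coord, hP'P]

theorem coord_injective (hPP' : P * P' = 1) :
    Function.Injective (coord (k := k) P P') := by
  intro X Y h
  have h1 : P * coord P P' X * P' = P * coord P P' Y * P' := by rw [h]
  simp only [coord] at h1
  have h2 : ∀ Z : Matrix (Fin 2) (Fin 2) k', P * (P' * Z * P) * P' = Z := by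
    intro Z
    calc P * (P' * Z * P) * P' = (P * P') * Z * (P * P') := by simp only [mul_assoc]
      _ = Z := by rw [hPP', one_mul, mul_one]
  rw [h2, h2] at h1
  exact Matrix.map_injective (algebraMap k k').injective h1

theorem trace_coord (hPP' : P * P' = 1) (X : Matrix (Fin 2) (Fin 2) k) :
    (coord P P' X).trace = algebraMap k k' X.trace := by
  rw [coord, Matrix.trace_mul_cycle, hPP', one_mul]
  simp [Matrix.trace, Matrix.diag]

section Diag

variable {A A' : Matrix (Fin 2) (Fin 2) k} {l m : k'}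

/-- `X` commutes with `A` iff its off-diagonal coordinates vanish (`A` diagonalised by `P` with
distinct eigenvalues). -/
theorem comm_iff (hPP' : P * P' = 1) (hdiag : coord P P' A = Matrix.diagonal ![l, m])
    (hlm : l ≠ m) (X : Matrix (Fin 2) (Fin 2) k) :
    A * X = X * A ↔ coord P P' X 0 1 = 0 ∧ coord P P' X 1 0 = 0 := by
  rw [← (coord_injective (k := k) hPP').eq_iff, coord_mul hPP', coord_mul hPP', hdiag]
  set Y := coord P P' X with hY
  constructor
  · intro h
    have h01 := congrFun (congrFun h 0) 1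
    have h10 := congrFun (congrFun h 1) 0
    rw [Matrix.diagonal_mul, Matrix.mul_diagonal] at h01 h10
    simp only [Matrix.cons_val_zero, Matrix.cons_val_one] at h01 h10
    constructor
    · have : (l - m) * Y 0 1 = 0 := by linear_combination h01
      exact (mul_eq_zero.1 this).resolve_left (sub_ne_zero.2 hlm)
    · have : (l - m) * Y 1 0 = 0 := by linear_combination -h10
      exact (mul_eq_zero.1 this).resolve_left (sub_ne_zero.2 hlm)
  · rintro ⟨h01, h10⟩
    ext i j
    rw [Matrix.diagonal_mul, Matrix.mul_diagonal]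
    fin_cases i <;> fin_cases j
    · simp [mul_comm]
    · simp [h01]
    · simp [h10]
    · simp [mul_comm]

/-- The `(0,0)` coordinate of `A Y A⁻¹ - Y` vanishes. -/
theorem coord_conj_sub_apply (hPP' : P * P' = 1) (hP'P : P' * P = 1) (hAA' : A * A' = 1)
    (hA'A : A' * A = 1) (hdiag : coord P P' A = Matrix.diagonal ![l, m])
    (Y : Matrix (Fin 2) (Fin 2) k) : coord P P' (A * Y * A' - Y) 0 0 = 0 := by
  have hDD' : coord P P' A * coord P P' A' = 1 := by
    rw [← coord_mul hPP', hAA', coord_one hP'P]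
  have hD'D : coord P P' A' * coord P P' A = 1 := by
    rw [← coord_mul hPP', hA'A, coord_one hP'P]
  have hl : l ≠ 0 := by
    intro hl0
    have h00 := congrFun (congrFun hDD' 0) 0
    rw [hdiag, Matrix.diagonal_mul] at h00
    simp only [Matrix.cons_val_zero, hl0, zero_mul, Matrix.one_apply_eq] at h00
    exact zero_ne_one h00
  have h1 : coord P P' (A * Y * A') * coord P P' A = coord P P' A * coord P P' Y := by
    rw [coord_mul hPP', coord_mul hPP', mul_assoc, hD'D, mul_one]
  have h2 := congrFun (congrFun h1 0) 0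
  rw [hdiag, Matrix.mul_diagonal, Matrix.diagonal_mul] at h2
  simp only [Matrix.cons_val_zero] at h2
  rw [coord_sub, Matrix.sub_apply]
  have h3 : (coord P P' (A * Y * A') 0 0 - coord P P' Y 0 0) * l = 0 := by
    linear_combination h2
  exact (mul_eq_zero.1 h3).resolve_right hl

end Diag

end Coord

/-! ### The bridge from matrix entries to `mem_LpLL` -/

section Bridge

variable {p : ℕ} [Fact p.Prime] {k : Type} [Field k] [CharP k p] [Finite k]
  {rbar : GQ →* M2 k} (S : LLStruct p rbar)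
variable {k' : Type} [Field k'] [Algebra k k'] {P P' : M2 k'} {l m : k'}

theorem comm_of_fixed {X : Mq (ad0Rep rbar) p} (g : Gq p)
    (hX : (Mq (ad0Rep rbar) p).ρ g X = X) :
    rbar (rq p g) * ad0Val rbar X = ad0Val rbar X * rbar (rq p g) := by
  have h1 : rbar (rq p g) * ad0Val rbar X * rbar (rq p g)⁻¹ = ad0Val rbar X :=
    congrArg (ad0Val rbar) hX
  calc rbar (rq p g) * ad0Val rbar X
      = rbar (rq p g) * ad0Val rbar X * (rbar (rq p g)⁻¹ * rbar (rq p g)) := by
        rw [rbar_inv_mul, mul_one]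
    _ = rbar (rq p g) * ad0Val rbar X * rbar (rq p g)⁻¹ * rbar (rq p g) := by
        simp only [mul_assoc]
    _ = ad0Val rbar X * rbar (rq p g) := by rw [h1]

theorem fixed_of_comm {X : Mq (ad0Rep rbar) p} (g : Gq p)
    (hX : rbar (rq p g) * ad0Val rbar X = ad0Val rbar X * rbar (rq p g)) :
    (Mq (ad0Rep rbar) p).ρ g X = X := by
  apply ad0Val_injective rbar
  change rbar (rq p g) * ad0Val rbar X * rbar (rq p g)⁻¹ = ad0Val rbar X
  rw [hX, mul_assoc, rbar_mul_inv, mul_one]

/-- (F0) from the `(0,0)` entry. -/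
theorem mem_augSub_of_coord (hp2 : p ≠ 2) (hPP' : P * P' = 1) (hP'P : P' * P = 1) (hlm : l ≠ m)
    (hdiag : coord P P' (rbar (rq p S.g₀)) = Matrix.diagonal ![l, m])
    (X : Mq (ad0Rep rbar) p) (h00 : coord P P' (ad0Val rbar X) 0 0 = 0) :
    X ∈ augSub (Mq (ad0Rep rbar) p) S.g₀ := by
  obtain ⟨X₀, y, hX₀, hX⟩ := (killsAug_struct S).exists_decomp (two_b_sub_ne S hp2) X
  have hcomm := comm_of_fixed S.g₀ hX₀
  obtain ⟨h01, h10⟩ := (comm_iff hPP' hdiag hlm _).1 hcomm
  have hy00 : coord P P' (ad0Val rbar ((Mq (ad0Rep rbar) p).ρ S.g₀ y - y)) 0 0 = 0 :=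
    coord_conj_sub_apply hPP' hP'P (rbar_mul_inv rbar _) (rbar_inv_mul rbar _) hdiag
      (ad0Val rbar y)
  have hsum : ad0Val rbar X = ad0Val rbar X₀ +
      ad0Val rbar ((Mq (ad0Rep rbar) p).ρ S.g₀ y - y) := by
    rw [← map_add, ← hX]
  have h00' : coord P P' (ad0Val rbar X₀) 0 0 = 0 := by
    have := h00
    rw [hsum, coord_add, Matrix.add_apply, hy00, add_zero] at this
    exact this
  have htr : coord P P' (ad0Val rbar X₀) 0 0 + coord P P' (ad0Val rbar X₀) 1 1 = 0 := by
    have := trace_coord (k := k) hPP' (ad0Val rbar X₀)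
    rw [trace_ad0Val, map_zero, Matrix.trace_fin_two] at this
    exact this
  have h11 : coord P P' (ad0Val rbar X₀) 1 1 = 0 := by rw [h00', zero_add] at htr; exact htr
  have hzero : coord P P' (ad0Val rbar X₀) = 0 := by
    ext i j
    fin_cases i <;> fin_cases j
    · exact h00'
    · exact h01
    · exact h10
    · exact h11
  have hX₀0 : X₀ = 0 := by
    apply ad0Val_injective rbar
    apply coord_injective (k := k) hPP'
    rw [hzero, map_zero, coord_zero]
  rw [hX, hX₀0, zero_add]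
  exact mem_augSub.2 ⟨y, rfl⟩

/-- (F1): an additive functional on `ad⁰` killing the commutant of `ρ̄(g₀)` is a sum of additive
functionals of the two off-diagonal entries. -/
theorem exists_entry_functionals (hPP' : P * P' = 1) (hlm : l ≠ m)
    (hdiag : coord P P' (rbar (rq p S.g₀)) = Matrix.diagonal ![l, m])
    (ν : (Mq (ad0Rep rbar) p) →+ ZMod p)
    (hν : ∀ n ∈ fixSub (Mq (ad0Rep rbar) p) S.g₀, ν n = 0) :
    ∃ μ₁ μ₂ : k' →+ ZMod p, ∀ X : Mq (ad0Rep rbar) p,
      ν X = μ₁ (coord P P' (ad0Val rbar X) 0 1) + μ₂ (coord P P' (ad0Val rbar X) 1 0) := by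
  let f : (Mq (ad0Rep rbar) p) →+ k' × k' :=
    { toFun := fun X => (coord P P' (ad0Val rbar X) 0 1, coord P P' (ad0Val rbar X) 1 0)
      map_zero' := by simp [coord_zero]
      map_add' := fun X Y => by simp [coord_add] }
  have hA : ∀ X : Mq (ad0Rep rbar) p, p • X = 0 := by
    intro X
    rw [← Nat.cast_smul_eq_nsmul k, CharP.cast_eq_zero k p, zero_smul]
  haveI : CharP k' p := charP_of_injective_algebraMap (algebraMap k k').injective p
  have hW : ∀ w : k' × k', p • w = 0 := by
    intro w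
    ext
    · simp [nsmul_eq_mul, CharP.cast_eq_zero k' p]
    · simp [nsmul_eq_mul, CharP.cast_eq_zero k' p]
  obtain ⟨μ, hμ⟩ := exists_factor p hA hW f ν (by
    intro X hX
    apply hν
    rw [mem_fixSub]
    apply fixed_of_comm
    rw [comm_iff hPP' hdiag hlm]
    have h1 := congrArg Prod.fst hX
    have h2 := congrArg Prod.snd hX
    exact ⟨h1, h2⟩)
  refine ⟨μ.comp (AddMonoidHom.inl k' k'), μ.comp (AddMonoidHom.inr k' k'), fun X => ?_⟩
  rw [← hμ X]
  change μ (coord P P' (ad0Val rbar X) 0 1, coord P P' (ad0Val rbar X) 1 0) =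
    μ (coord P P' (ad0Val rbar X) 0 1, 0) + μ (0, coord P P' (ad0Val rbar X) 1 0)
  rw [← map_add, Prod.mk_add_mk, add_zero, zero_add]

/-- **Bridge (E)**: membership in `LpLL S` from the matrix entries of the cocycle in a basis (over an
extension field `k'`) diagonalising `ρ̄(g₀)`: `c₁₁ = 0` on `Iq ∩ Gal(Ω/L)`, and Kummer level
`≤ ϖ_L ^ (p+1)` for all `μ ∘ c₁₂`, `μ ∘ c₂₁`, `μ : k' →+ 𝔽_p`. -/
theorem mem_LpLL_of_entries (hp2 : p ≠ 2) (hPP' : P * P' = 1) (hP'P : P' * P = 1) (hlm : l ≠ m)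
    (hdiag : coord P P' (rbar (rq p S.g₀)) = Matrix.diagonal ![l, m])
    (c : ↥(Z1 (levelLoc p) (Mq (ad0Rep rbar) p)))
    (h11 : ∀ σ ∈ Iq p, σ ∈ S.L.fixingSubgroup →
      coord P P' (ad0Val rbar ((c : Gq p → Mq (ad0Rep rbar) p) σ)) 0 0 = 0)
    (h12 : ∀ μ : k' →+ ZMod p, KumLe S.L S.ζ (unifNorm p ↥S.L ^ (p + 1))
      (fun g => μ (coord P P' (ad0Val rbar ((c : Gq p → Mq (ad0Rep rbar) p) g)) 0 1)))
    (h21 : ∀ μ : k' →+ ZMod p, KumLe S.L S.ζ (unifNorm p ↥S.L ^ (p + 1))
      (fun g => μ (coord P P' (ad0Val rbar ((c : Gq p → Mq (ad0Rep rbar) p) g)) 1 0))) :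
    H1mk (levelLoc p) (Mq (ad0Rep rbar) p) c ∈ LpLL S := by
  refine mem_LpLL S c (fun σ hσ hσ' => ?_) (fun ν hν => ?_)
  · exact mem_augSub_of_coord S hp2 hPP' hP'P hlm hdiag _ (h11 σ hσ hσ')
  · obtain ⟨μ₁, μ₂, hμ⟩ := exists_entry_functionals S hPP' hlm hdiag ν hν
    have e : (fun g => ν ((c : Gq p → Mq (ad0Rep rbar) p) g)) =
        (fun g => μ₁ (coord P P' (ad0Val rbar ((c : Gq p → Mq (ad0Rep rbar) p) g)) 0 1)) +
        (fun g => μ₂ (coord P P' (ad0Val rbar ((c : Gq p → Mq (ad0Rep rbar) p) g)) 1 0)) := by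
      funext g
      exact hμ _
    rw [e]
    exact (h12 μ₁).add S.hζ (unifNorm_pow_lt_one (Nat.succ_pos p)) (h21 μ₂)

end Bridge

end Fermat.Agent.TW.FLAT.EntryBridge3
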