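/-
Programme T (S56), chapter FLAT, brick (LL-COH), part 9 — helper3.

Bridge (E) with `k' := k`: the corollary of `EntryBridge3.mem_LpLL_of_entries` with plain
`P' * X * P` (no `Matrix.map`), plus eigenvalue facts deduced from an `LLStruct`.
-/
import Mathlib
import Fermat.Agent.TW.FLAT.EntryBridge3

set_option autoImplicit false
set_option linter.unusedSectionVars false

open groupCohomology
open scoped Fermat.Agent.PT.LOC.Interface12 Fermat.Agent.PT.LOC.StructureTower27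
open Fermat.Agent.PT.LOC.Interface12 Fermat.Agent.PT.LOC.Structure14
  Fermat.Agent.PT.LOC.Unram11 Fermat.Agent.TW.LOC.TameInertia4
open Fermat.Agent.PT.PRO.LevelCoh28 Fermat.Agent.PT.GLUE.Objects21
open Fermat.Agent.TW.LOC.Defs2 Fermat.Agent.TW.LOC.TameProfinite4
open Fermat.Agent.TW.FLAT.KummerDict3 Fermat.Agent.TW.FLAT.InfRes3
open Fermat.Agent.TW.FLAT.UnitFil9 Fermat.Agent.TW.FLAT.LLCoh3 Fermat.Agent.TW.FLAT.LLFinal3
open Fermat.Agent.TW.FLAT.AdWeights3 Fermat.Agent.TW.FLAT.LLAd3 Fermat.Agent.TW.FLAT.LLPackage3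
open Fermat.Agent.TW.FLAT.EntryBridge3
open Fermat.Agent.TW.DEF.Basic1 (GQ M2 Mq Hq1 ad0Rep ad0Val ad0Val_injective rbar_mul_inv
  rbar_inv_mul trace_ad0Val sl2 mem_sl2_iff finrank_sl2)

namespace Fermat.Agent.TW.FLAT.EntryBridgeSelf3

variable {p : ℕ} [Fact p.Prime] {k : Type} [Field k] [CharP k p] [Finite k]
  {rbar : GQ →* M2 k} (S : LLStruct p rbar)

theorem coord_self (P P' X : M2 k) : coord (k' := k) P P' X = P' * X * P := by
  unfold coord
  have : X.map (algebraMap k k) = X := by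
    ext i j
    simp
  rw [this]

/-- **Bridge (E), `k' = k`**: membership in `LpLL S` from the entries of `P' * c(g) * P`, where
`P' * ρ̄(g₀) * P = diag(l, m)`, `l ≠ m`. -/
theorem mem_LpLL_of_entries_self (hp2 : p ≠ 2) {P P' : M2 k} {l m : k}
    (hPP' : P * P' = 1) (hP'P : P' * P = 1) (hlm : l ≠ m)
    (hdiag : P' * rbar (rq p S.g₀) * P = Matrix.diagonal ![l, m])
    (c : ↥(Z1 (levelLoc p) (Mq (ad0Rep rbar) p)))
    (h11 : ∀ σ ∈ Iq p, σ ∈ S.L.fixingSubgroup →
      (P' * ad0Val rbar ((c : Gq p → Mq (ad0Rep rbar) p) σ) * P) 0 0 = 0)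
    (h12 : ∀ μ : k →+ ZMod p, KumLe S.L S.ζ (unifNorm p ↥S.L ^ (p + 1))
      (fun g => μ ((P' * ad0Val rbar ((c : Gq p → Mq (ad0Rep rbar) p) g) * P) 0 1)))
    (h21 : ∀ μ : k →+ ZMod p, KumLe S.L S.ζ (unifNorm p ↥S.L ^ (p + 1))
      (fun g => μ ((P' * ad0Val rbar ((c : Gq p → Mq (ad0Rep rbar) p) g) * P) 1 0))) :
    H1mk (levelLoc p) (Mq (ad0Rep rbar) p) c ∈ LpLL S := by
  refine mem_LpLL_of_entries (k' := k) S hp2 hPP' hP'P hlm ?_ c ?_ ?_ ?_
  · rw [coord_self]; exact hdiag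
  · intro σ hσ hσ'
    rw [coord_self]; exact h11 σ hσ hσ'
  · intro μ
    simp only [coord_self]
    exact h12 μ
  · intro μ
    simp only [coord_self]
    exact h21 μ

/-! ### Eigenvalue facts from an `LLStruct` -/

section Eigen

variable {k' : Type} [Field k'] [Algebra k k'] {P P' : M2 k'} {l m : k'}

/-- The discriminant of `X² - a₀ X + b₀` is nonzero. -/
theorem disc_ne_zero : S.a₀ ^ 2 - 4 * S.b₀ ≠ 0 := by
  set t : resF p ↥S.L := ((thetaL p S.L ⟨S.g₀, S.hg₀⟩ : (resF p ↥S.L)ˣ) : resF p ↥S.L) with ht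
  intro h0
  have h1 := congrArg S.φ h0
  rw [map_sub, map_pow, map_mul, S.hφa, S.hφb, map_zero, map_ofNat] at h1
  have h2 : (t - t ^ p) ^ 2 = 0 := by
    rw [← h1]
    ring
  have h3 : t = t ^ p := sub_eq_zero.1 ((pow_eq_zero_iff (two_ne_zero)).1 h2)
  exact ne_pow_of_orderOf _ S.hord h3

/-- `X² - a₀ X + b₀` has no root in `𝔽_p`. -/
theorem no_root (x : ZMod p) : x ^ 2 - S.a₀ * x + S.b₀ ≠ 0 := by
  set t : resF p ↥S.L := ((thetaL p S.L ⟨S.g₀, S.hg₀⟩ : (resF p ↥S.L)ˣ) : resF p ↥S.L) with ht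
  have hne : t ≠ t ^ p := ne_pow_of_orderOf _ S.hord
  have htp2 : t ^ (p ^ 2) = t := by
    have h1 : (thetaL p S.L ⟨S.g₀, S.hg₀⟩) ^ (p ^ 2 - 1) = 1 := by
      rw [← S.hord]; exact pow_orderOf_eq_one _
    have h2 : t ^ (p ^ 2 - 1) = 1 := by
      rw [ht, ← Units.val_pow_eq_pow_val, h1, Units.val_one]
    have hp := (Fact.out : p.Prime)
    have h3 : p ^ 2 = (p ^ 2 - 1) + 1 := (Nat.sub_add_cancel (Nat.one_le_pow _ _ hp.pos)).symm
    rw [h3, pow_succ, h2, one_mul]
  have hx : (S.φ x) ^ p = S.φ x := by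
    rw [← map_pow, ZMod.pow_card]
  intro h0
  have h1 := congrArg S.φ h0
  rw [map_add, map_sub, map_pow, map_mul, S.hφa, S.hφb, map_zero] at h1
  have h2 : (S.φ x - t) * (S.φ x - t ^ p) = 0 := by
    rw [← h1]
    ring
  rcases mul_eq_zero.1 h2 with h | h
  · have h3 : S.φ x = t := sub_eq_zero.1 h
    apply hne
    rw [← h3, hx]
  · have h3 : S.φ x = t ^ p := sub_eq_zero.1 h
    apply hne
    have h4 : (t ^ p) ^ p = t ^ p := by rw [← h3, hx]
    rw [← pow_mul, ← pow_two, htp2] at h4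
    exact h4

theorem eig_add (hPP' : P * P' = 1)
    (hdiag : coord P P' (rbar (rq p S.g₀)) = Matrix.diagonal ![l, m]) :
    l + m = algebraMap k k' (ZMod.castHom (dvd_refl p) k S.a₀) := by
  have h := trace_coord hPP' (rbar (rq p S.g₀))
  rw [hdiag, S.htr] at h
  rw [← h]
  simp [Matrix.trace, Fin.sum_univ_two]

theorem eig_mul (hP'P : P' * P = 1)
    (hdiag : coord P P' (rbar (rq p S.g₀)) = Matrix.diagonal ![l, m]) :
    l * m = algebraMap k k' (ZMod.castHom (dvd_refl p) k S.b₀) := by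
  have h := congrArg Matrix.det hdiag
  have hdet : P'.det * P.det = 1 := by rw [← Matrix.det_mul, hP'P, Matrix.det_one]
  have hmap : ((rbar (rq p S.g₀)).map (algebraMap k k')).det =
      algebraMap k k' (rbar (rq p S.g₀)).det := by
    rw [RingHom.map_det]
    rfl
  rw [coord, Matrix.det_mul, Matrix.det_mul, hmap, S.hdet, Matrix.det_diagonal,
    Fin.prod_univ_two] at h
  simp only [Matrix.cons_val_zero, Matrix.cons_val_one] at h
  rw [← h]
  linear_combination (algebraMap k k' (ZMod.castHom (dvd_refl p) k S.b₀)) * hdet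

theorem eig_sq_left (hPP' : P * P' = 1) (hP'P : P' * P = 1)
    (hdiag : coord P P' (rbar (rq p S.g₀)) = Matrix.diagonal ![l, m]) :
    l ^ 2 = algebraMap k k' (ZMod.castHom (dvd_refl p) k S.a₀) * l -
      algebraMap k k' (ZMod.castHom (dvd_refl p) k S.b₀) := by
  rw [← eig_add S hPP' hdiag, ← eig_mul S hP'P hdiag]
  ring

theorem eig_sq_right (hPP' : P * P' = 1) (hP'P : P' * P = 1)
    (hdiag : coord P P' (rbar (rq p S.g₀)) = Matrix.diagonal ![l, m]) :
    m ^ 2 = algebraMap k k' (ZMod.castHom (dvd_refl p) k S.a₀) * m -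
      algebraMap k k' (ZMod.castHom (dvd_refl p) k S.b₀) := by
  rw [← eig_add S hPP' hdiag, ← eig_mul S hP'P hdiag]
  ring

theorem eig_ne (hPP' : P * P' = 1) (hP'P : P' * P = 1)
    (hdiag : coord P P' (rbar (rq p S.g₀)) = Matrix.diagonal ![l, m]) : l ≠ m := by
  intro hlm
  apply disc_ne_zero S
  apply (ZMod.castHom (dvd_refl p) k).injective
  apply (algebraMap k k').injective
  have h1 := eig_add S hPP' hdiag
  have h2 := eig_mul S hP'P hdiag
  rw [map_zero, map_zero, map_sub, map_sub, map_pow, map_pow, map_mul, map_mul, map_ofNat,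
    map_ofNat, ← h1, ← h2, hlm]
  ring

/-- A root of `X² - a₀ X + b₀` (in particular an eigenvalue of `ρ̄(g₀)`) is not in the prime
field. -/
theorem root_not_mem_range {l : k'}
    (hl : l ^ 2 = algebraMap k k' (ZMod.castHom (dvd_refl p) k S.a₀) * l -
      algebraMap k k' (ZMod.castHom (dvd_refl p) k S.b₀)) (x : ZMod p) :
    l ≠ algebraMap k k' (ZMod.castHom (dvd_refl p) k x) := by
  intro h
  apply no_root S x
  apply (ZMod.castHom (dvd_refl p) k).injective
  apply (algebraMap k k').injective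
  rw [map_zero, map_zero, map_add, map_add, map_sub, map_sub, map_pow, map_pow, map_mul, map_mul,
    ← h]
  linear_combination hl

end Eigen

/-! ### The same facts for `k' = k` with plain `P' * X * P` -/

section EigenSelf

variable {P P' : M2 k} {l m : k}

theorem eig_add_self (hPP' : P * P' = 1)
    (hdiag : P' * rbar (rq p S.g₀) * P = Matrix.diagonal ![l, m]) :
    l + m = ZMod.castHom (dvd_refl p) k S.a₀ :=
  eig_add (k' := k) S hPP' (by rw [coord_self]; exact hdiag)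

theorem eig_mul_self (hP'P : P' * P = 1)
    (hdiag : P' * rbar (rq p S.g₀) * P = Matrix.diagonal ![l, m]) :
    l * m = ZMod.castHom (dvd_refl p) k S.b₀ :=
  eig_mul (k' := k) S hP'P (by rw [coord_self]; exact hdiag)

theorem eig_ne_self (hPP' : P * P' = 1) (hP'P : P' * P = 1)
    (hdiag : P' * rbar (rq p S.g₀) * P = Matrix.diagonal ![l, m]) : l ≠ m :=
  eig_ne (k' := k) S hPP' hP'P (by rw [coord_self]; exact hdiag)

theorem eig_sq_left_self (hPP' : P * P' = 1) (hP'P : P' * P = 1)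
    (hdiag : P' * rbar (rq p S.g₀) * P = Matrix.diagonal ![l, m]) :
    l ^ 2 = ZMod.castHom (dvd_refl p) k S.a₀ * l - ZMod.castHom (dvd_refl p) k S.b₀ :=
  eig_sq_left (k' := k) S hPP' hP'P (by rw [coord_self]; exact hdiag)

theorem eig_sq_right_self (hPP' : P * P' = 1) (hP'P : P' * P = 1)
    (hdiag : P' * rbar (rq p S.g₀) * P = Matrix.diagonal ![l, m]) :
    m ^ 2 = ZMod.castHom (dvd_refl p) k S.a₀ * m - ZMod.castHom (dvd_refl p) k S.b₀ :=
  eig_sq_right (k' := k) S hPP' hP'P (by rw [coord_self]; exact hdiag)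

theorem eig_left_not_mem_range_self (hPP' : P * P' = 1) (hP'P : P' * P = 1)
    (hdiag : P' * rbar (rq p S.g₀) * P = Matrix.diagonal ![l, m]) (x : ZMod p) :
    l ≠ ZMod.castHom (dvd_refl p) k x :=
  root_not_mem_range (k' := k) S (eig_sq_left_self S hPP' hP'P hdiag) x

theorem eig_right_not_mem_range_self (hPP' : P * P' = 1) (hP'P : P' * P = 1)
    (hdiag : P' * rbar (rq p S.g₀) * P = Matrix.diagonal ![l, m]) (x : ZMod p) :
    m ≠ ZMod.castHom (dvd_refl p) k x :=
  root_not_mem_range (k' := k) S (eig_sq_right_self S hPP' hP'P hdiag) x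

end EigenSelf

end Fermat.Agent.TW.FLAT.EntryBridgeSelf3
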