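/-
Programme T (S56), chapter FLAT, brick (LL-COH), part 10 — helper3.

The Frobenius side of an `LLStruct`: for `B = ρ̄(g₀)` diagonalised over `k` as `diag(l, m)`,
* `exists_cast_of_pow_eq`: the fixed points of `x ↦ x ^ p` on `k` are the prime field;
* `eig_pow_left`, `eig_pow_right`: `l ^ p = m`, `m ^ p = l`;
* `thetaL_conj_frob`: `θ_L(φ σ φ⁻¹) = θ_L(σ) ^ p` for a Frobenius lift `φ`;
* `rbar_eq_one_of_thetaL`: `ρ̄` kills `Iq ∩ ker θ_L`;
* `rbar_conj_frob`: `ρ̄(φ g₀ φ⁻¹) = B ^ p`;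
* `frob_coord`: `P' ρ̄(φ) P` is anti-diagonal;
* **`frob_conj_entry`**, **`frob_ad0_entry`**: `(P' (ρ̄(φ) X ρ̄(φ)⁻¹) P)₀₀ = - (P' X P)₀₀` for `tr X = 0`
  (Frobenius acts by `-1` on the weight-zero quotient);
* **`entry_conj_frob`**: for a cocycle `c` and `σ ∈ Gal(Ω/L)`:
  `c₀₀(φ σ φ⁻¹) = - c₀₀(σ)`.
-/
import Mathlib
import Fermat.Agent.TW.FLAT.EntryBridgeSelf3

set_option autoImplicit false
set_option linter.unusedSectionVars false

open groupCohomology
open scoped Fermat.Agent.PT.LOC.Interface12 Fermat.Agent.PT.LOC.StructureTower27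
open Fermat.Agent.PT.LOC.Interface12 Fermat.Agent.PT.LOC.Structure14
  Fermat.Agent.PT.LOC.Unram11 Fermat.Agent.TW.LOC.TameInertia4
open Fermat.Agent.PT.PRO.LevelCoh28 Fermat.Agent.PT.GLUE.Objects21
open Fermat.Agent.TW.LOC.Defs2 Fermat.Agent.TW.LOC.TameProfinite4
open Fermat.Agent.TW.FLAT.KummerDict3 Fermat.Agent.TW.FLAT.InfRes3
open Fermat.Agent.TW.FLAT.UnitFil9 Fermat.Agent.TW.FLAT.LLCoh3 Fermat.Agent.TW.FLAT.LLFinal3
open Fermat.Agent.TW.FLAT.AdWeights3 Fermat.Agent.TW.FLAT.LLAd3 Fermat.Agent.TW.FLAT.LLPackage3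
open Fermat.Agent.TW.FLAT.EntryBridge3 Fermat.Agent.TW.FLAT.EntryBridgeSelf3
open Fermat.Agent.TW.DEF.Basic1 (GQ M2 Mq Hq1 ad0Rep ad0Val ad0Val_injective rbar_mul_inv
  rbar_inv_mul trace_ad0Val sl2 mem_sl2_iff finrank_sl2)

namespace Fermat.Agent.TW.FLAT.FrobSwap3

variable {p : ℕ} [Fact p.Prime] {k : Type} [Field k] [CharP k p] [Finite k]

/-- The fixed points of `x ↦ x ^ p` on a field of characteristic `p` are the prime field. -/
theorem exists_cast_of_pow_eq (x : k) (hx : x ^ p = x) :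
    ∃ n : ZMod p, x = ZMod.castHom (dvd_refl p) k n := by
  classical
  have hp := (Fact.out : p.Prime)
  set f : Polynomial k := Polynomial.X ^ p - Polynomial.X with hf
  have hf0 : f ≠ 0 := FiniteField.X_pow_card_sub_X_ne_zero k hp.one_lt
  have hdeg : f.natDegree = p := FiniteField.X_pow_card_sub_X_natDegree_eq k hp.one_lt
  let s : Finset k := Finset.univ.image (ZMod.castHom (dvd_refl p) k)
  have hs : s.card = p := by
    rw [Finset.card_image_of_injective _ (ZMod.castHom (dvd_refl p) k).injective,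
      Finset.card_univ, ZMod.card]
  have hsub : s ⊆ f.roots.toFinset := by
    intro y hy
    obtain ⟨n, -, rfl⟩ := Finset.mem_image.1 hy
    rw [Multiset.mem_toFinset, Polynomial.mem_roots hf0, Polynomial.IsRoot, hf]
    simp only [Polynomial.eval_sub, Polynomial.eval_pow, Polynomial.eval_X]
    rw [← map_pow, ZMod.pow_card, sub_self]
  have hcard : f.roots.toFinset.card ≤ s.card := by
    rw [hs, ← hdeg]
    exact (Multiset.toFinset_card_le _).trans (Polynomial.card_roots' f)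
  have heq := Finset.eq_of_subset_of_card_le hsub hcard
  have hxr : x ∈ f.roots.toFinset := by
    rw [Multiset.mem_toFinset, Polynomial.mem_roots hf0, Polynomial.IsRoot, hf]
    simp [hx]
  rw [← heq] at hxr
  obtain ⟨n, -, rfl⟩ := Finset.mem_image.1 hxr
  exact ⟨n, rfl⟩

/-- In characteristic `p`, `x ^ (p ^ n) = 1` forces `x = 1`. -/
theorem eq_one_of_pow_char_pow (x : k) (n : ℕ) (hx : x ^ (p ^ n) = 1) : x = 1 := by
  have h : (x - 1) ^ (p ^ n) = 0 := by
    rw [sub_pow_char_pow, hx, one_pow, sub_self]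
  exact sub_eq_zero.1 (pow_eq_zero_iff (pow_ne_zero _ (Fact.out : p.Prime).ne_zero) |>.1 h)

section Conj

variable {P P' : M2 k}

theorem conj_pow (hPP' : P * P' = 1) (hP'P : P' * P = 1) (B : M2 k) (i : ℕ) :
    P' * B ^ i * P = (P' * B * P) ^ i := by
  induction i with
  | zero => rw [pow_zero, pow_zero, mul_one]; exact hP'P
  | succ i ih =>
    rw [pow_succ, pow_succ, ← ih]
    calc P' * (B ^ i * B) * P = P' * B ^ i * 1 * B * P := by simp only [mul_one, mul_assoc]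
      _ = P' * B ^ i * P * (P' * B * P) := by rw [← hPP']; simp only [mul_assoc]

end Conj

section Eig

variable {rbar : GQ →* M2 k} (S : LLStruct p rbar) {P P' : M2 k} {l m : k}

theorem eig_pow_left (hPP' : P * P' = 1) (hP'P : P' * P = 1)
    (hdiag : P' * rbar (rq p S.g₀) * P = Matrix.diagonal ![l, m]) : l ^ p = m := by
  have hl := eig_sq_left_self S hPP' hP'P hdiag
  have hadd := eig_add_self S hPP' hdiag
  have hmul := eig_mul_self S hP'P hdiag
  have hlp : (l ^ p) ^ 2 = ZMod.castHom (dvd_refl p) k S.a₀ * l ^ p -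
      ZMod.castHom (dvd_refl p) k S.b₀ := by
    have h1 : (l ^ 2) ^ p = (ZMod.castHom (dvd_refl p) k S.a₀ * l -
      ZMod.castHom (dvd_refl p) k S.b₀) ^ p := by rw [hl]
    rw [← pow_mul, mul_comm 2 p, pow_mul, sub_pow_char, mul_pow, ← map_pow, ← map_pow,
      ZMod.pow_card, ZMod.pow_card] at h1
    exact h1
  have h0 : (l ^ p - l) * (l ^ p - m) = 0 := by
    linear_combination hlp - (l ^ p) * hadd + hmul
  rcases mul_eq_zero.1 h0 with h | h
  · exfalso
    obtain ⟨n, hn⟩ := exists_cast_of_pow_eq (p := p) l (sub_eq_zero.1 h)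
    exact eig_left_not_mem_range_self S hPP' hP'P hdiag n hn
  · exact sub_eq_zero.1 h

theorem eig_pow_right (hPP' : P * P' = 1) (hP'P : P' * P = 1)
    (hdiag : P' * rbar (rq p S.g₀) * P = Matrix.diagonal ![l, m]) : m ^ p = l := by
  have hm := eig_sq_right_self S hPP' hP'P hdiag
  have hadd := eig_add_self S hPP' hdiag
  have hmul := eig_mul_self S hP'P hdiag
  have hmp : (m ^ p) ^ 2 = ZMod.castHom (dvd_refl p) k S.a₀ * m ^ p -
      ZMod.castHom (dvd_refl p) k S.b₀ := by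
    have h1 : (m ^ 2) ^ p = (ZMod.castHom (dvd_refl p) k S.a₀ * m -
      ZMod.castHom (dvd_refl p) k S.b₀) ^ p := by rw [hm]
    rw [← pow_mul, mul_comm 2 p, pow_mul, sub_pow_char, mul_pow, ← map_pow, ← map_pow,
      ZMod.pow_card, ZMod.pow_card] at h1
    exact h1
  have h0 : (m ^ p - m) * (m ^ p - l) = 0 := by
    linear_combination hmp - (m ^ p) * hadd + hmul
  rcases mul_eq_zero.1 h0 with h | h
  · exfalso
    obtain ⟨n, hn⟩ := exists_cast_of_pow_eq (p := p) m (sub_eq_zero.1 h)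
    exact eig_right_not_mem_range_self S hPP' hP'P hdiag n hn
  · exact sub_eq_zero.1 h

end Eig

section Theta

variable (L : IntermediateField ℚ_[p] (PadicAlgCl p)) [FiniteDimensional ℚ_[p] L]
  [IsGalois ℚ_[p] L]

/-- `θ_L(φ σ φ⁻¹) = θ_L(σ) ^ p` for a Frobenius lift `φ`. -/
theorem thetaL_conj_frob {φ : Gq p} (hφ : IsFrobLift p φ) (σ : Iq p) :
    thetaL p L ⟨φ * σ * φ⁻¹, (Iq_normal p).conj_mem σ σ.2 φ⟩ = thetaL p L σ ^ p := by
  have h := theta0_conj_frob p ℚ_[p] L (isFrob_resL p L hφ) (resI p L σ)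
  rw [resCard_padic] at h
  change theta0 p ℚ_[p] L (resI p L ⟨φ * σ * φ⁻¹, _⟩) = theta0 p ℚ_[p] L (resI p L σ) ^ p
  rw [← h]
  congr 1
  apply Subtype.ext
  rw [coe_resI]
  simp only [map_mul, map_inv, coe_resI]

/-- Elements of `Iq` killed by `θ_L` have a `p`-power power fixing `L`. -/
theorem exists_pow_mem_fixing (τ : Iq p) (hτ : thetaL p L τ = 1) :
    ∃ n : ℕ, (τ : Gq p) ^ (p ^ n) ∈ L.fixingSubgroup := by
  obtain ⟨n, hn⟩ := isPGroup_ker_theta0 p ℚ_[p] L ⟨resI p L τ, hτ⟩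
  refine ⟨n, ?_⟩
  have h1 : resI p L (τ ^ p ^ n) = 1 := by
    rw [map_pow]
    exact congrArg Subtype.val hn
  have h2 : ((τ ^ p ^ n : Iq p) : Gq p) ∈ L.fixingSubgroup := by
    rw [← ker_resL, MonoidHom.mem_ker, ← coe_resI, h1]
    rfl
  exact h2

end Theta

section Main

variable {rbar : GQ →* M2 k} (S : LLStruct p rbar) {P P' : M2 k} {l m : k}

theorem eq_of_conj_eq (hPP' : P * P' = 1) {X Y : M2 k} (h : P' * X * P = P' * Y * P) : X = Y := by
  have h1 : P * (P' * X * P) * P' = P * (P' * Y * P) * P' := by rw [h]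
  have e : ∀ Z : M2 k, P * (P' * Z * P) * P' = (P * P') * Z * (P * P') := by
    intro Z
    simp only [mul_assoc]
  rwa [e, e, hPP', one_mul, mul_one, one_mul, mul_one] at h1

/-- `ρ̄` kills `Iq ∩ ker θ_L`. -/
theorem rbar_eq_one_of_thetaL (hPP' : P * P' = 1) (hP'P : P' * P = 1)
    (hdiag : P' * rbar (rq p S.g₀) * P = Matrix.diagonal ![l, m])
    (τ : Iq p) (hτ : thetaL p S.L τ = 1) : rbar (rq p (τ : Gq p)) = 1 := by
  obtain ⟨i, hi⟩ := S.hcyc τ τ.2
  obtain ⟨n, hn⟩ := exists_pow_mem_fixing S.L τ hτ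
  have h1 : rbar (rq p (τ : Gq p)) ^ (p ^ n) = 1 := by
    rw [← map_pow, ← map_pow]
    exact S.htriv _ hn
  have h2 : P' * rbar (rq p (τ : Gq p)) * P = Matrix.diagonal ![l ^ i, m ^ i] := by
    rw [hi, conj_pow hPP' hP'P, hdiag, Matrix.diagonal_pow]
    congr 1
    funext a
    fin_cases a <;> rfl
  have h3 : (P' * rbar (rq p (τ : Gq p)) * P) ^ (p ^ n) = 1 := by
    rw [← conj_pow hPP' hP'P, h1, mul_one, hP'P]
  rw [h2, Matrix.diagonal_pow] at h3
  have hl : (l ^ i) ^ (p ^ n) = 1 := by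
    have := congrFun (congrFun h3 0) 0
    simpa using this
  have hm : (m ^ i) ^ (p ^ n) = 1 := by
    have := congrFun (congrFun h3 1) 1
    simpa using this
  have hl1 := eq_one_of_pow_char_pow (p := p) _ n hl
  have hm1 := eq_one_of_pow_char_pow (p := p) _ n hm
  apply eq_of_conj_eq hPP'
  rw [h2, hl1, hm1, mul_one, hP'P]
  ext a b
  fin_cases a <;> fin_cases b <;> simp

/-- `ρ̄(φ g₀ φ⁻¹) = ρ̄(g₀) ^ p` for a Frobenius lift `φ`. -/
theorem rbar_conj_frob (hPP' : P * P' = 1) (hP'P : P' * P = 1)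
    (hdiag : P' * rbar (rq p S.g₀) * P = Matrix.diagonal ![l, m])
    {φ : Gq p} (hφ : IsFrobLift p φ) :
    rbar (rq p (φ * S.g₀ * φ⁻¹)) = rbar (rq p S.g₀) ^ p := by
  set g : Iq p := ⟨S.g₀, S.hg₀⟩ with hg
  set σ : Iq p := ⟨φ * g * φ⁻¹, (Iq_normal p).conj_mem g g.2 φ⟩ with hσ
  have hθ : thetaL p S.L (σ * (g ^ p)⁻¹) = 1 := by
    rw [map_mul, map_inv, map_pow, hσ, thetaL_conj_frob S.L hφ g, mul_inv_cancel]
  have h1 := rbar_eq_one_of_thetaL S hPP' hP'P hdiag _ hθ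
  have h2 : (φ * S.g₀ * φ⁻¹ : Gq p) = ((σ * (g ^ p)⁻¹ : Iq p) : Gq p) * S.g₀ ^ p := by
    rw [Subgroup.coe_mul, Subgroup.coe_inv, Subgroup.coe_pow, inv_mul_cancel_right]
  rw [h2, map_mul, map_mul, h1, one_mul, map_pow, map_pow]

/-- `P' ρ̄(φ) P` is anti-diagonal. -/
theorem frob_coord (hPP' : P * P' = 1) (hP'P : P' * P = 1)
    (hdiag : P' * rbar (rq p S.g₀) * P = Matrix.diagonal ![l, m])
    {φ : Gq p} (hφ : IsFrobLift p φ) :
    (P' * rbar (rq p φ) * P) 0 0 = 0 ∧ (P' * rbar (rq p φ) * P) 1 1 = 0 := by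
  have hlm := eig_ne_self S hPP' hP'P hdiag
  have h1 := rbar_conj_frob S hPP' hP'P hdiag hφ
  have h2 : rbar (rq p φ) * rbar (rq p S.g₀) = rbar (rq p S.g₀) ^ p * rbar (rq p φ) := by
    rw [← h1, ← map_mul, ← map_mul, ← map_mul, ← map_mul, inv_mul_cancel_right]
  have h3 : (P' * rbar (rq p φ) * P) * Matrix.diagonal ![l, m] =
      Matrix.diagonal ![m, l] * (P' * rbar (rq p φ) * P) := by
    have e1 : (P' * rbar (rq p φ) * P) * (P' * rbar (rq p S.g₀) * P) =
        P' * (rbar (rq p φ) * rbar (rq p S.g₀)) * P := by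
      calc (P' * rbar (rq p φ) * P) * (P' * rbar (rq p S.g₀) * P)
          = P' * rbar (rq p φ) * (P * P') * rbar (rq p S.g₀) * P := by simp only [mul_assoc]
        _ = P' * (rbar (rq p φ) * rbar (rq p S.g₀)) * P := by
          rw [hPP', mul_one]; simp only [mul_assoc]
    have e2 : (P' * rbar (rq p S.g₀) ^ p * P) * (P' * rbar (rq p φ) * P) =
        P' * (rbar (rq p S.g₀) ^ p * rbar (rq p φ)) * P := by
      calc (P' * rbar (rq p S.g₀) ^ p * P) * (P' * rbar (rq p φ) * P)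
          = P' * rbar (rq p S.g₀) ^ p * (P * P') * rbar (rq p φ) * P := by simp only [mul_assoc]
        _ = P' * (rbar (rq p S.g₀) ^ p * rbar (rq p φ)) * P := by
          rw [hPP', mul_one]; simp only [mul_assoc]
    have e3 : P' * rbar (rq p S.g₀) ^ p * P = Matrix.diagonal ![m, l] := by
      rw [conj_pow hPP' hP'P, hdiag, Matrix.diagonal_pow]
      congr 1
      funext a
      fin_cases a
      · exact eig_pow_left S hPP' hP'P hdiag
      · exact eig_pow_right S hPP' hP'P hdiag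
    rw [← hdiag, e1, h2, ← e2, e3]
  set Y := P' * rbar (rq p φ) * P with hY
  have h00 := congrFun (congrFun h3 0) 0
  have h11 := congrFun (congrFun h3 1) 1
  rw [Matrix.mul_diagonal, Matrix.diagonal_mul] at h00 h11
  simp only [Matrix.cons_val_zero, Matrix.cons_val_one] at h00 h11
  constructor
  · have : Y 0 0 * (l - m) = 0 := by linear_combination h00
    exact (mul_eq_zero.1 this).resolve_right (sub_ne_zero.2 hlm)
  · have : Y 1 1 * (m - l) = 0 := by linear_combination h11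
    exact (mul_eq_zero.1 this).resolve_right (sub_ne_zero.2 hlm.symm)

/-- **Frobenius acts by `-1` on the weight-zero coordinate.** -/
theorem frob_conj_entry (hPP' : P * P' = 1) (hP'P : P' * P = 1)
    (hdiag : P' * rbar (rq p S.g₀) * P = Matrix.diagonal ![l, m])
    {φ : Gq p} (hφ : IsFrobLift p φ) (X : M2 k) (hX : X.trace = 0) :
    (P' * (rbar (rq p φ) * X * rbar (rq p φ)⁻¹) * P) 0 0 = - (P' * X * P) 0 0 := by
  obtain ⟨h00, h11⟩ := frob_coord S hPP' hP'P hdiag hφ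
  set Y := P' * rbar (rq p φ) * P with hY
  set Y' := P' * rbar (rq p φ)⁻¹ * P with hY'
  set Z := P' * X * P with hZ
  have hYY' : Y * Y' = 1 := by
    calc Y * Y' = P' * rbar (rq p φ) * (P * P') * rbar (rq p φ)⁻¹ * P := by
          simp only [hY, hY', mul_assoc]
      _ = P' * (rbar (rq p φ) * rbar (rq p φ)⁻¹) * P := by
          rw [hPP', mul_one]; simp only [mul_assoc]
      _ = 1 := by rw [rbar_mul_inv, mul_one, hP'P]
  have hconj : P' * (rbar (rq p φ) * X * rbar (rq p φ)⁻¹) * P = Y * Z * Y' := by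
    calc P' * (rbar (rq p φ) * X * rbar (rq p φ)⁻¹) * P
        = P' * rbar (rq p φ) * 1 * X * 1 * rbar (rq p φ)⁻¹ * P := by
          simp only [mul_one, mul_assoc]
      _ = Y * Z * Y' := by
          rw [← hPP']; simp only [hY, hY', hZ, mul_assoc]
  have htr : Z 0 0 + Z 1 1 = 0 := by
    have : Z.trace = 0 := by
      rw [hZ, Matrix.trace_mul_cycle, hPP', one_mul, hX]
    rwa [Matrix.trace_fin_two] at this
  have e00 := congrFun (congrFun hYY' 0) 0
  have e10 := congrFun (congrFun hYY' 1) 0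
  have e11 := congrFun (congrFun hYY' 1) 1
  simp only [Matrix.mul_apply, Fin.sum_univ_two, h00, h11, zero_mul, zero_add, add_zero,
    Matrix.one_apply_eq, Matrix.one_apply_ne, ne_eq, one_ne_zero, not_false_eq_true,
    Fin.isValue] at e00 e10 e11
  have hc : Y 1 0 ≠ 0 := by
    intro hc
    rw [hc, zero_mul] at e11
    exact zero_ne_one e11
  have h00' : Y' 0 0 = 0 := (mul_eq_zero.1 e10).resolve_left hc
  rw [hconj]
  simp only [Matrix.mul_apply, Fin.sum_univ_two, h00, h00', zero_mul, zero_add, mul_zero]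
  linear_combination (Z 1 1) * e00 + htr

/-- The same for the adjoint action on `ad⁰ ρ̄`. -/
theorem frob_ad0_entry (hPP' : P * P' = 1) (hP'P : P' * P = 1)
    (hdiag : P' * rbar (rq p S.g₀) * P = Matrix.diagonal ![l, m])
    {φ : Gq p} (hφ : IsFrobLift p φ) (X : Mq (ad0Rep rbar) p) :
    (P' * ad0Val rbar ((Mq (ad0Rep rbar) p).ρ φ X) * P) 0 0 = - (P' * ad0Val rbar X * P) 0 0 := by
  have e1 : ad0Val rbar ((Mq (ad0Rep rbar) p).ρ φ X) =
      rbar (rq p φ) * ad0Val rbar X * rbar (rq p φ)⁻¹ := rfl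
  rw [e1]
  exact frob_conj_entry S hPP' hP'P hdiag hφ _ (trace_ad0Val rbar X)

/-- **`c₀₀(φ σ φ⁻¹) = - c₀₀(σ)`** for a cocycle `c`, `σ ∈ Gal(Ω/L)` and a Frobenius lift `φ`. -/
theorem entry_conj_frob (hPP' : P * P' = 1) (hP'P : P' * P = 1)
    (hdiag : P' * rbar (rq p S.g₀) * P = Matrix.diagonal ![l, m])
    {φ : Gq p} (hφ : IsFrobLift p φ) {c : Gq p → Mq (ad0Rep rbar) p}
    (hc : c ∈ cocycles₁ (Mq (ad0Rep rbar) p)) (σ : Gq p) (hσ : σ ∈ S.L.fixingSubgroup) :
    (P' * ad0Val rbar (c (φ * σ * φ⁻¹)) * P) 0 0 = - (P' * ad0Val rbar (c σ) * P) 0 0 := by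
  rw [restrict_conj hc (V := S.L.fixingSubgroup) S.kdata.htriv φ hσ]
  exact frob_ad0_entry S hPP' hP'P hdiag hφ _

end Main

end Fermat.Agent.TW.FLAT.FrobSwap3
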