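/-
Programme T (S56), chapter FLAT, brick (F0-C) — helper3.

Transport of the weight-zero statement (F0') for `ad⁰ ρ̄` to the quotient `N₀ = ad⁰ / (Ad ρ̄(g₀) - 1)`:
for `S : LLStruct p rbar`, `P' ρ̄(g₀) P = diag(l, m)`, `e(X) := (P' X P)₀₀`:

* `entry_eq_zero_iff`: `pr0 X = 0 ↔ e(X) = 0`;
* `N0_kdata`, `N0_ur`, `N0_frob` (`(N0).ρ φ = -1` for a Frobenius lift `φ`);
* `exists_entry_functional`: every `ν : N₀ →+ 𝔽_p` is `μ ∘ e` for some `μ : k →+ 𝔽_p`;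
* `hlev_N0`, `hfine_N0`: transport of the level hypotheses;
* `h11_of_levels_of_kill`: (F0') from the level hypotheses, given the weight-zero vanishing
  statement for `N₀` (helper9's `eq_zero_on_inertia`).
-/
import Mathlib
import Fermat.Agent.TW.FLAT.FrobSwap3

set_option autoImplicit false
set_option linter.unusedSectionVars false

open groupCohomology
open scoped Fermat.Agent.PT.LOC.Interface12 Fermat.Agent.PT.LOC.StructureTower27
open Fermat.Agent.PT.LOC.Interface12 Fermat.Agent.PT.LOC.Structure14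
  Fermat.Agent.PT.LOC.Unram11 Fermat.Agent.TW.LOC.TameInertia4
open Fermat.Agent.PT.PRO.LevelCoh28 Fermat.Agent.PT.GLUE.Objects21
open Fermat.Agent.TW.LOC.Defs2 Fermat.Agent.TW.LOC.TameProfinite4
open Fermat.Agent.TW.FLAT.KummerDict3 Fermat.Agent.TW.FLAT.InfRes3
open Fermat.Agent.TW.FLAT.UnitFil9 Fermat.Agent.TW.FLAT.LLCoh3 Fermat.Agent.TW.FLAT.LLFinal3
open Fermat.Agent.TW.FLAT.AdWeights3 Fermat.Agent.TW.FLAT.LLAd3 Fermat.Agent.TW.FLAT.LLPackage3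
open Fermat.Agent.TW.FLAT.EntryBridge3 Fermat.Agent.TW.FLAT.EntryBridgeSelf3
open Fermat.Agent.TW.FLAT.FrobSwap3
open Fermat.Agent.TW.DEF.Basic1 (GQ M2 Mq Hq1 ad0Rep ad0Val ad0Val_injective rbar_mul_inv
  rbar_inv_mul trace_ad0Val sl2 mem_sl2_iff finrank_sl2)

namespace Fermat.Agent.TW.FLAT.WeightZeroAd3

variable {p : ℕ} [Fact p.Prime] {k : Type} [Field k] [CharP k p] [Finite k]
  {rbar : GQ →* M2 k} (S : LLStruct p rbar) {P P' : M2 k} {l m : k}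

/-- The weight-zero entry `X ↦ (P' X P)₀₀` as an additive map on `ad⁰ ρ̄`. -/
noncomputable def entry (P P' : M2 k) : (Mq (ad0Rep rbar) p) →+ k where
  toFun X := (P' * ad0Val rbar X * P) 0 0
  map_zero' := by simp
  map_add' X Y := by simp [mul_add, add_mul]

theorem entry_apply (X : Mq (ad0Rep rbar) p) :
    entry (p := p) (rbar := rbar) P P' X = (P' * ad0Val rbar X * P) 0 0 := rfl

/-- Elements of `range (Ad ρ̄(g₀) - 1)` have vanishing weight-zero entry. -/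
theorem entry_eq_zero_of_mem (hPP' : P * P' = 1) (hP'P : P' * P = 1)
    (hdiag : P' * rbar (rq p S.g₀) * P = Matrix.diagonal ![l, m])
    {X : Mq (ad0Rep rbar) p} (hX : X ∈ augSub (Mq (ad0Rep rbar) p) S.g₀) :
    (P' * ad0Val rbar X * P) 0 0 = 0 := by
  obtain ⟨y, rfl⟩ := mem_augSub.1 hX
  have h := coord_conj_sub_apply (k' := k) hPP' hP'P (rbar_mul_inv rbar (rq p S.g₀))
    (rbar_inv_mul rbar (rq p S.g₀)) (by rw [coord_self]; exact hdiag) (ad0Val rbar y)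
  rw [coord_self] at h
  exact h

theorem mem_of_entry_eq_zero (hp2 : p ≠ 2) (hPP' : P * P' = 1) (hP'P : P' * P = 1)
    (hdiag : P' * rbar (rq p S.g₀) * P = Matrix.diagonal ![l, m])
    {X : Mq (ad0Rep rbar) p} (hX : (P' * ad0Val rbar X * P) 0 0 = 0) :
    X ∈ augSub (Mq (ad0Rep rbar) p) S.g₀ :=
  mem_augSub_of_coord (k' := k) S hp2 hPP' hP'P (eig_ne_self S hPP' hP'P hdiag)
    (by rw [coord_self]; exact hdiag) X (by rw [coord_self]; exact hX)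

/-- `pr0 X = 0 ↔ (P' X P)₀₀ = 0`. -/
theorem pr0_eq_zero_iff_entry (hp2 : p ≠ 2) (hPP' : P * P' = 1) (hP'P : P' * P = 1)
    (hdiag : P' * rbar (rq p S.g₀) * P = Matrix.diagonal ![l, m]) (X : Mq (ad0Rep rbar) p) :
    pr0 S.isCycGen X = 0 ↔ (P' * ad0Val rbar X * P) 0 0 = 0 := by
  rw [pr0_eq_zero_iff]
  exact ⟨entry_eq_zero_of_mem S hPP' hP'P hdiag, mem_of_entry_eq_zero S hp2 hPP' hP'P hdiag⟩

/-- Kummer data for the weight-zero quotient. -/
theorem N0_kdata : KData S.L S.ζ S.ω (N0 S.isCycGen) :=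
  ⟨S.hζ, S.hne, S.hζL, S.hωζ, N0_trivial_of S.isCycGen S.kdata.htriv⟩

/-- The weight-zero quotient is unramified. -/
theorem N0_ur : ∀ σ ∈ Iq p, (N0 S.isCycGen).ρ σ = 1 := N0_unramified S.isCycGen

/-- **A Frobenius lift acts by `-1` on the weight-zero quotient.** -/
theorem N0_frob (hp2 : p ≠ 2) (hPP' : P * P' = 1) (hP'P : P' * P = 1)
    (hdiag : P' * rbar (rq p S.g₀) * P = Matrix.diagonal ![l, m])
    {φ : Gq p} (hφ : IsFrobLift p φ) (n : N0 S.isCycGen) :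
    (N0 S.isCycGen).ρ φ n = -n := by
  obtain ⟨X, rfl⟩ := pr0_surjective S.isCycGen n
  rw [← pr0_equivariant, ← map_neg, ← sub_eq_zero, ← map_sub,
    pr0_eq_zero_iff_entry S hp2 hPP' hP'P hdiag]
  rw [sub_neg_eq_add, map_add, mul_add, add_mul, Matrix.add_apply,
    frob_ad0_entry S hPP' hP'P hdiag hφ X, neg_add_cancel]

/-- Every additive functional on the weight-zero quotient is a functional of the weight-zero
entry. -/
theorem exists_entry_functional (hp2 : p ≠ 2) (hPP' : P * P' = 1) (hP'P : P' * P = 1)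
    (hdiag : P' * rbar (rq p S.g₀) * P = Matrix.diagonal ![l, m])
    (ν : Dual (N0 S.isCycGen)) :
    ∃ μ : k →+ ZMod p, ∀ X : Mq (ad0Rep rbar) p,
      ν (pr0 S.isCycGen X) = μ ((P' * ad0Val rbar X * P) 0 0) := by
  have hA : ∀ X : Mq (ad0Rep rbar) p, p • X = 0 := by
    intro X
    rw [← Nat.cast_smul_eq_nsmul k, CharP.cast_eq_zero k p, zero_smul]
  have hW : ∀ w : k, p • w = 0 := by
    intro w
    rw [nsmul_eq_mul, CharP.cast_eq_zero k p, zero_mul]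
  obtain ⟨μ, hμ⟩ := exists_factor p hA hW (entry (p := p) (rbar := rbar) P P')
    (ν.comp (pr0 S.isCycGen).toAddMonoidHom) (fun X hX => by
      change ν (pr0 S.isCycGen X) = 0
      rw [(pr0_eq_zero_iff_entry S hp2 hPP' hP'P hdiag X).2 hX, map_zero])
  exact ⟨μ, fun X => (hμ X).symm⟩

section Transport

variable (c : ↥(Z1 (levelLoc p) (Mq (ad0Rep rbar) p)))

/-- The weight-zero part of a level cocycle is a level cocycle. -/
theorem pr0_comp_mem_Z1 :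
    (pr0 S.isCycGen) ∘ (c : Gq p → Mq (ad0Rep rbar) p) ∈ Z1 (levelLoc p) (N0 S.isCycGen) :=
  comp_mem_Z1 (pr0 S.isCycGen) (pr0_equivariant S.isCycGen) c.2

theorem hlev_N0 (hp2 : p ≠ 2) (hPP' : P * P' = 1) (hP'P : P' * P = 1)
    (hdiag : P' * rbar (rq p S.g₀) * P = Matrix.diagonal ![l, m]) {R : ℝ}
    (hlev : ∀ μ : k →+ ZMod p, KumLe S.L S.ζ R
      (fun g => μ ((P' * ad0Val rbar ((c : Gq p → Mq (ad0Rep rbar) p) g) * P) 0 0)))
    (ν : Dual (N0 S.isCycGen)) :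
    KumLe S.L S.ζ R
      (chiOf ((pr0 S.isCycGen) ∘ (c : Gq p → Mq (ad0Rep rbar) p)) ν) := by
  obtain ⟨μ, hμ⟩ := exists_entry_functional S hp2 hPP' hP'P hdiag ν
  have e : chiOf ((pr0 S.isCycGen) ∘ (c : Gq p → Mq (ad0Rep rbar) p)) ν =
      (fun g => μ ((P' * ad0Val rbar ((c : Gq p → Mq (ad0Rep rbar) p) g) * P) 0 0)) := by
    funext g
    exact hμ _
  rw [e]
  exact hlev μ

theorem hfine_N0 (hp2 : p ≠ 2) (hPP' : P * P' = 1) (hP'P : P' * P = 1)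
    (hdiag : P' * rbar (rq p S.g₀) * P = Matrix.diagonal ![l, m]) {R : ℝ}
    (hfine : ∀ μ : k →+ ZMod p,
      (∀ σ ∈ S.L.fixingSubgroup,
        μ ((P' * ad0Val rbar ((c : Gq p → Mq (ad0Rep rbar) p) σ) * P) 0 0) = 0 →
          (P' * ad0Val rbar ((c : Gq p → Mq (ad0Rep rbar) p) σ) * P) 0 0 = 0) →
      KumLe S.L S.ζ R
        (fun g => μ ((P' * ad0Val rbar ((c : Gq p → Mq (ad0Rep rbar) p) g) * P) 0 0)))
    (ν : Dual (N0 S.isCycGen))
    (hν : ∀ σ ∈ S.L.fixingSubgroup,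
      ν (((pr0 S.isCycGen) ∘ (c : Gq p → Mq (ad0Rep rbar) p)) σ) = 0 →
        ((pr0 S.isCycGen) ∘ (c : Gq p → Mq (ad0Rep rbar) p)) σ = 0) :
    KumLe S.L S.ζ R
      (chiOf ((pr0 S.isCycGen) ∘ (c : Gq p → Mq (ad0Rep rbar) p)) ν) := by
  obtain ⟨μ, hμ⟩ := exists_entry_functional S hp2 hPP' hP'P hdiag ν
  have e : chiOf ((pr0 S.isCycGen) ∘ (c : Gq p → Mq (ad0Rep rbar) p)) ν =
      (fun g => μ ((P' * ad0Val rbar ((c : Gq p → Mq (ad0Rep rbar) p) g) * P) 0 0)) := by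
    funext g
    exact hμ _
  rw [e]
  refine hfine μ (fun σ hσ h0 => ?_)
  rw [← pr0_eq_zero_iff_entry S hp2 hPP' hP'P hdiag]
  apply hν σ hσ
  rw [Function.comp_apply, hμ]
  exact h0

/-- **(F0-C)**: (F0') from the level hypotheses on the weight-zero entry, given the weight-zero
vanishing statement `hkill` for the quotient `N₀` (helper9's `eq_zero_on_inertia`, instantiated). -/
theorem h11_of_levels_of_kill (hp2 : p ≠ 2) (hPP' : P * P' = 1) (hP'P : P' * P = 1)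
    (hdiag : P' * rbar (rq p S.g₀) * P = Matrix.diagonal ![l, m])
    (hkill :
      (∀ ν : Dual (N0 S.isCycGen), KumLe S.L S.ζ (unifNorm p ↥S.L ^ (p + 1))
        (chiOf ((pr0 S.isCycGen) ∘ (c : Gq p → Mq (ad0Rep rbar) p)) ν)) →
      (∀ ν : Dual (N0 S.isCycGen),
        (∀ σ ∈ S.L.fixingSubgroup,
          ν (((pr0 S.isCycGen) ∘ (c : Gq p → Mq (ad0Rep rbar) p)) σ) = 0 →
            ((pr0 S.isCycGen) ∘ (c : Gq p → Mq (ad0Rep rbar) p)) σ = 0) →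
        KumLe S.L S.ζ (unifNorm p ↥S.L ^ (p + 2))
          (chiOf ((pr0 S.isCycGen) ∘ (c : Gq p → Mq (ad0Rep rbar) p)) ν)) →
      ∀ σ ∈ Iq p, σ ∈ S.L.fixingSubgroup →
        ((pr0 S.isCycGen) ∘ (c : Gq p → Mq (ad0Rep rbar) p)) σ = 0)
    (hlev : ∀ μ : k →+ ZMod p, KumLe S.L S.ζ (unifNorm p ↥S.L ^ (p + 1))
      (fun g => μ ((P' * ad0Val rbar ((c : Gq p → Mq (ad0Rep rbar) p) g) * P) 0 0)))
    (hfine : ∀ μ : k →+ ZMod p,
      (∀ σ ∈ S.L.fixingSubgroup,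
        μ ((P' * ad0Val rbar ((c : Gq p → Mq (ad0Rep rbar) p) σ) * P) 0 0) = 0 →
          (P' * ad0Val rbar ((c : Gq p → Mq (ad0Rep rbar) p) σ) * P) 0 0 = 0) →
      KumLe S.L S.ζ (unifNorm p ↥S.L ^ (p + 2))
        (fun g => μ ((P' * ad0Val rbar ((c : Gq p → Mq (ad0Rep rbar) p) g) * P) 0 0))) :
    ∀ σ ∈ Iq p, σ ∈ S.L.fixingSubgroup →
      (P' * ad0Val rbar ((c : Gq p → Mq (ad0Rep rbar) p) σ) * P) 0 0 = 0 := by
  intro σ hσ hσV
  rw [← pr0_eq_zero_iff_entry S hp2 hPP' hP'P hdiag]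
  exact hkill (hlev_N0 S c hp2 hPP' hP'P hdiag hlev)
    (fun ν hν => hfine_N0 S c hp2 hPP' hP'P hdiag hfine ν hν) σ hσ hσV

end Transport

end Fermat.Agent.TW.FLAT.WeightZeroAd3
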