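/-
Programme T (S56), chapter FLAT, brick (W0) — helper9.

THE WEIGHT-ZERO REFINEMENT OF THE CLIMB OF `LLCount9`.

Setting of `LLCount9`: `F/E` finite Galois extension of `p`-adic fields (model of
`PT.LOC.Interface12`), `e(F) = p² - 1`, `ρ : Representation (ZMod p) Gal(F/E) M`,
`f ∈ kumSub ρ (p + 1)` an equivariant Kummer homomorphism of level `≥ p + 1`.  Assume that the
residue field of `E` has `p` elements, that an inertia element `τ` with `θ₀(τ)` of order `p² - 1`
acts on `M` by the SCALAR `a` with `a = θ₀(τ)^(p+1)` in the residue field, and that a Frobenius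
element `σ` acts on `M` by a scalar `c`.

* `ltAdd` : the leading term `w ↦ lt_{p+1}(f w)` as an additive map `M →+ resF p F`;
  `ltAdd_eq_zero_iff` (kernel = `{w | f w` of level `≥ p + 2}`), `ltAdd_galois`;
* `ltAdd_frob_eq` : every value `x` of `ltAdd` satisfies `θ_σ^(p+1) x^p = c x`, hence the image of
  `ltAdd` lies in an `𝔽_p`-line: `index_ker_ltAdd_le`;
* `lev_top_of_mem_ker` : on `ker ltAdd` the level climbs from `p + 2` to `p² + p` (the polynomial
  `X - a` kills `ρ τ` and does not vanish at `θ₀(τ)^m` for `p + 1 < m < p² + p`);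
* **`exists_index_le_lev_top`** : `∃ M' : AddSubgroup M, M'.index ≠ 0 ∧ M'.index ≤ p ∧
  ∀ w ∈ M', liftK f w ∈ levelSub p F (p² + p)`.
-/
import Mathlib
import Fermat.Agent.TW.FLAT.LLCount9

set_option autoImplicit false
set_option linter.unusedSectionVars false

open scoped Fermat.Agent.PT.LOC.Interface12 Fermat.Agent.PT.LOC.StructureTower27
open Fermat.Agent.PT.LOC.Interface12 Fermat.Agent.PT.LOC.Structure14
  Fermat.Agent.PT.LOC.StructureNorm14 Fermat.Agent.PT.LOC.StructureTower27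
  Fermat.Agent.PT.LOC.StructureTowerEF27 Fermat.Agent.PT.LOC.RootsUnity14
  Fermat.Agent.PT.LOC.Unram11 Fermat.Agent.TW.LOC.TameInertia4
  Fermat.Agent.TW.FLAT.UnitFil9 Fermat.Agent.TW.FLAT.UnitPow9 Fermat.Agent.TW.FLAT.KummerLevel9
  Fermat.Agent.TW.FLAT.SemilinCount9 Fermat.Agent.TW.FLAT.LevelQuot9
  Fermat.Agent.TW.FLAT.LLCount9 Polynomial

namespace Fermat.Agent.TW.FLAT.WeightZero9

noncomputable section

attribute [local instance] algZModResF

/-! ### Elements fixed by the Frobenius lie in the prime field -/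

theorem exists_cast_eq_of_pow_eq {p : ℕ} [Fact p.Prime] {K : Type*} [Field K] [CharP K p]
    (φr : ZMod p →+* K) {u : K} (hu : u ^ p = u) : ∃ n : ZMod p, φr n = u := by
  classical
  by_contra hcon
  rw [not_exists] at hcon
  have hp1 : 1 < p := (Fact.out : p.Prime).one_lt
  have hP0 : (X ^ p - X : K[X]) ≠ 0 := FiniteField.X_pow_card_sub_X_ne_zero K hp1
  have hdeg : (X ^ p - X : K[X]).natDegree = p := FiniteField.X_pow_card_sub_X_natDegree_eq K hp1
  have hroot : ∀ y : K, y ^ p = y → y ∈ (X ^ p - X : K[X]).roots := by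
    intro y hy
    rw [mem_roots hP0, IsRoot.def, eval_sub, eval_pow, eval_X, hy, sub_self]
  have hinj : Function.Injective φr := φr.injective
  have hsub : (insert u (Finset.univ.image φr) : Finset K).val ⊆ (X ^ p - X : K[X]).roots := by
    intro y hy
    rw [Finset.mem_val, Finset.mem_insert, Finset.mem_image] at hy
    rcases hy with rfl | ⟨n, -, rfl⟩
    · exact hroot _ hu
    · apply hroot
      rw [← map_pow, ZMod.pow_card]
  have hcard := card_le_degree_of_subset_roots hsub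
  rw [hdeg, Finset.card_insert_of_notMem, Finset.card_image_of_injective _ hinj, Finset.card_univ,
    ZMod.card] at hcard
  · omega
  · rw [Finset.mem_image]
    rintro ⟨n, -, hn⟩
    exact hcon n hn

variable {p : ℕ} [Fact p.Prime] {F : Type} [Field F] [Algebra ℚ_[p] F] [FiniteDimensional ℚ_[p] F]
  {E : Type} [Field E] [Algebra ℚ_[p] E] [FiniteDimensional ℚ_[p] E] [Algebra E F]
  [IsScalarTower ℚ_[p] E F] [IsGalois E F]
  {M : Type} [AddCommGroup M] [Module (ZMod p) M]
  {ρ : Representation (ZMod p) (F ≃ₐ[E] F) M}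

/-! ### The leading term at level `p + 1` -/

theorem not_dvd_succ : ¬ p ∣ p + 1 := by
  intro h
  have h1 : p ∣ 1 := (Nat.dvd_add_right (dvd_refl p)).1 h
  have := Nat.le_of_dvd one_pos h1
  have := (Fact.out : p.Prime).two_le
  omega

theorem crit_succ : (p - 1) * (p + 1) < p * (p ^ 2 - 1) := by
  have hp2 : 2 ≤ p := (Fact.out : p.Prime).two_le
  obtain ⟨r, hr⟩ : ∃ r, p = r + 2 := ⟨p - 2, by omega⟩
  have e1 : p - 1 = r + 1 := by omega
  have e2 : p ^ 2 - 1 = r ^ 2 + 4 * r + 3 := by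
    have : p ^ 2 = r ^ 2 + 4 * r + 4 := by rw [hr]; ring
    omega
  rw [e1, e2, hr]
  nlinarith

section Lt

variable (πu : Fˣ) (hπ : IsUniformizer p F (πu : F))
  (he : snorm p F ((p : ℕ) : F) = snorm p F (πu : F) ^ (p ^ 2 - 1))
  {f : Multiplicative M →* KumQ p F} (hf : f ∈ kumSub ρ (p + 1))

/-- The leading term `w ↦ lt_{p+1}(f w)`, an additive map. -/
def ltAdd : M →+ resF p F :=
  AddMonoidHom.mk' (fun w => ltMap p F (πu : F) (p + 1) (liftK f w)) (fun w w' => by
    obtain ⟨z, hz⟩ := liftK_add f w w'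
    rw [hz, ltMap_mul_pow hπ he (Nat.succ_pos p) not_dvd_succ crit_succ
        (mul_mem (liftK_mem_levelSub hf w) (liftK_mem_levelSub hf w')),
      ltMap_mul hπ he (Nat.succ_pos p) not_dvd_succ crit_succ (liftK_mem_levelSub hf w)
        (liftK_mem_levelSub hf w')])

theorem ltAdd_apply (w : M) :
    ltAdd πu hπ he hf w = ltMap p F (πu : F) (p + 1) (liftK f w) := rfl

theorem ltAdd_eq_zero_iff (w : M) :
    ltAdd πu hπ he hf w = 0 ↔ liftK f w ∈ levelSub p F (p + 2) :=
  ltMap_eq_zero_iff hπ he (Nat.succ_pos p) not_dvd_succ crit_succ (liftK_mem_levelSub hf w)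

/-- Galois equivariance of the leading term. -/
theorem ltAdd_galois (σ : F ≃ₐ[E] F) (w : M) :
    ltAdd πu hπ he hf (ρ σ w) =
      ((thetaX p E F σ πu : (resF p F)ˣ) : resF p F) ^ (p + 1) *
        redHom p E F σ (ltAdd πu hπ he hf w) := by
  obtain ⟨z, hz⟩ := liftK_map hf σ w
  rw [ltAdd_apply, ltAdd_apply, hz,
    ltMap_mul_pow hπ he (Nat.succ_pos p) not_dvd_succ crit_succ
      (map_mem_levelSub σ (liftK_mem_levelSub hf w)),
    ltMap_galois σ πu hπ he (Nat.succ_pos p) not_dvd_succ crit_succ (liftK_mem_levelSub hf w)]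

/-- `ltAdd` is `𝔽_p`-linear. -/
theorem ltAdd_smul (c : ZMod p) (w : M) :
    ltAdd πu hπ he hf (c • w) = algebraMap (ZMod p) (resF p F) c * ltAdd πu hπ he hf w := by
  have h := ((ltAdd πu hπ he hf).toZModLinearMap p).map_smul c w
  rw [Algebra.smul_def] at h
  exact h

/-- The Frobenius equation satisfied by the values of the leading term. -/
theorem ltAdd_frob_eq (hE : resCard p E = p) {σ : F ≃ₐ[E] F} (hσ : IsFrob p E F σ) {c : ZMod p}
    (hσc : ∀ w, ρ σ w = c • w) (w : M) :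
    ((thetaX p E F σ πu : (resF p F)ˣ) : resF p F) ^ (p + 1) * (ltAdd πu hπ he hf w) ^ p =
      algebraMap (ZMod p) (resF p F) c * ltAdd πu hπ he hf w := by
  have h1 := ltAdd_galois πu hπ he hf σ w
  rw [hσc, ltAdd_smul, (redHom_eq_resFrob_iff_isFrob p E F σ).2 hσ, resFrob_apply, hE] at h1
  exact h1.symm

/-- The image of the leading term lies in an `𝔽_p`-line. -/
theorem exists_cast_mul_eq (hE : resCard p E = p) {σ : F ≃ₐ[E] F} (hσ : IsFrob p E F σ)
    {c : ZMod p} (hσc : ∀ w, ρ σ w = c • w) (w₀ w : M) (h0 : ltAdd πu hπ he hf w₀ ≠ 0) :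
    ∃ n : ZMod p, algebraMap (ZMod p) (resF p F) n * ltAdd πu hπ he hf w₀ =
      ltAdd πu hπ he hf w := by
  set Θ : resF p F := ((thetaX p E F σ πu : (resF p F)ˣ) : resF p F) ^ (p + 1) with hΘ
  have hΘ0 : Θ ≠ 0 := pow_ne_zero _ (Units.ne_zero _)
  set x := ltAdd πu hπ he hf w with hx
  set y := ltAdd πu hπ he hf w₀ with hy
  have ex : Θ * x ^ p = algebraMap (ZMod p) (resF p F) c * x :=
    ltAdd_frob_eq πu hπ he hf hE hσ hσc w
  have ey : Θ * y ^ p = algebraMap (ZMod p) (resF p F) c * y :=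
    ltAdd_frob_eq πu hπ he hf hE hσ hσc w₀
  have hyp : y ^ p ≠ 0 := pow_ne_zero _ h0
  have hc0 : algebraMap (ZMod p) (resF p F) c ≠ 0 := by
    intro hc
    rw [hc, zero_mul] at ey
    exact mul_ne_zero hΘ0 hyp ey
  have hu : (x / y) ^ p = x / y := by
    rw [div_pow, div_eq_div_iff hyp h0]
    have h1 : Θ * (x ^ p * y) = Θ * (x * y ^ p) := by
      calc Θ * (x ^ p * y) = (Θ * x ^ p) * y := by ring
        _ = algebraMap (ZMod p) (resF p F) c * x * y := by rw [ex]
        _ = x * (algebraMap (ZMod p) (resF p F) c * y) := by ring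
        _ = x * (Θ * y ^ p) := by rw [ey]
        _ = Θ * (x * y ^ p) := by ring
    exact mul_left_cancel₀ hΘ0 h1
  obtain ⟨n, hn⟩ := exists_cast_eq_of_pow_eq (algebraMap (ZMod p) (resF p F)) hu
  exact ⟨n, by rw [hn, div_mul_cancel₀ x h0]⟩

/-- **The kernel of the leading term has index `≤ p`.** -/
theorem index_ker_ltAdd_le (hE : resCard p E = p) {σ : F ≃ₐ[E] F} (hσ : IsFrob p E F σ)
    {c : ZMod p} (hσc : ∀ w, ρ σ w = c • w) :
    (ltAdd πu hπ he hf).ker.index ≠ 0 ∧ (ltAdd πu hπ he hf).ker.index ≤ p := by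
  have hidx : (ltAdd πu hπ he hf).ker.index = (Set.range (ltAdd πu hπ he hf)).ncard := by
    rw [AddSubgroup.index_ker]
    exact Nat.card_coe_set_eq (Set.range (ltAdd πu hπ he hf))
  rw [hidx]
  have hfin : (Set.range (ltAdd πu hπ he hf)).Finite := Set.toFinite _
  constructor
  · rw [Ne, Set.ncard_eq_zero hfin]
    exact Set.Nonempty.ne_empty ⟨_, ⟨0, rfl⟩⟩
  · by_cases hall : ∀ w, ltAdd πu hπ he hf w = 0
    · have hrange : Set.range (ltAdd πu hπ he hf) = {0} := by
        ext x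
        constructor
        · rintro ⟨w, rfl⟩
          exact hall w
        · rintro rfl
          exact ⟨0, map_zero _⟩
      rw [hrange, Set.ncard_singleton]
      exact (Fact.out : p.Prime).one_lt.le
    · rw [not_forall] at hall
      obtain ⟨w₀, h0⟩ := hall
      have hsub : Set.range (ltAdd πu hπ he hf) ⊆
          Set.range (fun n : ZMod p =>
            algebraMap (ZMod p) (resF p F) n * ltAdd πu hπ he hf w₀) := by
        rintro _ ⟨w, rfl⟩
        exact exists_cast_mul_eq πu hπ he hf hE hσ hσc w₀ w h0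
      calc (Set.range (ltAdd πu hπ he hf)).ncard
          ≤ (Set.range (fun n : ZMod p =>
              algebraMap (ZMod p) (resF p F) n * ltAdd πu hπ he hf w₀)).ncard :=
            Set.ncard_le_ncard hsub (Set.toFinite _)
        _ ≤ Nat.card (ZMod p) := by
            rw [← Set.image_univ, ← Set.ncard_univ]
            exact Set.ncard_image_le (Set.toFinite _)
        _ = p := Nat.card_zmod p

end Lt

/-! ### The climb on the kernel of the leading term -/

section Climb

variable (πu : Fˣ) (hπ : IsUniformizer p F (πu : F))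
  (he : snorm p F ((p : ℕ) : F) = snorm p F (πu : F) ^ (p ^ 2 - 1))
  {f : Multiplicative M →* KumQ p F} (hf : f ∈ kumSub ρ (p + 1))
  (τ : inertia p E F) (hτ : orderOf (theta0 p E F τ) = p ^ 2 - 1)
  {a : ZMod p} (hτa : ∀ w, ρ (τ : F ≃ₐ[E] F) w = a • w)
  (φr : ZMod p →+* resF p F)
  (ha : φr a = ((theta0 p E F τ : (resF p F)ˣ) : resF p F) ^ (p + 1))

include hτ ha in
theorem aeval_theta_pow_ne_zero {m : ℕ} (h1 : p + 2 ≤ m) (h2 : m < p ^ 2 + p) :
    aeval (((theta0 p E F τ : (resF p F)ˣ) : resF p F) ^ m) (X - C a : (ZMod p)[X]) ≠ 0 := by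
  have hφ : algebraMap (ZMod p) (resF p F) = φr := Subsingleton.elim _ _
  rw [map_sub, aeval_X, aeval_C, hφ, ha, sub_ne_zero]
  apply pow_ne_pow_of_not_modEq
  rw [hτ]
  intro h
  obtain ⟨k, hk⟩ := (Nat.modEq_iff_dvd' (by omega : p + 1 ≤ m)).1 h.symm
  rcases k with _ | k
  · omega
  · have : (p ^ 2 - 1) * (k + 1) = (p ^ 2 - 1) * k + (p ^ 2 - 1) := by ring
    have hp2 : 2 ≤ p := (Fact.out : p.Prime).two_le
    have : 2 * p ≤ p ^ 2 := by nlinarith
    omega

include hτ hτa ha in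
/-- **On the kernel of the leading term the level climbs up to `p² + p`.** -/
theorem lev_of_mem_ker {m : ℕ} (h1 : p + 2 ≤ m) (h2 : m ≤ p ^ 2 + p) :
    ∀ w : M, ltAdd πu hπ he hf w = 0 → liftK f w ∈ levelSub p F m := by
  induction m, h1 using Nat.le_induction with
  | base =>
    intro w hw
    exact (ltAdd_eq_zero_iff πu hπ he hf w).1 hw
  | succ m h1 ih =>
    intro w hw
    have ih' := ih (by omega)
    -- the kernel as an `𝔽_p`-module
    set Mk : Submodule (ZMod p) M := LinearMap.ker ((ltAdd πu hπ he hf).toZModLinearMap p)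
      with hMk
    have hmem : ∀ v : M, v ∈ Mk ↔ ltAdd πu hπ he hf v = 0 := fun v => by
      rw [hMk, LinearMap.mem_ker]
      rfl
    let T : Module.End (ZMod p) Mk := a • (1 : Module.End (ZMod p) Mk)
    have hT : ∀ v : Mk, ((T v : Mk) : M) = ρ (τ : F ≃ₐ[E] F) (v : M) := by
      intro v
      rw [hτa]
      rfl
    have hQ : aeval T (X - C a : (ZMod p)[X]) = 0 := by
      rw [map_sub, aeval_X, aeval_C, Algebra.algebraMap_eq_smul_one, sub_self]
    have key := mem_levelSub_succ_of_poly (hπ := hπ) (hm := (by omega : 0 < m)) τ T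
      (fun v : Mk => liftK f (v : M))
      (fun v v' => liftK_add f (v : M) (v' : M))
      (fun v => by
        obtain ⟨z, hz⟩ := liftK_map hf (τ : F ≃ₐ[E] F) (v : M)
        exact ⟨z, by rw [hT]; exact hz⟩)
      (fun v => ih' (v : M) ((hmem _).1 v.2))
      (X - C a) hQ (aeval_theta_pow_ne_zero τ hτ φr ha h1 (by omega))
      ⟨w, (hmem w).2 hw⟩
    exact key

end Climb

/-! ### The final statement -/

/-- **(W0)**: the weight-zero part of an equivariant Kummer homomorphism of level `≥ p + 1` has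
level `≥ p² + p` on a subgroup of index `≤ p`. -/
theorem exists_index_le_lev_top (πu : Fˣ) (hπ : IsUniformizer p F (πu : F))
    (he : snorm p F ((p : ℕ) : F) = snorm p F (πu : F) ^ (p ^ 2 - 1))
    (hE : resCard p E = p)
    (τ : inertia p E F) (hτ : orderOf (theta0 p E F τ) = p ^ 2 - 1)
    {a : ZMod p} (hτa : ∀ w, ρ (τ : F ≃ₐ[E] F) w = a • w)
    (φr : ZMod p →+* resF p F)
    (ha : φr a = ((theta0 p E F τ : (resF p F)ˣ) : resF p F) ^ (p + 1))
    {σ : F ≃ₐ[E] F} (hσ : IsFrob p E F σ) {c : ZMod p} (hσc : ∀ w, ρ σ w = c • w)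
    {f : Multiplicative M →* KumQ p F} (hf : f ∈ kumSub ρ (p + 1)) :
    ∃ M' : AddSubgroup M, M'.index ≠ 0 ∧ M'.index ≤ p ∧
      (∀ w, w ∈ M' ↔ liftK f w ∈ levelSub p F (p + 2)) ∧
      ∀ w ∈ M', liftK f w ∈ levelSub p F (p ^ 2 + p) := by
  have hp2 : 2 ≤ p := (Fact.out : p.Prime).two_le
  have h2p : 2 * p ≤ p ^ 2 := by nlinarith
  obtain ⟨h1, h2⟩ := index_ker_ltAdd_le πu hπ he hf hE hσ hσc
  refine ⟨(ltAdd πu hπ he hf).ker, h1, h2, fun w => ?_, fun w hw => ?_⟩
  · rw [AddMonoidHom.mem_ker]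
    exact ltAdd_eq_zero_iff πu hπ he hf w
  · exact lev_of_mem_ker πu hπ he hf τ hτ hτa φr ha (by omega) le_rfl w
      (AddMonoidHom.mem_ker.1 hw)

end

end Fermat.Agent.TW.FLAT.WeightZero9
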