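/-
Programme T (S56), chapter FLAT, brick (F0-B) — helper9.

THE WEIGHT-ZERO PART OF A FLAT COCYCLE KILLS `Iq ∩ Gal(Ω/L)`.

`L/ℚ_p` finite Galois inside `Ω = PadicAlgCl p` with `e(L/ℚ_p) = p² - 1`, `ζ_p ∈ L`, `V = Gal(Ω/L)`;
`N₀ : Rep k (Gq p)` finite, unramified, with a Frobenius lift `φ` acting by `-1`; `g₀ ∈ Iq` whose
tame character of level `L` has order `p² - 1` and satisfies `θ_L(g₀)^(p+1) = ω(g₀)`.  If `c` is a
level cocycle all of whose characters `ν ∘ c` have Kummer level `≥ p + 1`, and level `≥ p + 2`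
for those `ν` which are injective on `c(V)` (`hfine`), then `c` vanishes on `V`
(**`eq_zero_on_fixing`**), in particular on `Iq ∩ V` (**`eq_zero_on_inertia`**).

Ingredients:
* `comm_mem_Iq` : commutators `φ v φ⁻¹ v⁻¹` with a Frobenius lift lie in `Iq`;
* `cocycle_comm` : `c (φ v φ⁻¹ v⁻¹) = ρ(φ)(c v) - c v` for `v ∈ V`;
* `kumF`, `mem_levelSub_iff_kumLe` : dictionary between `LLCount9.levelSub` (unit side) and
  `KummerDict3.KumLe` (norm side) for the Kummer map of a cocycle;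
* `unifNorm_pow_top` : `ϖ_L ^ (p² + p) = ‖ζ - 1‖ ^ p`; `eq_zero_of_kumLe_top` : top level
  characters kill `Iq ∩ V` (`KummerTop0.eq_of_mem_Iq_of_top`);
* `WeightZero9.exists_index_le_lev_top` (W0).
-/
import Mathlib
import Fermat.Agent.TW.FLAT.LLFinal3
import Fermat.Agent.TW.FLAT.WeightZero9
import Fermat.Agent.TW.FLAT.KummerTop0

set_option autoImplicit false
set_option linter.unusedSectionVars false
set_option linter.style.haveILetI false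

open groupCohomology Polynomial
open scoped Fermat.Agent.PT.LOC.Interface12 Fermat.Agent.PT.LOC.StructureTower27
open Fermat.Agent.PT.LOC.Interface12 Fermat.Agent.PT.LOC.Structure14
  Fermat.Agent.PT.LOC.Unram11 Fermat.Agent.TW.LOC.TameInertia4
open Fermat.Agent.PT.PRO.LevelCoh28 Fermat.Agent.PT.GLUE.Objects21
open Fermat.Agent.TW.LOC.Defs2 Fermat.Agent.TW.LOC.TameProfinite4
open Fermat.Agent.TW.FLAT.KummerDict3 Fermat.Agent.TW.FLAT.InfRes3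
open Fermat.Agent.TW.FLAT.UnitFil9 Fermat.Agent.TW.FLAT.KummerLevel9
  Fermat.Agent.TW.FLAT.LLCoh3 Fermat.Agent.TW.FLAT.LLCount9 Fermat.Agent.TW.FLAT.LLFinal3
  Fermat.Agent.TW.FLAT.WeightZero9

namespace Fermat.Agent.TW.FLAT.WeightZeroKill9

noncomputable section

variable {p : ℕ} [Fact p.Prime]

/-! ### Commutators with a Frobenius lift -/

theorem apply_inv_apply (g : Gq p) (x : PadicAlgCl p) : g (g⁻¹ x) = x := by
  rw [← AlgEquiv.mul_apply, mul_inv_cancel, AlgEquiv.one_apply]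

/-- Commutators `φ v φ⁻¹ v⁻¹` with a Frobenius lift lie in the inertia group. -/
theorem comm_mem_Iq {φ : Gq p} (hφ : IsFrobLift p φ) (v : Gq p) :
    φ * v * φ⁻¹ * v⁻¹ ∈ Iq p := by
  rw [mem_Iq_iff_norm]
  intro x hx
  set y : PadicAlgCl p := v⁻¹ x with hy
  set w : PadicAlgCl p := φ⁻¹ y with hw
  have hy1 : ‖y‖ ≤ 1 := by rw [hy, norm_galois]; exact hx
  have hw1 : ‖w‖ ≤ 1 := by rw [hw, norm_galois]; exact hy1
  have hφw : φ w = y := apply_inv_apply φ y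
  have hvy : v y = x := apply_inv_apply v x
  have h1 : ‖y - w ^ p‖ < 1 := by
    have := hφ w hw1
    rwa [hφw] at this
  have hvw1 : ‖v w‖ ≤ 1 := by rw [norm_galois]; exact hw1
  have h2 : ‖φ (v w) - (v w) ^ p‖ < 1 := hφ (v w) hvw1
  have h3 : (φ * v * φ⁻¹ * v⁻¹) x = φ (v w) := by
    simp only [AlgEquiv.mul_apply, hw, hy]
  have h4 : φ (v w) - x = (φ (v w) - (v w) ^ p) - v (y - w ^ p) := by
    rw [map_sub, map_pow, hvy]
    ring
  rw [h3, h4]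
  refine lt_of_le_of_lt (norm_sub_le_max' p _ _) (max_lt h2 ?_)
  rw [norm_galois]
  exact h1

/-! ### Cocycles on commutators -/

section Coc

variable {k : Type} [Field k] {N₀ : Rep.{0} k (Gq p)}

theorem cocycle_comm {c : Gq p → N₀} (hc : c ∈ cocycles₁ N₀) {V : Subgroup (Gq p)} [hn : V.Normal]
    (htriv : ∀ v ∈ V, N₀.ρ v = 1) (g : Gq p) {v : Gq p} (hv : v ∈ V) :
    c (g * v * g⁻¹ * v⁻¹) = N₀.ρ g (c v) - c v := by
  have hconj : g * v * g⁻¹ ∈ V := hn.conj_mem v hv g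
  rw [restrict_mul hc htriv hconj, restrict_conj hc htriv g hv, restrict_inv hc htriv hv,
    sub_eq_add_neg]

end Coc

/-! ### The dictionary `levelSub` ↔ `KumLe` -/

section Bridge

variable {k : Type} [Field k]
variable {L : IntermediateField ℚ_[p] (PadicAlgCl p)} [FiniteDimensional ℚ_[p] L]
  [IsGalois ℚ_[p] L] {ζ : PadicAlgCl p} {ω : Gq p →* (ZMod p)ˣ} {N₀ : Rep.{0} k (Gq p)}

/-- The Kummer map of a level cocycle, with target the `KumQ` of `LLCount9`. -/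
def kumF (D : KData L ζ ω N₀) {c : Gq p → N₀} (hc : c ∈ Z1 (levelLoc p) N₀) :
    Multiplicative (Dual N₀) →* KumQ p ↥L :=
  kumHomOf D hc

theorem kmk_liftK_kumF (D : KData L ζ ω N₀) {c : Gq p → N₀} (hc : c ∈ Z1 (levelLoc p) N₀)
    (ν : Dual N₀) :
    kmk p ↥L (liftK (kumF D hc) ν) = kumClass L ζ (chiOf c ν) :=
  kmk_liftK (kumF D hc) ν

theorem kumF_mem_kumSub (D : KData L ζ ω N₀) {c : Gq p → N₀} (hc : c ∈ Z1 (levelLoc p) N₀)
    {m0 : ℕ} (hm0 : 0 < m0)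
    (hlev : ∀ ν : Dual N₀, KumLe L ζ (unifNorm p ↥L ^ m0) (chiOf c ν)) :
    kumF D hc ∈ kumSub (dualTwL N₀ ω L D.htriv D.hω) m0 :=
  (toKumHom L (dualTwL N₀ ω L D.htriv D.hω) m0 (kumHomSetOf D hc hm0 hlev)).2

/-- **Dictionary**: the chosen lift of the Kummer class of `ν ∘ c` has level `≥ m` on the unit side
iff `ν ∘ c` has Kummer level `≤ ϖ_L ^ m` in norm language. -/
theorem mem_levelSub_iff_kumLe (D : KData L ζ ω N₀) {c : Gq p → N₀}
    (hc : c ∈ Z1 (levelLoc p) N₀) {m : ℕ} (hm : 0 < m) (ν : Dual N₀) :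
    liftK (kumF D hc) ν ∈ levelSub p ↥L m ↔ KumLe L ζ (unifNorm p ↥L ^ m) (chiOf c ν) := by
  constructor
  · intro h
    obtain ⟨y, hy⟩ := exists_isKum_chiOf D hc ν
    have h1 := kmk_liftK_kumF D hc ν
    rw [kumClass_eq D.hζ hy] at h1
    obtain ⟨z, hz⟩ := exists_eq_mul_pow_of_kmk_eq h1
    obtain ⟨w, hw0, hw⟩ := (mem_levelSub_iff_snorm hm).1 h
    have hz' : y ^ p = (((liftK (kumF D hc) ν : (↥L)ˣ) : ↥L) : PadicAlgCl p) *
        (((z : (↥L)ˣ) : ↥L) : PadicAlgCl p) ^ p := by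
      have := congrArg (fun u : (↥L)ˣ => (((u : ↥L)) : PadicAlgCl p)) hz
      simpa using this
    have hz0 : (((z : (↥L)ˣ) : ↥L) : PadicAlgCl p) ≠ 0 := fun h0 => z.ne_zero (Subtype.ext h0)
    refine ⟨y, hy, (((z : (↥L)ˣ) : ↥L) : PadicAlgCl p)⁻¹ * (w : PadicAlgCl p),
      mul_mem (inv_mem (z : ↥L).2) w.2, mul_ne_zero (inv_ne_zero hz0)
        (fun h0 => hw0 (Subtype.ext h0)), ?_⟩
    rw [snorm_eq_norm] at hw
    have e : y ^ p * ((((z : (↥L)ˣ) : ↥L) : PadicAlgCl p)⁻¹ * (w : PadicAlgCl p)) ^ p - 1 =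
        (((((liftK (kumF D hc) ν : (↥L)ˣ) : ↥L) * w ^ p - 1 : ↥L)) : PadicAlgCl p) := by
      have hzz : (((z : (↥L)ˣ) : ↥L) : PadicAlgCl p) ^ p *
          ((((z : (↥L)ˣ) : ↥L) : PadicAlgCl p)⁻¹ * (w : PadicAlgCl p)) ^ p =
          (w : PadicAlgCl p) ^ p := by
        rw [← mul_pow, mul_inv_cancel_left₀ hz0]
      rw [hz', mul_assoc, hzz]
      push_cast
      rfl
    rw [e]
    exact hw
  · intro h
    obtain ⟨u, hu, hcl⟩ := h.exists_unitFil D.hζ hm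
    have h1 : kmk p ↥L u = kmk p ↥L (liftK (kumF D hc) ν) := by
      rw [kmk_liftK_kumF, hcl]
      rfl
    obtain ⟨z, hz⟩ := exists_eq_mul_pow_of_kmk_eq h1
    exact mem_levelSub_iff.2 ⟨u, hu, z, hz⟩

end Bridge

/-! ### Top level characters are unramified -/

section Top

variable {L : IntermediateField ℚ_[p] (PadicAlgCl p)} [FiniteDimensional ℚ_[p] L]
  [IsGalois ℚ_[p] L] {ζ : PadicAlgCl p}

theorem isPrimitiveRoot_of_ne_one (hζ : ζ ^ p = 1) (hne : ζ ≠ 1) : IsPrimitiveRoot ζ p := by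
  have hord : orderOf ζ = p := orderOf_eq_prime hζ hne
  have := IsPrimitiveRoot.orderOf ζ
  rwa [hord] at this

/-- `‖ζ - 1‖ = ϖ_L ^ (p + 1)` when `e(L/ℚ_p) = p² - 1`. -/
theorem norm_zeta_sub_one_eq (hζ : IsPrimitiveRoot ζ p) (πu : (↥L)ˣ)
    (hπ : IsUniformizer p ↥L (πu : ↥L))
    (he : snorm p ↥L ((p : ℕ) : ↥L) = snorm p ↥L (πu : ↥L) ^ (p ^ 2 - 1)) :
    ‖ζ - 1‖ = unifNorm p ↥L ^ (p + 1) := by
  have hp : p.Prime := Fact.out
  have hp2 : 2 ≤ p := hp.two_le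
  have hsq : p ^ 2 - 1 = (p + 1) * (p - 1) := by
    obtain ⟨n, rfl⟩ : ∃ n, p = n + 2 := ⟨p - 2, by omega⟩
    have h1 : (n + 2) ^ 2 = (n + 2 + 1) * (n + 1) + 1 := by ring
    rw [h1]
    simp
  have h1 := KummerTop0.norm_natCast_eq hp hζ
  have h2 : ‖((p : ℕ) : PadicAlgCl p)‖ = unifNorm p ↥L ^ (p ^ 2 - 1) := by
    rw [← snorm_uniformizer hπ, ← he, snorm_eq_norm]
    push_cast
    rfl
  rw [h2, hsq, pow_mul] at h1
  exact ((pow_left_inj₀ (pow_nonneg unifNorm_pos.le _) (norm_nonneg _) (by omega)).1 h1).symm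

theorem unifNorm_pow_top (hζ : IsPrimitiveRoot ζ p) (πu : (↥L)ˣ)
    (hπ : IsUniformizer p ↥L (πu : ↥L))
    (he : snorm p ↥L ((p : ℕ) : ↥L) = snorm p ↥L (πu : ↥L) ^ (p ^ 2 - 1)) :
    unifNorm p ↥L ^ (p ^ 2 + p) = ‖ζ - 1‖ ^ p := by
  rw [norm_zeta_sub_one_eq hζ πu hπ he, ← pow_mul]
  congr 1
  ring

/-- **Top level characters kill `Iq ∩ Gal(Ω/L)`.** -/
theorem eq_zero_of_kumLe_top (hζ : ζ ^ p = 1) (hne : ζ ≠ 1) (hζL : ζ ∈ L) (πu : (↥L)ˣ)
    (hπ : IsUniformizer p ↥L (πu : ↥L))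
    (he : snorm p ↥L ((p : ℕ) : ↥L) = snorm p ↥L (πu : ↥L) ^ (p ^ 2 - 1))
    {χ : Gq p → ZMod p} (h : KumLe L ζ (unifNorm p ↥L ^ (p ^ 2 + p)) χ) :
    ∀ τ ∈ Iq p, τ ∈ L.fixingSubgroup → χ τ = 0 := by
  intro τ hτ hτV
  have hprim := isPrimitiveRoot_of_ne_one hζ hne
  obtain ⟨y, hy, w, hw, hw0, hle⟩ := h
  rw [unifNorm_pow_top hprim πu hπ he] at hle
  have h1 := KummerTop0.eq_of_mem_Iq_of_top p ζ hprim y w hw0 hle τ hτ
    (fixed_of_mem L hζL τ hτV) (fixed_of_mem L hw τ hτV) (χ τ).val (hy.2 τ hτV)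
  have h2 := hy.2 τ hτV
  rw [h1] at h2
  have h3 : ζ ^ (χ τ).val = 1 := by
    have : (ζ ^ (χ τ).val - 1) * y = 0 := by rw [sub_mul, one_mul, ← h2, sub_self]
    rcases mul_eq_zero.1 this with h3 | h3
    · exact sub_eq_zero.1 h3
    · exact absurd h3 hy.1
  exact (zpw_eq_one_iff hζ hne _).1 h3

end Top

/-! ### The main statement -/

section Main

variable {k : Type} [Field k] [Finite k] [CharP k p]

theorem two_ne_zero_zmod (hp2 : p ≠ 2) : (2 : ZMod p) ≠ 0 := by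
  intro h
  have h1 : ((2 : ℕ) : ZMod p) = 0 := by exact_mod_cast h
  rw [ZMod.natCast_eq_zero_iff] at h1
  have h2 := Nat.le_of_dvd (by norm_num) h1
  have h3 := (Fact.out : p.Prime).two_le
  omega

/-- **(F0-B), strong form**: the cocycle vanishes on all of `Gal(Ω/L)`. -/
theorem eq_zero_on_fixing (hp2 : p ≠ 2)
    (L : IntermediateField ℚ_[p] (PadicAlgCl p)) [FiniteDimensional ℚ_[p] L] [IsGalois ℚ_[p] L]
    {ζ : PadicAlgCl p} {ω : Gq p →* (ZMod p)ˣ} {N₀ : Rep.{0} k (Gq p)} [Finite N₀]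
    (D : KData L ζ ω N₀)
    (πu : (↥L)ˣ) (hπ : IsUniformizer p ↥L (πu : ↥L))
    (he : snorm p ↥L ((p : ℕ) : ↥L) = snorm p ↥L (πu : ↥L) ^ (p ^ 2 - 1))
    (g₀ : Gq p) (hg₀ : g₀ ∈ Iq p) (hord : orderOf (thetaL p L ⟨g₀, hg₀⟩) = p ^ 2 - 1)
    (φr : ZMod p →+* resF p ↥L)
    (hφb : φr ((ω g₀ : (ZMod p)ˣ) : ZMod p) =
      ((thetaL p L ⟨g₀, hg₀⟩ : (resF p ↥L)ˣ) : resF p ↥L) ^ (p + 1))
    (hur : ∀ σ ∈ Iq p, N₀.ρ σ = 1) (φ : Gq p) (hφ : IsFrobLift p φ)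
    (hφN : ∀ n : N₀, N₀.ρ φ n = -n)
    {c : Gq p → N₀} (hc : c ∈ Z1 (levelLoc p) N₀)
    (hlev : ∀ ν : Dual N₀, KumLe L ζ (unifNorm p ↥L ^ (p + 1)) (chiOf c ν))
    (hfine : ∀ ν : Dual N₀, (∀ σ ∈ L.fixingSubgroup, ν (c σ) = 0 → c σ = 0) →
      KumLe L ζ (unifNorm p ↥L ^ (p + 2)) (chiOf c ν)) :
    ∀ σ ∈ L.fixingSubgroup, c σ = 0 := by
  classical
  have hp : p.Prime := Fact.out
  set ρ := dualTwL N₀ ω L D.htriv D.hω with hρ
  have hf : kumF D hc ∈ kumSub ρ (p + 1) := kumF_mem_kumSub D hc (Nat.succ_pos p) hlev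
  -- the inertia generator acts on the twisted dual by the scalar `ω(g₀)`
  have hτa : ∀ ν : Dual N₀,
      ρ ((resI p L ⟨g₀, hg₀⟩ : inertia p ℚ_[p] ↥L) : ↥L ≃ₐ[ℚ_[p]] ↥L) ν =
        ((ω g₀ : (ZMod p)ˣ) : ZMod p) • ν := by
    intro ν
    rw [coe_resI, hρ, dualTwL_resL]
    ext n
    rw [dualTw_apply, hur g₀⁻¹ (inv_mem hg₀)]
    rfl
  -- the Frobenius acts by the scalar `-ω(φ)`
  have hinv : ∀ n : N₀, N₀.ρ φ⁻¹ n = -n := by
    intro n
    have h1 := hφN (-n)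
    rw [neg_neg] at h1
    calc N₀.ρ φ⁻¹ n = N₀.ρ φ⁻¹ (N₀.ρ φ (-n)) := by rw [h1]
      _ = -n := by
        rw [← Module.End.mul_apply, ← map_mul, inv_mul_cancel, map_one, Module.End.one_apply]
  have hσc : ∀ ν : Dual N₀, ρ (resL p L φ) ν = (-((ω φ : (ZMod p)ˣ) : ZMod p)) • ν := by
    intro ν
    rw [hρ, dualTwL_resL]
    ext n
    rw [dualTw_apply, hinv, map_neg, AddMonoidHom.smul_apply, smul_eq_mul]
    ring
  obtain ⟨M', hM0, hMp, hMiff, hMtop⟩ := exists_index_le_lev_top (ρ := ρ) πu hπ he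
    (resCard_padic p) (resI p L ⟨g₀, hg₀⟩) hord hτa φr hφb (isFrob_resL p L hφ) hσc hf
  have hpp : 0 < p ^ 2 + p := Nat.add_pos_right _ hp.pos
  -- the characters in `M'` kill `V`
  have hkill : ∀ ν ∈ M', ∀ v ∈ L.fixingSubgroup, ν (c v) = 0 := by
    intro ν hν v hv
    have htop : KumLe L ζ (unifNorm p ↥L ^ (p ^ 2 + p)) (chiOf c ν) :=
      (mem_levelSub_iff_kumLe D hc hpp ν).1 (hMtop ν hν)
    have hI := eq_zero_of_kumLe_top D.hζ D.hne D.hζL πu hπ he htop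
    have hconj : φ * v * φ⁻¹ ∈ L.fixingSubgroup :=
      (fixingSubgroup_normal (L := L)).conj_mem v hv φ
    have hcomm := hI _ (comm_mem_Iq hφ v) (mul_mem hconj (inv_mem hv))
    change ν (c (φ * v * φ⁻¹ * v⁻¹)) = 0 at hcomm
    rw [cocycle_comm hc.1 D.htriv φ hv, hφN, map_sub, map_neg] at hcomm
    have h2 : (2 : ZMod p) * ν (c v) = 0 := by linear_combination -hcomm
    exact (mul_eq_zero.1 h2).resolve_left (two_ne_zero_zmod hp2)
  intro σ₀ hσ₀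
  by_contra hne0
  obtain ⟨ν₀, hν₀⟩ : ∃ ν₀ : Dual N₀, ν₀ (c σ₀) ≠ 0 := by
    by_contra hall
    push Not at hall
    exact hne0 (eq_zero_of_forall_dual (k := k) (p := p) _ hall)
  -- the annihilator of `c(V)`
  let A : AddSubgroup (Dual N₀) :=
    { carrier := {ν | ∀ v ∈ L.fixingSubgroup, ν (c v) = 0}
      zero_mem' := fun v _ => rfl
      add_mem' := fun {a b} ha hb v hv => by
        rw [AddMonoidHom.add_apply, ha v hv, hb v hv, add_zero]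
      neg_mem' := fun {a} ha v hv => by rw [AddMonoidHom.neg_apply, ha v hv, neg_zero] }
  have hMA : M' ≤ A := fun ν hν => hkill ν hν
  have hν₀A : ν₀ ∉ A := fun h => hν₀ (h σ₀ hσ₀)
  haveI : Module.Finite (ZMod p) (Dual N₀) := Module.Finite.of_finite
  have hcard : Nat.card (Dual N₀) = p ^ Module.finrank (ZMod p) (Dual N₀) := by
    have := Module.natCard_eq_pow_finrank (K := ZMod p) (V := Dual N₀)
    rwa [Nat.card_zmod] at this
  have hAidx : A.index = p := by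
    have h1 : A.index ∣ M'.index := AddSubgroup.index_dvd_of_le hMA
    have h2 : A.index ≤ p := (Nat.le_of_dvd (Nat.pos_of_ne_zero hM0) h1).trans hMp
    have h3 : A.index ∣ p ^ Module.finrank (ZMod p) (Dual N₀) := hcard ▸ A.index_dvd_card
    obtain ⟨i, -, hAi⟩ := (Nat.dvd_prime_pow hp).1 h3
    have h4 : A.index ≠ 1 := fun h => hν₀A ((AddSubgroup.index_eq_one.1 h) ▸ AddSubgroup.mem_top ν₀)
    rcases i with _ | _ | i
    · rw [pow_zero] at hAi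
      exact absurd hAi h4
    · rw [hAi, pow_one]
    · exfalso
      rw [hAi] at h2
      have h5 : p ^ 1 < p ^ (i + 1 + 1) := Nat.pow_lt_pow_right hp.one_lt (by omega)
      rw [pow_one] at h5
      omega
  -- `ν₀` is injective on `c(V)`
  have hinj : ∀ σ ∈ L.fixingSubgroup, ν₀ (c σ) = 0 → c σ = 0 := by
    intro σ hσ hνσ
    let B : AddSubgroup (Dual N₀) :=
      { carrier := {ν | ν (c σ) = 0}
        zero_mem' := rfl
        add_mem' := fun {a b} ha hb => by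
          change (a + b) (c σ) = 0
          rw [AddMonoidHom.add_apply, ha, hb, add_zero]
        neg_mem' := fun {a} ha => by
          change (-a) (c σ) = 0
          rw [AddMonoidHom.neg_apply, ha, neg_zero] }
    have hAB : A ≤ B := fun ν hν => hν σ hσ
    have hν₀B : ν₀ ∈ B := hνσ
    have h1 : A.relIndex B * B.index = p := by rw [AddSubgroup.relIndex_mul_index hAB, hAidx]
    have h2 : B.index = 1 := by
      rcases (Nat.dvd_prime hp).1 (Dvd.intro_left _ h1) with h | h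
      · exact h
      · exfalso
        rw [h] at h1
        have h3 : A.relIndex B = 1 := by
          have := Nat.eq_of_mul_eq_mul_right hp.pos (h1.trans (one_mul p).symm)
          exact this
        exact hν₀A (AddSubgroup.relIndex_eq_one.1 h3 hν₀B)
    have hB : B = ⊤ := AddSubgroup.index_eq_one.1 h2
    apply eq_zero_of_forall_dual (k := k) (p := p)
    intro ν
    have hνB : ν ∈ B := hB ▸ AddSubgroup.mem_top ν
    exact hνB
  have hfin := hfine ν₀ hinj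
  have hν₀M : ν₀ ∈ M' :=
    (hMiff ν₀).2 ((mem_levelSub_iff_kumLe D hc (by omega) ν₀).2 hfin)
  exact hν₀A (hMA hν₀M)

/-- **(F0-B)**: the weight-zero part of a flat cocycle kills `Iq ∩ Gal(Ω/L)`. -/
theorem eq_zero_on_inertia (hp2 : p ≠ 2)
    (L : IntermediateField ℚ_[p] (PadicAlgCl p)) [FiniteDimensional ℚ_[p] L] [IsGalois ℚ_[p] L]
    {ζ : PadicAlgCl p} {ω : Gq p →* (ZMod p)ˣ} {N₀ : Rep.{0} k (Gq p)} [Finite N₀]
    (D : KData L ζ ω N₀)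
    (πu : (↥L)ˣ) (hπ : IsUniformizer p ↥L (πu : ↥L))
    (he : snorm p ↥L ((p : ℕ) : ↥L) = snorm p ↥L (πu : ↥L) ^ (p ^ 2 - 1))
    (g₀ : Gq p) (hg₀ : g₀ ∈ Iq p) (hord : orderOf (thetaL p L ⟨g₀, hg₀⟩) = p ^ 2 - 1)
    (φr : ZMod p →+* resF p ↥L)
    (hφb : φr ((ω g₀ : (ZMod p)ˣ) : ZMod p) =
      ((thetaL p L ⟨g₀, hg₀⟩ : (resF p ↥L)ˣ) : resF p ↥L) ^ (p + 1))
    (hur : ∀ σ ∈ Iq p, N₀.ρ σ = 1) (φ : Gq p) (hφ : IsFrobLift p φ)
    (hφN : ∀ n : N₀, N₀.ρ φ n = -n)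
    {c : Gq p → N₀} (hc : c ∈ Z1 (levelLoc p) N₀)
    (hlev : ∀ ν : Dual N₀, KumLe L ζ (unifNorm p ↥L ^ (p + 1)) (chiOf c ν))
    (hfine : ∀ ν : Dual N₀, (∀ σ ∈ L.fixingSubgroup, ν (c σ) = 0 → c σ = 0) →
      KumLe L ζ (unifNorm p ↥L ^ (p + 2)) (chiOf c ν)) :
    ∀ σ ∈ Iq p, σ ∈ L.fixingSubgroup → c σ = 0 :=
  fun σ _ hσ => eq_zero_on_fixing hp2 L D πu hπ he g₀ hg₀ hord φr hφb hur φ hφ hφN hc hlev hfine
    σ hσ

end Main

end

end Fermat.Agent.TW.FLAT.WeightZeroKill9
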