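/-
Programme T (S56), chapter FLAT, brick (F0-C), final form — helper3.

**`h11_of_levels`**: for `S : LLStruct p rbar`, `P' ρ̄(g₀) P = diag(l, m)` and a level cocycle `c`
of `ad⁰ ρ̄`, if all `μ ∘ c₀₀` (`c₀₀ := (P' c P)₀₀`, `μ : k →+ 𝔽_p`) have Kummer level `≥ p+1`, and
level `≥ p+2` for those `μ` which are injective on `c₀₀(Gal(Ω/L))`, then `c₀₀ = 0` on
`Iq ∩ Gal(Ω/L)`: hypothesis `h11` of `EntryBridgeSelf3.mem_LpLL_of_entries_self`.

Combines `WeightZeroAd3` (transport to `N₀`) with helper9's `WeightZeroKill9.eq_zero_on_inertia`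
and the existence of a Frobenius lift (`UnramGq4.exists_isFrobLift`).
-/
import Mathlib
import Fermat.Agent.TW.FLAT.WeightZeroAd3
import Fermat.Agent.TW.FLAT.WeightZeroKill9
import Fermat.Agent.TW.LOC.UnramGq4

set_option autoImplicit false
set_option linter.unusedSectionVars false

open groupCohomology
open scoped Fermat.Agent.PT.LOC.Interface12 Fermat.Agent.PT.LOC.StructureTower27
open Fermat.Agent.PT.LOC.Interface12 Fermat.Agent.PT.LOC.Structure14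
  Fermat.Agent.PT.LOC.Unram11 Fermat.Agent.TW.LOC.TameInertia4
open Fermat.Agent.PT.PRO.LevelCoh28 Fermat.Agent.PT.GLUE.Objects21
open Fermat.Agent.TW.LOC.Defs2 Fermat.Agent.TW.LOC.TameProfinite4
open Fermat.Agent.TW.FLAT.KummerDict3 Fermat.Agent.TW.FLAT.InfRes3
open Fermat.Agent.TW.FLAT.UnitFil9 Fermat.Agent.TW.FLAT.LLCoh3 Fermat.Agent.TW.FLAT.LLFinal3
open Fermat.Agent.TW.FLAT.AdWeights3 Fermat.Agent.TW.FLAT.LLAd3 Fermat.Agent.TW.FLAT.LLPackage3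
open Fermat.Agent.TW.FLAT.EntryBridge3 Fermat.Agent.TW.FLAT.EntryBridgeSelf3
open Fermat.Agent.TW.FLAT.FrobSwap3 Fermat.Agent.TW.FLAT.WeightZeroAd3
open Fermat.Agent.TW.DEF.Basic1 (GQ M2 Mq Hq1 ad0Rep ad0Val ad0Val_injective rbar_mul_inv
  rbar_inv_mul trace_ad0Val sl2 mem_sl2_iff finrank_sl2)

namespace Fermat.Agent.TW.FLAT.WeightZeroFinal3

variable {p : ℕ} [Fact p.Prime] {k : Type} [Field k] [CharP k p] [Finite k]
  {rbar : GQ →* M2 k} (S : LLStruct p rbar) {P P' : M2 k} {l m : k}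

/-- **(F0-C)**: the weight-zero entry of a cocycle with the flat level conditions vanishes on
`Iq ∩ Gal(Ω/L)`. -/
theorem h11_of_levels (hp2 : p ≠ 2) (hPP' : P * P' = 1) (hP'P : P' * P = 1)
    (hdiag : P' * rbar (rq p S.g₀) * P = Matrix.diagonal ![l, m])
    (c : ↥(Z1 (levelLoc p) (Mq (ad0Rep rbar) p)))
    (hlev : ∀ μ : k →+ ZMod p, KumLe S.L S.ζ (unifNorm p ↥S.L ^ (p + 1))
      (fun g => μ ((P' * ad0Val rbar ((c : Gq p → Mq (ad0Rep rbar) p) g) * P) 0 0)))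
    (hfine : ∀ μ : k →+ ZMod p,
      (∀ σ ∈ S.L.fixingSubgroup,
        μ ((P' * ad0Val rbar ((c : Gq p → Mq (ad0Rep rbar) p) σ) * P) 0 0) = 0 →
          (P' * ad0Val rbar ((c : Gq p → Mq (ad0Rep rbar) p) σ) * P) 0 0 = 0) →
      KumLe S.L S.ζ (unifNorm p ↥S.L ^ (p + 2))
        (fun g => μ ((P' * ad0Val rbar ((c : Gq p → Mq (ad0Rep rbar) p) g) * P) 0 0))) :
    ∀ σ ∈ Iq p, σ ∈ S.L.fixingSubgroup →
      (P' * ad0Val rbar ((c : Gq p → Mq (ad0Rep rbar) p) σ) * P) 0 0 = 0 := by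
  haveI : Finite (Mq (ad0Rep rbar) p) := by
    have : Finite ↥(sl2 k) := inferInstance
    exact this
  obtain ⟨φ, hφ⟩ := Fermat.Agent.TW.LOC.UnramGq4.exists_isFrobLift (q := p)
  refine h11_of_levels_of_kill S c hp2 hPP' hP'P hdiag (fun hl hf => ?_) hlev hfine
  exact Fermat.Agent.TW.FLAT.WeightZeroKill9.eq_zero_on_inertia hp2 S.L (N0_kdata S) S.πu S.hπ
    S.he S.g₀ S.hg₀ S.hord S.φ (by rw [S.hω]; exact S.hφb) (N0_ur S) φ hφ
    (N0_frob S hp2 hPP' hP'P hdiag hφ) (pr0_comp_mem_Z1 S c) hl hf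

end Fermat.Agent.TW.FLAT.WeightZeroFinal3
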