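/-
Programme T (S56), chapter FLAT — helper3.

**(LOC-FL), local-local case: assembly.**  `exists_Lp_ll_of`: in the shape of helper7's
`OrdLocal7.exists_Lp_ord`, given
* `hsplit`: the characteristic polynomials of `ρ̄(g)`, `g ∈ G_p`, split over `k` (S56's `hsplit`);
* `hstruct`: if a flat lift of `ρ̄` to the dual numbers exists, then `ρ̄|G_p` has the local-local
  structure `LLStruct p rbar` (helper2's (S-STRUCT)),
there is a subspace `Lp ≤ H¹(ℚ_p, ad⁰ ρ̄)` with `#Lp ≤ #k · #H⁰(ℚ_p, ad⁰ ρ̄)` containing the classes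
of all flat lifts: `Lp := LpLL S`, membership by lead's `FlatCondLL0` ((F1'), levels of all entries),
`WeightZeroFinal3.h11_of_levels` ((F0')) and `EntryBridgeSelf3.mem_LpLL_of_entries_self`.

**`exists_Lp_ll_loc`, `exists_Lp_ll`**: the unconditional statements, with `hstruct` discharged by
helper2's `LLStruct2.nonempty_llStruct` and helper4's `LLDiag4.hasFlatModel_rbar_of_lift`.
-/
import Mathlib
import Fermat.Agent.TW.FLAT.WeightZeroFinal3
import Fermat.Agent.TW.FLAT.DiagSplit3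
import Fermat.Agent.TW.FLAT.FlatCondLL0
import Fermat.Agent.TW.FLAT.FlatLift7
import Fermat.Agent.TW.FLAT.LLStruct2
import Fermat.Agent.TW.FLAT.LLDiag4

set_option autoImplicit false
set_option linter.unusedSectionVars false
set_option linter.style.haveILetI false

open groupCohomology Polynomial
open Fermat.Agent.PT.PRO.LevelCoh28 Fermat.Agent.PT.GLUE.Objects21
open Fermat.Agent.TW.LOC.Defs2
open Fermat.Agent.TW.DEF.Basic1 (GQ M2 Mq Hq1 HS1 ad0Rep ad0Val ad0Val_injective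
  trace_ad0Val rbar_mul_inv rbar_inv_mul mem_sl2_iff sl2 resq1 resZ1 resZ1_apply resq1_mk'
  isLevelHom_rq)
open Fermat.Agent.TW.DEF.LiftCocycle1
open Fermat.Agent.TW.FLAT.Points6 (HasFlatModel)
open Fermat.Agent.TW.FLAT.KummerDict3 Fermat.Agent.TW.FLAT.UnitFil9
open Fermat.Agent.TW.FLAT.LLPackage3 Fermat.Agent.TW.FLAT.EntryBridgeSelf3
open Fermat.Agent.TW.FLAT.DiagSplit3 Fermat.Agent.TW.FLAT.WeightZeroFinal3
open Fermat.Agent.TW.FLAT.FlatCondLL0
open Fermat.Agent.S53 (MatCont ofMatrix)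

namespace Fermat.Agent.TW.FLAT.LLLocal3

noncomputable section

variable {p : ℕ} [Fact p.Prime] {k : Type} [Field k] [Finite k] [CharP k p]

/-- The class at `p` of a flat lift lies in `LpLL S`. -/
theorem resq1_liftClass_mem_LpLL (hp2 : p ≠ 2) {rbar : GQ →* M2 k} (S : LLStruct p rbar)
    {P P' : M2 k} {l m : k} (hPP' : P * P' = 1) (hP'P : P' * P = 1)
    (hdiag : P' * rbar (rq p S.g₀) * P = Matrix.diagonal ![l, m])
    (Sg : Finset Nat.Primes) (r : GQ →* M2 (DualNumber k)) (hr : MatCont r)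
    (h : IsLiftOf rbar r) (hfl : (ofMatrix r hr).IsFlatAt p)
    (hlev : ∃ U ∈ (levelS Sg).sets, ∀ s ∈ U, r s = 1)
    (htr : ∀ σ, (liftCocycle rbar r σ).trace = 0) :
    resq1 Sg (ad0Rep rbar) p (liftClass Sg h hlev htr) ∈ LpLL S := by
  haveI hfinD : Finite (DualNumber k) := show Finite (k × k) from inferInstance
  set c₀ : ↥(Z1 (levelLoc p) (Mq (ad0Rep rbar) p)) :=
    resZ1 Sg (ad0Rep rbar) p ⟨liftCocycle0 rbar r htr, liftCocycle0_mem_Z1 Sg h hlev htr⟩ with hc₀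
  have hclass : resq1 Sg (ad0Rep rbar) p (liftClass Sg h hlev htr) =
      H1mk (levelLoc p) (Mq (ad0Rep rbar) p) c₀ := rfl
  have hval : ∀ τ : Gq p, ad0Val rbar ((c₀ : Gq p → Mq (ad0Rep rbar) p) τ) =
      liftCocycle rbar r (rq p τ) := fun τ => rfl
  have hflat : HasFlatModel ℤ_[p] (PadicAlgCl p) (Gq p) (Fin 2 → DualNumber k)
      (fun τ v => (r (rq p τ)).mulVec v) :=
    Fermat.Agent.TW.FLAT.FlatLift7.hasFlatModel_of_isFlatAt r hr hfl
  have hlevloc : ∃ U ∈ (levelLoc p).sets, ∀ s ∈ U, r (rq p s) = 1 := by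
    obtain ⟨U, hU, h1⟩ := hlev
    obtain ⟨V, hV, hVU⟩ := isLevelHom_rq Sg p U hU
    exact ⟨V, hV, fun s hs => h1 _ (hVU hs)⟩
  have hentry : ∀ (i j : Fin 2) (g : Gq p),
      (P' * ad0Val rbar ((c₀ : Gq p → Mq (ad0Rep rbar) p) g) * P) i j =
        centry rbar r P P' i j g := fun i j g => by rw [hval]; rfl
  rw [hclass]
  refine mem_LpLL_of_entries_self S hp2 hPP' hP'P (eig_ne_self S hPP' hP'P hdiag) hdiag c₀
    ?_ ?_ ?_
  · refine h11_of_levels S hp2 hPP' hP'P hdiag c₀ (fun μ => ?_) (fun μ hμ => ?_)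
    · simp only [hentry]
      exact kumLe_entry S hPP' hdiag h hflat hlevloc 0 0 μ
    · simp only [hentry] at hμ ⊢
      exact kumLe_entry_fine' S hPP' hdiag h hflat hlevloc 0 0 μ hμ
  · intro μ
    simp only [hentry]
    exact kumLe_entry S hPP' hdiag h hflat hlevloc 0 1 μ
  · intro μ
    simp only [hentry]
    exact kumLe_entry S hPP' hdiag h hflat hlevloc 1 0 μ

/-- **(LOC-FL), local-local case**, given the structure theorem `hstruct` (helper2's (S-STRUCT)) and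
the splitting `hsplit` of the characteristic polynomials over `k`. -/
theorem exists_Lp_ll_of (hp2 : p ≠ 2) (rbar : GQ →* M2 k)
    (hlevbar : ∃ U ∈ (levelLoc p).sets, ∀ s ∈ U, rbar (rq p s) = 1)
    (hsplit : ∀ g : Gq p, ∃ α β : k, (rbar (rq p g)).charpoly = (X - C α) * (X - C β))
    (hstruct : (∃ (r : GQ →* M2 (DualNumber k)) (hr : MatCont r) (_ : IsLiftOf rbar r),
      (ofMatrix r hr).IsFlatAt p) → Nonempty (LLStruct p rbar)) :
    ∃ Lp : Submodule k (Hq1 (ad0Rep rbar) p), Finite ↥Lp ∧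
      Nat.card ↥Lp ≤ Nat.card k * Nat.card ↥(Mq (ad0Rep rbar) p).ρ.invariants ∧
      ∀ (Sg : Finset Nat.Primes) (r : GQ →* M2 (DualNumber k)) (hr : MatCont r)
        (h : IsLiftOf rbar r), (ofMatrix r hr).IsFlatAt p →
        ∀ (hlev : ∃ U ∈ (levelS Sg).sets, ∀ s ∈ U, r s = 1)
          (htr : ∀ σ, (liftCocycle rbar r σ).trace = 0),
          resq1 Sg (ad0Rep rbar) p (liftClass Sg h hlev htr) ∈ Lp := by
  haveI hfinN : Finite (Mq (ad0Rep rbar) p) := Finite.of_injective _ (ad0Val_injective rbar)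
  by_cases hex : ∃ (r : GQ →* M2 (DualNumber k)) (hr : MatCont r) (_ : IsLiftOf rbar r),
      (ofMatrix r hr).IsFlatAt p
  swap
  · refine ⟨⊥, inferInstance, ?_, fun Sg r hr h hfl => absurd ⟨r, hr, h, hfl⟩ hex⟩
    rw [Nat.card_unique]
    exact Nat.mul_pos Nat.card_pos Nat.card_pos
  obtain ⟨S⟩ := hstruct hex
  obtain ⟨P, P', l, m, hPP', hP'P, hdiag⟩ := exists_diag_of_split S (hsplit S.g₀)
  refine ⟨LpLL S, finite_LpLL S hp2 hlevbar, card_LpLL_le S hp2 hlevbar, ?_⟩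
  intro Sg r hr h hfl hlev htr
  exact resq1_liftClass_mem_LpLL hp2 S hPP' hP'P hdiag Sg r hr h hfl hlev htr

/-- **(LOC-FL), local-local case** (`[CharP k p]`, splitting hypothesis on `G_p` only). -/
theorem exists_Lp_ll_loc (hp2 : p ≠ 2) (rbar : GQ →* M2 k)
    (hlevbar : ∃ U ∈ (levelLoc p).sets, ∀ s ∈ U, rbar (rq p s) = 1)
    (hdet : ∀ τ ∈ Iq p, ∀ c : ℕ, Fermat.Agent.TW.FLAT.Ordinary7.IsCycExp p τ c →
      (rbar (rq p τ)).det = (c : k))
    (hll : ¬ ∃ l : Fin 2 → k, l ≠ 0 ∧ ∀ τ ∈ Iq p, Matrix.vecMul l (rbar (rq p τ)) = l)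
    (hsplit : ∀ g : Gq p, ∃ α β : k, (rbar (rq p g)).charpoly = (X - C α) * (X - C β)) :
    ∃ Lp : Submodule k (Hq1 (ad0Rep rbar) p), Finite ↥Lp ∧
      Nat.card ↥Lp ≤ Nat.card k * Nat.card ↥(Mq (ad0Rep rbar) p).ρ.invariants ∧
      ∀ (Sg : Finset Nat.Primes) (r : GQ →* M2 (DualNumber k)) (hr : MatCont r)
        (h : IsLiftOf rbar r), (ofMatrix r hr).IsFlatAt p →
        ∀ (hlev : ∃ U ∈ (levelS Sg).sets, ∀ s ∈ U, r s = 1)
          (htr : ∀ σ, (liftCocycle rbar r σ).trace = 0),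
          resq1 Sg (ad0Rep rbar) p (liftClass Sg h hlev htr) ∈ Lp := by
  haveI hfinD : Finite (DualNumber k) := show Finite (k × k) from inferInstance
  refine exists_Lp_ll_of hp2 rbar hlevbar hsplit ?_
  rintro ⟨r, hr, h, hfl⟩
  exact Fermat.Agent.TW.FLAT.LLStruct2.nonempty_llStruct hp2 rbar hlevbar hdet hll
    (Fermat.Agent.TW.FLAT.LLDiag4.hasFlatModel_rbar_of_lift h
      (Fermat.Agent.TW.FLAT.FlatLift7.hasFlatModel_of_isFlatAt r hr hfl))

end

section Final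

variable {p : ℕ} [Fact p.Prime] {k : Type} [Field k] [Finite k] [Algebra (ZMod p) k]

/-- **(LOC-FL), local-local case**: same shape as `OrdLocal7.exists_Lp_ord`, with `hord` replaced by
its negation, plus the splitting of the characteristic polynomials over `k` (S56's `hsplit`). -/
theorem exists_Lp_ll (hp2 : p ≠ 2) (rbar : GQ →* M2 k)
    (hlevbar : ∃ U ∈ (levelLoc p).sets, ∀ s ∈ U, rbar (rq p s) = 1)
    (hdet : ∀ τ ∈ Iq p, ∀ c : ℕ, Fermat.Agent.TW.FLAT.Ordinary7.IsCycExp p τ c →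
      (rbar (rq p τ)).det = (c : k))
    (hll : ¬ ∃ l : Fin 2 → k, l ≠ 0 ∧ ∀ τ ∈ Iq p, Matrix.vecMul l (rbar (rq p τ)) = l)
    (hsplit : ∀ g : GQ, ∃ α β : k, (rbar g).charpoly = (X - C α) * (X - C β)) :
    ∃ Lp : Submodule k (Hq1 (ad0Rep rbar) p), Finite ↥Lp ∧
      Nat.card ↥Lp ≤ Nat.card k * Nat.card ↥(Mq (ad0Rep rbar) p).ρ.invariants ∧
      ∀ (Sg : Finset Nat.Primes) (r : GQ →* M2 (DualNumber k)) (hr : MatCont r)
        (h : IsLiftOf rbar r), (ofMatrix r hr).IsFlatAt p →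
        ∀ (hlev : ∃ U ∈ (levelS Sg).sets, ∀ s ∈ U, r s = 1)
          (htr : ∀ σ, (liftCocycle rbar r σ).trace = 0),
          resq1 Sg (ad0Rep rbar) p (liftClass Sg h hlev htr) ∈ Lp := by
  haveI : CharP k p := charP_of_injective_algebraMap (algebraMap (ZMod p) k).injective p
  exact exists_Lp_ll_loc hp2 rbar hlevbar hdet hll (fun g => hsplit (rq p g))

end Final

end Fermat.Agent.TW.FLAT.LLLocal3
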