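/-
Programme T (S56), chapter T/FLAT — helper2.

**(LOC-FL), local-local case, UNCONDITIONAL**: `exists_Lp_ll`, the analogue of helper7's
`OrdLocal7.exists_Lp_ord` under the negation of the ordinary hypothesis.  Wires helper3's
`LLLocal3.exists_Lp_ll_of` with `LLStruct2.nonempty_llStruct` (S-STRUCT), helper7's
`FlatLift7.hasFlatModel_of_isFlatAt` and helper4's `LLDiag4.hasFlatModel_rbar_of_lift`.
-/
import Mathlib
import Fermat.Agent.TW.FLAT.LLLocal3
import Fermat.Agent.TW.FLAT.LLStruct2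
import Fermat.Agent.TW.FLAT.LLDiag4

set_option autoImplicit false
set_option linter.unusedSectionVars false
set_option linter.style.haveILetI false

open groupCohomology Polynomial
open Fermat.Agent.PT.PRO.LevelCoh28 Fermat.Agent.PT.GLUE.Objects21
open Fermat.Agent.TW.LOC.Defs2
open Fermat.Agent.TW.DEF.Basic1 (GQ M2 Mq Hq1 HS1 ad0Rep resq1)
open Fermat.Agent.TW.DEF.LiftCocycle1
open Fermat.Agent.TW.FLAT.Points6 (HasFlatModel)
open Fermat.Agent.TW.FLAT.Ordinary7 (IsCycExp)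
open Fermat.Agent.S53 (MatCont ofMatrix)

namespace Fermat.Agent.TW.FLAT.LLLocalFinal2

noncomputable section

variable {p : ℕ} [Fact p.Prime] {k : Type} [Field k] [Finite k] [CharP k p]

/-- **(LOC-FL), local-local case**: the flat local condition at `p` when `ρ̄|_{I_p}` has no fixed
linear form. -/
theorem exists_Lp_ll (hp2 : p ≠ 2) (rbar : GQ →* M2 k)
    (hlevbar : ∃ U ∈ (levelLoc p).sets, ∀ s ∈ U, rbar (rq p s) = 1)
    (hdet : ∀ τ ∈ Iq p, ∀ c : ℕ, IsCycExp p τ c → (rbar (rq p τ)).det = (c : k))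
    (hll : ¬ ∃ l : Fin 2 → k, l ≠ 0 ∧ ∀ τ ∈ Iq p, Matrix.vecMul l (rbar (rq p τ)) = l)
    (hsplit : ∀ g : Gq p, ∃ α β : k, (rbar (rq p g)).charpoly = (X - C α) * (X - C β)) :
    ∃ Lp : Submodule k (Hq1 (ad0Rep rbar) p), Finite ↥Lp ∧
      Nat.card ↥Lp ≤ Nat.card k * Nat.card ↥(Mq (ad0Rep rbar) p).ρ.invariants ∧
      ∀ (Sg : Finset Nat.Primes) (r : GQ →* M2 (DualNumber k)) (hr : MatCont r)
        (h : IsLiftOf rbar r), (ofMatrix r hr).IsFlatAt p →
        ∀ (hlev : ∃ U ∈ (levelS Sg).sets, ∀ s ∈ U, r s = 1)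
          (htr : ∀ σ, (liftCocycle rbar r σ).trace = 0),
          resq1 Sg (ad0Rep rbar) p (liftClass Sg h hlev htr) ∈ Lp := by
  haveI hfinD : Finite (DualNumber k) := show Finite (k × k) from inferInstance
  refine Fermat.Agent.TW.FLAT.LLLocal3.exists_Lp_ll_of hp2 rbar hlevbar hsplit ?_
  rintro ⟨r, hr, h, hfl⟩
  exact Fermat.Agent.TW.FLAT.LLStruct2.nonempty_llStruct hp2 rbar hlevbar hdet hll
    (Fermat.Agent.TW.FLAT.LLDiag4.hasFlatModel_rbar_of_lift h
      (Fermat.Agent.TW.FLAT.FlatLift7.hasFlatModel_of_isFlatAt r hr hfl))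

end

end Fermat.Agent.TW.FLAT.LLLocalFinal2
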