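/-
Programme T (Taylor–Wiles primes), chapter T/FLAT, brick C1 (helper7):
**the coalgebra structure on the dual of a finite free algebra.**

`R` a commutative semiring, `A` an `R`-algebra which is finite and free as an `R`-module, and `D` an
`R`-module together with a linear equivalence `e : D ≃ₗ[R] Module.Dual R A` (think of
`D = Module.Dual R A`, `e = refl`, or of `D = WithConv (A →ₗ[R] R)`, `e = WithConv.linearEquiv`).
Write `⟨f, a⟩ := e f a`.

* `ev₂ e : D ⊗ D →ₗ Dual (A ⊗ A)`, `⟨f ⊗ g, a ⊗ b⟩ = ⟨f, a⟩ * ⟨g, b⟩` (`ev₂_tmul`), injective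
  (`ev₂_injective`, `ext_ev₂`); similarly `ev₃ e : D ⊗ (D ⊗ D) →ₗ Dual (A ⊗ (A ⊗ A))`
  (`ev₃_tmul`, `ev₃_injective`, `ext_ev₃`);
* `comulOf e : D →ₗ D ⊗ D`, the transpose of the multiplication of `A`, characterised by
  `ev₂ e (comulOf e f) (a ⊗ₜ b) = e f (a * b)` (`ev₂_comulOf`);
* `counitOf e : D →ₗ R`, `f ↦ e f 1`;
* `coalgebraOf e : Coalgebra R D` (a reducible `def`, not an instance);
* `comm_comulOf`: if `A` is commutative then `TensorProduct.comm` fixes `comulOf e f`
  (the dual coalgebra is cocommutative), `isCocomm_coalgebraOf`;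
* `dualCoalgebra R A : Coalgebra R (Module.Dual R A)`, the case `e = refl`.
-/
import Mathlib

set_option autoImplicit false

open TensorProduct Module

namespace Fermat.Agent.TW.FLAT.DualCoalgebra7

section Pairing

variable {R A D : Type*} [CommSemiring R] [AddCommMonoid A] [Module R A] [Module.Free R A]
  [Module.Finite R A] [AddCommMonoid D] [Module R D] (e : D ≃ₗ[R] Dual R A)

/-- The evaluation pairing of `D ⊗ D` with `A ⊗ A`. -/
noncomputable def ev₂ : D ⊗[R] D →ₗ[R] Dual R (A ⊗[R] A) :=
  dualDistrib R A A ∘ₗ TensorProduct.map e.toLinearMap e.toLinearMap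

omit [Module.Free R A] [Module.Finite R A] in
@[simp] theorem ev₂_tmul (f g : D) (a b : A) : ev₂ e (f ⊗ₜ g) (a ⊗ₜ b) = e f a * e g b := rfl

theorem ev₂_injective : Function.Injective (ev₂ e) := by
  have h1 : ev₂ e = (dualDistribEquiv R A A).toLinearMap ∘ₗ
      (TensorProduct.congr e e).toLinearMap := rfl
  rw [h1]
  exact (dualDistribEquiv R A A).injective.comp (TensorProduct.congr e e).injective

/-- Elements of `D ⊗ D` are determined by their values on pure tensors of `A ⊗ A`. -/
theorem ext_ev₂ {x y : D ⊗[R] D}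
    (h : ∀ a b : A, ev₂ e x (a ⊗ₜ b) = ev₂ e y (a ⊗ₜ b)) : x = y :=
  ev₂_injective e (TensorProduct.ext' h)

/-- The evaluation pairing of `D ⊗ (D ⊗ D)` with `A ⊗ (A ⊗ A)`. -/
noncomputable def ev₃ : D ⊗[R] (D ⊗[R] D) →ₗ[R] Dual R (A ⊗[R] (A ⊗[R] A)) :=
  dualDistrib R A (A ⊗[R] A) ∘ₗ TensorProduct.map e.toLinearMap (ev₂ e)

omit [Module.Free R A] [Module.Finite R A] in
@[simp] theorem ev₃_tmul (f : D) (w : D ⊗[R] D) (a : A) (z : A ⊗[R] A) :
    ev₃ e (f ⊗ₜ w) (a ⊗ₜ z) = e f a * ev₂ e w z := rfl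

theorem ev₃_injective : Function.Injective (ev₃ e) := by
  have h1 : ev₃ e = (dualDistribEquiv R A (A ⊗[R] A)).toLinearMap ∘ₗ
      (TensorProduct.congr e ((TensorProduct.congr e e).trans
        (dualDistribEquiv R A A))).toLinearMap := rfl
  rw [h1]
  exact (dualDistribEquiv R A (A ⊗[R] A)).injective.comp (TensorProduct.congr e _).injective

/-- Elements of `D ⊗ (D ⊗ D)` are determined by their values on pure tensors. -/
theorem ext_ev₃ {x y : D ⊗[R] (D ⊗[R] D)}
    (h : ∀ a b c : A, ev₃ e x (a ⊗ₜ (b ⊗ₜ c)) = ev₃ e y (a ⊗ₜ (b ⊗ₜ c))) : x = y := by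
  apply ev₃_injective e
  refine TensorProduct.ext' fun a z => ?_
  induction z using TensorProduct.induction_on with
  | zero => simp
  | tmul b c => exact h a b c
  | add z₁ z₂ h₁ h₂ => rw [tmul_add, map_add, map_add, h₁, h₂]

omit [Module.Free R A] [Module.Finite R A] in
/-- `ev₃` after reassociation. -/
theorem ev₃_assoc_tmul (w : D ⊗[R] D) (h : D) (a b c : A) :
    ev₃ e (TensorProduct.assoc R D D D (w ⊗ₜ h)) (a ⊗ₜ (b ⊗ₜ c)) =
      ev₂ e w (a ⊗ₜ b) * e h c := by
  induction w using TensorProduct.induction_on with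
  | zero => simp
  | tmul g₁ g₂ =>
    rw [TensorProduct.assoc_tmul, ev₃_tmul, ev₂_tmul, ev₂_tmul, mul_assoc]
  | add w₁ w₂ h₁ h₂ =>
    rw [add_tmul, map_add, map_add, LinearMap.add_apply, h₁, h₂, map_add, LinearMap.add_apply,
      add_mul]

omit [Module.Free R A] [Module.Finite R A] in
/-- Swapping both sides preserves the evaluation pairing. -/
theorem ev₂_comm (w : D ⊗[R] D) (a b : A) :
    ev₂ e (TensorProduct.comm R D D w) (a ⊗ₜ b) = ev₂ e w (b ⊗ₜ a) := by
  induction w using TensorProduct.induction_on with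
  | zero => simp
  | tmul g₁ g₂ => rw [TensorProduct.comm_tmul, ev₂_tmul, ev₂_tmul, mul_comm]
  | add w₁ w₂ h₁ h₂ => simp only [map_add, LinearMap.add_apply, h₁, h₂]

end Pairing

section Defs

variable {R A D : Type*} [CommSemiring R] [Semiring A] [Algebra R A] [Module.Free R A]
  [Module.Finite R A] [AddCommMonoid D] [Module R D] (e : D ≃ₗ[R] Dual R A)

/-- The comultiplication on (a copy `D` of) the dual of a finite free algebra: the transpose of the
multiplication, read through `Dual (A ⊗ A) ≃ Dual A ⊗ Dual A`. -/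
noncomputable def comulOf : D →ₗ[R] D ⊗[R] D :=
  (TensorProduct.congr e e).symm.toLinearMap ∘ₗ (dualDistribEquiv R A A).symm.toLinearMap ∘ₗ
    (LinearMap.mul' R A).dualMap ∘ₗ e.toLinearMap

/-- The counit on (a copy `D` of) the dual of an algebra: evaluation at `1`. -/
def counitOf : D →ₗ[R] R := LinearMap.applyₗ (1 : A) ∘ₗ e.toLinearMap

omit [Module.Free R A] [Module.Finite R A] in
@[simp] theorem counitOf_apply (f : D) : counitOf e f = e f 1 := rfl

theorem ev₂_comulOf' (f : D) : ev₂ e (comulOf e f) = e f ∘ₗ LinearMap.mul' R A := by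
  change (dualDistribEquiv R A A) ((TensorProduct.congr e e) ((TensorProduct.congr e e).symm
    ((dualDistribEquiv R A A).symm ((LinearMap.mul' R A).dualMap (e f))))) = _
  rw [LinearEquiv.apply_symm_apply, LinearEquiv.apply_symm_apply]
  rfl

/-- **Characterisation of the dual comultiplication.** -/
@[simp] theorem ev₂_comulOf (f : D) (a b : A) : ev₂ e (comulOf e f) (a ⊗ₜ b) = e f (a * b) := by
  rw [ev₂_comulOf']
  simp

end Defs

section Coalgebra

variable {R A D : Type*} [CommSemiring R] [Semiring A] [Algebra R A] [Module.Free R A]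
  [Module.Finite R A] [AddCommMonoid D] [Module R D] (e : D ≃ₗ[R] Dual R A)

theorem ev₃_rTensor_comulOf (z : D ⊗[R] D) (a b c : A) :
    ev₃ e (TensorProduct.assoc R D D D ((comulOf e).rTensor D z)) (a ⊗ₜ (b ⊗ₜ c)) =
      ev₂ e z ((a * b) ⊗ₜ c) := by
  induction z using TensorProduct.induction_on with
  | zero => simp
  | tmul g h => rw [LinearMap.rTensor_tmul, ev₃_assoc_tmul, ev₂_comulOf, ev₂_tmul]
  | add z₁ z₂ h₁ h₂ => simp only [map_add, LinearMap.add_apply, h₁, h₂]

theorem ev₃_lTensor_comulOf (z : D ⊗[R] D) (a b c : A) :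
    ev₃ e ((comulOf e).lTensor D z) (a ⊗ₜ (b ⊗ₜ c)) = ev₂ e z (a ⊗ₜ (b * c)) := by
  induction z using TensorProduct.induction_on with
  | zero => simp
  | tmul g h => rw [LinearMap.lTensor_tmul, ev₃_tmul, ev₂_comulOf, ev₂_tmul]
  | add z₁ z₂ h₁ h₂ => simp only [map_add, LinearMap.add_apply, h₁, h₂]

theorem comulOf_coassoc :
    (TensorProduct.assoc R D D D).toLinearMap ∘ₗ (comulOf e).rTensor D ∘ₗ comulOf e =
      (comulOf e).lTensor D ∘ₗ comulOf e := by
  ext f : 1
  apply ext_ev₃ e
  intro a b c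
  simp only [LinearMap.comp_apply, LinearEquiv.coe_coe]
  rw [ev₃_rTensor_comulOf, ev₃_lTensor_comulOf, ev₂_comulOf, ev₂_comulOf, mul_assoc]

omit [Module.Free R A] [Module.Finite R A] in
theorem lid_rTensor_counitOf (z : D ⊗[R] D) (a : A) :
    e (TensorProduct.lid R D ((counitOf e).rTensor D z)) a = ev₂ e z ((1 : A) ⊗ₜ a) := by
  induction z using TensorProduct.induction_on with
  | zero => simp
  | tmul g h =>
    rw [LinearMap.rTensor_tmul, TensorProduct.lid_tmul, ev₂_tmul]
    simp
  | add z₁ z₂ h₁ h₂ => simp only [map_add, LinearMap.add_apply, h₁, h₂]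

omit [Module.Free R A] [Module.Finite R A] in
theorem rid_lTensor_counitOf (z : D ⊗[R] D) (a : A) :
    e (TensorProduct.rid R D ((counitOf e).lTensor D z)) a = ev₂ e z (a ⊗ₜ (1 : A)) := by
  induction z using TensorProduct.induction_on with
  | zero => simp
  | tmul g h =>
    rw [LinearMap.lTensor_tmul, TensorProduct.rid_tmul, ev₂_tmul]
    simp [mul_comm]
  | add z₁ z₂ h₁ h₂ => simp only [map_add, LinearMap.add_apply, h₁, h₂]

theorem counitOf_rTensor :
    (counitOf e).rTensor D ∘ₗ comulOf e = TensorProduct.mk R R D 1 := by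
  ext f : 1
  apply (TensorProduct.lid R D).injective
  apply e.injective
  ext a
  rw [LinearMap.comp_apply, lid_rTensor_counitOf, ev₂_comulOf]
  simp

theorem counitOf_lTensor :
    (counitOf e).lTensor D ∘ₗ comulOf e = (TensorProduct.mk R D R).flip 1 := by
  ext f : 1
  apply (TensorProduct.rid R D).injective
  apply e.injective
  ext a
  rw [LinearMap.comp_apply, rid_lTensor_counitOf, ev₂_comulOf]
  simp

/-- **The coalgebra structure on (a copy `D` of) the dual of a finite free algebra.** -/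
@[reducible] noncomputable def coalgebraOf : Coalgebra R D where
  comul := comulOf e
  counit := counitOf e
  coassoc := comulOf_coassoc e
  rTensor_counit_comp_comul := counitOf_rTensor e
  lTensor_counit_comp_comul := counitOf_lTensor e

variable (R A) in
/-- The coalgebra structure on the dual of a finite free algebra. -/
@[reducible] noncomputable def dualCoalgebra : Coalgebra R (Dual R A) :=
  coalgebraOf (LinearEquiv.refl R (Dual R A))

end Coalgebra

section Comm

variable {R A D : Type*} [CommSemiring R] [CommSemiring A] [Algebra R A] [Module.Free R A]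
  [Module.Finite R A] [AddCommMonoid D] [Module R D] (e : D ≃ₗ[R] Dual R A)

/-- The dual of a commutative finite free algebra is cocommutative. -/
theorem comm_comulOf (f : D) : TensorProduct.comm R D D (comulOf e f) = comulOf e f := by
  apply ext_ev₂ e
  intro a b
  rw [ev₂_comm, ev₂_comulOf, ev₂_comulOf, mul_comm]

theorem isCocomm_coalgebraOf :
    letI := coalgebraOf e
    Coalgebra.IsCocomm R D :=
  letI := coalgebraOf e
  ⟨by ext f : 1; exact comm_comulOf e f⟩

end Comm

end Fermat.Agent.TW.FLAT.DualCoalgebra7
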