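/-
Programme T (Taylor–Wiles primes), chapter T/FLAT, brick C2 = F8.1 (helper7):
**the Cartier dual of a finite free Hopf algebra.**

`R` a commutative semiring, `H` an `R`-bialgebra / Hopf algebra which is finite and free as an
`R`-module.  The Cartier dual is the TYPE `CDual R H := WithConv (H →ₗ[R] R)` (an `abbrev`): its
(semi)ring and `R`-algebra structures are Mathlib's convolution structures
(`LinearMap.convSemiring`, `LinearMap.convAlgebra`; commutative when `H` is cocommutative:
`LinearMap.convCommSemiring`, `LinearMap.convCommRing`).  This file adds, as SCOPED instances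
(activate with `open scoped Fermat.Agent.TW.FLAT.CartierDual7`):

* `instCoalgebra R H : Coalgebra R (CDual R H)` for `[Semiring H] [Algebra R H]` finite free:
  `counit f = f 1` (`counit_apply`) and `comul f` is characterised by
  `evc R H (comul f) (a ⊗ₜ b) = f (a * b)` (`evc_comul`), where
  `evc R H : H^D ⊗ H^D →ₗ WithConv (H ⊗ H →ₗ R)` is the evaluation pairing
  (`evc_tmul : evc R H (f ⊗ₜ g) (a ⊗ₜ b) = f a * g b`, `evc_injective`, `ext_evc`);
* `instBialgebra : Bialgebra R (CDual R H)` for a bialgebra `H` (`counit_one'`, `counit_mul'`,
  `comul_one'`, `comul_mul'`; key lemma `evc_mul`: `evc` is multiplicative);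
* `instHopfAlgebra : HopfAlgebra R (CDual R H)` for a Hopf algebra `H`, with antipode
  `antipodeD f = f ∘ antipode` (`antipodeD_apply`);
and as global (`Prop`-valued) instances: `instFree`, `instFinite` (`H^D` is finite free),
`instIsCocomm` (`H` commutative ⇒ `H^D` cocommutative).  So for `H` a finite free commutative
cocommutative Hopf algebra over a commutative ring, `CDual R H` has again exactly this shape
(`[CommRing] [HopfAlgebra R] [Module.Finite R] [Module.Flat R] [Coalgebra.IsCocomm R]`).

Functoriality and double duality:
* `transpose φ : CDual R H' →ₗ[R] CDual R H` for `φ : H →ₗ[R] H'`, `transpose φ f a = f (φ a)`;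
  `evc_map_transpose`;
* `transposeBialgHom φ : CDual R H' →ₐc[R] CDual R H` for a bialgebra hom `φ : H →ₐc[R] H'`;
* `mul'_apply`: `(μ w) a = evc R H w (comul a)` (the product of `H^D` is the transpose of `Δ_H`);
* `evalD R H : H →ₗ[R] CDual R (CDual R H)`, `evalD R H a f = f a`, bijective (`evalD_bijective`);
  `evalBialgHom R H : H →ₐc[R] CDual R (CDual R H)` and
  `evalBialgEquiv R H : H ≃ₐc[R] CDual R (CDual R H)` (**`H ≃ H^DD` as bialgebras**).
-/
import Mathlib
import Fermat.Agent.TW.FLAT.DualCoalgebra7

set_option autoImplicit false

open TensorProduct Module WithConv Coalgebra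

namespace Fermat.Agent.TW.FLAT.CartierDual7

open Fermat.Agent.TW.FLAT.DualCoalgebra7

section Defs

variable (R H : Type*) [CommSemiring R] [AddCommMonoid H] [Module R H]

/-- The underlying type of the Cartier dual: linear forms with the convolution product. -/
abbrev CDual : Type _ := WithConv (H →ₗ[R] R)

/-- The tautological identification of the Cartier dual with the linear dual. -/
def toDual : CDual R H ≃ₗ[R] Dual R H := WithConv.linearEquiv R (H →ₗ[R] R)

@[simp] theorem toDual_apply (f : CDual R H) (a : H) : toDual R H f a = f a := rfl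

/-- The evaluation pairing of `H^D ⊗ H^D` with `H ⊗ H`, as a map to the convolution algebra. -/
noncomputable def evc : CDual R H ⊗[R] CDual R H →ₗ[R] WithConv (H ⊗[R] H →ₗ[R] R) :=
  (WithConv.linearEquiv R (H ⊗[R] H →ₗ[R] R)).symm.toLinearMap ∘ₗ ev₂ (toDual R H)

variable {R H}

@[simp] theorem evc_tmul (f g : CDual R H) (a b : H) :
    evc R H (f ⊗ₜ g) (a ⊗ₜ b) = f a * g b := rfl

theorem evc_injective [Module.Free R H] [Module.Finite R H] :
    Function.Injective (evc R H) := by
  unfold evc
  exact (WithConv.linearEquiv R (H ⊗[R] H →ₗ[R] R)).symm.injective.comp (ev₂_injective _)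

theorem ext_evc [Module.Free R H] [Module.Finite R H] {x y : CDual R H ⊗[R] CDual R H}
    (h : ∀ a b : H, evc R H x (a ⊗ₜ b) = evc R H y (a ⊗ₜ b)) : x = y :=
  ext_ev₂ (toDual R H) h

end Defs

section Coalg

variable (R H : Type*) [CommSemiring R] [Semiring H] [Algebra R H] [Module.Free R H]
  [Module.Finite R H]

/-- The coalgebra structure on the Cartier dual (transpose of the multiplication of `H`). -/
@[reducible] noncomputable def instCoalgebra : Coalgebra R (CDual R H) := coalgebraOf (toDual R H)

scoped[Fermat.Agent.TW.FLAT.CartierDual7] attribute [instance]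
  Fermat.Agent.TW.FLAT.CartierDual7.instCoalgebra

variable {R H}

theorem counit_apply (f : CDual R H) : counit (R := R) f = f 1 := rfl

@[simp] theorem evc_comul (f : CDual R H) (a b : H) : evc R H (comul f) (a ⊗ₜ b) = f (a * b) :=
  ev₂_comulOf (toDual R H) f a b

theorem evc_comul' (f : CDual R H) :
    evc R H (comul f) = toConv (f.ofConv ∘ₗ LinearMap.mul' R H) := by
  apply WithConv.ext
  exact ev₂_comulOf' (toDual R H) f

end Coalg

section Transpose

variable {R H H' : Type*} [CommSemiring R] [AddCommMonoid H] [Module R H] [AddCommMonoid H']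
  [Module R H']

/-- The transpose `f ↦ f ∘ φ` of a linear map, on Cartier duals. -/
def transpose (φ : H →ₗ[R] H') : CDual R H' →ₗ[R] CDual R H :=
  (toDual R H).symm.toLinearMap ∘ₗ φ.dualMap ∘ₗ (toDual R H').toLinearMap

@[simp] theorem transpose_apply (φ : H →ₗ[R] H') (f : CDual R H') (a : H) :
    transpose φ f a = f (φ a) := rfl

@[simp] theorem transpose_id : transpose (LinearMap.id : H →ₗ[R] H) = LinearMap.id := rfl

/-- Transposes and the evaluation pairing. -/
theorem evc_map_transpose (φ ψ : H →ₗ[R] H') (w : CDual R H' ⊗[R] CDual R H') (z : H ⊗[R] H) :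
    evc R H (TensorProduct.map (transpose φ) (transpose ψ) w) z =
      evc R H' w (TensorProduct.map φ ψ z) := by
  induction w using TensorProduct.induction_on with
  | zero => simp
  | add w₁ w₂ h₁ h₂ =>
    simp only [map_add, WithConv.ofConv_add, LinearMap.add_apply, h₁, h₂]
  | tmul f g =>
    induction z using TensorProduct.induction_on with
    | zero => simp
    | add z₁ z₂ h₁ h₂ => rw [map_add, h₁, h₂, map_add, map_add]
    | tmul a b => rfl

end Transpose

section Bialg

variable {R H : Type*} [CommSemiring R] [Semiring H] [Bialgebra R H] [Module.Free R H]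
  [Module.Finite R H]

set_option maxSynthPendingDepth 2 in
omit [Module.Free R H] [Module.Finite R H] in
/-- The evaluation pairing is multiplicative (convolution on `H ⊗ H` on the right). -/
theorem evc_mul (x y : CDual R H ⊗[R] CDual R H) :
    evc R H (x * y) = evc R H x * evc R H y := by
  induction x using TensorProduct.induction_on with
  | zero => simp
  | add x₁ x₂ h₁ h₂ => rw [add_mul, map_add, h₁, h₂, map_add, add_mul]
  | tmul f g =>
    induction y using TensorProduct.induction_on with
    | zero => simp
    | add y₁ y₂ h₁ h₂ => rw [mul_add, map_add, h₁, h₂, map_add, mul_add]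
    | tmul f' g' =>
      rw [Algebra.TensorProduct.tmul_mul_tmul]
      apply WithConv.ext
      refine TensorProduct.ext' fun a b => ?_
      change evc R H ((f * f') ⊗ₜ (g * g')) (a ⊗ₜ b) =
        (evc R H (f ⊗ₜ g) * evc R H (f' ⊗ₜ g')) (a ⊗ₜ b)
      rw [((ℛ R a).tmul (ℛ R b)).convMul_apply, evc_tmul, (ℛ R a).convMul_apply,
        (ℛ R b).convMul_apply, Finset.sum_mul_sum]
      simp only [Coalgebra.Repr.tmul_index, Coalgebra.Repr.tmul_left, Coalgebra.Repr.tmul_right,
        evc_tmul, Finset.sum_product]
      refine Finset.sum_congr rfl fun i _ => Finset.sum_congr rfl fun j _ => ?_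
      ring

theorem counit_one' : counit (R := R) (1 : CDual R H) = 1 := by
  rw [counit_apply, LinearMap.convOne_apply, Bialgebra.counit_one]
  rfl

theorem counit_mul' (f g : CDual R H) : counit (R := R) (f * g) = counit f * counit g := by
  rw [counit_apply, counit_apply, counit_apply, LinearMap.convMul_apply, Bialgebra.comul_one,
    Algebra.TensorProduct.one_def, TensorProduct.map_tmul, LinearMap.mul'_apply]

theorem comul_one' : comul (R := R) (1 : CDual R H) = 1 := by
  rw [Algebra.TensorProduct.one_def]
  apply ext_evc
  intro a b
  rw [evc_comul, evc_tmul, LinearMap.convOne_apply, LinearMap.convOne_apply,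
    LinearMap.convOne_apply, Bialgebra.counit_mul]
  simp

theorem comul_mul' (f g : CDual R H) : comul (R := R) (f * g) = comul f * comul g := by
  apply evc_injective
  rw [evc_mul, evc_comul', evc_comul', evc_comul']
  apply WithConv.ext
  exact LinearMap.convMul_comp_coalgHom_distrib f g (Bialgebra.mulCoalgHom R H)

/-- The bialgebra structure on the Cartier dual. -/
@[reducible] noncomputable def instBialgebra : Bialgebra R (CDual R H) :=
  Bialgebra.mk' R (CDual R H) counit_one' (fun {f g} => counit_mul' f g) comul_one'
    (fun {f g} => comul_mul' f g)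

scoped[Fermat.Agent.TW.FLAT.CartierDual7] attribute [instance]
  Fermat.Agent.TW.FLAT.CartierDual7.instBialgebra

end Bialg

section Hopf

variable {R H : Type*} [CommSemiring R] [Semiring H]

section
variable [Bialgebra R H]

theorem evc_tmul_apply (f g : CDual R H) (z : H ⊗[R] H) :
    evc R H (f ⊗ₜ g) z = LinearMap.mul' R R (TensorProduct.map f.ofConv g.ofConv z) := by
  induction z using TensorProduct.induction_on with
  | zero => simp
  | add z₁ z₂ h₁ h₂ => rw [map_add, h₁, h₂, map_add, map_add]
  | tmul a b => rfl

/-- The product of the Cartier dual is the transpose of the comultiplication of `H`. -/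
theorem mul'_apply (w : CDual R H ⊗[R] CDual R H) (a : H) :
    (LinearMap.mul' R (CDual R H) w) a = evc R H w (comul a) := by
  induction w using TensorProduct.induction_on with
  | zero => simp
  | add w₁ w₂ h₁ h₂ =>
    simp only [map_add, WithConv.ofConv_add, LinearMap.add_apply, h₁, h₂]
  | tmul f g => rw [LinearMap.mul'_apply, LinearMap.convMul_apply, evc_tmul_apply]

end

variable [HopfAlgebra R H] [Module.Free R H] [Module.Finite R H]

/-- The antipode of the Cartier dual: the transpose of the antipode of `H`. -/
noncomputable def antipodeD : CDual R H →ₗ[R] CDual R H := transpose (HopfAlgebra.antipode R)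

omit [Module.Free R H] [Module.Finite R H] in
@[simp] theorem antipodeD_apply (f : CDual R H) (a : H) :
    antipodeD f a = f (HopfAlgebra.antipode R a) := rfl

theorem antipodeD_mul_id :
    toConv (antipodeD (R := R) (H := H)) * toConv LinearMap.id = 1 := by
  apply WithConv.ext
  ext f : 1
  apply WithConv.ext
  ext a : 1
  change (LinearMap.mul' R (CDual R H)
    (TensorProduct.map antipodeD LinearMap.id (comul f))) a = _
  rw [mul'_apply, ← transpose_id, antipodeD, evc_map_transpose, evc_comul']
  change f (LinearMap.mul' R H ((HopfAlgebra.antipode R).rTensor H (comul a))) = _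
  rw [HopfAlgebra.mul_antipode_rTensor_comul_apply]
  change _ = ((algebraMap R (CDual R H)) (counit f)) a
  rw [LinearMap.convAlgebraMap_apply, counit_apply, Algebra.algebraMap_eq_smul_one, map_smul]
  simp [mul_comm]

theorem id_mul_antipodeD :
    toConv LinearMap.id * toConv (antipodeD (R := R) (H := H)) = 1 := by
  apply WithConv.ext
  ext f : 1
  apply WithConv.ext
  ext a : 1
  change (LinearMap.mul' R (CDual R H)
    (TensorProduct.map LinearMap.id antipodeD (comul f))) a = _
  rw [mul'_apply, ← transpose_id, antipodeD, evc_map_transpose, evc_comul']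
  change f (LinearMap.mul' R H ((HopfAlgebra.antipode R).lTensor H (comul a))) = _
  rw [HopfAlgebra.mul_antipode_lTensor_comul_apply]
  change _ = ((algebraMap R (CDual R H)) (counit f)) a
  rw [LinearMap.convAlgebraMap_apply, counit_apply, Algebra.algebraMap_eq_smul_one, map_smul]
  simp [mul_comm]

/-- **The Hopf algebra structure on the Cartier dual.** -/
@[reducible] noncomputable def instHopfAlgebra : HopfAlgebra R (CDual R H) :=
  HopfAlgebra.ofConvInverse antipodeD antipodeD_mul_id id_mul_antipodeD

scoped[Fermat.Agent.TW.FLAT.CartierDual7] attribute [instance]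
  Fermat.Agent.TW.FLAT.CartierDual7.instHopfAlgebra

end Hopf

section Props

variable (R H : Type*) [CommSemiring R] [AddCommMonoid H] [Module R H] [Module.Free R H]
  [Module.Finite R H]

instance instFree : Module.Free R (CDual R H) := Module.Free.of_equiv (toDual R H).symm

instance instFinite : Module.Finite R (CDual R H) := Module.Finite.equiv (toDual R H).symm

end Props

section CommCocomm

variable (R H : Type*) [CommSemiring R] [CommSemiring H] [Bialgebra R H] [Module.Free R H]
  [Module.Finite R H]

/-- The Cartier dual of a commutative bialgebra is cocommutative. -/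
instance instIsCocomm : Coalgebra.IsCocomm R (CDual R H) := isCocomm_coalgebraOf (toDual R H)

end CommCocomm

section Functoriality

variable {R H H' : Type*} [CommSemiring R] [Semiring H] [Bialgebra R H] [Module.Free R H]
  [Module.Finite R H] [Semiring H'] [Bialgebra R H'] [Module.Free R H'] [Module.Finite R H']

/-- The transpose of a bialgebra hom is a bialgebra hom between the Cartier duals. -/
noncomputable def transposeBialgHom (φ : H →ₐc[R] H') : CDual R H' →ₐc[R] CDual R H where
  toLinearMap := transpose (φ : H →ₗ[R] H')
  counit_comp := by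
    ext f : 1
    change (f.ofConv (φ 1) : R) = f.ofConv 1
    rw [map_one]
  map_comp_comul := by
    ext f : 1
    apply ext_evc
    intro a b
    change evc R H (TensorProduct.map (transpose (φ : H →ₗ[R] H')) (transpose (φ : H →ₗ[R] H'))
      (comul f)) (a ⊗ₜ b) = evc R H (comul (transpose (φ : H →ₗ[R] H') f)) (a ⊗ₜ b)
    rw [evc_map_transpose, evc_comul, TensorProduct.map_tmul, evc_comul]
    change f.ofConv (φ a * φ b) = f.ofConv (φ (a * b))
    rw [map_mul φ]
  map_one' := by
    apply WithConv.ext
    ext a
    change (1 : CDual R H') (φ a) = (1 : CDual R H) a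
    rw [LinearMap.convOne_apply, LinearMap.convOne_apply]
    congr 1
    exact congr($(CoalgHomClass.counit_comp φ) a)
  map_mul' f g := by
    apply WithConv.ext
    exact LinearMap.convMul_comp_coalgHom_distrib f g (φ : H →ₗc[R] H')

@[simp] theorem transposeBialgHom_apply (φ : H →ₐc[R] H') (f : CDual R H') (a : H) :
    transposeBialgHom φ f a = f (φ a) := rfl

end Functoriality

section DoubleDual

variable (R H : Type*) [CommSemiring R]

section
variable [AddCommMonoid H] [Module R H]

/-- Evaluation `H → H^DD`, as a linear map. -/
def evalD : H →ₗ[R] CDual R (CDual R H) :=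
  (toDual R (CDual R H)).symm.toLinearMap ∘ₗ (toDual R H).toLinearMap.dualMap ∘ₗ Dual.eval R H

variable {R H}

@[simp] theorem evalD_apply (a : H) (f : CDual R H) : evalD R H a f = f a := rfl

theorem evalD_bijective [Module.Free R H] [Module.Finite R H] :
    Function.Bijective (evalD R H) := by
  have h : ⇑(evalD R H) = (toDual R (CDual R H)).symm ∘ (toDual R H).dualMap ∘ evalEquiv R H := rfl
  rw [h]
  exact (toDual R (CDual R H)).symm.bijective.comp
    ((toDual R H).dualMap.bijective.comp (evalEquiv R H).bijective)

/-- The evaluation pairing of `H^DD ⊗ H^DD` with `H^D ⊗ H^D` is the evaluation pairing of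
`H^D ⊗ H^D` with `H ⊗ H`. -/
theorem evc_map_evalD (z : H ⊗[R] H) (w : CDual R H ⊗[R] CDual R H) :
    evc R (CDual R H) (TensorProduct.map (evalD R H) (evalD R H) z) w = evc R H w z := by
  induction z using TensorProduct.induction_on with
  | zero => simp
  | add z₁ z₂ h₁ h₂ =>
    simp only [map_add, WithConv.ofConv_add, LinearMap.add_apply, h₁, h₂]
  | tmul a b =>
    induction w using TensorProduct.induction_on with
    | zero => simp
    | add w₁ w₂ h₁ h₂ =>
      simp only [map_add, WithConv.ofConv_add, LinearMap.add_apply, h₁, h₂]
    | tmul f g => rfl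

end

variable [Semiring H] [Bialgebra R H] [Module.Free R H] [Module.Finite R H]

/-- **Double duality**: evaluation is a bialgebra hom `H → H^DD`. -/
noncomputable def evalBialgHom : H →ₐc[R] CDual R (CDual R H) where
  toLinearMap := evalD R H
  counit_comp := by
    ext a : 1
    change (1 : CDual R H) a = counit a
    rw [LinearMap.convOne_apply]
    rfl
  map_comp_comul := by
    ext a : 1
    apply ext_evc
    intro f g
    change evc R (CDual R H) (TensorProduct.map (evalD R H) (evalD R H) (comul a)) (f ⊗ₜ g) =
      evc R (CDual R H) (comul (evalD R H a)) (f ⊗ₜ g)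
    rw [evc_map_evalD, evc_comul, evalD_apply, evc_tmul_apply, LinearMap.convMul_apply]
  map_one' := by
    apply WithConv.ext
    ext f
    change f 1 = (1 : CDual R (CDual R H)) f
    rw [LinearMap.convOne_apply, counit_apply]
    rfl
  map_mul' a b := by
    apply WithConv.ext
    ext f
    change f (a * b) = (evalD R H a * evalD R H b) f
    rw [LinearMap.convMul_apply, ← evc_tmul_apply, ← evc_comul]
    exact (evc_map_evalD (a ⊗ₜ b) (comul f)).symm

variable {R H}

@[simp] theorem evalBialgHom_apply (a : H) (f : CDual R H) : evalBialgHom R H a f = f a := rfl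

variable (R H)

theorem evalBialgHom_bijective : Function.Bijective (evalBialgHom R H) :=
  evalD_bijective (R := R) (H := H)

/-- **Double duality**: `H ≃ H^DD` as bialgebras. -/
noncomputable def evalBialgEquiv : H ≃ₐc[R] CDual R (CDual R H) :=
  BialgEquiv.ofBijective (R := R) (A := H) (B := CDual R (CDual R H)) (evalBialgHom R H)
    (evalBialgHom_bijective R H)

variable {R H}

@[simp] theorem evalBialgEquiv_apply (a : H) (f : CDual R H) : evalBialgEquiv R H a f = f a := rfl

end DoubleDual

end Fermat.Agent.TW.FLAT.CartierDual7
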