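/-
Programme T (S56), chapter FLAT, brick (LL-COUNT), part 4 (= helper3's (U4)) — helper9.

THE CYCLOTOMIC CHARACTER VERSUS THE TAME CHARACTER.  `F` a `p`-adic field (model of
`PT.LOC.Interface12`) containing a primitive `p`-th root of unity `ζ`; `π` a uniformizer,
`‖p‖ = ‖π‖ ^ e`.

* `snorm_zeta_sub_one_lt : ‖ζ - 1‖ < 1`, `res_zeta : res ζ = 1`, `res_geom_sum :
  res (∑_{j<k} ζ^j) = k`, `snorm_zeta_pow_sub_one : ‖ζ^k - 1‖ = ‖ζ - 1‖` for `p ∤ k`;
* `snorm_zeta_sub_one_pow : ‖ζ - 1‖ ^ (p - 1) = ‖p‖`;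
* `exists_snorm_eq_pow` (every nonzero integral element has norm `‖π‖ ^ n`), `exists_ell :
  ∃ ℓ > 0, ‖ζ - 1‖ = ‖π‖ ^ ℓ ∧ ℓ * (p - 1) = e`;
* `exists_map_zeta_eq : ∃ c, 0 < c ∧ c < p ∧ σ ζ = ζ ^ c` for `σ ∈ Gal(F/E)`;
* `thetaX_zeta_sub_one : [σ (ζ - 1) / (ζ - 1)] = c` when `σ ζ = ζ ^ c`;
* **(U4)** `theta0_pow_eq : θ₀(τ) ^ ℓ = c` for `τ` in the inertia group with `τ ζ = ζ ^ c`,
  `‖ζ - 1‖ = ‖π‖ ^ ℓ` (so `ω = θ₀ ^ (e/(p-1))` on inertia).
-/
import Mathlib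
import Fermat.Agent.TW.FLAT.UnitFil9
import Fermat.Agent.TW.FLAT.UnitPow9

set_option autoImplicit false
set_option linter.unusedSectionVars false

open scoped Fermat.Agent.PT.LOC.Interface12 Fermat.Agent.PT.LOC.StructureTower27
open Fermat.Agent.PT.LOC.Interface12 Fermat.Agent.PT.LOC.Structure14
  Fermat.Agent.PT.LOC.StructureNorm14 Fermat.Agent.PT.LOC.StructureTower27
  Fermat.Agent.PT.LOC.StructureTowerEF27 Fermat.Agent.PT.LOC.RootsUnity14
  Fermat.Agent.PT.LOC.Unram11 Fermat.Agent.TW.LOC.TameInertia4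
  Fermat.Agent.TW.FLAT.UnitFil9 Fermat.Agent.TW.FLAT.UnitPow9

namespace Fermat.Agent.TW.FLAT.CycloTheta9

noncomputable section

variable {p : ℕ} [Fact p.Prime] {F : Type} [Field F] [Algebra ℚ_[p] F] [FiniteDimensional ℚ_[p] F]

/-- The norm is multiplicative on finite products. -/
theorem snorm_prod {ι : Type*} (s : Finset ι) (f : ι → F) :
    snorm p F (∏ i ∈ s, f i) = ∏ i ∈ s, snorm p F (f i) := by
  classical
  induction s using Finset.induction_on with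
  | empty => simp [snorm_one]
  | insert a s ha ih => rw [Finset.prod_insert ha, Finset.prod_insert ha, snorm_mul, ih]

/-- An integral element with nonzero residue class has norm `1`. -/
theorem snorm_eq_one_of_res_ne_zero {a : F} (ha : a ∈ intRing p F) (h : res p F a ≠ 0) :
    snorm p F a = 1 := by
  have h1 : snorm p F a ≤ 1 := (mem_intRing_iff_snorm a).1 ha
  rcases h1.lt_or_eq with h2 | h2
  · exact absurd ((res_eq_zero_iff ha).2 h2) h
  · exact h2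

/-- Every nonzero integral element has norm `‖π‖ ^ n`. -/
theorem exists_snorm_eq_pow {π : F} (hπ : IsUniformizer p F π) {x : F} (hx0 : x ≠ 0)
    (hx : x ∈ intRing p F) : ∃ n : ℕ, snorm p F x = snorm p F π ^ n := by
  have h0 : π ≠ 0 := hπ.2.1
  have h1 := snorm_eq_zpow p F (Units.mk0 π h0) (by simpa using hπ) (Units.mk0 x hx0)
  simp only [Units.val_mk0] at h1
  have hn : 0 ≤ ord p F (Units.mk0 x hx0) :=
    (mem_intRing_iff_ord p F (Units.mk0 x hx0)).1 (by simpa using hx)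
  refine ⟨(ord p F (Units.mk0 x hx0)).toNat, ?_⟩
  rw [h1, ← zpow_natCast, Int.toNat_of_nonneg hn]

theorem snorm_pow_injective {π : F} (hπ : IsUniformizer p F π) {m n : ℕ}
    (h : snorm p F π ^ m = snorm p F π ^ n) : m = n :=
  pow_right_injective₀ (snorm_uniformizer_pos hπ) (snorm_uniformizer_lt_one p F π hπ).ne h

section Zeta

variable {ζ : F} (hζ : IsPrimitiveRoot ζ p)

include hζ

theorem zeta_ne_zero : ζ ≠ 0 := hζ.ne_zero (Fact.out : p.Prime).ne_zero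

theorem zeta_sub_one_ne_zero : ζ - 1 ≠ 0 :=
  sub_ne_zero.2 (hζ.ne_one (Fact.out : p.Prime).one_lt)

theorem zeta_mem_unitFil_one : Units.mk0 ζ (zeta_ne_zero hζ) ∈ unitFil p F 1 := by
  apply mem_unitFil_one_of_pow_mem
  have : (Units.mk0 ζ (zeta_ne_zero hζ)) ^ p = 1 := by
    ext
    rw [Units.val_pow_eq_pow_val, Units.val_mk0, hζ.pow_eq_one, Units.val_one]
  rw [this]
  exact one_mem _

theorem snorm_zeta_sub_one_lt : snorm p F (ζ - 1) < 1 := by
  have := snorm_sub_one_lt_of_mem one_pos (zeta_mem_unitFil_one hζ)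
  rwa [Units.val_mk0] at this

theorem zeta_mem_intRing : ζ ∈ intRing p F := by
  have := (zeta_mem_unitFil_one hζ).1.1
  rwa [Units.val_mk0] at this

theorem res_zeta : res p F ζ = 1 := by
  rw [← res_one (p := p) (F := F), res_eq_res_iff (zeta_mem_intRing hζ) (one_mem _)]
  exact snorm_zeta_sub_one_lt hζ

theorem geom_sum_mem (k : ℕ) : ∑ j ∈ Finset.range k, ζ ^ j ∈ intRing p F :=
  sum_mem fun j _ => pow_mem (zeta_mem_intRing hζ) j

theorem res_geom_sum (k : ℕ) : res p F (∑ j ∈ Finset.range k, ζ ^ j) = (k : resF p F) := by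
  induction k with
  | zero => simp [res_zero]
  | succ k ih =>
    rw [Finset.sum_range_succ, res_add (geom_sum_mem hζ k) (pow_mem (zeta_mem_intRing hζ) k), ih,
      res_pow (zeta_mem_intRing hζ), res_zeta hζ, one_pow, Nat.cast_succ]

theorem snorm_geom_sum {k : ℕ} (hk : ¬ p ∣ k) :
    snorm p F (∑ j ∈ Finset.range k, ζ ^ j) = 1 := by
  apply snorm_eq_one_of_res_ne_zero (geom_sum_mem hζ k)
  rw [res_geom_sum hζ]
  intro h0
  exact hk ((CharP.cast_eq_zero_iff (resF p F) p k).1 h0)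

theorem snorm_zeta_pow_sub_one {k : ℕ} (hk : ¬ p ∣ k) :
    snorm p F (ζ ^ k - 1) = snorm p F (ζ - 1) := by
  rw [← geom_sum_mul, snorm_mul, snorm_geom_sum hζ hk, one_mul]

/-- `‖ζ - 1‖ ^ (p - 1) = ‖p‖`. -/
theorem snorm_zeta_sub_one_pow : snorm p F (ζ - 1) ^ (p - 1) = snorm p F ((p : ℕ) : F) := by
  have hp1 : p - 1 + 1 = p := Nat.sub_add_cancel (Fact.out : p.Prime).one_le
  have hζ' : IsPrimitiveRoot ζ (p - 1 + 1) := by rw [hp1]; exact hζ
  have h := hζ'.prod_one_sub_pow_eq_order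
  have h2 : ((p - 1 : ℕ) : F) + 1 = ((p : ℕ) : F) := by
    rw [← Nat.cast_succ, Nat.succ_eq_add_one, hp1]
  rw [h2] at h
  rw [← h, snorm_prod]
  rw [Finset.prod_congr rfl (g := fun _ => snorm p F (ζ - 1))]
  · rw [Finset.prod_const, Finset.card_range]
  · intro k hk
    rw [Finset.mem_range] at hk
    have hk' : ¬ p ∣ k + 1 := by
      intro hdvd
      have := Nat.le_of_dvd (Nat.succ_pos k) hdvd
      omega
    rw [← snorm_neg, neg_sub, snorm_zeta_pow_sub_one hζ hk']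

/-- The valuation `ℓ` of `ζ - 1` satisfies `ℓ (p - 1) = e`. -/
theorem exists_ell {π : F} (hπ : IsUniformizer p F π) {e : ℕ}
    (he : snorm p F ((p : ℕ) : F) = snorm p F π ^ e) :
    ∃ ℓ : ℕ, 0 < ℓ ∧ snorm p F (ζ - 1) = snorm p F π ^ ℓ ∧ ℓ * (p - 1) = e := by
  have hint : ζ - 1 ∈ intRing p F := sub_mem (zeta_mem_intRing hζ) (one_mem _)
  obtain ⟨ℓ, hℓ⟩ := exists_snorm_eq_pow hπ (zeta_sub_one_ne_zero hζ) hint
  refine ⟨ℓ, ?_, hℓ, ?_⟩
  · rcases Nat.eq_zero_or_pos ℓ with h0 | h0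
    · have := snorm_zeta_sub_one_lt hζ
      rw [hℓ, h0, pow_zero] at this
      exact absurd this (lt_irrefl _)
    · exact h0
  · have h1 := snorm_zeta_sub_one_pow hζ
    rw [hℓ, ← pow_mul, he] at h1
    exact snorm_pow_injective hπ h1

section Galois

variable {E : Type} [Field E] [Algebra ℚ_[p] E] [FiniteDimensional ℚ_[p] E] [Algebra E F]
  [IsScalarTower ℚ_[p] E F] [IsGalois E F]

/-- Galois automorphisms raise `ζ` to a power prime to `p`. -/
theorem exists_map_zeta_eq (σ : F ≃ₐ[E] F) : ∃ c : ℕ, 0 < c ∧ c < p ∧ σ ζ = ζ ^ c := by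
  have h1 : (σ ζ) ^ p = 1 := by rw [← map_pow, hζ.pow_eq_one, map_one]
  obtain ⟨c, hc, hc'⟩ := hζ.eq_pow_of_pow_eq_one h1
  refine ⟨c, ?_, hc, hc'.symm⟩
  rcases Nat.eq_zero_or_pos c with h0 | h0
  · exfalso
    rw [h0, pow_zero] at hc'
    have : σ ζ = σ 1 := by rw [← hc', map_one]
    exact hζ.ne_one (Fact.out : p.Prime).one_lt (σ.injective this)
  · exact h0

/-- `[σ (ζ - 1) / (ζ - 1)] = c` when `σ ζ = ζ ^ c`. -/
theorem thetaX_zeta_sub_one (σ : F ≃ₐ[E] F) {c : ℕ} (hc : σ ζ = ζ ^ c) :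
    ((thetaX p E F σ (Units.mk0 (ζ - 1) (zeta_sub_one_ne_zero hζ)) : (resF p F)ˣ) : resF p F) =
      (c : resF p F) := by
  rw [coe_thetaX_eq_res, Units.val_mk0, map_sub, map_one, hc, ← geom_sum_mul, mul_assoc,
    mul_inv_cancel₀ (zeta_sub_one_ne_zero hζ), mul_one, res_geom_sum hζ]

/-- **(U4)** On the inertia group the cyclotomic character is `θ₀ ^ ℓ`, `ℓ = ord (ζ - 1) =
e/(p-1)`: if `τ ζ = ζ ^ c` then `θ₀(τ) ^ ℓ = c` in the residue field. -/
theorem theta0_pow_eq (τ : inertia p E F) {c : ℕ} (hc : (τ : F ≃ₐ[E] F) ζ = ζ ^ c) {π : F}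
    (hπ : IsUniformizer p F π) {ℓ : ℕ} (hℓ : snorm p F (ζ - 1) = snorm p F π ^ ℓ) :
    ((theta0 p E F τ : (resF p F)ˣ) : resF p F) ^ ℓ = (c : resF p F) := by
  have h0 : π ≠ 0 := hπ.2.1
  have h1 := thetaX_eq_theta0_zpow p E F τ (Units.mk0 (ζ - 1) (zeta_sub_one_ne_zero hζ))
  have h2 := snorm_eq_zpow p F (Units.mk0 π h0) (by simpa using hπ)
    (Units.mk0 (ζ - 1) (zeta_sub_one_ne_zero hζ))
  simp only [Units.val_mk0] at h2
  have h3 : ord p F (Units.mk0 (ζ - 1) (zeta_sub_one_ne_zero hζ)) = (ℓ : ℤ) := by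
    rw [hℓ, ← zpow_natCast] at h2
    exact (zpow_right_injective₀ (snorm_uniformizer_pos hπ)
      (snorm_uniformizer_lt_one p F π hπ).ne h2).symm
  rw [h3, zpow_natCast] at h1
  rw [← thetaX_zeta_sub_one hζ (τ : F ≃ₐ[E] F) hc, h1, Units.val_pow_eq_pow_val]

end Galois

end Zeta

end

end Fermat.Agent.TW.FLAT.CycloTheta9
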