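/-
Programme T (S56), chapter FLAT, brick (LL-COH), part 12 — helper3.

* `exists_eigenvector`, `exists_diag`: a `2 × 2` matrix over a field whose characteristic polynomial
  has two distinct roots `α ≠ β` in the field is diagonalisable: `P' B P = diag(α, β)`;
* `exists_diag_of_split`: for `S : LLStruct p rbar`, if the characteristic polynomial of `ρ̄(g₀)`
  splits over `k` (S56's `hsplit`), then `ρ̄(g₀)` is diagonalisable over `k`.
-/
import Mathlib
import Fermat.Agent.TW.FLAT.EntryBridgeSelf3

set_option autoImplicit false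

open Polynomial Matrix

namespace Fermat.Agent.TW.FLAT.DiagSplit3

variable {k : Type*} [Field k]

/-- An eigenvector for a root of the characteristic polynomial. -/
theorem exists_eigenvector (B : Matrix (Fin 2) (Fin 2) k) (α : k)
    (hα : B.charpoly.eval α = 0) : ∃ v : Fin 2 → k, v ≠ 0 ∧ B *ᵥ v = α • v := by
  rw [Matrix.eval_charpoly] at hα
  obtain ⟨v, hv, h⟩ := Matrix.exists_mulVec_eq_zero_iff.2 hα
  refine ⟨v, hv, ?_⟩
  rw [Matrix.sub_mulVec] at h
  have h2 : (Matrix.scalar (Fin 2) α) *ᵥ v = α • v := by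
    ext i
    simp [Matrix.mulVec, dotProduct, Matrix.scalar_apply, Matrix.diagonal_apply]
  rw [h2] at h
  exact (sub_eq_zero.1 h).symm

/-- A `2 × 2` matrix whose characteristic polynomial has two distinct roots in `k` is
diagonalisable over `k`. -/
theorem exists_diag (B : Matrix (Fin 2) (Fin 2) k) {α β : k} (hαβ : α ≠ β)
    (hchar : B.charpoly = (X - C α) * (X - C β)) :
    ∃ P P' : Matrix (Fin 2) (Fin 2) k, P * P' = 1 ∧ P' * P = 1 ∧
      P' * B * P = Matrix.diagonal ![α, β] := by
  obtain ⟨v, hv, hBv⟩ := exists_eigenvector B α (by rw [hchar]; simp)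
  obtain ⟨w, hw, hBw⟩ := exists_eigenvector B β (by rw [hchar]; simp)
  set P : Matrix (Fin 2) (Fin 2) k := Matrix.of fun i j => ![v, w] j i with hP
  have hPc : ∀ c : Fin 2 → k, P *ᵥ c = c 0 • v + c 1 • w := by
    intro c
    ext i
    simp [hP, Matrix.mulVec, dotProduct, Fin.sum_univ_two, mul_comm]
  have hdet : P.det ≠ 0 := by
    intro h0
    obtain ⟨c, hc, hPc0⟩ := Matrix.exists_mulVec_eq_zero_iff.2 h0
    rw [hPc] at hPc0
    have h1 : B *ᵥ (c 0 • v + c 1 • w) = 0 := by rw [hPc0, Matrix.mulVec_zero]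
    rw [Matrix.mulVec_add, Matrix.mulVec_smul, Matrix.mulVec_smul, hBv, hBw] at h1
    -- `c 0 α v + c 1 β w = 0` and `c 0 v + c 1 w = 0`
    have h2 : (c 0 * (α - β)) • v = 0 := by
      have : c 0 • α • v + c 1 • β • w - β • (c 0 • v + c 1 • w) = 0 := by
        rw [h1, hPc0, smul_zero, sub_zero]
      rw [← this]
      ext i
      simp only [Pi.smul_apply, Pi.add_apply, Pi.sub_apply, smul_eq_mul]
      ring
    have hc0 : c 0 = 0 := by
      rcases smul_eq_zero.1 h2 with h | h
      · exact (mul_eq_zero.1 h).resolve_right (sub_ne_zero.2 hαβ)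
      · exact absurd h hv
    have hc1 : c 1 = 0 := by
      rw [hc0, zero_smul, zero_add] at hPc0
      exact (smul_eq_zero.1 hPc0).resolve_right hw
    apply hc
    ext i
    fin_cases i
    · exact hc0
    · exact hc1
  have hunit : IsUnit P.det := isUnit_iff_ne_zero.2 hdet
  refine ⟨P, P⁻¹, Matrix.mul_nonsing_inv P hunit, Matrix.nonsing_inv_mul P hunit, ?_⟩
  have hBP : B * P = P * Matrix.diagonal ![α, β] := by
    ext i j
    have hv' := congrFun hBv i
    have hw' := congrFun hBw i
    simp only [Matrix.mulVec, dotProduct, Fin.sum_univ_two, Pi.smul_apply, smul_eq_mul] at hv' hw'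
    fin_cases j
    · simp [hP, Matrix.mul_apply, Fin.sum_univ_two, Matrix.diagonal_apply]
      linear_combination hv'
    · simp [hP, Matrix.mul_apply, Fin.sum_univ_two, Matrix.diagonal_apply]
      linear_combination hw'
  rw [mul_assoc, hBP, ← mul_assoc, Matrix.nonsing_inv_mul P hunit, one_mul]

section Struct

open Fermat.Agent.TW.LOC.Defs2 Fermat.Agent.TW.FLAT.LLPackage3
  Fermat.Agent.TW.FLAT.EntryBridgeSelf3
open Fermat.Agent.TW.DEF.Basic1 (GQ M2)

variable {p : ℕ} [Fact p.Prime] {k : Type} [Field k] [CharP k p] [Finite k]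
  {rbar : GQ →* M2 k}

/-- If the characteristic polynomial of `ρ̄(g₀)` splits over `k`, then `ρ̄(g₀)` is diagonalisable
over `k` (its discriminant is nonzero). -/
theorem exists_diag_of_split (S : LLStruct p rbar)
    (hsplit : ∃ α β : k, (rbar (rq p S.g₀)).charpoly = (X - C α) * (X - C β)) :
    ∃ (P P' : M2 k) (l m : k), P * P' = 1 ∧ P' * P = 1 ∧
      P' * rbar (rq p S.g₀) * P = Matrix.diagonal ![l, m] := by
  obtain ⟨α, β, h⟩ := hsplit
  have hαβ : α ≠ β := by
    intro hαβ
    subst hαβ
    rw [Matrix.charpoly_fin_two, S.htr, S.hdet] at h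
    have h1 := congrArg (fun f => Polynomial.coeff f 1) h
    have h0 := congrArg (fun f => Polynomial.coeff f 0) h
    have e : (X - C α) * (X - C α) = X ^ 2 - C (2 * α) * X + C (α ^ 2) := by
      simp only [map_mul, map_pow, map_ofNat]
      ring
    rw [e] at h1 h0
    simp only [coeff_add, coeff_sub, coeff_X_pow, coeff_C_mul, coeff_X_one, coeff_C,
      coeff_X_zero, mul_one, mul_zero] at h1 h0
    norm_num at h1 h0
    apply disc_ne_zero S
    apply (ZMod.castHom (dvd_refl p) k).injective
    rw [map_zero, map_sub, map_pow, map_mul, map_ofNat]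
    have h1' : ZMod.castHom (dvd_refl p) k S.a₀ = 2 * α := h1
    have h0' : ZMod.castHom (dvd_refl p) k S.b₀ = α ^ 2 := h0
    rw [h1', h0']
    ring
  obtain ⟨P, P', h1, h2, h3⟩ := exists_diag (rbar (rq p S.g₀)) hαβ h
  exact ⟨P, P', α, β, h1, h2, h3⟩

end Struct

end Fermat.Agent.TW.FLAT.DiagSplit3
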