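/-
# TW/FLAT/EisExp6 — (EXP): Eisenstein-type expansions `Σ_{i<e} u_i ϖ^i`

helper6.  Generic ultrametric part (`K` a normed field with `IsUltrametricDist`), then the
concrete form over `Ω = PadicAlgCl p` with `Gam p F₀ = Gal(Ω/F₀)` (lead's `UnramBase0`).

Generic (`c = ‖ϖ‖ ^ e ∈ (0,1)`, `u : ℕ → K` with `∀ i < e, u i = 0 ∨ ∃ n : ℤ, ‖u i‖ = c ^ n`):
* `norm_term_le` : `‖u i‖ * ‖ϖ‖ ^ i ≤ ‖∑ j ∈ range e, u j * ϖ ^ j‖` for `i < e`.
* `eq_zero_of_sum_eq_zero` : the sum vanishes only if all `u i = 0` (`i < e`).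
* `exists_zpow_norm_eq` : a nonzero sum has norm in `‖ϖ‖ ^ ℤ`.
* `norm_le_of_norm_lt_one` : a sum of norm `< 1` has norm `≤ ‖ϖ‖`.
* `exists_zpow_of_unramified (F : Subfield K)` : if `π₀ ∈ F`, `0 < ‖π₀‖ < 1` and
  `∀ x ∈ F, ‖x‖ < 1 → ‖x‖ ≤ ‖π₀‖`, every nonzero `x ∈ F` has `‖x‖ = ‖π₀‖ ^ n`.

Over an intermediate field `F` of `K/k` with uniformizer `π₀` (norm form), `‖ϖ‖ ^ e = ‖π₀‖`:
* `aeval_ne_zero` : `P ≠ 0`, `natDegree P < e` ⇒ `aeval ϖ P ≠ 0`.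
* `le_natDegree_minpoly` : `e ≤ natDegree (minpoly F ϖ)`.
* `exists_zpow_of_mem_adjoin` : if `natDegree (minpoly F ϖ) = e`, every nonzero element of
  `F(ϖ)` has norm in `‖ϖ‖ ^ ℤ`.

Concrete (`F₀ : IntermediateField ℚ_[p] Ω`, `hunr : ∀ x ∈ F₀, ‖x‖ < 1 → ‖x‖ ≤ ‖(p:Ω)‖`):
* `exists_gam_of_root`, `natDegree_minpoly_le_card`.
* `eisenstein_of_orbit` : `‖ϖ‖ ^ e = ‖p‖`, orbit of `ϖ` under `Gam p F₀` inside a finset `S` with
  `S.card ≤ e` ⇒ `natDegree (minpoly F₀ ϖ) = e ∧ S.card = e ∧ (∀ y ∈ S, ∃ σ ∈ Gam p F₀, σ ϖ = y) ∧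
  (∀ x ∈ F₀⟮ϖ⟯, x ≠ 0 → ∃ n : ℤ, ‖x‖ = ‖ϖ‖ ^ n) ∧ (∀ x ∈ F₀⟮ϖ⟯, ‖x‖ < 1 → ‖x‖ ≤ ‖ϖ‖)`.
* `norm_le_of_mem_adjoin_union` : the last clause for
  `x ∈ IntermediateField.adjoin ℚ_[p] (↑F₀ ∪ {ϖ})` (shape of `RamBridge0.isUniformizer_of_norm`).
-/
import Mathlib
import Fermat.Agent.TW.FLAT.UnramBase0

set_option autoImplicit false
set_option linter.unusedSectionVars false

namespace Fermat.Agent.TW.FLAT.EisExp6

open scoped NNReal

noncomputable section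

variable {K : Type*} [NormedField K] [IsUltrametricDist K]

/-- Distinct integer powers of `s ∈ (0,1)` are distinct. -/
theorem zpow_ne_zpow {s : ℝ} (h0 : 0 < s) (h1 : s < 1) {a b : ℤ} (hab : a ≠ b) : s ^ a ≠ s ^ b :=
  fun h => hab (zpow_right_injective₀ h0 h1.ne h)

/-- **(EXP), lower bound.**  `c = ‖ϖ‖ ^ e ∈ (0,1)`, coefficients `u i` with `‖u i‖ ∈ c^ℤ ∪ {0}`:
every term is bounded by the norm of the sum `Σ_{i<e} u i ϖ^i`. -/
theorem norm_term_le {c : ℝ} {ϖ : K} {e : ℕ} (hc0 : 0 < c) (hc1 : c < 1)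
    (hϖ : ‖ϖ‖ ^ e = c) (u : ℕ → K) (hu : ∀ i < e, u i = 0 ∨ ∃ n : ℤ, ‖u i‖ = c ^ n) {i : ℕ}
    (hi : i < e) : ‖u i‖ * ‖ϖ‖ ^ i ≤ ‖∑ j ∈ Finset.range e, u j * ϖ ^ j‖ := by
  classical
  have he : e ≠ 0 := by omega
  have hs0 : 0 < ‖ϖ‖ := by
    rcases (norm_nonneg ϖ).lt_or_eq with h | h
    · exact h
    · rw [← h, zero_pow he] at hϖ; exact absurd hϖ hc0.ne
  have hs1 : ‖ϖ‖ < 1 := by
    by_contra h
    rw [not_lt] at h
    have := one_le_pow₀ (n := e) h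
    rw [hϖ] at this
    exact absurd hc1 (not_lt.mpr this)
  -- the nonzero terms
  set t : Finset ℕ := (Finset.range e).filter (fun j => u j ≠ 0) with ht
  have hsum : ∑ j ∈ Finset.range e, u j * ϖ ^ j = ∑ j ∈ t, u j * ϖ ^ j := by
    rw [ht, Finset.sum_filter]
    apply Finset.sum_congr rfl
    intro j _
    by_cases h : u j = 0
    · simp [h]
    · simp [h]
  -- exponents
  have hexp : ∀ j ∈ t, ∃ n : ℤ, ‖u j * ϖ ^ j‖ = ‖ϖ‖ ^ (e * n + j : ℤ) := by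
    intro j hj
    rw [ht, Finset.mem_filter, Finset.mem_range] at hj
    rcases hu j hj.1 with h | ⟨n, hn⟩
    · exact absurd h hj.2
    · refine ⟨n, ?_⟩
      rw [norm_mul, norm_pow, hn, ← hϖ, zpow_add₀ hs0.ne', zpow_mul, zpow_natCast, zpow_natCast]
  have hpair : Set.Pairwise (t : Set ℕ) (fun a b => ‖u a * ϖ ^ a‖₊ ≠ ‖u b * ϖ ^ b‖₊) := by
    intro a ha b hb hab
    obtain ⟨n, hn⟩ := hexp a ha
    obtain ⟨m, hm⟩ := hexp b hb
    intro h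
    have h' : ‖u a * ϖ ^ a‖ = ‖u b * ϖ ^ b‖ := congrArg NNReal.toReal h
    rw [hn, hm] at h'
    have hne : (e * n + a : ℤ) ≠ e * m + b := by
      intro h2
      have ha' : a < e := by
        have := ha; rw [Finset.mem_coe, ht, Finset.mem_filter, Finset.mem_range] at this
        exact this.1
      have hb' : b < e := by
        have := hb; rw [Finset.mem_coe, ht, Finset.mem_filter, Finset.mem_range] at this
        exact this.1
      have h3 : ((e * n + a : ℤ)) % e = (e * m + b : ℤ) % e := by rw [h2]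
      rw [Int.add_emod, Int.mul_emod_right, zero_add, Int.emod_emod,
        Int.add_emod (e * m), Int.mul_emod_right, zero_add, Int.emod_emod,
        Int.emod_eq_of_lt (by positivity) (by exact_mod_cast ha'),
        Int.emod_eq_of_lt (by positivity) (by exact_mod_cast hb')] at h3
      exact hab (by exact_mod_cast h3)
    exact zpow_ne_zpow hs0 hs1 hne h'
  have hnn := IsUltrametricDist.nnnorm_sum_eq_sup_of_pairwise_ne hpair
  by_cases hit : i ∈ t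
  · have h1 : ‖u i * ϖ ^ i‖₊ ≤ ‖∑ j ∈ t, u j * ϖ ^ j‖₊ := by
      rw [hnn]
      exact Finset.le_sup (f := fun j => ‖u j * ϖ ^ j‖₊) hit
    rw [hsum]
    have h2 : ‖u i * ϖ ^ i‖ ≤ ‖∑ j ∈ t, u j * ϖ ^ j‖ := by exact_mod_cast h1
    rwa [norm_mul, norm_pow] at h2
  · have : u i = 0 := by
      by_contra h
      exact hit (by rw [ht, Finset.mem_filter, Finset.mem_range]; exact ⟨hi, h⟩)
    rw [this, norm_zero, zero_mul]
    exact norm_nonneg _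

/-- Independence: if `Σ_{i<e} u i ϖ^i = 0` then all `u i = 0`. -/
theorem eq_zero_of_sum_eq_zero {c : ℝ} {ϖ : K} {e : ℕ} (hc0 : 0 < c) (hc1 : c < 1)
    (hϖ : ‖ϖ‖ ^ e = c) (u : ℕ → K) (hu : ∀ i < e, u i = 0 ∨ ∃ n : ℤ, ‖u i‖ = c ^ n)
    (hsum : ∑ j ∈ Finset.range e, u j * ϖ ^ j = 0) {i : ℕ} (hi : i < e) : u i = 0 := by
  have h := norm_term_le hc0 hc1 hϖ u hu hi
  rw [hsum, norm_zero] at h
  have hϖ0 : ‖ϖ‖ ≠ 0 := by
    intro h0
    rw [h0, zero_pow (by omega)] at hϖ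
    exact hc0.ne hϖ
  have h2 : ‖u i‖ * ‖ϖ‖ ^ i = 0 :=
    le_antisymm h (mul_nonneg (norm_nonneg _) (pow_nonneg (norm_nonneg _) _))
  rcases mul_eq_zero.mp h2 with h3 | h3
  · exact norm_eq_zero.mp h3
  · exact absurd h3 (pow_ne_zero i hϖ0)

/-- Value group: a nonzero sum `Σ_{i<e} u i ϖ^i` has norm in `‖ϖ‖^ℤ`. -/
theorem exists_zpow_norm_eq {c : ℝ} {ϖ : K} {e : ℕ} (hc0 : 0 < c) (hc1 : c < 1)
    (hϖ : ‖ϖ‖ ^ e = c) (u : ℕ → K) (hu : ∀ i < e, u i = 0 ∨ ∃ n : ℤ, ‖u i‖ = c ^ n)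
    (hne : ∑ j ∈ Finset.range e, u j * ϖ ^ j ≠ 0) :
    ∃ n : ℤ, ‖∑ j ∈ Finset.range e, u j * ϖ ^ j‖ = ‖ϖ‖ ^ n := by
  classical
  have hϖ0 : 0 < ‖ϖ‖ := by
    rcases (norm_nonneg ϖ).lt_or_eq with h | h
    · exact h
    · have he : e ≠ 0 := by
        rintro rfl
        rw [pow_zero] at hϖ
        exact hc1.ne hϖ.symm
      rw [← h, zero_pow he] at hϖ; exact absurd hϖ hc0.ne
  -- the sum is bounded by the largest term
  obtain ⟨i, hi, hmax⟩ : ∃ i ∈ Finset.range e, ‖∑ j ∈ Finset.range e, u j * ϖ ^ j‖ ≤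
      ‖u i * ϖ ^ i‖ := by
    have hne' : (Finset.range e).Nonempty := by
      rw [Finset.nonempty_iff_ne_empty]
      intro h0
      rw [h0, Finset.sum_empty] at hne
      exact hne rfl
    obtain ⟨i, hi, h⟩ := IsUltrametricDist.exists_norm_finsetSum_le_of_nonempty hne'
      (fun j => u j * ϖ ^ j)
    exact ⟨i, hi, h⟩
  rw [Finset.mem_range] at hi
  have hle := norm_term_le hc0 hc1 hϖ u hu hi
  have heq : ‖∑ j ∈ Finset.range e, u j * ϖ ^ j‖ = ‖u i‖ * ‖ϖ‖ ^ i := by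
    rw [norm_mul, norm_pow] at hmax
    exact le_antisymm hmax hle
  rcases hu i hi with h0 | ⟨n, hn⟩
  · exfalso
    rw [h0, norm_zero, zero_mul] at heq
    exact hne (norm_eq_zero.mp heq)
  · refine ⟨e * n + i, ?_⟩
    rw [heq, hn, ← hϖ, zpow_add₀ hϖ0.ne', zpow_mul, zpow_natCast, zpow_natCast]

/-- Uniformizer property: a sum `Σ_{i<e} u i ϖ^i` of norm `< 1` has norm `≤ ‖ϖ‖`. -/
theorem norm_le_of_norm_lt_one {c : ℝ} {ϖ : K} {e : ℕ} (hc0 : 0 < c) (hc1 : c < 1)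
    (hϖ : ‖ϖ‖ ^ e = c) (u : ℕ → K) (hu : ∀ i < e, u i = 0 ∨ ∃ n : ℤ, ‖u i‖ = c ^ n)
    (hlt : ‖∑ j ∈ Finset.range e, u j * ϖ ^ j‖ < 1) :
    ‖∑ j ∈ Finset.range e, u j * ϖ ^ j‖ ≤ ‖ϖ‖ := by
  by_cases hne : ∑ j ∈ Finset.range e, u j * ϖ ^ j = 0
  · rw [hne, norm_zero]; exact norm_nonneg _
  obtain ⟨n, hn⟩ := exists_zpow_norm_eq hc0 hc1 hϖ u hu hne
  have hϖ0 : 0 < ‖ϖ‖ := by
    rcases (norm_nonneg ϖ).lt_or_eq with h | h
    · exact h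
    · exfalso
      rw [← h] at hn
      have : ‖∑ j ∈ Finset.range e, u j * ϖ ^ j‖ ≠ 0 := fun h0 => hne (norm_eq_zero.mp h0)
      rcases eq_or_ne n 0 with rfl | hn0
      · rw [zpow_zero] at hn; rw [hn] at hlt; exact lt_irrefl _ hlt
      · rw [zero_zpow n hn0] at hn; exact this hn
  have hϖ1 : ‖ϖ‖ < 1 := by
    by_contra h
    rw [not_lt] at h
    have := one_le_pow₀ (n := e) h
    rw [hϖ] at this
    exact absurd hc1 (not_lt.mpr this)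
  rw [hn] at hlt ⊢
  have hn1 : 1 ≤ n := by
    by_contra h
    rw [not_le] at h
    have hn0 : n ≤ 0 := by omega
    have : 1 ≤ ‖ϖ‖ ^ n := by
      have h2 : ‖ϖ‖ ^ n = (‖ϖ‖ ^ (-n).toNat)⁻¹ := by
        rw [← zpow_natCast, Int.toNat_of_nonneg (by omega), zpow_neg, inv_inv]
      rw [h2]
      exact (one_le_inv₀ (pow_pos hϖ0 _)).mpr (pow_le_one₀ hϖ0.le hϖ1.le)
    exact absurd hlt (not_lt.mpr this)
  calc ‖ϖ‖ ^ n ≤ ‖ϖ‖ ^ (1 : ℤ) := zpow_le_zpow_right_of_le_one₀ hϖ0 hϖ1.le hn1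
    _ = ‖ϖ‖ := zpow_one _

/-- The value group of an unramified subfield: if `π₀ ∈ F` is a uniformizer of `F` in norm form,
every nonzero element of `F` has norm in `‖π₀‖^ℤ`. -/
theorem exists_zpow_of_unramified (F : Subfield K) {π₀ : K} (hπF : π₀ ∈ F) (h0 : π₀ ≠ 0)
    (h1 : ‖π₀‖ < 1) (hunr : ∀ x ∈ F, ‖x‖ < 1 → ‖x‖ ≤ ‖π₀‖) {x : K} (hx : x ∈ F) (hx0 : x ≠ 0) :
    ∃ n : ℤ, ‖x‖ = ‖π₀‖ ^ n := by
  have hc0 : 0 < ‖π₀‖ := norm_pos_iff.mpr h0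
  have hxpos : 0 < ‖x‖ := norm_pos_iff.mpr hx0
  obtain ⟨m, hm1, hm2⟩ := exists_mem_Ioc_zpow hxpos ((one_lt_inv₀ hc0).mpr h1)
  rw [inv_zpow'] at hm1 hm2
  refine ⟨-(m + 1), ?_⟩
  set y : K := x * π₀ ^ (m + 1) with hy
  have hyF : y ∈ F := F.mul_mem hx (F.zpow_mem hπF _)
  have hynorm : ‖y‖ = ‖x‖ * ‖π₀‖ ^ (m + 1) := by rw [hy, norm_mul, norm_zpow]
  have hpos : 0 < ‖π₀‖ ^ (m + 1) := zpow_pos hc0 _
  have hyle : ‖y‖ ≤ 1 := by
    rw [hynorm]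
    have := mul_le_mul_of_nonneg_right hm2 hpos.le
    rwa [← zpow_add₀ hc0.ne', neg_add_cancel, zpow_zero] at this
  have hygt : ‖π₀‖ < ‖y‖ := by
    rw [hynorm]
    have := mul_lt_mul_of_pos_right hm1 hpos
    rwa [← zpow_add₀ hc0.ne', show -m + (m + 1) = 1 by ring, zpow_one] at this
  have hy1 : ‖y‖ = 1 := by
    by_contra hne
    have := hunr y hyF (lt_of_le_of_ne hyle hne)
    exact absurd hygt (not_lt.mpr this)
  rw [hynorm] at hy1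
  rw [zpow_neg]
  exact eq_inv_of_mul_eq_one_left hy1

/-! ### Polynomial form over a subfield -/

section subfield

open Polynomial

variable {k : Type*} [Field k] [Algebra k K] (F : IntermediateField k K)

/-- A polynomial of degree `< e` over an unramified subfield, evaluated at `ϖ` with
`‖ϖ‖ ^ e = ‖π₀‖`, is a sum with coefficients of norm in `‖π₀‖^ℤ ∪ {0}`. -/
theorem aeval_eq_sum (P : (↥F)[X]) {e : ℕ} (hdeg : P.natDegree < e) (ϖ : K) :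
    aeval ϖ P = ∑ j ∈ Finset.range e, ((P.coeff j : ↥F) : K) * ϖ ^ j := by
  rw [aeval_eq_sum_range' hdeg]
  apply Finset.sum_congr rfl
  intro j _
  rw [Algebra.smul_def]; rfl

variable {π₀ : K} (hπF : π₀ ∈ F) (h0 : π₀ ≠ 0) (h1 : ‖π₀‖ < 1)
  (hunr : ∀ x ∈ F, ‖x‖ < 1 → ‖x‖ ≤ ‖π₀‖) {ϖ : K} {e : ℕ} (hϖ : ‖ϖ‖ ^ e = ‖π₀‖)
include hπF h0 h1 hunr hϖ

theorem coeff_cases (P : (↥F)[X]) (i : ℕ) :
    ((P.coeff i : ↥F) : K) = 0 ∨ ∃ n : ℤ, ‖((P.coeff i : ↥F) : K)‖ = ‖π₀‖ ^ n := by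
  by_cases h : ((P.coeff i : ↥F) : K) = 0
  · exact Or.inl h
  · right
    exact exists_zpow_of_unramified F.toSubfield hπF h0 h1 hunr (P.coeff i).2 h

/-- A nonzero polynomial of degree `< e` over `F` does not vanish at `ϖ`. -/
theorem aeval_ne_zero {P : (↥F)[X]} (hP : P ≠ 0) (hdeg : P.natDegree < e) : aeval ϖ P ≠ 0 := by
  intro hzero
  apply hP
  rw [aeval_eq_sum F P hdeg ϖ] at hzero
  apply Polynomial.ext
  intro i
  rw [coeff_zero]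
  by_cases hi : i < e
  · have := eq_zero_of_sum_eq_zero (norm_pos_iff.mpr h0) h1 hϖ
      (fun j => ((P.coeff j : ↥F) : K)) (fun j _ => coeff_cases F hπF h0 h1 hunr hϖ P j) hzero hi
    exact Subtype.ext this
  · exact coeff_eq_zero_of_natDegree_lt (by omega)

/-- The degree of `ϖ` over `F` is at least `e`. -/
theorem le_natDegree_minpoly (hint : IsIntegral (↥F) ϖ) : e ≤ (minpoly (↥F) ϖ).natDegree := by
  by_contra hlt
  rw [not_le] at hlt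
  exact aeval_ne_zero F hπF h0 h1 hunr hϖ (minpoly.ne_zero hint) hlt (minpoly.aeval _ _)

/-- If the degree of `ϖ` over `F` is `e`, every nonzero element of `F(ϖ)` has norm in `‖ϖ‖^ℤ`. -/
theorem exists_zpow_of_mem_adjoin (hint : IsIntegral (↥F) ϖ)
    (hdeg : (minpoly (↥F) ϖ).natDegree = e) {x : K} (hx : x ∈ IntermediateField.adjoin (↥F) {ϖ})
    (hx0 : x ≠ 0) : ∃ n : ℤ, ‖x‖ = ‖ϖ‖ ^ n := by
  have hx' : x ∈ Algebra.adjoin (↥F) {ϖ} := by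
    have := IntermediateField.adjoin_simple_toSubalgebra_of_isAlgebraic hint.isAlgebraic
    rw [← this]; exact hx
  rw [Algebra.adjoin_singleton_eq_range_aeval] at hx'
  obtain ⟨P, rfl⟩ := hx'
  have hmonic := minpoly.monic hint
  have hmod : aeval ϖ P = aeval ϖ (P %ₘ minpoly (↥F) ϖ) := by
    conv_lhs => rw [← modByMonic_add_div P (minpoly (↥F) ϖ)]
    rw [map_add, map_mul, minpoly.aeval, zero_mul, add_zero]
  have hne1 : minpoly (↥F) ϖ ≠ 1 := minpoly.ne_one _ _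
  have hdeg' : (P %ₘ minpoly (↥F) ϖ).natDegree < e := by
    rw [← hdeg]
    exact natDegree_modByMonic_lt P hmonic hne1
  change aeval ϖ P ≠ 0 at hx0
  change ∃ n : ℤ, ‖aeval ϖ P‖ = ‖ϖ‖ ^ n
  rw [hmod, aeval_eq_sum F _ hdeg' ϖ] at hx0 ⊢
  exact exists_zpow_norm_eq (norm_pos_iff.mpr h0) h1 hϖ _
    (fun j _ => coeff_cases F hπF h0 h1 hunr hϖ _ j) hx0

end subfield

/-! ### Conjugates in `Ω = PadicAlgCl p` -/

section conj

open Polynomial Fermat.Agent.TW.FLAT.UnramBase0 Fermat.Agent.TW.LOC.Defs2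

variable (p : ℕ) [Fact p.Prime]

local notation "Ω" => PadicAlgCl p

variable (F₀ : IntermediateField ℚ_[p] (PadicAlgCl p))

/-- Every root of the minimal polynomial of `ϖ` over `F₀` is a conjugate of `ϖ` under
`Gam p F₀ = Gal(Ω/F₀)`. -/
theorem exists_gam_of_root (ϖ y : PadicAlgCl p) (hy : aeval y (minpoly (↥F₀) ϖ) = 0) :
    ∃ σ ∈ Gam p F₀, σ ϖ = y := by
  have halg : IsAlgebraic (↥F₀) ϖ := Algebra.IsAlgebraic.isAlgebraic ϖ
  obtain ⟨σ, hσ⟩ := minpoly.exists_algEquiv_of_root' halg hy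
  refine ⟨σ.restrictScalars ℚ_[p], ?_, hσ⟩
  rw [IntermediateField.mem_fixingSubgroup_iff]
  intro x hx
  exact σ.commutes ⟨x, hx⟩

/-- The degree of `ϖ` over `F₀` is at most the size of any finite set containing its orbit. -/
theorem natDegree_minpoly_le_card (ϖ : PadicAlgCl p) (S : Finset (PadicAlgCl p))
    (hS : ∀ σ ∈ Gam p F₀, σ ϖ ∈ S) : (minpoly (↥F₀) ϖ).natDegree ≤ S.card := by
  classical
  have hint : IsIntegral (↥F₀) ϖ := (Algebra.IsAlgebraic.isAlgebraic ϖ).isIntegral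
  have hsep : (minpoly (↥F₀) ϖ).Separable := (minpoly.irreducible hint).separable
  have hsplit : ((minpoly (↥F₀) ϖ).map (algebraMap (↥F₀) (PadicAlgCl p))).Splits :=
    IsAlgClosed.splits _
  have hcard := card_rootSet_eq_natDegree hsep hsplit
  rw [← hcard]
  have hsub : (minpoly (↥F₀) ϖ).rootSet (PadicAlgCl p) ⊆ (S : Set (PadicAlgCl p)) := by
    intro y hy
    rw [mem_rootSet] at hy
    obtain ⟨σ, hσ, rfl⟩ := exists_gam_of_root p F₀ ϖ y hy.2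
    exact hS σ hσ
  calc Fintype.card ((minpoly (↥F₀) ϖ).rootSet (PadicAlgCl p))
      = ((minpoly (↥F₀) ϖ).rootSet (PadicAlgCl p)).toFinset.card := (Set.toFinset_card _).symm
    _ ≤ S.card := Finset.card_le_card (by
        intro y hy
        rw [Set.mem_toFinset] at hy
        exact hsub hy)

/-- **(EXP), concrete form.**  `F₀ ⊆ Ω` unramified (norm form), `‖ϖ‖ ^ e = ‖p‖`, and the orbit of
`ϖ` under `Gal(Ω/F₀)` is contained in a set `S` with at most `e` elements.  Then `[F₀(ϖ):F₀] = e`,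
`S` is exactly the orbit, and `ϖ` is a uniformizer of `F₀(ϖ)` (value group `‖ϖ‖^ℤ`). -/
theorem eisenstein_of_orbit (hunr : ∀ x : PadicAlgCl p, x ∈ F₀ → ‖x‖ < 1 → ‖x‖ ≤ ‖((p : ℕ) : PadicAlgCl p)‖)
    {ϖ : PadicAlgCl p} {e : ℕ} (hϖ : ‖ϖ‖ ^ e = ‖((p : ℕ) : PadicAlgCl p)‖)
    (S : Finset (PadicAlgCl p)) (hS : ∀ σ ∈ Gam p F₀, σ ϖ ∈ S) (hcard : S.card ≤ e) :
    (minpoly (↥F₀) ϖ).natDegree = e ∧ S.card = e ∧ (∀ y ∈ S, ∃ σ ∈ Gam p F₀, σ ϖ = y) ∧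
      (∀ x ∈ IntermediateField.adjoin (↥F₀) {ϖ}, x ≠ 0 → ∃ n : ℤ, ‖x‖ = ‖ϖ‖ ^ n) ∧
      ∀ x ∈ IntermediateField.adjoin (↥F₀) {ϖ}, ‖x‖ < 1 → ‖x‖ ≤ ‖ϖ‖ := by
  classical
  have hint : IsIntegral (↥F₀) ϖ := (Algebra.IsAlgebraic.isAlgebraic ϖ).isIntegral
  have hp1 : ‖((p : ℕ) : PadicAlgCl p)‖ < 1 := KummerTop0.norm_natCast_q_lt_one p
  have hp0 : ((p : ℕ) : PadicAlgCl p) ≠ 0 := by
    exact_mod_cast (Fact.out : p.Prime).ne_zero
  have hpF : ((p : ℕ) : PadicAlgCl p) ∈ F₀ := natCast_mem F₀ p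
  have hge : e ≤ (minpoly (↥F₀) ϖ).natDegree :=
    le_natDegree_minpoly F₀ hpF hp0 hp1 hunr hϖ hint
  have hle : (minpoly (↥F₀) ϖ).natDegree ≤ S.card := natDegree_minpoly_le_card p F₀ ϖ S hS
  have hdeg : (minpoly (↥F₀) ϖ).natDegree = e := by omega
  have hScard : S.card = e := by omega
  have hzpow : ∀ x ∈ IntermediateField.adjoin (↥F₀) {ϖ}, x ≠ 0 → ∃ n : ℤ, ‖x‖ = ‖ϖ‖ ^ n :=
    fun x hx hx0 => exists_zpow_of_mem_adjoin F₀ hpF hp0 hp1 hunr hϖ hint hdeg hx hx0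
  have hϖpos : 0 < ‖ϖ‖ := by
    rcases (norm_nonneg ϖ).lt_or_eq with h | h
    · exact h
    · exfalso
      have he0 : e ≠ 0 := by
        rintro rfl
        rw [pow_zero] at hϖ
        exact hp1.ne hϖ.symm
      rw [← h, zero_pow he0] at hϖ
      exact (norm_pos_iff.mpr hp0).ne hϖ
  have hϖ1 : ‖ϖ‖ < 1 := by
    by_contra h
    rw [not_lt] at h
    have := one_le_pow₀ (n := e) h
    rw [hϖ] at this
    exact absurd hp1 (not_lt.mpr this)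
  refine ⟨hdeg, hScard, ?_, hzpow, ?_⟩
  · -- `S` is the set of roots
    have hsep : (minpoly (↥F₀) ϖ).Separable := (minpoly.irreducible hint).separable
    have hsplit : ((minpoly (↥F₀) ϖ).map (algebraMap (↥F₀) (PadicAlgCl p))).Splits :=
      IsAlgClosed.splits _
    have hcard' := card_rootSet_eq_natDegree hsep hsplit
    have hsub : ((minpoly (↥F₀) ϖ).rootSet (PadicAlgCl p)).toFinset ⊆ S := by
      intro y hy
      rw [Set.mem_toFinset, mem_rootSet] at hy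
      obtain ⟨σ, hσ, rfl⟩ := exists_gam_of_root p F₀ ϖ y hy.2
      exact hS σ hσ
    have heq : ((minpoly (↥F₀) ϖ).rootSet (PadicAlgCl p)).toFinset = S := by
      apply Finset.eq_of_subset_of_card_le hsub
      rw [Set.toFinset_card, hcard', hdeg, hScard]
    intro y hy
    rw [← heq, Set.mem_toFinset, mem_rootSet] at hy
    exact exists_gam_of_root p F₀ ϖ y hy.2
  · intro x hx hlt
    by_cases hx0 : x = 0
    · rw [hx0, norm_zero]; exact norm_nonneg _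
    obtain ⟨n, hn⟩ := hzpow x hx hx0
    rw [hn] at hlt ⊢
    have hn1 : 1 ≤ n := by
      by_contra h
      rw [not_le] at h
      have : 1 ≤ ‖ϖ‖ ^ n := by
        have h2 : ‖ϖ‖ ^ n = (‖ϖ‖ ^ (-n).toNat)⁻¹ := by
          rw [← zpow_natCast, Int.toNat_of_nonneg (by omega), zpow_neg, inv_inv]
        rw [h2]
        exact (one_le_inv₀ (pow_pos hϖpos _)).mpr (pow_le_one₀ hϖpos.le hϖ1.le)
      exact absurd hlt (not_lt.mpr this)
    calc ‖ϖ‖ ^ n ≤ ‖ϖ‖ ^ (1 : ℤ) := zpow_le_zpow_right_of_le_one₀ hϖpos hϖ1.le hn1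
      _ = ‖ϖ‖ := zpow_one _

/-- The same over `ℚ_p`: `F₀(ϖ)` as an intermediate field of `Ω/ℚ_p`. -/
theorem mem_adjoin_of_mem_adjoin_union (ϖ : PadicAlgCl p) {x : PadicAlgCl p}
    (hx : x ∈ IntermediateField.adjoin ℚ_[p] ((F₀ : Set (PadicAlgCl p)) ∪ {ϖ})) :
    x ∈ IntermediateField.adjoin (↥F₀) {ϖ} := by
  have hle : IntermediateField.adjoin ℚ_[p] ((F₀ : Set (PadicAlgCl p)) ∪ {ϖ}) ≤
      (IntermediateField.adjoin (↥F₀) {ϖ}).restrictScalars ℚ_[p] := by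
    rw [IntermediateField.adjoin_le_iff]
    rintro y (hy | hy)
    · exact (IntermediateField.adjoin (↥F₀) {ϖ}).algebraMap_mem ⟨y, hy⟩
    · rw [Set.mem_singleton_iff] at hy
      rw [hy]
      exact IntermediateField.mem_adjoin_simple_self (↥F₀) ϖ
  exact hle hx

/-- **Uniformizer in norm form** of `L = ℚ_p(F₀, ϖ)` (shape of `RamBridge0.isUniformizer_of_norm`). -/
theorem norm_le_of_mem_adjoin_union
    (hunr : ∀ x : PadicAlgCl p, x ∈ F₀ → ‖x‖ < 1 → ‖x‖ ≤ ‖((p : ℕ) : PadicAlgCl p)‖)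
    {ϖ : PadicAlgCl p} {e : ℕ} (hϖ : ‖ϖ‖ ^ e = ‖((p : ℕ) : PadicAlgCl p)‖)
    (S : Finset (PadicAlgCl p)) (hS : ∀ σ ∈ Gam p F₀, σ ϖ ∈ S) (hcard : S.card ≤ e)
    {x : PadicAlgCl p}
    (hx : x ∈ IntermediateField.adjoin ℚ_[p] ((F₀ : Set (PadicAlgCl p)) ∪ {ϖ}))
    (hlt : ‖x‖ < 1) : ‖x‖ ≤ ‖ϖ‖ :=
  (eisenstein_of_orbit p F₀ hunr hϖ S hS hcard).2.2.2.2 x
    (mem_adjoin_of_mem_adjoin_union p F₀ ϖ hx) hlt

end conj

end

end Fermat.Agent.TW.FLAT.EisExp6
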