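/-
Programme T, chapter FLAT, file IntrinsicConnQ7 (helper7): the Prelude instance of `IntrinsicConn7`
(`R = ratLocalizedAt p`, `K = ℚ`, `L = ℚ̄ = AlgebraicClosure ℚ`, `P` ANY valuation subring of `ℚ̄` over an
odd prime `p`, `I = P.inertiaSubgroupIn ℚ`).  Instance-free statements (the connected points are
described by the congruence `x h ≡ ε h` modulo `P.nonunits`).

* `sep_Qbar` : `z ∈ P`, `z / p ^ n ∈ P` for all `n` ⇒ `z = 0`;
* `unr_Qbar` (= `ES/P36/UnrFixed1.div_natCast_mem_of_fixed`) : `z ∈ P.nonunits` fixed by `I` ⇒ `z / p ∈ P`;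
* **`eq_one_of_connected_of_fixed`** : `H` a commutative cocommutative Hopf algebra over `ℤ_(p)`, integral
  (e.g. finite); a point `x ∈ G(ℚ̄)` of finite order with `x h - ε h ∈ P.nonunits` for all `h` (i.e. `x`
  reduces to the identity at `P`) which is fixed by `I` is trivial;
* **`eq_one_of_mem_closure_of_fixed_Q`** (`H` module-finite): an `I`-fixed element of the subgroup of
  `G(ℚ̄)` generated by the `σ • y * y⁻¹`, `σ ∈ I`, is trivial:  `(aug_I G(ℚ̄))^I = 1`.
-/
import Mathlib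
import Fermat.Agent.TW.FLAT.IntrinsicConn7
import Fermat.Agent.ES.P36.UnrFixed1

set_option autoImplicit false
set_option linter.style.haveILetI false

open WithConv IsLocalRing

namespace Fermat.Agent.TW.FLAT.IntrinsicConnQ7

open Fermat.Agent.TW.FLAT.Points6 Fermat.Agent.TW.FLAT.ConnEt7 Fermat.Agent.TW.FLAT.IntrinsicConn7
  Fermat.Agent.RED.Interface4 Fermat.Agent.RED.DESC.NumberFieldDVR27

noncomputable section

variable {p : ℕ} (P : ValuationSubring Qbar)

/-- `ℚ̄`-integers divisible by all powers of `p` vanish. -/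
theorem sep_Qbar (hp : p.Prime) (hP : P.LiesOverPrime p) (z : Qbar) (hz : z ∈ P)
    (h : ∀ n : ℕ, z / (p : Qbar) ^ n ∈ P) : z = 0 := by
  set K : IntermediateField ℚ Qbar := IntermediateField.adjoin ℚ {z} with hKdef
  haveI hfin : FiniteDimensional ℚ K :=
    IntermediateField.adjoin.finiteDimensional (Algebra.IsIntegral.isIntegral z)
  have hzK : z ∈ K := IntermediateField.mem_adjoin_simple_self ℚ z
  haveI := isDiscreteValuationRing_AK P K hp.ne_zero hP
  have hp0 : (p : Qbar) ≠ 0 := by exact_mod_cast hp.ne_zero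
  let zA : AK P K := ⟨⟨z, hzK⟩, (mem_AK_iff P K _).2 hz⟩
  have hmem : ∀ n : ℕ, zA ∈ (maximalIdeal (AK P K)) ^ n := by
    intro n
    have hwK : z / (p : Qbar) ^ n ∈ K := K.div_mem hzK (pow_mem (natCast_mem K p) n)
    let w : AK P K := ⟨⟨z / (p : Qbar) ^ n, hwK⟩, (mem_AK_iff P K _).2 (h n)⟩
    have hzw : zA = (p : AK P K) ^ n * w := by
      apply Subtype.ext
      apply Subtype.ext
      change z = _
      have : (((((p : AK P K) ^ n * w : AK P K) : K) : Qbar)) = (p : Qbar) ^ n * (z / (p : Qbar) ^ n) := by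
        push_cast
        rfl
      rw [this, mul_div_cancel₀ _ (pow_ne_zero n hp0)]
    rw [hzw]
    exact Ideal.mul_mem_right _ _ (Ideal.pow_mem_pow (natCast_mem_maximalIdeal P K hP) n)
  have hbot : (⨅ n : ℕ, (maximalIdeal (AK P K)) ^ n) = ⊥ :=
    Ideal.iInf_pow_eq_bot_of_isLocalRing _ (Ideal.IsPrime.ne_top inferInstance)
  have h0 : zA = 0 := by
    have : zA ∈ (⨅ n : ℕ, (maximalIdeal (AK P K)) ^ n) := by
      rw [Ideal.mem_iInf]; exact hmem
    rw [hbot] at this
    exact this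
  have h1 : z = (((zA : AK P K) : K) : Qbar) := rfl
  rw [h1, h0]
  rfl

/-- `p` is a uniformiser of the inertia-fixed integers. -/
theorem unr_Qbar (hp : p.Prime) (hP : P.LiesOverPrime p) (z : Qbar) (hz : z ∈ P.nonunits)
    (hfix : ∀ τ ∈ P.inertiaSubgroupIn ℚ, τ z = z) : z / (p : Qbar) ∈ P :=
  Fermat.Agent.ES.P36.UnrFixed1.div_natCast_mem_of_fixed P hp hP z hfix hz

variable {H : Type*} [CommRing H] [HopfAlgebra (GaloisRep.ratLocalizedAt p) H]
  [Algebra.IsIntegral (GaloisRep.ratLocalizedAt p) H] [Coalgebra.IsCocomm (GaloisRep.ratLocalizedAt p) H]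

/-- **A point of finite order which reduces to the identity at `P` and is fixed by the inertia group
of `P` is trivial** (`p` odd). -/
theorem eq_one_of_connected_of_fixed (hp : p.Prime) (hp2 : p ≠ 2) (hP : P.LiesOverPrime p)
    (x : WithConv (H →ₐ[GaloisRep.ratLocalizedAt p] Qbar))
    (hx : ∀ h : H, x h - algebraMap (GaloisRep.ratLocalizedAt p) Qbar (Coalgebra.counit h) ∈ P.nonunits)
    (hfix : ∀ τ ∈ P.inertiaSubgroupIn ℚ, τ • x = x) {n : ℕ} (hn : 0 < n) (hxn : x ^ n = 1) :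
    x = 1 := by
  letI := algebraOfMem P (algebraMap_ratLocalizedAt_mem p P hP)
  haveI := isScalarTower_ofMem P (algebraMap_ratLocalizedAt_mem p P hP)
  have hp0 : (p : Qbar) ≠ 0 := by exact_mod_cast hp.ne_zero
  exact eq_one_of_mem_connPts_of_fixed (K := ℚ) P hp hp2 hP hp0
    (fun z hz hf => unr_Qbar P hp hP z hz hf) (fun z hz hf => sep_Qbar P hp hP z hz hf)
    ((mem_connPts_iff P x).2 hx) hfix hn hxn

/-- **`(aug_I G(ℚ̄))^I = 1`** for a finite cocommutative Hopf algebra over `ℤ_(p)`, `p` odd, `I` the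
inertia group of any place `P` over `p`. -/
theorem eq_one_of_mem_closure_of_fixed_Q [Module.Finite (GaloisRep.ratLocalizedAt p) H]
    (hp : p.Prime) (hp2 : p ≠ 2) (hP : P.LiesOverPrime p)
    (x : WithConv (H →ₐ[GaloisRep.ratLocalizedAt p] Qbar))
    (hx : x ∈ Subgroup.closure {g : WithConv (H →ₐ[GaloisRep.ratLocalizedAt p] Qbar) |
      ∃ σ ∈ P.inertiaSubgroupIn ℚ, ∃ y : WithConv (H →ₐ[GaloisRep.ratLocalizedAt p] Qbar),
        g = σ • y * y⁻¹})
    (hfix : ∀ τ ∈ P.inertiaSubgroupIn ℚ, τ • x = x) : x = 1 := by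
  letI := algebraOfMem P (algebraMap_ratLocalizedAt_mem p P hP)
  haveI := isScalarTower_ofMem P (algebraMap_ratLocalizedAt_mem p P hP)
  have hp0 : (p : Qbar) ≠ 0 := by exact_mod_cast hp.ne_zero
  exact eq_one_of_mem_closure_of_fixed (K := ℚ) P hp hp2 hP hp0
    (fun z hz hf => unr_Qbar P hp hP z hz hf) (fun z hz hf => sep_Qbar P hp hP z hz hf) hx hfix

end

end Fermat.Agent.TW.FLAT.IntrinsicConnQ7
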