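/-
Programme T, chapter FLAT, file Newton6 (F3): Fontaine's lifting lemma in concrete valuation
form — a multivariate Newton/Hensel iteration with "divided power" estimates.  Mathlib only.

Setting: `p` prime, `E` a normed field, ultrametric, with `[NormedAlgebra ℚ_[p] E]` (so
`‖(p : E)‖ = p⁻¹`, `norm_p_eq`); `R` a commutative ring with `[Algebra R E]` and
`hR : ∀ r : R, ‖algebraMap R E r‖ ≤ 1`; `σ` a finite index type (`[Fintype σ] [DecidableEq σ]`);
a system `f : σ → MvPolynomial σ R` of `σ` equations in `σ` unknowns; a constant `c : ℝ` with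
`hc1 : 1 ≤ c`, `hcp : (p : ℝ) ≤ c ^ (p - 1)` (take `c = cst p = p^{1/(p-1)}`: `one_le_cst`,
`cst_pow : cst p ^ (p - 1) = p`, `le_cst_pow`).

* `line R x h : MvPolynomial σ R →ₐ[R] E[X]` (restriction to the line `x + T h`), `eval_line`,
  `eval_zero_line`, `eval_one_line`, chain rule `derivative_line`.
* `norm_factorial_mul : ‖(n! : E)‖ * p ^ v_p(n!) = 1`; `pow_padicValNat_factorial_le :
  p ^ v_p(n!) ≤ c ^ (n - 1)` (`n ≠ 0`); `norm_le_of_factorial_mul`.
* `taylor_two_le` : if all `∂ᵢ q` lie in a `pderiv`-stable set `𝔮` with `‖aeval x ·‖ ≤ B` on `𝔮`,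
  `‖h i‖ ≤ H`, `H * c ≤ 1`, then `‖q(x+h) - q(x) - ∑ᵢ hᵢ ∂ᵢq(x)‖ ≤ B * c * H ^ 2`.
* `pIdeal p f := Ideal.span (range f ∪ {C p})`;
  `structure JacData p f U V : Prop` (`U V : Matrix σ σ (MvPolynomial σ R)`):
    `hJ : ∀ j i, pderiv i (f j) - C p * U j i ∈ span (range f)`,
    `hUV : ∀ j k, (U * V) j k - 1 j k ∈ span (range f)`, `hVU` likewise
  ("the Jacobian is `p • U` modulo `(f)` with `U` invertible modulo `(f)`": this is what
  `Ω[A⁄R] ≃ (A/p)^σ` gives for `A = R[X_σ]/(f)`, cf. InvDiff6/KilledBy6);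
  `pderiv_f_mem_pIdeal`, `pderiv_mem_pIdeal` (`(p, f)` is stable under all `∂ᵢ`, hence contains
  all higher partial derivatives of the `f j`);
  `norm_aeval_le_one`, `norm_aeval_le_of_mem_span`, `norm_aeval_le_of_mem_pIdeal`.
* `newton_step` : one quasi-Newton step `x ↦ x - p⁻¹ V(x) f(x)`:
    `‖x‖ ≤ 1`, `‖f(x)‖ ≤ ε`, `p ε ≤ r`, `r c < 1` ⇒ `∃ x₁, ‖x₁ - x‖ ≤ p ε ∧ ‖x₁‖ ≤ 1 ∧
    ‖f(x₁)‖ ≤ (c r) ε`.
* `newton_exists [CompleteSpace E]` : … ⇒ `∃ x', ‖x' - x‖ ≤ p ε ∧ ‖x'‖ ≤ 1 ∧ f(x') = 0`.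
* `newton_unique` : `x' x''` integral exact solutions with `‖x'' - x'‖ ≤ r`, `r c < 1` ⇒ `x'' = x'`
  (injectivity of `Y(O_E) → Y(O_E / I_r)`).
* `newton_existsUnique [CompleteSpace E]` (**Fontaine's lifting lemma**, Prop. 1.7 of "Il n'y a
  pas de variété abélienne sur ℤ", for `a = p`): `‖x‖ ≤ 1`, `‖f j (x)‖ ≤ p⁻¹ r`, `0 ≤ r`,
  `r c < 1` ⇒ `∃! x', (∀ i, ‖x' i - x i‖ ≤ r) ∧ ∀ j, aeval x' (f j) = 0`
  ("a point modulo `p·I_r` is congruent modulo `I_r` to a unique true point").
* `newton_fixed` : an exact integral solution `x'` and an `R`-algebra endomorphism `τ` of `E`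
  with `‖τ x' - x'‖ ≤ r`, `r c < 1` ⇒ `τ x' = x'`.
-/
import Mathlib

set_option autoImplicit false
set_option linter.unusedSectionVars false

namespace Fermat.Agent.TW.FLAT.Newton6

open Polynomial MvPolynomial

noncomputable section

section Line

variable (R : Type*) [CommRing R] {E : Type*} [CommRing E] [Algebra R E]
  {σ : Type*}

/-- Restriction of a polynomial to the line `x + T h`. -/
def line (x h : σ → E) : MvPolynomial σ R →ₐ[R] E[X] :=
  MvPolynomial.aeval (fun i => Polynomial.C (x i) + Polynomial.C (h i) * Polynomial.X)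

@[simp] lemma line_X (x h : σ → E) (i : σ) :
    line R x h (MvPolynomial.X i) = Polynomial.C (x i) + Polynomial.C (h i) * Polynomial.X := by
  simp [line]

lemma eval_line (x h : σ → E) (t : E) (q : MvPolynomial σ R) :
    (line R x h q).eval t = MvPolynomial.aeval (fun i => x i + h i * t) q := by
  have : (((Polynomial.aeval (R := E) t).restrictScalars R).comp (line R x h)) =
      MvPolynomial.aeval (fun i => x i + h i * t) := by
    apply MvPolynomial.algHom_ext
    intro i
    simp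
  have h2 := congrArg (fun φ => φ q) this
  simpa [Polynomial.coe_aeval_eq_eval] using h2

lemma eval_zero_line (x h : σ → E) (q : MvPolynomial σ R) :
    (line R x h q).eval 0 = MvPolynomial.aeval x q := by
  rw [eval_line]; simp

lemma eval_one_line (x h : σ → E) (q : MvPolynomial σ R) :
    (line R x h q).eval 1 = MvPolynomial.aeval (x + h) q := by
  rw [eval_line]; simp only [mul_one]; rfl

/-- Chain rule. -/
lemma derivative_line [Fintype σ] (x h : σ → E) (q : MvPolynomial σ R) :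
    Polynomial.derivative (line R x h q) =
      ∑ i, Polynomial.C (h i) * line R x h (MvPolynomial.pderiv i q) := by
  classical
  induction q using MvPolynomial.induction_on with
  | C a =>
    simp [line, Polynomial.derivative_C]
  | add p q hp hq =>
    simp only [map_add, hp, hq, mul_add, Finset.sum_add_distrib]
  | mul_X p j hp =>
    have h1 : ∀ i, line R x h (MvPolynomial.pderiv i (p * MvPolynomial.X j)) =
        line R x h (MvPolynomial.pderiv i p) * (Polynomial.C (x j) + Polynomial.C (h j) * Polynomial.X)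
          + (if i = j then line R x h p else 0) := by
      intro i
      rw [Derivation.leibniz, MvPolynomial.pderiv_X]
      simp only [smul_eq_mul, map_add, map_mul, line_X]
      by_cases hij : i = j
      · subst hij; simp; ring
      · simp [hij, Ne.symm hij]; ring
    have h2 : Polynomial.derivative (Polynomial.C (x j) + Polynomial.C (h j) * Polynomial.X) =
        Polynomial.C (h j) := by
      simp
    rw [map_mul, Polynomial.derivative_mul, hp, line_X, h2]
    simp_rw [h1]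
    set L : E[X] := Polynomial.C (x j) + Polynomial.C (h j) * Polynomial.X with hL
    set P : E[X] := line R x h p with hP
    set A : σ → E[X] := fun i => line R x h (MvPolynomial.pderiv i p) with hA
    have h3 : ∑ i, Polynomial.C (h i) * (A i * L + if i = j then P else 0) =
        (∑ i, Polynomial.C (h i) * A i) * L + Polynomial.C (h j) * P := by
      calc ∑ i, Polynomial.C (h i) * (A i * L + if i = j then P else 0)
          = ∑ i, (Polynomial.C (h i) * A i * L +
              (if i = j then Polynomial.C (h i) * P else 0)) := by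
            apply Finset.sum_congr rfl
            intro i _
            by_cases hij : i = j
            · simp [hij]; ring
            · simp [hij]; ring
        _ = ∑ i, Polynomial.C (h i) * A i * L +
              ∑ i, (if i = j then Polynomial.C (h i) * P else 0) := Finset.sum_add_distrib
        _ = (∑ i, Polynomial.C (h i) * A i) * L + Polynomial.C (h j) * P := by
            rw [Finset.sum_mul, Finset.sum_ite_eq' Finset.univ j]
            simp
    rw [h3]
    ring

end Line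

section Bound

variable {R : Type*} [CommRing R] {E : Type*} [NormedField E] [IsUltrametricDist E] [Algebra R E]
  {σ : Type*} [Fintype σ]

/-- Ultrametric bound for `∑ a i * b i`. -/
lemma norm_sum_mul_le {ι : Type*} (s : Finset ι) (a b : ι → E) {A B : ℝ} (hA : 0 ≤ A) (hB : 0 ≤ B)
    (ha : ∀ i ∈ s, ‖a i‖ ≤ A) (hb : ∀ i ∈ s, ‖b i‖ ≤ B) : ‖∑ i ∈ s, a i * b i‖ ≤ A * B := by
  apply IsUltrametricDist.norm_sum_le_of_forall_le_of_nonneg (mul_nonneg hA hB)
  intro i hi
  rw [norm_mul]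
  exact mul_le_mul (ha i hi) (hb i hi) (norm_nonneg _) hA

/-- Bound for the derivatives at `0` of the restriction to a line of a polynomial in a
`pderiv`-stable set on which evaluation at `x` is bounded by `B`. -/
lemma norm_eval_iterate_derivative_line_le (x h : σ → E) {H B : ℝ} (hH0 : 0 ≤ H) (hB0 : 0 ≤ B)
    (hH : ∀ i, ‖h i‖ ≤ H) (𝔮 : Set (MvPolynomial σ R))
    (hstab : ∀ q ∈ 𝔮, ∀ i, MvPolynomial.pderiv i q ∈ 𝔮)
    (hB : ∀ q ∈ 𝔮, ‖MvPolynomial.aeval x q‖ ≤ B) (n : ℕ) :
    ∀ q ∈ 𝔮, ‖(Polynomial.derivative^[n] (line R x h q)).eval 0‖ ≤ H ^ n * B := by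
  induction n with
  | zero =>
    intro q hq
    simpa [eval_zero_line] using hB q hq
  | succ n ih =>
    intro q hq
    rw [Function.iterate_succ_apply, derivative_line, Polynomial.iterate_derivative_sum,
      Polynomial.eval_finsetSum]
    simp_rw [Polynomial.iterate_derivative_C_mul, Polynomial.eval_mul, Polynomial.eval_C]
    rw [pow_succ, mul_comm (H ^ n) H, mul_assoc]
    exact norm_sum_mul_le _ _ _ hH0 (mul_nonneg (pow_nonneg hH0 n) hB0)
      (fun i _ => hH i) (fun i _ => ih _ (hstab q hq i))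

end Bound

section Factorial

variable (p : ℕ) [hp : Fact p.Prime] {E : Type*} [NormedField E] [NormedAlgebra ℚ_[p] E]

lemma norm_natCast_eq (n : ℕ) : ‖(n : E)‖ = ‖(n : ℚ_[p])‖ := by
  rw [← norm_algebraMap' E (n : ℚ_[p]), map_natCast]

lemma norm_p_eq : ‖(p : E)‖ = (p : ℝ)⁻¹ := by
  rw [norm_natCast_eq p p, Padic.norm_p]

/-- `‖n!‖ * p ^ v_p(n!) = 1`. -/
lemma norm_factorial_mul (n : ℕ) :
    ‖(n.factorial : E)‖ * (p : ℝ) ^ (padicValNat p n.factorial) = 1 := by
  rw [norm_natCast_eq p]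
  have h0 : ((n.factorial : ℕ) : ℚ_[p]) ≠ 0 := by exact_mod_cast n.factorial_ne_zero
  rw [Padic.norm_eq_zpow_neg_valuation h0, Padic.valuation_natCast, zpow_neg, zpow_natCast]
  have : ((p : ℝ) ^ padicValNat p n.factorial) ≠ 0 :=
    pow_ne_zero _ (by exact_mod_cast hp.out.ne_zero)
  field_simp

end Factorial

section Taylor

variable (p : ℕ) [hp : Fact p.Prime] {R : Type*} [CommRing R]
  {E : Type*} [NormedField E] [IsUltrametricDist E] [NormedAlgebra ℚ_[p] E] [Algebra R E]
  {σ : Type*} [Fintype σ]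

/-- `p ^ v_p(n!) ≤ c ^ (n - 1)` if `p ≤ c ^ (p - 1)`, `1 ≤ c`. -/
lemma pow_padicValNat_factorial_le {c : ℝ} (hc1 : 1 ≤ c) (hcp : (p : ℝ) ≤ c ^ (p - 1)) (n : ℕ)
    (hn : n ≠ 0) : (p : ℝ) ^ (padicValNat p n.factorial) ≤ c ^ (n - 1) := by
  have hlt := sub_one_mul_padicValNat_factorial_lt_of_ne_zero p hn
  have h1 : (p - 1) * padicValNat p n.factorial ≤ n - 1 := by omega
  calc (p : ℝ) ^ (padicValNat p n.factorial)
      ≤ (c ^ (p - 1)) ^ (padicValNat p n.factorial) :=
        pow_le_pow_left₀ (by positivity) hcp _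
    _ = c ^ ((p - 1) * padicValNat p n.factorial) := by rw [← pow_mul]
    _ ≤ c ^ (n - 1) := pow_le_pow_right₀ hc1 h1

/-- `‖x / n!‖ ≤ ‖x‖ * c ^ (n - 1)`. -/
lemma norm_le_of_factorial_mul {c : ℝ} (hc1 : 1 ≤ c) (hcp : (p : ℝ) ≤ c ^ (p - 1)) (n : ℕ)
    (hn : n ≠ 0) (a b : E) (hab : (n.factorial : E) * a = b) : ‖a‖ ≤ ‖b‖ * c ^ (n - 1) := by
  have h1 := norm_factorial_mul p (E := E) n
  have h2 := pow_padicValNat_factorial_le p hc1 hcp n hn
  have h3 : ‖b‖ = ‖(n.factorial : E)‖ * ‖a‖ := by rw [← hab, norm_mul]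
  have h4 : ‖a‖ = ‖b‖ * (p : ℝ) ^ (padicValNat p n.factorial) := by
    rw [h3]
    calc ‖a‖ = (‖(n.factorial : E)‖ * (p : ℝ) ^ (padicValNat p n.factorial)) * ‖a‖ := by
          rw [h1, one_mul]
      _ = _ := by ring
  rw [h4]
  exact mul_le_mul_of_nonneg_left h2 (norm_nonneg _)

/-- **Second order Taylor estimate with divided powers.**  If the first partial derivatives of
`q` lie in a `pderiv`-stable set `𝔮` on which evaluation at `x` is bounded by `B`, then
`‖q(x+h) - q(x) - ∑ hᵢ ∂ᵢq(x)‖ ≤ B c H²` for `‖h‖ ≤ H`, `H c ≤ 1`. -/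
theorem taylor_two_le {c : ℝ} (hc1 : 1 ≤ c) (hcp : (p : ℝ) ≤ c ^ (p - 1))
    (x h : σ → E) {H B : ℝ} (hH0 : 0 ≤ H) (hB0 : 0 ≤ B) (hH : ∀ i, ‖h i‖ ≤ H) (hHc : H * c ≤ 1)
    (𝔮 : Set (MvPolynomial σ R)) (hstab : ∀ q ∈ 𝔮, ∀ i, MvPolynomial.pderiv i q ∈ 𝔮)
    (hB : ∀ q ∈ 𝔮, ‖MvPolynomial.aeval x q‖ ≤ B)
    (q : MvPolynomial σ R) (hq : ∀ i, MvPolynomial.pderiv i q ∈ 𝔮) :
    ‖MvPolynomial.aeval (x + h) q - MvPolynomial.aeval x q -
      ∑ i, h i * MvPolynomial.aeval x (MvPolynomial.pderiv i q)‖ ≤ B * c * H ^ 2 := by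
  set g := line R x h q with hg
  -- coefficients
  have hc0 : g.coeff 0 = MvPolynomial.aeval x q := by
    rw [Polynomial.coeff_zero_eq_eval_zero, hg, eval_zero_line]
  have hc1' : g.coeff 1 = ∑ i, h i * MvPolynomial.aeval x (MvPolynomial.pderiv i q) := by
    have := Polynomial.coeff_derivative g 0
    rw [Polynomial.coeff_zero_eq_eval_zero, hg, derivative_line, Polynomial.eval_finsetSum] at this
    simp only [Polynomial.eval_mul, Polynomial.eval_C, eval_zero_line] at this
    rw [this, hg]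
    simp
  have hcn : ∀ n : ℕ, ‖g.coeff (n + 2)‖ ≤ B * c * H ^ 2 := by
    intro n
    have h1 : ((n + 2).factorial : E) * g.coeff (n + 2) =
        (Polynomial.derivative^[n + 2] g).eval 0 := by
      rw [← Polynomial.coeff_zero_eq_eval_zero, Polynomial.coeff_iterate_derivative, zero_add,
        Nat.descFactorial_self, nsmul_eq_mul]
    have h2 : ‖(Polynomial.derivative^[n + 2] g).eval 0‖ ≤ H ^ (n + 2) * B := by
      rw [Function.iterate_succ_apply, hg, derivative_line, Polynomial.iterate_derivative_sum,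
        Polynomial.eval_finsetSum]
      simp_rw [Polynomial.iterate_derivative_C_mul, Polynomial.eval_mul, Polynomial.eval_C]
      rw [pow_succ, mul_comm (H ^ (n + 1)) H, mul_assoc]
      exact norm_sum_mul_le _ _ _ hH0 (mul_nonneg (pow_nonneg hH0 _) hB0)
        (fun i _ => hH i)
        (fun i _ => norm_eval_iterate_derivative_line_le x h hH0 hB0 hH 𝔮 hstab hB (n + 1) _ (hq i))
    have h3 := norm_le_of_factorial_mul p hc1 hcp (n + 2) (by omega) _ _ h1
    have hc0' : 0 ≤ c := le_trans zero_le_one hc1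
    calc ‖g.coeff (n + 2)‖ ≤ ‖(Polynomial.derivative^[n + 2] g).eval 0‖ * c ^ (n + 2 - 1) := h3
      _ ≤ H ^ (n + 2) * B * c ^ (n + 1) := by
          have : n + 2 - 1 = n + 1 := by omega
          rw [this]
          exact mul_le_mul_of_nonneg_right h2 (pow_nonneg hc0' _)
      _ = B * c * H ^ 2 * (H * c) ^ n := by ring
      _ ≤ B * c * H ^ 2 * 1 := by
          apply mul_le_mul_of_nonneg_left
          · exact pow_le_one₀ (mul_nonneg hH0 hc0') hHc
          · positivity
      _ = B * c * H ^ 2 := by ring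
  -- expansion
  have hexp : MvPolynomial.aeval (x + h) q =
      ∑ n ∈ Finset.range (g.natDegree + 1 + 2), g.coeff n := by
    rw [← eval_one_line, ← hg, Polynomial.eval_eq_sum_range' (n := g.natDegree + 1 + 2) (by omega)]
    simp
  rw [hexp, Finset.sum_range_succ', Finset.sum_range_succ', hc0, ← hc1']
  have : ∑ k ∈ Finset.range (g.natDegree + 1), g.coeff (k + 1 + 1) + g.coeff (0 + 1) +
      (MvPolynomial.aeval x) q - (MvPolynomial.aeval x) q - g.coeff 1 =
      ∑ k ∈ Finset.range (g.natDegree + 1), g.coeff (k + 2) := by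
    simp
  rw [this]
  apply IsUltrametricDist.norm_sum_le_of_forall_le_of_nonneg
  · have hc0' : 0 ≤ c := le_trans zero_le_one hc1
    positivity
  · intro n _
    exact hcn n

end Taylor

section Newton

variable (p : ℕ) [hp : Fact p.Prime] {R : Type*} [CommRing R]
  {E : Type*} [NormedField E] [IsUltrametricDist E] [NormedAlgebra ℚ_[p] E] [Algebra R E]
  {σ : Type*} [Fintype σ] [DecidableEq σ]

/-- The ideal `(p, f)`. -/
def pIdeal (f : σ → MvPolynomial σ R) : Ideal (MvPolynomial σ R) :=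
  Ideal.span (Set.range f ∪ {MvPolynomial.C (p : R)})

/-- Hypotheses of the lifting lemma on a system `f` of `σ` equations in `σ` unknowns:
the Jacobian matrix is `p • U` modulo `(f)`, with `U` invertible modulo `(f)`. -/
structure JacData (f : σ → MvPolynomial σ R) (U V : Matrix σ σ (MvPolynomial σ R)) : Prop where
  hJ : ∀ j i, MvPolynomial.pderiv i (f j) - MvPolynomial.C (p : R) * U j i ∈
    Ideal.span (Set.range f)
  hUV : ∀ j k, (U * V) j k - (1 : Matrix σ σ (MvPolynomial σ R)) j k ∈ Ideal.span (Set.range f)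
  hVU : ∀ i k, (V * U) i k - (1 : Matrix σ σ (MvPolynomial σ R)) i k ∈ Ideal.span (Set.range f)

variable {p}

lemma span_le_pIdeal (f : σ → MvPolynomial σ R) : Ideal.span (Set.range f) ≤ pIdeal p f :=
  Ideal.span_mono Set.subset_union_left

lemma C_p_mem_pIdeal (f : σ → MvPolynomial σ R) : MvPolynomial.C (p : R) ∈ pIdeal p f :=
  Ideal.subset_span (Set.mem_union_right _ rfl)

lemma pderiv_f_mem_pIdeal {f : σ → MvPolynomial σ R} {U V : Matrix σ σ (MvPolynomial σ R)}
    (hd : JacData p f U V) (j i : σ) : MvPolynomial.pderiv i (f j) ∈ pIdeal p f := by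
  have h1 := span_le_pIdeal (p := p) f (hd.hJ j i)
  have h2 : MvPolynomial.C (p : R) * U j i ∈ pIdeal p f :=
    Ideal.mul_mem_right _ _ (C_p_mem_pIdeal f)
  have := Ideal.add_mem _ h1 h2
  simpa using this

/-- `(p, f)` is stable under the partial derivatives. -/
lemma pderiv_mem_pIdeal {f : σ → MvPolynomial σ R} {U V : Matrix σ σ (MvPolynomial σ R)}
    (hd : JacData p f U V) (q : MvPolynomial σ R) (hq : q ∈ pIdeal p f) (i : σ) :
    MvPolynomial.pderiv i q ∈ pIdeal p f := by
  unfold pIdeal at hq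
  induction hq using Submodule.span_induction with
  | mem y hy =>
    rcases hy with ⟨j, rfl⟩ | hy
    · exact pderiv_f_mem_pIdeal hd j i
    · rw [Set.mem_singleton_iff] at hy
      rw [hy, MvPolynomial.pderiv_C]
      exact Ideal.zero_mem _
  | zero => rw [map_zero]; exact Ideal.zero_mem _
  | add a b _ _ ha hb => rw [map_add]; exact Ideal.add_mem _ ha hb
  | smul a b hb ih =>
    rw [smul_eq_mul, Derivation.leibniz]
    apply Ideal.add_mem
    · exact Ideal.mul_mem_left _ _ ih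
    · rw [smul_eq_mul]
      exact Ideal.mul_mem_right _ _ hb

variable (hR : ∀ r : R, ‖algebraMap R E r‖ ≤ 1)
include hR

omit [DecidableEq σ] [NormedAlgebra ℚ_[p] E] hp in
/-- Polynomials with integral coefficients take integral values at integral points. -/
lemma norm_aeval_le_one (x : σ → E) (hx : ∀ i, ‖x i‖ ≤ 1) (q : MvPolynomial σ R) :
    ‖MvPolynomial.aeval x q‖ ≤ 1 := by
  induction q using MvPolynomial.induction_on with
  | C a => simpa using hR a
  | add a b ha hb =>
    rw [map_add]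
    exact (IsUltrametricDist.norm_add_le_max _ _).trans (max_le ha hb)
  | mul_X a i ha =>
    rw [map_mul, norm_mul, MvPolynomial.aeval_X]
    exact mul_le_one₀ ha (norm_nonneg _) (hx i)

omit [DecidableEq σ] [NormedAlgebra ℚ_[p] E] hp in
lemma norm_aeval_le_of_mem_span (f : σ → MvPolynomial σ R) (x : σ → E) (hx : ∀ i, ‖x i‖ ≤ 1)
    {ε : ℝ} (hε0 : 0 ≤ ε) (hε : ∀ j, ‖MvPolynomial.aeval x (f j)‖ ≤ ε) (q : MvPolynomial σ R)
    (hq : q ∈ Ideal.span (Set.range f)) : ‖MvPolynomial.aeval x q‖ ≤ ε := by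
  induction hq using Submodule.span_induction with
  | mem y hy =>
    obtain ⟨j, rfl⟩ := hy
    exact hε j
  | zero => simpa using hε0
  | add a b _ _ ha hb =>
    rw [map_add]
    exact (IsUltrametricDist.norm_add_le_max _ _).trans (max_le ha hb)
  | smul a b _ ih =>
    rw [smul_eq_mul, map_mul, norm_mul]
    calc ‖MvPolynomial.aeval x a‖ * ‖MvPolynomial.aeval x b‖ ≤ 1 * ε :=
          mul_le_mul (norm_aeval_le_one hR x hx a) ih (norm_nonneg _) zero_le_one
      _ = ε := one_mul _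

omit [DecidableEq σ] in
lemma norm_aeval_le_of_mem_pIdeal (f : σ → MvPolynomial σ R) (x : σ → E) (hx : ∀ i, ‖x i‖ ≤ 1)
    {ε : ℝ} (hε0 : 0 ≤ ε) (hε : ∀ j, ‖MvPolynomial.aeval x (f j)‖ ≤ ε) (q : MvPolynomial σ R)
    (hq : q ∈ pIdeal p f) : ‖MvPolynomial.aeval x q‖ ≤ max ε (p : ℝ)⁻¹ := by
  unfold pIdeal at hq
  induction hq using Submodule.span_induction with
  | mem y hy =>
    rcases hy with ⟨j, rfl⟩ | hy
    · exact (hε j).trans (le_max_left _ _)
    · rw [Set.mem_singleton_iff] at hy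
      rw [hy, MvPolynomial.aeval_C, map_natCast, norm_p_eq]
      exact le_max_right _ _
  | zero => simp [hε0]
  | add a b _ _ ha hb =>
    rw [map_add]
    exact (IsUltrametricDist.norm_add_le_max _ _).trans (max_le ha hb)
  | smul a b _ ih =>
    rw [smul_eq_mul, map_mul, norm_mul]
    calc ‖MvPolynomial.aeval x a‖ * ‖MvPolynomial.aeval x b‖ ≤ 1 * max ε (p : ℝ)⁻¹ :=
          mul_le_mul (norm_aeval_le_one hR x hx a) ih (norm_nonneg _) zero_le_one
      _ = _ := one_mul _

/-- **One (quasi-)Newton step.** -/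
lemma newton_step {c : ℝ} (hc1 : 1 ≤ c) (hcp : (p : ℝ) ≤ c ^ (p - 1))
    {f : σ → MvPolynomial σ R} {U V : Matrix σ σ (MvPolynomial σ R)} (hd : JacData p f U V)
    (x : σ → E) (hx : ∀ i, ‖x i‖ ≤ 1) {ε r : ℝ} (hε0 : 0 ≤ ε)
    (hε : ∀ j, ‖MvPolynomial.aeval x (f j)‖ ≤ ε) (hr : (p : ℝ) * ε ≤ r) (hrc : r * c < 1) :
    ∃ x₁ : σ → E, (∀ i, ‖x₁ i - x i‖ ≤ (p : ℝ) * ε) ∧ (∀ i, ‖x₁ i‖ ≤ 1) ∧
      ∀ j, ‖MvPolynomial.aeval x₁ (f j)‖ ≤ (c * r) * ε := by
  have hp0 : (0 : ℝ) < p := by exact_mod_cast hp.out.pos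
  have hp1 : (1 : ℝ) ≤ p := by exact_mod_cast hp.out.one_le
  have hpE : (p : E) ≠ 0 := by
    intro h0
    have := norm_p_eq p (E := E)
    rw [h0, norm_zero] at this
    exact (inv_pos.mpr hp0).ne this
  have hc0 : 0 ≤ c := le_trans zero_le_one hc1
  have hr0 : 0 ≤ r := le_trans (mul_nonneg hp0.le hε0) hr
  have hr1 : r < 1 := by
    have : r * 1 ≤ r * c := mul_le_mul_of_nonneg_left hc1 hr0
    linarith
  have hεp : ε ≤ (p : ℝ)⁻¹ := by
    calc ε = (p : ℝ)⁻¹ * ((p : ℝ) * ε) := by field_simp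
      _ ≤ (p : ℝ)⁻¹ * 1 := mul_le_mul_of_nonneg_left (hr.trans hr1.le) (inv_nonneg.mpr hp0.le)
      _ = _ := mul_one _
  have hεr : ε ≤ r := le_trans (by nlinarith) hr
  -- notation
  set fx : σ → E := fun j => MvPolynomial.aeval x (f j) with hfx
  set Ux : σ → σ → E := fun j i => MvPolynomial.aeval x (U j i) with hUx
  set Vx : σ → σ → E := fun i j => MvPolynomial.aeval x (V i j) with hVx
  set h : σ → E := fun i => -(p : E)⁻¹ * ∑ k, Vx i k * fx k with hh
  set H : ℝ := (p : ℝ) * ε with hH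
  have hH0 : 0 ≤ H := mul_nonneg hp0.le hε0
  have hVx1 : ∀ i k, ‖Vx i k‖ ≤ 1 := fun i k => norm_aeval_le_one hR x hx _
  have hUx1 : ∀ j i, ‖Ux j i‖ ≤ 1 := fun j i => norm_aeval_le_one hR x hx _
  have hhH : ∀ i, ‖h i‖ ≤ H := by
    intro i
    rw [hh]
    simp only
    rw [norm_mul, norm_neg, norm_inv, norm_p_eq, inv_inv]
    apply mul_le_mul_of_nonneg_left _ hp0.le
    have := norm_sum_mul_le (E := E) Finset.univ (fun k => Vx i k) fx zero_le_one hε0
      (fun k _ => hVx1 i k) (fun k _ => hε k)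
    simpa using this
  have hHc : H * c ≤ 1 := (mul_le_mul_of_nonneg_right hr hc0).trans hrc.le
  refine ⟨x + h, ?_, ?_, ?_⟩
  · intro i
    simpa using hhH i
  · intro i
    rw [Pi.add_apply]
    exact (IsUltrametricDist.norm_add_le_max _ _).trans
      (max_le (hx i) ((hhH i).trans (hr.trans hr1.le)))
  · intro j
    -- Taylor remainder
    have hT := taylor_two_le p hc1 hcp x h hH0 (inv_nonneg.mpr hp0.le) hhH hHc
      (pIdeal p f : Set (MvPolynomial σ R)) (fun q hq i => pderiv_mem_pIdeal hd q hq i)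
      (fun q hq => (norm_aeval_le_of_mem_pIdeal hR f x hx hε0 hε q hq).trans (max_le hεp le_rfl))
      (f j) (fun i => pderiv_f_mem_pIdeal hd j i)
    set T : E := MvPolynomial.aeval (x + h) (f j) - MvPolynomial.aeval x (f j) -
      ∑ i, h i * MvPolynomial.aeval x (MvPolynomial.pderiv i (f j)) with hTdef
    -- error terms
    set δ : σ → E := fun i =>
      MvPolynomial.aeval x (MvPolynomial.pderiv i (f j) - MvPolynomial.C (p : R) * U j i) with hδ
    set δ' : σ → E := fun k =>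
      MvPolynomial.aeval x ((U * V) j k - (1 : Matrix σ σ (MvPolynomial σ R)) j k) with hδ'
    have hδε : ∀ i, ‖δ i‖ ≤ ε := fun i =>
      norm_aeval_le_of_mem_span hR f x hx hε0 hε _ (hd.hJ j i)
    have hδ'ε : ∀ k, ‖δ' k‖ ≤ ε := fun k =>
      norm_aeval_le_of_mem_span hR f x hx hε0 hε _ (hd.hUV j k)
    have hpd : ∀ i, MvPolynomial.aeval x (MvPolynomial.pderiv i (f j)) =
        (p : E) * Ux j i + δ i := by
      intro i
      simp only [hδ, hUx, map_sub, map_mul, map_natCast]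
      ring
    have hUV : ∀ k, ∑ i, Ux j i * Vx i k = (if j = k then 1 else 0) + δ' k := by
      intro k
      simp only [hδ', hUx, hVx, map_sub, Matrix.mul_apply, map_sum, map_mul, Matrix.one_apply]
      split_ifs <;> simp
    have hlin : ∑ i, h i * MvPolynomial.aeval x (MvPolynomial.pderiv i (f j)) =
        -fx j - ∑ k, δ' k * fx k + ∑ i, h i * δ i := by
      have h1 : ∀ i, h i * ((p : E) * Ux j i) = -∑ k, Ux j i * Vx i k * fx k := by
        intro i
        change (-(p : E)⁻¹ * ∑ k, Vx i k * fx k) * ((p : E) * Ux j i) = _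
        calc (-(p : E)⁻¹ * ∑ k, Vx i k * fx k) * ((p : E) * Ux j i)
            = -(((p : E)⁻¹ * (p : E)) * (Ux j i * ∑ k, Vx i k * fx k)) := by ring
          _ = -(Ux j i * ∑ k, Vx i k * fx k) := by rw [inv_mul_cancel₀ hpE, one_mul]
          _ = -∑ k, Ux j i * Vx i k * fx k := by
              rw [Finset.mul_sum]
              congr 1
              apply Finset.sum_congr rfl
              intro k _
              ring
      simp_rw [hpd, mul_add, Finset.sum_add_distrib, h1]
      rw [Finset.sum_neg_distrib, Finset.sum_comm]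
      have h2 : ∑ k, ∑ i, Ux j i * Vx i k * fx k = fx j + ∑ k, δ' k * fx k := by
        simp_rw [← Finset.sum_mul, hUV, add_mul, Finset.sum_add_distrib]
        simp
      rw [h2]
      ring
    have hval : MvPolynomial.aeval (x + h) (f j) = T + (-∑ k, δ' k * fx k + ∑ i, h i * δ i) := by
      rw [hTdef, hlin]
      ring
    rw [hval]
    have hcr : c * r * ε = (c * r) * ε := rfl
    have hb1 : ‖T‖ ≤ c * r * ε := by
      refine hT.trans ?_
      have : (p : ℝ)⁻¹ * c * H ^ 2 = c * H * ε := by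
        rw [hH]; field_simp
      rw [this]
      have : c * H ≤ c * r := mul_le_mul_of_nonneg_left hr hc0
      exact mul_le_mul_of_nonneg_right this hε0
    have hb2 : ‖∑ k, δ' k * fx k‖ ≤ c * r * ε := by
      have := norm_sum_mul_le (E := E) Finset.univ δ' fx hε0 hε0 (fun k _ => hδ'ε k)
        (fun k _ => hε k)
      refine this.trans ?_
      have h3 : ε ≤ c * r := by
        calc ε ≤ r := hεr
          _ = 1 * r := (one_mul r).symm
          _ ≤ c * r := mul_le_mul_of_nonneg_right hc1 hr0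
      exact mul_le_mul_of_nonneg_right h3 hε0
    have hb3 : ‖∑ i, h i * δ i‖ ≤ c * r * ε := by
      have := norm_sum_mul_le (E := E) Finset.univ h δ hH0 hε0 (fun i _ => hhH i)
        (fun i _ => hδε i)
      refine this.trans ?_
      have h3 : H ≤ c * r := by
        calc H ≤ r := hr
          _ = 1 * r := (one_mul r).symm
          _ ≤ c * r := mul_le_mul_of_nonneg_right hc1 hr0
      exact mul_le_mul_of_nonneg_right h3 hε0
    refine (IsUltrametricDist.norm_add_le_max _ _).trans (max_le hb1 ?_)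
    refine (IsUltrametricDist.norm_add_le_max _ _).trans (max_le ?_ hb3)
    rw [norm_neg]
    exact hb2

omit [DecidableEq σ] [IsUltrametricDist E] [NormedAlgebra ℚ_[p] E] hp hR in
lemma continuous_aeval (q : MvPolynomial σ R) :
    Continuous (fun y : σ → E => MvPolynomial.aeval y q) := by
  have : (fun y : σ → E => MvPolynomial.aeval y q) =
      fun y => MvPolynomial.eval y (MvPolynomial.map (algebraMap R E) q) := by
    funext y
    rw [MvPolynomial.eval_map, MvPolynomial.aeval_def]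
  rw [this]
  exact MvPolynomial.continuous_eval _

/-- **Lifting (existence).** An approximate solution `x` of the system `f` modulo `p·I_r`
(`r·c < 1`, `c = p^{1/(p-1)}`) is congruent modulo `I_r` to an exact solution. -/
theorem newton_exists [CompleteSpace E] {c : ℝ} (hc1 : 1 ≤ c) (hcp : (p : ℝ) ≤ c ^ (p - 1))
    {f : σ → MvPolynomial σ R} {U V : Matrix σ σ (MvPolynomial σ R)} (hd : JacData p f U V)
    (x : σ → E) (hx : ∀ i, ‖x i‖ ≤ 1) {ε r : ℝ} (hε0 : 0 ≤ ε)
    (hε : ∀ j, ‖MvPolynomial.aeval x (f j)‖ ≤ ε) (hr : (p : ℝ) * ε ≤ r) (hrc : r * c < 1) :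
    ∃ x' : σ → E, (∀ i, ‖x' i - x i‖ ≤ (p : ℝ) * ε) ∧ (∀ i, ‖x' i‖ ≤ 1) ∧
      ∀ j, MvPolynomial.aeval x' (f j) = 0 := by
  have hp0 : (0 : ℝ) < p := by exact_mod_cast hp.out.pos
  have hc0 : 0 ≤ c := le_trans zero_le_one hc1
  have hr0 : 0 ≤ r := le_trans (mul_nonneg hp0.le hε0) hr
  have hcr0 : 0 ≤ c * r := mul_nonneg hc0 hr0
  have hcr1 : c * r < 1 := by rwa [mul_comm]
  have hpε0 : 0 ≤ (p : ℝ) * ε := mul_nonneg hp0.le hε0
  -- the invariant
  let P : ℕ → (σ → E) → Prop := fun n y =>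
    (∀ i, ‖y i - x i‖ ≤ (p : ℝ) * ε) ∧ (∀ i, ‖y i‖ ≤ 1) ∧
      ∀ j, ‖MvPolynomial.aeval y (f j)‖ ≤ (c * r) ^ n * ε
  have hstep : ∀ n y, P n y → ∃ y', P (n + 1) y' ∧
      ∀ i, ‖y' i - y i‖ ≤ (p : ℝ) * ε * (c * r) ^ n := by
    intro n y ⟨h1, h2, h3⟩
    have hpow1 : (c * r) ^ n ≤ 1 := pow_le_one₀ hcr0 hcr1.le
    have hεn0 : 0 ≤ (c * r) ^ n * ε := mul_nonneg (pow_nonneg hcr0 n) hε0
    have hrn : (p : ℝ) * ((c * r) ^ n * ε) ≤ r := by
      calc (p : ℝ) * ((c * r) ^ n * ε) = (c * r) ^ n * ((p : ℝ) * ε) := by ring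
        _ ≤ 1 * ((p : ℝ) * ε) := mul_le_mul_of_nonneg_right hpow1 hpε0
        _ = (p : ℝ) * ε := one_mul _
        _ ≤ r := hr
    obtain ⟨y', hy1, hy2, hy3⟩ := newton_step hR hc1 hcp hd y h2 hεn0 h3 hrn hrc
    have hy1' : ∀ i, ‖y' i - y i‖ ≤ (p : ℝ) * ε * (c * r) ^ n := by
      intro i
      refine (hy1 i).trans (le_of_eq ?_)
      ring
    refine ⟨y', ⟨?_, hy2, ?_⟩, hy1'⟩
    · intro i
      have : y' i - x i = (y' i - y i) + (y i - x i) := by ring
      rw [this]
      refine (IsUltrametricDist.norm_add_le_max _ _).trans (max_le ?_ (h1 i))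
      refine (hy1' i).trans ?_
      calc (p : ℝ) * ε * (c * r) ^ n ≤ (p : ℝ) * ε * 1 :=
            mul_le_mul_of_nonneg_left hpow1 hpε0
        _ = _ := mul_one _
    · intro j
      refine (hy3 j).trans (le_of_eq ?_)
      rw [pow_succ]
      ring
  have hP0 : P 0 x := by
    refine ⟨fun i => by simpa using hpε0, hx, fun j => by simpa using hε j⟩
  -- the sequence
  let seq : (n : ℕ) → {y : σ → E // P n y} := fun n =>
    Nat.rec (motive := fun n => {y : σ → E // P n y}) ⟨x, hP0⟩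
      (fun n y => ⟨Classical.choose (hstep n y.1 y.2),
        (Classical.choose_spec (hstep n y.1 y.2)).1⟩) n
  let u : ℕ → (σ → E) := fun n => (seq n).1
  have hu_succ : ∀ n i, ‖u (n + 1) i - u n i‖ ≤ (p : ℝ) * ε * (c * r) ^ n := by
    intro n i
    exact (Classical.choose_spec (hstep n (seq n).1 (seq n).2)).2 i
  have huP : ∀ n, P n (u n) := fun n => (seq n).2
  have hcauchy : CauchySeq u := by
    apply cauchySeq_of_le_geometric (c * r) ((p : ℝ) * ε) hcr1
    intro n
    rw [dist_comm, dist_pi_le_iff (mul_nonneg hpε0 (pow_nonneg hcr0 n))]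
    intro i
    rw [dist_eq_norm]
    exact hu_succ n i
  obtain ⟨x', hx'⟩ := cauchySeq_tendsto_of_complete hcauchy
  have hcoord : ∀ i, Filter.Tendsto (fun n => u n i) Filter.atTop (nhds (x' i)) :=
    fun i => (tendsto_pi_nhds.mp hx') i
  refine ⟨x', ?_, ?_, ?_⟩
  · intro i
    have ht : Filter.Tendsto (fun n => ‖u n i - x i‖) Filter.atTop (nhds ‖x' i - x i‖) :=
      ((hcoord i).sub_const (x i)).norm
    exact le_of_tendsto' ht (fun n => (huP n).1 i)
  · intro i
    have ht : Filter.Tendsto (fun n => ‖u n i‖) Filter.atTop (nhds ‖x' i‖) := (hcoord i).norm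
    exact le_of_tendsto' ht (fun n => (huP n).2.1 i)
  · intro j
    have ht : Filter.Tendsto (fun n => MvPolynomial.aeval (u n) (f j)) Filter.atTop
        (nhds (MvPolynomial.aeval x' (f j))) :=
      ((continuous_aeval (f j)).tendsto x').comp hx'
    have ht0 : Filter.Tendsto (fun n => MvPolynomial.aeval (u n) (f j)) Filter.atTop
        (nhds (0 : E)) := by
      apply squeeze_zero_norm (fun n => (huP n).2.2 j)
      have := (tendsto_pow_atTop_nhds_zero_of_lt_one hcr0 hcr1).mul_const ε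
      simpa using this
    exact tendsto_nhds_unique ht ht0

/-- **Lifting (uniqueness).** Two exact integral solutions congruent modulo `I_r`
(`r·c < 1`) are equal. -/
theorem newton_unique {c : ℝ} (hc1 : 1 ≤ c) (hcp : (p : ℝ) ≤ c ^ (p - 1))
    {f : σ → MvPolynomial σ R} {U V : Matrix σ σ (MvPolynomial σ R)} (hd : JacData p f U V)
    (x' x'' : σ → E) (hx' : ∀ i, ‖x' i‖ ≤ 1)
    (h' : ∀ j, MvPolynomial.aeval x' (f j) = 0) (h'' : ∀ j, MvPolynomial.aeval x'' (f j) = 0)
    {r : ℝ} (hr : ∀ i, ‖x'' i - x' i‖ ≤ r) (hrc : r * c < 1) : x'' = x' := by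
  have hp0 : (0 : ℝ) < p := by exact_mod_cast hp.out.pos
  have hpE : (p : E) ≠ 0 := by
    intro h0
    have := norm_p_eq p (E := E)
    rw [h0, norm_zero] at this
    exact (inv_pos.mpr hp0).ne this
  have hc0 : 0 ≤ c := le_trans zero_le_one hc1
  set h : σ → E := x'' - x' with hh
  set H : ℝ := ‖h‖ with hH
  have hH0 : 0 ≤ H := norm_nonneg _
  have hhH : ∀ i, ‖h i‖ ≤ H := fun i => norm_le_pi_norm h i
  by_contra hne
  have hHpos : 0 < H := by
    rw [hH, norm_pos_iff]
    intro h0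
    apply hne
    rw [hh, sub_eq_zero] at h0
    exact h0
  have hHr : H ≤ r := by
    by_cases hr0 : 0 ≤ r
    · exact (pi_norm_le_iff_of_nonneg hr0).mpr hr
    · exfalso
      obtain ⟨i⟩ : Nonempty σ := by
        by_contra hemp
        rw [not_nonempty_iff] at hemp
        apply hne
        funext i
        exact (hemp.false i).elim
      exact hr0 ((norm_nonneg _).trans (hr i))
  have hHc : H * c ≤ 1 := (mul_le_mul_of_nonneg_right hHr hc0).trans hrc.le
  have hε : ∀ j, ‖MvPolynomial.aeval x' (f j)‖ ≤ 0 := fun j => by rw [h' j, norm_zero]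
  have hzero : ∀ q ∈ Ideal.span (Set.range f), MvPolynomial.aeval x' q = 0 := by
    intro q hq
    have := norm_aeval_le_of_mem_span hR f x' hx' le_rfl hε q hq
    exact norm_le_zero_iff.mp this
  set Ux : σ → σ → E := fun j i => MvPolynomial.aeval x' (U j i) with hUx
  set Vx : σ → σ → E := fun i j => MvPolynomial.aeval x' (V i j) with hVx
  have hVx1 : ∀ i k, ‖Vx i k‖ ≤ 1 := fun i k => norm_aeval_le_one hR x' hx' _
  have hxx : x' + h = x'' := by rw [hh]; abel
  -- the linear term is small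
  have hlin : ∀ j, ‖∑ i, h i * Ux j i‖ ≤ c * H ^ 2 := by
    intro j
    have hT := taylor_two_le p hc1 hcp x' h hH0 (inv_nonneg.mpr hp0.le) hhH hHc
      (pIdeal p f : Set (MvPolynomial σ R)) (fun q hq i => pderiv_mem_pIdeal hd q hq i)
      (fun q hq => (norm_aeval_le_of_mem_pIdeal hR f x' hx' le_rfl hε q hq).trans
        (max_le (inv_nonneg.mpr hp0.le) le_rfl))
      (f j) (fun i => pderiv_f_mem_pIdeal hd j i)
    rw [hxx, h'' j, h' j, sub_zero, zero_sub, norm_neg] at hT
    have hpd : ∀ i, MvPolynomial.aeval x' (MvPolynomial.pderiv i (f j)) = (p : E) * Ux j i := by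
      intro i
      have := hzero _ (hd.hJ j i)
      rw [map_sub, sub_eq_zero] at this
      rw [this]
      simp [hUx]
    simp_rw [hpd] at hT
    have h1 : ∑ i, h i * ((p : E) * Ux j i) = (p : E) * ∑ i, h i * Ux j i := by
      rw [Finset.mul_sum]
      apply Finset.sum_congr rfl
      intro i _
      ring
    rw [h1, norm_mul, norm_p_eq] at hT
    have h2 : (p : ℝ)⁻¹ * ‖∑ i, h i * Ux j i‖ ≤ (p : ℝ)⁻¹ * (c * H ^ 2) := by
      refine hT.trans (le_of_eq ?_)
      ring
    exact le_of_mul_le_mul_left h2 (inv_pos.mpr hp0)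
  -- invert
  have hVU : ∀ i k, ∑ j, Vx i j * Ux j k = if i = k then 1 else 0 := by
    intro i k
    have := hzero _ (hd.hVU i k)
    rw [map_sub, sub_eq_zero] at this
    simp only [Matrix.mul_apply, map_sum, map_mul, Matrix.one_apply] at this
    rw [hVx, hUx]
    simp only
    rw [this]
    split_ifs <;> simp
  have hinv : ∀ i, h i = ∑ j, Vx i j * ∑ k, h k * Ux j k := by
    intro i
    simp_rw [Finset.mul_sum]
    rw [Finset.sum_comm]
    have : ∀ k, ∑ j, Vx i j * (h k * Ux j k) = h k * ∑ j, Vx i j * Ux j k := by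
      intro k
      rw [Finset.mul_sum]
      apply Finset.sum_congr rfl
      intro j _
      ring
    simp_rw [this, hVU]
    simp
  have hbound : ∀ i, ‖h i‖ ≤ c * H ^ 2 := by
    intro i
    rw [hinv i]
    have := norm_sum_mul_le (E := E) Finset.univ (fun j => Vx i j)
      (fun j => ∑ k, h k * Ux j k) zero_le_one (by positivity)
      (fun j _ => hVx1 i j) (fun j _ => hlin j)
    simpa using this
  have hH2 : H ≤ c * H ^ 2 := (pi_norm_le_iff_of_nonneg (by positivity)).mpr hbound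
  have h3 : 1 ≤ c * H := by
    have : H * 1 ≤ H * (c * H) := by
      calc H * 1 = H := mul_one _
        _ ≤ c * H ^ 2 := hH2
        _ = H * (c * H) := by ring
    exact le_of_mul_le_mul_left this hHpos
  have h4 : c * H ≤ r * c := by
    rw [mul_comm c H]
    exact mul_le_mul_of_nonneg_right hHr hc0
  linarith

/-- **Fontaine's lifting lemma (concrete form).** -/
theorem newton_existsUnique [CompleteSpace E] {c : ℝ} (hc1 : 1 ≤ c) (hcp : (p : ℝ) ≤ c ^ (p - 1))
    {f : σ → MvPolynomial σ R} {U V : Matrix σ σ (MvPolynomial σ R)} (hd : JacData p f U V)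
    (x : σ → E) (hx : ∀ i, ‖x i‖ ≤ 1) {r : ℝ} (hr0 : 0 ≤ r)
    (hε : ∀ j, ‖MvPolynomial.aeval x (f j)‖ ≤ (p : ℝ)⁻¹ * r) (hrc : r * c < 1) :
    ∃! x' : σ → E, (∀ i, ‖x' i - x i‖ ≤ r) ∧ ∀ j, MvPolynomial.aeval x' (f j) = 0 := by
  have hp0 : (0 : ℝ) < p := by exact_mod_cast hp.out.pos
  have hc0 : 0 ≤ c := le_trans zero_le_one hc1
  have hr1 : r < 1 := by
    have : r * 1 ≤ r * c := mul_le_mul_of_nonneg_left hc1 hr0
    linarith
  have hpr : (p : ℝ) * ((p : ℝ)⁻¹ * r) = r := by field_simp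
  obtain ⟨x', h1, h2, h3⟩ := newton_exists hR hc1 hcp hd x hx
    (mul_nonneg (inv_nonneg.mpr hp0.le) hr0) hε hpr.le hrc
  refine ⟨x', ⟨fun i => (h1 i).trans hpr.le, h3⟩, ?_⟩
  rintro y ⟨hy1, hy2⟩
  apply newton_unique hR hc1 hcp hd x' y h2 h3 hy2 (r := r) _ hrc
  intro i
  have : y i - x' i = (y i - x i) + -(x' i - x i) := by ring
  rw [this]
  refine (IsUltrametricDist.norm_add_le_max _ _).trans (max_le (hy1 i) ?_)
  rw [norm_neg]
  exact (h1 i).trans hpr.le

omit hR [DecidableEq σ] [IsUltrametricDist E] [NormedAlgebra ℚ_[p] E] hp in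
/-- Solutions are permuted by `R`-algebra endomorphisms of `E`. -/
lemma aeval_comp_algHom (τ : E →ₐ[R] E) (y : σ → E) (q : MvPolynomial σ R) :
    MvPolynomial.aeval (fun i => τ (y i)) q = τ (MvPolynomial.aeval y q) :=
  (MvPolynomial.comp_aeval_apply (f := y) τ q).symm

/-- A solution close to its image under an isometric `R`-algebra endomorphism is fixed by it
(Krasner-type rationality). -/
theorem newton_fixed {c : ℝ} (hc1 : 1 ≤ c) (hcp : (p : ℝ) ≤ c ^ (p - 1))
    {f : σ → MvPolynomial σ R} {U V : Matrix σ σ (MvPolynomial σ R)} (hd : JacData p f U V)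
    (x' : σ → E) (hx' : ∀ i, ‖x' i‖ ≤ 1) (h' : ∀ j, MvPolynomial.aeval x' (f j) = 0)
    (τ : E →ₐ[R] E) {r : ℝ} (hr : ∀ i, ‖τ (x' i) - x' i‖ ≤ r) (hrc : r * c < 1) (i : σ) :
    τ (x' i) = x' i := by
  have h'' : ∀ j, MvPolynomial.aeval (fun i => τ (x' i)) (f j) = 0 := by
    intro j
    rw [aeval_comp_algHom, h' j, map_zero]
  have := newton_unique hR hc1 hcp hd x' (fun i => τ (x' i)) hx' h' h'' hr hrc
  exact congrFun this i

end Newton

section Cst

variable (p : ℕ) [hp : Fact p.Prime]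

/-- `c = p^{1/(p-1)}`. -/
def cst : ℝ := (p : ℝ) ^ (((p : ℝ) - 1)⁻¹)

lemma one_le_cst : 1 ≤ cst p := by
  have hp1 : (1 : ℝ) ≤ p := by exact_mod_cast hp.out.one_le
  apply Real.one_le_rpow hp1
  have : (0 : ℝ) ≤ (p : ℝ) - 1 := by linarith
  exact inv_nonneg.mpr this

lemma cst_pow : cst p ^ (p - 1) = (p : ℝ) := by
  have hp0 : (0 : ℝ) ≤ p := by positivity
  have h2 : (2 : ℝ) ≤ p := by exact_mod_cast hp.out.two_le
  have hne : (p : ℝ) - 1 ≠ 0 := by linarith
  have hcast : ((p - 1 : ℕ) : ℝ) = (p : ℝ) - 1 := by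
    rw [Nat.cast_sub hp.out.one_le, Nat.cast_one]
  rw [cst, ← Real.rpow_natCast, ← Real.rpow_mul hp0, hcast, inv_mul_cancel₀ hne, Real.rpow_one]

lemma le_cst_pow : (p : ℝ) ≤ cst p ^ (p - 1) := (cst_pow p).ge

end Cst

end

end Fermat.Agent.TW.FLAT.Newton6
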