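/-
Programme T (S56), chapter T/FLAT, ORDINARY half (helper7's plan T/plan/ORD), piece **F-e = PeuCount**
(helper4).  `Ω = PadicAlgCl p`, `Gq p = Gal(Ω/ℚ_p)`, `Iq p` the inertia group (`TW/LOC/Defs2`).

VERBATIM (helper7's finding T/plan/ORD):

  def IsPeu {k : Type*} [AddCommGroup k] [Module (ZMod p) k] (ζ : PadicAlgCl p) (β : Gq p → k) : Prop :=
    ∀ ℓ : k →ₗ[ZMod p] ZMod p, ∃ u : PadicAlgCl p, ‖u‖ = 1 ∧ ∀ σ ∈ Iq p, σ u = ζ ^ (ℓ (β σ)).val * u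

  theorem finite_and_card_peu_le (hp2 : p ≠ 2) {k : Type} [Field k] [Finite k] [Algebra (ZMod p) k]
      (ζ : PadicAlgCl p) (hζ : IsPrimitiveRoot ζ p) (η : Gq p →* kˣ)
      (hη : ∀ σ ∈ Iq p, ∀ c : ℕ, (∀ ξ : PadicAlgCl p, ξ ^ p = 1 → σ ξ = ξ ^ c) → (η σ : k) = (c : k)) :
      Finite {β : Gq p → k // (∀ σ τ, β (σ * τ) = β σ + (η σ : k) * β τ) ∧ IsPeu ζ β} ∧
      Nat.card {β : Gq p → k // (∀ σ τ, β (σ * τ) = β σ + (η σ : k) * β τ) ∧ IsPeu ζ β} ≤ Nat.card k ^ 2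

Closure properties of `IsPeu` (any `𝔽_p`-module `k`): `isPeu_zero`, `IsPeu.add (hζ : ζ ^ p = 1)`,
`IsPeu.neg`, `IsPeu.sub (hζ)`, `IsPeu.comp (f : k →ₗ[ZMod p] k')`, `IsPeu.smul (a : K)` (`K` a commutative
`𝔽_p`-algebra: `fun σ => a * β σ`), and `isPeu_coboundary hζ hη n : IsPeu ζ (fun σ => ((η σ : k) - 1) * n)`.
Also `Zpeu ζ hζ1 η : AddSubgroup (Gq p → k)` (the PEU cocycles), `mem_Zpeu`.

PROOF (helper7's (0)-(4) with two shortcuts).  `κ := kap p` the residue field of the unit ball of `Ω`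
(`ball p`, `res p : Ω → κ`), `φ` a Frobenius lift (`UnramGq4.exists_isFrobLift`).
* `exists_isNK_of_unit`: a unit Kummer generator `u` of `χ|_{Iq}` (`σ u = ζ ^ χ σ · u` on `Iq`) can be
  NORMALISED to `‖u ^ p - 1‖ ≤ ‖p‖` (divide by `a := φ⁻¹ (u ^ p)`: `a ^ p ≡ φ a = u ^ p`, and elements
  of `Ω^{Iq}` of norm `< 1` have norm `≤ ‖p‖`, `UnramFixed4`).  `IsNK ζ χ u`, `yv u := (u ^ p - 1) / p`.
* `Rel ζ χ y`: `y = res (yv u)` for a normalised generator; `Rel.unique` (well defined), `Rel.add`,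
  `rel_coboundary`, `Rel.frob` (`χ ↦ cyc φ · χ (φ⁻¹ · φ)`, `y ↦ y ^ p`), `Rel.zero` (value `0` ⇒ `χ` is
  `(cyc σ - 1) · i` on `Iq`: the root of `X ^ p = u ^ p` close to `1` is inertia-fixed; needs `p ≠ 2`).
* `eq_coboundary_of_rel_zero`: all classes `0` ⇒ `β` is a coboundary (functionals separate points; a
  cocycle vanishing on `Iq` is zero since `η ≠ 1` on `Iq`, `exists_mem_Iq_cyc_ne_one`).
* `rel_frob_dual`: `Φ_β (ℓ ∘ m) = (Φ_β ℓ) ^ p`, `m = cyc φ / η φ`.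
* Algebra (Mathlib only): `exists_zmod_of_pow_eq`, `linearIndependent_of_semilinear` (`𝔽_p`-independent
  solutions of `T f = U f`, `T` Frobenius-semilinear, `U` linear injective, are `κ`-independent),
  `solSub κ A`, `finite_and_card_solSub_le` (`#{f ∈ Hom_{𝔽_p}(V, κ) | f ∘ A = Frob ∘ f} ≤ #V`),
  `finite_and_card_le_of_map`.
-/
import Mathlib
import Fermat.Agent.TW.LOC.UnramGq4
import Fermat.Agent.TW.LOC.UnramFixed4
import Fermat.Agent.TW.FLAT.KummerTop0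

set_option autoImplicit false
set_option linter.unusedSectionVars false

namespace Fermat.Agent.TW.FLAT.PeuCount4

section Algebra

variable {p : ℕ} [Fact p.Prime]

/-- In a field which is a `ZMod p`-algebra, the solutions of `c ^ p = c` are the image of `ZMod p`. -/
theorem exists_zmod_of_pow_eq {κ : Type*} [Field κ] [Algebra (ZMod p) κ] (c : κ) (hc : c ^ p = c) :
    ∃ a : ZMod p, algebraMap (ZMod p) κ a = c := by
  classical
  have hp : p.Prime := Fact.out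
  set P : Polynomial κ := Polynomial.X ^ p - Polynomial.X with hP
  have hP0 : P ≠ 0 := by
    rw [hP]
    exact FiniteField.X_pow_card_sub_X_ne_zero κ hp.one_lt
  have hdeg : P.natDegree = p := FiniteField.X_pow_card_sub_X_natDegree_eq κ hp.one_lt
  have hinj : Function.Injective (algebraMap (ZMod p) κ) := (algebraMap (ZMod p) κ).injective
  set S : Finset κ := Finset.univ.image (algebraMap (ZMod p) κ) with hS
  have hScard : S.card = p := by
    rw [hS, Finset.card_image_of_injective _ hinj, Finset.card_univ, ZMod.card]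
  have hroot : ∀ x : κ, x ^ p = x → x ∈ P.roots.toFinset := by
    intro x hx
    rw [Multiset.mem_toFinset, Polynomial.mem_roots hP0, Polynomial.IsRoot, hP]
    simp [hx]
  have hSsub : S ⊆ P.roots.toFinset := by
    intro x hx
    rw [hS, Finset.mem_image] at hx
    obtain ⟨a, -, rfl⟩ := hx
    apply hroot
    rw [← map_pow, ZMod.pow_card]
  have hle : P.roots.toFinset.card ≤ p := by
    calc P.roots.toFinset.card ≤ Multiset.card P.roots := Multiset.toFinset_card_le _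
      _ ≤ P.natDegree := Polynomial.card_roots' P
      _ = p := hdeg
  have heq : S = P.roots.toFinset :=
    Finset.eq_of_subset_of_card_le hSsub (by rw [hScard]; exact hle)
  have hc' := hroot c hc
  rw [← heq, hS, Finset.mem_image] at hc'
  obtain ⟨a, -, ha⟩ := hc'
  exact ⟨a, ha⟩

/-- **Semilinear descent of linear independence.**  `T` Frobenius-semilinear, `U` linear and
injective; a family of solutions of `T f = U f` which is `𝔽_p`-independent is `κ`-independent. -/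
theorem linearIndependent_of_semilinear {κ : Type*} [Field κ] [Algebra (ZMod p) κ]
    {H : Type*} [AddCommGroup H] [Module κ H] [Module (ZMod p) H] [IsScalarTower (ZMod p) κ H]
    (T : H →+ H) (hT : ∀ (c : κ) (f : H), T (c • f) = c ^ p • T f)
    (U : H →ₗ[κ] H) (hU : Function.Injective U)
    {ι : Type*} (f : ι → H) (hf : ∀ i, T (f i) = U (f i))
    (hind : LinearIndependent (ZMod p) f) : LinearIndependent κ f := by
  classical
  rw [linearIndependent_iff']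
  -- strong induction on the size of the support
  suffices h : ∀ (n : ℕ) (s : Finset ι) (g : ι → κ), s.card = n → ∑ i ∈ s, g i • f i = 0 →
      ∀ i ∈ s, g i = 0 from fun s g hg i hi => h s.card s g rfl hg i hi
  intro n
  induction n using Nat.strong_induction_on with
  | _ n ih =>
    intro s g hcard hg
    by_contra hne
    push Not at hne
    obtain ⟨i0, hi0, hgi0⟩ := hne
    -- normalise
    set g' : ι → κ := fun i => (g i0)⁻¹ * g i with hg'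
    have hg'0 : g' i0 = 1 := by rw [hg']; exact inv_mul_cancel₀ hgi0
    have hrel : ∑ i ∈ s, g' i • f i = 0 := by
      have : ∑ i ∈ s, g' i • f i = (g i0)⁻¹ • ∑ i ∈ s, g i • f i := by
        rw [Finset.smul_sum]
        exact Finset.sum_congr rfl (fun i _ => by rw [hg', mul_smul])
      rw [this, hg, smul_zero]
    -- apply `T`
    have hrel2 : ∑ i ∈ s, (g' i) ^ p • f i = 0 := by
      apply hU
      rw [map_zero, map_sum]
      have h1 : T (∑ i ∈ s, g' i • f i) = 0 := by rw [hrel, map_zero]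
      rw [map_sum] at h1
      rw [← h1]
      exact Finset.sum_congr rfl (fun i _ => by rw [hT, hf, map_smul])
    have hrel3 : ∑ i ∈ s.erase i0, ((g' i) ^ p - g' i) • f i = 0 := by
      have h2 : ∑ i ∈ s, ((g' i) ^ p - g' i) • f i = 0 := by
        simp only [sub_smul, Finset.sum_sub_distrib, hrel, hrel2, sub_zero]
      rw [← Finset.add_sum_erase s _ hi0, hg'0, one_pow, sub_self, zero_smul, zero_add] at h2
      exact h2
    have hlt : (s.erase i0).card < n := by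
      rw [Finset.card_erase_of_mem hi0, hcard]
      have : 0 < s.card := Finset.card_pos.2 ⟨i0, hi0⟩
      omega
    have hfix : ∀ i ∈ s, (g' i) ^ p = g' i := by
      intro i hi
      by_cases hii : i = i0
      · rw [hii, hg'0, one_pow]
      · have := ih _ hlt (s.erase i0) _ rfl hrel3 i (Finset.mem_erase.2 ⟨hii, hi⟩)
        exact sub_eq_zero.1 this
    choose! a ha using fun i (hi : i ∈ s) => exists_zmod_of_pow_eq (g' i) (hfix i hi)
    have hrel4 : ∑ i ∈ s, a i • f i = 0 := by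
      rw [← hrel]
      refine Finset.sum_congr rfl (fun i hi => ?_)
      rw [← ha i hi, algebraMap_smul]
    have h0 := (linearIndependent_iff'.1 hind) s a hrel4 i0 hi0
    have h1 : g' i0 = 0 := by rw [← ha i0 hi0, h0, map_zero]
    rw [hg'0] at h1
    exact one_ne_zero h1

end Algebra


section Count

variable {p : ℕ} [Fact p.Prime]
variable (κ : Type*) [Field κ] [Algebra (ZMod p) κ]
variable {V : Type*} [AddCommGroup V] [Module (ZMod p) V]

theorem charP_of_zmod_algebra : CharP κ p :=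
  charP_of_injective_algebraMap (algebraMap (ZMod p) κ).injective p

/-- The `𝔽_p`-space of Frobenius-semilinear solutions `f (A v) = f v ^ p`. -/
def solSub (A : V →ₗ[ZMod p] V) : Submodule (ZMod p) (V →ₗ[ZMod p] κ) where
  carrier := {f | ∀ v, f v ^ p = f (A v)}
  add_mem' := by
    intro f g hf hg v
    have := charP_of_zmod_algebra (p := p) κ
    rw [LinearMap.add_apply, LinearMap.add_apply, add_pow_char, hf v, hg v]
  zero_mem' := by
    intro v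
    rw [LinearMap.zero_apply, LinearMap.zero_apply]
    exact zero_pow (Fact.out : p.Prime).ne_zero
  smul_mem' := by
    intro c f hf v
    rw [LinearMap.smul_apply, LinearMap.smul_apply, Algebra.smul_def, mul_pow, hf v, ← map_pow,
      ZMod.pow_card, Algebra.smul_def]

theorem mem_solSub {A : V →ₗ[ZMod p] V} {f : V →ₗ[ZMod p] κ} :
    f ∈ solSub κ A ↔ ∀ v, f v ^ p = f (A v) := Iff.rfl

/-- **The count**: the semilinear equation `f ∘ A = Frob ∘ f` has at most `#V` solutions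
`f ∈ Hom_{𝔽_p}(V, κ)` (`A` surjective, `V` finite). -/
theorem finite_and_card_solSub_le [Module.Finite (ZMod p) V] (A : V →ₗ[ZMod p] V)
    (hA : Function.Surjective A) :
    Finite (solSub κ A) ∧ Nat.card (solSub κ A) ≤ Nat.card V := by
  classical
  have := charP_of_zmod_algebra (p := p) κ
  set W := solSub κ A with hW
  -- the semilinear operator
  let T : (V →ₗ[ZMod p] κ) →+ (V →ₗ[ZMod p] κ) :=
    { toFun := fun f =>
        { toFun := fun v => f v ^ p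
          map_add' := fun x y => by rw [map_add, add_pow_char]
          map_smul' := fun c x => by
            rw [map_smul, Algebra.smul_def, mul_pow, ← map_pow, ZMod.pow_card, RingHom.id_apply,
              Algebra.smul_def] }
      map_zero' := by
        ext v
        exact zero_pow (Fact.out : p.Prime).ne_zero
      map_add' := fun f g => by
        ext v
        change (f v + g v) ^ p = f v ^ p + g v ^ p
        rw [add_pow_char] }
  let U : (V →ₗ[ZMod p] κ) →ₗ[κ] (V →ₗ[ZMod p] κ) :=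
    { toFun := fun f => f.comp A
      map_add' := fun f g => rfl
      map_smul' := fun c f => rfl }
  have hT : ∀ (c : κ) (f : V →ₗ[ZMod p] κ), T (c • f) = c ^ p • T f := by
    intro c f
    ext v
    change (c • f v) ^ p = c ^ p • (f v ^ p)
    rw [smul_eq_mul, smul_eq_mul, mul_pow]
  have hU : Function.Injective U := by
    intro f g hfg
    ext v
    obtain ⟨v', rfl⟩ := hA v
    exact LinearMap.congr_fun hfg v'
  have hrank : Module.rank (ZMod p) W ≤ (Module.finrank (ZMod p) V : ℕ) := by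
    apply rank_le
    intro s hs
    have h1 : LinearIndependent (ZMod p) (fun i : s => ((i : W) : V →ₗ[ZMod p] κ)) :=
      hs.map' W.subtype (Submodule.ker_subtype W)
    have h2 : LinearIndependent κ (fun i : s => ((i : W) : V →ₗ[ZMod p] κ)) := by
      refine linearIndependent_of_semilinear T hT U hU _ (fun i => ?_) h1
      ext v
      exact (i : W).2 v
    have h3 := h2.fintype_card_le_finrank
    rw [Module.finrank_linearMap_self, Fintype.card_coe] at h3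
    exact h3
  have : Module.Finite (ZMod p) W := by
    rw [← Module.rank_lt_aleph0_iff]
    exact lt_of_le_of_lt hrank Cardinal.natCast_lt_aleph0
  have : Finite W := Module.finite_of_finite (ZMod p)
  refine ⟨inferInstance, ?_⟩
  rw [Module.natCard_eq_pow_finrank (K := ZMod p) (V := W),
    Module.natCard_eq_pow_finrank (K := ZMod p) (V := V)]
  apply Nat.pow_le_pow_right (Nat.card_pos)
  have : (Module.finrank (ZMod p) W : Cardinal) ≤ (Module.finrank (ZMod p) V : ℕ) := by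
    rw [Module.finrank_eq_rank]
    exact hrank
  exact_mod_cast this

/-- Counting through an additive map with small kernel and small image. -/
theorem finite_and_card_le_of_map {Z H : Type*} [AddCommGroup Z] [AddCommGroup H] (Φ : Z →+ H)
    (B : Set Z) (W : Set H) [Finite B] [Finite W] (hker : ∀ z, Φ z = 0 → z ∈ B)
    (hrange : ∀ z, Φ z ∈ W) : Finite Z ∧ Nat.card Z ≤ Nat.card B * Nat.card W := by
  classical
  -- a section of `Φ` on its range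
  have hsec : ∀ w : H, ∃ z : Z, (∃ z', Φ z' = w) → Φ z = w := by
    intro w
    by_cases h : ∃ z', Φ z' = w
    · obtain ⟨z', hz'⟩ := h
      exact ⟨z', fun _ => hz'⟩
    · exact ⟨0, fun h' => absurd h' h⟩
  choose s hs using hsec
  let F : Z → B × W := fun z =>
    (⟨z - s (Φ z), hker _ (by rw [map_sub, hs (Φ z) ⟨z, rfl⟩, sub_self])⟩, ⟨Φ z, hrange z⟩)
  have hF : Function.Injective F := by
    intro z z' h
    have h1 : Φ z = Φ z' := congrArg (fun x => (x.2 : H)) h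
    have h2 : z - s (Φ z) = z' - s (Φ z') := congrArg (fun x => (x.1 : Z)) h
    rw [h1] at h2
    exact sub_left_injective h2
  have : Finite Z := Finite.of_injective F hF
  refine ⟨inferInstance, ?_⟩
  have := Nat.card_le_card_of_injective F hF
  rwa [Nat.card_prod] at this

end Count


open Fermat.Agent.TW.LOC.Defs2 Fermat.Agent.TW.LOC.TameProfinite4 Fermat.Agent.TW.LOC.UnramGq4
  Fermat.Agent.TW.LOC.UnramFixed4 Fermat.Agent.TW.FLAT.KummerTop0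

noncomputable section

section Residue

variable (p : ℕ) [Fact p.Prime]

/-- The valuation ring of `PadicAlgCl p`. -/
def ball : ValuationSubring (PadicAlgCl p) where
  carrier := {x | ‖x‖ ≤ 1}
  mul_mem' := fun {a b} ha hb => by
    change ‖a * b‖ ≤ 1
    rw [norm_mul]
    exact mul_le_one₀ ha (norm_nonneg b) hb
  one_mem' := by
    change ‖(1 : PadicAlgCl p)‖ ≤ 1
    rw [norm_one]
  add_mem' := fun {a b} ha hb => by
    change ‖a + b‖ ≤ 1
    exact le_trans (PadicAlgCl.isNonarchimedean p a b) (max_le ha hb)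
  zero_mem' := by
    change ‖(0 : PadicAlgCl p)‖ ≤ 1
    rw [norm_zero]
    exact zero_le_one
  neg_mem' := fun {a} ha => by
    change ‖-a‖ ≤ 1
    rw [norm_neg]
    exact ha
  mem_or_inv_mem' := fun a => by
    change ‖a‖ ≤ 1 ∨ ‖a⁻¹‖ ≤ 1
    rcases le_total ‖a‖ 1 with h | h
    · exact Or.inl h
    · right
      rw [norm_inv]
      exact inv_le_one_of_one_le₀ h

theorem mem_ball_iff {x : PadicAlgCl p} : x ∈ ball p ↔ ‖x‖ ≤ 1 := Iff.rfl

/-- The residue field of `PadicAlgCl p`. -/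
abbrev kap : Type := IsLocalRing.ResidueField (ball p)

theorem mem_maximalIdeal_ball_iff (x : ball p) :
    x ∈ IsLocalRing.maximalIdeal (ball p) ↔ ‖(x : PadicAlgCl p)‖ < 1 := by
  rw [IsLocalRing.mem_maximalIdeal, mem_nonunits_iff]
  constructor
  · intro h
    by_contra hlt
    rw [not_lt] at hlt
    have h1 : ‖(x : PadicAlgCl p)‖ = 1 := le_antisymm x.2 hlt
    have hx0 : (x : PadicAlgCl p) ≠ 0 := by
      intro h0
      rw [h0, norm_zero] at h1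
      exact zero_ne_one h1
    apply h
    refine ⟨⟨x, ⟨(x : PadicAlgCl p)⁻¹, ?_⟩, ?_, ?_⟩, rfl⟩
    · change ‖(x : PadicAlgCl p)⁻¹‖ ≤ 1
      rw [norm_inv, h1, inv_one]
    · apply Subtype.ext
      exact mul_inv_cancel₀ hx0
    · apply Subtype.ext
      exact inv_mul_cancel₀ hx0
  · intro h hu
    obtain ⟨u, rfl⟩ := hu
    have h1 : ((u : ball p) : PadicAlgCl p) * (((u⁻¹ : (ball p)ˣ) : ball p) : PadicAlgCl p) = 1 := by
      have := congrArg (fun t : ball p => (t : PadicAlgCl p)) u.mul_inv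
      exact this
    have h2 := congrArg norm h1
    rw [norm_mul, norm_one] at h2
    have h3 : ‖(((u⁻¹ : (ball p)ˣ) : ball p) : PadicAlgCl p)‖ ≤ 1 := ((u⁻¹ : (ball p)ˣ) : ball p).2
    have h4 : ‖((u : ball p) : PadicAlgCl p)‖ * ‖(((u⁻¹ : (ball p)ˣ) : ball p) : PadicAlgCl p)‖ < 1 := by
      calc _ ≤ ‖((u : ball p) : PadicAlgCl p)‖ * 1 :=
            mul_le_mul_of_nonneg_left h3 (norm_nonneg _)
        _ < 1 := by rw [mul_one]; exact h
    rw [h2] at h4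
    exact lt_irrefl _ h4

/-- Reduction `Ω → κ` (zero outside the unit ball). -/
def res (x : PadicAlgCl p) : kap p :=
  if h : ‖x‖ ≤ 1 then IsLocalRing.residue (ball p) ⟨x, h⟩ else 0

variable {p}

theorem res_of_le {x : PadicAlgCl p} (h : ‖x‖ ≤ 1) :
    res p x = IsLocalRing.residue (ball p) ⟨x, h⟩ := dif_pos h

theorem res_add {x y : PadicAlgCl p} (hx : ‖x‖ ≤ 1) (hy : ‖y‖ ≤ 1) :
    res p (x + y) = res p x + res p y := by
  have hxy : ‖x + y‖ ≤ 1 := (ball p).add_mem _ _ hx hy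
  rw [res_of_le hx, res_of_le hy, res_of_le hxy, ← map_add]
  rfl

theorem res_mul {x y : PadicAlgCl p} (hx : ‖x‖ ≤ 1) (hy : ‖y‖ ≤ 1) :
    res p (x * y) = res p x * res p y := by
  have hxy : ‖x * y‖ ≤ 1 := (ball p).mul_mem _ _ hx hy
  rw [res_of_le hx, res_of_le hy, res_of_le hxy, ← map_mul]
  rfl

theorem res_one : res p (1 : PadicAlgCl p) = 1 := by
  have h1 : ‖(1 : PadicAlgCl p)‖ ≤ 1 := (ball p).one_mem
  rw [res_of_le h1]
  exact map_one (IsLocalRing.residue (ball p))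

theorem res_zero : res p (0 : PadicAlgCl p) = 0 := by
  have h1 : ‖(0 : PadicAlgCl p)‖ ≤ 1 := (ball p).zero_mem
  rw [res_of_le h1]
  exact map_zero (IsLocalRing.residue (ball p))

theorem res_pow {x : PadicAlgCl p} (hx : ‖x‖ ≤ 1) (n : ℕ) : res p (x ^ n) = res p x ^ n := by
  induction n with
  | zero => rw [pow_zero, pow_zero, res_one]
  | succ n ih =>
    have hxn : ‖x ^ n‖ ≤ 1 := (ball p).pow_mem hx n
    rw [pow_succ, pow_succ, res_mul hxn hx, ih]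

theorem res_eq_zero_iff {x : PadicAlgCl p} (hx : ‖x‖ ≤ 1) : res p x = 0 ↔ ‖x‖ < 1 := by
  rw [res_of_le hx, IsLocalRing.residue_eq_zero_iff, mem_maximalIdeal_ball_iff]

theorem res_neg {x : PadicAlgCl p} (hx : ‖x‖ ≤ 1) : res p (-x) = - res p x := by
  have hx' : ‖-x‖ ≤ 1 := by rwa [norm_neg]
  have h := res_add hx hx'
  rw [add_neg_cancel, res_zero] at h
  exact (neg_eq_of_add_eq_zero_right h.symm).symm

theorem res_eq_res_iff {x y : PadicAlgCl p} (hx : ‖x‖ ≤ 1) (hy : ‖y‖ ≤ 1) :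
    res p x = res p y ↔ ‖x - y‖ < 1 := by
  have hy' : ‖-y‖ ≤ 1 := by rwa [norm_neg]
  have hxy : ‖x - y‖ ≤ 1 := by
    rw [sub_eq_add_neg]; exact (ball p).add_mem _ _ hx hy'
  rw [← res_eq_zero_iff hxy, sub_eq_add_neg, res_add hx hy', res_neg hy, ← sub_eq_add_neg,
    sub_eq_zero]

theorem norm_p_lt_one : ‖((p : ℕ) : PadicAlgCl p)‖ < 1 := norm_natCast_q_lt_one p

theorem p_ne_zero : ((p : ℕ) : PadicAlgCl p) ≠ 0 := by
  exact_mod_cast (Fact.out : p.Prime).ne_zero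

theorem norm_p_pos : 0 < ‖((p : ℕ) : PadicAlgCl p)‖ := norm_pos_iff.2 p_ne_zero

instance charP_kap : CharP (kap p) p := by
  rw [CharP.charP_iff_prime_eq_zero (Fact.out : p.Prime)]
  have h1 : ((p : ℕ) : kap p) = res p ((p : ℕ) : PadicAlgCl p) := by
    rw [res_of_le norm_p_lt_one.le]
    rw [← map_natCast (IsLocalRing.residue (ball p))]
    rfl
  rw [h1, res_eq_zero_iff norm_p_lt_one.le]
  exact norm_p_lt_one

instance algebra_kap : Algebra (ZMod p) (kap p) := ZMod.algebra _ p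

end Residue


/-! ### Ultrametric helpers -/

section Analytic

variable {p : ℕ} [Fact p.Prime]

theorem norm_add_le_max' (a b : PadicAlgCl p) : ‖a + b‖ ≤ max ‖a‖ ‖b‖ :=
  PadicAlgCl.isNonarchimedean p a b

theorem norm_sub_le_max'' (a b : PadicAlgCl p) : ‖a - b‖ ≤ max ‖a‖ ‖b‖ :=
  Fermat.Agent.TW.LOC.TameProfinite4.norm_sub_le_max' p a b

theorem norm_eq_one_of_sub_one_lt {x : PadicAlgCl p} (h : ‖x - 1‖ < 1) : ‖x‖ = 1 := by
  apply le_antisymm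
  · have : x = (x - 1) + 1 := by ring
    rw [this]
    exact le_trans (norm_add_le_max' _ _) (max_le h.le (by rw [norm_one]))
  · by_contra hlt
    rw [not_le] at hlt
    have : (1 : PadicAlgCl p) = x - (x - 1) := by ring
    have h1 : ‖(1 : PadicAlgCl p)‖ < 1 := by
      rw [this]
      exact lt_of_le_of_lt (norm_sub_le_max'' _ _) (max_lt hlt h)
    rw [norm_one] at h1
    exact lt_irrefl _ h1

/-- `(1 + x)^p = 1 + x^p + p x r` with `r` integral. -/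
theorem exists_one_add_pow (x : PadicAlgCl p) (hx : ‖x‖ ≤ 1) :
    ∃ r : PadicAlgCl p, ‖r‖ ≤ 1 ∧ (1 + x) ^ p = 1 + x ^ p + ((p : ℕ) : PadicAlgCl p) * x * r := by
  obtain ⟨r, hr⟩ := exists_add_pow_prime_eq (Fact.out : p.Prime) (1 : ball p) ⟨x, hx⟩
  refine ⟨r, r.2, ?_⟩
  have := congrArg (ball p).subtype hr
  simp only [map_add, map_mul, map_pow, map_one, map_natCast] at this
  rw [one_pow, mul_one] at this
  exact this

theorem norm_one_add_pow_sub_one_le (x : PadicAlgCl p) (hx : ‖x‖ ≤ 1) :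
    ‖(1 + x) ^ p - 1‖ ≤ max (‖x‖ ^ p) (‖((p : ℕ) : PadicAlgCl p)‖ * ‖x‖) := by
  obtain ⟨r, hr, h⟩ := exists_one_add_pow x hx
  have : (1 + x) ^ p - 1 = x ^ p + ((p : ℕ) : PadicAlgCl p) * x * r := by rw [h]; ring
  rw [this]
  refine le_trans (norm_add_le_max' _ _) (max_le_max ?_ ?_)
  · rw [norm_pow]
  · rw [norm_mul, norm_mul]
    calc ‖((p : ℕ) : PadicAlgCl p)‖ * ‖x‖ * ‖r‖ ≤ ‖((p : ℕ) : PadicAlgCl p)‖ * ‖x‖ * 1 :=
          mul_le_mul_of_nonneg_left hr (mul_nonneg (norm_nonneg _) (norm_nonneg _))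
      _ = _ := mul_one _

theorem norm_sub_one_lt_of_pow {s : PadicAlgCl p} (hs : ‖s ^ p - 1‖ < 1) : ‖s - 1‖ < 1 := by
  have hp0 : p ≠ 0 := (Fact.out : p.Prime).ne_zero
  have hs1 : ‖s‖ = 1 := by
    have h1 := norm_eq_one_of_sub_one_lt hs
    rw [norm_pow] at h1
    exact (pow_eq_one_iff_of_nonneg (norm_nonneg s) hp0).1 h1
  have hx : ‖s - 1‖ ≤ 1 := le_trans (norm_sub_le_max'' _ _) (max_le hs1.le (by rw [norm_one]))
  obtain ⟨r, hr, h⟩ := exists_one_add_pow (s - 1) hx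
  have h2 : (s - 1) ^ p = (s ^ p - 1) - ((p : ℕ) : PadicAlgCl p) * (s - 1) * r := by
    have : (1 + (s - 1)) = s := by ring
    rw [this] at h
    rw [h]; ring
  have h3 : ‖(s - 1) ^ p‖ < 1 := by
    rw [h2]
    refine lt_of_le_of_lt (norm_sub_le_max'' _ _) (max_lt hs ?_)
    rw [norm_mul, norm_mul]
    calc ‖((p : ℕ) : PadicAlgCl p)‖ * ‖s - 1‖ * ‖r‖ ≤ ‖((p : ℕ) : PadicAlgCl p)‖ * 1 * 1 := by
          apply mul_le_mul (mul_le_mul_of_nonneg_left hx (norm_nonneg _)) hr (norm_nonneg _)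
          exact mul_nonneg (norm_nonneg _) zero_le_one
      _ < 1 := by rw [mul_one, mul_one]; exact norm_p_lt_one
  rw [norm_pow] at h3
  exact (pow_lt_one_iff_of_nonneg (norm_nonneg _) hp0).1 h3

/-! ### Powers of `ζ` indexed by `ZMod p`, the cyclotomic exponent -/

/-- `ζ ^ a` for `a : ZMod p`. -/
def zp (ζ : PadicAlgCl p) (a : ZMod p) : PadicAlgCl p := ζ ^ a.val

variable {ζ : PadicAlgCl p}

theorem pow_mod_p (hζ : ζ ^ p = 1) (n : ℕ) : ζ ^ (n % p) = ζ ^ n := by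
  conv_rhs => rw [← Nat.mod_add_div n p, pow_add, pow_mul, hζ, one_pow, mul_one]

theorem zp_add (hζ : ζ ^ p = 1) (a b : ZMod p) : zp ζ (a + b) = zp ζ a * zp ζ b := by
  rw [zp, zp, zp, ZMod.val_add, pow_mod_p hζ, pow_add]

theorem zp_mul (hζ : ζ ^ p = 1) (a b : ZMod p) : zp ζ (a * b) = (zp ζ a) ^ b.val := by
  rw [zp, zp, ZMod.val_mul, pow_mod_p hζ, pow_mul]

theorem zp_zero : zp ζ (0 : ZMod p) = 1 := by
  rw [zp, ZMod.val_zero, pow_zero]

theorem zp_one : zp ζ (1 : ZMod p) = ζ := by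
  rw [zp, ZMod.val_one, pow_one]

theorem zp_natCast (hζ : ζ ^ p = 1) (n : ℕ) : zp ζ (n : ZMod p) = ζ ^ n := by
  rw [zp, ZMod.val_natCast, pow_mod_p hζ]

theorem zp_pow_p (hζ : ζ ^ p = 1) (a : ZMod p) : zp ζ a ^ p = 1 := by
  rw [zp, ← pow_mul, mul_comm, pow_mul, hζ, one_pow]

theorem zp_neg_mul (hζ : ζ ^ p = 1) (a : ZMod p) : zp ζ (-a) * zp ζ a = 1 := by
  rw [← zp_add hζ, neg_add_cancel, zp_zero]

theorem zp_eq_one_iff (hζ : IsPrimitiveRoot ζ p) (a : ZMod p) : zp ζ a = 1 ↔ a = 0 := by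
  constructor
  · intro h
    rw [zp, hζ.pow_eq_one_iff_dvd] at h
    have h1 : a.val = 0 := Nat.eq_zero_of_dvd_of_lt h (ZMod.val_lt a)
    exact (ZMod.val_eq_zero a).1 h1
  · rintro rfl
    exact zp_zero

theorem zp_injective (hζ : IsPrimitiveRoot ζ p) : Function.Injective (zp ζ) := by
  intro a b h
  have h1 : zp ζ (a - b) = 1 := by
    have h2 : zp ζ (a - b) * zp ζ b = zp ζ a := by rw [← zp_add hζ.pow_eq_one, sub_add_cancel]
    have hb : zp ζ b ≠ 0 := by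
      intro h0
      have := zp_neg_mul hζ.pow_eq_one b
      rw [h0, mul_zero] at this
      exact zero_ne_one this
    rw [h] at h2
    exact mul_right_cancel₀ hb (by rw [h2, one_mul])
  exact sub_eq_zero.1 ((zp_eq_one_iff hζ _).1 h1)

theorem norm_zp (hζ : ζ ^ p = 1) (a : ZMod p) : ‖zp ζ a‖ = 1 := by
  have h1 : ‖zp ζ a‖ ^ p = 1 := by rw [← norm_pow, zp_pow_p hζ, norm_one]
  exact (pow_eq_one_iff_of_nonneg (norm_nonneg _) (Fact.out : p.Prime).ne_zero).1 h1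

theorem norm_zp_sub_one (hζ : IsPrimitiveRoot ζ p) (a : ZMod p) (ha : a ≠ 0) :
    ‖zp ζ a - 1‖ = ‖ζ - 1‖ :=
  norm_zeta_pow_sub_one (Fact.out : p.Prime) hζ a.val (fun h => ha ((zp_eq_one_iff hζ a).1 h))

theorem exists_zp_eq (hζ : IsPrimitiveRoot ζ p) (ξ : PadicAlgCl p) (hξ : ξ ^ p = 1) :
    ∃ a : ZMod p, zp ζ a = ξ := by
  have : NeZero p := ⟨(Fact.out : p.Prime).ne_zero⟩
  obtain ⟨i, -, hi⟩ := hζ.eq_pow_of_pow_eq_one hξ
  exact ⟨(i : ZMod p), by rw [zp_natCast hζ.pow_eq_one, hi]⟩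

/-- The cyclotomic exponent of `σ` (w.r.t. `ζ`): `σ ζ = ζ ^ cyc σ`. -/
def cyc (ζ : PadicAlgCl p) (σ : Gq p) : ZMod p :=
  Classical.epsilon (fun c : ZMod p => σ ζ = zp ζ c)

theorem map_zeta (hζ : IsPrimitiveRoot ζ p) (σ : Gq p) : σ ζ = zp ζ (cyc ζ σ) := by
  have h : ∃ c : ZMod p, σ ζ = zp ζ c := by
    obtain ⟨a, ha⟩ := exists_zp_eq hζ (σ ζ) (by rw [← map_pow, hζ.pow_eq_one, map_one])
    exact ⟨a, ha.symm⟩
  exact Classical.epsilon_spec h

theorem map_zp (hζ : IsPrimitiveRoot ζ p) (σ : Gq p) (a : ZMod p) :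
    σ (zp ζ a) = zp ζ (cyc ζ σ * a) := by
  rw [zp_mul hζ.pow_eq_one, ← map_zeta hζ, zp, map_pow]

theorem map_root (hζ : IsPrimitiveRoot ζ p) (σ : Gq p) (ξ : PadicAlgCl p) (hξ : ξ ^ p = 1) :
    σ ξ = ξ ^ (cyc ζ σ).val := by
  obtain ⟨a, rfl⟩ := exists_zp_eq hζ ξ hξ
  rw [map_zp hζ, mul_comm, zp_mul hζ.pow_eq_one]

theorem cyc_eq_one_iff (hζ : IsPrimitiveRoot ζ p) (σ : Gq p) : cyc ζ σ = 1 ↔ σ ζ = ζ := by
  rw [map_zeta hζ]
  constructor
  · intro h; rw [h, zp_one]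
  · intro h
    apply zp_injective hζ
    rw [h, zp_one]

/-- Inertia moves `ζ` (as `p ≠ 2`). -/
theorem exists_mem_Iq_cyc_ne_one (hp2 : p ≠ 2) (hζ : IsPrimitiveRoot ζ p) :
    ∃ σ ∈ Iq p, cyc ζ σ ≠ 1 := by
  by_contra hcon
  push Not at hcon
  have hp : p.Prime := Fact.out
  have hfix : ∀ τ ∈ Iq p, τ (ζ - 1) = ζ - 1 := by
    intro τ hτ
    rw [map_sub, map_one, (cyc_eq_one_iff hζ τ).1 (hcon τ hτ)]
  have hlt : ‖ζ - 1‖ < 1 := norm_zeta_sub_one_lt_one hp hζ norm_p_lt_one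
  have hpos : 0 < ‖ζ - 1‖ := norm_pos_iff.2 (sub_ne_zero.2 (hζ.ne_one hp.one_lt))
  have h1 := norm_le_norm_q_of_fixed p (ζ - 1) hfix hlt
  rw [norm_natCast_eq hp hζ] at h1
  have h2 : ‖ζ - 1‖ ^ (p - 1) < ‖ζ - 1‖ ^ 1 := by
    apply pow_lt_pow_right_of_lt_one₀ hpos hlt
    have := hp.two_le
    omega
  rw [pow_one] at h2
  exact lt_irrefl _ (lt_of_le_of_lt h1 h2)

end Analytic


/-! ### Normalised Kummer generators -/

section NK

variable {p : ℕ} [Fact p.Prime] {ζ : PadicAlgCl p}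

/-- `u` is a NORMALISED Kummer generator for `χ|_{Iq}`: `u ^ p ≡ 1 mod p`, `σ u = ζ ^ χ σ · u`. -/
def IsNK (ζ : PadicAlgCl p) (χ : Gq p → ZMod p) (u : PadicAlgCl p) : Prop :=
  ‖u ^ p - 1‖ ≤ ‖((p : ℕ) : PadicAlgCl p)‖ ∧ ∀ σ ∈ Iq p, σ u = zp ζ (χ σ) * u

/-- The value `(u ^ p - 1) / p`. -/
def yv (u : PadicAlgCl p) : PadicAlgCl p := (u ^ p - 1) / ((p : ℕ) : PadicAlgCl p)

theorem yv_mul_p (u : PadicAlgCl p) : yv u * ((p : ℕ) : PadicAlgCl p) = u ^ p - 1 := by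
  rw [yv, div_mul_cancel₀ _ p_ne_zero]

theorem map_yv (τ : Gq p) (u : PadicAlgCl p) : τ (yv u) = yv (τ u) := by
  rw [yv, yv, map_div₀, map_sub, map_pow, map_one, map_natCast]

theorem IsNK.congr {χ χ' : Gq p → ZMod p} {u : PadicAlgCl p} (h : IsNK ζ χ u)
    (hχ : ∀ σ ∈ Iq p, χ σ = χ' σ) : IsNK ζ χ' u :=
  ⟨h.1, fun σ hσ => by rw [← hχ σ hσ]; exact h.2 σ hσ⟩

theorem IsNK.norm_pow_eq_one {χ : Gq p → ZMod p} {u : PadicAlgCl p} (h : IsNK ζ χ u) :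
    ‖u ^ p‖ = 1 :=
  norm_eq_one_of_sub_one_lt (lt_of_le_of_lt h.1 norm_p_lt_one)

theorem IsNK.norm_eq_one {χ : Gq p → ZMod p} {u : PadicAlgCl p} (h : IsNK ζ χ u) : ‖u‖ = 1 := by
  have h1 := h.norm_pow_eq_one
  rw [norm_pow] at h1
  exact (pow_eq_one_iff_of_nonneg (norm_nonneg u) (Fact.out : p.Prime).ne_zero).1 h1

theorem IsNK.map_pow (hζ : ζ ^ p = 1) {χ : Gq p → ZMod p} {u : PadicAlgCl p} (h : IsNK ζ χ u)
    {σ : Gq p} (hσ : σ ∈ Iq p) : σ (u ^ p) = u ^ p := by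
  rw [_root_.map_pow, h.2 σ hσ, mul_pow, zp_pow_p hζ, one_mul]

theorem IsNK.norm_yv_le {χ : Gq p → ZMod p} {u : PadicAlgCl p} (h : IsNK ζ χ u) : ‖yv u‖ ≤ 1 := by
  rw [yv, norm_div, div_le_one norm_p_pos]
  exact h.1

theorem IsNK.map_yv (hζ : ζ ^ p = 1) {χ : Gq p → ZMod p} {u : PadicAlgCl p} (h : IsNK ζ χ u)
    {σ : Gq p} (hσ : σ ∈ Iq p) : σ (yv u) = yv u := by
  rw [yv, map_div₀, map_sub, h.map_pow hζ hσ, map_one, map_natCast]

/-- **Normalisation**: a unit Kummer generator can be normalised (divide by `φ⁻¹ (u ^ p)`). -/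
theorem exists_isNK_of_unit (hζ : ζ ^ p = 1) (χ : Gq p → ZMod p) (u : PadicAlgCl p) (hu : ‖u‖ = 1)
    (h : ∀ σ ∈ Iq p, σ u = zp ζ (χ σ) * u) : ∃ u', IsNK ζ χ u' := by
  obtain ⟨φ, hφ⟩ := exists_isFrobLift p
  have hw : ∀ σ ∈ Iq p, σ (u ^ p) = u ^ p := by
    intro σ hσ
    rw [_root_.map_pow, h σ hσ, mul_pow, zp_pow_p hζ, one_mul]
  set a : PadicAlgCl p := (φ⁻¹ : Gq p) (u ^ p) with ha
  have hφa : φ a = u ^ p := by
    have : (φ * φ⁻¹) (u ^ p) = u ^ p := by rw [mul_inv_cancel]; rfl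
    exact this
  have hanorm : ‖a‖ = 1 := by rw [ha, norm_galois, norm_pow, hu, one_pow]
  have ha0 : a ≠ 0 := by
    intro h0; rw [h0, norm_zero] at hanorm; exact zero_ne_one hanorm
  have hafix : ∀ σ ∈ Iq p, σ a = a := by
    intro σ hσ
    have h1 : φ * σ * φ⁻¹ ∈ Iq p := (Iq_normal p).conj_mem σ hσ φ
    have h2 : (φ * σ * φ⁻¹) (u ^ p) = u ^ p := hw _ h1
    have h3 : φ (σ a) = φ a := by rw [hφa]; exact h2
    exact φ.injective h3
  have h1 : ‖u ^ p - a ^ p‖ < 1 := by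
    have := hφ a hanorm.le
    rwa [hφa] at this
  have hfix2 : ∀ σ ∈ Iq p, σ (u ^ p - a ^ p) = u ^ p - a ^ p := by
    intro σ hσ
    rw [map_sub, hw σ hσ, _root_.map_pow, hafix σ hσ]
  have h2 : ‖u ^ p - a ^ p‖ ≤ ‖((p : ℕ) : PadicAlgCl p)‖ :=
    norm_le_norm_q_of_fixed p _ hfix2 h1
  refine ⟨u * a⁻¹, ?_, ?_⟩
  · have h3 : (u * a⁻¹) ^ p - 1 = (u ^ p - a ^ p) * (a ^ p)⁻¹ := by
      rw [mul_pow, inv_pow, sub_mul, mul_inv_cancel₀ (pow_ne_zero p ha0)]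
    rw [h3, norm_mul, norm_inv, norm_pow, hanorm, one_pow, inv_one, mul_one]
    exact h2
  · intro σ hσ
    rw [map_mul, map_inv₀, h σ hσ, hafix σ hσ, mul_assoc]

/-- **Well-definedness**: two normalised generators of the same character have congruent values. -/
theorem IsNK.norm_yv_sub_lt (hζ : ζ ^ p = 1) {χ : Gq p → ZMod p} {u u' : PadicAlgCl p}
    (h : IsNK ζ χ u) (h' : IsNK ζ χ u') : ‖yv u' - yv u‖ < 1 := by
  have hp : p.Prime := Fact.out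
  have hu0 : u ≠ 0 := by
    intro h0; have := h.norm_eq_one; rw [h0, norm_zero] at this; exact zero_ne_one this
  set s : PadicAlgCl p := u' * u⁻¹ with hs
  have hsfix : ∀ σ ∈ Iq p, σ s = s := by
    intro σ hσ
    have hz : zp ζ (χ σ) ≠ 0 := by
      intro h0; have := norm_zp hζ (χ σ); rw [h0, norm_zero] at this; exact zero_ne_one this
    rw [hs, map_mul, map_inv₀, h.2 σ hσ, h'.2 σ hσ]
    field_simp
  have hsp : s ^ p - 1 = (u' ^ p - u ^ p) * (u ^ p)⁻¹ := by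
    rw [hs, mul_pow, inv_pow, sub_mul, mul_inv_cancel₀ (pow_ne_zero p hu0)]
  have h1 : ‖u' ^ p - u ^ p‖ ≤ ‖((p : ℕ) : PadicAlgCl p)‖ := by
    have : u' ^ p - u ^ p = (u' ^ p - 1) - (u ^ p - 1) := by ring
    rw [this]
    exact le_trans (norm_sub_le_max'' _ _) (max_le h'.1 h.1)
  have h2 : ‖s ^ p - 1‖ ≤ ‖((p : ℕ) : PadicAlgCl p)‖ := by
    rw [hsp, norm_mul, norm_inv, h.norm_pow_eq_one, inv_one, mul_one]
    exact h1
  have h3 : ‖s - 1‖ < 1 := norm_sub_one_lt_of_pow (lt_of_le_of_lt h2 norm_p_lt_one)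
  have h4 : ‖s - 1‖ ≤ ‖((p : ℕ) : PadicAlgCl p)‖ := by
    apply norm_le_norm_q_of_fixed p _ _ h3
    intro σ hσ
    rw [map_sub, hsfix σ hσ, map_one]
  have h5 : ‖s ^ p - 1‖ ≤ ‖((p : ℕ) : PadicAlgCl p)‖ ^ 2 := by
    have h6 := norm_one_add_pow_sub_one_le (s - 1) h3.le
    have h7 : (1 + (s - 1)) = s := by ring
    rw [h7] at h6
    refine le_trans h6 (max_le ?_ ?_)
    · calc ‖s - 1‖ ^ p ≤ ‖((p : ℕ) : PadicAlgCl p)‖ ^ p :=
            pow_le_pow_left₀ (norm_nonneg _) h4 p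
        _ ≤ ‖((p : ℕ) : PadicAlgCl p)‖ ^ 2 :=
            pow_le_pow_of_le_one (norm_nonneg _) norm_p_lt_one.le hp.two_le
    · rw [pow_two]
      exact mul_le_mul_of_nonneg_left h4 (norm_nonneg _)
  have h8 : ‖u' ^ p - u ^ p‖ ≤ ‖((p : ℕ) : PadicAlgCl p)‖ ^ 2 := by
    have : u' ^ p - u ^ p = (s ^ p - 1) * u ^ p := by
      rw [hsp, mul_assoc, inv_mul_cancel₀ (pow_ne_zero p hu0), mul_one]
    rw [this, norm_mul, h.norm_pow_eq_one, mul_one]
    exact h5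
  have h9 : yv u' - yv u = (u' ^ p - u ^ p) / ((p : ℕ) : PadicAlgCl p) := by
    rw [yv, yv]; ring
  rw [h9, norm_div, div_lt_one norm_p_pos]
  calc ‖u' ^ p - u ^ p‖ ≤ ‖((p : ℕ) : PadicAlgCl p)‖ ^ 2 := h8
    _ < ‖((p : ℕ) : PadicAlgCl p)‖ ^ 1 :=
        pow_lt_pow_right_of_lt_one₀ norm_p_pos norm_p_lt_one (by norm_num)
    _ = _ := pow_one _

/-- **Additivity**. -/
theorem IsNK.mul (hζ : ζ ^ p = 1) {χ χ' : Gq p → ZMod p} {u u' : PadicAlgCl p}
    (h : IsNK ζ χ u) (h' : IsNK ζ χ' u') :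
    IsNK ζ (fun σ => χ σ + χ' σ) (u * u') ∧ ‖yv (u * u') - (yv u + yv u')‖ < 1 := by
  have hid : (u * u') ^ p - 1 = (u ^ p - 1) * (u' ^ p - 1) + ((u ^ p - 1) + (u' ^ p - 1)) := by
    ring
  have hmul : ‖(u ^ p - 1) * (u' ^ p - 1)‖ ≤ ‖((p : ℕ) : PadicAlgCl p)‖ ^ 2 := by
    rw [norm_mul, pow_two]
    exact mul_le_mul h.1 h'.1 (norm_nonneg _) (norm_nonneg _)
  refine ⟨⟨?_, ?_⟩, ?_⟩
  · rw [hid]
    refine le_trans (norm_add_le_max' _ _) (max_le ?_ ?_)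
    · refine le_trans hmul ?_
      calc ‖((p : ℕ) : PadicAlgCl p)‖ ^ 2 ≤ ‖((p : ℕ) : PadicAlgCl p)‖ ^ 1 :=
            pow_le_pow_of_le_one (norm_nonneg _) norm_p_lt_one.le (by norm_num)
        _ = _ := pow_one _
    · exact le_trans (norm_add_le_max' _ _) (max_le h.1 h'.1)
  · intro σ hσ
    rw [map_mul, h.2 σ hσ, h'.2 σ hσ, zp_add hζ]
    ring
  · have h1 : yv (u * u') - (yv u + yv u')
        = (u ^ p - 1) * (u' ^ p - 1) / ((p : ℕ) : PadicAlgCl p) := by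
      rw [yv, yv, yv, hid]; ring
    rw [h1, norm_div, div_lt_one norm_p_pos]
    calc ‖(u ^ p - 1) * (u' ^ p - 1)‖ ≤ ‖((p : ℕ) : PadicAlgCl p)‖ ^ 2 := hmul
      _ < ‖((p : ℕ) : PadicAlgCl p)‖ ^ 1 :=
          pow_lt_pow_right_of_lt_one₀ norm_p_pos norm_p_lt_one (by norm_num)
      _ = _ := pow_one _

/-- **Coboundaries** have value `0`. -/
theorem isNK_coboundary (hζ : IsPrimitiveRoot ζ p) (a : ZMod p) :
    IsNK ζ (fun σ => (cyc ζ σ - 1) * a) (zp ζ a) ∧ yv (zp ζ a) = 0 := by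
  refine ⟨⟨?_, ?_⟩, ?_⟩
  · rw [zp_pow_p hζ.pow_eq_one, sub_self, norm_zero]
    exact norm_nonneg _
  · intro σ _
    rw [map_zp hζ, ← zp_add hζ.pow_eq_one]
    congr 1
    ring
  · rw [yv, zp_pow_p hζ.pow_eq_one, sub_self, zero_div]

/-- **Conjugation**. -/
theorem IsNK.conj (hζ : IsPrimitiveRoot ζ p) (τ : Gq p) {χ : Gq p → ZMod p} {u : PadicAlgCl p}
    (h : IsNK ζ χ u) : IsNK ζ (fun σ => cyc ζ τ * χ (τ⁻¹ * σ * τ)) (τ u) := by
  refine ⟨?_, ?_⟩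
  · have : (τ u) ^ p - 1 = τ (u ^ p - 1) := by rw [map_sub, _root_.map_pow, map_one]
    rw [this, norm_galois]
    exact h.1
  · intro σ hσ
    have h1 : τ⁻¹ * σ * τ ∈ Iq p := by
      have := (Iq_normal p).conj_mem σ hσ τ⁻¹
      rwa [inv_inv] at this
    have h2 : σ (τ u) = τ ((τ⁻¹ * σ * τ) u) := by
      have : σ * τ = τ * (τ⁻¹ * σ * τ) := by group
      change (σ * τ) u = (τ * (τ⁻¹ * σ * τ)) u
      rw [this]
    rw [h2, h.2 _ h1, map_mul, map_zp hζ]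

/-- **Value zero ⇒ coboundary on inertia.** -/
theorem IsNK.exists_of_norm_yv_lt (hp2 : p ≠ 2) (hζ : IsPrimitiveRoot ζ p) {χ : Gq p → ZMod p}
    {u : PadicAlgCl p} (h : IsNK ζ χ u) (h0 : ‖yv u‖ < 1) :
    ∃ i : ZMod p, ∀ σ ∈ Iq p, χ σ = (cyc ζ σ - 1) * i := by
  classical
  have hp : p.Prime := Fact.out
  have hζ1 : ζ ^ p = 1 := hζ.pow_eq_one
  have hfix : ∀ σ ∈ Iq p, σ (yv u) = yv u := fun σ hσ => h.map_yv hζ1 hσ
  have h1 : ‖yv u‖ ≤ ‖((p : ℕ) : PadicAlgCl p)‖ := norm_le_norm_q_of_fixed p _ hfix h0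
  have h2 : ‖u ^ p - 1‖ ≤ ‖((p : ℕ) : PadicAlgCl p)‖ ^ 2 := by
    rw [← yv_mul_p, norm_mul, pow_two]
    exact mul_le_mul_of_nonneg_right h1 (norm_nonneg _)
  have hlam1 : ‖ζ - 1‖ < 1 := norm_zeta_sub_one_lt_one hp hζ norm_p_lt_one
  have hlampos : 0 < ‖ζ - 1‖ := norm_pos_iff.2 (sub_ne_zero.2 (hζ.ne_one hp.one_lt))
  have hlt : ‖((p : ℕ) : PadicAlgCl p)‖ ^ 2 < ‖ζ - 1‖ ^ p := by
    rw [norm_natCast_eq hp hζ, ← pow_mul]
    apply pow_lt_pow_right_of_lt_one₀ hlampos hlam1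
    have := hp.two_le
    have h3 : 3 ≤ p := by omega
    have : (p - 1) * 2 = 2 * p - 2 := by omega
    omega
  -- a root of unity close to `u`
  have hex : ∃ ξ : PadicAlgCl p, ξ ^ p = 1 ∧ ‖u - ξ‖ < ‖ζ - 1‖ := by
    by_contra hcon
    push Not at hcon
    have : NeZero p := ⟨hp.ne_zero⟩
    have hprod : u ^ p - 1 = ∏ μ ∈ Polynomial.nthRootsFinset p (1 : PadicAlgCl p), (u - μ) := by
      have := congrArg (Polynomial.eval u) (Polynomial.X_pow_sub_one_eq_prod hp.pos hζ)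
      simpa [Polynomial.eval_prod] using this
    have hcard : (Polynomial.nthRootsFinset p (1 : PadicAlgCl p)).card = p :=
      hζ.card_nthRootsFinset
    have h5 : ‖ζ - 1‖ ^ p ≤ ‖u ^ p - 1‖ := by
      have hpow : ‖ζ - 1‖ ^ p
          = ∏ _μ ∈ Polynomial.nthRootsFinset p (1 : PadicAlgCl p), ‖ζ - 1‖ := by
        rw [Finset.prod_const, hcard]
      rw [hprod, norm_prod, hpow]
      apply Finset.prod_le_prod
      · intro μ _; exact hlampos.le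
      · intro μ hμ
        exact hcon μ ((Polynomial.mem_nthRootsFinset hp.pos (1 : PadicAlgCl p)).1 hμ)
    exact absurd (lt_of_le_of_lt h2 hlt) (not_lt.2 h5)
  obtain ⟨ξ, hξ, hξu⟩ := hex
  obtain ⟨j, rfl⟩ := exists_zp_eq hζ ξ hξ
  refine ⟨j, fun σ hσ => ?_⟩
  set v : PadicAlgCl p := u * zp ζ (-j) with hv
  have hv1 : ‖v - 1‖ < ‖ζ - 1‖ := by
    have : v - 1 = (u - zp ζ j) * zp ζ (-j) := by
      rw [hv, sub_mul, mul_comm (zp ζ j), zp_neg_mul hζ1]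
    rw [this, norm_mul, norm_zp hζ1, mul_one]
    exact hξu
  have hvnorm : ‖v‖ = 1 := norm_eq_one_of_sub_one_lt (lt_trans hv1 hlam1)
  set e : ZMod p := χ σ - (cyc ζ σ - 1) * j with he
  have hσv : σ v = zp ζ e * v := by
    rw [hv, map_mul, h.2 σ hσ, map_zp hζ]
    have h3 : zp ζ e = zp ζ (χ σ) * zp ζ (cyc ζ σ * -j) * zp ζ j := by
      rw [← zp_add hζ1, ← zp_add hζ1]
      congr 1
      rw [he]; ring
    have h4 : zp ζ j * zp ζ (-j) = 1 := by rw [mul_comm]; exact zp_neg_mul hζ1 j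
    calc zp ζ (χ σ) * u * zp ζ (cyc ζ σ * -j)
        = zp ζ (χ σ) * zp ζ (cyc ζ σ * -j) * (zp ζ j * zp ζ (-j)) * u := by rw [h4]; ring
      _ = zp ζ e * (u * zp ζ (-j)) := by rw [h3]; ring
  have h6 : ‖σ v - v‖ < ‖ζ - 1‖ := by
    have : σ v - v = σ (v - 1) - (v - 1) := by rw [map_sub, map_one]; ring
    rw [this]
    refine lt_of_le_of_lt (norm_sub_le_max'' _ _) (max_lt ?_ hv1)
    rw [norm_galois]
    exact hv1
  have h7 : σ v - v = (zp ζ e - 1) * v := by rw [hσv]; ring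
  rw [h7, norm_mul, hvnorm, mul_one] at h6
  by_contra hne
  have he0 : e ≠ 0 := fun h0 => hne (sub_eq_zero.1 (by rw [← h0, he]))
  rw [norm_zp_sub_one hζ e he0] at h6
  exact lt_irrefl _ h6

end NK


/-! ### The class relation -/

section RelSec

variable {p : ℕ} [Fact p.Prime] {ζ : PadicAlgCl p}

/-- `Rel ζ χ y`: `y ∈ κ` is the class `(u ^ p - 1) / p mod 𝔪` of a normalised Kummer generator `u`
of `χ|_{Iq}`. -/
def Rel (ζ : PadicAlgCl p) (χ : Gq p → ZMod p) (y : kap p) : Prop :=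
  ∃ u, IsNK ζ χ u ∧ res p (yv u) = y

theorem Rel.congr {χ χ' : Gq p → ZMod p} {y : kap p} (h : Rel ζ χ y)
    (hχ : ∀ σ ∈ Iq p, χ σ = χ' σ) : Rel ζ χ' y := by
  obtain ⟨u, hu, hy⟩ := h
  exact ⟨u, hu.congr hχ, hy⟩

theorem Rel.unique (hζ : ζ ^ p = 1) {χ : Gq p → ZMod p} {y y' : kap p} (h : Rel ζ χ y)
    (h' : Rel ζ χ y') : y = y' := by
  obtain ⟨u, hu, rfl⟩ := h
  obtain ⟨u', hu', rfl⟩ := h'
  rw [eq_comm, res_eq_res_iff hu'.norm_yv_le hu.norm_yv_le]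
  exact hu.norm_yv_sub_lt hζ hu'

theorem Rel.add (hζ : ζ ^ p = 1) {χ χ' : Gq p → ZMod p} {y y' : kap p} (h : Rel ζ χ y)
    (h' : Rel ζ χ' y') : Rel ζ (fun σ => χ σ + χ' σ) (y + y') := by
  obtain ⟨u, hu, rfl⟩ := h
  obtain ⟨u', hu', rfl⟩ := h'
  obtain ⟨h1, h2⟩ := hu.mul hζ hu'
  refine ⟨u * u', h1, ?_⟩
  rw [← res_add hu.norm_yv_le hu'.norm_yv_le,
    res_eq_res_iff h1.norm_yv_le ((ball p).add_mem _ _ hu.norm_yv_le hu'.norm_yv_le)]
  exact h2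

theorem rel_coboundary (hζ : IsPrimitiveRoot ζ p) (a : ZMod p) :
    Rel ζ (fun σ => (cyc ζ σ - 1) * a) 0 := by
  obtain ⟨h1, h2⟩ := isNK_coboundary hζ a
  exact ⟨zp ζ a, h1, by rw [h2, res_zero]⟩

theorem Rel.frob (hζ : IsPrimitiveRoot ζ p) {φ : Gq p} (hφ : IsFrobLift p φ)
    {χ : Gq p → ZMod p} {y : kap p} (h : Rel ζ χ y) :
    Rel ζ (fun σ => cyc ζ φ * χ (φ⁻¹ * σ * φ)) (y ^ p) := by
  obtain ⟨u, hu, rfl⟩ := h
  refine ⟨φ u, hu.conj hζ φ, ?_⟩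
  have h1 : ‖yv u‖ ≤ 1 := hu.norm_yv_le
  have h2 : ‖φ (yv u)‖ ≤ 1 := by rw [norm_galois]; exact h1
  rw [← map_yv, ← res_pow h1, res_eq_res_iff h2 ((ball p).pow_mem h1 p)]
  exact hφ _ h1

theorem Rel.zero (hp2 : p ≠ 2) (hζ : IsPrimitiveRoot ζ p) {χ : Gq p → ZMod p}
    (h : Rel ζ χ 0) : ∃ i : ZMod p, ∀ σ ∈ Iq p, χ σ = (cyc ζ σ - 1) * i := by
  obtain ⟨u, hu, h0⟩ := h
  exact hu.exists_of_norm_yv_lt hp2 hζ ((res_eq_zero_iff hu.norm_yv_le).1 h0)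

theorem exists_rel_of_unit (hζ : ζ ^ p = 1) (χ : Gq p → ZMod p) (u : PadicAlgCl p)
    (hu : ‖u‖ = 1) (h : ∀ σ ∈ Iq p, σ u = zp ζ (χ σ) * u) : ∃ y, Rel ζ χ y := by
  obtain ⟨u', hu'⟩ := exists_isNK_of_unit hζ χ u hu h
  exact ⟨_, u', hu', rfl⟩

theorem cyc_ne_zero (hζ : IsPrimitiveRoot ζ p) (σ : Gq p) : cyc ζ σ ≠ 0 := by
  intro h0
  have h1 := map_zeta hζ σ
  rw [h0, zp_zero] at h1
  have h2 : σ ζ = σ 1 := by rw [h1, map_one]
  exact hζ.ne_one (Fact.out : p.Prime).one_lt (σ.injective h2)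

end RelSec

/-! ### `IsPeu` -/

section Peu

variable {p : ℕ} [Fact p.Prime]

/-- PEU: the Kummer radicals of `β|_{Iq p}` can be chosen to be units. -/
def IsPeu {k : Type*} [AddCommGroup k] [Module (ZMod p) k] (ζ : PadicAlgCl p) (β : Gq p → k) : Prop :=
  ∀ ℓ : k →ₗ[ZMod p] ZMod p, ∃ u : PadicAlgCl p, ‖u‖ = 1 ∧ ∀ σ ∈ Iq p, σ u = ζ ^ (ℓ (β σ)).val * u

variable {k : Type*} [AddCommGroup k] [Module (ZMod p) k] {ζ : PadicAlgCl p}

theorem isPeu_zero : IsPeu ζ (0 : Gq p → k) := by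
  intro ℓ
  refine ⟨1, norm_one, fun σ _ => ?_⟩
  rw [Pi.zero_apply, map_zero, ZMod.val_zero, pow_zero, map_one, one_mul]

theorem IsPeu.add (hζ : ζ ^ p = 1) {β β' : Gq p → k} (h : IsPeu ζ β) (h' : IsPeu ζ β') :
    IsPeu ζ (β + β') := by
  intro ℓ
  obtain ⟨u, hu, hσ⟩ := h ℓ
  obtain ⟨u', hu', hσ'⟩ := h' ℓ
  refine ⟨u * u', by rw [norm_mul, hu, hu', one_mul], fun σ hσI => ?_⟩
  rw [map_mul, hσ σ hσI, hσ' σ hσI, Pi.add_apply, map_add]
  change _ = zp ζ (ℓ (β σ) + ℓ (β' σ)) * _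
  rw [zp_add hζ]
  change _ = ζ ^ (ℓ (β σ)).val * ζ ^ (ℓ (β' σ)).val * _
  ring

/-- Composition with an `𝔽_p`-linear map. -/
theorem IsPeu.comp {k' : Type*} [AddCommGroup k'] [Module (ZMod p) k'] {β : Gq p → k}
    (h : IsPeu ζ β) (f : k →ₗ[ZMod p] k') : IsPeu ζ (fun σ => f (β σ)) := by
  intro ℓ
  exact h (ℓ.comp f)

theorem IsPeu.neg {β : Gq p → k} (h : IsPeu ζ β) : IsPeu ζ (-β) := by
  have := h.comp (-LinearMap.id : k →ₗ[ZMod p] k)
  exact this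

theorem IsPeu.sub (hζ : ζ ^ p = 1) {β β' : Gq p → k} (h : IsPeu ζ β) (h' : IsPeu ζ β') :
    IsPeu ζ (β - β') := by
  rw [sub_eq_add_neg]
  exact h.add hζ h'.neg

/-- `k`-scalars (`k` a field, or any `𝔽_p`-algebra). -/
theorem IsPeu.smul {K : Type*} [CommRing K] [Algebra (ZMod p) K] {β : Gq p → K} (h : IsPeu ζ β)
    (a : K) : IsPeu ζ (fun σ => a * β σ) :=
  h.comp (LinearMap.mulLeft (ZMod p) a)

end Peu

/-! ### The main theorem -/

section Main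

variable {p : ℕ} [Fact p.Prime] {k : Type} [Field k] [Algebra (ZMod p) k]
variable {ζ : PadicAlgCl p} {η : Gq p →* kˣ}

/-- On inertia `η` is the cyclotomic exponent. -/
theorem eta_eq (hζ : IsPrimitiveRoot ζ p)
    (hη : ∀ σ ∈ Iq p, ∀ c : ℕ, (∀ ξ : PadicAlgCl p, ξ ^ p = 1 → σ ξ = ξ ^ c) → (η σ : k) = (c : k))
    {σ : Gq p} (hσ : σ ∈ Iq p) : (η σ : k) = algebraMap (ZMod p) k (cyc ζ σ) := by
  rw [hη σ hσ (cyc ζ σ).val (fun ξ hξ => map_root hζ σ ξ hξ), ← map_natCast (algebraMap (ZMod p) k),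
    ZMod.natCast_zmod_val]

/-- Coboundaries are PEU. -/
theorem isPeu_coboundary (hζ : IsPrimitiveRoot ζ p)
    (hη : ∀ σ ∈ Iq p, ∀ c : ℕ, (∀ ξ : PadicAlgCl p, ξ ^ p = 1 → σ ξ = ξ ^ c) → (η σ : k) = (c : k))
    (n : k) : IsPeu ζ (fun σ => ((η σ : k) - 1) * n) := by
  intro ℓ
  refine ⟨zp ζ (ℓ n), norm_zp hζ.pow_eq_one _, fun σ hσ => ?_⟩
  have h1 : ((η σ : k) - 1) * n = (cyc ζ σ - 1) • n := by
    rw [eta_eq hζ hη hσ, Algebra.smul_def, map_sub, map_one]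
  change σ (zp ζ (ℓ n)) = zp ζ (ℓ (((η σ : k) - 1) * n)) * zp ζ (ℓ n)
  rw [h1, map_smul, smul_eq_mul, map_zp hζ, ← zp_add hζ.pow_eq_one]
  congr 1
  ring

section Cocycle

variable {β : Gq p → k} (hβ : ∀ σ τ, β (σ * τ) = β σ + (η σ : k) * β τ)
include hβ

theorem cocycle_one : β 1 = 0 := by
  have := hβ 1 1
  rw [mul_one, map_one, Units.val_one, one_mul] at this
  exact left_eq_add.mp this

theorem cocycle_inv (τ : Gq p) : β τ⁻¹ = -((η τ : k)⁻¹ * β τ) := by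
  have h := hβ τ⁻¹ τ
  rw [inv_mul_cancel, cocycle_one hβ, map_inv, Units.val_inv_eq_inv_val] at h
  exact eq_neg_of_add_eq_zero_left h.symm

theorem cocycle_conj (τ σ : Gq p) :
    β (τ⁻¹ * σ * τ) = (η τ : k)⁻¹ * (β σ + ((η σ : k) - 1) * β τ) := by
  rw [mul_assoc, hβ, hβ, cocycle_inv hβ, map_inv, Units.val_inv_eq_inv_val]
  ring

/-- A cocycle vanishing on inertia vanishes (as `η` is non-trivial on inertia). -/
theorem cocycle_eq_zero_of_inertia {σ₀ : Gq p} (hσ₀ : σ₀ ∈ Iq p) (hne : (η σ₀ : k) ≠ 1)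
    (h0 : ∀ σ ∈ Iq p, β σ = 0) (τ : Gq p) : β τ = 0 := by
  have h1 : β (σ₀ * τ) = (η σ₀ : k) * β τ := by rw [hβ, h0 σ₀ hσ₀, zero_add]
  have h2 : τ⁻¹ * σ₀ * τ ∈ Iq p := by
    have := (Iq_normal p).conj_mem σ₀ hσ₀ τ⁻¹
    rwa [inv_inv] at this
  have h3 : β (σ₀ * τ) = β τ := by
    have : σ₀ * τ = τ * (τ⁻¹ * σ₀ * τ) := by group
    rw [this, hβ, h0 _ h2, mul_zero, add_zero]
  have h4 : ((η σ₀ : k) - 1) * β τ = 0 := by rw [sub_mul, one_mul, ← h1, h3, sub_self]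
  rcases mul_eq_zero.1 h4 with h | h
  · exact absurd (sub_eq_zero.1 h) hne
  · exact h

end Cocycle

variable (hp2 : p ≠ 2) (hζ : IsPrimitiveRoot ζ p)
  (hη : ∀ σ ∈ Iq p, ∀ c : ℕ, (∀ ξ : PadicAlgCl p, ξ ^ p = 1 → σ ξ = ξ ^ c) → (η σ : k) = (c : k))
include hζ hη

/-- **Injectivity modulo coboundaries.** -/
theorem eq_coboundary_of_rel_zero (hp2 : p ≠ 2) {β : Gq p → k}
    (hβ : ∀ σ τ, β (σ * τ) = β σ + (η σ : k) * β τ)
    (h0 : ∀ ℓ : k →ₗ[ZMod p] ZMod p, Rel ζ (fun σ => ℓ (β σ)) 0) :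
    ∃ n : k, ∀ σ, β σ = ((η σ : k) - 1) * n := by
  obtain ⟨σ₀, hσ₀, hc₀⟩ := exists_mem_Iq_cyc_ne_one hp2 hζ
  have hc₀' : cyc ζ σ₀ - 1 ≠ 0 := sub_ne_zero.2 hc₀
  have hinj : Function.Injective (algebraMap (ZMod p) k) := (algebraMap (ZMod p) k).injective
  have hη₀ : (η σ₀ : k) ≠ 1 := by
    rw [eta_eq hζ hη hσ₀]
    intro h
    exact hc₀ (hinj (by rw [h, map_one]))
  set n : k := ((cyc ζ σ₀ - 1)⁻¹ : ZMod p) • β σ₀ with hn
  have hI : ∀ σ ∈ Iq p, β σ = ((η σ : k) - 1) * n := by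
    intro σ hσ
    rw [← sub_eq_zero, ← Module.forall_dual_apply_eq_zero_iff (ZMod p)]
    intro ℓ
    obtain ⟨i, hi⟩ := (h0 ℓ).zero hp2 hζ
    have h1 : ((η σ : k) - 1) * n = ((cyc ζ σ - 1) * (cyc ζ σ₀ - 1)⁻¹) • β σ₀ := by
      rw [eta_eq hζ hη hσ, hn, mul_smul, Algebra.smul_def (cyc ζ σ - 1), map_sub, map_one]
    rw [map_sub, h1, map_smul, hi σ hσ, hi σ₀ hσ₀, smul_eq_mul, sub_eq_zero]
    field_simp
  refine ⟨n, ?_⟩
  -- the difference is a cocycle vanishing on inertia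
  set γ : Gq p → k := fun σ => β σ - ((η σ : k) - 1) * n with hγ
  have hγc : ∀ σ τ, γ (σ * τ) = γ σ + (η σ : k) * γ τ := by
    intro σ τ
    simp only [hγ]
    rw [hβ, map_mul, Units.val_mul]
    ring
  have hγ0 : ∀ σ ∈ Iq p, γ σ = 0 := fun σ hσ => sub_eq_zero.2 (hI σ hσ)
  intro τ
  exact sub_eq_zero.1 (cocycle_eq_zero_of_inertia hγc hσ₀ hη₀ hγ0 τ)

/-- **The Frobenius relation.** -/
theorem rel_frob_dual {φ : Gq p} (hφ : IsFrobLift p φ) {β : Gq p → k}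
    (hβ : ∀ σ τ, β (σ * τ) = β σ + (η σ : k) * β τ) (ℓ : k →ₗ[ZMod p] ZMod p) {y : kap p}
    (h : Rel ζ (fun σ => ℓ (β σ)) y) :
    Rel ζ (fun σ => ℓ ((algebraMap (ZMod p) k (cyc ζ φ) * (η φ : k)⁻¹) * β σ)) (y ^ p) := by
  set m : k := algebraMap (ZMod p) k (cyc ζ φ) * (η φ : k)⁻¹ with hm
  have h1 := h.frob hζ hφ
  have h2 := rel_coboundary hζ (-(ℓ (m * β φ)))
  have h3 := h1.add hζ.pow_eq_one h2
  rw [add_zero] at h3
  refine h3.congr (fun σ hσ => ?_)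
  rw [cocycle_conj hβ, eta_eq hζ hη hσ]
  have h4 : cyc ζ φ * ℓ ((η φ : k)⁻¹ * (β σ + (algebraMap (ZMod p) k (cyc ζ σ) - 1) * β φ))
      = ℓ (m * β σ) + (cyc ζ σ - 1) * ℓ (m * β φ) := by
    have h5 : m * β σ + (cyc ζ σ - 1) • (m * β φ)
        = cyc ζ φ • ((η φ : k)⁻¹ * (β σ + (algebraMap (ZMod p) k (cyc ζ σ) - 1) * β φ)) := by
      rw [Algebra.smul_def, Algebra.smul_def, map_sub, map_one, hm]
      ring
    rw [← smul_eq_mul, ← map_smul, ← h5, map_add, map_smul, smul_eq_mul]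
  rw [h4]
  ring

/-- The group of PEU cocycles. -/
def Zpeu (ζ : PadicAlgCl p) (hζ1 : ζ ^ p = 1) (η : Gq p →* kˣ) : AddSubgroup (Gq p → k) where
  carrier := {β | (∀ σ τ, β (σ * τ) = β σ + (η σ : k) * β τ) ∧ IsPeu ζ β}
  add_mem' := by
    rintro β β' ⟨h1, h2⟩ ⟨h1', h2'⟩
    refine ⟨fun σ τ => ?_, h2.add hζ1 h2'⟩
    simp only [Pi.add_apply]
    rw [h1, h1']
    ring
  zero_mem' := ⟨fun σ τ => by simp, isPeu_zero⟩
  neg_mem' := by
    rintro β ⟨h1, h2⟩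
    refine ⟨fun σ τ => ?_, h2.neg⟩
    simp only [Pi.neg_apply]
    rw [h1]
    ring

theorem mem_Zpeu {hζ1 : ζ ^ p = 1} {β : Gq p → k} :
    β ∈ Zpeu ζ hζ1 η ↔ (∀ σ τ, β (σ * τ) = β σ + (η σ : k) * β τ) ∧ IsPeu ζ β := Iff.rfl

end Main

/-- **F-e (PEU count).**  `η = ω·ψ` with `ψ` unramified (`hη`): the `η`-cocycles `β : Gq p → k` whose
restriction to inertia is peu ramifié are finite in number, at most `(#k)²` (`#k` coboundaries
times at most `#k` classes).  No continuity hypothesis on `β`. -/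
theorem finite_and_card_peu_le {p : ℕ} [Fact p.Prime] (hp2 : p ≠ 2) {k : Type} [Field k] [Finite k]
    [Algebra (ZMod p) k]
    (ζ : PadicAlgCl p) (hζ : IsPrimitiveRoot ζ p) (η : Gq p →* kˣ)
    (hη : ∀ σ ∈ Iq p, ∀ c : ℕ, (∀ ξ : PadicAlgCl p, ξ ^ p = 1 → σ ξ = ξ ^ c) → (η σ : k) = (c : k)) :
    Finite {β : Gq p → k // (∀ σ τ, β (σ * τ) = β σ + (η σ : k) * β τ) ∧ IsPeu ζ β} ∧
    Nat.card {β : Gq p → k // (∀ σ τ, β (σ * τ) = β σ + (η σ : k) * β τ) ∧ IsPeu ζ β}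
      ≤ Nat.card k ^ 2 := by
  classical
  obtain ⟨φ, hφ⟩ := exists_isFrobLift p
  have hζ1 : ζ ^ p = 1 := hζ.pow_eq_one
  -- the classes
  have hex : ∀ (β : Zpeu ζ hζ1 η) (ℓ : k →ₗ[ZMod p] ZMod p),
      ∃ y, Rel ζ (fun σ => ℓ ((β : Gq p → k) σ)) y := by
    intro β ℓ
    obtain ⟨u, hu, hσ⟩ := β.2.2 ℓ
    exact exists_rel_of_unit hζ1 _ u hu hσ
  choose Φ0 hΦ0 using hex
  have hadd1 : ∀ (β β' : Zpeu ζ hζ1 η) (ℓ : k →ₗ[ZMod p] ZMod p),
      Φ0 (β + β') ℓ = Φ0 β ℓ + Φ0 β' ℓ := by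
    intro β β' ℓ
    refine Rel.unique hζ1 (hΦ0 (β + β') ℓ) (((hΦ0 β ℓ).add hζ1 (hΦ0 β' ℓ)).congr (fun σ _ => ?_))
    change ℓ ((β : Gq p → k) σ) + ℓ ((β' : Gq p → k) σ) = ℓ ((β : Gq p → k) σ + (β' : Gq p → k) σ)
    rw [map_add]
  have hadd2 : ∀ (β : Zpeu ζ hζ1 η) (ℓ ℓ' : k →ₗ[ZMod p] ZMod p),
      Φ0 β (ℓ + ℓ') = Φ0 β ℓ + Φ0 β ℓ' := by
    intro β ℓ ℓ'
    exact Rel.unique hζ1 (hΦ0 β (ℓ + ℓ')) (((hΦ0 β ℓ).add hζ1 (hΦ0 β ℓ')).congr (fun σ _ => rfl))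
  let ΦL : Zpeu ζ hζ1 η → ((k →ₗ[ZMod p] ZMod p) →ₗ[ZMod p] kap p) := fun β =>
    (AddMonoidHom.mk' (Φ0 β) (hadd2 β)).toZModLinearMap p
  let Φ : Zpeu ζ hζ1 η →+ ((k →ₗ[ZMod p] ZMod p) →ₗ[ZMod p] kap p) :=
    AddMonoidHom.mk' ΦL (fun β β' => by
      ext ℓ
      exact hadd1 β β' ℓ)
  have hΦ : ∀ β ℓ, Φ β ℓ = Φ0 β ℓ := fun β ℓ => rfl
  -- the semilinearity operator
  set m : k := algebraMap (ZMod p) k (cyc ζ φ) * (η φ : k)⁻¹ with hm
  have hm0 : m ≠ 0 := by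
    rw [hm]
    refine mul_ne_zero ?_ (inv_ne_zero (Units.ne_zero _))
    intro h
    exact cyc_ne_zero hζ φ ((algebraMap (ZMod p) k).injective (by rw [h, map_zero]))
  let A : (k →ₗ[ZMod p] ZMod p) →ₗ[ZMod p] (k →ₗ[ZMod p] ZMod p) :=
    { toFun := fun ℓ => ℓ.comp (LinearMap.mulLeft (ZMod p) m)
      map_add' := fun _ _ => rfl
      map_smul' := fun _ _ => rfl }
  have hAapp : ∀ ℓ x, A ℓ x = ℓ (m * x) := fun ℓ x => rfl
  have hA : Function.Surjective A := by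
    intro ℓ'
    refine ⟨ℓ'.comp (LinearMap.mulLeft (ZMod p) m⁻¹), ?_⟩
    ext x
    rw [hAapp]
    change ℓ' (m⁻¹ * (m * x)) = ℓ' x
    rw [inv_mul_cancel_left₀ hm0]
  let W : Set ((k →ₗ[ZMod p] ZMod p) →ₗ[ZMod p] kap p) := {f | f ∈ solSub (kap p) A}
  have hrange : ∀ β, Φ β ∈ W := by
    intro β ℓ
    rw [hΦ, hΦ]
    exact Rel.unique hζ1 (rel_frob_dual hζ hη hφ β.2.1 ℓ (hΦ0 β ℓ)) (hΦ0 β (A ℓ))
  -- the kernel consists of coboundaries
  let B : Set (Zpeu ζ hζ1 η) :=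
    {β | ∃ n : k, ∀ σ, (β : Gq p → k) σ = ((η σ : k) - 1) * n}
  have hker : ∀ β, Φ β = 0 → β ∈ B := by
    intro β h
    apply eq_coboundary_of_rel_zero hζ hη hp2 β.2.1
    intro ℓ
    have h1 : Φ0 β ℓ = 0 := by rw [← hΦ, h]; rfl
    have := hΦ0 β ℓ
    rwa [h1] at this
  have hBinj : Function.Injective (fun β : B => Classical.choose β.2) := by
    intro β β' h
    apply Subtype.ext
    apply Subtype.ext
    funext σ
    have h1 := Classical.choose_spec β.2 σ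
    have h2 := Classical.choose_spec β'.2 σ
    simp only at h
    rw [h1, h2, h]
  have hBfin : Finite B := Finite.of_injective _ hBinj
  have hBcard : Nat.card B ≤ Nat.card k := Nat.card_le_card_of_injective _ hBinj
  obtain ⟨hWfin, hWcard⟩ := finite_and_card_solSub_le (kap p) A hA
  have hWfin' : Finite W := hWfin
  obtain ⟨hZfin, hZcard⟩ := finite_and_card_le_of_map Φ B W hker hrange
  have hVcard : Nat.card (k →ₗ[ZMod p] ZMod p) = Nat.card k := by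
    have h1 := Module.natCard_eq_pow_finrank (K := ZMod p) (V := Module.Dual (ZMod p) k)
    have h2 := Module.natCard_eq_pow_finrank (K := ZMod p) (V := k)
    rw [Subspace.dual_finrank_eq] at h1
    exact h1.trans h2.symm
  have hle : Nat.card (Zpeu ζ hζ1 η) ≤ Nat.card k ^ 2 := by
    refine le_trans hZcard ?_
    rw [pow_two]
    refine Nat.mul_le_mul hBcard ?_
    have : Nat.card W ≤ Nat.card (k →ₗ[ZMod p] ZMod p) := hWcard
    rwa [hVcard] at this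
  let e : {β : Gq p → k // (∀ σ τ, β (σ * τ) = β σ + (η σ : k) * β τ) ∧ IsPeu ζ β} ≃
      Zpeu ζ hζ1 η := Equiv.subtypeEquivRight (fun β => Iff.rfl)
  exact ⟨Finite.of_equiv _ e.symm, by rw [Nat.card_congr e]; exact hle⟩

end

end Fermat.Agent.TW.FLAT.PeuCount4
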