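/-
Programme T (S56), chapter T/FLAT, local-local chain (lead): **lower ramification numbers pass to
quotients** — the easy half of Serre, Corps Locaux IV §1 Prop. 3, in norm form and in the abstract
model of `PT/LOC/Interface12` (as in `TW/LOC/InertiaTower4`).

`E ⊆ E' ⊆ E''` finite extensions of `ℚ_q`, `E''/E` and `E''/E'` Galois, `H = Gal(E''/E')`,
`σ ∈ Gal(E''/E)`, `σ̄ = resT σ ∈ Gal(E'/E)`.  For every integral `x ∈ E''` there is an integral
`c ∈ E'` (a coefficient of `∏_{h ∈ H} (X - h x)`) with

  `∏_{h ∈ H} ‖σ (h x) - x‖ ≤ ‖σ̄ c - c‖`          (`exists_coeff_norm_ge`).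

In additive terms: `e_{E''/E'} · i_{E'}(σ̄) ≤ Σ_{τ ↦ σ̄} v_{E''}(τ x - x)` for every integral `x`; no
monogenicity of the rings of integers is needed for this direction.
-/
import Mathlib
import Fermat.Agent.TW.LOC.InertiaTower4
import Fermat.Agent.PT.LOC.RootsUnity14

set_option autoImplicit false
set_option linter.unusedSectionVars false

open scoped Fermat.Agent.PT.LOC.Interface12 Fermat.Agent.PT.LOC.StructureTower27
open Fermat.Agent.PT.LOC.Interface12 Fermat.Agent.PT.LOC.Structure14
  Fermat.Agent.PT.LOC.StructureNorm14 Fermat.Agent.PT.LOC.StructureTower27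
  Fermat.Agent.TW.LOC.InertiaTower4 Polynomial

namespace Fermat.Agent.TW.FLAT.RamQuot0

noncomputable section

variable (q : ℕ) [Fact q.Prime]
  (E : Type) [Field E] [Algebra ℚ_[q] E] [FiniteDimensional ℚ_[q] E]
  (E' : Type) [Field E'] [Algebra ℚ_[q] E'] [FiniteDimensional ℚ_[q] E'] [Algebra E E']
  [IsScalarTower ℚ_[q] E E']
  (E'' : Type) [Field E''] [Algebra ℚ_[q] E''] [FiniteDimensional ℚ_[q] E''] [Algebra E E'']
  [IsScalarTower ℚ_[q] E E''] [Algebra E' E''] [IsScalarTower ℚ_[q] E' E'']
  [IsScalarTower E E' E''] [FiniteDimensional E' E'']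

/-- The polynomial `∏_{h ∈ Gal(E''/E')} (X - h x)`. -/
def conjPoly (x : E'') : E''[X] := ∏ h : (E'' ≃ₐ[E'] E''), (X - C (h x))

theorem map_conjPoly_of_mem (x : E'') (h' : E'' ≃ₐ[E'] E'') :
    (conjPoly E' E'' x).map (h' : E'' →+* E'') = conjPoly E' E'' x := by
  unfold conjPoly
  rw [Polynomial.map_prod]
  simp only [Polynomial.map_sub, Polynomial.map_X, Polynomial.map_C, RingHom.coe_coe]
  exact Fintype.prod_equiv (Equiv.mulLeft h') _ _ (fun h => rfl)

theorem eval_conjPoly (x : E'') : (conjPoly E' E'' x).eval x = 0 := by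
  unfold conjPoly
  rw [Polynomial.eval_prod]
  apply Finset.prod_eq_zero (Finset.mem_univ (1 : E'' ≃ₐ[E'] E''))
  simp

theorem eval_map_conjPoly (x : E'') (σ : E'' ≃ₐ[E] E'') :
    ((conjPoly E' E'' x).map (σ : E'' →+* E'')).eval x =
      ∏ h : (E'' ≃ₐ[E'] E''), (x - σ (h x)) := by
  unfold conjPoly
  rw [Polynomial.map_prod, Polynomial.eval_prod]
  simp

variable [IsGalois E' E'']

/-- The coefficients of `conjPoly` come from `E'`. -/
theorem exists_coeff (x : E'') (k : ℕ) :
    ∃ c : E', algebraMap E' E'' c = (conjPoly E' E'' x).coeff k := by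
  have h : (conjPoly E' E'' x).coeff k ∈ Set.range (algebraMap E' E'') := by
    rw [IsGalois.mem_range_algebraMap_iff_fixed]
    intro h'
    have := congrArg (fun f => Polynomial.coeff f k) (map_conjPoly_of_mem E' E'' x h')
    simpa [Polynomial.coeff_map] using this
  exact h

/-- The coefficients of `conjPoly` of an integral element are integral. -/
theorem coeff_conjPoly_mem (x : E'') (hx : x ∈ intRing q E'') (k : ℕ) :
    (conjPoly E' E'' x).coeff k ∈ intRing q E'' := by
  have hlift : conjPoly E' E'' x =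
      (∏ h : (E'' ≃ₐ[E'] E''), (X - C (⟨h x, by
        have := (mem_intRing_galois_iff q E' E'' h x).2 hx
        exact this⟩ : intRing q E''))).map (algebraMap (intRing q E'') E'') := by
    unfold conjPoly
    rw [Polynomial.map_prod]
    apply Finset.prod_congr rfl
    intro h _
    simp
  rw [hlift, Polynomial.coeff_map]
  exact Subtype.property _

variable [IsGalois E E'] [IsGalois E E'']

/-- **Serre IV Prop. 3, easy half (norm form).** -/
theorem exists_coeff_norm_ge (σ : E'' ≃ₐ[E] E'') (x : E'') (hx : x ∈ intRing q E'') :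
    ∃ c : E', c ∈ intRing q E' ∧
      ∏ h : (E'' ≃ₐ[E'] E''), snorm q E'' (σ (h x) - x) ≤
        snorm q E' (resT E E' E'' σ c - c) := by
  classical
  set f := conjPoly E' E'' x with hf
  -- coefficients in `E'`
  choose c hc using exists_coeff E' E'' x
  have hcint : ∀ k, c k ∈ intRing q E' := by
    intro k
    rw [← mem_intRing_algebraMap_iff q E' E'', hc k]
    exact coeff_conjPoly_mem q E' E'' x hx k
  -- the difference of the two evaluations
  set N := f.natDegree + 1 with hN
  have hdeg1 : f.natDegree < N := Nat.lt_succ_self _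
  have hdeg2 : (f.map (σ : E'' →+* E'')).natDegree < N :=
    lt_of_le_of_lt (Polynomial.natDegree_map_le) hdeg1
  have h1 : (f.map (σ : E'' →+* E'')).eval x =
      ∑ k ∈ Finset.range N, (σ (f.coeff k) - f.coeff k) * x ^ k := by
    have e1 := Polynomial.eval_eq_sum_range' hdeg2 x
    have e2 := Polynomial.eval_eq_sum_range' hdeg1 x
    rw [eval_conjPoly E' E'' x] at e2
    rw [e1]
    have : ∑ k ∈ Finset.range N, (σ (f.coeff k) - f.coeff k) * x ^ k =
        ∑ k ∈ Finset.range N, (f.map (σ : E'' →+* E'')).coeff k * x ^ k -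
          ∑ k ∈ Finset.range N, f.coeff k * x ^ k := by
      rw [← Finset.sum_sub_distrib]
      apply Finset.sum_congr rfl
      intro k _
      rw [Polynomial.coeff_map]
      simp only [RingHom.coe_coe]
      ring
    rw [this, ← e2, sub_zero]
  -- the product formula
  have h2 : ∏ h : (E'' ≃ₐ[E'] E''), snorm q E'' (σ (h x) - x) =
      snorm q E'' ((f.map (σ : E'' →+* E'')).eval x) := by
    rw [eval_map_conjPoly E E' E'' x σ]
    have : ∀ (s : Finset (E'' ≃ₐ[E'] E'')),
        snorm q E'' (∏ h ∈ s, (x - σ (galIncl E E' E'' h x))) =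
          ∏ h ∈ s, snorm q E'' (σ (galIncl E E' E'' h x) - x) := by
      intro s
      induction s using Finset.induction_on with
      | empty => simp [snorm_one]
      | insert a s ha ih =>
        rw [Finset.prod_insert ha, Finset.prod_insert ha, snorm_mul, ih]
        congr 1
        rw [← neg_sub, Fermat.Agent.PT.LOC.RootsUnity14.snorm_neg]
    exact (this Finset.univ).symm
  -- ultrametric inequality
  obtain ⟨k, -, hk⟩ := IsNonarchimedean.finset_image_add (f := snorm q E'') (snorm_zero q E'')
    (snorm_nonneg q E'') (isNonarchimedean_spectralNorm (K := ℚ_[q]) (L := E''))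
    (fun k => (σ (f.coeff k) - f.coeff k) * x ^ k) (Finset.range N)
  refine ⟨c k, hcint k, ?_⟩
  rw [h2, h1]
  refine le_trans hk ?_
  rw [snorm_mul]
  have hxk : snorm q E'' (x ^ k) ≤ 1 := by
    have hx1 : snorm q E'' x ≤ 1 := (mem_intRing_iff q E'' x).1 hx
    have : snorm q E'' (x ^ k) = snorm q E'' x ^ k :=
      Fermat.Agent.PT.LOC.RootsUnity14.snorm_pow q E'' x k
    rw [this]
    exact pow_le_one₀ (snorm_nonneg q E'' x) hx1
  have hcoef : snorm q E'' (σ (f.coeff k) - f.coeff k) =
      snorm q E' (resT E E' E'' σ (c k) - c k) := by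
    rw [← hc k, ← algebraMap_resT, ← map_sub, snorm_algebraMap_tower]
  rw [hcoef]
  calc snorm q E' (resT E E' E'' σ (c k) - c k) * snorm q E'' (x ^ k)
      ≤ snorm q E' (resT E E' E'' σ (c k) - c k) * 1 :=
        mul_le_mul_of_nonneg_left hxk (snorm_nonneg q E' _)
    _ = _ := mul_one _

end

end Fermat.Agent.TW.FLAT.RamQuot0
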