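/-
Programme T (Taylor–Wiles primes), chapter T/FLAT, brick F8.3 part 2 (helper7):
**points of the special fibre lift**: surjectivity of the reduction of points, hence the exact
sequence `1 → G⁰(L) → G(L) → G(κ_A) → 1`.

Commutative algebra (`A` an integrally closed domain whose fraction field `L` is algebraically
closed, e.g. a valuation subring of an algebraically closed field):
* `mem_range_of_aeval_eq_zero L n p hp hn d hd`: a root `d` (in a domain `D` over `A`) of a monic
  `p ∈ A[X]` lies in the image of `A`;
* `algebraMap_surjective_of_isIntegral L`: a domain integral over `A` is a quotient of `A`;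
* `exists_algHom_ker_le L htf 𝔫`: `S` an integral `A`-algebra with nonzero elements of `A`
  nonzerodivisors on `S` (`htf`), `𝔫` a prime of `S`: there is an `A`-algebra hom `x : S → A` with
  `ker x ≤ 𝔫`;
* `exists_algHom_residue_comp_eq L htf y` (`A` local): every `A`-algebra hom `y : S → κ_A` lifts to
  an `A`-algebra hom `x : S → A` (`residue A (x s) = y s`).

Points (`L` an algebraically closed field, `A : ValuationSubring L` containing the image of `R`,
`H` a commutative Hopf algebra, finite and free over `R`; notation of `ConnEt7`):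
* `exists_algHom_residue_eq A y`: every `y : H →ₐ[R] κ_A` is the reduction of some `x : H →ₐ[R] A`;
* **`redPts_surjective A`**: `redPts A : G(L) → G(κ_A)` is surjective;
* `connPts_normal`, `quotientConnPtsEquiv A : G(L) ⧸ G⁰(L) ≃* G(κ_A)` (`quotientConnPtsEquiv_mk`);
* `card_pts_eq A : #G(L) = #G(κ_A) * #G⁰(L)`.
-/
import Mathlib
import Fermat.Agent.TW.FLAT.ConnEt7

set_option autoImplicit false

open Polynomial IsLocalRing WithConv

namespace Fermat.Agent.TW.FLAT.RedSurj7

open Fermat.Agent.TW.FLAT.Points6 Fermat.Agent.TW.FLAT.ConnEt7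

section CA

variable {A : Type*} (L : Type*) [CommRing A] [IsDomain A] [Field L] [Algebra A L]
  [IsFractionRing A L] [IsAlgClosed L] [IsIntegrallyClosed A]

include L in
/-- Over an integrally closed domain with algebraically closed fraction field, a root (in a domain
`D`) of a monic polynomial comes from `A`. -/
theorem mem_range_of_aeval_eq_zero {D : Type*} [CommRing D] [IsDomain D] [Algebra A D] :
    ∀ (n : ℕ) (p : A[X]), p.Monic → p.natDegree = n → ∀ d : D, aeval d p = 0 →
      d ∈ Set.range (algebraMap A D) := by
  intro n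
  induction n with
  | zero =>
    intro p hp hn d hd
    rw [hp.natDegree_eq_zero.mp hn, map_one] at hd
    exact absurd hd one_ne_zero
  | succ n ih =>
    intro p hp hn d hd
    -- a root of `p` in `L`
    have hdeg : (p.map (algebraMap A L)).degree ≠ 0 := by
      rw [degree_map_eq_of_injective (IsFractionRing.injective A L), degree_eq_natDegree hp.ne_zero,
        hn]
      exact_mod_cast Nat.succ_ne_zero n
    obtain ⟨r, hr⟩ := IsAlgClosed.exists_root (p.map (algebraMap A L)) hdeg
    have hrint : IsIntegral A r := ⟨p, hp, by rwa [← eval_map]⟩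
    obtain ⟨a, rfl⟩ := IsIntegrallyClosed.isIntegral_iff.mp hrint
    have hroot : p.IsRoot a := by
      rw [IsRoot, eval_map, eval₂_hom] at hr
      exact (IsFractionRing.injective A L) (by rw [hr, map_zero])
    have hfac := mul_divByMonic_eq_iff_isRoot.mpr hroot
    set q := p /ₘ (X - C a) with hq
    have hqm : q.Monic := (monic_X_sub_C a).of_mul_monic_left (by rw [hfac]; exact hp)
    have hqn : q.natDegree = n := by
      have h1 := (monic_X_sub_C a).natDegree_mul hqm
      rw [hfac, hn, natDegree_X_sub_C] at h1
      omega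
    rw [← hfac, map_mul, map_sub, aeval_X, aeval_C] at hd
    rcases mul_eq_zero.mp hd with h | h
    · exact ⟨a, (sub_eq_zero.mp h).symm⟩
    · exact ih q hqm hqn d h

include L in
/-- A domain integral over an integrally closed domain `A` with algebraically closed fraction
field is a quotient of `A`. -/
theorem algebraMap_surjective_of_isIntegral {D : Type*} [CommRing D] [IsDomain D] [Algebra A D]
    [Algebra.IsIntegral A D] : Function.Surjective (algebraMap A D) := by
  intro d
  obtain ⟨p, hp, hpd⟩ := Algebra.IsIntegral.isIntegral (R := A) d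
  obtain ⟨a, ha⟩ := mem_range_of_aeval_eq_zero L _ p hp rfl d (by rwa [aeval_def])
  exact ⟨a, ha⟩

include L in
/-- **Sections through a given prime**: if `S` is an integral `A`-algebra on which the nonzero
elements of `A` are nonzerodivisors (e.g. `S` finite free), every prime `𝔫` of `S` contains the
kernel of an `A`-algebra hom `S → A`. -/
theorem exists_algHom_ker_le {S : Type*} [CommRing S] [Algebra A S] [Algebra.IsIntegral A S]
    (htf : ∀ a : A, a ≠ 0 → algebraMap A S a ∈ nonZeroDivisors S) (𝔫 : Ideal S) [𝔫.IsPrime] :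
    ∃ x : S →ₐ[A] A, RingHom.ker x ≤ 𝔫 := by
  obtain ⟨𝔭, h𝔭, hle⟩ := Ideal.exists_minimalPrimes_le (bot_le : (⊥ : Ideal S) ≤ 𝔫)
  have hprime : 𝔭.IsPrime := h𝔭.1.1
  have hinj : Function.Injective (algebraMap A (S ⧸ 𝔭)) := by
    rw [injective_iff_map_eq_zero]
    intro a ha
    by_contra hne
    rw [IsScalarTower.algebraMap_apply A S (S ⧸ 𝔭), Ideal.Quotient.algebraMap_eq,
      Ideal.Quotient.eq_zero_iff_mem] at ha
    exact notMem_nonZeroDivisors_of_mem_mem_minimalPrimes ha h𝔭 (htf a hne)
  have hsurj : Function.Surjective (algebraMap A (S ⧸ 𝔭)) :=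
    algebraMap_surjective_of_isIntegral L
  let e : A ≃ₐ[A] (S ⧸ 𝔭) := AlgEquiv.ofBijective (Algebra.ofId A (S ⧸ 𝔭)) ⟨hinj, hsurj⟩
  refine ⟨(e.symm : (S ⧸ 𝔭) →ₐ[A] A).comp (Ideal.Quotient.mkₐ A 𝔭), fun s hs => hle ?_⟩
  rw [RingHom.mem_ker, AlgHom.comp_apply] at hs
  have h1 : Ideal.Quotient.mkₐ A 𝔭 s = 0 := by
    have := congrArg e hs
    simpa using this
  rwa [Ideal.Quotient.mkₐ_eq_mk, Ideal.Quotient.eq_zero_iff_mem] at h1

end CA

section Local

variable {A : Type*} (L : Type*) [CommRing A] [IsDomain A] [Field L] [Algebra A L]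
  [IsFractionRing A L] [IsAlgClosed L] [IsIntegrallyClosed A] [IsLocalRing A]

include L in
/-- **Points of the special fibre lift.** `A` an integrally closed local domain with algebraically
closed fraction field, `S` an integral `A`-algebra on which nonzero elements of `A` are
nonzerodivisors: every `A`-algebra hom `S → κ_A` lifts to an `A`-algebra hom `S → A`. -/
theorem exists_algHom_residue_comp_eq {S : Type*} [CommRing S] [Algebra A S]
    [Algebra.IsIntegral A S] (htf : ∀ a : A, a ≠ 0 → algebraMap A S a ∈ nonZeroDivisors S)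
    (y : S →ₐ[A] ResidueField A) :
    ∃ x : S →ₐ[A] A, ∀ s, residue A (x s) = y s := by
  have : (RingHom.ker y).IsPrime := RingHom.ker_isPrime y
  obtain ⟨x, hx⟩ := exists_algHom_ker_le L htf (RingHom.ker y)
  refine ⟨x, fun s => ?_⟩
  have h1 : s - algebraMap A S (x s) ∈ RingHom.ker x := by
    rw [RingHom.mem_ker, map_sub, AlgHom.commutes, Algebra.algebraMap_self_apply, sub_self]
  have h2 := hx h1
  rw [RingHom.mem_ker, map_sub, sub_eq_zero, AlgHom.commutes] at h2
  rw [h2]
  rfl

end Local

section Points

open TensorProduct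

variable {R L H : Type*} [CommRing R] [Field L] [IsAlgClosed L] [Algebra R L] [CommRing H]
  [HopfAlgebra R H] [Module.Finite R H] [Module.Free R H] (A : ValuationSubring L)
  [Algebra R A] [IsScalarTower R A L]

omit [Algebra R L] [IsScalarTower R A L] in
/-- **Points of the special fibre lift** (`L` algebraically closed, `H` finite free): every
`κ_A`-valued point of `H` is the reduction of an `A`-valued point. -/
theorem exists_algHom_residue_eq (y : H →ₐ[R] ResidueField A) :
    ∃ x : H →ₐ[R] A, ∀ h, residue A (x h) = y h := by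
  have htf : ∀ a : A, a ≠ 0 → algebraMap A (A ⊗[R] H) a ∈ nonZeroDivisors (A ⊗[R] H) := by
    intro a ha
    rw [mem_nonZeroDivisors_iff_right]
    intro s hs
    rw [mul_comm, ← Algebra.smul_def] at hs
    exact (smul_eq_zero.mp hs).resolve_left ha
  obtain ⟨xA, hxA⟩ := exists_algHom_residue_comp_eq L htf
    (AlgHom.liftEquiv R A H (ResidueField A) y)
  refine ⟨(AlgHom.liftEquiv R A H A).symm xA, fun h => ?_⟩
  rw [AlgHom.liftEquiv_symm_apply, hxA, AlgHom.liftEquiv_tmul, one_smul]

/-- **Surjectivity of the reduction of points** `G(L) → G(κ_A)` for `L` algebraically closed and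
`H` finite free over `R`. -/
theorem redPts_surjective : Function.Surjective (redPts (R := R) (H := H) A) := by
  intro y
  obtain ⟨x, hx⟩ := exists_algHom_residue_eq A y.ofConv
  refine ⟨ptsEquivA A (toConv x), ?_⟩
  ext h
  rw [redPts_apply]
  exact hx h

omit [IsAlgClosed L] [Module.Finite R H] [Module.Free R H] in
theorem connPts_normal [Algebra.IsIntegral R H] : (connPts (R := R) (H := H) A).Normal :=
  MonoidHom.normal_ker _

instance : (connPts (R := R) (H := H) A).Normal := connPts_normal A

/-- The exact sequence `1 → G⁰(L) → G(L) → G(κ_A) → 1`: the quotient by the connected points is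
the group of points of the special fibre. -/
noncomputable def quotientConnPtsEquiv :
    (WithConv (H →ₐ[R] L) ⧸ connPts (R := R) (H := H) A) ≃*
      WithConv (H →ₐ[R] ResidueField A) :=
  QuotientGroup.quotientKerEquivOfSurjective (redPts (R := R) (H := H) A) (redPts_surjective A)

@[simp] theorem quotientConnPtsEquiv_mk (x : WithConv (H →ₐ[R] L)) :
    quotientConnPtsEquiv A (QuotientGroup.mk x) = redPts A x := rfl

/-- `#G(L) = #G⁰(L) · #G(κ_A)`. -/
theorem card_pts_eq :
    Nat.card (WithConv (H →ₐ[R] L)) =
      Nat.card (WithConv (H →ₐ[R] ResidueField A)) * Nat.card (connPts (R := R) (H := H) A) := by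
  rw [Subgroup.card_eq_card_quotient_mul_card_subgroup (connPts (R := R) (H := H) A),
    Nat.card_congr (quotientConnPtsEquiv A).toEquiv]

end Points

end Fermat.Agent.TW.FLAT.RedSurj7
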