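/-
Programme T (S56), chapter FLAT, brick (W0), complement — helper9.

The POINTWISE climb of `WeightZero9` (no Frobenius hypothesis): in the setting of `LLCount9` with
`e(F) = p² - 1`, an inertia element `τ` with `θ₀(τ)` of order `p² - 1` acting on `M` by the scalar
`a = θ₀(τ)^(p+1)`, and `f ∈ kumSub ρ (p + 1)`:

* `lev_top_of_lev` : `liftK f w ∈ levelSub p F (p + 2) → liftK f w ∈ levelSub p F (p² + p)`;
* `lev_top_of_lev_ge` : the same starting from any level `m ≥ p + 2`.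
-/
import Mathlib
import Fermat.Agent.TW.FLAT.WeightZero9

set_option autoImplicit false
set_option linter.unusedSectionVars false

open scoped Fermat.Agent.PT.LOC.Interface12 Fermat.Agent.PT.LOC.StructureTower27
open Fermat.Agent.PT.LOC.Interface12 Fermat.Agent.PT.LOC.Structure14
  Fermat.Agent.PT.LOC.Unram11 Fermat.Agent.TW.LOC.TameInertia4
  Fermat.Agent.TW.FLAT.UnitFil9 Fermat.Agent.TW.FLAT.KummerLevel9
  Fermat.Agent.TW.FLAT.LLCount9 Fermat.Agent.TW.FLAT.WeightZero9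

namespace Fermat.Agent.TW.FLAT.WeightZeroPt9

variable {p : ℕ} [Fact p.Prime] {F : Type} [Field F] [Algebra ℚ_[p] F] [FiniteDimensional ℚ_[p] F]
  {E : Type} [Field E] [Algebra ℚ_[p] E] [FiniteDimensional ℚ_[p] E] [Algebra E F]
  [IsScalarTower ℚ_[p] E F] [IsGalois E F]
  {M : Type} [AddCommGroup M] [Module (ZMod p) M]
  {ρ : Representation (ZMod p) (F ≃ₐ[E] F) M}

/-- **Pointwise weight-zero climb**: level `≥ p + 2` implies level `≥ p² + p`. -/
theorem lev_top_of_lev (πu : Fˣ) (hπ : IsUniformizer p F (πu : F))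
    (he : snorm p F ((p : ℕ) : F) = snorm p F (πu : F) ^ (p ^ 2 - 1))
    (τ : inertia p E F) (hτ : orderOf (theta0 p E F τ) = p ^ 2 - 1)
    {a : ZMod p} (hτa : ∀ w, ρ (τ : F ≃ₐ[E] F) w = a • w)
    (φr : ZMod p →+* resF p F)
    (ha : φr a = ((theta0 p E F τ : (resF p F)ˣ) : resF p F) ^ (p + 1))
    {f : Multiplicative M →* KumQ p F} (hf : f ∈ kumSub ρ (p + 1)) (w : M)
    (hw : liftK f w ∈ levelSub p F (p + 2)) : liftK f w ∈ levelSub p F (p ^ 2 + p) := by
  have hp2 : 2 ≤ p := (Fact.out : p.Prime).two_le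
  have h2p : 2 * p ≤ p ^ 2 := by nlinarith
  exact lev_of_mem_ker πu hπ he hf τ hτ hτa φr ha (by omega) le_rfl w
    ((ltAdd_eq_zero_iff πu hπ he hf w).2 hw)

/-- The same, starting from any level `m ≥ p + 2`. -/
theorem lev_top_of_lev_ge (πu : Fˣ) (hπ : IsUniformizer p F (πu : F))
    (he : snorm p F ((p : ℕ) : F) = snorm p F (πu : F) ^ (p ^ 2 - 1))
    (τ : inertia p E F) (hτ : orderOf (theta0 p E F τ) = p ^ 2 - 1)
    {a : ZMod p} (hτa : ∀ w, ρ (τ : F ≃ₐ[E] F) w = a • w)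
    (φr : ZMod p →+* resF p F)
    (ha : φr a = ((theta0 p E F τ : (resF p F)ˣ) : resF p F) ^ (p + 1))
    {f : Multiplicative M →* KumQ p F} (hf : f ∈ kumSub ρ (p + 1)) (w : M) {m : ℕ}
    (hm : p + 2 ≤ m) (hw : liftK f w ∈ levelSub p F m) :
    liftK f w ∈ levelSub p F (p ^ 2 + p) :=
  lev_top_of_lev πu hπ he τ hτ hτa φr ha hf w (levelSub_anti hm hw)

end Fermat.Agent.TW.FLAT.WeightZeroPt9
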